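/-
Programme W (S56), wall [W8-F4] (helper5, prefix `s56o_`): **the strictly henselian base ring
`O = P ∩ ℚ̄^{I_P}`** (`P` a valuation subring of `ℚ̄` over `p`, `I_P` its inertia group).

* `s56o_Our P : Subring ℚ̄` ;
* `s56o_Our_div_p` : `x ∈ O ∩ 𝔪_P ⇒ x / p ∈ O` (the inertia field is unramified: `e = 1`);
* `s56o_Our_factor` : every non-zero `x ∈ O` is `p^n · u`, `u, u⁻¹ ∈ O`;
* `s56o_Our_dvr` : `O` is a discrete valuation ring.
All from the finite-level results `s44s_irreducible_Z` (Lib/S44/SoftDec) and `s18q_A0_dvr` (Lib/S18/QDvr).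
-/
import Fermat.Agent.Lib.S44.SoftDec
import Fermat.Agent.Lib.PT.BridgeC
import Fermat.Agent.Lib.Mz.ValConj

set_option autoImplicit false
set_option linter.style.haveILetI false

noncomputable section

namespace Fermat.Agent.Lib.S56

open Fermat.Agent.Lib.S44 Fermat.Agent.Lib.S18 Fermat.Agent.Lib.S36 Fermat.Agent.Lib.PT
  Fermat.Agent.Lib.Mz Fermat.Agent.Lib.CFT

local notation "Ω" => AlgebraicClosure ℚ
local notation "Γℚ" => (AlgebraicClosure ℚ ≃ₐ[ℚ] AlgebraicClosure ℚ)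

/-- `O = P ∩ ℚ̄^{I_P}`. -/
def s56o_Our (P : ValuationSubring Ω) : Subring Ω where
  carrier := {x | x ∈ P ∧ ∀ σ ∈ P.inertiaSubgroupIn ℚ, σ x = x}
  mul_mem' := fun {a b} ha hb => ⟨P.mul_mem _ _ ha.1 hb.1, fun σ hσ => by
    rw [map_mul, ha.2 σ hσ, hb.2 σ hσ]⟩
  one_mem' := ⟨P.one_mem, fun σ _ => map_one σ⟩
  add_mem' := fun {a b} ha hb => ⟨P.add_mem _ _ ha.1 hb.1, fun σ hσ => by
    rw [map_add, ha.2 σ hσ, hb.2 σ hσ]⟩
  zero_mem' := ⟨P.zero_mem, fun σ _ => map_zero σ⟩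
  neg_mem' := fun {a} ha => ⟨P.neg_mem _ ha.1, fun σ hσ => by rw [map_neg, ha.2 σ hσ]⟩

theorem s56o_mem_Our {P : ValuationSubring Ω} {x : Ω} :
    x ∈ s56o_Our P ↔ x ∈ P ∧ ∀ σ ∈ P.inertiaSubgroupIn ℚ, σ x = x := Iff.rfl

theorem s56o_p_ne_zero {p : ℕ} (hp : p.Prime) : (p : Ω) ≠ 0 := by exact_mod_cast hp.ne_zero

section rational

variable {p : ℕ} (hp : p.Prime) (P : ValuationSubring Ω) (hP : P.LiesOverPrime p)
include hp hP


theorem s56o_p_inv_not_mem : ((p : Ω))⁻¹ ∉ P := by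
  have hpnu : (p : Ω) ∈ P.nonunits := hP
  rcases (ValuationSubring.mem_nonunits_iff_or (A := P)).mp hpnu with h | h
  · exact absurd h (s56o_p_ne_zero hp)
  · exact h

/-- a rational number in the maximal ideal of `P` is divisible by `p` in `P`. -/
theorem s56o_rat_div_p (q : ℚ) (hq : (algebraMap ℚ Ω q) ∈ P.nonunits) :
    algebraMap ℚ Ω q / (p : Ω) ∈ P := by
  have hq_eq : algebraMap ℚ Ω q = (q.num : Ω) / (q.den : Ω) := by
    conv_lhs => rw [← Rat.num_div_den q]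
    rw [map_div₀, map_intCast, map_natCast]
  have hden0 : (q.den : Ω) ≠ 0 := by exact_mod_cast q.den_ne_zero
  have hnum_eq : (q.num : Ω) = algebraMap ℚ Ω q * (q.den : Ω) := by
    rw [hq_eq, div_mul_cancel₀ _ hden0]
  have hnum_nu : (q.num : Ω) ∈ P.nonunits := by
    rw [hnum_eq, P.mem_nonunits_iff, map_mul]
    have h1 := P.mem_nonunits_iff.mp hq
    have h2 : P.valuation (q.den : Ω) ≤ 1 := (P.valuation_le_one_iff _).mpr (natCast_mem P q.den)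
    exact mul_lt_one_of_nonneg_of_lt_one_left zero_le h1 h2
  have hpnum : (p : ℤ) ∣ q.num := (ptm_intCast_mem_nonunits_iff hp P hP q.num).mp hnum_nu
  have hpden : ¬ (p : ℤ) ∣ (q.den : ℤ) := by
    intro hd
    have h1 : (p : ℤ) ∣ Int.gcd q.num q.den := Int.dvd_coe_gcd hpnum hd
    have h2 : Int.gcd q.num q.den = 1 := by
      show Nat.gcd q.num.natAbs (q.den : ℤ).natAbs = 1
      rw [Int.natAbs_natCast]
      exact q.reduced
    rw [h2] at h1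
    have h3 := Int.le_of_dvd one_pos h1
    have := hp.two_le
    omega
  have hden_unit : ((q.den : ℤ) : Ω) ∉ P.nonunits := fun h =>
    hpden ((ptm_intCast_mem_nonunits_iff hp P hP (q.den : ℤ)).mp h)
  have hden_inv : ((q.den : Ω))⁻¹ ∈ P := by
    by_contra hcon
    apply hden_unit
    rw [ValuationSubring.mem_nonunits_iff_or]
    right
    exact_mod_cast hcon
  obtain ⟨n', hn'⟩ := hpnum
  have hp0 : (p : Ω) ≠ 0 := s56o_p_ne_zero hp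
  have : algebraMap ℚ Ω q / (p : Ω) = (n' : Ω) * ((q.den : Ω))⁻¹ := by
    rw [hq_eq, hn']
    push_cast
    field_simp
  rw [this]
  exact P.mul_mem _ _ (intCast_mem P n') hden_inv

/-- `p` is irreducible in `P ∩ ℚ`. -/
theorem s56o_irreducible_bot (ϖ : ↥(s18q_A0 P (⊥ : IntermediateField ℚ Ω)))
    (hϖ : ((ϖ : ↥(⊥ : IntermediateField ℚ Ω)) : Ω) = (p : Ω)) : Irreducible ϖ := by
  have hp0 : (p : Ω) ≠ 0 := s56o_p_ne_zero hp
  have hpnu : (p : Ω) ∈ P.nonunits := hP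
  have hpinv := s56o_p_inv_not_mem hp P hP
  -- non-units of `A₀(⊥)` are rationals in the maximal ideal of `P`
  have hnu : ∀ a : ↥(s18q_A0 P (⊥ : IntermediateField ℚ Ω)), ¬ IsUnit a →
      ((a : ↥(⊥ : IntermediateField ℚ Ω)) : Ω) / (p : Ω) ∈ P := by
    intro a ha
    have h0 : a ∈ IsLocalRing.maximalIdeal ↥(s18q_A0 P (⊥ : IntermediateField ℚ Ω)) := ha
    rw [← ValuationSubring.coe_mem_nonunits_iff] at h0
    have h1 : ((a : ↥(⊥ : IntermediateField ℚ Ω)) : Ω) ∈ P.nonunits :=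
      (s36v_mem_nonunits_comap (algebraMap ↥(⊥ : IntermediateField ℚ Ω) Ω) P _).mp h0
    obtain ⟨q, hq⟩ := IntermediateField.mem_bot.mp (a : ↥(⊥ : IntermediateField ℚ Ω)).2
    have h2 : algebraMap ℚ Ω q ∈ P.nonunits := by rw [hq]; exact h1
    have h3 := s56o_rat_div_p hp P hP q h2
    rwa [hq] at h3
  rw [irreducible_iff]
  refine ⟨?_, fun a b hab => ?_⟩
  · intro hu
    have h1 : ϖ ∉ IsLocalRing.maximalIdeal ↥(s18q_A0 P (⊥ : IntermediateField ℚ Ω)) :=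
      fun h => h hu
    apply h1
    rw [← ValuationSubring.coe_mem_nonunits_iff]
    refine (s36v_mem_nonunits_comap (algebraMap ↥(⊥ : IntermediateField ℚ Ω) Ω) P _).mpr ?_
    show ((ϖ : ↥(⊥ : IntermediateField ℚ Ω)) : Ω) ∈ P.nonunits
    rw [hϖ]
    exact hpnu
  · by_contra hcon
    rw [not_or] at hcon
    have ha := hnu a hcon.1
    have hb := hnu b hcon.2
    have h1 : (p : Ω) = ((a : ↥(⊥ : IntermediateField ℚ Ω)) : Ω) *
        ((b : ↥(⊥ : IntermediateField ℚ Ω)) : Ω) := by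
      rw [← hϖ, hab]
      rfl
    apply hpinv
    have h2 : ((p : Ω))⁻¹ = (((a : ↥(⊥ : IntermediateField ℚ Ω)) : Ω) / (p : Ω)) *
        (((b : ↥(⊥ : IntermediateField ℚ Ω)) : Ω) / (p : Ω)) := by
      rw [div_mul_div_comm, ← h1]
      field_simp
    rw [h2]
    exact P.mul_mem _ _ ha hb

end rational

section finiteLevel

variable {p : ℕ} (hp : p.Prime) (P : ValuationSubring Ω) (hP : P.LiesOverPrime p)
include hp hP

omit hp hP in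
theorem s56o_splitField_normal (x : Ω) : Normal ℚ ↥(ptg_splitField x) := by
  haveI : Normal ℚ Ω := cfg_isGalois_QBar.to_normal
  have h : @Normal ℚ (ptg_splitField x) _ _ (IntermediateField.algebra' _) := by
    rw [IntermediateField.normal_iff_forall_map_le']
    rintro σ _ ⟨y, hy, rfl⟩
    exact ptg_splitField_isStable x σ y hy
  convert h
  exact Subsingleton.elim _ _

/-- **the finite level**: every `x ∈ O` lies in a finite subfield `Z₀ ⊆ ℚ̄^{I_P}` such that `P ∩ Z₀` is a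
discrete valuation ring with uniformiser `p`. -/
theorem s56o_exists_levelO (x : Ω) (hx : x ∈ s56o_Our P) :
    ∃ (Z₀ : IntermediateField ℚ Ω) (_ : IsDiscreteValuationRing ↥(s18q_A0 P Z₀))
      (ϖ : ↥(s18q_A0 P Z₀)), x ∈ Z₀ ∧ (∀ y ∈ Z₀, ∀ σ ∈ P.inertiaSubgroupIn ℚ, σ y = y) ∧
      ((ϖ : ↥Z₀) : Ω) = (p : Ω) ∧ Irreducible ϖ := by
  haveI : Fact p.Prime := ⟨hp⟩
  set L₀ := ptg_splitField x with hL₀
  haveI : Normal ℚ ↥L₀ := s56o_splitField_normal x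
  set Z₀ := s44s_Z P ⊥ L₀ with hZ₀
  haveI : FiniteDimensional ℚ ↥Z₀ := s44s_Z_finiteDimensional P ⊥ L₀
  have hdvr : IsDiscreteValuationRing ↥(s18q_A0 P Z₀) := s18q_A0_dvr P Z₀ hP
  have hIΓ : ∀ σ ∈ P.inertiaSubgroupIn ℚ, σ ∈ s44s_IΓ P ⊥ := by
    intro σ hσ
    rw [s44s_mem_IΓ]
    refine ⟨hσ, fun a ha => ?_⟩
    obtain ⟨q, rfl⟩ := IntermediateField.mem_bot.mp ha
    exact σ.commutes q
  have hxZ : x ∈ Z₀ := by
    rw [hZ₀, s44s_mem_Z]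
    exact ⟨fun σ hσ => hx.2 σ (s44s_mem_IΓ.mp hσ).1, ptg_mem_splitField x⟩
  have hpbot : (p : Ω) ∈ (⊥ : IntermediateField ℚ Ω) := natCast_mem _ p
  have hpP : (p : Ω) ∈ P := P.nonunits_le hP
  let ϖ : ↥(s18q_A0 P (⊥ : IntermediateField ℚ Ω)) := ⟨⟨(p : Ω), hpbot⟩, hpP⟩
  have hϖ : Irreducible ϖ := s56o_irreducible_bot hp P hP ϖ rfl
  have hpZ : (p : Ω) ∈ Z₀ := natCast_mem _ p
  let ϖ' : ↥(s18q_A0 P Z₀) := ⟨⟨(p : Ω), hpZ⟩, hpP⟩
  have hϖ' : Irreducible ϖ' := s44s_irreducible_Z p hp P hP ⊥ L₀ bot_le ϖ hϖ ϖ' rfl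
  refine ⟨Z₀, hdvr, ϖ', hxZ, fun y hy σ hσ => ?_, rfl, hϖ'⟩
  rw [hZ₀, s44s_mem_Z] at hy
  exact hy.1 σ (hIΓ σ hσ)

/-- **`e = 1`**: an element of `O` in the maximal ideal of `P` is divisible by `p` in `O`. -/
theorem s56o_Our_div_p (x : Ω) (hx : x ∈ s56o_Our P) (hxnu : x ∈ P.nonunits) :
    x / (p : Ω) ∈ s56o_Our P := by
  obtain ⟨Z₀, hdvr, ϖ, hxZ, hfix, hϖp, hϖ⟩ := s56o_exists_levelO hp P hP x hx
  let x' : ↥(s18q_A0 P Z₀) := ⟨⟨x, hxZ⟩, hx.1⟩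
  have h1 : x' ∈ IsLocalRing.maximalIdeal ↥(s18q_A0 P Z₀) := by
    rw [← ValuationSubring.coe_mem_nonunits_iff]
    exact (s36v_mem_nonunits_comap (algebraMap ↥Z₀ Ω) P _).mpr hxnu
  rw [hϖ.maximalIdeal_eq, Ideal.mem_span_singleton'] at h1
  obtain ⟨z, hz⟩ := h1
  have h2 : ((z : ↥Z₀) : Ω) * (p : Ω) = x := by
    have h : (((z * ϖ : ↥(s18q_A0 P Z₀)) : ↥Z₀) : Ω) = x :=
      congrArg (fun t : ↥(s18q_A0 P Z₀) => ((t : ↥Z₀) : Ω)) hz
    rw [← hϖp]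
    exact h
  have hp0 := s56o_p_ne_zero hp
  have h3 : x / (p : Ω) = ((z : ↥Z₀) : Ω) := by
    rw [← h2, mul_div_assoc, div_self hp0, mul_one]
  rw [h3]
  exact ⟨z.2, fun σ hσ => hfix _ (z : ↥Z₀).2 σ hσ⟩

/-- every non-zero element of `O` is `pⁿ` times a unit of `O`. -/
theorem s56o_Our_factor (x : Ω) (hx : x ∈ s56o_Our P) (hx0 : x ≠ 0) :
    ∃ (n : ℕ) (u : Ω), u ∈ s56o_Our P ∧ u⁻¹ ∈ s56o_Our P ∧ x = (p : Ω) ^ n * u := by
  obtain ⟨Z₀, hdvr, ϖ, hxZ, hfix, hϖp, hϖ⟩ := s56o_exists_levelO hp P hP x hx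
  let x' : ↥(s18q_A0 P Z₀) := ⟨⟨x, hxZ⟩, hx.1⟩
  have hx'0 : x' ≠ 0 := by
    intro h
    apply hx0
    have := congrArg (fun t : ↥(s18q_A0 P Z₀) => ((t : ↥Z₀) : Ω)) h
    exact this
  obtain ⟨n, hn⟩ := IsDiscreteValuationRing.associated_pow_irreducible hx'0 hϖ
  obtain ⟨u, hu⟩ := hn.symm
  -- `ϖ ^ n * u = x'`
  have h1 : ((p : Ω)) ^ n * (((u : ↥(s18q_A0 P Z₀)) : ↥Z₀) : Ω) = x := by
    have h : (((ϖ ^ n * (u : ↥(s18q_A0 P Z₀)) : ↥(s18q_A0 P Z₀)) : ↥Z₀) : Ω) = x :=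
      congrArg (fun t : ↥(s18q_A0 P Z₀) => ((t : ↥Z₀) : Ω)) hu
    rw [← hϖp]
    exact h
  have h2 : ((((u : ↥(s18q_A0 P Z₀)) : ↥Z₀) : Ω)) * ((((u⁻¹ : (↥(s18q_A0 P Z₀))ˣ) :
      ↥(s18q_A0 P Z₀)) : ↥Z₀) : Ω) = 1 := by
    have := congrArg (fun t : ↥(s18q_A0 P Z₀) => ((t : ↥Z₀) : Ω)) (Units.mul_inv u)
    exact this
  have h3 : ((((u : ↥(s18q_A0 P Z₀)) : ↥Z₀) : Ω))⁻¹ =
      ((((u⁻¹ : (↥(s18q_A0 P Z₀))ˣ) : ↥(s18q_A0 P Z₀)) : ↥Z₀) : Ω) :=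
    inv_eq_of_mul_eq_one_right h2
  refine ⟨n, (((u : ↥(s18q_A0 P Z₀)) : ↥Z₀) : Ω), ⟨(u : ↥(s18q_A0 P Z₀)).2, fun σ hσ =>
    hfix _ ((u : ↥(s18q_A0 P Z₀)) : ↥Z₀).2 σ hσ⟩, ?_, h1.symm⟩
  rw [h3]
  exact ⟨((u⁻¹ : (↥(s18q_A0 P Z₀))ˣ) : ↥(s18q_A0 P Z₀)).2, fun σ hσ =>
    hfix _ (((u⁻¹ : (↥(s18q_A0 P Z₀))ˣ) : ↥(s18q_A0 P Z₀)) : ↥Z₀).2 σ hσ⟩

omit hp in
theorem s56o_p_mem_Our : (p : Ω) ∈ s56o_Our P :=
  ⟨P.nonunits_le hP, fun σ _ => map_natCast σ p⟩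

/-- `p` as an element of `O`. -/
def s56o_pO : ↥(s56o_Our P) := ⟨(p : Ω), s56o_p_mem_Our P hP⟩

omit hp in
theorem s56o_pO_coe : ((s56o_pO P hP : ↥(s56o_Our P)) : Ω) = (p : Ω) := rfl

/-- units of `O`. -/
def s56o_unitOfInv (u : Ω) (hu : u ∈ s56o_Our P) (hu' : u⁻¹ ∈ s56o_Our P) (hu0 : u ≠ 0) :
    (↥(s56o_Our P))ˣ where
  val := ⟨u, hu⟩
  inv := ⟨u⁻¹, hu'⟩
  val_inv := Subtype.ext (mul_inv_cancel₀ hu0)
  inv_val := Subtype.ext (inv_mul_cancel₀ hu0)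

theorem s56o_Our_associated (x : ↥(s56o_Our P)) (hx0 : x ≠ 0) :
    ∃ n : ℕ, Associated (s56o_pO P hP ^ n) x := by
  have hx0' : (x : Ω) ≠ 0 := fun h => hx0 (Subtype.ext h)
  obtain ⟨n, u, hu, hu', hxu⟩ := s56o_Our_factor hp P hP (x : Ω) x.2 hx0'
  have hu0 : u ≠ 0 := by
    rintro rfl
    rw [mul_zero] at hxu
    exact hx0' hxu
  refine ⟨n, s56o_unitOfInv P u hu hu' hu0, ?_⟩
  apply Subtype.ext
  show ((s56o_pO P hP ^ n : ↥(s56o_Our P)) : Ω) * u = (x : Ω)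
  rw [hxu]
  rfl

theorem s56o_pO_not_isUnit : ¬ IsUnit (s56o_pO P hP) := by
  rintro ⟨u, hu⟩
  apply s56o_p_inv_not_mem hp P hP
  have h1 : ((u : ↥(s56o_Our P)) : Ω) * (((u⁻¹ : (↥(s56o_Our P))ˣ) : ↥(s56o_Our P)) : Ω) = 1 :=
    congrArg (fun t : ↥(s56o_Our P) => (t : Ω)) (Units.mul_inv u)
  rw [hu, s56o_pO_coe] at h1
  rw [inv_eq_of_mul_eq_one_right h1]
  exact ((u⁻¹ : (↥(s56o_Our P))ˣ) : ↥(s56o_Our P)).2.1

theorem s56o_pO_irreducible : Irreducible (s56o_pO P hP) := by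
  have hp0 : s56o_pO P hP ≠ 0 := fun h =>
    s56o_p_ne_zero hp (congrArg (fun t : ↥(s56o_Our P) => (t : Ω)) h)
  have hnu := s56o_pO_not_isUnit hp P hP
  rw [irreducible_iff]
  refine ⟨hnu, fun a b hab => ?_⟩
  have ha0 : a ≠ 0 := by rintro rfl; rw [zero_mul] at hab; exact hp0 hab
  have hb0 : b ≠ 0 := by rintro rfl; rw [mul_zero] at hab; exact hp0 hab
  obtain ⟨i, ua, hua⟩ := s56o_Our_associated hp P hP a ha0
  obtain ⟨j, ub, hub⟩ := s56o_Our_associated hp P hP b hb0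
  -- `p = p^(i+j) * (ua * ub)`
  have h1 : s56o_pO P hP = s56o_pO P hP ^ (i + j) * ((ua * ub : (↥(s56o_Our P))ˣ) : ↥(s56o_Our P)) := by
    calc s56o_pO P hP = a * b := hab
      _ = (s56o_pO P hP ^ i * ua) * (s56o_pO P hP ^ j * ub) := by rw [hua, hub]
      _ = _ := by rw [pow_add, Units.val_mul]; ring
  rcases Nat.lt_or_ge (i + j) 1 with h | h
  · -- `i + j = 0`: `p` is a unit
    have : i + j = 0 := by omega
    rw [this, pow_zero, one_mul] at h1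
    exact absurd ⟨ua * ub, h1.symm⟩ hnu
  rcases Nat.lt_or_ge 1 (i + j) with h' | h'
  · -- `i + j ≥ 2`: `p` divides `1`
    obtain ⟨m, hm⟩ := Nat.exists_eq_add_of_le h'
    have h2 : s56o_pO P hP * 1 = s56o_pO P hP * (s56o_pO P hP ^ (m + 1) *
        ((ua * ub : (↥(s56o_Our P))ˣ) : ↥(s56o_Our P))) := by
      rw [mul_one]
      conv_lhs => rw [h1, hm]
      ring
    have h3 := mul_left_cancel₀ hp0 h2
    have : IsUnit (s56o_pO P hP) := by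
      refine IsUnit.of_mul_eq_one (s56o_pO P hP ^ m * ((ua * ub : (↥(s56o_Our P))ˣ) :
        ↥(s56o_Our P))) ?_
      rw [h3]; ring
    exact absurd this hnu
  · have hij : i + j = 1 := by omega
    rcases Nat.eq_zero_or_pos i with hi | hi
    · left
      rw [hi, pow_zero, one_mul] at hua
      rw [← hua]
      exact ua.isUnit
    · right
      have hj : j = 0 := by omega
      rw [hj, pow_zero, one_mul] at hub
      rw [← hub]
      exact ub.isUnit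

/-- **`O` is a discrete valuation ring** (with uniformiser `p`). -/
theorem s56o_Our_dvr : IsDiscreteValuationRing ↥(s56o_Our P) :=
  IsDiscreteValuationRing.ofHasUnitMulPowIrreducibleFactorization
    ⟨s56o_pO P hP, s56o_pO_irreducible hp P hP, fun {x} hx => s56o_Our_associated hp P hP x hx⟩

end finiteLevel

end Fermat.Agent.Lib.S56
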