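/-
PROGRAMME W (S56), wall [W6] (helper6, prefix `s56g_`): the structure of decomposition groups,
ABSTRACT FORM.  `B` a Dedekind domain with an action of a group `G`, `P` a nonzero prime over the
rational prime `q`.
* `s56g_exists_frob_pow`: ring automorphisms of a finite field are powers of Frobenius.
* `s56g_frobGen_abs`: if `σ` stabilises `P` and `φ` is a Frobenius element at `P` (`B ⧸ P` finite),
  then `(φ ^ j)⁻¹ * σ` acts trivially on `B ⧸ P` for some `j`.
* `s56g_tame_cyclic_abs`: a subgroup `I'` of the inertia group (acting faithfully) whose elements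
  have powers of exponent prime to `q` in a subgroup `K` is cyclic modulo `K`.
-/
import Mathlib
import Fermat.Agent.Lib.S35.TameAbs

set_option autoImplicit false
set_option linter.unusedSectionVars false
set_option linter.style.haveILetI false

namespace Fermat.Agent.Lib.S56

open Fermat.Agent.Lib.S35 Fermat.Agent.Lib.GC

/-- every ring automorphism of a finite field of characteristic `q` is a power of Frobenius -/
theorem s56g_exists_frob_pow {κ : Type*} [Field κ] [Finite κ] {q : ℕ} [Fact q.Prime] [CharP κ q]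
    (e : κ ≃+* κ) : ∃ j : ℕ, ∀ x, e x = x ^ (q ^ j) := by
  classical
  letI : Algebra (ZMod q) κ := ZMod.algebra κ q
  haveI : Fintype κ := Fintype.ofFinite κ
  let E : κ ≃ₐ[ZMod q] κ := AlgEquiv.ofRingEquiv (f := e) (fun x => by
    have h : (e : κ →+* κ).comp (algebraMap (ZMod q) κ) = algebraMap (ZMod q) κ :=
      Subsingleton.elim _ _
    exact congrArg (fun f : ZMod q →+* κ => f x) h)
  obtain ⟨n, hn⟩ := (FiniteField.bijective_frobeniusAlgEquivOfAlgebraic_pow (ZMod q) κ).2 E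
  refine ⟨n.1, fun x => ?_⟩
  have h1 : E x = e x := rfl
  rw [← h1, ← hn]
  have h2 := FiniteField.coe_frobeniusAlgEquivOfAlgebraic_iterate (K := ZMod q) (L := κ) n.1
  have h3 : ((FiniteField.frobeniusAlgEquivOfAlgebraic (ZMod q) κ) ^ n.1) x
      = (⇑(FiniteField.frobeniusAlgEquivOfAlgebraic (ZMod q) κ))^[n.1] x := by
    rw [AlgEquiv.coe_pow]
  simp only at h3 ⊢
  rw [h3, h2, ZMod.card]

section Dedekind

variable {B : Type*} [CommRing B] [IsDedekindDomain B] {G : Type*} [Group G]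
  [MulSemiringAction G B] {P : Ideal B} [hPp : P.IsPrime]

/-- a Frobenius element preserves `P` -/
lemma s56g_frob_smul_mem {q : ℕ} (hq : q.Prime) {φ : G} (hφ : ∀ x : B, φ • x - x ^ q ∈ P)
    {x : B} (hx : x ∈ P) : φ • x ∈ P := by
  have h1 := hφ x
  have h2 : x ^ q ∈ P := Ideal.pow_mem_of_mem P hx q hq.pos
  have := P.add_mem h1 h2
  rwa [sub_add_cancel] at this

/-- powers of a Frobenius element -/
lemma s56g_frob_pow {q : ℕ} (hq : q.Prime) {φ : G} (hφ : ∀ x : B, φ • x - x ^ q ∈ P) (j : ℕ)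
    (x : B) : (φ ^ j) • x - x ^ (q ^ j) ∈ P := by
  induction j generalizing x with
  | zero => simp
  | succ j ih =>
    have h1 : (φ ^ (j + 1)) • x - x ^ (q ^ (j + 1)) =
        φ • ((φ ^ j) • x - x ^ (q ^ j)) + (φ • (x ^ (q ^ j)) - (x ^ (q ^ j)) ^ q) := by
      rw [pow_succ', mul_smul, smul_sub, pow_succ, pow_mul]
      ring
    rw [h1]
    exact P.add_mem (s56g_frob_smul_mem hq hφ (ih x)) (hφ _)

/-- **(FrobGen, abstract)** -/
theorem s56g_frobGen_abs (hP0 : P ≠ ⊥) [Finite (B ⧸ P)] {q : ℕ} (hq : q.Prime)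
    (hqP : (q : B) ∈ P) {φ σ : G} (hφ : ∀ x : B, φ • x - x ^ q ∈ P)
    (hφP' : ∀ x ∈ P, φ⁻¹ • x ∈ P) (hσP : ∀ x ∈ P, σ • x ∈ P) (hσP' : ∀ x ∈ P, σ⁻¹ • x ∈ P) :
    ∃ j : ℕ, s35t_IsIn P ((φ ^ j)⁻¹ * σ) := by
  haveI hPmax : P.IsMaximal := Ideal.IsPrime.isMaximal hPp hP0
  letI : Field (B ⧸ P) := Ideal.Quotient.field P
  haveI : Fact q.Prime := ⟨hq⟩
  haveI : CharP (B ⧸ P) q := by
    rw [CharP.charP_iff_prime_eq_zero hq]
    have : ((q : B) : B ⧸ P) = 0 := Ideal.Quotient.eq_zero_iff_mem.mpr hqP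
    simpa using this
  let f : B ≃+* B := MulSemiringAction.toRingEquiv G B σ
  have hf : P = P.map (f : B →+* B) := by
    apply le_antisymm
    · intro x hx
      have : x = f (σ⁻¹ • x) := by
        show x = σ • σ⁻¹ • x
        rw [smul_inv_smul]
      rw [this]
      exact Ideal.mem_map_of_mem _ (hσP' x hx)
    · rw [Ideal.map_le_iff_le_comap]
      intro x hx
      exact hσP x hx
  let e : (B ⧸ P) ≃+* (B ⧸ P) := Ideal.quotientEquiv P P f hf
  obtain ⟨j, hj⟩ := s56g_exists_frob_pow (q := q) e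
  refine ⟨j, fun x => ?_⟩
  have h1 : σ • x - x ^ (q ^ j) ∈ P := by
    have := hj (Ideal.Quotient.mk P x)
    rw [Ideal.quotientEquiv_mk, ← map_pow, Ideal.Quotient.eq] at this
    exact this
  have h2 : σ • x - (φ ^ j) • x ∈ P := by
    have := P.sub_mem h1 (s56g_frob_pow hq hφ j x)
    rwa [sub_sub_sub_cancel_right] at this
  have hinv : ∀ y ∈ P, (φ ^ j)⁻¹ • y ∈ P := by
    intro y hy
    rw [← inv_pow]
    clear h1 h2 hj
    induction j with
    | zero => simpa using hy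
    | succ j ih =>
      rw [pow_succ', mul_smul]
      exact hφP' _ ih
  have h3 : ((φ ^ j)⁻¹ * σ) • x - x = (φ ^ j)⁻¹ • (σ • x - (φ ^ j) • x) := by
    rw [mul_smul, smul_sub, inv_smul_smul]
  rw [h3]
  exact hinv _ h2

/-- **(Tame, abstract)**: cyclicity of the prime-to-`q` quotients of inertia -/
theorem s56g_tame_cyclic_abs [Finite G] [FaithfulSMul G B] (hP0 : P ≠ ⊥) {q : ℕ} (hq : q.Prime)
    (hqP : (q : B) ∈ P) (I' : Subgroup G) (hI' : ∀ τ ∈ I', s35t_IsIn P τ) (K : Subgroup G)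
    (hK : ∀ σ ∈ I', ∃ m : ℕ, m.Coprime q ∧ σ ^ m ∈ K) :
    ∃ τ ∈ I', ∀ σ ∈ I', ∃ j : ℕ, (τ ^ j)⁻¹ * σ ∈ K := by
  classical
  haveI hPmax : P.IsMaximal := Ideal.IsPrime.isMaximal hPp hP0
  letI : Field (B ⧸ P) := Ideal.Quotient.field P
  -- the tame character
  have hex : ∀ τ : I', ∃ d : B, s35t_IsTheta P (τ : G) d := fun τ =>
    s35t_exists_isTheta hP0 (hI' τ τ.2)
  let d : I' → B := fun τ => (hex τ).choose
  have hd : ∀ τ : I', s35t_IsTheta P (τ : G) (d τ) := fun τ => (hex τ).choose_spec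
  let θ₀ : I' →* (B ⧸ P) :=
    { toFun := fun τ => Ideal.Quotient.mk P (d τ)
      map_one' := by
        have h1 : s35t_IsTheta P ((1 : I') : G) (1 : B) := s35t_isTheta_one P
        have := (hd 1).unique hP0 h1
        rw [← map_one (Ideal.Quotient.mk P), Ideal.Quotient.eq]
        exact this
      map_mul' := fun σ τ => by
        have h1 : s35t_IsTheta P ((σ * τ : I') : G) (d σ * d τ) :=
          (hd σ).mul (hI' σ σ.2) (hd τ)
        have := (hd (σ * τ)).unique hP0 h1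
        rw [← map_mul, Ideal.Quotient.eq]
        exact this }
  let θ : I' →* (B ⧸ P)ˣ := θ₀.toHomUnits
  have hθ : ∀ τ : I', ((θ τ : (B ⧸ P)ˣ) : B ⧸ P) = Ideal.Quotient.mk P (d τ) := fun τ => rfl
  -- the kernel of the tame character lies in `K`
  have hker : ∀ κ : I', θ κ = 1 → (κ : G) ∈ K := by
    intro κ hκ
    have hκ1 : s35t_IsTheta P (κ : G) 1 := by
      refine (hd κ).congr ?_
      have := congrArg (fun u : (B ⧸ P)ˣ => (u : B ⧸ P)) hκ
      simp only [hθ, Units.val_one] at this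
      rw [← map_one (Ideal.Quotient.mk P), Ideal.Quotient.eq] at this
      exact this
    have hκin : s35t_IsIn P (κ : G) := hI' κ κ.2
    -- the order of `κ` is a power of `q`
    have hord : orderOf (κ : G) ≠ 0 := (orderOf_pos (κ : G)).ne'
    obtain ⟨a, n', hn', hN⟩ := Nat.exists_eq_pow_mul_and_not_dvd hord q hq.ne_one
    have hcop : n'.Coprime q := (Nat.Prime.coprime_iff_not_dvd hq).mpr hn' |>.symm
    have h1 : ((κ : G) ^ (q ^ a)) ^ n' = 1 := by
      rw [← pow_mul, ← hN, pow_orderOf_eq_one]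
    have h2 : ∀ x : B, ((κ : G) ^ (q ^ a)) • x = x := by
      have hth : s35t_IsTheta P ((κ : G) ^ (q ^ a)) (1 ^ (q ^ a)) := hκ1.pow hκin _
      rw [one_pow] at hth
      exact s35t_wild_trivial hP0 hqP (hκin.pow _) hth hcop h1
    have h3 : (κ : G) ^ (q ^ a) = 1 := by
      apply FaithfulSMul.eq_of_smul_eq_smul (α := B)
      intro x
      rw [h2 x, one_smul]
    obtain ⟨m, hm, hmK⟩ := hK κ κ.2
    have hcop2 : (q ^ a).Coprime m := (Nat.Coprime.pow_left a hm.symm)
    -- Bezout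
    have hb : ((q ^ a : ℕ) : ℤ) * Nat.gcdA (q ^ a) m + (m : ℤ) * Nat.gcdB (q ^ a) m = 1 := by
      have := Nat.gcd_eq_gcd_ab (q ^ a) m
      rw [hcop2] at this
      exact_mod_cast this.symm
    have h4 : (κ : G) = ((κ : G) ^ m) ^ (Nat.gcdB (q ^ a) m) := by
      calc (κ : G) = (κ : G) ^ (1 : ℤ) := (zpow_one _).symm
        _ = (κ : G) ^ (((q ^ a : ℕ) : ℤ) * Nat.gcdA (q ^ a) m + (m : ℤ) * Nat.gcdB (q ^ a) m) := by
            rw [hb]
        _ = ((κ : G) ^ m) ^ (Nat.gcdB (q ^ a) m) := by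
            rw [zpow_add, zpow_mul, zpow_mul, zpow_natCast, zpow_natCast, h3, one_zpow, one_mul]
    rw [h4]
    exact K.zpow_mem hmK _
  -- cyclicity of the image
  haveI : Finite I' := inferInstance
  haveI : Finite θ.range := Finite.of_surjective θ.rangeRestrict θ.rangeRestrict_surjective
  haveI : IsCyclic θ.range := isCyclic_subgroup_units θ.range
  obtain ⟨g, hg⟩ := IsCyclic.exists_generator (α := θ.range)
  obtain ⟨τ₀, hτ₀⟩ := g.2
  refine ⟨τ₀, τ₀.2, fun σ hσ => ?_⟩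
  have h1 : (⟨θ ⟨σ, hσ⟩, ⟨⟨σ, hσ⟩, rfl⟩⟩ : θ.range) ∈ Subgroup.zpowers g := hg _
  rw [← mem_powers_iff_mem_zpowers] at h1
  obtain ⟨j, hj⟩ := h1
  refine ⟨j, ?_⟩
  have h2 : θ (τ₀ ^ j) = θ ⟨σ, hσ⟩ := by
    have := congrArg (fun u : θ.range => (u : (B ⧸ P)ˣ)) hj
    simp only [SubmonoidClass.coe_pow] at this
    rw [map_pow, hτ₀]
    exact this
  have h3 : θ ((τ₀ ^ j)⁻¹ * ⟨σ, hσ⟩) = 1 := by
    rw [map_mul, map_inv, h2, inv_mul_cancel]
  exact hker _ h3

end Dedekind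

end Fermat.Agent.Lib.S56
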