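/-
PROGRAMME W (S56, Taylor–Wiles primes), wall [W6]: LOCAL CONDITIONS AWAY FROM `p`.
STATEMENT-ONLY INTERFACE (helper6, prefix `s56g_`).  Everything below is a definition; the
`Prop`-valued definitions `s56g_Iface…` are the contracts that the files `Lib/S56/G*.lean`
will prove (as `theorem s56g_iface… : s56g_Iface…`).

Vocabulary: the Prelude's `primeLocalGaloisGroup q`, `primeLocalToGlobal q`, `primeLocalPlace q`,
`continuousH1`, `ValuationSubring.inertiaSubgroupIn`, `ValuationSubring.IsFrobeniusAt`.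

Contents
* §0 definitions: local inertia `s56g_Iq`, unramified classes `s56g_H1ur`, the adjoint
  representations `s56g_adRep`, `s56g_ad0`.
* §1 structure of the decomposition group (all `q`, no hypothesis on `p`):
  `s56g_IfaceFrobGen` (`D_P` is topologically generated by `I_P` and one Frobenius lift);
  `s56g_IfaceTame` (a continuous quotient of `I_P` of order prime to `q` is cyclic, and
  `φ τ φ⁻¹ = τ ^ q` there).
* §2 unramified classes: `s56g_IfaceUnrLe` (`dim H¹_ur(G_q, M) ≤ h⁰(G_q, M)`, any `M`, ramified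
  or not), `s56g_IfaceInvUnr` (`H⁰(G_q, M) = ker (Frob - 1)` for `M` unramified),
  `s56g_IfaceDetect` (an unramified class dies at `q` iff its value at Frobenius lies in
  `(Frob - 1) M`).
* §3 (a) primes `q ∈ Smin \ {p}`: `s56g_IfaceUnipLA` (linear algebra) and `s56g_IfaceUnip`
  (a first-order deformation which is unipotent on inertia at `q`, `ρ̄` ramified at `q`, `q ≠ p`,
  has a cocycle which is a coboundary on inertia): the local condition at `q` is `H¹_ur`.
* §4 (b) Taylor–Wiles primes: `s56g_IfaceTWLA` (linear algebra of `ad⁰` at a semisimple element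
  with distinct eigenvalues), `s56g_IfaceTWH1` (backup, independent of W3:
  `dim H¹_cont(G_q, M) ≤ dim ker (Frob - 1) + dim ker (Frob - q)` for `M` unramified, `q ≠ p`).
-/
import Mathlib
import Fermat.Prelude.Def_GroupCohomology_ContinuousUnramified
import Fermat.Prelude.Def_GaloisRep_LocalConditions

set_option autoImplicit false

noncomputable section

namespace Fermat.Agent.Lib.S56

open groupCohomology ExtCitation CategoryTheory Polynomial

local notation "Qbar" => AlgebraicClosure ℚ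
local notation "GQ" => (AlgebraicClosure ℚ ≃ₐ[ℚ] AlgebraicClosure ℚ)

/-! ### §0 Definitions -/

/-- The inertia subgroup of the local Galois group `G_q = Gal(Q̄_q/ℚ_q)`: the preimage of the
inertia group of the `q`-adic place of `Q̄`. -/
def s56g_Iq (q : Nat.Primes) : Subgroup (primeLocalGaloisGroup q) :=
  ((primeLocalPlace q).inertiaSubgroupIn ℚ).comap (primeLocalToGlobal q)

section H1ur

variable {k : Type} [CommRing k] (q : Nat.Primes) (M : Rep.{0} k GQ)

/-- The localisation map `H¹(G_ℚ, M) → H¹(G_q, M)` (the Prelude's `locRes` for a single place). -/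
abbrev s56g_loc : H1 M ⟶ H1 (Rep.res (primeLocalToGlobal q) M) :=
  groupCohomology.map (primeLocalToGlobal q) (𝟙 (Rep.res (primeLocalToGlobal q) M)) 1

/-- **Unramified classes** `H¹_ur(G_q, M)`: the classes of the level-constant (= continuous)
cocycles of `G_q` which vanish on the inertia subgroup.  (For `M` ramified this is
`H¹(G_q/I_q, M^{I_q})`, the kernel of restriction to inertia.) -/
def s56g_H1ur : Submodule k (H1 (Rep.res (primeLocalToGlobal q) M)) where
  carrier := {x | ∃ c : cocycles₁ (Rep.res (primeLocalToGlobal q) M),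
    IsLevelConstant₁ (primeLocalToGlobal q) c ∧ (∀ τ ∈ s56g_Iq q, c τ = 0) ∧
      (H1π (Rep.res (primeLocalToGlobal q) M)).hom c = x}
  add_mem' := by
    rintro _ _ ⟨c, hc, hc0, rfl⟩ ⟨c', hc', hc0', rfl⟩
    refine ⟨c + c', ?_, fun τ hτ => ?_, map_add _ _ _⟩
    · have := hc.add hc'
      exact this
    · show c τ + c' τ = 0
      rw [hc0 τ hτ, hc0' τ hτ, add_zero]
  zero_mem' := ⟨0, isLevelConstant₁_const _ (0 : M), fun _ _ => rfl, map_zero _⟩
  smul_mem' := by
    rintro a _ ⟨c, hc, hc0, rfl⟩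
    refine ⟨a • c, hc.comp (a • ·), fun τ hτ => ?_, map_smul _ _ _⟩
    show a • c τ = 0
    rw [hc0 τ hτ, smul_zero]

end H1ur

section Ad

variable {k : Type} [Field k]

/-- The adjoint action `X ↦ u X u'` on `End_k V` (used with `u' = u⁻¹`). -/
def s56g_Ad {V : Type} [AddCommGroup V] [Module k V] (u u' : Module.End k V) :
    Module.End k V →ₗ[k] Module.End k V :=
  (LinearMap.mulLeft k u).comp (LinearMap.mulRight k u')

@[simp] lemma s56g_Ad_apply {V : Type} [AddCommGroup V] [Module k V] (u u' X : Module.End k V) :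
    s56g_Ad u u' X = u * X * u' := by
  simp [s56g_Ad, mul_assoc]

/-- The trace-zero endomorphisms `sl(V) ⊆ End_k V`. -/
def s56g_sl (V : Type) [AddCommGroup V] [Module k V] : Submodule k (Module.End k V) :=
  LinearMap.ker (LinearMap.trace k V)

/-- `ad ρ̄`: the conjugation action of `G_ℚ` on `End_k V`. -/
def s56g_adRep (ρbar : ResidualGaloisRep k) : Representation k GQ (Module.End k ρbar.V) where
  toFun g := s56g_Ad (ρbar.ρ g) (ρbar.ρ g⁻¹)
  map_one' := by
    ext X : 1
    simp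
  map_mul' g h := by
    ext X : 1
    simp [mul_assoc]

lemma s56g_adRep_apply (ρbar : ResidualGaloisRep k) (g : GQ) (X : Module.End k ρbar.V) :
    s56g_adRep ρbar g X = ρbar.ρ g * X * ρbar.ρ g⁻¹ := s56g_Ad_apply _ _ _

lemma s56g_adRep_mem_sl (ρbar : ResidualGaloisRep k) (g : GQ) {X : Module.End k ρbar.V}
    (hX : X ∈ s56g_sl (k := k) ρbar.V) : s56g_adRep ρbar g X ∈ s56g_sl (k := k) ρbar.V := by
  have h1 : ρbar.ρ g⁻¹ * ρbar.ρ g = 1 := by rw [← map_mul, inv_mul_cancel, map_one]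
  rw [s56g_sl, LinearMap.mem_ker] at hX ⊢
  rw [s56g_adRep_apply, LinearMap.trace_mul_comm, ← mul_assoc, h1, one_mul, hX]

/-- `ad⁰ ρ̄`: the conjugation action of `G_ℚ` on the trace-zero endomorphisms. -/
def s56g_ad0Rep (ρbar : ResidualGaloisRep k) :
    Representation k GQ ↥(s56g_sl (k := k) ρbar.V) where
  toFun g := (s56g_adRep ρbar g).restrict fun _ hX => s56g_adRep_mem_sl ρbar g hX
  map_one' := by
    ext X : 2
    simp
  map_mul' g h := by
    ext X : 2
    simp

/-- `ad⁰ ρ̄` as an object of `Rep k G_ℚ`. -/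
def s56g_ad0 (ρbar : ResidualGaloisRep k) : Rep k GQ := Rep.of (s56g_ad0Rep ρbar)

end Ad

/-! ### §1 Structure of the decomposition group -/

/-- **(FrobGen)** `D_P` is topologically generated by `I_P` and one Frobenius lift `φ`: modulo any
open subgroup, every element of `D_P` is of the form `φ ^ j * ι` with `ι ∈ I_P`. -/
def s56g_IfaceFrobGen : Prop :=
  ∀ (q : ℕ), q.Prime → ∀ (P : ValuationSubring Qbar), P.LiesOverPrime q →
    ∀ (φ : GQ), P.IsFrobeniusAt φ q →
    ∀ (F : IntermediateField ℚ Qbar), FiniteDimensional ℚ F →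
    ∀ σ ∈ P.decompositionSubgroup ℚ,
      ∃ (j : ℕ) (ι : GQ), ι ∈ P.inertiaSubgroupIn ℚ ∧ (φ ^ j * ι)⁻¹ * σ ∈ F.fixingSubgroup

/-- **(Tame)** Let `K` be a subgroup of `G_ℚ` such that `K ∩ I_P` contains `I_P ∩ U` for some open
subgroup `U`, and has index prime to `q` in `I_P` (every element of `I_P` has a power of exponent
prime to `q` in `K`; no normality is needed).  Then `I_P / (K ∩ I_P)` is cyclic, generated by the
image of some `τ ∈ I_P`, and `φ τ φ⁻¹ ≡ τ ^ q` modulo `K` for every Frobenius lift `φ` at `P`.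
(Typical `K`: an open normal subgroup of `G_ℚ`; or the common kernel of finitely many
continuous homomorphisms `I_P → M`.) -/
def s56g_IfaceTame : Prop :=
  ∀ (q : ℕ), q.Prime → ∀ (P : ValuationSubring Qbar), P.LiesOverPrime q →
    ∀ (K : Subgroup GQ),
    (∃ F : IntermediateField ℚ Qbar, FiniteDimensional ℚ F ∧
      ∀ σ ∈ P.inertiaSubgroupIn ℚ, σ ∈ F.fixingSubgroup → σ ∈ K) →
    (∀ σ ∈ P.inertiaSubgroupIn ℚ, ∃ m : ℕ, m.Coprime q ∧ σ ^ m ∈ K) →
    ∃ τ ∈ P.inertiaSubgroupIn ℚ,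
      (∀ σ ∈ P.inertiaSubgroupIn ℚ, ∃ j : ℕ, (τ ^ j)⁻¹ * σ ∈ K) ∧
      ∀ φ : GQ, P.IsFrobeniusAt φ q → (τ ^ q)⁻¹ * (φ * τ * φ⁻¹) ∈ K

/-! ### §2 Unramified classes -/

/-- the Prelude's smoothness hypothesis on a `G_ℚ`-module (open stabilisers) -/
def s56g_IsSmooth {k : Type} [CommRing k] (M : Rep.{0} k GQ) : Prop :=
  ∀ m : M, ∃ F : IntermediateField ℚ Qbar, FiniteDimensional ℚ F ∧
    ∀ s ∈ F.fixingSubgroup, M.ρ s m = m

/-- `M` is unramified at (the `q`-adic place over) `q` -/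
def s56g_IsUnrAt {k : Type} [CommRing k] (M : Rep.{0} k GQ) (q : Nat.Primes) : Prop :=
  ∀ σ ∈ (primeLocalPlace q).inertiaSubgroupIn ℚ, M.ρ σ = 1

/-- **(UnrLe)** `dim H¹_ur(G_q, M) ≤ dim H⁰(G_q, M)` for every finite-dimensional smooth `M`,
ramified or not, every prime `q`, every coefficient field.  (The map `[c] ↦ c(φ)` embeds
`H¹_ur` into `N/(φ-1)N`, `N = M^{I_q}`.)  Equality holds in positive characteristic but is not
needed for S56. -/
def s56g_IfaceUnrLe : Prop :=
  ∀ (k : Type) [Field k] (q : Nat.Primes) (M : Rep.{0} k GQ) [FiniteDimensional k M],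
    s56g_IsSmooth M →
    Module.finrank k (s56g_H1ur q M) ≤
      Module.finrank k (Rep.res (primeLocalToGlobal q) M).ρ.invariants

/-- **(InvUnr)** for `M` smooth and unramified at `q`, `H⁰(G_q, M)` is the fixed space of any
Frobenius lift. -/
def s56g_IfaceInvUnr : Prop :=
  ∀ (k : Type) [CommRing k] (q : Nat.Primes) (M : Rep.{0} k GQ), s56g_IsSmooth M → s56g_IsUnrAt M q →
    ∀ (φ : GQ), (primeLocalPlace q).IsFrobeniusAt φ q → ∀ m : M,
      (m ∈ (Rep.res (primeLocalToGlobal q) M).ρ.invariants ↔ M.ρ φ m = m)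

/-- **(DetectLoc)** for `M` smooth: a continuous cocycle of `G_q` vanishing on inertia is a
coboundary iff its value at a Frobenius lift `φ` is of the form `φ m - m` with `m` fixed by
inertia. -/
def s56g_IfaceDetectLoc : Prop :=
  ∀ (k : Type) [CommRing k] (q : Nat.Primes) (M : Rep.{0} k GQ), s56g_IsSmooth M →
    ∀ (φ : primeLocalGaloisGroup q), (primeLocalPlace q).IsFrobeniusAt (primeLocalToGlobal q φ) q →
    ∀ (c : cocycles₁ (Rep.res (primeLocalToGlobal q) M)),
      IsLevelConstant₁ (primeLocalToGlobal q) c → (∀ τ ∈ s56g_Iq q, c τ = 0) →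
      ((H1π (Rep.res (primeLocalToGlobal q) M)).hom c = 0 ↔
        ∃ m : M, (∀ τ ∈ s56g_Iq q, M.ρ (primeLocalToGlobal q τ) m = m) ∧
          c φ = M.ρ (primeLocalToGlobal q φ) m - m)

/-- **(Detect)** global form, the one used to choose Taylor–Wiles primes: `M` smooth and
unramified at `q`, `c` a continuous cocycle of `G_ℚ` vanishing on the inertia group at `q` (e.g.
`IsLevelConstantS₁ S c` with `q ∉ S`), `φ` ANY Frobenius lift at the `q`-adic place.  Then the
localisation of `[c]` at `q` is an unramified class, and it vanishes iff `c φ ∈ (φ - 1) M`. -/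
def s56g_IfaceDetect : Prop :=
  ∀ (k : Type) [CommRing k] (q : Nat.Primes) (M : Rep.{0} k GQ), s56g_IsSmooth M → s56g_IsUnrAt M q →
    ∀ (φ : GQ), (primeLocalPlace q).IsFrobeniusAt φ q →
    ∀ (c : cocycles₁ M), IsLevelConstant₁ (MonoidHom.id GQ) c →
      (∀ σ ∈ (primeLocalPlace q).inertiaSubgroupIn ℚ, c σ = 0) →
      (s56g_loc q M).hom ((H1π M).hom c) ∈ s56g_H1ur q M ∧
      ((s56g_loc q M).hom ((H1π M).hom c) = 0 ↔ ∃ m : M, c φ = M.ρ φ m - m)

/-! ### §3 (a) The primes `q ∈ Smin \ {p}` -/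

/-- **(UnipLA)** `V` of dimension 2 over a field of characteristic `≠ 2`, `u ≠ 1` unipotent:
`(Ad u - 1) sl(V) = {X ∈ sl(V) | tr (X u) = 0}`. -/
def s56g_IfaceUnipLA : Prop :=
  ∀ (k : Type) [Field k] (V : Type) [AddCommGroup V] [Module k V],
    Module.finrank k V = 2 → (2 : k) ≠ 0 →
    ∀ (u u' X : Module.End k V), u * u' = 1 → (u - 1) * (u - 1) = 0 → u ≠ 1 →
      LinearMap.trace k V X = 0 → LinearMap.trace k V (X * u) = 0 →
      ∃ m : Module.End k V, LinearMap.trace k V m = 0 ∧ X = u * m * u' - m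

/-- **(Unip)** THE LOCAL CONDITION AT `q ∈ Smin \ {p}` IS `H¹_ur`.
`ρ : G_ℚ → GL(V)` (`dim V = 2`, `char k = p ≠ 2`) and `c : G_ℚ → End V` a continuous cocycle for
the adjoint action, i.e. `σ ↦ (1 + ε c σ) ρ σ` is a continuous lift of `ρ` to `k[ε]`.  If the lift
is unipotent on the inertia group `I_P` (`P ∣ q ≠ p`) in the sense of the Prelude's
`IsUnipotentOnInertiaAt` (trace `2`, determinant `1` over `k[ε]`: this is `charpoly (ρ σ) =
(X-1)²`, `tr (c σ) = 0`, `tr (c σ * ρ σ) = 0`) and `ρ` is ramified at `P`, then `c` is a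
coboundary on `I_P`, with a trace-zero `m`. -/
def s56g_IfaceUnip : Prop :=
  ∀ (k : Type) [Field k] (p : ℕ) [Fact p.Prime] [CharP k p], p ≠ 2 →
    ∀ (q : ℕ), q.Prime → q ≠ p → ∀ (P : ValuationSubring Qbar), P.LiesOverPrime q →
    ∀ (V : Type) [AddCommGroup V] [Module k V] [FiniteDimensional k V], Module.finrank k V = 2 →
    ∀ (ρ : GQ →* Module.End k V) (c : GQ → Module.End k V),
      (∀ σ τ, c (σ * τ) = c σ + ρ σ * c τ * ρ σ⁻¹) →
      (∃ F : IntermediateField ℚ Qbar, FiniteDimensional ℚ F ∧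
        ∀ σ ∈ F.fixingSubgroup, ρ σ = 1 ∧ c σ = 0) →
      (∀ σ ∈ P.inertiaSubgroupIn ℚ, LinearMap.charpoly (ρ σ) = (X - 1) ^ 2 ∧
        LinearMap.trace k V (c σ) = 0 ∧ LinearMap.trace k V (c σ * ρ σ) = 0) →
      (∃ σ ∈ P.inertiaSubgroupIn ℚ, ρ σ ≠ 1) →
      ∃ m : Module.End k V, LinearMap.trace k V m = 0 ∧
        ∀ σ ∈ P.inertiaSubgroupIn ℚ, c σ = ρ σ * m * ρ σ⁻¹ - m

/-- **(UnipH1)** the same in `Rep` language, for the `ad⁰ ρ̄` of this file: a continuous cocycle
`c` of `G_ℚ` in `ad⁰ ρ̄` with `tr (c σ * ρ̄ σ) = 0` on the inertia groups over `q`, where `ρ̄` is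
unipotent on inertia and ramified at `q ≠ p`, localises to an UNRAMIFIED class at `q`. -/
def s56g_IfaceUnipH1 : Prop :=
  ∀ (k : Type) [Field k] (p : ℕ) [Fact p.Prime] [CharP k p], p ≠ 2 →
    ∀ (q : Nat.Primes), (q : ℕ) ≠ p → ∀ (ρbar : ResidualGaloisRep k),
    ¬ ρbar.IsUnramifiedAt q →
    ∀ (c : cocycles₁ (s56g_ad0 ρbar)), IsLevelConstant₁ (MonoidHom.id GQ) c →
      (∀ P : ValuationSubring Qbar, P.LiesOverPrime q → ∀ σ ∈ P.inertiaSubgroupIn ℚ,
        LinearMap.charpoly (ρbar.ρ σ) = (X - 1) ^ 2 ∧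
        LinearMap.trace k ρbar.V ((show ↥(s56g_sl (k := k) ρbar.V) from c σ).1 * ρbar.ρ σ) = 0) →
      (s56g_loc q (s56g_ad0 ρbar)).hom ((H1π (s56g_ad0 ρbar)).hom c) ∈
        s56g_H1ur q (s56g_ad0 ρbar)

/-! ### §4 (b) Taylor–Wiles primes -/

/-- **(TWLA)** `V` of dimension 2, `char k ≠ 2`, `u` with two DISTINCT eigenvalues `α, β ∈ k`,
`h = u - (α+β)/2 ∈ sl(V)`:
(i) the centraliser of `u` in `sl(V)` is the line `k h`, `h ≠ 0`;
(ii) `(Ad u - 1) sl(V) = {X ∈ sl(V) | tr (X u) = 0}` (`= h^⊥` for the trace form);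
(iii) on the dual: a functional `f` on `sl(V)` is of the form `g ∘ Ad u⁻¹ - g` iff `f h = 0`;
(iv) an `Ad u⁻¹`-invariant functional on `sl(V)` which kills `h` is zero (so the invariant
functionals form a line, spanned by `Y ↦ tr (Y h)`).
(Functionals on `sl(V)` are written as restrictions of functionals on `End V`.) -/
def s56g_IfaceTWLA : Prop :=
  ∀ (k : Type) [Field k] (V : Type) [AddCommGroup V] [Module k V] [FiniteDimensional k V],
    Module.finrank k V = 2 → (2 : k) ≠ 0 →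
    ∀ (u u' : Module.End k V) (α β : k), u * u' = 1 → α ≠ β →
      LinearMap.charpoly u = (X - C α) * (X - C β) →
      LinearMap.trace k V (u - ((α + β) / 2) • (1 : Module.End k V)) = 0 ∧
      u - ((α + β) / 2) • (1 : Module.End k V) ≠ 0 ∧
      (∀ Y : Module.End k V, LinearMap.trace k V Y = 0 →
        (u * Y * u' = Y ↔ ∃ a : k, Y = a • (u - ((α + β) / 2) • (1 : Module.End k V)))) ∧
      (∀ Y : Module.End k V, LinearMap.trace k V Y = 0 →
        ((∃ m : Module.End k V, LinearMap.trace k V m = 0 ∧ Y = u * m * u' - m) ↔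
          LinearMap.trace k V (Y * u) = 0)) ∧
      (∀ f : Module.Dual k (Module.End k V),
        ((∃ g : Module.Dual k (Module.End k V), ∀ Y : Module.End k V, LinearMap.trace k V Y = 0 →
            f Y = g (u' * Y * u) - g Y) ↔
          f (u - ((α + β) / 2) • (1 : Module.End k V)) = 0)) ∧
      (∀ f : Module.Dual k (Module.End k V),
        (∀ Y : Module.End k V, LinearMap.trace k V Y = 0 → f (u' * Y * u) = f Y) →
        f (u - ((α + β) / 2) • (1 : Module.End k V)) = 0 →
        ∀ Y : Module.End k V, LinearMap.trace k V Y = 0 → f Y = 0)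

/-- **(TWInv)** at a Taylor–Wiles prime `q` (`ρ̄` unramified at `q`, Frobenius with distinct
eigenvalues in `k`, `char k ≠ 2`): `h⁰(G_q, ad⁰ ρ̄) = 1`, and `h⁰(G_q, (ad⁰ ρ̄)^∨ ⊗ χ) = 1` for every
character `χ` of `G_ℚ` which is smooth, unramified at `q` and trivial at Frobenius (e.g. the
mod-`p` cyclotomic character when `q ≡ 1 mod p`). -/
def s56g_IfaceTWInv : Prop :=
  ∀ (k : Type) [Field k], (2 : k) ≠ 0 → ∀ (q : Nat.Primes) (ρbar : ResidualGaloisRep k),
    (∀ σ ∈ (primeLocalPlace q).inertiaSubgroupIn ℚ, ρbar.ρ σ = 1) →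
    ∀ (φ : GQ), (primeLocalPlace q).IsFrobeniusAt φ q →
    ∀ (α β : k), α ≠ β → LinearMap.charpoly (ρbar.ρ φ) = (X - C α) * (X - C β) →
      Module.finrank k (Rep.res (primeLocalToGlobal q) (s56g_ad0 ρbar)).ρ.invariants = 1 ∧
      ∀ (χ : GQ →* kˣ), (∃ F : IntermediateField ℚ Qbar, FiniteDimensional ℚ F ∧
          ∀ s ∈ F.fixingSubgroup, χ s = 1) →
        (∀ σ ∈ (primeLocalPlace q).inertiaSubgroupIn ℚ, χ σ = 1) → χ φ = 1 →
        Module.finrank k
          (Rep.res (primeLocalToGlobal q) ((s56g_ad0 ρbar).dualTwist χ)).ρ.invariants = 1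

/-- **(TWH1)** BACKUP, independent of the local Euler characteristic of [W3]: for `M` smooth,
finite-dimensional over a field of characteristic `p`, unramified at `q ≠ p`,
`dim H¹_cont(G_q, M) ≤ dim ker (φ - 1) + dim ker (φ - q)`
(`= h⁰(G_q, M) + h⁰(G_q, M^∨(1))`; `= 2` for `ad⁰ ρ̄` at a Taylor–Wiles prime). -/
def s56g_IfaceTWH1 : Prop :=
  ∀ (k : Type) [Field k] (p : ℕ) [Fact p.Prime] [CharP k p] (q : Nat.Primes), (q : ℕ) ≠ p →
    ∀ (M : Rep.{0} k GQ) [FiniteDimensional k M], s56g_IsSmooth M → s56g_IsUnrAt M q →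
    ∀ (φ : GQ), (primeLocalPlace q).IsFrobeniusAt φ q →
      Module.finrank k (continuousH1 (primeLocalToGlobal q) (Rep.res (primeLocalToGlobal q) M)) ≤
        Module.finrank k (LinearMap.ker (M.ρ φ - 1)) +
          Module.finrank k (LinearMap.ker (M.ρ φ - ((q : ℕ) : k) • 1))

end Fermat.Agent.Lib.S56
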