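/-
PROGRAMME W (S56), wall [W6] (helper6, prefix `s56g_`): STRUCTURE OF THE DECOMPOSITION GROUP.
* `s56g_ifaceFrobGen : s56g_IfaceFrobGen` — `D_P` is generated by `I_P` and a Frobenius lift modulo
  every open subgroup.
* `s56g_ifaceTame : s56g_IfaceTame` — continuous quotients of `I_P` of order prime to `q` are
  cyclic, with `φ τ φ⁻¹ = τ ^ q`.
-/
import Mathlib
import Fermat.Agent.Lib.S56.IfaceW6
import Fermat.Agent.Lib.S56.GTameAbs
import Fermat.Agent.Lib.S35.TameFin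
import Fermat.Agent.Lib.PT.GLevelRam
import Fermat.Agent.Lib.CFT.RamBridgeGal

set_option autoImplicit false
set_option linter.unusedSectionVars false
set_option linter.style.haveILetI false

namespace Fermat.Agent.Lib.S56

open NumberField Fermat.Agent.Lib.S35 Fermat.Agent.Lib.PT Fermat.Agent.Lib.CFT Fermat.Agent.Lib.Frey

local notation "Ω" => AlgebraicClosure ℚ
local notation "GQ" => (AlgebraicClosure ℚ ≃ₐ[ℚ] AlgebraicClosure ℚ)

/-- if two coprime powers of `c` lie in a subgroup, so does `c` -/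
lemma s56g_mem_of_pow_mem_of_coprime {G : Type*} [Group G] (K : Subgroup G) (c : G) {m n : ℕ}
    (hmn : m.Coprime n) (hm : c ^ m ∈ K) (hn : c ^ n ∈ K) : c ∈ K := by
  have hb : (m : ℤ) * Nat.gcdA m n + (n : ℤ) * Nat.gcdB m n = 1 := by
    have := Nat.gcd_eq_gcd_ab m n
    rw [hmn] at this
    exact_mod_cast this.symm
  have h4 : c = (c ^ m) ^ (Nat.gcdA m n) * (c ^ n) ^ (Nat.gcdB m n) := by
    calc c = c ^ (1 : ℤ) := (zpow_one _).symm
      _ = c ^ ((m : ℤ) * Nat.gcdA m n + (n : ℤ) * Nat.gcdB m n) := by rw [hb]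
      _ = (c ^ m) ^ (Nat.gcdA m n) * (c ^ n) ^ (Nat.gcdB m n) := by
          rw [zpow_add, zpow_mul, zpow_mul, zpow_natCast, zpow_natCast]
  rw [h4]
  exact K.mul_mem (K.zpow_mem hm _) (K.zpow_mem hn _)

section Level

variable (A : ValuationSubring Ω) (L : IntermediateField ℚ Ω) [NumberField L] [IsGalois ℚ L]

/-- restriction to the finite level `L` -/
noncomputable def s56g_r : GQ →* (L ≃ₐ[ℚ] L) := AlgEquiv.restrictNormalHom L

lemma s56g_r_comm (g : GQ) (x : 𝓞 L) :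
    pta_intHom L Ω (s56g_r L g • x) = g (pta_intHom L Ω x) :=
  AlgEquiv.restrictNormal_commutes g L (x : L)

lemma s56g_r_apply (g : GQ) (x : L) : ((s56g_r L g x : L) : Ω) = g (x : Ω) :=
  AlgEquiv.restrictNormal_commutes g L x

lemma s56g_r_eq_one_iff (g : GQ) : s56g_r L g = 1 ↔ g ∈ L.fixingSubgroup := by
  rw [IntermediateField.mem_fixingSubgroup_iff]
  constructor
  · intro h x hx
    have := s56g_r_apply L g ⟨x, hx⟩
    rw [h] at this
    exact this.symm
  · intro h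
    ext x
    have := s56g_r_apply L g x
    rw [h _ x.2] at this
    exact_mod_cast this

instance s56g_faithful : FaithfulSMul (L ≃ₐ[ℚ] L) (𝓞 L) := by
  refine ⟨fun {g h} hgh => ?_⟩
  ext x
  obtain ⟨y, z, hz, hyz⟩ := IsFractionRing.div_surjective (A := 𝓞 L) x
  have hy : g (algebraMap (𝓞 L) L y) = h (algebraMap (𝓞 L) L y) :=
    congrArg (fun t : 𝓞 L => (t : L)) (hgh y)
  have hz' : g (algebraMap (𝓞 L) L z) = h (algebraMap (𝓞 L) L z) :=
    congrArg (fun t : 𝓞 L => (t : L)) (hgh z)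
  rw [← hyz, map_div₀, map_div₀, hy, hz']

variable {A}

/-- global inertia acts trivially modulo the prime below -/
lemma s56g_isIn_of_inertia {τ : GQ} (hτ : τ ∈ A.inertiaSubgroupIn ℚ) :
    s35t_IsIn (pta_primeBelow (L := L) A) (s56g_r L τ) := by
  obtain ⟨-, hτI⟩ := ford_inertia_spec A τ hτ
  intro x
  rw [pta_mem_primeBelow, map_sub, s56g_r_comm]
  exact hτI _ (pta_intHom_mem A x)

/-- the decomposition group preserves the prime below -/
lemma s56g_smul_mem_of_decomp {σ : GQ} (hσ : σ ∈ A.decompositionSubgroup ℚ) {x : 𝓞 L}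
    (hx : x ∈ pta_primeBelow (L := L) A) : s56g_r L σ • x ∈ pta_primeBelow (L := L) A := by
  rw [pta_mem_primeBelow, s56g_r_comm]
  rw [pta_mem_primeBelow] at hx
  exact cfg_map_mem_nonunits A σ (ford_decomposition_mem A σ⁻¹ (inv_mem hσ)) hx

/-- a Frobenius lift is a Frobenius element at the prime below -/
lemma s56g_frob_of_isFrobeniusAt {q : ℕ} {φ : GQ} (hφ : A.IsFrobeniusAt φ q) (x : 𝓞 L) :
    s56g_r L φ • x - x ^ q ∈ pta_primeBelow (L := L) A := by
  obtain ⟨-, hφF⟩ := s35t_frob_spec A φ q hφ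
  rw [pta_mem_primeBelow, map_sub, map_pow, s56g_r_comm]
  exact hφF _ (pta_intHom_mem A x)

/-- the centre of `A` on `𝓞 Ω` lies over the prime below on `𝓞 L` -/
lemma s56g_center_liesOver : (cfg_center A).LiesOver (pta_primeBelow (L := L) A) := by
  refine ⟨?_⟩
  ext x
  rw [Ideal.under_def, Ideal.mem_comap, cfg_mem_center_iff, pta_mem_primeBelow]
  rfl

/-- **lifting inertia**: every element of the inertia group at the prime below `A` of a finite
Galois level is the restriction of an element of the inertia group of `A`. -/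
theorem s56g_exists_inertia_lift {q : ℕ} (hq : q.Prime) (hA : A.LiesOverPrime q)
    {g : L ≃ₐ[ℚ] L} (hg : s35t_IsIn (pta_primeBelow (L := L) A) g) :
    ∃ ι ∈ A.inertiaSubgroupIn ℚ, s56g_r L ι = g := by
  haveI := Fermat.Agent.Lib.Frobenius.isGalois_QBar
  haveI : (cfg_center A).IsMaximal := cfg_center_isMaximal hq hA
  haveI : (cfg_center A).LiesOver (pta_primeBelow (L := L) A) := s56g_center_liesOver L
  obtain ⟨σ, hσg, -, hσI⟩ :=
    cfg_exists_lifts_inertia (pta_primeBelow (L := L) A) (cfg_center A) g hg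
  refine ⟨σ, ?_, ?_⟩
  · refine cfg_mem_inertiaSubgroupIn_of_integral hq hA σ ?_
    intro b hb
    have h1 := hσI ⟨b, hb⟩
    rw [cfg_mem_center_iff] at h1
    exact h1
  · ext x
    have h1 := s56g_r_apply L σ x
    have h2 : σ (x : Ω) = ((g x : L) : Ω) := hσg x
    rw [h1, h2]

end Level

/-- every finite level is contained in a finite Galois level -/
lemma s56g_exists_level (F : IntermediateField ℚ Ω) (hF : FiniteDimensional ℚ F) :
    ∃ L : IntermediateField ℚ Ω, F ≤ L ∧ FiniteDimensional ℚ L ∧ Normal ℚ L := by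
  have hcl : IsAlgClosure ℚ Ω := ⟨inferInstance, AlgebraicClosure.isAlgebraic ℚ⟩
  have hnQ : Normal ℚ Ω := IsAlgClosure.normal ℚ Ω
  exact ⟨IntermediateField.normalClosure ℚ F Ω, IntermediateField.le_normalClosure F,
    normalClosure.is_finiteDimensional ℚ F Ω, normalClosure.normal ℚ F Ω⟩

/-- **(FrobGen)** -/
theorem s56g_ifaceFrobGen : s56g_IfaceFrobGen := by
  intro q hq P hP φ hφ F hF σ hσ
  obtain ⟨L, hFL, hfd, hnorm⟩ := s56g_exists_level F hF
  haveI : NumberField L :=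
    { to_charZero := inferInstance
      to_finiteDimensional := by convert hfd }
  haveI : IsGalois ℚ L := @IsGalois.mk ℚ _ L _ _ (by infer_instance) hnorm
  have hP0 := pta_primeBelow_ne_bot (L := L) P hq hP
  have hqP := pta_natCast_mem_primeBelow (L := L) P hP
  haveI : Finite (𝓞 L ⧸ pta_primeBelow (L := L) P) :=
    (pta_primeBelow (L := L) P).finiteQuotientOfFreeOfNeBot hP0
  have hφD := hφ.mem_decompositionSubgroup
  obtain ⟨j, hj⟩ := s56g_frobGen_abs hP0 hq hqP (φ := s56g_r L φ) (σ := s56g_r L σ)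
    (s56g_frob_of_isFrobeniusAt L hφ)
    (fun x hx => by rw [← map_inv]; exact s56g_smul_mem_of_decomp L (inv_mem hφD) hx)
    (fun x hx => s56g_smul_mem_of_decomp L hσ hx)
    (fun x hx => by rw [← map_inv]; exact s56g_smul_mem_of_decomp L (inv_mem hσ) hx)
  obtain ⟨ι, hι, hιg⟩ := s56g_exists_inertia_lift L hq hP hj
  refine ⟨j, ι, hι, ?_⟩
  apply IntermediateField.fixingSubgroup_antitone hFL
  rw [← s56g_r_eq_one_iff, map_mul, map_inv, map_mul, map_pow, hιg]
  group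

/-- **(Tame)** -/
theorem s56g_ifaceTame : s56g_IfaceTame := by
  rintro q hq P hP K ⟨F, hF, hFK⟩ hcop
  obtain ⟨L, hFL, hfd, hnorm⟩ := s56g_exists_level F hF
  haveI : NumberField L :=
    { to_charZero := inferInstance
      to_finiteDimensional := by convert hfd }
  haveI : IsGalois ℚ L := @IsGalois.mk ℚ _ L _ _ (by infer_instance) hnorm
  have hP0 := pta_primeBelow_ne_bot (L := L) P hq hP
  have hqP := pta_natCast_mem_primeBelow (L := L) P hP
  have hstable : ∀ g : GQ, ∀ x ∈ L, g x ∈ L := by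
    intro g x hx
    have hcl : IsAlgClosure ℚ Ω := ⟨inferInstance, AlgebraicClosure.isAlgebraic ℚ⟩
    haveI hnQ : Normal ℚ Ω := IsAlgClosure.normal ℚ Ω
    have h1 := IntermediateField.normal_iff_forall_map_le'.mp hnorm g
    exact h1 ((IntermediateField.mem_map _).mpr ⟨x, hx, rfl⟩)
  set I := P.inertiaSubgroupIn ℚ with hI
  have hker : ∀ g ∈ I, s56g_r L g = 1 → g ∈ K := fun g hg h1 =>
    hFK g hg (IntermediateField.fixingSubgroup_antitone hFL ((s56g_r_eq_one_iff L g).mp h1))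
  obtain ⟨τ', hτ', hcyc⟩ := s56g_tame_cyclic_abs hP0 hq hqP (I.map (s56g_r L))
    (by rintro _ ⟨τ, hτ, rfl⟩; exact s56g_isIn_of_inertia L hτ) ((K ⊓ I).map (s56g_r L))
    (by
      rintro _ ⟨σ, hσ, rfl⟩
      obtain ⟨m, hm, hmK⟩ := hcop σ hσ
      exact ⟨m, hm, ⟨σ ^ m, ⟨hmK, I.pow_mem hσ m⟩, map_pow _ _ _⟩⟩)
  obtain ⟨τ, hτ, rfl⟩ := hτ'
  refine ⟨τ, hτ, ?_, ?_⟩
  · intro σ hσ
    obtain ⟨j, hj⟩ := hcyc _ ⟨σ, hσ, rfl⟩
    refine ⟨j, ?_⟩
    obtain ⟨κ, ⟨hκK, hκI⟩, hκ⟩ := hj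
    have h1 : s56g_r L (κ⁻¹ * ((τ ^ j)⁻¹ * σ)) = 1 := by
      rw [map_mul, map_inv, hκ, map_mul, map_inv, map_pow]
      group
    have h2 : κ⁻¹ * ((τ ^ j)⁻¹ * σ) ∈ K :=
      hker _ (I.mul_mem (I.inv_mem hκI) (I.mul_mem (I.inv_mem (I.pow_mem hτ j)) hσ)) h1
    have := K.mul_mem hκK h2
    rwa [mul_inv_cancel_left] at this
  · intro φ hφ
    have hcI : (τ ^ q)⁻¹ * (φ * τ * φ⁻¹) ∈ I :=
      I.mul_mem (I.inv_mem (I.pow_mem hτ q))
        (s35t_conj_mem_inertia P φ τ hφ.mem_decompositionSubgroup hτ)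
    obtain ⟨a, ha⟩ := s35t_tame_fin P hq hP φ τ hφ hτ L hfd hstable
    have hc' : s56g_r L ((φ * τ * φ⁻¹ * (τ ^ q)⁻¹) ^ (q ^ a)) = 1 := by
      rw [s56g_r_eq_one_iff, IntermediateField.mem_fixingSubgroup_iff]
      exact fun x hx => ha x hx
    have hconj : (τ ^ q)⁻¹ * (φ * τ * φ⁻¹) =
        (τ ^ q)⁻¹ * (φ * τ * φ⁻¹ * (τ ^ q)⁻¹) * ((τ ^ q)⁻¹)⁻¹ := by group
    have hcL : s56g_r L (((τ ^ q)⁻¹ * (φ * τ * φ⁻¹)) ^ (q ^ a)) = 1 := by
      rw [hconj, conj_pow, map_mul, map_mul, hc', mul_one, ← map_mul, mul_inv_cancel, map_one]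
    obtain ⟨m, hm, hmK⟩ := hcop _ hcI
    exact s56g_mem_of_pow_mem_of_coprime K _ (Nat.Coprime.pow_right a hm) hmK
      (hker _ (I.pow_mem hcI _) hcL)

end Fermat.Agent.Lib.S56
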