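/-
PROGRAMME W (S56), wall [W8-F1] (helper6, prefix `s56r_`): ramification, abstract core.

The sharp converse of Fontaine's Proposition 1.5 ("`(P_m)` implies the ramification bound") in a
purely valuation-theoretic setting: `Ω` a field with a `ℚ`-valued additive valuation `v`, `g` a
ring automorphism of `Ω` preserving `v`.

* `s56r_fixRing v g` : the ring `O_g = {a | 0 ≤ v a, g a = a}` of integers of the fixed field
  of `g`; `s56r_idealGe v g m` : its ideal `𝔞^m = {a | m ≤ v a}`.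
* `s56r_twist` : if `g^n x = x`, `g^n θ = θ`, `0 ≤ v θ`, `∑_{k<n} g^k θ = 1`, then
  `β = ∑_{k<n} g^k θ * g^k x` is fixed by `g` and `v (β - x) ≥ min_{0<k<n} v (g^k x - x)`.
* `s56r_le_map_prod_sub` : `v (∏_{y ∈ R} (β - y)) ≥ ∑_{y ∈ R} min t (v (x - y))` if `t ≤ v (β - x)`.
* `s56r_exists_hom` : the ring hom `A₀[π] → O_g ⧸ 𝔞^m`, `π ↦ β`, as soon as the minimal polynomial
  of `π` over `A₀` takes a value in `𝔞^m` at `β`.
-/
import Mathlib

set_option autoImplicit false

noncomputable section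

namespace Fermat.Agent.Lib.S56

open Polynomial

variable {Ω : Type*} [Field Ω] (v : AddValuation Ω (WithTop ℚ))

/-- `O_g`: the elements of nonnegative valuation fixed by `g`. -/
def s56r_fixRing (g : Ω ≃+* Ω) : Subring Ω where
  carrier := {a | 0 ≤ v a ∧ g a = a}
  mul_mem' := by
    rintro a b ⟨ha, ha'⟩ ⟨hb, hb'⟩
    refine ⟨?_, by rw [map_mul, ha', hb']⟩
    rw [AddValuation.map_mul]
    exact add_nonneg ha hb
  one_mem' := ⟨by rw [AddValuation.map_one], map_one g⟩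
  add_mem' := by
    rintro a b ⟨ha, ha'⟩ ⟨hb, hb'⟩
    exact ⟨le_trans (le_min ha hb) (AddValuation.map_add v a b), by rw [map_add, ha', hb']⟩
  zero_mem' := ⟨by rw [AddValuation.map_zero]; exact le_top, map_zero g⟩
  neg_mem' := by
    rintro a ⟨ha, ha'⟩
    exact ⟨by rw [AddValuation.map_neg]; exact ha, by rw [map_neg, ha']⟩

lemma s56r_mem_fixRing {g : Ω ≃+* Ω} {a : Ω} :
    a ∈ s56r_fixRing v g ↔ 0 ≤ v a ∧ g a = a := Iff.rfl

/-- `𝔞^m ⊆ O_g`: the elements of valuation at least `m`. -/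
def s56r_idealGe (g : Ω ≃+* Ω) (m : ℚ) : Ideal (s56r_fixRing v g) where
  carrier := {a | (m : WithTop ℚ) ≤ v (a : Ω)}
  add_mem' := by
    intro a b ha hb
    exact le_trans (le_min ha hb) (AddValuation.map_add v (a : Ω) (b : Ω))
  zero_mem' := by
    show (m : WithTop ℚ) ≤ v ((0 : s56r_fixRing v g) : Ω)
    rw [Subring.coe_zero, AddValuation.map_zero]
    exact le_top
  smul_mem' := by
    intro c a ha
    show (m : WithTop ℚ) ≤ v ((c * a : s56r_fixRing v g) : Ω)
    rw [Subring.coe_mul, AddValuation.map_mul]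
    calc (m : WithTop ℚ) = 0 + m := (zero_add _).symm
      _ ≤ v (c : Ω) + v (a : Ω) := add_le_add c.2.1 ha

lemma s56r_mem_idealGe {g : Ω ≃+* Ω} {m : ℚ} {a : s56r_fixRing v g} :
    a ∈ s56r_idealGe v g m ↔ (m : WithTop ℚ) ≤ v (a : Ω) := Iff.rfl

variable {v}

/-- iterates of a valuation-preserving automorphism preserve the valuation -/
lemma s56r_iterate_val {g : Ω ≃+* Ω} (hg : ∀ x, v (g x) = v x) (k : ℕ) (x : Ω) :
    v (g^[k] x) = v x := by
  induction k with
  | zero => rfl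
  | succ k ih => rw [Function.iterate_succ_apply', hg, ih]

lemma s56r_iterate_mul (g : Ω ≃+* Ω) (k : ℕ) (x y : Ω) : g^[k] (x * y) = g^[k] x * g^[k] y := by
  induction k with
  | zero => rfl
  | succ k ih => rw [Function.iterate_succ_apply', Function.iterate_succ_apply',
      Function.iterate_succ_apply', ih, map_mul]

/-- **The twisting lemma.** -/
theorem s56r_twist {g : Ω ≃+* Ω} (hg : ∀ x, v (g x) = v x) {n : ℕ} {x θ : Ω}
    (hx : g^[n] x = x) (hθ : g^[n] θ = θ) (hθ0 : 0 ≤ v θ)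
    (hsum : ∑ k ∈ Finset.range n, g^[k] θ = 1) :
    g (∑ k ∈ Finset.range n, g^[k] θ * g^[k] x) = ∑ k ∈ Finset.range n, g^[k] θ * g^[k] x ∧
    ∀ t : WithTop ℚ, (∀ k, k < n → k ≠ 0 → t ≤ v (g^[k] x - x)) →
      t ≤ v (∑ k ∈ Finset.range n, g^[k] θ * g^[k] x - x) := by
  constructor
  · rw [map_sum]
    have h1 : ∀ k, g (g^[k] θ * g^[k] x) = g^[k+1] θ * g^[k+1] x := by
      intro k
      rw [map_mul, Function.iterate_succ_apply', Function.iterate_succ_apply']
    simp_rw [h1]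
    rcases Nat.eq_zero_or_pos n with h0 | hpos
    · subst h0; simp
    obtain ⟨n', rfl⟩ : ∃ n', n = n' + 1 := ⟨n - 1, by omega⟩
    rw [Finset.sum_range_succ (fun k => g^[k+1] θ * g^[k+1] x) n',
      Finset.sum_range_succ' (fun k => g^[k] θ * g^[k] x) n', hθ, hx]
    simp
  · intro t ht
    have h2 : ∑ k ∈ Finset.range n, g^[k] θ * g^[k] x - x
        = ∑ k ∈ Finset.range n, g^[k] θ * (g^[k] x - x) := by
      simp_rw [mul_sub]
      rw [Finset.sum_sub_distrib, ← Finset.sum_mul, hsum, one_mul]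
    rw [h2]
    refine AddValuation.map_le_sum v ?_
    intro k hk
    rw [Finset.mem_range] at hk
    rw [AddValuation.map_mul, s56r_iterate_val hg]
    by_cases hk0 : k = 0
    · subst hk0
      simp
    · calc t = 0 + t := (zero_add _).symm
        _ ≤ v θ + v (g^[k] x - x) := add_le_add hθ0 (ht k hk hk0)

/-- valuation of a product -/
lemma s56r_map_prod {ι : Type*} (s : Finset ι) (f : ι → Ω) :
    v (∏ i ∈ s, f i) = ∑ i ∈ s, v (f i) := by
  classical
  induction s using Finset.induction_on with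
  | empty => simp
  | insert a s ha ih => rw [Finset.prod_insert ha, Finset.sum_insert ha, AddValuation.map_mul, ih]

/-- **Evaluation of the minimal polynomial at a nearby point.** -/
theorem s56r_le_map_prod_sub (R : Finset Ω) (x β : Ω) (t : WithTop ℚ) (ht : t ≤ v (β - x)) :
    ∑ y ∈ R, min t (v (x - y)) ≤ v (∏ y ∈ R, (β - y)) := by
  rw [s56r_map_prod]
  refine Finset.sum_le_sum fun y _ => ?_
  have h : β - y = (β - x) + (x - y) := by ring
  rw [h]
  exact le_trans (min_le_min ht le_rfl) (AddValuation.map_add v _ _)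

/-- **The ring homomorphism `A₀[π] → O_g ⧸ 𝔞^m`, `π ↦ β`.** -/
theorem s56r_exists_hom {g : Ω ≃+* Ω} {m : ℚ} (A₀ B : Subring Ω) (hAB : A₀ ≤ B)
    (hA₀ : ∀ a ∈ A₀, 0 ≤ v a ∧ g a = a) (π : Ω) (hπ : π ∈ B)
    (hgen : ∀ b ∈ B, ∃ f : Polynomial A₀, (f.map A₀.subtype).eval π = b)
    (Q₀ : Polynomial A₀)
    (hker : ∀ f : Polynomial A₀, (f.map A₀.subtype).eval π = 0 → Q₀ ∣ f)
    (β : Ω) (hβ0 : 0 ≤ v β) (hβg : g β = β)
    (hQβ : (m : WithTop ℚ) ≤ v ((Q₀.map A₀.subtype).eval β)) :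
    Nonempty (↥B →+* (↥(s56r_fixRing v g) ⧸ s56r_idealGe v g m)) := by
  have hle : A₀ ≤ s56r_fixRing v g := fun a ha => hA₀ a ha
  let ι : ↥A₀ →+* (↥(s56r_fixRing v g) ⧸ s56r_idealGe v g m) :=
    (Ideal.Quotient.mk _).comp (Subring.inclusion hle)
  let β' : ↥(s56r_fixRing v g) := ⟨β, hβ0, hβg⟩
  let ψ : Polynomial A₀ →+* (↥(s56r_fixRing v g) ⧸ s56r_idealGe v g m) :=
    Polynomial.eval₂RingHom ι (Ideal.Quotient.mk _ β')
  let q : Polynomial A₀ →+* ↥B := Polynomial.eval₂RingHom (Subring.inclusion hAB) ⟨π, hπ⟩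
  have hq : ∀ f : Polynomial A₀, ((q f : ↥B) : Ω) = (f.map A₀.subtype).eval π := by
    intro f
    have h1 : ((q f : ↥B) : Ω) = B.subtype (Polynomial.eval₂ (Subring.inclusion hAB) ⟨π, hπ⟩ f) :=
      rfl
    rw [h1, Polynomial.hom_eval₂, Polynomial.eval_map]
    rfl
  have hqs : Function.Surjective q := by
    intro b
    obtain ⟨f, hf⟩ := hgen b b.2
    exact ⟨f, Subtype.ext (by rw [hq, hf])⟩
  have hψQ : ψ Q₀ = 0 := by
    have h1 : ψ Q₀ = Ideal.Quotient.mk _
        (Polynomial.eval₂ (Subring.inclusion hle) β' Q₀) := by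
      show Polynomial.eval₂ ι (Ideal.Quotient.mk _ β') Q₀ = _
      rw [Polynomial.hom_eval₂]
    rw [h1, Ideal.Quotient.eq_zero_iff_mem, s56r_mem_idealGe]
    have h2 : ((Polynomial.eval₂ (Subring.inclusion hle) β' Q₀ : ↥(s56r_fixRing v g)) : Ω)
        = (Q₀.map A₀.subtype).eval β := by
      have h3 : ((Polynomial.eval₂ (Subring.inclusion hle) β' Q₀ : ↥(s56r_fixRing v g)) : Ω)
          = (s56r_fixRing v g).subtype (Polynomial.eval₂ (Subring.inclusion hle) β' Q₀) := rfl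
      rw [h3, Polynomial.hom_eval₂, Polynomial.eval_map]
      rfl
    rw [h2]
    exact hQβ
  have hkerle : RingHom.ker q ≤ RingHom.ker ψ := by
    intro f hf
    rw [RingHom.mem_ker] at hf ⊢
    have h1 : (f.map A₀.subtype).eval π = 0 := by
      rw [← hq, hf]; rfl
    obtain ⟨h, rfl⟩ := hker f h1
    rw [map_mul, hψQ, zero_mul]
  exact ⟨RingHom.liftOfSurjective q hqs ⟨ψ, hkerle⟩⟩

end Fermat.Agent.Lib.S56
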