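/-
PROGRAMME W (S56), wall [W8-F1] (helper6, prefix `s56r_`): ramification — INTERFACE.

`Ω = ℚ̄`, `P` a valuation subring of `ℚ̄` over `p`, `v = ford_vQ P` the `ℚ`-valued valuation with
`v p = 1`, `D = P.decompositionSubgroup ℚ`.

* `s56r_locRing P L = P ∩ L` (a subring of `ℚ̄`): the local ring `A_L` of a subfield `L`.
* `s56r_Pm p hp P hP L m` : **Fontaine's property `(P_m)`** for `L`, tested on the fixed fields of the
  elements `g ∈ D`: if there is a ring homomorphism `A_L → O_g ⧸ 𝔞^m_g` then `g` fixes `L` pointwise.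
  (`O_g = s56r_fixRing v g`, `𝔞^m_g = s56r_idealGe v g m`, see `RTwist.lean`.)
  [W8-F2] proves it for `L = ℚ(points of a finite flat group scheme killed by p)`, `m > p/(p-1)`.
* `s56r_IfaceKummer` : the export of [W8-F1] consumed by [W8-F3].
* `s56r_IfaceNormalForm`, `s56r_IfaceHerbrandLite`, `s56r_IfaceTheta` : self-contained leaves
  (Mathlib only) used in the proof of `s56r_IfaceKummer`.
-/
import Mathlib
import Fermat.Agent.Lib.Frey.Ord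
import Fermat.Agent.Lib.S56.RTwist

set_option autoImplicit false

noncomputable section

namespace Fermat.Agent.Lib.S56

open Polynomial Fermat.Agent.Lib.Frey

local notation "Q̄" => AlgebraicClosure ℚ

/-! ### `(P_m)` -/

/-- `A_L = P ∩ L`. -/
def s56r_locRing (P : ValuationSubring Q̄) (L : IntermediateField ℚ Q̄) : Subring Q̄ :=
  P.toSubring ⊓ L.toSubring

lemma s56r_mem_locRing {P : ValuationSubring Q̄} {L : IntermediateField ℚ Q̄} {a : Q̄} :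
    a ∈ s56r_locRing P L ↔ a ∈ P ∧ a ∈ L := Iff.rfl

/-- **Fontaine's property `(P_m)`** for the subfield `L` of `ℚ̄` at the place `P` over `p`. -/
def s56r_Pm (p : ℕ) (hp : p.Prime) (P : ValuationSubring Q̄) (hP : (p : Q̄) ∈ P.nonunits)
    (L : IntermediateField ℚ Q̄) (m : ℚ) : Prop :=
  ∀ g : Q̄ ≃ₐ[ℚ] Q̄, g ∈ P.decompositionSubgroup ℚ →
    Nonempty (↥(s56r_locRing P L) →+*
      (↥(s56r_fixRing (ford_vQ P hp hP) g.toRingEquiv) ⧸
        s56r_idealGe (ford_vQ P hp hP) g.toRingEquiv m)) →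
    ∀ x ∈ L, g x = x

/-- `(P_m)` passes to composita (trivially: restrict the test homomorphism). -/
theorem s56r_Pm_sup {p : ℕ} {hp : p.Prime} {P : ValuationSubring Q̄} {hP : (p : Q̄) ∈ P.nonunits}
    {L L' : IntermediateField ℚ Q̄} {m : ℚ} (h : s56r_Pm p hp P hP L m)
    (h' : s56r_Pm p hp P hP L' m) : s56r_Pm p hp P hP (L ⊔ L') m := by
  intro g hg ⟨η⟩
  have hL : ∀ x ∈ L, g x = x := by
    refine h g hg ⟨η.comp (Subring.inclusion ?_)⟩
    intro a ha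
    exact ⟨ha.1, (le_sup_left : L ≤ L ⊔ L') ha.2⟩
  have hL' : ∀ x ∈ L', g x = x := by
    refine h' g hg ⟨η.comp (Subring.inclusion ?_)⟩
    intro a ha
    exact ⟨ha.1, (le_sup_right : L' ≤ L ⊔ L') ha.2⟩
  have hg1 : g ∈ L.fixingSubgroup := (IntermediateField.mem_fixingSubgroup_iff L g).mpr hL
  have hg2 : g ∈ L'.fixingSubgroup := (IntermediateField.mem_fixingSubgroup_iff L' g).mpr hL'
  have hg3 : g ∈ (L ⊔ L').fixingSubgroup := by
    rw [IntermediateField.fixingSubgroup_sup]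
    exact ⟨hg1, hg2⟩
  exact (IntermediateField.mem_fixingSubgroup_iff _ g).mp hg3

/-- **Adapter for [W8-F2]**: `(P_m)` in "abstract" form — test elements all ring automorphisms `g` of
`ℚ̄` preserving `v`, source ring any subring `B` with carrier `{a ∈ L | 0 ≤ v a}` — implies
`s56r_Pm`. -/
theorem s56r_Pm_of_abstract {p : ℕ} {hp : p.Prime} {P : ValuationSubring Q̄}
    {hP : (p : Q̄) ∈ P.nonunits} {L : IntermediateField ℚ Q̄} {m : ℚ} (B : Subring Q̄)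
    (hB : ∀ a, a ∈ B ↔ a ∈ L ∧ 0 ≤ ford_vQ P hp hP a)
    (h : ∀ g : Q̄ ≃+* Q̄, (∀ x, ford_vQ P hp hP (g x) = ford_vQ P hp hP x) →
      Nonempty (↥B →+* (↥(s56r_fixRing (ford_vQ P hp hP) g) ⧸ s56r_idealGe (ford_vQ P hp hP) g m)) →
      ∀ a ∈ L, g a = a) : s56r_Pm p hp P hP L m := by
  intro g hg ⟨η⟩
  have hle : B ≤ s56r_locRing P L := by
    intro a ha
    obtain ⟨h1, h2⟩ := (hB a).mp ha
    exact ⟨(ford_vQ_nonneg_iff hp hP a).mp h2, h1⟩
  exact h g.toRingEquiv (fun x => ford_vQ_decomposition hp hP g hg x)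
    ⟨η.comp (Subring.inclusion hle)⟩

/-! ### the export -/

/-- **[W8-F1] export.**  `L`, `K₁` finite Galois over `ℚ`, `L` with `(P_m)` for every rational
`m > p/(p-1)`, `ζ_p ∈ K₁`.  Let `U₁ = D ∩ Gal(ℚ̄/K₁)` and `K₁^h = Fix(U₁)`.  If `α ≠ 0` is fixed by
`D ∩ Gal(ℚ̄/L K₁)` and `α^p ∈ K₁^h`, then `α^p ∈ (1 + p O_{K₁^h}) · (K₁^h)^{×p}`. -/
def s56r_IfaceKummer : Prop :=
  ∀ (p : ℕ) (hp : p.Prime) (P : ValuationSubring Q̄) (hP : (p : Q̄) ∈ P.nonunits)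
    (L K₁ : IntermediateField ℚ Q̄),
    FiniteDimensional ℚ ↥L → Normal ℚ ↥L → FiniteDimensional ℚ ↥K₁ → Normal ℚ ↥K₁ →
    (∀ m : ℚ, (p : ℚ) / ((p : ℚ) - 1) < m → s56r_Pm p hp P hP L m) →
    (∃ ζ ∈ K₁, IsPrimitiveRoot ζ p) →
    ∀ α : Q̄, α ≠ 0 →
      (∀ g ∈ P.decompositionSubgroup ℚ, (∀ x ∈ L, g x = x) → (∀ x ∈ K₁, g x = x) → g α = α) →
      (∀ g ∈ P.decompositionSubgroup ℚ, (∀ x ∈ K₁, g x = x) → g (α ^ p) = α ^ p) →
      ∃ z w : Q̄,
        (∀ g ∈ P.decompositionSubgroup ℚ, (∀ x ∈ K₁, g x = x) → g z = z ∧ g w = w) ∧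
        w ∈ P ∧ α ^ p = z ^ p * (1 + (p : Q̄) * w)

/-! ### leaves (abstract, Mathlib only) -/

section leaves

/-- **Leaf (NF): Kummer normal form below depth `e`.**  `E` a subfield of `Ω` on which `v` is
discrete with uniformizer `ϖ`, `v ϖ = 1/e` (`v p = 1`), with "perfect residue field".  Every
`y ∈ E^×` is, up to a `p`-th power of `E`: in `1 + pO_E`; or of valuation not divisible by `p`
(in units of `1/e`); or `1 + x` with `v x = j/e`, `0 < j < e`, `p ∤ j`. -/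
def s56r_IfaceNormalForm : Prop :=
  ∀ {Ω : Type} [Field Ω] (v : AddValuation Ω (WithTop ℚ)) (E : Subfield Ω) (p : ℕ),
    p.Prime → v (p : Ω) = 1 →
    ∀ (ϖ : Ω) (e : ℕ), ϖ ∈ E → 0 < e → v ϖ = (((1 : ℚ) / (e : ℚ) : ℚ) : WithTop ℚ) →
    (∀ x ∈ E, x ≠ 0 → ∃ k : ℤ, v x = ((((k : ℚ) / (e : ℚ) : ℚ)) : WithTop ℚ)) →
    (∀ c ∈ E, v c = 0 → ∃ d ∈ E, 0 < v (d ^ p - c)) →
    ∀ y ∈ E, y ≠ 0 →
      (∃ z ∈ E, ∃ w ∈ E, 0 ≤ v w ∧ y = z ^ p * (1 + (p : Ω) * w)) ∨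
      (∃ z ∈ E, z ≠ 0 ∧ ∃ c : ℤ, ¬ (p : ℤ) ∣ c ∧
        v (y / z ^ p) = ((((c : ℚ) / (e : ℚ) : ℚ)) : WithTop ℚ)) ∨
      (∃ z ∈ E, z ≠ 0 ∧ ∃ x ∈ E, ∃ j : ℕ, 0 < j ∧ j < e ∧ ¬ p ∣ j ∧
        v x = ((((j : ℚ) / (e : ℚ) : ℚ)) : WithTop ℚ) ∧ y = z ^ p * (1 + x))

variable {Ω : Type*} [Field Ω] (v : AddValuation Ω (WithTop ℚ))

/-- the ring of integral elements fixed by a group `Γ` of automorphisms -/
def s56r_invRing (Γ : Type*) [Group Γ] [MulSemiringAction Γ Ω] : Subring Ω where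
  carrier := {a | 0 ≤ v a ∧ ∀ σ : Γ, σ • a = a}
  mul_mem' := by
    rintro a b ⟨ha, ha'⟩ ⟨hb, hb'⟩
    refine ⟨?_, fun σ => by rw [smul_mul', ha', hb']⟩
    rw [AddValuation.map_mul]
    exact add_nonneg ha hb
  one_mem' := ⟨by rw [AddValuation.map_one], fun σ => smul_one σ⟩
  add_mem' := by
    rintro a b ⟨ha, ha'⟩ ⟨hb, hb'⟩
    exact ⟨le_trans (le_min ha hb) (AddValuation.map_add v a b),
      fun σ => by rw [smul_add, ha', hb']⟩
  zero_mem' := ⟨by rw [AddValuation.map_zero]; exact le_top, fun σ => smul_zero σ⟩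
  neg_mem' := by
    rintro a ⟨ha, ha'⟩
    exact ⟨by rw [AddValuation.map_neg]; exact ha, fun σ => by rw [smul_neg, ha']⟩

/-- `u(x, x') = ∑_{w ∈ X} min (v (x' - x)) (v (x - w))` (`X` the orbit of `x`, `x' = σ x`). -/
def s56r_u (X : Finset Ω) (x x' : Ω) : WithTop ℚ :=
  ∑ w ∈ X, min (v (x' - x)) (v (x - w))

/-- **Leaf (HL): Herbrand-lite in orbit form** (Serre, Corps locaux IV, Prop. 3 + Herbrand).
`Γ` acts on `Ω` preserving `v`; `x, y` integral with finite orbits `X`, `Y`; `y = F(x)` with `F`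
over the ring `A₀` of `Γ`-fixed integral elements; every integral element fixed by the stabilizer
of `y` is a polynomial in `y` over `A₀`.  Then every `s ∈ Γ` has a lift `s'` (same image of `y`)
with `u(x, s' x) ≥ u(y, s y)`. -/
def s56r_IfaceHerbrandLite : Prop :=
  ∀ {Ω : Type} [Field Ω] (v : AddValuation Ω (WithTop ℚ)) (Γ : Type) [Group Γ]
    [MulSemiringAction Γ Ω],
    (∀ (σ : Γ) (a : Ω), v (σ • a) = v a) →
    ∀ (x y : Ω) (X Y : Finset Ω), 0 ≤ v x →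
    (∀ w, w ∈ X ↔ ∃ σ : Γ, σ • x = w) → (∀ w, w ∈ Y ↔ ∃ σ : Γ, σ • y = w) →
    (∃ F : Polynomial ↥(s56r_invRing v Γ), (F.map (s56r_invRing v Γ).subtype).eval x = y) →
    (∀ c : Ω, 0 ≤ v c → (∀ δ : Γ, δ • y = y → δ • c = c) →
      ∃ G : Polynomial ↥(s56r_invRing v Γ), (G.map (s56r_invRing v Γ).subtype).eval y = c) →
    ∀ s : Γ, ∃ s' : Γ, s' • y = s • y ∧ s56r_u v Y y (s • y) ≤ s56r_u v X x (s' • x)

/-- **Leaf (Θ): a normalised trace-one element.**  `g` preserves `v` and acts on residues as the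
`q`-power map (`q = p^r`, `r ≥ 1`, `0 < v p`); `Ω` algebraically closed of characteristic zero.
Then for every `n ≥ 1` there is an integral `θ` with `g^n θ = θ` and `∑_{k<n} g^k θ = 1`. -/
def s56r_IfaceTheta : Prop :=
  ∀ {Ω : Type} [Field Ω] [CharZero Ω] [IsAlgClosed Ω] (v : AddValuation Ω (WithTop ℚ))
    (g : Ω ≃+* Ω) (p r : ℕ), p.Prime → 0 < r → 0 < v (p : Ω) →
    (∀ a, v (g a) = v a) → (∀ a, 0 ≤ v a → 0 < v (g a - a ^ (p ^ r))) →
    ∀ n : ℕ, 0 < n → ∃ θ : Ω, 0 ≤ v θ ∧ g^[n] θ = θ ∧ ∑ k ∈ Finset.range n, g^[k] θ = 1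

end leaves

end Fermat.Agent.Lib.S56
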