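/-
PROGRAMME W (S56), wall [W8-F1] (helper6, prefix `s56r_`): the "G-lemma" (abstract).

`Γ` acts on the field `Ω` preserving the `ℚ`-valued valuation `v`; `A₀ = s56r_invRing v Γ` the ring of
`Γ`-fixed integral elements.  Suppose `v` is integer-valued on the `Γ`-fixed elements.  If `x` has
finite orbit `X` with `n` elements and `v x = 1/n`, then:

* `s56r_interp` : every integral `c` fixed by the stabilizer of `x` is `G(x)` with `G ∈ A₀[T]`
  (Lagrange interpolation over the orbit + distinct valuations of the terms `g_i x^i`);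
* `s56r_orbitPoly` : `Q₀ = ∏_{w ∈ X} (T - w) ∈ A₀[T]`, and `s56r_orbitPoly_dvd` : it generates the
  kernel of evaluation at `x`.
-/
import Mathlib
import Fermat.Agent.Lib.S56.IfaceF1

set_option autoImplicit false

noncomputable section

namespace Fermat.Agent.Lib.S56

open Polynomial

section

variable {Ω : Type*} [Field Ω] (v : AddValuation Ω (WithTop ℚ))

/-- In a finite sum whose nonzero terms have pairwise distinct valuations, the valuation of the sum
is at most the valuation of every term. -/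
lemma s56r_le_of_sum_distinct {ι : Type*} [DecidableEq ι] (s : Finset ι) (t : ι → Ω)
    (hd : ∀ i ∈ s, ∀ j ∈ s, i ≠ j → t i ≠ 0 → v (t i) ≠ v (t j)) :
    ∀ i ∈ s, v (∑ j ∈ s, t j) ≤ v (t i) := by
  intro i hi
  obtain ⟨j₀, hj₀, hmin⟩ := s.exists_min_image (fun j => v (t j)) ⟨i, hi⟩
  by_cases h0 : t j₀ = 0
  · -- all terms vanish
    have hall : ∀ j ∈ s, t j = 0 := by
      intro j hj
      have h1 : v (t j₀) ≤ v (t j) := hmin j hj
      rw [h0, AddValuation.map_zero, top_le_iff] at h1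
      exact (AddValuation.top_iff v).mp h1
    rw [hall i hi, AddValuation.map_zero]
    exact le_top
  · have hlt : ∀ j ∈ s.erase j₀, v (t j₀) < v (t j) := by
      intro j hj
      rw [Finset.mem_erase] at hj
      exact lt_of_le_of_ne (hmin j hj.2) (hd j₀ hj₀ j hj.2 (Ne.symm hj.1) h0)
    have hfin : v (t j₀) < ⊤ := by
      rw [lt_top_iff_ne_top]
      intro h
      exact h0 ((AddValuation.top_iff v).mp h)
    have h2 : v (t j₀) < v (∑ j ∈ s.erase j₀, t j) := AddValuation.map_lt_sum' v hfin hlt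
    rw [← Finset.add_sum_erase s t hj₀, AddValuation.map_add_eq_of_lt_left v h2]
    exact hmin i hi

variable {Γ : Type*} [Group Γ] [MulSemiringAction Γ Ω]

lemma s56r_mem_invRing {a : Ω} : a ∈ s56r_invRing v Γ ↔ 0 ≤ v a ∧ ∀ σ : Γ, σ • a = a := Iff.rfl

/-- evaluation of a polynomial over `A₀` commutes with the action -/
lemma s56r_smul_eval_invRing (G : Polynomial ↥(s56r_invRing v Γ)) (σ : Γ) (a : Ω) :
    σ • ((G.map (s56r_invRing v Γ).subtype).eval a)
      = (G.map (s56r_invRing v Γ).subtype).eval (σ • a) := by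
  have h1 : σ • ((G.map (s56r_invRing v Γ).subtype).eval a)
      = MulSemiringAction.toRingHom Γ Ω σ ((G.map (s56r_invRing v Γ).subtype).eval a) := rfl
  rw [h1, Polynomial.eval_map, Polynomial.eval_map, Polynomial.hom_eval₂]
  have h2 : (MulSemiringAction.toRingHom Γ Ω σ).comp (s56r_invRing v Γ).subtype
      = (s56r_invRing v Γ).subtype := by
    ext b
    exact b.2.2 σ
  rw [h2]
  rfl

/-- a polynomial over `A₀` takes integral values at integral points -/
lemma s56r_eval_invRing_nonneg (G : Polynomial ↥(s56r_invRing v Γ)) {a : Ω} (ha : 0 ≤ v a) :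
    0 ≤ v ((G.map (s56r_invRing v Γ).subtype).eval a) := by
  rw [Polynomial.eval_map, Polynomial.eval₂_eq_sum_range]
  refine AddValuation.map_le_sum v ?_
  intro i _
  rw [AddValuation.map_mul, AddValuation.map_pow]
  exact add_nonneg (G.coeff i).2.1 (nsmul_nonneg ha i)

variable (hZ : ∀ a : Ω, (∀ σ : Γ, σ • a = a) → a ≠ 0 → ∃ k : ℤ, v a = ((k : ℚ) : WithTop ℚ))

include hZ in
/-- **The G-lemma.** -/
theorem s56r_interp_val (x : Ω) (X : Finset Ω) (hX : ∀ w, w ∈ X ↔ ∃ σ : Γ, σ • x = w)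
    (hvx : v x = ((((1 : ℚ) / (X.card : ℚ) : ℚ)) : WithTop ℚ))
    (c : Ω) (hc : 0 ≤ v c) (hfix : ∀ δ : Γ, δ • x = x → δ • c = c) :
    (∃ G : Polynomial ↥(s56r_invRing v Γ), (G.map (s56r_invRing v Γ).subtype).eval x = c) ∧
    (c ≠ 0 → ∃ k : ℤ, v c = ((((k : ℚ) / (X.card : ℚ) : ℚ)) : WithTop ℚ)) := by
  classical
  set n := X.card with hn
  have hxX : x ∈ X := (hX x).mpr ⟨1, one_smul _ _⟩
  have hnpos : 0 < n := Finset.card_pos.mpr ⟨x, hxX⟩
  -- the value function
  let val : Ω → Ω := fun w => if h : ∃ σ : Γ, σ • x = w then (Classical.choose h) • c else 0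
  have hval : ∀ σ : Γ, val (σ • x) = σ • c := by
    intro σ
    have h : ∃ σ' : Γ, σ' • x = σ • x := ⟨σ, rfl⟩
    have h1 : val (σ • x) = (Classical.choose h) • c := dif_pos h
    have h2 : (Classical.choose h) • x = σ • x := Classical.choose_spec h
    have h3 : (σ⁻¹ * Classical.choose h) • x = x := by
      rw [mul_smul, h2, inv_smul_smul]
    have h4 := hfix _ h3
    rw [mul_smul, inv_smul_eq_iff] at h4
    rw [h1, h4]
  set G₁ : Polynomial Ω := Lagrange.interpolate X id val with hG₁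
  have hinj : Set.InjOn (id : Ω → Ω) (X : Set Ω) := Function.injective_id.injOn
  have hdeg : G₁.degree < (n : WithBot ℕ) := Lagrange.degree_interpolate_lt val hinj
  have hev : ∀ w ∈ X, G₁.eval w = val w := fun w hw =>
    Lagrange.eval_interpolate_at_node val hinj hw
  -- invariance
  have hinv : ∀ τ : Γ, G₁.map (MulSemiringAction.toRingHom Γ Ω τ) = G₁ := by
    intro τ
    refine Polynomial.eq_of_degrees_lt_of_eval_finset_eq X
      (lt_of_le_of_lt (Polynomial.degree_map_le) hdeg) hdeg ?_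
    intro w hw
    obtain ⟨σ, rfl⟩ := (hX w).mp hw
    have h1 : σ • x = τ • ((τ⁻¹ * σ) • x) := by rw [mul_smul, smul_inv_smul]
    have hw' : (τ⁻¹ * σ) • x ∈ X := (hX _).mpr ⟨_, rfl⟩
    have h2 : (G₁.map (MulSemiringAction.toRingHom Γ Ω τ)).eval (τ • ((τ⁻¹ * σ) • x))
        = τ • (G₁.eval ((τ⁻¹ * σ) • x)) := by
      rw [Polynomial.eval_map]
      exact Polynomial.eval₂_at_apply (MulSemiringAction.toRingHom Γ Ω τ) _
    calc (G₁.map (MulSemiringAction.toRingHom Γ Ω τ)).eval (σ • x)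
        = (G₁.map (MulSemiringAction.toRingHom Γ Ω τ)).eval (τ • ((τ⁻¹ * σ) • x)) := by rw [← h1]
      _ = τ • (G₁.eval ((τ⁻¹ * σ) • x)) := h2
      _ = τ • ((τ⁻¹ * σ) • c) := by rw [hev _ hw', hval]
      _ = σ • c := by rw [mul_smul, smul_inv_smul]
      _ = G₁.eval (σ • x) := by rw [hev _ hw, hval]
  have hcoeff : ∀ (i : ℕ) (τ : Γ), τ • G₁.coeff i = G₁.coeff i := by
    intro i τ
    have h1 := congrArg (fun q : Polynomial Ω => q.coeff i) (hinv τ)
    simp only [Polynomial.coeff_map] at h1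
    exact h1
  -- expansion of `c`
  have hnat : G₁.natDegree < n := by
    by_cases h0 : G₁ = 0
    · rw [h0, Polynomial.natDegree_zero]; exact hnpos
    · exact (Polynomial.natDegree_lt_iff_degree_lt h0).mpr hdeg
  have hcx : c = ∑ i ∈ Finset.range n, G₁.coeff i * x ^ i := by
    rw [← Polynomial.eval_eq_sum_range' hnat, hev x hxX]
    have := hval 1
    rw [one_smul, one_smul] at this
    exact this.symm
  -- valuations of the terms
  have hnq : (n : ℚ) ≠ 0 := by exact_mod_cast hnpos.ne'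
  have hterm : ∀ i : ℕ, G₁.coeff i ≠ 0 → ∃ k : ℤ,
      v (G₁.coeff i * x ^ i) = ((((k : ℚ) + (i : ℚ) / (n : ℚ) : ℚ)) : WithTop ℚ) := by
    intro i hi
    obtain ⟨k, hk⟩ := hZ _ (hcoeff i) hi
    refine ⟨k, ?_⟩
    rw [AddValuation.map_mul, AddValuation.map_pow, hk, hvx]
    rw [← WithTop.coe_nsmul, ← WithTop.coe_add]
    congr 1
    rw [nsmul_eq_mul]
    ring
  have hdist : ∀ i ∈ Finset.range n, ∀ j ∈ Finset.range n, i ≠ j → G₁.coeff i * x ^ i ≠ 0 →
      v (G₁.coeff i * x ^ i) ≠ v (G₁.coeff j * x ^ j) := by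
    intro i hi j hj hij hne
    rw [Finset.mem_range] at hi hj
    have hgi : G₁.coeff i ≠ 0 := left_ne_zero_of_mul hne
    obtain ⟨ki, hki⟩ := hterm i hgi
    by_cases hgj : G₁.coeff j = 0
    · rw [hgj, zero_mul, AddValuation.map_zero, hki]
      exact WithTop.coe_ne_top
    obtain ⟨kj, hkj⟩ := hterm j hgj
    rw [hki, hkj]
    intro h
    have h1 : (ki : ℚ) + (i : ℚ) / (n : ℚ) = (kj : ℚ) + (j : ℚ) / (n : ℚ) := WithTop.coe_injective h
    have h2 : ((ki - kj : ℤ) : ℚ) * (n : ℚ) = ((j : ℤ) - (i : ℤ) : ℤ) := by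
      push_cast
      field_simp at h1
      linarith
    have h3 : (ki - kj) * (n : ℤ) = (j : ℤ) - (i : ℤ) := by exact_mod_cast h2
    have hi' : (i : ℤ) < n := by exact_mod_cast hi
    have hj' : (j : ℤ) < n := by exact_mod_cast hj
    have hi0 : (0 : ℤ) ≤ i := Int.natCast_nonneg i
    have hj0 : (0 : ℤ) ≤ j := Int.natCast_nonneg j
    have hnz : (0 : ℤ) < n := by exact_mod_cast hnpos
    have hd0 : ki - kj = 0 := by
      by_contra hne'
      rcases lt_or_gt_of_ne hne' with hlt | hgt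
      · have : (ki - kj) * (n : ℤ) ≤ -1 * (n : ℤ) :=
          mul_le_mul_of_nonneg_right (by omega) hnz.le
        omega
      · have : 1 * (n : ℤ) ≤ (ki - kj) * (n : ℤ) :=
          mul_le_mul_of_nonneg_right (by omega) hnz.le
        omega
    rw [hd0, zero_mul] at h3
    apply hij
    omega
  have hle := s56r_le_of_sum_distinct v (Finset.range n) (fun i => G₁.coeff i * x ^ i) hdist
  rw [← hcx] at hle
  -- integrality of the coefficients
  have hint : ∀ i : ℕ, 0 ≤ v (G₁.coeff i) := by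
    intro i
    by_cases hgi : G₁.coeff i = 0
    · rw [hgi, AddValuation.map_zero]; exact le_top
    by_cases hi : i < n
    · obtain ⟨k, hk⟩ := hZ _ (hcoeff i) hgi
      obtain ⟨k', hk'⟩ := hterm i hgi
      have h1 : (0 : WithTop ℚ) ≤ v (G₁.coeff i * x ^ i) :=
        le_trans hc (hle i (Finset.mem_range.mpr hi))
      -- recompute with `k`
      have h2 : v (G₁.coeff i * x ^ i) = ((((k : ℚ) + (i : ℚ) / (n : ℚ) : ℚ)) : WithTop ℚ) := by
        rw [AddValuation.map_mul, AddValuation.map_pow, hk, hvx]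
        rw [← WithTop.coe_nsmul, ← WithTop.coe_add]
        congr 1
        rw [nsmul_eq_mul]
        ring
      rw [h2] at h1
      have h3 : (0 : ℚ) ≤ (k : ℚ) + (i : ℚ) / (n : ℚ) := by exact_mod_cast h1
      have h4 : (i : ℚ) / (n : ℚ) < 1 := by
        rw [div_lt_one (by exact_mod_cast hnpos)]
        exact_mod_cast hi
      have h5 : (-1 : ℚ) < (k : ℚ) := by linarith
      have h6 : (-1 : ℤ) < k := by exact_mod_cast h5
      rw [hk]
      have h7 : (0 : ℚ) ≤ (k : ℚ) := by exact_mod_cast (by omega : (0 : ℤ) ≤ k)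
      exact_mod_cast h7
    · exfalso
      apply hgi
      exact Polynomial.coeff_eq_zero_of_natDegree_lt (lt_of_lt_of_le hnat (not_lt.mp hi))
  have hsub : (↑G₁.coeffs : Set Ω) ⊆ (s56r_invRing v Γ : Set Ω) := by
    intro a ha
    obtain ⟨i, -, rfl⟩ := Polynomial.mem_coeffs_iff.mp ha
    exact ⟨hint i, hcoeff i⟩
  refine ⟨⟨G₁.toSubring (s56r_invRing v Γ) hsub, ?_⟩, ?_⟩
  · rw [Polynomial.map_toSubring, hev x hxX]
    have := hval 1
    rw [one_smul, one_smul] at this
    exact this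
  · intro hc0
    obtain ⟨i₀, hi₀, hmin⟩ := (Finset.range n).exists_min_image
      (fun i => v (G₁.coeff i * x ^ i)) ⟨0, Finset.mem_range.mpr hnpos⟩
    have h1 : v (G₁.coeff i₀ * x ^ i₀) ≤ v c := by
      rw [hcx]
      exact AddValuation.map_le_sum v (fun i hi => hmin i hi)
    have h2 : v c = v (G₁.coeff i₀ * x ^ i₀) := le_antisymm (hle i₀ hi₀) h1
    have hg0 : G₁.coeff i₀ ≠ 0 := by
      intro h
      rw [h, zero_mul, AddValuation.map_zero] at h2
      exact hc0 ((AddValuation.top_iff v).mp h2)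
    obtain ⟨k, hk⟩ := hterm i₀ hg0
    refine ⟨k * (n : ℤ) + (i₀ : ℤ), ?_⟩
    rw [h2, hk]
    congr 1
    push_cast
    field_simp

include hZ in
/-- **The G-lemma** (polynomial form). -/
theorem s56r_interp (x : Ω) (X : Finset Ω) (hX : ∀ w, w ∈ X ↔ ∃ σ : Γ, σ • x = w)
    (hvx : v x = ((((1 : ℚ) / (X.card : ℚ) : ℚ)) : WithTop ℚ))
    (c : Ω) (hc : 0 ≤ v c) (hfix : ∀ δ : Γ, δ • x = x → δ • c = c) :
    ∃ G : Polynomial ↥(s56r_invRing v Γ), (G.map (s56r_invRing v Γ).subtype).eval x = c :=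
  (s56r_interp_val v hZ x X hX hvx c hc hfix).1

include hZ in
/-- **The value group of `Fix(Stab x)`** is contained in `(1/n) ℤ`. -/
theorem s56r_val_stab_fixed (x : Ω) (X : Finset Ω) (hX : ∀ w, w ∈ X ↔ ∃ σ : Γ, σ • x = w)
    (hvx : v x = ((((1 : ℚ) / (X.card : ℚ) : ℚ)) : WithTop ℚ))
    (c : Ω) (hc0 : c ≠ 0) (hfix : ∀ δ : Γ, δ • x = x → δ • c = c) :
    ∃ k : ℤ, v c = ((((k : ℚ) / (X.card : ℚ) : ℚ)) : WithTop ℚ) := by
  rcases le_total 0 (v c) with h | h
  · exact (s56r_interp_val v hZ x X hX hvx c h hfix).2 hc0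
  · have hinv : v c⁻¹ = -(v c) := AddValuation.map_inv v
    have hne : v c ≠ ⊤ := fun h' => hc0 ((AddValuation.top_iff v).mp h')
    obtain ⟨r, hr⟩ := WithTop.ne_top_iff_exists.mp hne
    have hr0 : r ≤ 0 := by
      rw [← hr] at h
      exact_mod_cast h
    have hinv' : v c⁻¹ = (((-r : ℚ)) : WithTop ℚ) := by
      rw [hinv, ← hr]
      rfl
    have h1 : 0 ≤ v c⁻¹ := by
      rw [hinv']
      have : (0 : ℚ) ≤ -r := by linarith
      exact_mod_cast this
    have hfix' : ∀ δ : Γ, δ • x = x → δ • c⁻¹ = c⁻¹ := by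
      intro δ hδ
      rw [smul_inv'', hfix δ hδ]
    obtain ⟨k, hk⟩ := (s56r_interp_val v hZ x X hX hvx c⁻¹ h1 hfix').2 (inv_ne_zero hc0)
    refine ⟨-k, ?_⟩
    rw [hinv'] at hk
    have h2 : -r = (k : ℚ) / (X.card : ℚ) := WithTop.coe_injective hk
    rw [← hr]
    congr 1
    push_cast
    rw [neg_div, ← h2, neg_neg]

/-- the orbit polynomial over `Ω` -/
def s56r_orbitPolyΩ (X : Finset Ω) : Polynomial Ω := ∏ w ∈ X, (Polynomial.X - Polynomial.C w)

lemma s56r_orbitPolyΩ_monic (X : Finset Ω) : (s56r_orbitPolyΩ X).Monic :=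
  Polynomial.monic_prod_of_monic _ _ (fun w _ => Polynomial.monic_X_sub_C w)

lemma s56r_orbitPolyΩ_natDegree (X : Finset Ω) : (s56r_orbitPolyΩ X).natDegree = X.card := by
  rw [s56r_orbitPolyΩ, Polynomial.natDegree_prod_of_monic _ _ (fun w _ => Polynomial.monic_X_sub_C w)]
  simp

lemma s56r_orbitPolyΩ_eval (X : Finset Ω) (b : Ω) :
    (s56r_orbitPolyΩ X).eval b = ∏ w ∈ X, (b - w) := by
  rw [s56r_orbitPolyΩ, Polynomial.eval_prod]
  simp

/-- the ring of integral elements -/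
def s56r_valInt : Subring Ω where
  carrier := {a | 0 ≤ v a}
  mul_mem' := by
    intro a b ha hb
    show 0 ≤ v (a * b)
    rw [AddValuation.map_mul]
    exact add_nonneg ha hb
  one_mem' := by
    show 0 ≤ v 1
    rw [AddValuation.map_one]
  add_mem' := by
    intro a b ha hb
    exact le_trans (le_min ha hb) (AddValuation.map_add v a b)
  zero_mem' := by
    show 0 ≤ v 0
    rw [AddValuation.map_zero]; exact le_top
  neg_mem' := by
    intro a ha
    show 0 ≤ v (-a)
    rw [AddValuation.map_neg]; exact ha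

/-- the coefficients of `∏ (T - w)` are integral if the `w` are -/
lemma s56r_orbitPolyΩ_coeff_nonneg (X : Finset Ω) (hX : ∀ w ∈ X, 0 ≤ v w) (i : ℕ) :
    0 ≤ v ((s56r_orbitPolyΩ X).coeff i) := by
  classical
  let lift : Ω → ↥(s56r_valInt v) := fun w => if h : 0 ≤ v w then ⟨w, h⟩ else 0
  have hlift : ∀ w ∈ X, ((lift w : ↥(s56r_valInt v)) : Ω) = w := by
    intro w hw
    simp only [lift, dif_pos (hX w hw)]
  have h1 : s56r_orbitPolyΩ X
      = (∏ w ∈ X, (Polynomial.X - Polynomial.C (lift w))).map (s56r_valInt v).subtype := by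
    rw [s56r_orbitPolyΩ, Polynomial.map_prod]
    refine Finset.prod_congr rfl fun w hw => ?_
    rw [Polynomial.map_sub, Polynomial.map_X, Polynomial.map_C]
    congr 2
    exact (hlift w hw).symm
  rw [h1, Polynomial.coeff_map]
  exact ((∏ w ∈ X, (Polynomial.X - Polynomial.C (lift w))).coeff i).2

/-- the orbit polynomial has coefficients in `A₀` -/
lemma s56r_orbitPolyΩ_coeffs (x : Ω) (X : Finset Ω) (hx : ∀ w ∈ X, 0 ≤ v w)
    (hX : ∀ w, w ∈ X ↔ ∃ σ : Γ, σ • x = w) :
    (↑(s56r_orbitPolyΩ X).coeffs : Set Ω) ⊆ (s56r_invRing v Γ : Set Ω) := by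
  classical
  intro a ha
  obtain ⟨i, -, rfl⟩ := Polynomial.mem_coeffs_iff.mp ha
  refine ⟨?_, ?_⟩
  · exact s56r_orbitPolyΩ_coeff_nonneg v X hx i
  · intro τ
    have hperm : (s56r_orbitPolyΩ X).map (MulSemiringAction.toRingHom Γ Ω τ) = s56r_orbitPolyΩ X := by
      rw [s56r_orbitPolyΩ, Polynomial.map_prod]
      simp only [Polynomial.map_sub, Polynomial.map_X, Polynomial.map_C]
      refine Finset.prod_bij (fun w _ => τ • w) ?_ ?_ ?_ ?_
      · intro w hw
        obtain ⟨σ, rfl⟩ := (hX w).mp hw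
        exact (hX _).mpr ⟨τ * σ, mul_smul _ _ _⟩
      · intro w₁ _ w₂ _ h
        exact smul_left_cancel τ h
      · intro w hw
        obtain ⟨σ, rfl⟩ := (hX w).mp hw
        refine ⟨(τ⁻¹ * σ) • x, (hX _).mpr ⟨_, rfl⟩, ?_⟩
        rw [mul_smul, smul_inv_smul]
      · intro w _
        rfl
    have h1 := congrArg (fun q : Polynomial Ω => q.coeff i) hperm
    simp only [Polynomial.coeff_map] at h1
    exact h1

/-- **the orbit polynomial** `Q₀ = ∏_{w ∈ X} (T - w)` as a polynomial over `A₀` -/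
def s56r_orbitPoly (x : Ω) (X : Finset Ω) (hx : ∀ w ∈ X, 0 ≤ v w)
    (hX : ∀ w, w ∈ X ↔ ∃ σ : Γ, σ • x = w) : Polynomial ↥(s56r_invRing v Γ) :=
  (s56r_orbitPolyΩ X).toSubring (s56r_invRing v Γ) (s56r_orbitPolyΩ_coeffs v x X hx hX)

lemma s56r_orbitPoly_map (x : Ω) (X : Finset Ω) (hx : ∀ w ∈ X, 0 ≤ v w)
    (hX : ∀ w, w ∈ X ↔ ∃ σ : Γ, σ • x = w) :
    (s56r_orbitPoly v x X hx hX).map (s56r_invRing v Γ).subtype = s56r_orbitPolyΩ X :=
  Polynomial.map_toSubring _ _ _

lemma s56r_orbitPoly_monic (x : Ω) (X : Finset Ω) (hx : ∀ w ∈ X, 0 ≤ v w)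
    (hX : ∀ w, w ∈ X ↔ ∃ σ : Γ, σ • x = w) : (s56r_orbitPoly v x X hx hX).Monic := by
  have h := s56r_orbitPolyΩ_monic X
  rw [← s56r_orbitPoly_map v x X hx hX] at h
  exact Polynomial.monic_of_injective (Subring.subtype_injective _) h

/-- **the orbit polynomial generates the kernel of evaluation at `x`** -/
theorem s56r_orbitPoly_dvd (x : Ω) (X : Finset Ω) (hx : ∀ w ∈ X, 0 ≤ v w)
    (hX : ∀ w, w ∈ X ↔ ∃ σ : Γ, σ • x = w) (f : Polynomial ↥(s56r_invRing v Γ))
    (hf : (f.map (s56r_invRing v Γ).subtype).eval x = 0) :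
    s56r_orbitPoly v x X hx hX ∣ f := by
  classical
  rw [← Polynomial.map_dvd_map (s56r_invRing v Γ).subtype (Subring.subtype_injective _)
    (s56r_orbitPoly_monic v x X hx hX), s56r_orbitPoly_map]
  by_cases hf0 : f.map (s56r_invRing v Γ).subtype = 0
  · rw [hf0]; exact dvd_zero _
  have hroots : ∀ w ∈ X, (f.map (s56r_invRing v Γ).subtype).IsRoot w := by
    intro w hw
    obtain ⟨σ, rfl⟩ := (hX w).mp hw
    rw [Polynomial.IsRoot, ← s56r_smul_eval_invRing, hf, smul_zero]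
  have h1 : s56r_orbitPolyΩ X = (X.val.map fun a => Polynomial.X - Polynomial.C a).prod := rfl
  rw [h1, Multiset.prod_X_sub_C_dvd_iff_le_roots hf0]
  rw [Multiset.le_iff_subset X.nodup]
  intro w hw
  rw [Polynomial.mem_roots hf0]
  exact hroots w hw

include hZ in
/-- **lower bound for the orbit**: if `0 < v x` then `1 ≤ #X * v x` (the norm `∏_{w ∈ X} w` is
`Γ`-fixed, so its valuation is a positive integer). -/
theorem s56r_one_le_card_mul (hv : ∀ (σ : Γ) (a : Ω), v (σ • a) = v a) (x : Ω) (X : Finset Ω)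
    (hX : ∀ w, w ∈ X ↔ ∃ σ : Γ, σ • x = w) (r : ℚ) (hvx : v x = (r : WithTop ℚ)) (hr : 0 < r) :
    1 ≤ (X.card : ℚ) * r := by
  classical
  have hx0 : x ≠ 0 := by
    intro h
    rw [h, AddValuation.map_zero] at hvx
    exact WithTop.top_ne_coe hvx
  set N : Ω := ∏ w ∈ X, w with hN
  have hNfix : ∀ τ : Γ, τ • N = N := by
    intro τ
    rw [hN, Finset.smul_prod']
    refine Finset.prod_bij (fun w _ => τ • w) ?_ ?_ ?_ ?_
    · intro w hw
      obtain ⟨σ, rfl⟩ := (hX w).mp hw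
      exact (hX _).mpr ⟨τ * σ, mul_smul _ _ _⟩
    · intro w₁ _ w₂ _ h
      exact smul_left_cancel τ h
    · intro w hw
      obtain ⟨σ, rfl⟩ := (hX w).mp hw
      refine ⟨(τ⁻¹ * σ) • x, (hX _).mpr ⟨_, rfl⟩, ?_⟩
      rw [mul_smul, smul_inv_smul]
    · intro w _
      rfl
  have hN0 : N ≠ 0 := by
    rw [hN, Finset.prod_ne_zero_iff]
    intro w hw
    obtain ⟨σ, rfl⟩ := (hX w).mp hw
    intro h
    apply hx0
    have := congrArg (fun t => σ⁻¹ • t) h
    simpa using this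
  have hvN : v N = (((X.card : ℚ) * r : ℚ) : WithTop ℚ) := by
    rw [hN, s56r_map_prod]
    have : ∀ w ∈ X, v w = (r : WithTop ℚ) := by
      intro w hw
      obtain ⟨σ, rfl⟩ := (hX w).mp hw
      rw [hv, hvx]
    rw [Finset.sum_congr rfl this, Finset.sum_const, ← WithTop.coe_nsmul, nsmul_eq_mul]
  obtain ⟨k, hk⟩ := hZ N hNfix hN0
  rw [hvN] at hk
  have hk' : (X.card : ℚ) * r = (k : ℚ) := WithTop.coe_injective hk
  have hxX : x ∈ X := (hX x).mpr ⟨1, one_smul _ _⟩
  have hcard : 0 < X.card := Finset.card_pos.mpr ⟨x, hxX⟩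
  have hpos : (0 : ℚ) < (X.card : ℚ) * r := mul_pos (by exact_mod_cast hcard) hr
  rw [hk'] at hpos ⊢
  have : (0 : ℤ) < k := by exact_mod_cast hpos
  exact_mod_cast this

end

end Fermat.Agent.Lib.S56
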