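/-
PROGRAMME W (S56), wall [W8-F1] (helper6, prefix `s56r_`): the local dictionary over `ℚ̄`.

`P` a valuation subring of `ℚ̄` over `p`, `v = ford_vQ P`, `I = P.inertiaSubgroupIn ℚ`.

* `s56r_inertia_int`   : `v` is integer-valued on `Fix(I)^×` (from helper5's `s56o_Our_factor`);
* `s56r_orb P x`       : the (finite) `I`-orbit of `x`, as a `Finset`;
* `s56r_exists_frob`   : a Frobenius lift `φ ∈ D`, `v (φ a - a^p) > 0` for integral `a`;
* `s56r_exists_unif`   : a finite normal `L` has a uniformizer;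
* `s56r_unif_val`      : for `π` a uniformizer of a finite normal `L`: `v π = 1 / #(I-orbit of π)`.
-/
import Mathlib
import Fermat.Agent.Lib.S56.RInterp
import Fermat.Agent.Lib.S56.FArith
import Fermat.Agent.Lib.S56.GDecomp
import Fermat.Agent.Lib.Frey.OrdInertia
import Fermat.Agent.Lib.Frobenius.Exists
import Fermat.Agent.Lib.S44.SoftVal

set_option autoImplicit false

noncomputable section

namespace Fermat.Agent.Lib.S56

open Polynomial NumberField Fermat.Agent.Lib.Frey Fermat.Agent.Lib.CFT Fermat.Agent.Lib.S18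
  Fermat.Agent.Lib.S33 Fermat.Agent.Lib.S35 Fermat.Agent.Lib.S36 Fermat.Agent.Lib.S44
  Fermat.Agent.Lib.PT

local notation "Ω" => AlgebraicClosure ℚ
local notation "GQ" => (AlgebraicClosure ℚ ≃ₐ[ℚ] AlgebraicClosure ℚ)

section basic

variable {p : ℕ} (hp : p.Prime) (P : ValuationSubring Ω) (hP : (p : Ω) ∈ P.nonunits)

/-- a unit of `P` has valuation `0` -/
lemma s56r_val_unit {u : Ω} (hu : u ∈ P) (hu' : u⁻¹ ∈ P) (hu0 : u ≠ 0) :
    ford_vQ P hp hP u = 0 := by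
  have h1 : 0 ≤ ford_vQ P hp hP u := (ford_vQ_nonneg_iff hp hP u).mpr hu
  have h2 : 0 ≤ ford_vQ P hp hP u⁻¹ := (ford_vQ_nonneg_iff hp hP _).mpr hu'
  have h3 : ford_vQ P hp hP u + ford_vQ P hp hP u⁻¹ = 0 := by
    rw [← AddValuation.map_mul, mul_inv_cancel₀ hu0, AddValuation.map_one]
  have h4 : ford_vQ P hp hP u ≤ 0 := by
    calc ford_vQ P hp hP u = ford_vQ P hp hP u + 0 := (add_zero _).symm
      _ ≤ ford_vQ P hp hP u + ford_vQ P hp hP u⁻¹ := by gcongr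
      _ = 0 := h3
  exact le_antisymm h4 h1

/-- **`v` is integer-valued on the inertia-fixed elements.** -/
theorem s56r_inertia_int (a : Ω) (ha : ∀ σ ∈ P.inertiaSubgroupIn ℚ, σ a = a) (ha0 : a ≠ 0) :
    ∃ k : ℤ, ford_vQ P hp hP a = ((k : ℚ) : WithTop ℚ) := by
  have key : ∀ b : Ω, b ∈ P → (∀ σ ∈ P.inertiaSubgroupIn ℚ, σ b = b) → b ≠ 0 →
      ∃ n : ℕ, ford_vQ P hp hP b = ((n : ℚ) : WithTop ℚ) := by
    intro b hb hbfix hb0
    obtain ⟨n, u, hu, hu', hbu⟩ := s56o_Our_factor hp P hP b ⟨hb, hbfix⟩ hb0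
    refine ⟨n, ?_⟩
    have hu0 : u ≠ 0 := by
      intro h
      rw [h, mul_zero] at hbu
      exact hb0 hbu
    rw [hbu, AddValuation.map_mul, AddValuation.map_pow, ford_vQ_q,
      s56r_val_unit hp P hP hu.1 hu'.1 hu0, add_zero]
    simp
  rcases P.mem_or_inv_mem a with h | h
  · obtain ⟨n, hn⟩ := key a h ha ha0
    exact ⟨n, by rw [hn]; simp⟩
  · have hfix' : ∀ σ ∈ P.inertiaSubgroupIn ℚ, σ a⁻¹ = a⁻¹ := by
      intro σ hσ
      rw [map_inv₀, ha σ hσ]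
    obtain ⟨n, hn⟩ := key a⁻¹ h hfix' (inv_ne_zero ha0)
    refine ⟨-(n : ℤ), ?_⟩
    have h1 : ford_vQ P hp hP a + ford_vQ P hp hP a⁻¹ = 0 := by
      rw [← AddValuation.map_mul, mul_inv_cancel₀ ha0, AddValuation.map_one]
    rw [hn] at h1
    have hne : ford_vQ P hp hP a ≠ ⊤ := by
      intro h2
      exact ha0 ((AddValuation.top_iff _).mp h2)
    obtain ⟨r, hr⟩ := WithTop.ne_top_iff_exists.mp hne
    rw [← hr] at h1 ⊢
    have h2 : r + (n : ℚ) = 0 := by exact_mod_cast h1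
    have h3 : r = ((-(n : ℤ) : ℤ) : ℚ) := by push_cast; linarith
    rw [h3]

/-- the orbit of `x` under the inertia group is finite -/
lemma s56r_orbit_finite (x : Ω) : {w : Ω | ∃ σ ∈ P.inertiaSubgroupIn ℚ, σ x = w}.Finite := by
  have halg : IsAlgebraic ℚ x := Algebra.IsAlgebraic.isAlgebraic x
  have hne : minpoly ℚ x ≠ 0 := minpoly.ne_zero halg.isIntegral
  refine Set.Finite.subset (Polynomial.rootSet_finite (minpoly ℚ x) Ω) ?_
  rintro w ⟨σ, -, rfl⟩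
  rw [Polynomial.mem_rootSet]
  refine ⟨hne, ?_⟩
  have h1 : Polynomial.aeval (σ x) (minpoly ℚ x) = σ (Polynomial.aeval x (minpoly ℚ x)) :=
    Polynomial.aeval_algHom_apply σ.toAlgHom x (minpoly ℚ x)
  rw [h1, minpoly.aeval, map_zero]

/-- **the `I`-orbit of `x`** -/
def s56r_orb (x : Ω) : Finset Ω := (s56r_orbit_finite P x).toFinset

lemma s56r_mem_orb {x w : Ω} : w ∈ s56r_orb P x ↔ ∃ σ ∈ P.inertiaSubgroupIn ℚ, σ x = w := by
  rw [s56r_orb, Set.Finite.mem_toFinset]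
  rfl

lemma s56r_mem_orb' {x w : Ω} :
    w ∈ s56r_orb P x ↔ ∃ σ : ↥(P.inertiaSubgroupIn ℚ), σ • x = w := by
  rw [s56r_mem_orb]
  constructor
  · rintro ⟨σ, hσ, rfl⟩
    exact ⟨⟨σ, hσ⟩, rfl⟩
  · rintro ⟨σ, rfl⟩
    exact ⟨σ.1, σ.2, rfl⟩

lemma s56r_self_mem_orb (x : Ω) : x ∈ s56r_orb P x :=
  (s56r_mem_orb P).mpr ⟨1, one_mem _, rfl⟩

/-- **a Frobenius lift** -/
theorem s56r_exists_frob : ∃ φ ∈ P.decompositionSubgroup ℚ,
    ∀ a : Ω, 0 ≤ ford_vQ P hp hP a → 0 < ford_vQ P hp hP (φ a - a ^ p) := by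
  obtain ⟨φ, hφ⟩ := Fermat.Agent.Lib.Frobenius.exists_isFrobeniusAt_of_liesOverPrime P p hp hP
  obtain ⟨hφD, hφF⟩ := s35t_frob_spec P φ p hφ
  refine ⟨φ, hφD, fun a ha => ?_⟩
  rw [ford_vQ_pos_iff]
  exact hφF a ((ford_vQ_nonneg_iff hp hP a).mp ha)

/-- the inertia group preserves `v` (as a group acting on `Ω`) -/
lemma s56r_inertia_val (σ : ↥(P.inertiaSubgroupIn ℚ)) (a : Ω) :
    ford_vQ P hp hP (σ • a) = ford_vQ P hp hP a :=
  (ford_vQ_inertia hp hP σ.1 σ.2).1 a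

/-- `v` is integer valued on the elements fixed by the group `↥I` -/
lemma s56r_inertia_int' (a : Ω) (ha : ∀ σ : ↥(P.inertiaSubgroupIn ℚ), σ • a = a) (ha0 : a ≠ 0) :
    ∃ k : ℤ, ford_vQ P hp hP a = ((k : ℚ) : WithTop ℚ) :=
  s56r_inertia_int hp P hP a (fun σ hσ => ha ⟨σ, hσ⟩) ha0

end basic

section level

variable {p : ℕ} (hp : p.Prime) (P : ValuationSubring Ω) (hP : (p : Ω) ∈ P.nonunits)
  (L : IntermediateField ℚ Ω) [FiniteDimensional ℚ ↥L] [Normal ℚ ↥L]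

/-- the ramification index of `L` at `P` -/
def s56r_ramIdx : ℕ :=
  haveI : NumberField ↥L := ⟨⟩
  (cfg_center (s18q_A0 P L)).ramificationIdx (𝓞 ℚ)

omit [Normal ℚ ↥L] in
/-- **an element of `L` of valuation `1/e`**, `e` the ramification index. -/
theorem s56r_exists_val_ramIdx : 0 < s56r_ramIdx P L ∧ ∃ ϖ ∈ L,
    ford_vQ P hp hP ϖ = ((((1 : ℚ) / (s56r_ramIdx P L : ℚ) : ℚ)) : WithTop ℚ) := by
  have hnf : NumberField ↥L := ⟨⟩
  set A₀ : ValuationSubring ↥L := s18q_A0 P L with hA₀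
  have hA₀mem : ∀ x : ↥L, x ∈ A₀ ↔ (x : Ω) ∈ P := fun x => Iff.rfl
  have hA₀non : ∀ x : ↥L, x ∈ A₀.nonunits ↔ (x : Ω) ∈ P.nonunits := fun x =>
    s36v_mem_nonunits_comap (algebraMap ↥L Ω) P x
  have hA₀p : ((p : ℕ) : ↥L) ∈ A₀.nonunits := by
    rw [hA₀non]
    exact hP
  have hprime : (cfg_center A₀).IsPrime := cfg_center_isPrime
  obtain ⟨w, -, hwA₀, hwp⟩ := s33d_exists_adic A₀ hp hA₀p
  set e : ℕ := (cfg_center A₀).ramificationIdx (𝓞 ℚ) with he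
  have hee : s56r_ramIdx P L = e := rfl
  have he_pos : 0 < e := Ideal.ramificationIdx_pos _ _
  rw [hee]
  refine ⟨he_pos, ?_⟩
  have hw_le : ∀ x : ↥L, x ∈ A₀ ↔ w.valuation ↥L x ≤ 1 := by
    intro x
    rw [← hwA₀]
    exact Valuation.mem_valuationSubring_iff _ _
  obtain ⟨ϖ, hϖ⟩ := w.valuation_exists_uniformizer ↥L
  refine ⟨(ϖ : Ω), ϖ.2, ?_⟩
  have hpL0 : ((p : ℕ) : ↥L) ≠ 0 := by exact_mod_cast hp.ne_zero
  have hϖ0 : ϖ ≠ 0 := by
    intro h0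
    rw [h0, map_zero] at hϖ
    exact WithZero.exp_ne_zero hϖ.symm
  set u : ↥L := ϖ ^ e * (((p : ℕ) : ↥L))⁻¹ with hu
  have hu0 : u ≠ 0 := mul_ne_zero (pow_ne_zero _ hϖ0) (inv_ne_zero hpL0)
  have hwu : w.valuation ↥L u = 1 := by
    rw [hu, map_mul, map_pow, map_inv₀, hϖ, hwp, ← WithZero.exp_nsmul, ← WithZero.exp_neg,
      ← WithZero.exp_add, ← WithZero.exp_zero]
    congr 1
    simp only [nsmul_eq_mul]
    ring
  have huA : u ∈ A₀ := (hw_le u).mpr hwu.le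
  have huA' : u⁻¹ ∈ A₀ := by
    rw [hw_le, map_inv₀, hwu, inv_one]
  have huP : ((u : ↥L) : Ω) ∈ P := (hA₀mem u).mp huA
  have huP' : ((u : ↥L) : Ω)⁻¹ ∈ P := by
    have := (hA₀mem _).mp huA'
    simpa using this
  have huΩ0 : ((u : ↥L) : Ω) ≠ 0 := by
    intro h
    apply hu0
    exact_mod_cast h
  have hvu : ford_vQ P hp hP ((u : ↥L) : Ω) = 0 := s56r_val_unit hp P hP huP huP' huΩ0
  have hucoe : ((u : ↥L) : Ω) = (ϖ : Ω) ^ e * ((p : ℕ) : Ω)⁻¹ := by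
    rw [hu]
    push_cast
    rfl
  have hpΩ0 : ((p : ℕ) : Ω) ≠ 0 := by exact_mod_cast hp.ne_zero
  have hϖΩ0 : (ϖ : Ω) ≠ 0 := by
    intro h
    apply hϖ0
    exact_mod_cast h
  have h1 : (ϖ : Ω) ^ e = ((p : ℕ) : Ω) * ((u : ↥L) : Ω) := by
    rw [hucoe]
    field_simp
  have h2 := congrArg (ford_vQ P hp hP) h1
  rw [AddValuation.map_pow, AddValuation.map_mul, ford_vQ_q, hvu, add_zero] at h2
  have hne : ford_vQ P hp hP (ϖ : Ω) ≠ ⊤ := by
    intro h3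
    exact hϖΩ0 ((AddValuation.top_iff _).mp h3)
  obtain ⟨r, hr⟩ := WithTop.ne_top_iff_exists.mp hne
  rw [← hr] at h2 ⊢
  have h3 : (e : ℚ) * r = 1 := by
    rw [← WithTop.coe_nsmul, nsmul_eq_mul] at h2
    exact_mod_cast h2
  have heq : (e : ℚ) ≠ 0 := by exact_mod_cast he_pos.ne'
  have h4 : r = 1 / (e : ℚ) := by
    field_simp
    linarith
  rw [h4]

/-- **the inertia orbit of an element of `L` has at most `e` elements.** -/
theorem s56r_card_orb_le (x : Ω) (hx : x ∈ L) : (s56r_orb P x).card ≤ s56r_ramIdx P L := by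
  classical
  have hnf : NumberField ↥L := ⟨⟩
  have hgal : IsGalois ℚ ↥L := ⟨⟩
  set A₀ : ValuationSubring ↥L := s18q_A0 P L with hA₀
  have hA₀non : ∀ x : ↥L, x ∈ A₀.nonunits ↔ (x : Ω) ∈ P.nonunits := fun x =>
    s36v_mem_nonunits_comap (algebraMap ↥L Ω) P x
  have hprime : (cfg_center A₀).IsPrime := cfg_center_isPrime
  have hcen : cfg_center A₀ = pta_primeBelow (L := ↥L) P := by
    ext b
    rw [cfg_mem_center_iff, hA₀non, pta_mem_primeBelow]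
    rfl
  have hcard : Nat.card ((cfg_center A₀).inertia (↥L ≃ₐ[ℚ] ↥L)) = s56r_ramIdx P L :=
    s44s_card_inertia (K := ℚ) (𝕃 := ↥L) (cfg_center A₀)
  rw [← hcard]
  let _ : Fintype ((cfg_center A₀).inertia (↥L ≃ₐ[ℚ] ↥L)) := Fintype.ofFinite _
  rw [Nat.card_eq_fintype_card, ← Finset.card_univ]
  let f : ((cfg_center A₀).inertia (↥L ≃ₐ[ℚ] ↥L)) → Ω := fun h =>
    (((h : ↥L ≃ₐ[ℚ] ↥L) ⟨x, hx⟩ : ↥L) : Ω)
  refine le_trans (Finset.card_le_card ?_) (Finset.card_image_le (s := Finset.univ) (f := f))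
  intro w hw
  obtain ⟨σ, hσ, rfl⟩ := (s56r_mem_orb P).mp hw
  rw [Finset.mem_image]
  have hmem : s56g_r L σ ∈ (cfg_center A₀).inertia (↥L ≃ₐ[ℚ] ↥L) := by
    rw [AddSubgroup.mem_inertia, hcen]
    exact s56g_isIn_of_inertia L hσ
  refine ⟨⟨s56g_r L σ, hmem⟩, Finset.mem_univ _, ?_⟩
  exact s56g_r_apply L σ ⟨x, hx⟩

/-- **a finite normal `L` has a uniformizer.** -/
theorem s56r_exists_unif : ∃ π ∈ L, 0 < ford_vQ P hp hP π ∧
    ∀ b ∈ L, 0 < ford_vQ P hp hP b → ford_vQ P hp hP π ≤ ford_vQ P hp hP b := by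
  classical
  have hgal : IsGalois ℚ ↥L := ⟨⟩
  obtain ⟨e, he, -, hval⟩ := s44s_valGroup p hp P hP L
  have heq : (0 : ℚ) < (e : ℚ) := by exact_mod_cast he
  -- the set of positive numerators
  let S : ℕ → Prop := fun k => 0 < k ∧ ∃ b ∈ L, ford_vQ P hp hP b
    = ((((k : ℚ) / (e : ℚ) : ℚ)) : WithTop ℚ)
  have hS : ∃ k, S k := by
    refine ⟨e, he, (p : Ω), natCast_mem L p, ?_⟩
    rw [ford_vQ_q, div_self heq.ne']
    rfl
  refine ⟨(Nat.find_spec hS).2.choose, (Nat.find_spec hS).2.choose_spec.1, ?_, ?_⟩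
  · rw [(Nat.find_spec hS).2.choose_spec.2]
    have : (0 : ℚ) < ((Nat.find hS : ℕ) : ℚ) / (e : ℚ) :=
      div_pos (by exact_mod_cast (Nat.find_spec hS).1) heq
    exact_mod_cast this
  · intro b hb hbpos
    rw [(Nat.find_spec hS).2.choose_spec.2]
    by_cases hb0 : b = 0
    · rw [hb0, AddValuation.map_zero]
      exact le_top
    obtain ⟨k, hk⟩ := hval b hb hb0
    rw [hk] at hbpos ⊢
    have hkpos : (0 : ℚ) < (k : ℚ) / (e : ℚ) := by exact_mod_cast hbpos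
    have hk0 : (0 : ℤ) < k := by
      have h1 : (0 : ℚ) < (k : ℚ) := by
        have := mul_pos hkpos heq
        rwa [div_mul_cancel₀ _ heq.ne'] at this
      exact_mod_cast h1
    have hkS : S k.toNat := by
      refine ⟨by omega, b, hb, ?_⟩
      rw [hk]
      congr 2
      have : ((k.toNat : ℤ) : ℚ) = (k : ℚ) := by
        rw [Int.toNat_of_nonneg hk0.le]
      exact_mod_cast this.symm
    have hmin := Nat.find_min' hS hkS
    have h2 : ((Nat.find hS : ℕ) : ℚ) ≤ (k : ℚ) := by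
      have h3 : ((Nat.find hS : ℕ) : ℤ) ≤ k := by
        have : ((k.toNat : ℕ) : ℤ) = k := Int.toNat_of_nonneg hk0.le
        omega
      exact_mod_cast h3
    have h4 : ((Nat.find hS : ℕ) : ℚ) / (e : ℚ) ≤ (k : ℚ) / (e : ℚ) :=
      div_le_div_of_nonneg_right h2 heq.le
    exact_mod_cast h4

/-- **the valuation of a uniformizer of a finite normal `L` is `1 / #(inertia orbit)`.** -/
theorem s56r_unif_val (π : Ω) (hπL : π ∈ L) (hπ0 : 0 < ford_vQ P hp hP π)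
    (hπmin : ∀ b ∈ L, 0 < ford_vQ P hp hP b → ford_vQ P hp hP π ≤ ford_vQ P hp hP b) :
    ford_vQ P hp hP π
      = ((((1 : ℚ) / ((s56r_orb P π).card : ℚ) : ℚ)) : WithTop ℚ) := by
  obtain ⟨he, ϖ, hϖL, hϖ⟩ := s56r_exists_val_ramIdx hp P hP L
  set e := s56r_ramIdx P L with hedef
  have heq : (0 : ℚ) < (e : ℚ) := by exact_mod_cast he
  have hϖpos : 0 < ford_vQ P hp hP ϖ := by
    rw [hϖ]
    have : (0 : ℚ) < 1 / (e : ℚ) := by positivity
    exact_mod_cast this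
  have hle := hπmin ϖ hϖL hϖpos
  have hne : ford_vQ P hp hP π ≠ ⊤ := by
    intro h
    rw [h, hϖ] at hle
    exact WithTop.coe_ne_top (top_le_iff.mp hle)
  obtain ⟨r, hr⟩ := WithTop.ne_top_iff_exists.mp hne
  rw [← hr] at hπ0 hle ⊢
  rw [hϖ] at hle
  have hr0 : 0 < r := by exact_mod_cast hπ0
  have hr1 : r ≤ 1 / (e : ℚ) := by exact_mod_cast hle
  have hcard := s56r_card_orb_le P L π hπL
  have hlow : 1 ≤ ((s56r_orb P π).card : ℚ) * r :=
    s56r_one_le_card_mul (ford_vQ P hp hP) (Γ := ↥(P.inertiaSubgroupIn ℚ))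
      (s56r_inertia_int' hp P hP) (s56r_inertia_val hp P hP) π (s56r_orb P π)
      (fun w => s56r_mem_orb' P) r hr.symm hr0
  have hcq : ((s56r_orb P π).card : ℚ) ≤ (e : ℚ) := by exact_mod_cast hcard
  have hcpos : (0 : ℚ) < ((s56r_orb P π).card : ℚ) := by
    have : 0 < (s56r_orb P π).card := Finset.card_pos.mpr ⟨π, s56r_self_mem_orb P π⟩
    exact_mod_cast this
  -- `#X * r ≤ e * (1/e) = 1`
  have hup : ((s56r_orb P π).card : ℚ) * r ≤ 1 := by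
    calc ((s56r_orb P π).card : ℚ) * r ≤ (e : ℚ) * (1 / (e : ℚ)) :=
          mul_le_mul hcq hr1 hr0.le heq.le
      _ = 1 := by field_simp
  have heq1 : ((s56r_orb P π).card : ℚ) * r = 1 := le_antisymm hup hlow
  have : r = 1 / ((s56r_orb P π).card : ℚ) := by
    field_simp
    linarith
  rw [this]

/-- **the stabilizer of a uniformizer in the inertia group fixes `L` pointwise.** -/
theorem s56r_stab_unif (π : Ω) (hπL : π ∈ L) (hπ0 : 0 < ford_vQ P hp hP π)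
    (hπmin : ∀ b ∈ L, 0 < ford_vQ P hp hP b → ford_vQ P hp hP π ≤ ford_vQ P hp hP b)
    (ι : GQ) (hι : ι ∈ P.inertiaSubgroupIn ℚ) (hιπ : ι π = π) : ∀ x ∈ L, ι x = x := by
  classical
  have hnf : NumberField ↥L := ⟨⟩
  have hgal : IsGalois ℚ ↥L := ⟨⟩
  -- `#X = e`
  obtain ⟨he, ϖ, hϖL, hϖ⟩ := s56r_exists_val_ramIdx hp P hP L
  have hπval := s56r_unif_val hp P hP L π hπL hπ0 hπmin
  have hcard_le := s56r_card_orb_le P L π hπL
  have hXpos : 0 < (s56r_orb P π).card := Finset.card_pos.mpr ⟨π, s56r_self_mem_orb P π⟩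
  have hcard_ge : s56r_ramIdx P L ≤ (s56r_orb P π).card := by
    have hϖpos : 0 < ford_vQ P hp hP ϖ := by
      rw [hϖ]
      have : (0 : ℚ) < 1 / (s56r_ramIdx P L : ℚ) := by
        have : (0 : ℚ) < (s56r_ramIdx P L : ℚ) := by exact_mod_cast he
        positivity
      exact_mod_cast this
    have hle := hπmin ϖ hϖL hϖpos
    rw [hπval, hϖ] at hle
    have h1 : (1 : ℚ) / ((s56r_orb P π).card : ℚ) ≤ 1 / (s56r_ramIdx P L : ℚ) := by
      exact_mod_cast hle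
    have h2 : (0 : ℚ) < ((s56r_orb P π).card : ℚ) := by exact_mod_cast hXpos
    have h3 : (0 : ℚ) < (s56r_ramIdx P L : ℚ) := by exact_mod_cast he
    rw [div_le_div_iff₀ h2 h3] at h1
    have h4 : (s56r_ramIdx P L : ℚ) ≤ ((s56r_orb P π).card : ℚ) := by linarith
    exact_mod_cast h4
  have hcardX : (s56r_orb P π).card = s56r_ramIdx P L := le_antisymm hcard_le hcard_ge
  -- the evaluation map on the inertia group of `L`
  set A₀ : ValuationSubring ↥L := s18q_A0 P L with hA₀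
  have hA₀non : ∀ x : ↥L, x ∈ A₀.nonunits ↔ (x : Ω) ∈ P.nonunits := fun x =>
    s36v_mem_nonunits_comap (algebraMap ↥L Ω) P x
  have hprime : (cfg_center A₀).IsPrime := cfg_center_isPrime
  have hcen : cfg_center A₀ = pta_primeBelow (L := ↥L) P := by
    ext b
    rw [cfg_mem_center_iff, hA₀non, pta_mem_primeBelow]
    rfl
  have hcard : Nat.card ((cfg_center A₀).inertia (↥L ≃ₐ[ℚ] ↥L)) = s56r_ramIdx P L :=
    s44s_card_inertia (K := ℚ) (𝕃 := ↥L) (cfg_center A₀)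
  let _ : Fintype ((cfg_center A₀).inertia (↥L ≃ₐ[ℚ] ↥L)) := Fintype.ofFinite _
  rw [Nat.card_eq_fintype_card, ← Finset.card_univ] at hcard
  let f : ((cfg_center A₀).inertia (↥L ≃ₐ[ℚ] ↥L)) → Ω := fun h =>
    (((h : ↥L ≃ₐ[ℚ] ↥L) ⟨π, hπL⟩ : ↥L) : Ω)
  have hmem : ∀ σ ∈ P.inertiaSubgroupIn ℚ,
      s56g_r L σ ∈ (cfg_center A₀).inertia (↥L ≃ₐ[ℚ] ↥L) := by
    intro σ hσ
    rw [AddSubgroup.mem_inertia, hcen]
    exact s56g_isIn_of_inertia L hσ
  have hsub : s56r_orb P π ⊆ Finset.univ.image f := by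
    intro w hw
    obtain ⟨σ, hσ, rfl⟩ := (s56r_mem_orb P).mp hw
    rw [Finset.mem_image]
    exact ⟨⟨s56g_r L σ, hmem σ hσ⟩, Finset.mem_univ _, s56g_r_apply L σ ⟨π, hπL⟩⟩
  have hinj : Set.InjOn f (Finset.univ : Finset ((cfg_center A₀).inertia (↥L ≃ₐ[ℚ] ↥L))) := by
    rw [← Finset.card_image_iff]
    refine le_antisymm Finset.card_image_le ?_
    rw [hcard, ← hcardX]
    exact Finset.card_le_card hsub
  have h1 : f ⟨s56g_r L ι, hmem ι hι⟩ = f ⟨s56g_r L 1, hmem 1 (one_mem _)⟩ := by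
    show (((s56g_r L ι) ⟨π, hπL⟩ : ↥L) : Ω) = (((s56g_r L 1) ⟨π, hπL⟩ : ↥L) : Ω)
    rw [s56g_r_apply, s56g_r_apply, hιπ]
    rfl
  have h2 := hinj (Finset.mem_coe.mpr (Finset.mem_univ _)) (Finset.mem_coe.mpr (Finset.mem_univ _)) h1
  have h3 : s56g_r L ι = s56g_r L 1 := congrArg Subtype.val h2
  rw [map_one] at h3
  have h4 := (s56g_r_eq_one_iff L ι).mp h3
  exact (IntermediateField.mem_fixingSubgroup_iff L ι).mp h4

end level

section GamL

variable (P : ValuationSubring Ω) (L : IntermediateField ℚ Ω) [Normal ℚ ↥L]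

omit [Normal ℚ ↥L] in
/-- a normal subfield is stable under `Gal(ℚ̄/ℚ)` -/
lemma s56r_normal_stable [Normal ℚ ↥L] (g : GQ) (x : Ω) (hx : x ∈ L) : g x ∈ L := by
  have hcl : IsAlgClosure ℚ Ω := ⟨inferInstance, AlgebraicClosure.isAlgebraic ℚ⟩
  have hnQ : Normal ℚ Ω := IsAlgClosure.normal ℚ Ω
  have h1 := IntermediateField.normal_iff_forall_map_le'.mp (inferInstance : Normal ℚ ↥L) g
  exact h1 ((IntermediateField.mem_map _).mpr ⟨x, hx, rfl⟩)

/-- `Γ̃_L`: the elements of `Gal(ℚ̄/ℚ)` acting on `L` like an element of the inertia group. -/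
def s56r_GamL : Subgroup GQ where
  carrier := {γ | ∃ ι ∈ P.inertiaSubgroupIn ℚ, ∀ x ∈ L, γ x = ι x}
  mul_mem' := by
    rintro a b ⟨ι, hι, ha⟩ ⟨κ, hκ, hb⟩
    refine ⟨ι * κ, mul_mem hι hκ, fun x hx => ?_⟩
    rw [AlgEquiv.mul_apply, AlgEquiv.mul_apply, hb x hx, ha _ (s56r_normal_stable L κ x hx)]
  one_mem' := ⟨1, one_mem _, fun _ _ => rfl⟩
  inv_mem' := by
    rintro a ⟨ι, hι, ha⟩
    refine ⟨ι⁻¹, inv_mem hι, fun x hx => ?_⟩
    have h1 : a (ι⁻¹ x) = x := by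
      rw [ha _ (s56r_normal_stable L ι⁻¹ x hx), ← AlgEquiv.mul_apply, mul_inv_cancel,
        AlgEquiv.one_apply]
    have h2 : a⁻¹ (a (ι⁻¹ x)) = ι⁻¹ x := by
      rw [← AlgEquiv.mul_apply, inv_mul_cancel, AlgEquiv.one_apply]
    rw [h1] at h2
    exact h2

lemma s56r_mem_GamL {γ : GQ} :
    γ ∈ s56r_GamL P L ↔ ∃ ι ∈ P.inertiaSubgroupIn ℚ, ∀ x ∈ L, γ x = ι x := Iff.rfl

lemma s56r_inertia_le_GamL : P.inertiaSubgroupIn ℚ ≤ s56r_GamL P L :=
  fun ι hι => ⟨ι, hι, fun _ _ => rfl⟩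

lemma s56r_fixing_le_GamL : L.fixingSubgroup ≤ s56r_GamL P L := by
  intro γ hγ
  refine ⟨1, one_mem _, fun x hx => ?_⟩
  rw [(IntermediateField.mem_fixingSubgroup_iff L γ).mp hγ x hx]
  rfl

/-- an element fixed by `Γ̃_L` lies in `L` -/
lemma s56r_mem_of_GamL_fixed (a : Ω) (ha : ∀ γ : ↥(s56r_GamL P L), γ • a = a) : a ∈ L := by
  have : IsGalois ℚ Ω := cfg_isGalois_QBar
  rw [← InfiniteGalois.fixedField_fixingSubgroup L, IntermediateField.mem_fixedField_iff]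
  intro γ hγ
  exact ha ⟨γ, s56r_fixing_le_GamL P L hγ⟩

/-- on `L`, the `Γ̃_L`-orbits are the inertia orbits -/
lemma s56r_mem_orb_GamL {x w : Ω} (hx : x ∈ L) :
    w ∈ s56r_orb P x ↔ ∃ γ : ↥(s56r_GamL P L), γ • x = w := by
  rw [s56r_mem_orb]
  constructor
  · rintro ⟨σ, hσ, rfl⟩
    exact ⟨⟨σ, s56r_inertia_le_GamL P L hσ⟩, rfl⟩
  · rintro ⟨⟨γ, ι, hι, hγ⟩, rfl⟩
    exact ⟨ι, hι, (hγ x hx).symm⟩

end GamL

end Fermat.Agent.Lib.S56
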