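/-
PROGRAMME W (S56), wall [W7] (helper7, prefix `s56h_`): **Chebotarev wrap.**

* `s56h_cheb` : for a homomorphism `t : G_ℚ →* T` of finite level, a finite set `S'` of primes and `σ₀ ∈ G_ℚ`, there
  is a prime `q ∉ S'` such that EVERY Frobenius `φ` at EVERY place over `q` has `t φ = t (g σ₀ g⁻¹)` for some `g`;
* `s56h_cheb_seq` : the same for a finite family `σs : Fin m → G_ℚ`, with pairwise distinct primes;
* `s56h_finiteLevel_pi` : finite products of finite-level homomorphisms are of finite level.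
-/
import Fermat.Agent.Lib.S48.ChebFinal
import Fermat.Agent.Lib.S48.TDens
import Fermat.Agent.Lib.S48.TGal

set_option autoImplicit false
set_option linter.style.haveILetI false

noncomputable section

namespace Fermat.Agent.Lib.S56

open Fermat.Agent.Lib.S48

local notation "GQ" => (AlgebraicClosure ℚ ≃ₐ[ℚ] AlgebraicClosure ℚ)

theorem s56h_cheb {T : Type} [Group T] (t : GQ →* T) (hfin : GaloisFactorsThroughFiniteLevel t)
    (S' : Finset ℕ) (σ₀ : GQ) :
    ∃ q : ℕ, q.Prime ∧ q ∉ S' ∧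
      ∀ A : ValuationSubring (AlgebraicClosure ℚ), A.LiesOverPrime q →
        ∀ φ : GQ, A.IsFrobeniusAt φ q → ∃ g : GQ, t φ = t (g * σ₀ * g⁻¹) := by
  classical
  haveI : Finite t.range := by
    have := s48t_finite_range hfin
    rw [← MonoidHom.coe_range] at this
    exact this.to_subtype
  letI : Fintype t.range := Fintype.ofFinite _
  set r : GQ →* t.range := t.rangeRestrict with hr
  have hrsurj : Function.Surjective r := t.rangeRestrict_surjective
  have hrfin : GaloisFactorsThroughFiniteLevel r := s48t_finiteLevel_rangeRestrict hfin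
  set C : Set t.range := {x | ∃ h : t.range, x = h * r σ₀ * h⁻¹} with hC
  have hCconj : ∀ x k : t.range, x ∈ C → k * x * k⁻¹ ∈ C := by
    rintro x k ⟨h, rfl⟩
    exact ⟨k * h, by group⟩
  have hgC : r σ₀ ∈ C := ⟨1, by group⟩
  have hdens : s48r_LowerDensity
      {p | p.Prime ∧ p ∉ S' ∧ ∀ A : ValuationSubring (AlgebraicClosure ℚ), A.LiesOverPrime p →
        ∀ σ : GQ, A.IsFrobeniusAt σ p → r σ ∈ C}
      ((Nat.card C : ℝ) / Nat.card t.range) :=
    s48c_chebotarev t.range r hrsurj hrfin S' C hCconj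
  haveI : Nonempty C := ⟨⟨r σ₀, hgC⟩⟩
  have hpos : (0 : ℝ) < (Nat.card C : ℝ) / Nat.card t.range := by
    have h1 : 0 < Nat.card C := Nat.card_pos
    have h2 : 0 < Nat.card t.range := Nat.card_pos
    positivity
  obtain ⟨q, hq, hqS, hfrob⟩ := s48t_nonempty_of_lowerDensity hpos hdens
  refine ⟨q, hq, hqS, fun A hA φ hφ => ?_⟩
  obtain ⟨h, hh⟩ := hfrob A hA φ hφ
  obtain ⟨g, rfl⟩ := hrsurj h
  refine ⟨g, ?_⟩
  have h1 : r φ = r (g * σ₀ * g⁻¹) := by rw [hh, map_mul, map_mul, map_inv]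
  have h2 := congrArg Subtype.val h1
  rw [hr, MonoidHom.coe_rangeRestrict, MonoidHom.coe_rangeRestrict] at h2
  exact h2

theorem s56h_cheb_seq {T : Type} [Group T] (t : GQ →* T) (hfin : GaloisFactorsThroughFiniteLevel t) :
    ∀ (m : ℕ) (S' : Finset ℕ) (σs : Fin m → GQ),
      ∃ qv : Fin m → ℕ, Function.Injective qv ∧ ∀ i, (qv i).Prime ∧ qv i ∉ S' ∧
        ∀ A : ValuationSubring (AlgebraicClosure ℚ), A.LiesOverPrime (qv i) →
          ∀ φ : GQ, A.IsFrobeniusAt φ (qv i) → ∃ g : GQ, t φ = t (g * σs i * g⁻¹) := by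
  classical
  intro m
  induction m with
  | zero =>
    intro S' σs
    exact ⟨Fin.elim0, fun i => i.elim0, fun i => i.elim0⟩
  | succ m ih =>
    intro S' σs
    obtain ⟨q₀, hq₀, hq₀S, hfr₀⟩ := s56h_cheb t hfin S' (σs 0)
    obtain ⟨qv', hinj', hqv'⟩ := ih (insert q₀ S') (Fin.tail σs)
    refine ⟨Fin.cons q₀ qv', ?_, ?_⟩
    · rw [Fin.cons_injective_iff]
      refine ⟨?_, hinj'⟩
      rintro ⟨i, hi⟩
      exact (hqv' i).2.1 (by rw [hi]; exact Finset.mem_insert_self _ _)
    · intro i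
      refine Fin.cases ?_ (fun j => ?_) i
      · rw [Fin.cons_zero]
        exact ⟨hq₀, hq₀S, hfr₀⟩
      · rw [Fin.cons_succ]
        obtain ⟨h1, h2, h3⟩ := hqv' j
        exact ⟨h1, fun h => h2 (Finset.mem_insert_of_mem h), h3⟩

/-- finite products of finite-level homomorphisms are of finite level. -/
theorem s56h_finiteLevel_pi {ι : Type} [Finite ι] {M : ι → Type} [∀ i, MulOneClass (M i)]
    (ρ : ∀ i, GQ →* M i) (h : ∀ i, GaloisFactorsThroughFiniteLevel (ρ i)) :
    GaloisFactorsThroughFiniteLevel (MonoidHom.pi ρ) := by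
  choose L hL hρ using h
  haveI := hL
  refine ⟨⨆ i, L i, IntermediateField.finiteDimensional_iSup_of_finite, fun σ hσ => ?_⟩
  funext i
  exact hρ i σ fun x hx => hσ x ((le_iSup L i) hx)

end Fermat.Agent.Lib.S56
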