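/-
Programme W (S56), wall [W8-F4] (helper5, prefix `s56o_`): the algebraic core of the "small points" lemma.

`s56o_end_eq_one`: `M` a module without `p`-torsion and `p`-adically separated, `p` an odd prime,
`T` an endomorphism of `M` with `T^p = 1` and `(T − 1) M ⊆ p M`.  Then `T = 1`.
("`1 + p·End(M)` has no `p`-torsion".)
-/
import Mathlib

set_option autoImplicit false

namespace Fermat.Agent.Lib.S56

variable {R : Type*} [CommRing R] {M : Type*} [AddCommGroup M] [Module R M]

/-- the subgroup `p^n M`. -/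
def s56o_pPow (M : Type*) [AddCommGroup M] (p n : ℕ) : AddSubgroup M :=
  (zsmulAddGroupHom ((p : ℤ) ^ n) : M →+ M).range

theorem s56o_mem_pPow {p n : ℕ} {m : M} :
    m ∈ s56o_pPow M p n ↔ ∃ m' : M, ((p : ℤ) ^ n) • m' = m := by
  rw [s56o_pPow, AddMonoidHom.mem_range]
  rfl

theorem s56o_pPow_anti {p a b : ℕ} (hab : a ≤ b) : s56o_pPow M p b ≤ s56o_pPow M p a := by
  intro m hm
  obtain ⟨m', rfl⟩ := s56o_mem_pPow.mp hm
  obtain ⟨c, rfl⟩ := Nat.exists_eq_add_of_le hab
  exact s56o_mem_pPow.mpr ⟨((p : ℤ) ^ c) • m', by rw [smul_smul, ← pow_add]⟩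

theorem s56o_smul_mem_pPow {p a : ℕ} (b : ℕ) {m : M} (hm : m ∈ s56o_pPow M p a) :
    ((p : ℤ) ^ b) • m ∈ s56o_pPow M p (a + b) := by
  obtain ⟨m', rfl⟩ := s56o_mem_pPow.mp hm
  exact s56o_mem_pPow.mpr ⟨m', by rw [smul_smul, ← pow_add, add_comm]⟩

/-- if `N M ⊆ p^n M` then `N (p^a M) ⊆ p^(a+n) M`. -/
theorem s56o_map_pPow {p n : ℕ} (N : Module.End R M) (hN : ∀ m, N m ∈ s56o_pPow M p n) (a : ℕ)
    {m : M} (hm : m ∈ s56o_pPow M p a) : N m ∈ s56o_pPow M p (a + n) := by
  obtain ⟨m', rfl⟩ := s56o_mem_pPow.mp hm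
  rw [map_zsmul, add_comm]
  exact s56o_smul_mem_pPow a (hN m')

theorem s56o_pow_mem_pPow {p n : ℕ} (N : Module.End R M) (hN : ∀ m, N m ∈ s56o_pPow M p n) (j : ℕ)
    (m : M) : (N ^ j) m ∈ s56o_pPow M p (j * n) := by
  induction j generalizing m with
  | zero =>
    rw [zero_mul]
    exact s56o_mem_pPow.mpr ⟨m, by rw [pow_zero, one_smul]; rfl⟩
  | succ j ih =>
    rw [pow_succ', Module.End.mul_apply, Nat.succ_mul]
    exact s56o_map_pPow N hN _ (ih m)

/-- **the algebraic small-points lemma.** -/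
theorem s56o_end_eq_one {p : ℕ} (hp : p.Prime) (hp2 : p ≠ 2)
    (htf : ∀ m : M, (p : ℤ) • m = 0 → m = 0)
    (hsep : ∀ m : M, (∀ n : ℕ, m ∈ s56o_pPow M p n) → m = 0)
    (T : Module.End R M) (hTp : T ^ p = 1) (hT : ∀ m, T m - m ∈ s56o_pPow M p 1) : T = 1 := by
  have hp3 : 3 ≤ p := by
    have := hp.two_le
    omega
  set N : Module.End R M := T - 1 with hNdef
  have hTN : T = 1 + N := by rw [hNdef]; abel
  have hN1 : ∀ m, N m ∈ s56o_pPow M p 1 := fun m => by
    rw [hNdef, LinearMap.sub_apply, Module.End.one_apply]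
    exact hT m
  -- the binomial expansion
  have hexp : ∀ m : M, (p : ℤ) • N m =
      -(∑ j ∈ Finset.Ico 2 (p + 1), (p.choose j : ℤ) • (N ^ j) m) := by
    intro m
    have h1 : (1 + N) ^ p = ∑ j ∈ Finset.range (p + 1), N ^ j * (p.choose j : Module.End R M) := by
      rw [add_comm, (Commute.one_right N).add_pow]
      refine Finset.sum_congr rfl fun j _ => ?_
      rw [one_pow, mul_one]
    rw [← hTN, hTp] at h1
    have h2 := congrArg (fun f : Module.End R M => f m) h1
    simp only [Module.End.one_apply] at h2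
    have h3 : ∀ j : ℕ, (N ^ j * (p.choose j : Module.End R M)) m = (p.choose j : ℤ) • (N ^ j) m := by
      intro j
      rw [Module.End.mul_apply, Module.End.natCast_apply, map_nsmul, natCast_zsmul]
    have h4 : (∑ j ∈ Finset.range (p + 1), N ^ j * (p.choose j : Module.End R M)) m =
        ∑ j ∈ Finset.range (p + 1), (p.choose j : ℤ) • (N ^ j) m := by
      rw [LinearMap.sum_apply]
      exact Finset.sum_congr rfl fun j _ => h3 j
    rw [h4, Finset.range_eq_Ico, ← Finset.sum_Ico_consecutive _ (show 0 ≤ 2 by omega)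
      (show 2 ≤ p + 1 by omega)] at h2
    have h5 : ∑ j ∈ Finset.Ico 0 2, (p.choose j : ℤ) • (N ^ j) m = m + (p : ℤ) • N m := by
      rw [show Finset.Ico 0 2 = {0, 1} from rfl, Finset.sum_pair (by omega)]
      simp
    rw [h5] at h2
    have h6 : (p : ℤ) • N m + ∑ j ∈ Finset.Ico 2 (p + 1), (p.choose j : ℤ) • (N ^ j) m = 0 := by
      have := sub_eq_zero.mpr h2.symm
      rw [← this]; abel
    exact eq_neg_of_add_eq_zero_left h6
  -- induction: `N M ⊆ p^n M`
  have hind : ∀ n : ℕ, 1 ≤ n → (∀ m, N m ∈ s56o_pPow M p n) → ∀ m, N m ∈ s56o_pPow M p (2 * n) := by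
    intro n hn hNn m
    have hsum : (∑ j ∈ Finset.Ico 2 (p + 1), (p.choose j : ℤ) • (N ^ j) m) ∈
        s56o_pPow M p (2 * n + 1) := by
      refine AddSubgroup.sum_mem _ fun j hj => ?_
      rw [Finset.mem_Ico] at hj
      have hpow := s56o_pow_mem_pPow N hNn j m
      by_cases hjp : j = p
      · subst hjp
        rw [Nat.choose_self, Nat.cast_one, one_smul]
        refine s56o_pPow_anti ?_ hpow
        nlinarith
      · have hdvd : (p : ℤ) ∣ (p.choose j : ℤ) := by
          exact_mod_cast hp.dvd_choose_self (by omega) (by omega)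
        obtain ⟨c, hc⟩ := hdvd
        rw [hc, mul_comm, mul_smul, smul_comm]
        have h7 : (p : ℤ) • (N ^ j) m ∈ s56o_pPow M p (j * n + 1) := by
          have := s56o_smul_mem_pPow 1 hpow
          rwa [pow_one] at this
        refine AddSubgroup.zsmul_mem _ (s56o_pPow_anti ?_ h7) c
        nlinarith
    have h8 : (p : ℤ) • N m ∈ s56o_pPow M p (2 * n + 1) := by
      rw [hexp m]
      exact AddSubgroup.neg_mem _ hsum
    obtain ⟨m', hm'⟩ := s56o_mem_pPow.mp h8
    refine s56o_mem_pPow.mpr ⟨m', ?_⟩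
    apply sub_eq_zero.mp
    apply htf
    rw [smul_sub, ← hm', smul_smul, ← pow_succ', sub_self]
  have hall : ∀ n : ℕ, ∀ m, N m ∈ s56o_pPow M p (n + 1) := by
    intro n
    induction n with
    | zero => exact hN1
    | succ n ih =>
      intro m
      exact s56o_pPow_anti (by omega) (hind (n + 1) (by omega) ih m)
  have hN0 : ∀ m, N m = 0 := fun m => hsep _ fun n => s56o_pPow_anti (by omega) (hall n m)
  ext m
  have := hN0 m
  rw [hNdef, LinearMap.sub_apply, sub_eq_zero] at this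
  exact this

end Fermat.Agent.Lib.S56
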