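/-
Programme W (S56), wall [W8-F4] (helper5, prefix `s56o_`): **small points for quotients (SPQ).**

`F` a function order on the finite abelian group `W` (over `O = P ∩ ℚ̄^{I_P}`, `p` odd), `Z ≤ W` an
`I_P`-stable subgroup, `u ∈ W` with `p u = 0` in the reduction kernel (`a i u ≡ a i 0 mod 𝔪_P`) and
`σ u − u ∈ Z` for all `σ ∈ I_P`.  Then `u ∈ Z`.
("A connected finite flat group scheme over an unramified base has no non-trivial unramified quotient.")
-/
import Fermat.Agent.Lib.S56.FOrder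
import Fermat.Agent.Lib.S56.FAlg

set_option autoImplicit false
set_option linter.style.haveILetI false

noncomputable section

namespace Fermat.Agent.Lib.S56

open Finset

local notation "Ω" => AlgebraicClosure ℚ
local notation "Γℚ" => (AlgebraicClosure ℚ ≃ₐ[ℚ] AlgebraicClosure ℚ)

variable {p : ℕ} {P : ValuationSubring Ω} {W ι : Type} [AddCommGroup W] [Fintype ι]

/-! ### the maximal ideal of `P` -/

theorem s56o_nonunits_zero (P : ValuationSubring Ω) : (0 : Ω) ∈ P.nonunits := by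
  rw [P.mem_nonunits_iff, map_zero]; exact zero_lt_one

theorem s56o_nonunits_add {x y : Ω} (hx : x ∈ P.nonunits) (hy : y ∈ P.nonunits) :
    x + y ∈ P.nonunits := by
  rw [P.mem_nonunits_iff] at *
  exact lt_of_le_of_lt (P.valuation.map_add x y) (max_lt hx hy)

theorem s56o_nonunits_mul {x y : Ω} (hx : x ∈ P) (hy : y ∈ P.nonunits) : x * y ∈ P.nonunits := by
  rw [P.mem_nonunits_iff] at *
  rw [map_mul]
  exact mul_lt_one_of_nonneg_of_lt_one_right ((P.valuation_le_one_iff _).mpr hx) zero_le hy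

theorem s56o_nonunits_neg {x : Ω} (hx : x ∈ P.nonunits) : -x ∈ P.nonunits := by
  rw [P.mem_nonunits_iff] at *
  rwa [Valuation.map_neg]

theorem s56o_nonunits_sum {κ : Type*} (s : Finset κ) (f : κ → Ω) (hf : ∀ k ∈ s, f k ∈ P.nonunits) :
    ∑ k ∈ s, f k ∈ P.nonunits := by
  classical
  induction s using Finset.induction_on with
  | empty => rw [sum_empty]; exact s56o_nonunits_zero P
  | insert k s hk ih =>
    rw [sum_insert hk]
    exact s56o_nonunits_add (hf k (mem_insert_self k s))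
      (ih fun k' hk' => hf k' (mem_insert_of_mem hk'))

/-! ### translation, invariant functions -/

/-- translation by `u`. -/
def s56o_transl (P : ValuationSubring Ω) (u : W) : (W → Ω) →ₗ[↥(s56o_Our P)] (W → Ω) where
  toFun f := fun w => f (w + u)
  map_add' _ _ := rfl
  map_smul' _ _ := rfl

theorem s56o_transl_apply (u : W) (f : W → Ω) (w : W) : s56o_transl P u f w = f (w + u) := rfl

/-- the `Z`-invariant functions. -/
def s56o_invFun (P : ValuationSubring Ω) (Z : AddSubgroup W) :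
    Submodule ↥(s56o_Our P) (W → Ω) where
  carrier := {f | ∀ z ∈ Z, ∀ w, f (w + z) = f w}
  add_mem' := fun {f g} hf hg z hz w => by
    show f _ + g _ = f w + g w
    rw [hf z hz, hg z hz]
  zero_mem' := fun _ _ _ => rfl
  smul_mem' := fun x f hf z hz w => by
    show (x : Ω) * f _ = (x : Ω) * f w
    rw [hf z hz]

namespace s56o_FnOrder

variable (F : s56o_FnOrder P W ι)

/-- `B` : the `Z`-invariant elements of `𝒜`. -/
def B (Z : AddSubgroup W) : Submodule ↥(s56o_Our P) (W → Ω) := F.A ⊓ s56o_invFun P Z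

theorem mem_B {Z : AddSubgroup W} {f : W → Ω} :
    f ∈ F.B Z ↔ f ∈ F.A ∧ ∀ z ∈ Z, ∀ w, f (w + z) = f w := Iff.rfl

/-! ### consequences of the `ℚ̄`-independent `O`-basis -/

section basisData

variable {n : ℕ} {c : Fin n → W → Ω}

/-- (C) comultiplication in terms of the basis. -/
theorem comul_basis
    (hrepr : ∀ f ∈ F.A, ∃ l : Fin n → Ω, (∀ j, l j ∈ s56o_Our P) ∧ ∀ w, f w = ∑ j, l j * c j w)
    {f : W → Ω} (hf : f ∈ F.A) :
    ∃ ξ : Fin n → W → Ω, (∀ k, ξ k ∈ F.A) ∧ ∀ w v, f (w + v) = ∑ k, ξ k v * c k w := by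
  induction hf using Submodule.span_induction with
  | mem f hf =>
    obtain ⟨i, rfl⟩ := hf
    obtain ⟨η, hη, hcomul⟩ := F.comul i
    choose l hlO hl using fun i' => hrepr (F.a i') (F.a_mem i')
    refine ⟨fun k => ∑ i', (⟨l i' k, hlO i' k⟩ : ↥(s56o_Our P)) • η i', fun k => ?_, fun w v => ?_⟩
    · exact Submodule.sum_mem _ fun i' _ => Submodule.smul_mem _ _ (hη i')
    · rw [hcomul]
      have h1 : ∀ k, (∑ i', (⟨l i' k, hlO i' k⟩ : ↥(s56o_Our P)) • η i') v =
          ∑ i', l i' k * η i' v := by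
        intro k
        rw [Finset.sum_apply]
        rfl
      simp only [h1]
      calc ∑ i', η i' v * F.a i' w = ∑ i', η i' v * ∑ k, l i' k * c k w := by
            refine sum_congr rfl fun i' _ => ?_
            rw [hl i' w]
        _ = ∑ i', ∑ k, (l i' k * η i' v) * c k w := by
            refine sum_congr rfl fun i' _ => ?_
            rw [mul_sum]
            refine sum_congr rfl fun k _ => ?_
            ring
        _ = ∑ k, ∑ i', (l i' k * η i' v) * c k w := sum_comm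
        _ = ∑ k, (∑ i', l i' k * η i' v) * c k w := by
            refine sum_congr rfl fun k _ => ?_
            rw [sum_mul]
  | zero =>
    refine ⟨fun _ => 0, fun _ => F.A.zero_mem, fun w v => ?_⟩
    simp
  | add f g _ _ hf hg =>
    obtain ⟨ξ, hξ, h1⟩ := hf
    obtain ⟨ξ', hξ', h2⟩ := hg
    refine ⟨fun k => ξ k + ξ' k, fun k => F.A.add_mem (hξ k) (hξ' k), fun w v => ?_⟩
    show f (w + v) + g (w + v) = _
    rw [h1, h2, ← sum_add_distrib]
    refine sum_congr rfl fun k _ => ?_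
    show _ = (ξ k v + ξ' k v) * c k w
    ring
  | smul x f _ hf =>
    obtain ⟨ξ, hξ, h1⟩ := hf
    refine ⟨fun k => x • ξ k, fun k => F.A.smul_mem x (hξ k), fun w v => ?_⟩
    show (x : Ω) * f (w + v) = _
    rw [h1, mul_sum]
    refine sum_congr rfl fun k _ => ?_
    show _ = ((x : Ω) * ξ k v) * c k w
    ring

/-- (U) smallness at `u` propagates from the generators to `𝒜`. -/
theorem small_of_gen {u : W} (hu : ∀ i, F.a i u - F.a i 0 ∈ P.nonunits) {f : W → Ω}
    (hf : f ∈ F.A) : f u - f 0 ∈ P.nonunits := by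
  induction hf using Submodule.span_induction with
  | mem f hf =>
    obtain ⟨i, rfl⟩ := hf
    exact hu i
  | zero =>
    show (0 : Ω) - 0 ∈ P.nonunits
    rw [sub_zero]
    exact s56o_nonunits_zero P
  | add f g _ _ hf hg =>
    have : (f + g) u - (f + g) 0 = (f u - f 0) + (g u - g 0) := by
      show f u + g u - (f 0 + g 0) = _
      ring
    rw [this]
    exact s56o_nonunits_add hf hg
  | smul x f _ hf =>
    have : (x • f) u - (x • f) 0 = (x : Ω) * (f u - f 0) := by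
      show (x : Ω) * f u - (x : Ω) * f 0 = _
      ring
    rw [this]
    exact s56o_nonunits_mul x.2.1 hf

/-- (D) descent of coefficients: the coefficients of an `I_P`-equivariant function are `I_P`-fixed. -/
theorem descent (hcA : ∀ j, c j ∈ F.A)
    (hind : ∀ l : Fin n → Ω, (∀ w, ∑ j, l j * c j w = 0) → l = 0)
    {f : W → Ω} {l : Fin n → Ω} (hf : ∀ w, f w = ∑ j, l j * c j w)
    (heq : ∀ σ ∈ P.inertiaSubgroupIn ℚ, ∀ w, f (F.act σ w) = σ (f w)) :
    ∀ σ ∈ P.inertiaSubgroupIn ℚ, ∀ j, σ (l j) = l j := by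
  intro σ hσ
  have h1 : ∀ w, ∑ j, σ.symm (l j - σ (l j)) * c j w = 0 := by
    intro w
    have h2 : ∑ j, (l j - σ (l j)) * σ (c j w) = 0 := by
      have e1 : f (F.act σ w) = ∑ j, l j * σ (c j w) := by
        rw [hf]
        refine sum_congr rfl fun j _ => ?_
        rw [F.A_equivariant (hcA j) σ hσ]
      have e2 : σ (f w) = ∑ j, σ (l j) * σ (c j w) := by
        rw [hf, map_sum]
        refine sum_congr rfl fun j _ => ?_
        rw [map_mul]
      have e3 := heq σ hσ w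
      rw [e1, e2] at e3
      simp only [sub_mul, sum_sub_distrib]
      rw [e3, sub_self]
    have h3 := congrArg σ.symm h2
    rw [map_sum, map_zero] at h3
    rw [← h3]
    refine sum_congr rfl fun j _ => ?_
    rw [map_mul, AlgEquiv.symm_apply_apply]
  have h4 := hind _ h1
  intro j
  have h5 : σ.symm (l j - σ (l j)) = 0 := congrFun h4 j
  have h6 : l j - σ (l j) = 0 := by
    have := congrArg σ h5
    rwa [AlgEquiv.apply_symm_apply, map_zero] at this
  exact (sub_eq_zero.mp h6).symm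

/-- a combination of the basis with coefficients in `O` is in `𝒜`. -/
theorem mem_A_of_coeff (hcA : ∀ j, c j ∈ F.A) {f : W → Ω} {l : Fin n → Ω}
    (hl : ∀ j, l j ∈ s56o_Our P) (hf : ∀ w, f w = ∑ j, l j * c j w) : f ∈ F.A := by
  have h1 : f = ∑ j, (⟨l j, hl j⟩ : ↥(s56o_Our P)) • c j := by
    funext w
    rw [hf, Finset.sum_apply]
    rfl
  rw [h1]
  exact Submodule.sum_mem _ fun j _ => Submodule.smul_mem _ _ (hcA j)

/-- the coefficients `ξ k v` of `w ↦ f (w + v)` are in `O` when `f` is `Z`-invariant and `v` is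
`I_P`-fixed modulo `Z`. -/
theorem coeff_mem_Our (hcA : ∀ j, c j ∈ F.A)
    (hind : ∀ l : Fin n → Ω, (∀ w, ∑ j, l j * c j w = 0) → l = 0)
    {Z : AddSubgroup W} {f : W → Ω} (hf : f ∈ F.B Z) {ξ : Fin n → W → Ω} (hξ : ∀ k, ξ k ∈ F.A)
    (hξf : ∀ w v, f (w + v) = ∑ k, ξ k v * c k w) {v : W}
    (hv : ∀ σ ∈ P.inertiaSubgroupIn ℚ, F.act σ v - v ∈ Z) (k : Fin n) : ξ k v ∈ s56o_Our P := by
  refine ⟨F.A_integral (hξ k) v, fun σ hσ => ?_⟩
  refine F.descent hcA hind (f := fun w => f (w + v)) (l := fun k => ξ k v) (fun w => hξf w v)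
    (fun τ hτ w => ?_) σ hσ k
  show f (F.act τ w + v) = τ (f (w + v))
  have hτ' : τ⁻¹ ∈ P.inertiaSubgroupIn ℚ := inv_mem hτ
  have h1 : F.act τ w + v = F.act τ (w + F.act τ⁻¹ v) := by
    rw [map_add, F.act_inv_apply]
  rw [h1, F.A_equivariant hf.1 τ hτ]
  congr 1
  have h2 : w + F.act τ⁻¹ v = (w + v) + (F.act τ⁻¹ v - v) := by abel
  rw [h2, hf.2 _ (hv τ⁻¹ hτ')]

/-- translation by `u` preserves `B` when `u` is `I_P`-fixed modulo `Z`. -/
theorem transl_mem_B (hcA : ∀ j, c j ∈ F.A)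
    (hrepr : ∀ f ∈ F.A, ∃ l : Fin n → Ω, (∀ j, l j ∈ s56o_Our P) ∧ ∀ w, f w = ∑ j, l j * c j w)
    (hind : ∀ l : Fin n → Ω, (∀ w, ∑ j, l j * c j w = 0) → l = 0)
    {Z : AddSubgroup W} {u : W} (huZ : ∀ σ ∈ P.inertiaSubgroupIn ℚ, F.act σ u - u ∈ Z)
    {f : W → Ω} (hf : f ∈ F.B Z) : s56o_transl P u f ∈ F.B Z := by
  obtain ⟨ξ, hξ, hξf⟩ := F.comul_basis hrepr hf.1
  refine ⟨F.mem_A_of_coeff hcA (l := fun k => ξ k u)
    (fun k => F.coeff_mem_Our hcA hind hf hξ hξf huZ k) (fun w => hξf w u), fun z hz w => ?_⟩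
  show f (w + z + u) = f (w + u)
  have : w + z + u = (w + u) + z := by abel
  rw [this, hf.2 z hz]

/-- `(T − 1) B ⊆ p B`. -/
theorem transl_sub_mem (hp : p.Prime) (hP : P.LiesOverPrime p) (hcA : ∀ j, c j ∈ F.A)
    (hrepr : ∀ f ∈ F.A, ∃ l : Fin n → Ω, (∀ j, l j ∈ s56o_Our P) ∧ ∀ w, f w = ∑ j, l j * c j w)
    (hind : ∀ l : Fin n → Ω, (∀ w, ∑ j, l j * c j w = 0) → l = 0)
    {Z : AddSubgroup W} {u : W} (hu : ∀ i, F.a i u - F.a i 0 ∈ P.nonunits)
    (huZ : ∀ σ ∈ P.inertiaSubgroupIn ℚ, F.act σ u - u ∈ Z)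
    {f : W → Ω} (hf : f ∈ F.B Z) :
    ∃ g ∈ F.B Z, ∀ w, f (w + u) - f w = (p : Ω) * g w := by
  obtain ⟨ξ, hξ, hξf⟩ := F.comul_basis hrepr hf.1
  have hp0 := s56o_p_ne_zero hp
  have h0Z : ∀ σ ∈ P.inertiaSubgroupIn ℚ, F.act σ (0 : W) - 0 ∈ Z := fun σ _ => by
    rw [map_zero, sub_zero]
    exact Z.zero_mem
  have hd : ∀ k, (ξ k u - ξ k 0) / (p : Ω) ∈ s56o_Our P := fun k =>
    s56o_Our_div_p hp P hP _
      ((s56o_Our P).sub_mem (F.coeff_mem_Our hcA hind hf hξ hξf huZ k)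
        (F.coeff_mem_Our hcA hind hf hξ hξf h0Z k))
      (F.small_of_gen hu (hξ k))
  have hg : ∀ w, f (w + u) - f w = (p : Ω) * ∑ k, (ξ k u - ξ k 0) / (p : Ω) * c k w := by
    intro w
    have h1 : f w = ∑ k, ξ k 0 * c k w := by
      have := hξf w 0
      rwa [add_zero] at this
    rw [hξf w u, h1, ← sum_sub_distrib, mul_sum]
    refine sum_congr rfl fun k _ => ?_
    field_simp
  refine ⟨fun w => ∑ k, (ξ k u - ξ k 0) / (p : Ω) * c k w,
    ⟨F.mem_A_of_coeff hcA hd fun w => rfl, fun z hz w => ?_⟩, hg⟩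
  have h2 := hg (w + z)
  have h3 : w + z + u = (w + u) + z := by abel
  rw [h3, hf.2 z hz, hf.2 z hz, hg w] at h2
  exact (mul_left_cancel₀ hp0 h2).symm

end basisData

end s56o_FnOrder

/-! ### the trace over `Z` -/

/-- the trace over `Z`. -/
def s56o_trZ [Fintype W] (Z : AddSubgroup W) [DecidablePred (· ∈ Z)] (g : W → Ω) : W → Ω :=
  fun w => ∑ x : W, if x ∈ Z then g (w + x) else 0

theorem s56o_trZ_lin [Fintype W] (Z : AddSubgroup W) [DecidablePred (· ∈ Z)] {a : ι → W → Ω}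
    {f : W → Ω} {l : ι → Ω} (hf : ∀ w, f w = ∑ i, l i * a i w) (v : W) :
    s56o_trZ Z f v = ∑ i, l i * s56o_trZ Z (a i) v := by
  show ∑ x : W, (if x ∈ Z then f (v + x) else 0) =
    ∑ i, l i * ∑ x : W, if x ∈ Z then a i (v + x) else 0
  simp only [mul_sum]
  rw [sum_comm]
  refine sum_congr rfl fun x _ => ?_
  by_cases hx : x ∈ Z
  · simp only [if_pos hx]
    exact hf _
  · simp only [if_neg hx, mul_zero, sum_const_zero]

namespace s56o_FnOrder

variable (F : s56o_FnOrder P W ι)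

theorem act_inv_apply' (σ : Γℚ) (w : W) : F.act σ⁻¹ (F.act σ w) = w := by
  have := F.act_inv_apply σ⁻¹ w
  rwa [inv_inv] at this

theorem trZ_mem_B [Fintype W] {n : ℕ} {c : Fin n → W → Ω} (hcA : ∀ j, c j ∈ F.A)
    (hrepr : ∀ f ∈ F.A, ∃ l : Fin n → Ω, (∀ j, l j ∈ s56o_Our P) ∧ ∀ w, f w = ∑ j, l j * c j w)
    (hind : ∀ l : Fin n → Ω, (∀ w, ∑ j, l j * c j w = 0) → l = 0)
    {Z : AddSubgroup W} [DecidablePred (· ∈ Z)]
    (hZ : ∀ σ ∈ P.inertiaSubgroupIn ℚ, ∀ z ∈ Z, F.act σ z ∈ Z) {g : W → Ω} (hg : g ∈ F.A) :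
    s56o_trZ Z g ∈ F.B Z := by
  obtain ⟨ξ, hξ, hξg⟩ := F.comul_basis hrepr hg
  have hform : ∀ w, s56o_trZ Z g w = ∑ k, (∑ x : W, if x ∈ Z then ξ k x else 0) * c k w := by
    intro w
    show ∑ x : W, (if x ∈ Z then g (w + x) else 0) = _
    simp only [sum_mul]
    rw [sum_comm]
    refine sum_congr rfl fun x _ => ?_
    by_cases hx : x ∈ Z
    · simp only [if_pos hx]
      exact hξg w x
    · simp only [if_neg hx, zero_mul, sum_const_zero]
  have heq : ∀ σ ∈ P.inertiaSubgroupIn ℚ, ∀ w,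
      s56o_trZ Z g (F.act σ w) = σ (s56o_trZ Z g w) := by
    intro σ hσ w
    show ∑ x : W, (if x ∈ Z then g (F.act σ w + x) else 0) =
      σ (∑ x : W, if x ∈ Z then g (w + x) else 0)
    rw [map_sum]
    let e : W ≃ W := Equiv.ofBijective (F.act σ) ⟨F.act_injective σ, F.act_surjective σ⟩
    rw [← Equiv.sum_comp e]
    refine sum_congr rfl fun x _ => ?_
    show (if F.act σ x ∈ Z then g (F.act σ w + F.act σ x) else 0) =
      σ (if x ∈ Z then g (w + x) else 0)
    have hiff : F.act σ x ∈ Z ↔ x ∈ Z := by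
      refine ⟨fun h => ?_, fun h => hZ σ hσ x h⟩
      have := hZ σ⁻¹ (inv_mem hσ) _ h
      rwa [F.act_inv_apply'] at this
    by_cases hx : x ∈ Z
    · rw [if_pos hx, if_pos (hiff.mpr hx), ← map_add, F.A_equivariant hg σ hσ]
    · rw [if_neg hx, if_neg (mt hiff.mp hx), map_zero]
  have hcoef : ∀ k, (∑ x : W, if x ∈ Z then ξ k x else 0) ∈ s56o_Our P := by
    intro k
    refine ⟨sum_mem fun x _ => ?_, fun σ hσ => F.descent hcA hind hform heq σ hσ k⟩
    by_cases hx : x ∈ Z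
    · rw [if_pos hx]
      exact F.A_integral (hξ k) x
    · rw [if_neg hx]
      exact P.zero_mem
  refine ⟨F.mem_A_of_coeff hcA hcoef hform, fun z hz w => ?_⟩
  show ∑ x : W, (if x ∈ Z then g (w + z + x) else 0) = ∑ x : W, if x ∈ Z then g (w + x) else 0
  rw [← Equiv.sum_comp (Equiv.addLeft z) fun x => if x ∈ Z then g (w + x) else 0]
  refine sum_congr rfl fun x _ => ?_
  show _ = if z + x ∈ Z then g (w + (z + x)) else 0
  have hiff : z + x ∈ Z ↔ x ∈ Z := Z.add_mem_cancel_left hz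
  by_cases hx : x ∈ Z
  · rw [if_pos hx, if_pos (hiff.mpr hx), add_assoc]
  · rw [if_neg hx, if_neg (mt hiff.mp hx)]

end s56o_FnOrder

omit [AddCommGroup W] [Fintype ι] in
theorem s56o_coe_zsmul (S : Submodule ↥(s56o_Our P) (W → Ω)) (z : ℤ) (m : ↥S) (w : W) :
    ((z • m : ↥S) : W → Ω) w = (z : Ω) * (m : W → Ω) w := by
  rw [AddSubgroupClass.coe_zsmul, Pi.smul_apply, zsmul_eq_mul]

/-- **small points for quotients.** -/
theorem s56o_spq (hp : p.Prime) (hp2 : p ≠ 2) (hP : P.LiesOverPrime p) [Finite W]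
    (F : s56o_FnOrder P W ι) (Z : AddSubgroup W)
    (hZ : ∀ σ ∈ P.inertiaSubgroupIn ℚ, ∀ z ∈ Z, F.act σ z ∈ Z)
    (u : W) (hpu : p • u = 0) (hu : ∀ i, F.a i u - F.a i 0 ∈ P.nonunits)
    (huZ : ∀ σ ∈ P.inertiaSubgroupIn ℚ, F.act σ u - u ∈ Z) : u ∈ Z := by
  classical
  haveI := Fintype.ofFinite W
  obtain ⟨n, c, hcA, hrepr, hind⟩ := F.exists_basis hp hP
  have hp0 := s56o_p_ne_zero hp
  let TB : Module.End ↥(s56o_Our P) ↥(F.B Z) :=
    (s56o_transl P u).restrict fun f hf => F.transl_mem_B hcA hrepr hind huZ hf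
  have hTBapp : ∀ (m : ↥(F.B Z)) (w : W),
      ((TB m : ↥(F.B Z)) : W → Ω) w = (m : W → Ω) (w + u) := fun m w => rfl
  have hpow : ∀ (k : ℕ) (m : ↥(F.B Z)) (w : W),
      (((TB ^ k) m : ↥(F.B Z)) : W → Ω) w = (m : W → Ω) (w + k • u) := by
    intro k
    induction k with
    | zero =>
      intro m w
      rw [pow_zero, zero_smul, add_zero]
      rfl
    | succ k ih =>
      intro m w
      rw [pow_succ, Module.End.mul_apply, ih, hTBapp, succ_nsmul, ← add_assoc]
  have hTp : TB ^ p = 1 := by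
    apply LinearMap.ext
    intro m
    apply Subtype.ext
    funext w
    rw [hpow, hpu, add_zero]
    rfl
  have htf : ∀ m : ↥(F.B Z), (p : ℤ) • m = 0 → m = 0 := by
    intro m hm
    apply Subtype.ext
    funext w
    have h1 := congrArg (fun t : ↥(F.B Z) => (t : W → Ω) w) hm
    simp only [s56o_coe_zsmul] at h1
    have h2 : (p : Ω) * (m : W → Ω) w = 0 := by
      have : (((p : ℤ) : Ω)) = (p : Ω) := by push_cast; rfl
      rw [← this]
      exact h1
    rcases mul_eq_zero.mp h2 with h | h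
    · exact absurd h hp0
    · exact h
  have hsep : ∀ m : ↥(F.B Z), (∀ k : ℕ, m ∈ s56o_pPow ↥(F.B Z) p k) → m = 0 := by
    intro m hm
    obtain ⟨l, hlO, hl⟩ := hrepr m.1 m.2.1
    have hl0 : l = 0 := by
      funext j
      apply s56o_Our_separated hp hP
      intro k
      obtain ⟨m', hm'⟩ := s56o_mem_pPow.mp (hm k)
      obtain ⟨l', hl'O, hl'⟩ := hrepr m'.1 m'.2.1
      refine ⟨l' j, hl'O j, ?_⟩
      have h1 : ∀ w, (m : W → Ω) w = (p : Ω) ^ k * (m' : W → Ω) w := by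
        intro w
        have h := congrArg (fun t : ↥(F.B Z) => (t : W → Ω) w) hm'
        simp only [s56o_coe_zsmul] at h
        rw [← h]
        push_cast
        rfl
      have h2 : (fun j => l j - (p : Ω) ^ k * l' j) = 0 := hind _ fun w => by
        simp only [sub_mul, sum_sub_distrib]
        rw [← hl w, h1 w, hl' w, mul_sum, sub_eq_zero]
        refine sum_congr rfl fun j _ => ?_
        ring
      exact sub_eq_zero.mp (congrFun h2 j)
    apply Subtype.ext
    funext w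
    rw [hl w, hl0]
    simp
  have hT : ∀ m : ↥(F.B Z), TB m - m ∈ s56o_pPow ↥(F.B Z) p 1 := by
    intro m
    obtain ⟨g, hg, hgf⟩ := F.transl_sub_mem hp hP hcA hrepr hind hu huZ m.2
    refine s56o_mem_pPow.mpr ⟨⟨g, hg⟩, ?_⟩
    apply Subtype.ext
    funext w
    rw [s56o_coe_zsmul]
    have : ((((p : ℤ) ^ 1 : ℤ)) : Ω) = (p : Ω) := by push_cast; rw [pow_one]
    rw [this]
    exact (hgf w).symm
  have hT1 : TB = 1 := s56o_end_eq_one hp hp2 htf hsep TB hTp hT
  have hinv : ∀ f ∈ F.B Z, ∀ w, f (w + u) = f w := by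
    intro f hf w
    have h := congrArg (fun T : Module.End ↥(s56o_Our P) ↥(F.B Z) =>
      ((T ⟨f, hf⟩ : ↥(F.B Z)) : W → Ω) w) hT1
    exact h
  -- separation
  by_contra hu'
  obtain ⟨l, hl⟩ := F.span fun w => if w = 0 then 1 else 0
  have h1 := s56o_trZ_lin Z hl u
  have h2 := s56o_trZ_lin Z hl 0
  have h3 : ∀ i, s56o_trZ Z (F.a i) u = s56o_trZ Z (F.a i) 0 := by
    intro i
    have := hinv _ (F.trZ_mem_B hcA hrepr hind hZ (F.a_mem i)) 0
    rwa [zero_add] at this
  simp only [h3] at h1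
  rw [← h2] at h1
  have h4 : s56o_trZ Z (fun w : W => if w = 0 then (1 : Ω) else 0) u = 0 := by
    show ∑ x : W, (if x ∈ Z then (if u + x = 0 then (1 : Ω) else 0) else 0) = 0
    refine sum_eq_zero fun x _ => ?_
    by_cases hx : x ∈ Z
    · rw [if_pos hx, if_neg]
      intro h
      apply hu'
      have : u = -x := eq_neg_of_add_eq_zero_left h
      rw [this]
      exact Z.neg_mem hx
    · rw [if_neg hx]
  have h5 : s56o_trZ Z (fun w : W => if w = 0 then (1 : Ω) else 0) 0 = 1 := by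
    show ∑ x : W, (if x ∈ Z then (if 0 + x = 0 then (1 : Ω) else 0) else 0) = 1
    rw [sum_eq_single 0]
    · rw [if_pos Z.zero_mem, if_pos (add_zero 0)]
    · intro x _ hx
      by_cases hxZ : x ∈ Z
      · rw [if_pos hxZ, if_neg]
        rwa [zero_add]
      · rw [if_neg hxZ]
    · intro h
      exact absurd (mem_univ _) h
  rw [h4, h5] at h1
  exact zero_ne_one h1

end Fermat.Agent.Lib.S56
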