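/-
Programme W (S56), wall [W8-F4] (helper5, prefix `s56o_`): **from a finite Hopf algebra over `ℤ_(p)` to a
function order.**

`H` a Hopf algebra over `R = ℤ_(p)` (`GaloisRep.ratLocalizedAt p`), finite as a module; `V` a finite abelian
group with an action of `G_ℚ`; `e : WithConv (H →ₐ[R] ℚ̄) ≃ V` additive and Galois-equivariant (the shape of the
Prelude's `GaloisRepAdic.IsFlatAt`).  Then:

* the evaluation functions `v ↦ (e⁻¹ v) h` are `P`-valued (`s56o_pt_integral`);
* the **reduction kernel** `U = {v | (e⁻¹ v) h ≡ ε(h) mod 𝔪_P ∀ h}` is a `D_P`-stable subgroup of `V`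
  (`s56o_redKer`, `s56o_redKer_decomp`) containing `(σ − 1) V` for `σ ∈ I_P` (`s56o_redKer_inertia`);
* **small points for quotients** (`s56o_redKer_spq`): if `Z ≤ V` is `I_P`-stable, `u ∈ U`, `p u = 0` and
  `σ u − u ∈ Z` for all `σ ∈ I_P`, then `u ∈ Z` (`p` odd).
-/
import Fermat.Agent.Lib.S56.FSPQ
import Fermat.Prelude.Def_GaloisRep_Flat

set_option autoImplicit false
set_option linter.style.haveILetI false

noncomputable section

namespace Fermat.Agent.Lib.S56

open Finset TensorProduct
open Fermat.Agent.Lib.Mz Fermat.Agent.Lib.CFT Fermat.Agent.Lib.Frey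

local notation "Ω" => AlgebraicClosure ℚ
local notation "Γℚ" => (AlgebraicClosure ℚ ≃ₐ[ℚ] AlgebraicClosure ℚ)

/-! ### `ℤ_(p) ⊆ O`, integrality -/

section ratLoc

variable {p : ℕ} (hp : p.Prime) (P : ValuationSubring Ω) (hP : P.LiesOverPrime p)
include hp hP

theorem s56o_ratLoc_mem (x : ↥(GaloisRep.ratLocalizedAt p)) :
    algebraMap ↥(GaloisRep.ratLocalizedAt p) Ω x ∈ P := by
  have hx : (x : ℚ).den.Coprime p := x.2
  set q : ℚ := (x : ℚ) with hq
  show algebraMap ℚ Ω q ∈ P
  have hq_eq : algebraMap ℚ Ω q = (q.num : Ω) / (q.den : Ω) := by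
    conv_lhs => rw [← Rat.num_div_den q]
    rw [map_div₀, map_intCast, map_natCast]
  have hpden : ¬ (p : ℤ) ∣ (q.den : ℤ) := by
    intro hd
    have h1 : p ∣ q.den := by exact_mod_cast hd
    have h2 : p ∣ Nat.gcd q.den p := Nat.dvd_gcd h1 dvd_rfl
    rw [Nat.Coprime.gcd_eq_one hx] at h2
    exact hp.one_lt.ne' (Nat.dvd_one.mp h2)
  have hden_unit : ((q.den : ℤ) : Ω) ∉ P.nonunits := fun h =>
    hpden ((ptm_intCast_mem_nonunits_iff hp P hP (q.den : ℤ)).mp h)
  have hden_inv : ((q.den : Ω))⁻¹ ∈ P := by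
    by_contra hcon
    apply hden_unit
    rw [ValuationSubring.mem_nonunits_iff_or]
    right
    exact_mod_cast hcon
  rw [hq_eq, div_eq_mul_inv]
  exact P.mul_mem _ _ (intCast_mem P _) hden_inv

theorem s56o_ratLoc_mem_Our (x : ↥(GaloisRep.ratLocalizedAt p)) :
    algebraMap ↥(GaloisRep.ratLocalizedAt p) Ω x ∈ s56o_Our P :=
  ⟨s56o_ratLoc_mem hp P hP x, fun σ _ => by
    show σ (algebraMap ℚ Ω (x : ℚ)) = algebraMap ℚ Ω (x : ℚ)
    exact σ.commutes _⟩

/-- elements of `ℚ̄` integral over `ℤ_(p)` are in `P`. -/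
theorem s56o_mem_of_isIntegral_ratLoc {x : Ω} (hx : IsIntegral ↥(GaloisRep.ratLocalizedAt p) x) :
    x ∈ P := by
  obtain ⟨q, hq, hqx⟩ := hx
  let φ : ↥(GaloisRep.ratLocalizedAt p) →+* ↥P :=
    { toFun := fun r => ⟨algebraMap ↥(GaloisRep.ratLocalizedAt p) Ω r, s56o_ratLoc_mem hp P hP r⟩
      map_one' := Subtype.ext (map_one _)
      map_mul' := fun a b => Subtype.ext (map_mul _ a b)
      map_zero' := Subtype.ext (map_zero _)
      map_add' := fun a b => Subtype.ext (map_add _ a b) }
  have h1 : IsIntegral ↥P x := by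
    refine ⟨q.map φ, hq.map φ, ?_⟩
    rw [Polynomial.eval₂_map]
    exact hqx
  obtain ⟨y, hy⟩ := (IsIntegrallyClosed.isIntegral_iff (R := ↥P) (K := Ω)).mp h1
  rw [← hy]
  exact y.2

end ratLoc

/-! ### decomposition and inertia groups -/

section decomp

variable {P : ValuationSubring Ω}

theorem s56o_decomp_mem {σ : Γℚ} (hσ : σ ∈ P.decompositionSubgroup ℚ) {a : Ω} (ha : a ∈ P) :
    σ a ∈ P :=
  ((⟨σ, hσ⟩ : P.decompositionSubgroup ℚ) • (⟨a, ha⟩ : P)).2

theorem s56o_decomp_nonunits {σ : Γℚ} (hσ : σ ∈ P.decompositionSubgroup ℚ) {x : Ω}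
    (hx : x ∈ P.nonunits) : σ x ∈ P.nonunits :=
  cfg_map_mem_nonunits P σ (fun _ ha => s56o_decomp_mem (σ := σ⁻¹) (inv_mem hσ) ha) hx

theorem s56o_inertia_sub {σ : Γℚ} (hσ : σ ∈ P.inertiaSubgroupIn ℚ) {a : Ω} (ha : a ∈ P) :
    σ a - a ∈ P.nonunits :=
  (ford_inertia_spec P σ hσ).2 a ha

end decomp

/-! ### linear algebra: independence of the evaluations gives all functions -/

theorem s56o_span_of_indep {W ι : Type} [Fintype W] [Fintype ι] (a : ι → W → Ω)
    (h : ∀ μ : W → Ω, (∀ i, ∑ w, μ w * a i w = 0) → μ = 0) (f : W → Ω) :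
    ∃ l : ι → Ω, ∀ w, f w = ∑ i, l i * a i w := by
  classical
  let T : (ι → Ω) →ₗ[Ω] (W → Ω) :=
    { toFun := fun l w => ∑ i, l i * a i w
      map_add' := fun l l' => by
        funext w
        show ∑ i, (l i + l' i) * a i w = ∑ i, l i * a i w + ∑ i, l' i * a i w
        rw [← sum_add_distrib]
        exact sum_congr rfl fun i _ => by ring
      map_smul' := fun c l => by
        funext w
        show ∑ i, (c * l i) * a i w = c * ∑ i, l i * a i w
        rw [mul_sum]
        exact sum_congr rfl fun i _ => by ring }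
  have hT : LinearMap.range T = ⊤ := by
    by_contra hne
    obtain ⟨φ, hφ0, hφ⟩ := Submodule.exists_le_ker_of_lt_top _ (lt_top_iff_ne_top.mpr hne)
    apply hφ0
    have hφsum : ∀ g : W → Ω, φ g = ∑ w, g w * φ (fun j => if w = j then 1 else 0) := fun g => by
      rw [LinearMap.pi_apply_eq_sum_univ φ g]
      rfl
    have hμ : (fun w => φ (fun j => if w = j then 1 else 0)) = 0 := by
      refine h _ fun i => ?_
      have h1 : a i ∈ LinearMap.range T := by
        refine ⟨fun j => if j = i then 1 else 0, ?_⟩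
        funext w
        show ∑ j, (if j = i then (1 : Ω) else 0) * a j w = a i w
        rw [sum_eq_single i]
        · rw [if_pos rfl, one_mul]
        · intro j _ hj
          rw [if_neg hj, zero_mul]
        · intro hi
          exact absurd (mem_univ i) hi
      have h2 : φ (a i) = 0 := LinearMap.mem_ker.mp (hφ h1)
      rw [hφsum] at h2
      have h3 : ∑ w, (fun w => φ (fun j => if w = j then 1 else 0)) w * a i w =
          ∑ w, a i w * φ (fun j => if w = j then 1 else 0) :=
        sum_congr rfl fun w _ => mul_comm _ _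
      rw [h3]
      exact h2
    apply LinearMap.ext
    intro g
    rw [hφsum]
    simp only [congrFun hμ, Pi.zero_apply, mul_zero, sum_const_zero, LinearMap.zero_apply]
  have hf : f ∈ LinearMap.range T := by
    rw [hT]
    trivial
  obtain ⟨l, hl⟩ := hf
  exact ⟨l, fun w => (congrFun hl w).symm⟩

/-! ### the points of a finite Hopf algebra over `ℤ_(p)` -/

section model

variable {p : ℕ} {P : ValuationSubring Ω} {H : Type} [CommRing H]
  [HopfAlgebra ↥(GaloisRep.ratLocalizedAt p) H] {V : Type} [AddCommGroup V]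

/-- the point of `H` attached to `v`. -/
def s56o_pt (e : WithConv (H →ₐ[↥(GaloisRep.ratLocalizedAt p)] Ω) ≃ V) (v : V) :
    H →ₐ[↥(GaloisRep.ratLocalizedAt p)] Ω := (e.symm v).ofConv

variable (e : WithConv (H →ₐ[↥(GaloisRep.ratLocalizedAt p)] Ω) ≃ V)
  (hmul : ∀ f g : WithConv (H →ₐ[↥(GaloisRep.ratLocalizedAt p)] Ω), e (f * g) = e f + e g)

omit [AddCommGroup V] in
theorem s56o_pt_injective : Function.Injective (s56o_pt e) := by
  intro v w h
  have : e.symm v = e.symm w := WithConv.ext h
  exact e.symm.injective this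

include hmul in
theorem s56o_pt_add (v w : V) (h : H) :
    s56o_pt e (v + w) h = Algebra.TensorProduct.lift (s56o_pt e v) (s56o_pt e w)
      (fun _ _ => .all ..) (Coalgebra.comul h) := by
  have h1 : e.symm (v + w) = e.symm v * e.symm w := by
    apply e.injective
    rw [hmul, e.apply_symm_apply, e.apply_symm_apply, e.apply_symm_apply]
  show (e.symm (v + w)) h = _
  rw [h1, AlgHom.convMul_apply]
  rfl

include hmul in
theorem s56o_pt_zero (h : H) :
    s56o_pt e 0 h = algebraMap ↥(GaloisRep.ratLocalizedAt p) Ω (Coalgebra.counit h) := by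
  have h1 : e 1 = 0 := by
    have := hmul 1 1
    rw [mul_one] at this
    exact add_eq_left.mp this.symm
  have h2 : e.symm 0 = 1 := by rw [← h1, e.symm_apply_apply]
  show (e.symm 0) h = _
  rw [h2]
  rfl

variable (act : Γℚ →* AddMonoid.End V)
  (hequiv : ∀ (σ : Γℚ) (f g : WithConv (H →ₐ[↥(GaloisRep.ratLocalizedAt p)] Ω)),
    (∀ h : H, g h = σ (f h)) → e g = act σ (e f))

include hequiv in
theorem s56o_pt_act (σ : Γℚ) (v : V) (h : H) : s56o_pt e (act σ v) h = σ (s56o_pt e v h) := by
  let g : WithConv (H →ₐ[↥(GaloisRep.ratLocalizedAt p)] Ω) :=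
    WithConv.toConv (((σ : Ω →ₐ[ℚ] Ω).restrictScalars ↥(GaloisRep.ratLocalizedAt p)).comp
      (e.symm v).ofConv)
  have h1 : e g = act σ v := by
    have := hequiv σ (e.symm v) g (fun _ => rfl)
    rwa [e.apply_symm_apply] at this
  have h2 : e.symm (act σ v) = g := by rw [← h1, e.symm_apply_apply]
  show (e.symm (act σ v)) h = _
  rw [h2]
  rfl

omit [AddCommGroup V] in
theorem s56o_pt_integral (hp : p.Prime) (hP : P.LiesOverPrime p)
    [Module.Finite ↥(GaloisRep.ratLocalizedAt p) H] (v : V) (h : H) : s56o_pt e v h ∈ P := by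
  apply s56o_mem_of_isIntegral_ratLoc hp P hP
  exact (Algebra.IsIntegral.isIntegral (R := ↥(GaloisRep.ratLocalizedAt p)) h).map (s56o_pt e v)

/-- congruences modulo `𝔪_P` are compatible with convolution. -/
theorem s56o_lift_congr {f f' g g' : H →ₐ[↥(GaloisRep.ratLocalizedAt p)] Ω}
    (hf'P : ∀ h, f' h ∈ P) (hgP : ∀ h, g h ∈ P)
    (hf : ∀ h, f h - f' h ∈ P.nonunits) (hg : ∀ h, g h - g' h ∈ P.nonunits)
    (t : H ⊗[↥(GaloisRep.ratLocalizedAt p)] H) :
    Algebra.TensorProduct.lift f g (fun _ _ => .all ..) t -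
      Algebra.TensorProduct.lift f' g' (fun _ _ => .all ..) t ∈ P.nonunits := by
  induction t using TensorProduct.induction_on with
  | zero =>
    rw [map_zero, map_zero, sub_zero]
    exact s56o_nonunits_zero P
  | tmul x y =>
    rw [Algebra.TensorProduct.lift_tmul, Algebra.TensorProduct.lift_tmul]
    have : f x * g y - f' x * g' y = g y * (f x - f' x) + f' x * (g y - g' y) := by ring
    rw [this]
    exact s56o_nonunits_add (s56o_nonunits_mul (hgP y) (hf x)) (s56o_nonunits_mul (hf'P x) (hg y))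
  | add t t' ht ht' =>
    rw [map_add, map_add]
    have : ∀ a b c d : Ω, a + b - (c + d) = (a - c) + (b - d) := by
      intros
      ring
    rw [this]
    exact s56o_nonunits_add ht ht'

/-! ### the reduction kernel -/

/-- the **reduction kernel**: the points congruent to the unit point modulo `𝔪_P`. -/
def s56o_redKer (hp : p.Prime) (hP : P.LiesOverPrime p)
    [Module.Finite ↥(GaloisRep.ratLocalizedAt p) H]
    (e : WithConv (H →ₐ[↥(GaloisRep.ratLocalizedAt p)] Ω) ≃ V)
    (hmul : ∀ f g : WithConv (H →ₐ[↥(GaloisRep.ratLocalizedAt p)] Ω), e (f * g) = e f + e g) :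
    AddSubgroup V where
  carrier := {v | ∀ h, s56o_pt e v h - s56o_pt e 0 h ∈ P.nonunits}
  zero_mem' := fun h => by
    rw [sub_self]
    exact s56o_nonunits_zero P
  add_mem' := fun {v w} hv hw h => by
    have h0 := s56o_pt_add e hmul 0 0 h
    rw [add_zero] at h0
    rw [s56o_pt_add e hmul v w h, h0]
    exact s56o_lift_congr (fun h => s56o_pt_integral e hp hP 0 h)
      (fun h => s56o_pt_integral e hp hP w h) hv hw _
  neg_mem' := fun {v} hv h => by
    have h1 := s56o_pt_add e hmul (-v) 0 h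
    rw [add_zero] at h1
    have h2 := s56o_pt_add e hmul (-v) v h
    rw [neg_add_cancel] at h2
    rw [h1, h2]
    refine s56o_lift_congr (fun h => s56o_pt_integral e hp hP (-v) h)
      (fun h => s56o_pt_integral e hp hP 0 h) (fun h => ?_) (fun h => ?_) _
    · rw [sub_self]
      exact s56o_nonunits_zero P
    · have := s56o_nonunits_neg (hv h)
      rwa [neg_sub] at this

variable (hp : p.Prime) (hP : P.LiesOverPrime p) [Module.Finite ↥(GaloisRep.ratLocalizedAt p) H]

theorem s56o_mem_redKer {v : V} :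
    v ∈ s56o_redKer hp hP e hmul ↔ ∀ h, s56o_pt e v h - s56o_pt e 0 h ∈ P.nonunits := Iff.rfl

include hequiv in
/-- the reduction kernel is stable under the decomposition group. -/
theorem s56o_redKer_decomp {σ : Γℚ} (hσ : σ ∈ P.decompositionSubgroup ℚ) {v : V}
    (hv : v ∈ s56o_redKer hp hP e hmul) : act σ v ∈ s56o_redKer hp hP e hmul := by
  intro h
  rw [s56o_pt_act e act hequiv]
  have h0 : s56o_pt e 0 h = σ (s56o_pt e 0 h) := by
    rw [s56o_pt_zero e hmul]
    exact (σ.commutes _).symm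
  rw [h0, ← map_sub]
  exact s56o_decomp_nonunits hσ (hv h)

include hequiv in
/-- inertia acts trivially modulo the reduction kernel. -/
theorem s56o_redKer_inertia {σ : Γℚ} (hσ : σ ∈ P.inertiaSubgroupIn ℚ) (x : V) :
    act σ x - x ∈ s56o_redKer hp hP e hmul := by
  intro h
  have h1 := s56o_pt_add e hmul (act σ x) (-x) h
  rw [← sub_eq_add_neg] at h1
  have h2 := s56o_pt_add e hmul x (-x) h
  rw [add_neg_cancel] at h2
  rw [h1, h2]
  refine s56o_lift_congr (fun h => s56o_pt_integral e hp hP x h)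
    (fun h => s56o_pt_integral e hp hP (-x) h) (fun h => ?_) (fun h => ?_) _
  · rw [s56o_pt_act e act hequiv]
    exact s56o_inertia_sub hσ (s56o_pt_integral e hp hP x h)
  · rw [sub_self]
    exact s56o_nonunits_zero P

/-! ### the function order of `H` -/

section order

variable {n : ℕ} (s : Fin n → H)
  (hs : Submodule.span ↥(GaloisRep.ratLocalizedAt p) (Set.range s) = ⊤)

omit [AddCommGroup V] [Module.Finite ↥(GaloisRep.ratLocalizedAt p) H] in
include hp hP hs in
/-- every evaluation function is in the `O`-span of the evaluations at the generators. -/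
theorem s56o_ev_mem_span (y : H) :
    (fun v => s56o_pt e v y) ∈ s56o_span P (fun (i : Fin n) (v : V) => s56o_pt e v (s i)) := by
  have hy : y ∈ Submodule.span ↥(GaloisRep.ratLocalizedAt p) (Set.range s) := by
    rw [hs]
    trivial
  obtain ⟨c, rfl⟩ := (Submodule.mem_span_range_iff_exists_fun ↥(GaloisRep.ratLocalizedAt p)).mp hy
  have h1 : (fun v => s56o_pt e v (∑ i, c i • s i)) =
      ∑ i, (⟨algebraMap ↥(GaloisRep.ratLocalizedAt p) Ω (c i),
        s56o_ratLoc_mem_Our hp P hP (c i)⟩ : ↥(s56o_Our P)) •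
          (fun (v : V) => s56o_pt e v (s i)) := by
    funext v
    rw [map_sum, Finset.sum_apply]
    refine sum_congr rfl fun i _ => ?_
    rw [map_smul, Algebra.smul_def]
    rfl
  rw [h1]
  exact Submodule.sum_mem _ fun i _ =>
    Submodule.smul_mem _ _ (Submodule.subset_span ⟨i, rfl⟩)

omit [AddCommGroup V] [Module.Finite ↥(GaloisRep.ratLocalizedAt p) H] in
include hp hP hs in
theorem s56o_model_comul (t : H ⊗[↥(GaloisRep.ratLocalizedAt p)] H) :
    ∃ η : Fin n → V → Ω,
      (∀ i', η i' ∈ s56o_span P (fun (i : Fin n) (v : V) => s56o_pt e v (s i))) ∧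
      ∀ w v, Algebra.TensorProduct.lift (s56o_pt e w) (s56o_pt e v) (fun _ _ => .all ..) t =
        ∑ i', η i' v * s56o_pt e w (s i') := by
  induction t using TensorProduct.induction_on with
  | zero =>
    refine ⟨fun _ => 0, fun _ => Submodule.zero_mem _, fun w v => ?_⟩
    rw [map_zero]
    simp
  | tmul x y =>
    have hx : x ∈ Submodule.span ↥(GaloisRep.ratLocalizedAt p) (Set.range s) := by
      rw [hs]
      trivial
    obtain ⟨c, rfl⟩ :=
      (Submodule.mem_span_range_iff_exists_fun ↥(GaloisRep.ratLocalizedAt p)).mp hx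
    refine ⟨fun i' => (⟨algebraMap ↥(GaloisRep.ratLocalizedAt p) Ω (c i'),
        s56o_ratLoc_mem_Our hp P hP (c i')⟩ : ↥(s56o_Our P)) • (fun v => s56o_pt e v y),
      fun i' => Submodule.smul_mem _ _ (s56o_ev_mem_span e hp hP s hs y), fun w v => ?_⟩
    rw [Algebra.TensorProduct.lift_tmul, map_sum, sum_mul]
    refine sum_congr rfl fun i _ => ?_
    rw [map_smul, Algebra.smul_def]
    show _ = (algebraMap ↥(GaloisRep.ratLocalizedAt p) Ω (c i) * s56o_pt e v y) * _
    ring
  | add t t' ht ht' =>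
    obtain ⟨η, hη, h1⟩ := ht
    obtain ⟨η', hη', h2⟩ := ht'
    refine ⟨fun i' => η i' + η' i', fun i' => Submodule.add_mem _ (hη i') (hη' i'),
      fun w v => ?_⟩
    rw [map_add, h1, h2, ← sum_add_distrib]
    refine sum_congr rfl fun i _ => ?_
    show _ = (η i v + η' i v) * _
    ring

omit [AddCommGroup V] [Module.Finite ↥(GaloisRep.ratLocalizedAt p) H] in
include hs in
theorem s56o_model_span [Fintype V] (f : V → Ω) :
    ∃ l : Fin n → Ω, ∀ v, f v = ∑ i, l i * s56o_pt e v (s i) := by
  classical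
  refine s56o_span_of_indep (fun (i : Fin n) (v : V) => s56o_pt e v (s i)) (fun μ hμ => ?_) f
  -- the relation holds for all `y`
  have h1 : ∀ y : H, ∑ v, μ v * s56o_pt e v y = 0 := by
    intro y
    have hy : y ∈ Submodule.span ↥(GaloisRep.ratLocalizedAt p) (Set.range s) := by
      rw [hs]
      trivial
    obtain ⟨c, rfl⟩ :=
      (Submodule.mem_span_range_iff_exists_fun ↥(GaloisRep.ratLocalizedAt p)).mp hy
    have h2 : ∀ v, μ v * s56o_pt e v (∑ i, c i • s i) =
        ∑ i, algebraMap ↥(GaloisRep.ratLocalizedAt p) Ω (c i) * (μ v * s56o_pt e v (s i)) := by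
      intro v
      rw [map_sum, mul_sum]
      refine sum_congr rfl fun i _ => ?_
      rw [map_smul, Algebra.smul_def]
      ring
    simp only [h2]
    rw [sum_comm]
    refine sum_eq_zero fun i _ => ?_
    rw [← mul_sum, hμ i, mul_zero]
  -- Dedekind
  have hli := (linearIndependent_monoidHom H Ω).comp
    (fun v : V => ((s56o_pt e v : H →ₐ[↥(GaloisRep.ratLocalizedAt p)] Ω) : H →* Ω))
    (fun v w hvw => s56o_pt_injective e (AlgHom.ext fun y => DFunLike.congr_fun hvw y))
  have h3 := Fintype.linearIndependent_iff.mp hli μ (by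
    funext y
    rw [Finset.sum_apply]
    exact h1 y)
  funext v
  exact h3 v

end order

include hequiv in
/-- **small points for quotients, for the points of a finite Hopf algebra over `ℤ_(p)`.** -/
theorem s56o_redKer_spq (hp2 : p ≠ 2) [Finite V] (Z : AddSubgroup V)
    (hZ : ∀ σ ∈ P.inertiaSubgroupIn ℚ, ∀ z ∈ Z, act σ z ∈ Z) {u : V}
    (hu : u ∈ s56o_redKer hp hP e hmul) (hpu : p • u = 0)
    (huZ : ∀ σ ∈ P.inertiaSubgroupIn ℚ, act σ u - u ∈ Z) : u ∈ Z := by
  classical
  haveI := Fintype.ofFinite V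
  obtain ⟨n, s, hs⟩ := Module.Finite.exists_fin (R := ↥(GaloisRep.ratLocalizedAt p)) (M := H)
  let F : s56o_FnOrder P V (Fin n) :=
    { act := act
      a := fun i v => s56o_pt e v (s i)
      integral := fun i w => s56o_pt_integral e hp hP w (s i)
      equivariant := fun i σ _ w => s56o_pt_act e act hequiv σ w (s i)
      comul := fun i => by
        obtain ⟨η, hη, h1⟩ := s56o_model_comul e hp hP s hs (Coalgebra.comul (s i))
        refine ⟨η, hη, fun w v => ?_⟩
        rw [s56o_pt_add e hmul w v (s i)]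
        exact h1 w v
      span := s56o_model_span e s hs }
  exact s56o_spq hp hp2 hP F Z hZ u hpu (fun i => hu (s i)) huZ

end model

end Fermat.Agent.Lib.S56
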