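import Mathlib
import Fermat.Prelude.Def_GaloisRep_DeformationRingData
import Fermat.Prelude.Def_GaloisRep_LocalConditions
import Fermat.Prelude.Def_GaloisRep_StrictOrdinary
import Fermat.Prelude.Def_GaloisRep_Flat
import Fermat.Prelude.Def_GaloisRep_Residual
import Fermat.Prelude.Def_GroupCohomology_ContinuousH1
import Fermat.Agent.Lib.Deform.Defs

/-!
# Programme W (S56), wall W1: definitions (helper2)

Prefix `s56a_`.  All *definitions* in this file are final; the theorems are stated with their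
final signatures (proofs are filled in the implementation files `Lib/S56/A*.lean`).

* `s56a_adRep`, `s56a_sl`, `s56a_ad0Rep`, `s56a_ad0` : the adjoint representation `ad ρ̄` on
  `End_k V̄` and its trace-zero part `ad⁰ ρ̄` as a `Rep k Γℚ`.
* `s56a_VEps`, `s56a_liftRep` : for a (level-constant) 1-cocycle `c` with values in `ad⁰ ρ̄`, the
  first-order deformation `σ ↦ (1 + ε c(σ)) ρ̄(σ)` on `V̄ ⊕ ε V̄`, as a `GaloisRepAdic k[ε]`.
* `s56a_SelmerSet 𝒪 ρbar 𝒟` : the set of classes in `H¹(Γℚ, ad⁰ ρ̄)` having a level-constant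
  representative `c` whose lift is of type `𝒟`.
* `s56a_of_selmer` : if the Selmer set sits in a finite set of at most `|k|^r` elements, every
  deformation ring of type `𝒟` is a quotient of `𝒪[[x₁,…,x_r]]`.
* `s56a_result_of_selmer` : the literal statement S56 from the two numerical Selmer statements.
-/

set_option autoImplicit false

noncomputable section

namespace Fermat.Agent.Lib.S56

open IsLocalRing groupCohomology

local notation "Γℚ" => (AlgebraicClosure ℚ ≃ₐ[ℚ] AlgebraicClosure ℚ)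

section Ad

variable {k : Type} [Field k] (ρbar : ResidualGaloisRep k)

theorem s56a_rho_mul_inv (σ : Γℚ) : ρbar.ρ σ * ρbar.ρ σ⁻¹ = 1 := by
  rw [← map_mul, mul_inv_cancel, map_one]

theorem s56a_rho_inv_mul (σ : Γℚ) : ρbar.ρ σ⁻¹ * ρbar.ρ σ = 1 := by
  rw [← map_mul, inv_mul_cancel, map_one]

/-- The adjoint representation `ad ρ̄`: `Γℚ` acts on `End_k V̄` by conjugation through `ρ̄`. -/
def s56a_adRep : Representation k Γℚ (Module.End k ρbar.V) where
  toFun σ :=
    { toFun := fun X => ρbar.ρ σ * X * ρbar.ρ σ⁻¹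
      map_add' := fun X Y => by rw [mul_add, add_mul]
      map_smul' := fun a X => by
        rw [RingHom.id_apply, mul_smul_comm, smul_mul_assoc] }
  map_one' := by
    ext X : 1
    show ρbar.ρ 1 * X * ρbar.ρ 1⁻¹ = X
    rw [inv_one, map_one, one_mul, mul_one]
  map_mul' σ τ := by
    ext X : 1
    show ρbar.ρ (σ * τ) * X * ρbar.ρ (σ * τ)⁻¹ =
      ρbar.ρ σ * (ρbar.ρ τ * X * ρbar.ρ τ⁻¹) * ρbar.ρ σ⁻¹
    rw [mul_inv_rev, map_mul, map_mul]
    simp only [mul_assoc]

theorem s56a_adRep_apply (σ : Γℚ) (X : Module.End k ρbar.V) :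
    s56a_adRep ρbar σ X = ρbar.ρ σ * X * ρbar.ρ σ⁻¹ := rfl

/-- The trace-zero endomorphisms of `V̄`. -/
def s56a_sl : Submodule k (Module.End k ρbar.V) :=
  LinearMap.ker (LinearMap.trace k ρbar.V)

theorem s56a_mem_sl (X : Module.End k ρbar.V) :
    X ∈ s56a_sl ρbar ↔ LinearMap.trace k ρbar.V X = 0 := LinearMap.mem_ker

theorem s56a_adRep_mem_sl (σ : Γℚ) {X : Module.End k ρbar.V} (hX : X ∈ s56a_sl ρbar) :
    s56a_adRep ρbar σ X ∈ s56a_sl ρbar := by
  rw [s56a_mem_sl] at hX ⊢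
  rw [s56a_adRep_apply, LinearMap.trace_mul_comm, ← mul_assoc, s56a_rho_inv_mul, one_mul, hX]

/-- The representation `ad⁰ ρ̄` on trace-zero endomorphisms. -/
def s56a_ad0Rep : Representation k Γℚ ↥(s56a_sl ρbar) where
  toFun σ := (s56a_adRep ρbar σ).restrict fun _ hX => s56a_adRep_mem_sl ρbar σ hX
  map_one' := by
    ext X : 2
    simp
  map_mul' σ τ := by
    ext X : 2
    simp

theorem s56a_ad0Rep_coe (σ : Γℚ) (X : ↥(s56a_sl ρbar)) :
    ((s56a_ad0Rep ρbar σ X : ↥(s56a_sl ρbar)) : Module.End k ρbar.V) =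
      ρbar.ρ σ * (X : Module.End k ρbar.V) * ρbar.ρ σ⁻¹ := rfl

/-- `ad⁰ ρ̄` as an object of `Rep k Γℚ`. -/
def s56a_ad0 : Rep k Γℚ := Rep.of (s56a_ad0Rep ρbar)

/-- The underlying endomorphism of an element of `ad⁰ ρ̄`. -/
def s56a_toEnd : (s56a_ad0 ρbar) →ₗ[k] Module.End k ρbar.V := (s56a_sl ρbar).subtype

end Ad

section Lift

variable {k : Type} [Field k] (ρbar : ResidualGaloisRep k)

/-- `V̄[ε] = V̄ ⊕ ε V̄` (pairs `(v, w)` standing for `v + ε w`). -/
def s56a_VEps : Type := ρbar.V × ρbar.V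

instance s56a_VEps_addCommGroup : AddCommGroup (s56a_VEps ρbar) :=
  inferInstanceAs (AddCommGroup (ρbar.V × ρbar.V))

/-- constructor `v + ε w` -/
def s56a_VEps.mk {ρbar : ResidualGaloisRep k} (v w : ρbar.V) : s56a_VEps ρbar := (v, w)

/-- constant part -/
def s56a_VEps.re {ρbar : ResidualGaloisRep k} (x : s56a_VEps ρbar) : ρbar.V := x.1

/-- `ε`-part -/
def s56a_VEps.im {ρbar : ResidualGaloisRep k} (x : s56a_VEps ρbar) : ρbar.V := x.2

@[ext] theorem s56a_VEps.ext {ρbar : ResidualGaloisRep k} {x y : s56a_VEps ρbar}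
    (h1 : x.re = y.re) (h2 : x.im = y.im) : x = y := Prod.ext h1 h2

@[simp] theorem s56a_VEps.re_mk {ρbar : ResidualGaloisRep k} (v w : ρbar.V) :
    (s56a_VEps.mk v w).re = v := rfl
@[simp] theorem s56a_VEps.im_mk {ρbar : ResidualGaloisRep k} (v w : ρbar.V) :
    (s56a_VEps.mk v w).im = w := rfl
@[simp] theorem s56a_VEps.re_add {ρbar : ResidualGaloisRep k} (x y : s56a_VEps ρbar) :
    (x + y).re = x.re + y.re := rfl
@[simp] theorem s56a_VEps.im_add {ρbar : ResidualGaloisRep k} (x y : s56a_VEps ρbar) :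
    (x + y).im = x.im + y.im := rfl
@[simp] theorem s56a_VEps.re_zero {ρbar : ResidualGaloisRep k} :
    (0 : s56a_VEps ρbar).re = 0 := rfl
@[simp] theorem s56a_VEps.im_zero {ρbar : ResidualGaloisRep k} :
    (0 : s56a_VEps ρbar).im = 0 := rfl
@[simp] theorem s56a_VEps.re_neg {ρbar : ResidualGaloisRep k} (x : s56a_VEps ρbar) :
    (-x).re = -x.re := rfl
@[simp] theorem s56a_VEps.im_neg {ρbar : ResidualGaloisRep k} (x : s56a_VEps ρbar) :
    (-x).im = -x.im := rfl
@[simp] theorem s56a_VEps.re_sub {ρbar : ResidualGaloisRep k} (x y : s56a_VEps ρbar) :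
    (x - y).re = x.re - y.re := rfl
@[simp] theorem s56a_VEps.im_sub {ρbar : ResidualGaloisRep k} (x y : s56a_VEps ρbar) :
    (x - y).im = x.im - y.im := rfl

/-- `k[ε]` acts on `V̄ ⊕ ε V̄` by `(a + bε)(v + εw) = av + ε(aw + bv)`. -/
instance s56a_VEps_module : Module (DualNumber k) (s56a_VEps ρbar) where
  smul x vw := s56a_VEps.mk (x.fst • vw.re) (x.fst • vw.im + x.snd • vw.re)
  one_smul vw := by
    apply s56a_VEps.ext
    · show (1 : DualNumber k).fst • vw.re = vw.re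
      rw [TrivSqZeroExt.fst_one, one_smul]
    · show (1 : DualNumber k).fst • vw.im + (1 : DualNumber k).snd • vw.re = vw.im
      rw [TrivSqZeroExt.fst_one, TrivSqZeroExt.snd_one, one_smul, zero_smul, add_zero]
  mul_smul x y vw := by
    apply s56a_VEps.ext
    · show (x * y).fst • vw.re = x.fst • (y.fst • vw.re)
      rw [TrivSqZeroExt.fst_mul, mul_smul]
    · show (x * y).fst • vw.im + (x * y).snd • vw.re =
        x.fst • (y.fst • vw.im + y.snd • vw.re) + x.snd • (y.fst • vw.re)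
      rw [TrivSqZeroExt.fst_mul, TrivSqZeroExt.snd_mul, smul_add, add_smul, mul_smul]
      simp only [smul_eq_mul, MulOpposite.smul_eq_mul_unop, MulOpposite.unop_op, mul_smul]
      rw [smul_comm x.snd y.fst, add_assoc]
  smul_zero x := by
    apply s56a_VEps.ext
    · show x.fst • (0 : ρbar.V) = 0
      rw [smul_zero]
    · show x.fst • (0 : ρbar.V) + x.snd • (0 : ρbar.V) = 0
      rw [smul_zero, smul_zero, add_zero]
  smul_add x vw vw' := by
    apply s56a_VEps.ext
    · show x.fst • (vw.re + vw'.re) = x.fst • vw.re + x.fst • vw'.re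
      rw [smul_add]
    · show x.fst • (vw.im + vw'.im) + x.snd • (vw.re + vw'.re) =
        (x.fst • vw.im + x.snd • vw.re) + (x.fst • vw'.im + x.snd • vw'.re)
      rw [smul_add, smul_add]; abel
  add_smul x y vw := by
    apply s56a_VEps.ext
    · show (x + y).fst • vw.re = x.fst • vw.re + y.fst • vw.re
      rw [TrivSqZeroExt.fst_add, add_smul]
    · show (x + y).fst • vw.im + (x + y).snd • vw.re =
        (x.fst • vw.im + x.snd • vw.re) + (y.fst • vw.im + y.snd • vw.re)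
      rw [TrivSqZeroExt.fst_add, TrivSqZeroExt.snd_add, add_smul, add_smul]; abel
  zero_smul vw := by
    apply s56a_VEps.ext
    · show (0 : DualNumber k).fst • vw.re = 0
      rw [TrivSqZeroExt.fst_zero, zero_smul]
    · show (0 : DualNumber k).fst • vw.im + (0 : DualNumber k).snd • vw.re = 0
      rw [TrivSqZeroExt.fst_zero, TrivSqZeroExt.snd_zero, zero_smul, zero_smul, add_zero]

@[simp] theorem s56a_VEps.re_smul (x : DualNumber k) (vw : s56a_VEps ρbar) :
    (x • vw).re = x.fst • vw.re := rfl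
@[simp] theorem s56a_VEps.im_smul (x : DualNumber k) (vw : s56a_VEps ρbar) :
    (x • vw).im = x.fst • vw.im + x.snd • vw.re := rfl

/-- Coordinates of `V̄[ε]` in a `k`-basis of `V̄`. -/
def s56a_VEps_equivFun (b : Module.Basis (Fin 2) k ρbar.V) :
    s56a_VEps ρbar ≃ₗ[DualNumber k] (Fin 2 → DualNumber k) where
  toFun x := fun i => TrivSqZeroExt.inl (b.repr x.re i) + TrivSqZeroExt.inr (b.repr x.im i)
  map_add' x y := by
    funext i
    apply TrivSqZeroExt.ext <;> simp
  map_smul' a x := by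
    funext i
    apply TrivSqZeroExt.ext
    · simp
    · simp [MulOpposite.smul_eq_mul_unop]
  invFun f := s56a_VEps.mk (b.equivFun.symm fun i => (f i).fst) (b.equivFun.symm fun i => (f i).snd)
  left_inv x := by
    apply s56a_VEps.ext
    · simp only [s56a_VEps.re_mk]
      apply b.equivFun.injective
      rw [LinearEquiv.apply_symm_apply]
      funext i; simp
    · simp only [s56a_VEps.im_mk]
      apply b.equivFun.injective
      rw [LinearEquiv.apply_symm_apply]
      funext i; simp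
  right_inv f := by
    have h1 : ∀ (g : Fin 2 → k) (i : Fin 2), b.repr (b.equivFun.symm g) i = g i := by
      intro g i
      rw [← Module.Basis.equivFun_apply, LinearEquiv.apply_symm_apply]
    funext i
    apply TrivSqZeroExt.ext
    · simp only [s56a_VEps.re_mk, s56a_VEps.im_mk, h1, TrivSqZeroExt.fst_add,
        TrivSqZeroExt.fst_inl, TrivSqZeroExt.fst_inr, add_zero]
    · simp only [s56a_VEps.re_mk, s56a_VEps.im_mk, h1, TrivSqZeroExt.snd_add,
        TrivSqZeroExt.snd_inl, TrivSqZeroExt.snd_inr, zero_add]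

instance s56a_VEps_free : Module.Free (DualNumber k) (s56a_VEps ρbar) :=
  Module.Free.of_equiv
    (s56a_VEps_equivFun ρbar (Module.finBasisOfFinrankEq k ρbar.V ρbar.finrank_eq)).symm

instance s56a_VEps_finite : Module.Finite (DualNumber k) (s56a_VEps ρbar) :=
  Module.Finite.equiv
    (s56a_VEps_equivFun ρbar (Module.finBasisOfFinrankEq k ρbar.V ρbar.finrank_eq)).symm

theorem s56a_VEps_finrank : Module.finrank (DualNumber k) (s56a_VEps ρbar) = 2 := by
  rw [(s56a_VEps_equivFun ρbar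
    (Module.finBasisOfFinrankEq k ρbar.V ρbar.finrank_eq)).finrank_eq, Module.finrank_fin_fun]

/-- The `k[ε]`-linear map `v + εw ↦ A v + ε (A w + B v)` attached to `A, B ∈ End_k V̄`. -/
def s56a_epsEnd (A B : Module.End k ρbar.V) : Module.End (DualNumber k) (s56a_VEps ρbar) where
  toFun x := s56a_VEps.mk (A x.re) (A x.im + B x.re)
  map_add' x y := by
    apply s56a_VEps.ext
    · simp
    · simp only [s56a_VEps.im_mk, s56a_VEps.im_add, s56a_VEps.re_add, map_add]; abel
  map_smul' a x := by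
    apply s56a_VEps.ext
    · simp
    · simp only [s56a_VEps.im_mk, s56a_VEps.im_smul, s56a_VEps.re_smul, map_add, map_smul,
        RingHom.id_apply, s56a_VEps.re_mk, smul_add]
      abel

@[simp] theorem s56a_epsEnd_re (A B : Module.End k ρbar.V) (x : s56a_VEps ρbar) :
    (s56a_epsEnd ρbar A B x).re = A x.re := rfl
@[simp] theorem s56a_epsEnd_im (A B : Module.End k ρbar.V) (x : s56a_VEps ρbar) :
    (s56a_epsEnd ρbar A B x).im = A x.im + B x.re := rfl

theorem s56a_epsEnd_mul (A B A' B' : Module.End k ρbar.V) :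
    s56a_epsEnd ρbar A B * s56a_epsEnd ρbar A' B' = s56a_epsEnd ρbar (A * A') (A * B' + B * A') := by
  ext x : 1
  apply s56a_VEps.ext
  · simp [Module.End.mul_apply]
  · simp only [Module.End.mul_apply, s56a_epsEnd_im, s56a_epsEnd_re, map_add, LinearMap.add_apply]
    abel

theorem s56a_epsEnd_one : s56a_epsEnd ρbar 1 0 = 1 := by
  ext x : 1
  apply s56a_VEps.ext <;> simp


/-- Level-constancy of a cochain on `Γℚ` (the prelude's notion for the identity map). -/
abbrev s56a_IsLevel {X : Type*} (c : Γℚ → X) : Prop :=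
  groupCohomology.IsLevelConstant₁ (MonoidHom.id Γℚ) c

theorem s56a_cocycle_apply_mul (c : cocycles₁ (s56a_ad0 ρbar)) (σ τ : Γℚ) :
    s56a_toEnd ρbar (c.1 (σ * τ)) =
      s56a_toEnd ρbar (c.1 σ) + ρbar.ρ σ * s56a_toEnd ρbar (c.1 τ) * ρbar.ρ σ⁻¹ := by
  have h := (mem_cocycles₁_def c.1).1 c.2 σ τ
  have h' : c.1 (σ * τ) = (s56a_ad0 ρbar).ρ σ (c.1 τ) + c.1 σ := by
    rw [sub_add_eq_add_sub, sub_eq_zero] at h
    exact h.symm
  rw [h', map_add, add_comm]
  rfl

theorem s56a_cocycle_apply_one (c : cocycles₁ (s56a_ad0 ρbar)) : s56a_toEnd ρbar (c.1 1) = 0 := by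
  have h := s56a_cocycle_apply_mul ρbar c 1 1
  rw [mul_one, inv_one, map_one, one_mul, mul_one] at h
  exact left_eq_add.mp h

/-- The first-order deformation `σ ↦ (1 + ε c(σ)) ρ̄(σ)` attached to a level-constant cocycle
with values in `ad⁰ ρ̄`:  `ρ_c(σ)(v + εw) = ρ̄(σ)v + ε(ρ̄(σ)w + c(σ)ρ̄(σ)v)`. -/
def s56a_liftRep (c : cocycles₁ (s56a_ad0 ρbar)) (hc : s56a_IsLevel c.1) :
    GaloisRepAdic (DualNumber k) where
  V := s56a_VEps ρbar
  finrank_eq := s56a_VEps_finrank ρbar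
  ρ :=
    { toFun := fun σ => s56a_epsEnd ρbar (ρbar.ρ σ) (s56a_toEnd ρbar (c.1 σ) * ρbar.ρ σ)
      map_one' := by
        rw [s56a_cocycle_apply_one, zero_mul, map_one, s56a_epsEnd_one]
      map_mul' := fun σ τ => by
        rw [s56a_epsEnd_mul, s56a_cocycle_apply_mul, map_mul]
        congr 1
        rw [add_mul, mul_assoc (ρbar.ρ σ * _), ← mul_assoc (ρbar.ρ σ⁻¹), s56a_rho_inv_mul,
          one_mul, add_comm]
        simp only [mul_assoc] }
  isAdicContinuous := by
    intro n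
    obtain ⟨F, hF, hcF⟩ := hc
    obtain ⟨L, hL, hρL⟩ := ρbar.factorsThroughFiniteLevel
    refine ⟨F ⊔ L, IntermediateField.finiteDimensional_sup F L, fun σ hσ v => ?_⟩
    have hσF : σ ∈ F.fixingSubgroup := by
      rw [IntermediateField.mem_fixingSubgroup_iff]
      exact fun x hx => hσ x ((le_sup_left : F ≤ F ⊔ L) hx)
    have h1 : ρbar.ρ σ = 1 := hρL σ fun x hx => hσ x ((le_sup_right : L ≤ F ⊔ L) hx)
    have h2 : c.1 σ = 0 := by
      have := hcF 1 σ hσF
      rw [one_mul] at this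
      rw [this]
      have h0 := s56a_cocycle_apply_one ρbar c
      exact Subtype.ext h0
    have h3 : s56a_epsEnd ρbar (ρbar.ρ σ) (s56a_toEnd ρbar (c.1 σ) * ρbar.ρ σ) = 1 := by
      rw [h1, h2, map_zero, zero_mul, s56a_epsEnd_one]
    show s56a_epsEnd ρbar (ρbar.ρ σ) (s56a_toEnd ρbar (c.1 σ) * ρbar.ρ σ) v - v ∈ _
    rw [h3, Module.End.one_apply, sub_self]
    exact Submodule.zero_mem _

theorem s56a_liftRep_apply (c : cocycles₁ (s56a_ad0 ρbar)) (hc : s56a_IsLevel c.1) (σ : Γℚ)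
    (x : s56a_VEps ρbar) :
    (s56a_liftRep ρbar c hc).ρ σ x =
      s56a_VEps.mk (ρbar.ρ σ x.re)
        (ρbar.ρ σ x.im + s56a_toEnd ρbar (c.1 σ) (ρbar.ρ σ x.re)) := rfl


end Lift

section Selmer

open Polynomial
open Fermat.Agent.Lib.Deform (dualNumberAlgebra)

variable (𝒪 : Type) [CommRing 𝒪] [IsDomain 𝒪] [IsDiscreteValuationRing 𝒪]
  [IsAdicComplete (maximalIdeal 𝒪) 𝒪]
  (ρbar : ResidualGaloisRep (ResidueField 𝒪))
  (𝒟 : ∀ ⦃A : Type⦄ [CommRing A] [IsLocalRing A] [Algebra 𝒪 A], GaloisRepAdic A → Prop)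

/-- The Selmer set of `𝒟`: classes of `H¹(Γℚ, ad⁰ ρ̄)` with a level-constant representative `c`
whose first-order deformation `(1 + ε c) ρ̄` is of type `𝒟`. -/
def s56a_SelmerSet : Set (H1 (s56a_ad0 ρbar)) :=
  letI := dualNumberAlgebra 𝒪
  {x | ∃ (c : cocycles₁ (s56a_ad0 ρbar)) (hc : s56a_IsLevel c.1),
      (H1π (s56a_ad0 ρbar)).hom c = x ∧ 𝒟 (s56a_liftRep ρbar c hc)}

theorem s56a_mem_selmerSet (x : H1 (s56a_ad0 ρbar)) :
    letI := dualNumberAlgebra 𝒪
    x ∈ s56a_SelmerSet 𝒪 ρbar 𝒟 ↔ ∃ (c : cocycles₁ (s56a_ad0 ρbar)) (hc : s56a_IsLevel c.1),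
      (H1π (s56a_ad0 ρbar)).hom c = x ∧ 𝒟 (s56a_liftRep ρbar c hc) := Iff.rfl

/-- What W1 needs from a deformation type `𝒟` (all three hold for the concrete conditions of S56:
`s56a_tangentStable_ord`, `s56a_tangentStable_flat`). -/
structure s56a_TangentStable (p : ℕ) : Prop where
  /-- `𝒟` is stable under surjective base change to `k[ε]`. -/
  baseChange : letI := dualNumberAlgebra 𝒪
    ∀ ⦃A : Type⦄ [CommRing A] [IsLocalRing A] [Algebra 𝒪 A]
      (φ : A →ₐ[𝒪] DualNumber (ResidueField 𝒪))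
      (hφ : IsLocalHom (φ : A →+* DualNumber (ResidueField 𝒪))), Function.Surjective φ →
      ∀ ⦃ρ : GaloisRepAdic A⦄, 𝒟 ρ →
        𝒟 (ρ.baseChangeAlong (φ : A →+* DualNumber (ResidueField 𝒪)) hφ)
  /-- `𝒟` is invariant under equivalence over `k[ε]`. -/
  of_isEquiv : letI := dualNumberAlgebra 𝒪
    ∀ ⦃ρ ρ' : GaloisRepAdic (DualNumber (ResidueField 𝒪))⦄, ρ.IsEquiv ρ' → 𝒟 ρ → 𝒟 ρ'
  /-- `𝒟` fixes the determinant. -/
  det : letI := dualNumberAlgebra 𝒪
    ∀ ⦃ρ : GaloisRepAdic (DualNumber (ResidueField 𝒪))⦄, 𝒟 ρ → ρ.DetIsCyclotomic p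

/-- The numerical statement about Selmer sets to which S56 is reduced, for a local condition
`cond` at `p` (`GaloisRep.strictOrdinaryCondition 𝒪 p` or `GaloisRep.flatCondition 𝒪 p`). -/
def s56a_SelmerStatement (p : ℕ) (S Smin : Finset ℕ)
    (cond : Finset ℕ → ∀ ⦃A : Type⦄ [CommRing A] [IsLocalRing A] [Algebra 𝒪 A],
      GaloisRepAdic A → Prop) : Prop :=
  ∃ r : ℕ, ∀ n : ℕ, ∃ qv : Fin r → ℕ, Function.Injective qv ∧
    (∀ i, (qv i).Prime ∧ qv i ∉ S ∧ p ^ (n + 1) ∣ qv i - 1) ∧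
    (∀ i, ∀ P : ValuationSubring (AlgebraicClosure ℚ), P.LiesOverPrime (qv i) →
      ∀ φ : Γℚ, P.IsFrobeniusAt φ (qv i) →
        ∃ α β : ResidueField 𝒪, α ≠ β ∧
          LinearMap.charpoly (ρbar.ρ φ) = (X - C α) * (X - C β)) ∧
    ∃ T : Finset (H1 (s56a_ad0 ρbar)),
      s56a_SelmerSet 𝒪 ρbar (fun _A _ _ _ ρ =>
          cond (Smin ∪ Finset.univ.image qv) ρ ∧
            ∀ q ∈ Smin, q.Prime → q ≠ p → ρ.IsUnipotentOnInertiaAt q) ⊆ ↑T ∧
        T.card ≤ Nat.card (ResidueField 𝒪) ^ r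

end Selmer

end Fermat.Agent.Lib.S56
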