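import Fermat.Agent.Lib.S56.LPoints
import Fermat.Agent.Lib.S56.ADefs

/-!
# Programme W (S56), wall W8-F2 (helper2): flat first-order deformations have a good field

`s56l_flat_good` : if the first-order deformation `(1 + εc) ρ̄` of `ρ̄` (over a finite field `k` of
characteristic `p`) is flat at `p` (Prelude's `IsFlatAt`), then there is a finite Galois extension
`L/ℚ` inside `ℚ̄` which has Fontaine's property `(P_m)` at `padicPlace p` for every rational
`m > p/(p-1)` and such that `G_L` is killed by `ρ̄` and by the cocycle `c`.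
-/

set_option autoImplicit false

noncomputable section

namespace Fermat.Agent.Lib.S56

open Fermat.Agent.Lib.Frey Fermat.Agent.Lib.PT GaloisRep groupCohomology

local notation "Q̄" => AlgebraicClosure ℚ
local notation "Γℚ" => (AlgebraicClosure ℚ ≃ₐ[ℚ] AlgebraicClosure ℚ)

section Field

variable (p : ℕ) {H : Type*} [CommRing H] [Algebra (ratLocalizedAt p) H]
  [Module.Finite (ratLocalizedAt p) H]

/-- the field generated by the coordinates of the points. -/
def s56l_pointField : IntermediateField ℚ Q̄ :=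
  IntermediateField.adjoin ℚ {y : Q̄ | ∃ (x : H →ₐ[ratLocalizedAt p] Q̄) (h : H), x h = y}

omit [Module.Finite (ratLocalizedAt p) H] in
theorem s56l_mem_pointField (x : H →ₐ[ratLocalizedAt p] Q̄) (h : H) :
    x h ∈ s56l_pointField p (H := H) :=
  IntermediateField.subset_adjoin _ _ ⟨x, h, rfl⟩

/-- `ℚ(points)` is a finite extension of `ℚ`. -/
theorem s56l_pointField_finite : FiniteDimensional ℚ ↥(s56l_pointField p (H := H)) := by
  classical
  obtain ⟨n, s, hs⟩ := Module.Finite.exists_fin (R := ratLocalizedAt p) (M := H)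
  have : Finite (H →ₐ[ratLocalizedAt p] Q̄) := s56l_finite_points
  let T : Set Q̄ := Set.range fun xi : (H →ₐ[ratLocalizedAt p] Q̄) × Fin n => xi.1 (s xi.2)
  have : Finite T := Set.finite_range _
  have hfin : FiniteDimensional ℚ ↥(IntermediateField.adjoin ℚ T) :=
    IntermediateField.finiteDimensional_adjoin fun y _ =>
      (AlgebraicClosure.isAlgebraic ℚ).isAlgebraic y |>.isIntegral
  have hle : s56l_pointField p (H := H) ≤ IntermediateField.adjoin ℚ T := by
    rw [s56l_pointField, IntermediateField.adjoin_le_iff]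
    rintro y ⟨x, h, rfl⟩
    have hmem : h ∈ Submodule.span (ratLocalizedAt p) (Set.range s) := by rw [hs]; trivial
    induction hmem using Submodule.span_induction with
    | mem y hy =>
      obtain ⟨i, rfl⟩ := hy
      exact IntermediateField.subset_adjoin _ _ ⟨(x, i), rfl⟩
    | zero =>
      rw [map_zero]
      exact zero_mem _
    | add y z _ _ hy hz =>
      rw [map_add]
      exact add_mem hy hz
    | smul a y _ hy =>
      rw [map_smul, Algebra.smul_def]
      exact mul_mem ((IntermediateField.adjoin ℚ T).algebraMap_mem (a : ℚ)) hy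
  exact FiniteDimensional.of_injective (IntermediateField.inclusion hle).toLinearMap
    (IntermediateField.inclusion hle).injective

omit [Module.Finite (ratLocalizedAt p) H] in
/-- `ℚ(points)` is normal over `ℚ`. -/
theorem s56l_pointField_normal : Normal ℚ ↥(s56l_pointField p (H := H)) := by
  have hcl : IsAlgClosure ℚ Q̄ := ⟨inferInstance, AlgebraicClosure.isAlgebraic ℚ⟩
  have hn : Normal ℚ Q̄ := IsAlgClosure.normal ℚ Q̄
  refine (IntermediateField.normal_iff_forall_map_le' (F := ℚ) (L := Q̄)
    (K := s56l_pointField p (H := H))).2 ?_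
  intro σ
  rw [s56l_pointField, IntermediateField.adjoin_map]
  apply IntermediateField.adjoin.mono
  rintro _ ⟨_, ⟨x, h, rfl⟩, rfl⟩
  let σA : Q̄ →ₐ[ratLocalizedAt p] Q̄ :=
    { (σ : Q̄ →+* Q̄) with commutes' := fun r => σ.commutes _ }
  exact ⟨σA.comp x, h, rfl⟩

end Field

section Flat

variable (p : ℕ) [Fact p.Prime] {k : Type} [Field k] [Finite k] (ρbar : ResidualGaloisRep k)

/-- **flat ⇒ good field.** -/
theorem s56l_flat_good (hp0 : (p : k) = 0) (c : cocycles₁ (s56a_ad0 ρbar)) (hc : s56a_IsLevel c.1)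
    (hflat : (s56a_liftRep ρbar c hc).IsFlatAt p) :
    ∃ L : IntermediateField ℚ Q̄, FiniteDimensional ℚ ↥L ∧ Normal ℚ ↥L ∧
      (∀ m : ℚ, (p : ℚ) / ((p : ℚ) - 1) < m →
        s56r_Pm p Fact.out (padicPlace p) (ptg_padicPlace_liesOver p) L m) ∧
      ∀ σ ∈ L.fixingSubgroup, ρbar.ρ σ = 1 ∧ c.1 σ = 0 := by
  have hfinA : Finite (DualNumber k ⧸ (⊥ : Ideal (DualNumber k))) := by
    have : Finite (DualNumber k) := inferInstanceAs (Finite (k × k))
    exact Finite.of_surjective _ Ideal.Quotient.mk_surjective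
  obtain ⟨H, instCR, instHopf, hfin, hfl, hcc, e, hmul, hgal⟩ := hflat.2 ⊥ hfinA
  -- `e 1 = 0`, `e (x ^ n) = n • e x`
  have he1 : e 1 = 0 := by
    have := hmul 1 1
    rw [mul_one] at this
    exact left_eq_add.mp this
  have hpow : ∀ (x : WithConv (H →ₐ[ratLocalizedAt p] Q̄)) (n : ℕ), e (x ^ n) = n • e x := by
    intro x n
    induction n with
    | zero => rw [pow_zero, zero_smul, he1]
    | succ n ih => rw [pow_succ, hmul, ih, succ_nsmul]
  have hpA : (p : DualNumber k) = 0 := by
    rw [← map_natCast (TrivSqZeroExt.inlHom k k), hp0, map_zero]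
  have hkill : ∀ x : WithConv (H →ₐ[ratLocalizedAt p] Q̄), x ^ p = 1 := by
    intro x
    apply e.injective
    rw [hpow, he1, ← Nat.cast_smul_eq_nsmul (DualNumber k), hpA, zero_smul]
  refine ⟨s56l_pointField p (H := H), s56l_pointField_finite p, s56l_pointField_normal p,
    fun m hm => s56l_Pm_points p hkill Fact.out m hm, fun σ hσ => ?_⟩
  rw [IntermediateField.mem_fixingSubgroup_iff] at hσ
  -- `σ` fixes every point, hence acts trivially on `V̄[ε]`
  have hact : ∀ y : (s56a_liftRep ρbar c hc).V ⧸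
      ((⊥ : Ideal (DualNumber k)) • (⊤ : Submodule (DualNumber k) (s56a_liftRep ρbar c hc).V)),
      (s56a_liftRep ρbar c hc).levelAction ⊥ σ y = y := by
    intro y
    obtain ⟨f, rfl⟩ := e.surjective y
    exact (hgal σ f f fun h => (hσ _ (s56l_mem_pointField p f.ofConv h)).symm).symm
  have hid : ∀ v : (s56a_liftRep ρbar c hc).V, (s56a_liftRep ρbar c hc).ρ σ v = v := by
    intro v
    have h1 := hact (Submodule.Quotient.mk v)
    have h3 : (s56a_liftRep ρbar c hc).ρ σ v - v ∈ ((⊥ : Ideal (DualNumber k)) •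
        (⊤ : Submodule (DualNumber k) (s56a_liftRep ρbar c hc).V)) :=
      (Submodule.Quotient.eq _).1 h1
    rw [Submodule.bot_smul, Submodule.mem_bot, sub_eq_zero] at h3
    exact h3
  have hρ : ∀ v : ρbar.V, ρbar.ρ σ v = v := by
    intro v
    have h1 := congrArg s56a_VEps.re (hid (s56a_VEps.mk v 0))
    rw [s56a_liftRep_apply] at h1
    exact h1
  have hρ1 : ρbar.ρ σ = 1 := LinearMap.ext hρ
  refine ⟨hρ1, ?_⟩
  apply Subtype.ext
  apply LinearMap.ext
  intro v
  have h1 := congrArg s56a_VEps.im (hid (s56a_VEps.mk v 0))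
  rw [s56a_liftRep_apply] at h1
  simp only [s56a_VEps.im_mk, s56a_VEps.re_mk, zero_add, hρ] at h1
  exact h1

end Flat

end Fermat.Agent.Lib.S56
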