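/-
PROGRAMME W (S56), wall [W8-F3] "THE COUNT" (helper3, prefix `s56f_`).  STATEMENT-ONLY INTERFACE:
everything below is a definition; the `Prop`-valued `s56f_Iface…` are the contracts which the files
`Lib/S56/F3*.lean` prove (as `theorem s56f_iface… : s56f_Iface…`).  Owners in brackets.

Notation: `P` a valuation subring of `ℚ̄` over `p`, `D = D_P`, `I = I_P`, `v = ford_vQ P` (`v p = 1`),
`κ = P/𝔪_P`.  `π₁ ∈ ℚ̄` with `π₁ ^ (p² - 1) = -p`, `e₁ = p² - 1`;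
`V₁ = {σ ∈ I | σ π₁ = π₁}` (`s56f_V1`), `E = ℚ̄^{V₁}` (value group `(1/e₁) ℤ`, residue field `𝔽̄_p`).
For `σ ∈ I`: `σ π₁ = ξ_σ π₁`, `ξ_σ ∈ μ_{e₁}`; `ω = ξ ^ (p+1)` on `I`.

THE TARGET (`s56f_IfaceMain`).  `Good` a property of number fields `L ⊂ ℚ̄`, stable under composita
(for the top: `Good L := L/ℚ` finite Galois `∧ ∀ m > p/(p-1), s56r_Pm P L m`, helper6/helper2), which
satisfies the ARITHMETIC INPUT `s56f_KB` (= helper6's `s56r_kummerBounded`).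
`s56f_H1G Good ρbar r` := the `k`-span of the classes `x ∈ H¹(G_p, ad⁰ρ̄)` having a cocycle which vanishes
on `D ∩ G_L` for some `Good L` with `G_L ⊆ ker ρ̄`.  Then, for `p ≥ 5` and `ρ̄` with split characteristic
polynomials (hypothesis `hsplit` of S56): `dim_k H1G ≤ h⁰(G_p, ad⁰ρ̄) + 1`.

THE PROOF (see the board post).  Tame `ρ̄|_D` : `U₁ = D ∩ G_{K₁}` kills `ρ̄`, restriction to `V₁` has
kernel in `H¹_ur` (dim ≤ h⁰, W6) and its image consists of `D`-equivariant homs `h : V₁ → ad⁰` all of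
whose `𝔽_p`-components are WINDOW characters (Kummer generator in `(1 + pO_E) E^{×p}`); in an eigenbasis of
tame inertia `h = (h_H, h_X, h_Y)`, `h_• ∈ 𝓗_ψ(D')`, `ψ ∈ {1, ν, ν⁻¹}`, `D' = D` or the index-2 stabiliser
of the eigenlines.  Wild `ρ̄|_D` : `D`-stable line (`s56f_IfaceWildLine`), filtration `k(θ) ⊂ B⁰ ⊂ ad⁰`,
the same character count for `ψ ∈ {θ⁻¹, 1, θ}`.
THE CHARACTER COUNT: the window characters of `V₁` are filtered by the depth `j = e₁ v(x)`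
(`α^p = 1 + x`), `e₁ ≤ j < p e₁/(p-1)`, `p ∤ j`, with leading-term maps `ℓ_j → κ`,
`ℓ_j(g ⋆ χ) = θ₁(g)^j · ḡ(ℓ_j χ)`; an `h ∈ 𝓗_ψ(D')` of depth `j` gives `A : k →+ κ` with
`A(ε(τ) x) = t^j A(x)`, `A(ε(φ') x) = c · A(x)^(p^f)`, `ε = ω ψ⁻¹`: (Hit) forces `t^j` to be conjugate to
`ε(τ)`, (Count) gives `dim_k ≤ 1` per hit, (Arith) locates the hits.
-/
import Mathlib
import Fermat.Agent.Lib.S56.ADefs
import Fermat.Agent.Lib.Frey.Ord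
import Fermat.Prelude.Def_ExtEndgame_ProductionDatum

set_option autoImplicit false

noncomputable section

namespace Fermat.Agent.Lib.S56

open groupCohomology ExtCitation CategoryTheory Polynomial Module Fermat.Agent.Lib.Frey

local notation "Qbar" => AlgebraicClosure ℚ
local notation "GQ" => (AlgebraicClosure ℚ ≃ₐ[ℚ] AlgebraicClosure ℚ)

/-! ### §A Pure algebra  [helper8] -/

/-- **(Count)** `k` a finite field of characteristic `p`, `κ` any field of characteristic `p`, `f ≥ 1`,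
`e ∈ k` generating a subfield of degree `≥ f` over `𝔽_p` (`e ^ (p^i) ≠ e` for `0 < i < f`), `u ∈ kˣ`.
The additive maps `A : k → κ` with `A (e x) = cτ A x` ("inertia") and `A (u x) = cφ (A x)^(p^f)`
("Frobenius") form a `k`-space (`(c • A) x = A (c x)`) of dimension `≤ 1`. -/
def s56f_IfaceCount : Prop :=
  ∀ (p : ℕ) [Fact p.Prime] (k κ : Type) [Field k] [Finite k] [CharP k p] [Field κ] [CharP κ p]
    (f : ℕ) (e u : k) (cτ cφ : κ), 0 < f → u ≠ 0 →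
    (∀ i, 0 < i → i < f → e ^ (p ^ i) ≠ e) →
    ∀ A B : k →+ κ,
      (∀ x, A (e * x) = cτ * A x) → (∀ x, A (u * x) = cφ * A x ^ (p ^ f)) →
      (∀ x, B (e * x) = cτ * B x) → (∀ x, B (u * x) = cφ * B x ^ (p ^ f)) →
      A ≠ 0 → ∃ c : k, ∀ x, B x = A (c * x)

/-- **(Hit)** a non-zero additive `A : k → κ` with `A (e x) = cτ A x`: `cτ` is a root (in `κ`) of every
polynomial over `𝔽_p` killing `e`. -/
def s56f_IfaceHit : Prop :=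
  ∀ (p : ℕ) [Fact p.Prime] (k κ : Type) [Field k] [Algebra (ZMod p) k] [Field κ] [Algebra (ZMod p) κ]
    (e : k) (cτ : κ) (A : k →+ κ), (∀ x, A (e * x) = cτ * A x) → A ≠ 0 →
    ∀ Q : Polynomial (ZMod p), aeval e Q = 0 → aeval cτ Q = 0

/-- **(Arith1)** `t` of exact order `p² - 1`, `p² - 1 ≤ j < p² + p`: if `t ^ j` lies in the prime field then
`j = p² - 1` (and `t ^ j = 1`).  [the hits of a character of `D`: only `ψ|_I = ω`, depth `e₁`] -/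
def s56f_IfaceArith1 : Prop :=
  ∀ (p : ℕ) [Fact p.Prime] (κ : Type) [Field κ] [CharP κ p] (t : κ), orderOf t = p ^ 2 - 1 →
    ∀ j : ℕ, p ^ 2 - 1 ≤ j → j < p ^ 2 + p → (t ^ j) ^ p = t ^ j → j = p ^ 2 - 1

/-- **(Arith2)** `p ≥ 5`, `t` of exact order `p² - 1`, `p² - 1 ≤ j < p² + p`: if `(t ^ j) ^ (p+1) = t ^ (2 (p+1))`
then `j = p² + 1`.  [the hits of a character `ν` of `D₂` with `ν(τ)^(p+1) = 1`: `ε = ω ν⁻¹`,
`ε^(p+1) = ω² = t^(2(p+1))`] -/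
def s56f_IfaceArith2 : Prop :=
  ∀ (p : ℕ) [Fact p.Prime] (κ : Type) [Field κ] [CharP κ p] (t : κ), orderOf t = p ^ 2 - 1 →
    5 ≤ p → ∀ j : ℕ, p ^ 2 - 1 ≤ j → j < p ^ 2 + p → (t ^ j) ^ (p + 1) = t ^ (2 * (p + 1)) →
      j = p ^ 2 + 1

/-- **(Arith3)** `p ≥ 5`: `(t ^ (p+1)) ^ 2 ≠ 1`
[`ω(τ) ≠ ±1`: no hits for `ψ|_I = 1`, nor for `ν(τ) = -1`; `ν = ω = ν⁻¹` impossible]. -/
def s56f_IfaceArith3 : Prop :=
  ∀ (p : ℕ) [Fact p.Prime] (κ : Type) [Field κ] [CharP κ p] (t : κ), orderOf t = p ^ 2 - 1 →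
    5 ≤ p → (t ^ (p + 1)) ^ 2 ≠ 1

/-! ### §B The local dictionary for `E = ℚ̄^{V₁}`  [helper8 after §A, or whoever is free; from helper5's
`s56o_Our_factor` (`v(ℚ̄^I) = ℤ`)] -/

section Dict

variable (p : ℕ) (P : ValuationSubring Qbar)

/-- `V₁ = {σ ∈ I_P | σ π₁ = π₁}`. -/
def s56f_V1 (π₁ : Qbar) : Subgroup GQ where
  carrier := {σ | σ ∈ P.inertiaSubgroupIn ℚ ∧ σ π₁ = π₁}
  mul_mem' := by
    rintro a b ⟨ha, ha'⟩ ⟨hb, hb'⟩
    exact ⟨mul_mem ha hb, by rw [AlgEquiv.mul_apply, hb', ha']⟩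
  one_mem' := ⟨one_mem _, rfl⟩
  inv_mem' := by
    rintro a ⟨ha, ha'⟩
    refine ⟨inv_mem ha, ?_⟩
    have h : a⁻¹ (a π₁) = π₁ := by
      rw [← AlgEquiv.mul_apply, inv_mul_cancel, AlgEquiv.one_apply]
    rw [ha'] at h
    exact h

lemma s56f_mem_V1 {π₁ : Qbar} {σ : GQ} :
    σ ∈ s56f_V1 P π₁ ↔ σ ∈ P.inertiaSubgroupIn ℚ ∧ σ π₁ = π₁ := Iff.rfl

/-- **(ValGroup)** `v (E^×) ⊆ (1/(p²-1)) ℤ`. -/
def s56f_IfaceValGroup : Prop :=
  ∀ (p : ℕ) (hp : p.Prime) (P : ValuationSubring Qbar) (hP : P.LiesOverPrime p) (π₁ : Qbar),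
    π₁ ^ (p ^ 2 - 1) = -(p : Qbar) →
    ∀ x : Qbar, x ≠ 0 → (∀ σ ∈ s56f_V1 P π₁, σ x = x) →
      ∃ m : ℤ, ford_vQ P hp hP x = (((m : ℚ) / ((p : ℚ) ^ 2 - 1) : ℚ) : WithTop ℚ)

/-- **(TameGen)** tame inertia is cyclic with a generator `τ`: `τ π₁ = ξ π₁`, `ξ` of exact order `p² - 1`,
and every `σ ∈ I` has `σ π₁ = ξ ^ i π₁`; `ξ` is fixed by `I`. -/
def s56f_IfaceTameGen : Prop :=
  ∀ (p : ℕ), p.Prime → ∀ (P : ValuationSubring Qbar), P.LiesOverPrime p → ∀ (π₁ : Qbar),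
    π₁ ^ (p ^ 2 - 1) = -(p : Qbar) →
    ∃ τ ∈ P.inertiaSubgroupIn ℚ, ∃ ξ : Qbar, orderOf ξ = p ^ 2 - 1 ∧ τ π₁ = ξ * π₁ ∧
      (∀ σ ∈ P.inertiaSubgroupIn ℚ, σ ξ = ξ ∧ ∃ i : ℕ, σ π₁ = ξ ^ i * π₁)

/-- **(RedInj)** reduction mod `𝔪_P` is injective on roots of unity of order prime to `p`. -/
def s56f_IfaceRedInj : Prop :=
  ∀ (p : ℕ), p.Prime → ∀ (P : ValuationSubring Qbar), P.LiesOverPrime p →
    ∀ (ξ : Qbar) (m : ℕ), ¬ p ∣ m → ξ ^ m = 1 → ξ - 1 ∈ P.nonunits → ξ = 1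

/-- **(Omega)** `ω = ξ ^ (p+1)` on inertia: if `σ ∈ I`, `σ π₁ = ξ π₁` and `σ ζ = ζ ^ a` on `μ_p`, then
`ξ ^ (p+1) ≡ a mod 𝔪_P`. -/
def s56f_IfaceOmega : Prop :=
  ∀ (p : ℕ), p.Prime → p ≠ 2 → ∀ (P : ValuationSubring Qbar), P.LiesOverPrime p → ∀ (π₁ : Qbar),
    π₁ ^ (p ^ 2 - 1) = -(p : Qbar) →
    ∀ σ ∈ P.inertiaSubgroupIn ℚ, ∀ (ξ ζ : Qbar) (a : ℕ), σ π₁ = ξ * π₁ → ζ ^ p = 1 → ζ ≠ 1 →
      σ ζ = ζ ^ a → ξ ^ (p + 1) - (a : Qbar) ∈ P.nonunits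

/-- **(Lambda)** `λ = ζ - 1`: `v λ = 1/(p-1)` and `p / λ^(p-1) ≡ -1 mod 𝔪_P`. -/
def s56f_IfaceLambda : Prop :=
  ∀ (p : ℕ) (hp : p.Prime) (P : ValuationSubring Qbar) (hP : P.LiesOverPrime p) (ζ : Qbar),
    ζ ^ p = 1 → ζ ≠ 1 →
      ford_vQ P hp hP (ζ - 1) = (((1 : ℚ) / ((p : ℚ) - 1) : ℚ) : WithTop ℚ) ∧
      (p : Qbar) / (ζ - 1) ^ (p - 1) + 1 ∈ P.nonunits

/-- **(ResFin)** the residue field of `P` is algebraic over `𝔽_p`: every `c ∈ P` has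
`c ^ (p ^ N) ≡ c mod 𝔪_P` for some `N ≥ 1`. -/
def s56f_IfaceResFin : Prop :=
  ∀ (p : ℕ), p.Prime → ∀ (P : ValuationSubring Qbar), P.LiesOverPrime p →
    ∀ c ∈ P, ∃ N : ℕ, 0 < N ∧ c ^ (p ^ N) - c ∈ P.nonunits

end Dict

/-! ### §W The wild case: a `D`-stable line  [volunteer with S35/S44 experience; finite level `L = ℚ(ρ)`,
`W = ker θ_L ⊂ I(L)` is a normal `p`-subgroup of `D(L)` (`s35t_wild_trivial`), `I(L)/W ↪ κ_L^×`] -/

/-- **(WildLine)** a 2-dimensional mod-`p` representation of `G_ℚ` (finite image) which is not tame at `P`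
has a `D_P`-stable line. -/
def s56f_IfaceWildLine : Prop :=
  ∀ (p : ℕ) [Fact p.Prime] (k : Type) [Field k] [CharP k p] (P : ValuationSubring Qbar),
    P.LiesOverPrime p →
    ∀ (V : Type) [AddCommGroup V] [Module k V], finrank k V = 2 →
    ∀ ρ : GQ →* Module.End k V,
      (∃ F : IntermediateField ℚ Qbar, FiniteDimensional ℚ F ∧ ∀ σ ∈ F.fixingSubgroup, ρ σ = 1) →
      ¬ (∀ σ ∈ P.inertiaSubgroupIn ℚ, ∃ m : ℕ, m.Coprime p ∧ ρ σ ^ m = 1) →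
      ∃ ℓ : Submodule k V, finrank k ℓ = 1 ∧
        ∀ σ ∈ P.decompositionSubgroup ℚ, ∀ x ∈ ℓ, ρ σ x ∈ ℓ

/-! ### §M The target  [helper3] -/

/-- tameness of a number field at `P` (the hypothesis shape of helper6's `s56g_IfaceTame`). -/
def s56f_TameAt (K₁ : IntermediateField ℚ Qbar) (p : ℕ) (P : ValuationSubring Qbar) : Prop :=
  ∀ σ ∈ P.inertiaSubgroupIn ℚ, ∃ m : ℕ, m.Coprime p ∧ σ ^ m ∈ K₁.fixingSubgroup

/-- **THE ARITHMETIC INPUT** (helper6's `s56r_kummerBounded` for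
`Good L := L/ℚ finite Galois ∧ ∀ m > p/(p-1), s56r_Pm P L m`). -/
def s56f_KB (p : ℕ) (P : ValuationSubring Qbar) (Good : IntermediateField ℚ Qbar → Prop) : Prop :=
  ∀ L : IntermediateField ℚ Qbar, Good L →
    ∀ K₁ : IntermediateField ℚ Qbar, FiniteDimensional ℚ K₁ → Normal ℚ K₁ → s56f_TameAt K₁ p P →
    (∃ ζ ∈ K₁, ζ ^ p = 1 ∧ ζ ≠ 1) →
    ∀ α : Qbar, α ≠ 0 →
      (∀ σ ∈ P.decompositionSubgroup ℚ, σ ∈ (L ⊔ K₁).fixingSubgroup → σ α = α) →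
      (∀ σ ∈ P.decompositionSubgroup ℚ, σ ∈ K₁.fixingSubgroup → σ (α ^ p) = α ^ p) →
      ∃ z w : Qbar, (∀ σ ∈ P.decompositionSubgroup ℚ, σ ∈ K₁.fixingSubgroup → σ z = z ∧ σ w = w) ∧
        w ∈ P ∧ α ^ p = z ^ p * (1 + (p : Qbar) * w)

section Target

variable {k : Type} [Field k] (ρbar : ResidualGaloisRep k) {G : Type} [Group G] (r : G →* GQ)

/-- **`H¹_Good(D, ad⁰ρ̄)`**: the span of the classes with a cocycle vanishing on `D ∩ G_L`, `L` good,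
`G_L ⊆ ker ρ̄`. -/
def s56f_H1G (Good : IntermediateField ℚ Qbar → Prop) :
    Submodule k (H1 (Rep.res r (s56a_ad0 ρbar))) :=
  Submodule.span k {x | ∃ L : IntermediateField ℚ Qbar, Good L ∧
    (∀ σ ∈ L.fixingSubgroup, ρbar.ρ σ = 1) ∧
    ∃ c : cocycles₁ (Rep.res r (s56a_ad0 ρbar)),
      (∀ g : G, r g ∈ L.fixingSubgroup → c g = 0) ∧
        (H1π (Rep.res r (s56a_ad0 ρbar))).hom c = x}

end Target

/-- **(Main) THE COUNT, `p ≥ 5`.** -/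
def s56f_IfaceMain : Prop :=
  ∀ (p : ℕ) [Fact p.Prime], 5 ≤ p → ∀ (k : Type) [Field k] [Finite k] [CharP k p]
    (ρbar : ResidualGaloisRep k),
    (∀ σ : GQ, ∃ α β : k, LinearMap.charpoly (ρbar.ρ σ) = (X - C α) * (X - C β)) →
    ∀ (Good : IntermediateField ℚ Qbar → Prop),
      (∀ L L', Good L → Good L' → Good (L ⊔ L')) → (∀ L, Good L → FiniteDimensional ℚ L) →
      s56f_KB p (primeLocalPlace (pPrime p)) Good →
      Module.Finite k ↥(s56f_H1G ρbar (primeLocalToGlobal (pPrime p)) Good) ∧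
      finrank k ↥(s56f_H1G ρbar (primeLocalToGlobal (pPrime p)) Good) ≤
        finrank k ↥(Rep.res (primeLocalToGlobal (pPrime p)) (s56a_ad0 ρbar)).ρ.invariants + 1

end Fermat.Agent.Lib.S56
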