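/-
PROGRAMME W (S56), wall [W8-F1] (helper6, prefix `s56r_`): valuation computations for the Kummer
break (abstract: a field `Ω` with `v : AddValuation Ω (WithTop ℚ)`, `v p = 1`).

* `s56r_val_zeta_sub_one` : `v (ζ - 1) = 1/(p-1)` for `ζ` a primitive `p`-th root of unity;
* `s56r_val_root_sub_one` : `α^p = 1 + x`, `0 < v x < 1` `⇒` `v (α - 1) = v x / p`;
* `s56r_val_one_add_pow_sub_one` : `v ((1+ε)^a - 1) = v ε` for `0 < a < p`, `0 < v ε`;
* `s56r_u_lower` : the lower bound for `u`.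
-/
import Mathlib
import Fermat.Agent.Lib.S56.RInterp

set_option autoImplicit false

noncomputable section

namespace Fermat.Agent.Lib.S56

open Polynomial

section

variable {Ω : Type*} [Field Ω] (v : AddValuation Ω (WithTop ℚ)) {p : ℕ} (hp : p.Prime)
  (hvp : v (p : Ω) = 1)

/-- natural numbers are integral -/
lemma s56r_val_natCast_nonneg (n : ℕ) : 0 ≤ v (n : Ω) := by
  induction n with
  | zero => simp
  | succ n ih =>
    rw [Nat.cast_succ]
    refine AddValuation.map_le_add v ih ?_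
    rw [AddValuation.map_one]

include hvp in
/-- a natural number prime to `p` is a unit -/
lemma s56r_val_natCast_coprime {a : ℕ} (ha : a.Coprime p) : v (a : Ω) = 0 := by
  refine le_antisymm ?_ (s56r_val_natCast_nonneg v a)
  by_contra hcon
  rw [not_le] at hcon
  -- `s a + t p = 1`
  have h1 : (a.gcdA p : ℤ) * a + a.gcdB p * p = 1 := by
    have := Nat.gcd_eq_gcd_ab a p
    rw [ha] at this
    push_cast at this
    linarith
  have h2 : ((a.gcdA p : ℤ) : Ω) * (a : Ω) + ((a.gcdB p : ℤ) : Ω) * (p : Ω) = 1 := by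
    exact_mod_cast congrArg (fun z : ℤ => (z : Ω)) h1
  have hint : ∀ z : ℤ, 0 ≤ v (z : Ω) := by
    intro z
    obtain ⟨n, rfl | rfl⟩ := z.eq_nat_or_neg
    · exact_mod_cast s56r_val_natCast_nonneg v n
    · rw [Int.cast_neg, AddValuation.map_neg]
      exact_mod_cast s56r_val_natCast_nonneg v n
  have h3 : 0 < v (((a.gcdA p : ℤ) : Ω) * (a : Ω) + ((a.gcdB p : ℤ) : Ω) * (p : Ω)) := by
    refine AddValuation.map_lt_add v ?_ ?_
    · rw [AddValuation.map_mul]
      exact lt_of_lt_of_le hcon (le_add_of_nonneg_left (hint _))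
    · rw [AddValuation.map_mul, hvp]
      exact lt_of_lt_of_le zero_lt_one (le_add_of_nonneg_left (hint _))
  rw [h2, AddValuation.map_one] at h3
  exact lt_irrefl _ h3

/-- a root of unity is a unit -/
lemma s56r_val_of_pow_eq_one {ζ : Ω} {n : ℕ} (hn : 0 < n) (hζ : ζ ^ n = 1) : v ζ = 0 := by
  have h1 : n • v ζ = 0 := by
    rw [← AddValuation.map_pow, hζ, AddValuation.map_one]
  have hne : v ζ ≠ ⊤ := by
    intro h
    rw [h] at h1
    rcases Nat.exists_eq_succ_of_ne_zero hn.ne' with ⟨m, rfl⟩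
    rw [succ_nsmul] at h1
    simp at h1
  obtain ⟨r, hr⟩ := WithTop.ne_top_iff_exists.mp hne
  rw [← hr] at h1 ⊢
  have h2 : (n : ℚ) * r = 0 := by
    rw [← WithTop.coe_nsmul, nsmul_eq_mul] at h1
    exact_mod_cast h1
  have hnq : (n : ℚ) ≠ 0 := by exact_mod_cast hn.ne'
  have : r = 0 := by
    rcases mul_eq_zero.mp h2 with h | h
    · exact absurd h hnq
    · exact h
  rw [this]
  rfl

include hp hvp in
/-- **`v (ζ - 1) = 1/(p-1)`** -/
theorem s56r_val_zeta_sub_one {ζ : Ω} (hζ : IsPrimitiveRoot ζ p) :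
    v (ζ - 1) = ((((1 : ℚ) / ((p : ℚ) - 1) : ℚ)) : WithTop ℚ) := by
  classical
  obtain ⟨n, rfl⟩ : ∃ n, p = n + 1 := ⟨p - 1, (Nat.succ_pred_eq_of_pos hp.pos).symm⟩
  have hn1 : 1 ≤ n := by
    have := hp.two_le
    omega
  have hζv : v ζ = 0 := s56r_val_of_pow_eq_one v (Nat.succ_pos n) hζ.pow_eq_one
  have hζpow : ∀ k : ℕ, 0 ≤ v (ζ ^ k) := by
    intro k
    rw [AddValuation.map_pow, hζv]
    simp
  have hprod := hζ.prod_one_sub_pow_eq_order
  -- each factor has the valuation of `1 - ζ`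
  have hge : ∀ (μ : Ω) (k : ℕ), (∀ i : ℕ, 0 ≤ v (μ ^ i)) → v (1 - μ) ≤ v (1 - μ ^ k) := by
    intro μ k hμ
    have h1 : 1 - μ ^ k = (∑ i ∈ Finset.range k, μ ^ i) * (1 - μ) := by
      have := geom_sum_mul μ k
      linear_combination this
    rw [h1, AddValuation.map_mul]
    refine le_add_of_nonneg_left ?_
    exact AddValuation.map_le_sum v (fun i _ => hμ i)
  have heq : ∀ k ∈ Finset.range n, v (1 - ζ ^ (k + 1)) = v (1 - ζ) := by
    intro k hk
    rw [Finset.mem_range] at hk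
    refine le_antisymm ?_ (hge ζ (k + 1) hζpow)
    -- `ζ` is a power of `ζ ^ (k+1)`
    have hcop : (k + 1).Coprime (n + 1) := by
      refine Nat.Coprime.symm ((Nat.Prime.coprime_iff_not_dvd hp).mpr ?_)
      exact Nat.not_dvd_of_pos_of_lt (Nat.succ_pos k) (by omega)
    have hprim : IsPrimitiveRoot (ζ ^ (k + 1)) (n + 1) := hζ.pow_of_coprime (k + 1) hcop
    obtain ⟨j, -, hj⟩ := hprim.eq_pow_of_pow_eq_one hζ.pow_eq_one
    have h2 := hge (ζ ^ (k + 1)) j (fun i => by rw [← pow_mul]; exact hζpow _)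
    rw [hj] at h2
    exact h2
  have h3 := congrArg v hprod
  rw [s56r_map_prod, Finset.sum_congr rfl heq, Finset.sum_const, Finset.card_range] at h3
  have h4 : v ((n : Ω) + 1) = 1 := by
    have : ((n : Ω) + 1) = ((n + 1 : ℕ) : Ω) := by push_cast; ring
    rw [this, hvp]
  rw [h4] at h3
  have hne : v (1 - ζ) ≠ ⊤ := by
    intro h
    rw [h] at h3
    rcases Nat.exists_eq_succ_of_ne_zero (by omega : n ≠ 0) with ⟨m, rfl⟩
    rw [succ_nsmul] at h3
    simp at h3
  obtain ⟨r, hr⟩ := WithTop.ne_top_iff_exists.mp hne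
  have hsw : v (ζ - 1) = v (1 - ζ) := AddValuation.map_sub_swap v ζ 1
  rw [hsw, ← hr]
  rw [← hr] at h3
  have h5 : (n : ℚ) * r = 1 := by
    rw [← WithTop.coe_nsmul, nsmul_eq_mul] at h3
    exact_mod_cast h3
  have hnq : (n : ℚ) ≠ 0 := by
    have : 0 < n := by omega
    exact_mod_cast this.ne'
  have h6 : r = 1 / (n : ℚ) := by
    field_simp
    linarith
  rw [h6]
  congr 2
  push_cast
  ring

include hp hvp in
/-- **`α^p = 1 + x`, `0 < v x < 1` `⇒` `v (α - 1) = v x / p`.** -/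
theorem s56r_val_root_sub_one {ζ : Ω} (hζ : IsPrimitiveRoot ζ p) (α x : Ω) (hα : α ^ p = 1 + x)
    (r : ℚ) (hx : v x = (r : WithTop ℚ)) (hr1 : r < 1) :
    v (α - 1) = (((r / (p : ℚ) : ℚ)) : WithTop ℚ) := by
  classical
  have hp1 : (1 : ℚ) < (p : ℚ) := by exact_mod_cast hp.one_lt
  have hpq : (0 : ℚ) < (p : ℚ) - 1 := by linarith
  have hprodeq : α ^ p - 1 = ∏ μ ∈ Polynomial.nthRootsFinset p (1 : Ω), (α - μ) := by
    have h := hζ.pow_sub_pow_eq_prod_sub_mul α 1 hp.pos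
    rw [one_pow] at h
    rw [h]
    refine Finset.prod_congr rfl fun μ _ => ?_
    rw [mul_one]
  have hxprod : x = ∏ μ ∈ Polynomial.nthRootsFinset p (1 : Ω), (α - μ) := by
    rw [← hprodeq, hα]
    ring
  have hcard : (Polynomial.nthRootsFinset p (1 : Ω)).card = p := hζ.card_nthRootsFinset
  -- valuations of `1 - μ`
  have hμval : ∀ μ ∈ Polynomial.nthRootsFinset p (1 : Ω), μ ≠ 1 →
      v (1 - μ) = ((((1 : ℚ) / ((p : ℚ) - 1) : ℚ)) : WithTop ℚ) := by
    intro μ hμ hμ1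
    have hμp : μ ^ p = 1 := (Polynomial.mem_nthRootsFinset hp.pos 1).mp hμ
    have hord : orderOf μ = p := by
      have h1 := orderOf_dvd_of_pow_eq_one hμp
      rcases (Nat.dvd_prime hp).mp h1 with h | h
      · exact absurd (orderOf_eq_one_iff.mp h) hμ1
      · exact h
    have hprim : IsPrimitiveRoot μ p := hord ▸ IsPrimitiveRoot.orderOf μ
    rw [AddValuation.map_sub_swap]
    exact s56r_val_zeta_sub_one v hp hvp hprim
  have hone : (1 : Ω) ∈ Polynomial.nthRootsFinset p (1 : Ω) :=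
    (Polynomial.mem_nthRootsFinset hp.pos 1).mpr (one_pow p)
  have hsum : v x = ∑ μ ∈ Polynomial.nthRootsFinset p (1 : Ω), v (α - μ) := by
    have h := congrArg v hxprod
    rw [s56r_map_prod] at h
    exact h
  have hdecomp : ∀ μ : Ω, α - μ = (α - 1) + (1 - μ) := fun μ => by ring
  set c : WithTop ℚ := ((((1 : ℚ) / ((p : ℚ) - 1) : ℚ)) : WithTop ℚ) with hc
  rcases lt_or_ge (v (α - 1)) c with hlt | hge
  · -- all factors have the valuation of `α - 1`
    have hall : ∀ μ ∈ Polynomial.nthRootsFinset p (1 : Ω), v (α - μ) = v (α - 1) := by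
      intro μ hμ
      by_cases hμ1 : μ = 1
      · rw [hμ1]
      · rw [hdecomp μ]
        refine AddValuation.map_add_eq_of_lt_left v ?_
        rw [hμval μ hμ hμ1]
        exact hlt
    rw [Finset.sum_congr rfl hall, Finset.sum_const, hcard, hx] at hsum
    have hne : v (α - 1) ≠ ⊤ := ne_top_of_lt hlt
    obtain ⟨a, ha⟩ := WithTop.ne_top_iff_exists.mp hne
    rw [← ha] at hsum ⊢
    have h5 : r = (p : ℚ) * a := by
      rw [← WithTop.coe_nsmul, nsmul_eq_mul] at hsum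
      exact_mod_cast hsum
    have : a = r / (p : ℚ) := by
      field_simp
      linarith
    rw [this]
  · -- impossible: `v x ≥ p/(p-1) > 1`
    exfalso
    have hall : ∀ μ ∈ Polynomial.nthRootsFinset p (1 : Ω), c ≤ v (α - μ) := by
      intro μ hμ
      by_cases hμ1 : μ = 1
      · rw [hμ1]; exact hge
      · rw [hdecomp μ]
        refine AddValuation.map_le_add v hge ?_
        rw [hμval μ hμ hμ1]
    have h6 : (Polynomial.nthRootsFinset p (1 : Ω)).card • c ≤ v x := by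
      rw [hsum]
      exact Finset.card_nsmul_le_sum _ _ _ hall
    rw [hcard, hx, hc, ← WithTop.coe_nsmul, nsmul_eq_mul] at h6
    have h7 : (p : ℚ) * (1 / ((p : ℚ) - 1)) ≤ r := by exact_mod_cast h6
    have h8 : (1 : ℚ) < (p : ℚ) * (1 / ((p : ℚ) - 1)) := by
      rw [mul_one_div, lt_div_iff₀ hpq]
      linarith
    linarith

include hp hvp in
/-- **`v ((1+ε)^a - 1) = v ε`** for `0 < a < p`, `0 < v ε`. -/
theorem s56r_val_one_add_pow_sub_one (ε : Ω) (hε : 0 < v ε) (a : ℕ) (ha0 : 0 < a) (hap : a < p) :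
    v ((1 + ε) ^ a - 1) = v ε := by
  have h1ε : v (1 + ε) = 0 := by
    have : v (1 : Ω) < v ε := by rw [AddValuation.map_one]; exact hε
    rw [AddValuation.map_add_eq_of_lt_left v this, AddValuation.map_one]
  have hgeom : ∀ k : ℕ, (1 + ε) ^ k - 1 = (∑ i ∈ Finset.range k, (1 + ε) ^ i) * ε := by
    intro k
    have := geom_sum_mul (1 + ε) k
    rw [← this]
    ring
  have hpowint : ∀ i : ℕ, 0 ≤ v ((1 + ε) ^ i) := by
    intro i
    rw [AddValuation.map_pow, h1ε]
    simp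
  have hpow1 : ∀ i : ℕ, 0 < v ((1 + ε) ^ i - 1) := by
    intro i
    rw [hgeom i, AddValuation.map_mul]
    exact lt_of_lt_of_le hε (le_add_of_nonneg_left
      (AddValuation.map_le_sum v (fun j _ => hpowint j)))
  -- the geometric sum is `≡ a`
  have hS : v (∑ i ∈ Finset.range a, (1 + ε) ^ i) = 0 := by
    have h2 : ∑ i ∈ Finset.range a, (1 + ε) ^ i
        = (a : Ω) + ∑ i ∈ Finset.range a, ((1 + ε) ^ i - 1) := by
      rw [Finset.sum_sub_distrib]
      simp
    have hacop : a.Coprime p := by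
      refine Nat.Coprime.symm ((Nat.Prime.coprime_iff_not_dvd hp).mpr ?_)
      exact Nat.not_dvd_of_pos_of_lt ha0 hap
    have hva : v (a : Ω) = 0 := s56r_val_natCast_coprime v hvp hacop
    have h3 : v (a : Ω) < v (∑ i ∈ Finset.range a, ((1 + ε) ^ i - 1)) := by
      rw [hva]
      refine AddValuation.map_lt_sum' v ?_ (fun i _ => hpow1 i)
      exact WithTop.coe_lt_top 0
    rw [h2, AddValuation.map_add_eq_of_lt_left v h3, hva]
  rw [hgeom a, AddValuation.map_mul, hS, zero_add]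

/-- **the lower bound for `u`.**  If `S ⊆ Y`, `ρ ≤ v (y - w)` for `w ∈ S`, and `ρ₀ ≤ ρ`,
`ρ₀ ≤ v (y - w)` for all `w ∈ Y`, then `#S • ρ + (#Y - #S) • ρ₀ ≤ u(y, y')`, `ρ = v (y' - y)`. -/
theorem s56r_u_lower (Y S : Finset Ω) (hSY : S ⊆ Y) (y y' : Ω) (ρ₀ : WithTop ℚ)
    (hS : ∀ w ∈ S, v (y' - y) ≤ v (y - w)) (hρ₀ : ρ₀ ≤ v (y' - y))
    (hY : ∀ w ∈ Y, ρ₀ ≤ v (y - w)) :
    S.card • v (y' - y) + (Y.card - S.card) • ρ₀ ≤ s56r_u v Y y y' := by
  classical
  rw [s56r_u, ← Finset.sum_sdiff hSY, add_comm]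
  refine add_le_add ?_ ?_
  · rw [← Finset.card_sdiff_of_subset hSY]
    refine Finset.card_nsmul_le_sum _ _ _ ?_
    intro w hw
    rw [Finset.mem_sdiff] at hw
    exact le_min hρ₀ (hY w hw.1)
  · refine Finset.card_nsmul_le_sum _ _ _ ?_
    intro w hw
    exact le_min le_rfl (hS w hw)

end

end Fermat.Agent.Lib.S56
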