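/-
PROGRAMME W (S56), wall [W8-F1] (helper6, prefix `s56r_`): **Theorem A** — the sharp converse of
Fontaine's Proposition 1.5 (Yoshida's form), in orbit language.

`L'` finite normal over `ℚ`, `π` a uniformizer of `A_{L'} = P ∩ L'`, `σ ∈ I_P` with `σ π ≠ π`.
If NO element `g ∈ D_P` restricting to `σ` on `L'` admits a ring homomorphism `A_{L'} → O_g ⧸ 𝔞^m_g`,
then `u(π, σ π) = ∑_{w ∈ I_P π} min (v (σ π - π)) (v (π - w)) < m`   (`s56r_thmA_core`).
With `L' = L ⊔ K₁`, `(P_m)(L)` and `σ` fixing `K₁` the hypothesis holds (`s56r_thmA`).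
-/
import Mathlib
import Fermat.Agent.Lib.S56.RLocal

set_option autoImplicit false

noncomputable section

namespace Fermat.Agent.Lib.S56

open Polynomial Fermat.Agent.Lib.Frey Fermat.Agent.Lib.CFT

local notation "Ω" => AlgebraicClosure ℚ
local notation "GQ" => (AlgebraicClosure ℚ ≃ₐ[ℚ] AlgebraicClosure ℚ)

section

variable {p : ℕ} (hp : p.Prime) (P : ValuationSubring Ω) (hP : (p : Ω) ∈ P.nonunits)

/-- iterating the ring automorphism underlying `g` is applying a power of `g` -/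
lemma s56r_iterate_eq_pow (g : GQ) (k : ℕ) (x : Ω) : (g.toRingEquiv)^[k] x = (g ^ k) x := by
  induction k with
  | zero => rfl
  | succ k ih =>
    rw [Function.iterate_succ_apply', ih, pow_succ', AlgEquiv.mul_apply]
    rfl

/-- powers of a Frobenius lift -/
lemma s56r_frob_pow (φ : GQ) (hφD : φ ∈ P.decompositionSubgroup ℚ)
    (hφ : ∀ a : Ω, 0 ≤ ford_vQ P hp hP a → 0 < ford_vQ P hp hP (φ a - a ^ p)) (k : ℕ) :
    ∀ a : Ω, 0 ≤ ford_vQ P hp hP a → 0 < ford_vQ P hp hP ((φ ^ k) a - a ^ (p ^ k)) := by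
  induction k with
  | zero =>
    intro a _
    simp
  | succ k ih =>
    intro a ha
    have h1 : (φ ^ (k + 1)) a - a ^ (p ^ (k + 1))
        = φ ((φ ^ k) a - a ^ (p ^ k)) + (φ (a ^ (p ^ k)) - (a ^ (p ^ k)) ^ p) := by
      rw [pow_succ', AlgEquiv.mul_apply, map_sub, pow_succ, pow_mul]
      ring
    rw [h1]
    refine AddValuation.map_lt_add _ ?_ ?_
    · rw [ford_vQ_decomposition hp hP φ hφD]
      exact ih a ha
    · refine hφ _ ?_
      rw [AddValuation.map_pow]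
      exact nsmul_nonneg ha _

/-- `v (σ^k x - x) ≥ v (σ x - x)` -/
lemma s56r_val_pow_sub (σ : GQ) (hσ : ∀ a : Ω, ford_vQ P hp hP (σ a) = ford_vQ P hp hP a) (x : Ω)
    (k : ℕ) : ford_vQ P hp hP (σ x - x) ≤ ford_vQ P hp hP ((σ ^ k) x - x) := by
  induction k with
  | zero => simp
  | succ k ih =>
    have h1 : (σ ^ (k + 1)) x - x = σ ((σ ^ k) x - x) + (σ x - x) := by
      rw [pow_succ', AlgEquiv.mul_apply, map_sub]
      ring
    rw [h1]
    refine AddValuation.map_le_add _ ?_ le_rfl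
    rw [hσ]
    exact ih

/-- **Theorem A, core form.** -/
theorem s56r_thmA_core (hΘ : s56r_IfaceTheta)
    (L : IntermediateField ℚ Ω) [FiniteDimensional ℚ ↥L] [Normal ℚ ↥L] (m : ℚ)
    (π : Ω) (hπL : π ∈ L) (hπ0 : 0 < ford_vQ P hp hP π)
    (hπmin : ∀ b ∈ L, 0 < ford_vQ P hp hP b → ford_vQ P hp hP π ≤ ford_vQ P hp hP b)
    (σ : GQ) (hσ : σ ∈ P.inertiaSubgroupIn ℚ)
    (hno : ∀ g : GQ, g ∈ P.decompositionSubgroup ℚ → (∀ x ∈ L, g x = σ x) →
      Nonempty (↥(s56r_locRing P L) →+*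
        (↥(s56r_fixRing (ford_vQ P hp hP) g.toRingEquiv) ⧸
          s56r_idealGe (ford_vQ P hp hP) g.toRingEquiv m)) → False) :
    s56r_u (ford_vQ P hp hP) (s56r_orb P π) π (σ π) < (m : WithTop ℚ) := by
  classical
  by_contra hcon
  rw [not_lt] at hcon
  set v := ford_vQ P hp hP with hv
  set X := s56r_orb P π with hXdef
  have hgalL : IsGalois ℚ ↥L := ⟨⟩
  -- Frobenius and the element `g`
  obtain ⟨φ, hφD, hφ⟩ := s56r_exists_frob hp P hP
  set r : ℕ := Nat.card (↥L ≃ₐ[ℚ] ↥L) with hr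
  have hrpos : 0 < r := Nat.card_pos
  have hφr : ∀ x ∈ L, (φ ^ r) x = x := by
    have hnf : NumberField ↥L := ⟨⟩
    have h1 : s56g_r L (φ ^ r) = 1 := by
      rw [map_pow, hr]
      exact pow_card_eq_one'
    have h2 := (s56g_r_eq_one_iff L (φ ^ r)).mp h1
    exact (IntermediateField.mem_fixingSubgroup_iff L _).mp h2
  have hσD : σ ∈ P.decompositionSubgroup ℚ := (ford_inertia_spec P σ hσ).1
  have hσv : ∀ a : Ω, v (σ a) = v a := fun a => ford_vQ_decomposition hp hP σ hσD a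
  obtain ⟨g, hgD, hgL, hgfrob⟩ : ∃ g : GQ, g ∈ P.decompositionSubgroup ℚ ∧
      (∀ x ∈ L, g x = σ x) ∧ (∀ a : Ω, 0 ≤ v a → 0 < v (g a - a ^ (p ^ r))) := by
    refine ⟨σ * φ ^ r, mul_mem hσD (pow_mem hφD r), ?_, ?_⟩
    · intro x hx
      rw [AlgEquiv.mul_apply, hφr x hx]
    · intro a ha
      have h1 : (σ * φ ^ r) a - a ^ (p ^ r)
          = (σ ((φ ^ r) a) - (φ ^ r) a) + ((φ ^ r) a - a ^ (p ^ r)) := by
        rw [AlgEquiv.mul_apply]
        ring
      rw [h1]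
      refine AddValuation.map_lt_add _ ?_ (s56r_frob_pow hp P hP φ hφD hφ r a ha)
      refine (ford_vQ_inertia hp hP σ hσ).2 _ ?_
      rw [ford_vQ_decomposition hp hP _ (pow_mem hφD r)]
      exact ha
  have hgv : ∀ a : Ω, v (g.toRingEquiv a) = v a := fun a => ford_vQ_decomposition hp hP g hgD a
  have hgfrob' : ∀ a : Ω, 0 ≤ v a → 0 < v (g.toRingEquiv a - a ^ (p ^ r)) := hgfrob
  -- powers of `g` on `L`
  have hgpow : ∀ (k : ℕ) (x : Ω), x ∈ L → (g ^ k) x = (σ ^ k) x := by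
    intro k
    induction k with
    | zero => intro x _; rfl
    | succ k ih =>
      intro x hx
      calc (g ^ (k + 1)) x = g ((g ^ k) x) := by rw [pow_succ']; rfl
        _ = g ((σ ^ k) x) := by rw [ih x hx]
        _ = σ ((σ ^ k) x) := hgL _ (s56r_normal_stable L (σ ^ k) x hx)
        _ = (σ ^ (k + 1)) x := by rw [pow_succ']; rfl
  have hσr : ∀ x ∈ L, (σ ^ r) x = x := by
    have hnf : NumberField ↥L := ⟨⟩
    have h1 : s56g_r L (σ ^ r) = 1 := by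
      rw [map_pow, hr]
      exact pow_card_eq_one'
    have h2 := (s56g_r_eq_one_iff L (σ ^ r)).mp h1
    exact (IntermediateField.mem_fixingSubgroup_iff L _).mp h2
  -- the element `θ`
  have hvp : 0 < v (p : Ω) := by
    rw [hv, ford_vQ_q]
    exact zero_lt_one
  obtain ⟨θ, hθ0, hθn, hθsum⟩ := hΘ v g.toRingEquiv p r hp hrpos hvp hgv hgfrob' r hrpos
  -- the twist
  have hxn : (g.toRingEquiv)^[r] π = π := by
    rw [s56r_iterate_eq_pow, hgpow r π hπL, hσr π hπL]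
  obtain ⟨hβg, hβt⟩ := s56r_twist (v := v) (g := g.toRingEquiv) hgv hxn hθn hθ0 hθsum
  set β : Ω := ∑ k ∈ Finset.range r, (g.toRingEquiv)^[k] θ * (g.toRingEquiv)^[k] π with hβ
  have hπint : 0 ≤ v π := hπ0.le
  have hβ0 : 0 ≤ v β := by
    rw [hβ]
    refine AddValuation.map_le_sum v ?_
    intro k _
    rw [AddValuation.map_mul, s56r_iterate_val hgv, s56r_iterate_val hgv]
    exact add_nonneg hθ0 hπint
  have hβπ : v (σ π - π) ≤ v (β - π) := by
    refine hβt _ ?_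
    intro k _ _
    rw [s56r_iterate_eq_pow, hgpow k π hπL]
    exact s56r_val_pow_sub hp P hP σ hσv π k
  -- the group `Γ̃_L` and the base ring
  set A₀ : Subring Ω := s56r_invRing v ↥(s56r_GamL P L) with hA₀
  have hXorb : ∀ w, w ∈ X ↔ ∃ γ : ↥(s56r_GamL P L), γ • π = w :=
    fun w => s56r_mem_orb_GamL P L hπL
  have hXint : ∀ w ∈ X, 0 ≤ v w := by
    intro w hw
    obtain ⟨τ, hτ, rfl⟩ := (s56r_mem_orb P).mp hw
    rw [hv, (ford_vQ_inertia hp hP τ hτ).1]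
    exact hπint
  have hZ : ∀ a : Ω, (∀ γ : ↥(s56r_GamL P L), γ • a = a) → a ≠ 0 →
      ∃ k : ℤ, v a = ((k : ℚ) : WithTop ℚ) := by
    intro a ha ha0
    exact s56r_inertia_int hp P hP a
      (fun τ hτ => ha ⟨τ, s56r_inertia_le_GamL P L hτ⟩) ha0
  have hgΓ : g ∈ s56r_GamL P L := ⟨σ, hσ, hgL⟩
  have hA₀g : ∀ a ∈ A₀, 0 ≤ v a ∧ g.toRingEquiv a = a := by
    intro a ha
    exact ⟨ha.1, ha.2 ⟨g, hgΓ⟩⟩
  have hA₀L : A₀ ≤ s56r_locRing P L := by
    intro a ha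
    refine ⟨(ford_vQ_nonneg_iff hp hP a).mp ha.1, ?_⟩
    exact s56r_mem_of_GamL_fixed P L a ha.2
  have hπB : π ∈ s56r_locRing P L := ⟨(ford_vQ_nonneg_iff hp hP π).mp hπint, hπL⟩
  have hπval := s56r_unif_val hp P hP L π hπL hπ0 hπmin
  have hgen : ∀ b ∈ s56r_locRing P L, ∃ f : Polynomial ↥A₀, (f.map A₀.subtype).eval π = b := by
    intro b hb
    refine s56r_interp v hZ π X hXorb hπval b ((ford_vQ_nonneg_iff hp hP b).mpr hb.1) ?_
    rintro ⟨δ, ι, hι, hδ⟩ hδπ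
    have h1 : ι π = π := by
      rw [← hδ π hπL]
      exact hδπ
    have h2 := s56r_stab_unif hp P hP L π hπL hπ0 hπmin ι hι h1 b hb.2
    show δ b = b
    rw [hδ b hb.2, h2]
  set Q₀ : Polynomial ↥A₀ := s56r_orbitPoly v π X hXint hXorb with hQ₀
  have hker : ∀ f : Polynomial ↥A₀, (f.map A₀.subtype).eval π = 0 → Q₀ ∣ f :=
    fun f hf => s56r_orbitPoly_dvd v π X hXint hXorb f hf
  have hQβ : (m : WithTop ℚ) ≤ v ((Q₀.map A₀.subtype).eval β) := by
    rw [hQ₀, s56r_orbitPoly_map, s56r_orbitPolyΩ_eval]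
    refine le_trans hcon ?_
    exact s56r_le_map_prod_sub X π β (v (σ π - π)) hβπ
  have hhom := s56r_exists_hom (v := v) (g := g.toRingEquiv) (m := m) A₀ (s56r_locRing P L) hA₀L
    hA₀g π hπB hgen Q₀ hker β hβ0 hβg hQβ
  exact hno g hgD hgL hhom

/-- the compositum of two normal subfields of `ℚ̄` is normal (for the `ℚ`-algebra structure found
by instance synthesis) -/
lemma s56r_normal_sup (L K₁ : IntermediateField ℚ Ω) [hL : Normal ℚ ↥L] [hK : Normal ℚ ↥K₁] :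
    Normal ℚ ↥(L ⊔ K₁) := by
  have h1 : @Normal ℚ ↥L _ _ (IntermediateField.algebra' L) := by
    convert hL
    exact Subsingleton.elim _ _
  have h2 : @Normal ℚ ↥K₁ _ _ (IntermediateField.algebra' K₁) := by
    convert hK
    exact Subsingleton.elim _ _
  have h3 := @IntermediateField.normal_sup ℚ Ω _ _ _ L K₁ h1 h2
  convert h3
  exact Subsingleton.elim _ _

/-- **Theorem A** for `L ⊔ K₁`, `(P_m)(L)`, `σ ∈ I_P` fixing `K₁` pointwise and moving the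
uniformizer `π` of `L ⊔ K₁`. -/
theorem s56r_thmA (hΘ : s56r_IfaceTheta)
    (L K₁ : IntermediateField ℚ Ω) [FiniteDimensional ℚ ↥L] [Normal ℚ ↥L]
    [FiniteDimensional ℚ ↥K₁] [Normal ℚ ↥K₁] (m : ℚ) (hPm : s56r_Pm p hp P hP L m)
    (π : Ω) (hπL : π ∈ L ⊔ K₁) (hπ0 : 0 < ford_vQ P hp hP π)
    (hπmin : ∀ b ∈ L ⊔ K₁, 0 < ford_vQ P hp hP b → ford_vQ P hp hP π ≤ ford_vQ P hp hP b)
    (σ : GQ) (hσ : σ ∈ P.inertiaSubgroupIn ℚ) (hσK : ∀ x ∈ K₁, σ x = x) (hσπ : σ π ≠ π) :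
    s56r_u (ford_vQ P hp hP) (s56r_orb P π) π (σ π) < (m : WithTop ℚ) := by
  have : Normal ℚ ↥(L ⊔ K₁) := s56r_normal_sup L K₁
  refine s56r_thmA_core hp P hP hΘ (L ⊔ K₁) m π hπL hπ0 hπmin σ hσ ?_
  rintro g hgD hgL ⟨η⟩
  have hL : ∀ x ∈ L, g x = x := by
    refine hPm g hgD ⟨η.comp (Subring.inclusion ?_)⟩
    intro a ha
    exact ⟨ha.1, (le_sup_left : L ≤ L ⊔ K₁) ha.2⟩
  have hK : ∀ x ∈ K₁, g x = x := by
    intro x hx
    rw [hgL x ((le_sup_right : K₁ ≤ L ⊔ K₁) hx), hσK x hx]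
  have hg1 : g ∈ L.fixingSubgroup := (IntermediateField.mem_fixingSubgroup_iff L g).mpr hL
  have hg2 : g ∈ K₁.fixingSubgroup := (IntermediateField.mem_fixingSubgroup_iff K₁ g).mpr hK
  have hg3 : g ∈ (L ⊔ K₁).fixingSubgroup := by
    rw [IntermediateField.fixingSubgroup_sup]
    exact ⟨hg1, hg2⟩
  have h4 := (IntermediateField.mem_fixingSubgroup_iff _ g).mp hg3 π hπL
  apply hσπ
  rw [← hgL π hπL, h4]

end

end Fermat.Agent.Lib.S56
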