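/-
PROGRAMME W (S56), wall [W8-F1] (helper6, prefix `s56r_`): the henselisation `K₁^h = Fix(D ∩ G_{K₁})`
of a finite normal `K₁ ⊂ ℚ̄` at `P`, as a subfield of `ℚ̄`:

* `s56r_hens P K₁ : Subfield ℚ̄`;
* `s56r_hens_valGroup` : `v (K₁^h)^× ⊆ (1/e₁) ℤ`, `e₁ = #(I-orbit of a uniformizer π₁ of K₁)`;
* `s56r_hens_perfect`  : every unit of `K₁^h` is a `p`-th power modulo the maximal ideal.
These are the hypotheses of the normal form leaf (NF) for `E = K₁^h`.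
-/
import Mathlib
import Fermat.Agent.Lib.S56.RThmA
import Fermat.Agent.Lib.S56.RKummerA

set_option autoImplicit false

noncomputable section

namespace Fermat.Agent.Lib.S56

open Polynomial Fermat.Agent.Lib.Frey Fermat.Agent.Lib.CFT

local notation "Ω" => AlgebraicClosure ℚ
local notation "GQ" => (AlgebraicClosure ℚ ≃ₐ[ℚ] AlgebraicClosure ℚ)

section

variable {p : ℕ} (hp : p.Prime) (P : ValuationSubring Ω) (hP : (p : Ω) ∈ P.nonunits)

/-- `K₁^h`: the elements fixed by every element of the decomposition group fixing `K₁` pointwise. -/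
def s56r_hens (K₁ : IntermediateField ℚ Ω) : Subfield Ω where
  carrier := {a | ∀ g ∈ P.decompositionSubgroup ℚ, (∀ x ∈ K₁, g x = x) → g a = a}
  mul_mem' := by
    intro a b ha hb g hg hK
    rw [map_mul, ha g hg hK, hb g hg hK]
  one_mem' := fun g _ _ => map_one g
  add_mem' := by
    intro a b ha hb g hg hK
    rw [map_add, ha g hg hK, hb g hg hK]
  zero_mem' := fun g _ _ => map_zero g
  neg_mem' := by
    intro a ha g hg hK
    rw [map_neg, ha g hg hK]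
  inv_mem' := by
    intro a ha g hg hK
    rw [map_inv₀, ha g hg hK]

lemma s56r_mem_hens {K₁ : IntermediateField ℚ Ω} {a : Ω} :
    a ∈ s56r_hens P K₁ ↔
      ∀ g ∈ P.decompositionSubgroup ℚ, (∀ x ∈ K₁, g x = x) → g a = a := Iff.rfl

lemma s56r_le_hens (K₁ : IntermediateField ℚ Ω) {a : Ω} (ha : a ∈ K₁) : a ∈ s56r_hens P K₁ :=
  fun _ _ hK => hK a ha

variable (K₁ : IntermediateField ℚ Ω) [FiniteDimensional ℚ ↥K₁] [Normal ℚ ↥K₁]

/-- for a uniformizer `π₁` of `K₁`, an inertia element fixes `π₁` iff it fixes `K₁` pointwise -/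
lemma s56r_inertia_fix_iff (π₁ : Ω) (hπK : π₁ ∈ K₁) (hπ0 : 0 < ford_vQ P hp hP π₁)
    (hπmin : ∀ b ∈ K₁, 0 < ford_vQ P hp hP b → ford_vQ P hp hP π₁ ≤ ford_vQ P hp hP b)
    (ι : GQ) (hι : ι ∈ P.inertiaSubgroupIn ℚ) : ι π₁ = π₁ ↔ ∀ x ∈ K₁, ι x = x :=
  ⟨fun h => s56r_stab_unif hp P hP K₁ π₁ hπK hπ0 hπmin ι hι h, fun h => h π₁ hπK⟩

/-- **the value group of `K₁^h`.** -/
theorem s56r_hens_valGroup (π₁ : Ω) (hπK : π₁ ∈ K₁) (hπ0 : 0 < ford_vQ P hp hP π₁)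
    (hπmin : ∀ b ∈ K₁, 0 < ford_vQ P hp hP b → ford_vQ P hp hP π₁ ≤ ford_vQ P hp hP b)
    (x : Ω) (hx : x ∈ s56r_hens P K₁) (hx0 : x ≠ 0) :
    ∃ k : ℤ, ford_vQ P hp hP x
      = ((((k : ℚ) / ((s56r_orb P π₁).card : ℚ) : ℚ)) : WithTop ℚ) := by
  refine s56r_val_stab_fixed (ford_vQ P hp hP) (Γ := ↥(P.inertiaSubgroupIn ℚ))
    (s56r_inertia_int' hp P hP) π₁ (s56r_orb P π₁) (fun w => s56r_mem_orb' P)
    (s56r_unif_val hp P hP K₁ π₁ hπK hπ0 hπmin) x hx0 ?_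
  rintro ⟨δ, hδ⟩ hδπ
  have hδD : δ ∈ P.decompositionSubgroup ℚ := (ford_inertia_spec P δ hδ).1
  exact hx δ hδD ((s56r_inertia_fix_iff hp P hP K₁ π₁ hπK hπ0 hπmin δ hδ).mp hδπ)

/-- **the residue field of `K₁^h` is perfect** (it is finite). -/
theorem s56r_hens_perfect (c : Ω) (hc : c ∈ s56r_hens P K₁) (hvc : ford_vQ P hp hP c = 0) :
    ∃ d ∈ s56r_hens P K₁, 0 < ford_vQ P hp hP (d ^ p - c) := by
  obtain ⟨φ, hφD, hφ⟩ := s56r_exists_frob hp P hP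
  set r : ℕ := Nat.card (↥K₁ ≃ₐ[ℚ] ↥K₁) with hr
  have hgal : IsGalois ℚ ↥K₁ := ⟨⟩
  have hrpos : 0 < r := Nat.card_pos
  have hφr : ∀ x ∈ K₁, (φ ^ r) x = x := by
    have hnf : NumberField ↥K₁ := ⟨⟩
    have h1 : s56g_r K₁ (φ ^ r) = 1 := by
      rw [map_pow, hr]
      exact pow_card_eq_one'
    have h2 := (s56g_r_eq_one_iff K₁ (φ ^ r)).mp h1
    exact (IntermediateField.mem_fixingSubgroup_iff K₁ _).mp h2
  have hfix : (φ ^ r) c = c := hc _ (pow_mem hφD r) hφr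
  have h1 := s56r_frob_pow hp P hP φ hφD hφ r c (by rw [hvc])
  rw [hfix] at h1
  refine ⟨c ^ (p ^ (r - 1)), pow_mem hc _, ?_⟩
  have h2 : (c ^ (p ^ (r - 1))) ^ p = c ^ (p ^ r) := by
    rw [← pow_mul, ← pow_succ]
    congr 2
    omega
  rw [h2, AddValuation.map_sub_swap]
  exact h1

end

end Fermat.Agent.Lib.S56
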