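/-
PROGRAMME W (S56), wall [W8-F1] (helper6, prefix `s56r_`): **the break lemma**.

`L`, `K₁` finite normal, `(P_m)(L)` for all `m > p/(p-1)`, `ζ_p ∈ K₁`, `π₁` a uniformizer of `K₁`,
`e₁ = 1 / v π₁`.  Let `α'` be fixed by `D ∩ G_{L K₁}` with `α'^p ∈ K₁^h`, and suppose
`π_N = (α' - δ)^a π₁^b` (`δ` fixed by inertia) has valuation `1/(p e₁)`.  If some `s ∈ I` fixing `K₁`
moves `α'`, then `v (s π_N - π_N) ≤ 1/(p(p-1)) + 1/(p e₁)`.
(Otherwise `u_{L K₁}(s') > p/(p-1)` by Herbrand-lite, contradicting Theorem A.)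
-/
import Mathlib
import Fermat.Agent.Lib.S56.RKummerB

set_option autoImplicit false

noncomputable section

namespace Fermat.Agent.Lib.S56

open Polynomial Fermat.Agent.Lib.Frey Fermat.Agent.Lib.CFT

local notation "Ω" => AlgebraicClosure ℚ
local notation "GQ" => (AlgebraicClosure ℚ ≃ₐ[ℚ] AlgebraicClosure ℚ)

section

variable {p : ℕ} (hp : p.Prime) (P : ValuationSubring Ω) (hP : (p : Ω) ∈ P.nonunits)

/-- an onto map between finite sets, from a set with at most `N` elements onto one with at least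
`N` elements, is injective -/
lemma s56r_injOn_of_card {α β : Type*} [DecidableEq β] (Z : Finset α) (f : α → β) (N : ℕ)
    (hZ : Z.card ≤ N) (hY : N ≤ (Z.image f).card) :
    Set.InjOn f (Z : Set α) ∧ (Z.image f).card = N := by
  have h1 : (Z.image f).card ≤ Z.card := Finset.card_image_le
  have h2 : (Z.image f).card = Z.card := le_antisymm h1 (le_trans hZ hY)
  exact ⟨Finset.card_image_iff.mp h2, le_antisymm (le_trans h1 hZ) hY⟩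

/-- **The break lemma.** -/
theorem s56r_break (hΘ : s56r_IfaceTheta) (hHL : s56r_IfaceHerbrandLite)
    (L K₁ : IntermediateField ℚ Ω) [FiniteDimensional ℚ ↥L] [Normal ℚ ↥L]
    [FiniteDimensional ℚ ↥K₁] [Normal ℚ ↥K₁]
    (hPm : ∀ m : ℚ, (p : ℚ) / ((p : ℚ) - 1) < m → s56r_Pm p hp P hP L m)
    (ζ₀ : Ω) (hζ₀K : ζ₀ ∈ K₁) (hζ₀ : IsPrimitiveRoot ζ₀ p)
    (π₁ : Ω) (hπ₁K : π₁ ∈ K₁) (hπ₁0 : 0 < ford_vQ P hp hP π₁)
    (hπ₁min : ∀ b ∈ K₁, 0 < ford_vQ P hp hP b → ford_vQ P hp hP π₁ ≤ ford_vQ P hp hP b)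
    (α' : Ω) (hα'0 : α' ≠ 0)
    (hα'fix : ∀ g ∈ P.decompositionSubgroup ℚ, (∀ x ∈ L, g x = x) → (∀ x ∈ K₁, g x = x) →
      g α' = α')
    (hα'p : α' ^ p ∈ s56r_hens P K₁)
    (δ : Ω) (hδ : ∀ σ ∈ P.inertiaSubgroupIn ℚ, σ δ = δ) (a : ℕ) (b : ℤ)
    (hπN : ford_vQ P hp hP ((α' - δ) ^ a * π₁ ^ b)
      = ((((1 : ℚ) / ((p : ℚ) * ((s56r_orb P π₁).card : ℚ)) : ℚ)) : WithTop ℚ))
    (s : GQ) (hs : s ∈ P.inertiaSubgroupIn ℚ) (hsK : ∀ x ∈ K₁, s x = x) (hsα : s α' ≠ α') :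
    ford_vQ P hp hP (s ((α' - δ) ^ a * π₁ ^ b) - (α' - δ) ^ a * π₁ ^ b)
      ≤ ((((1 : ℚ) / ((p : ℚ) * ((p : ℚ) - 1))
          + 1 / ((p : ℚ) * ((s56r_orb P π₁).card : ℚ)) : ℚ)) : WithTop ℚ) := by
  classical
  by_contra hcon
  rw [not_le] at hcon
  set v := ford_vQ P hp hP with hv
  set e₁ : ℕ := (s56r_orb P π₁).card with he₁
  set πN : Ω := (α' - δ) ^ a * π₁ ^ b with hπNdef
  have he₁pos : 0 < e₁ := Finset.card_pos.mpr ⟨π₁, s56r_self_mem_orb P π₁⟩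
  have hpq : (1 : ℚ) < (p : ℚ) := by exact_mod_cast hp.one_lt
  have he₁q : (0 : ℚ) < (e₁ : ℚ) := by exact_mod_cast he₁pos
  have hID : ∀ σ ∈ P.inertiaSubgroupIn ℚ, σ ∈ P.decompositionSubgroup ℚ :=
    fun σ hσ => (ford_inertia_spec P σ hσ).1
  have hIv : ∀ σ ∈ P.inertiaSubgroupIn ℚ, ∀ x : Ω, v (σ x) = v x :=
    fun σ hσ x => (ford_vQ_inertia hp hP σ hσ).1 x
  -- the compositum
  have hnormL' : Normal ℚ ↥(L ⊔ K₁) := s56r_normal_sup L K₁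
  obtain ⟨πL, hπLL, hπL0, hπLmin⟩ := s56r_exists_unif hp P hP (L ⊔ K₁)
  -- equivariance of `πN`
  have hσπN : ∀ σ ∈ P.inertiaSubgroupIn ℚ, σ πN = (σ α' - δ) ^ a * (σ π₁) ^ b := by
    intro σ hσ
    rw [hπNdef, map_mul, map_pow, map_zpow₀, map_sub, hδ σ hσ]
  -- inertia elements fixing `π₁`
  have hfixK : ∀ ι ∈ P.inertiaSubgroupIn ℚ, ι π₁ = π₁ → ∀ x ∈ K₁, ι x = x := fun ι hι h =>
    (s56r_inertia_fix_iff hp P hP K₁ π₁ hπ₁K hπ₁0 hπ₁min ι hι).mp h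
  -- the stabilizer of `πL` fixes `πN`
  have hstabL : ∀ ι ∈ P.inertiaSubgroupIn ℚ, ι πL = πL → ι α' = α' ∧ ι π₁ = π₁ := by
    intro ι hι hιπ
    have h1 := s56r_stab_unif hp P hP (L ⊔ K₁) πL hπLL hπL0 hπLmin ι hι hιπ
    have hL : ∀ x ∈ L, ι x = x := fun x hx => h1 x ((le_sup_left : L ≤ L ⊔ K₁) hx)
    have hK : ∀ x ∈ K₁, ι x = x := fun x hx => h1 x ((le_sup_right : K₁ ≤ L ⊔ K₁) hx)
    exact ⟨hα'fix ι (hID ι hι) hL hK, hK π₁ hπ₁K⟩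
  have hstabL' : ∀ ι ∈ P.inertiaSubgroupIn ℚ, ι πL = πL → ι πN = πN := by
    intro ι hι hιπ
    obtain ⟨h1, h2⟩ := hstabL ι hι hιπ
    rw [hσπN ι hι, h1, h2]
  -- the orbit of the pair `(π₁, α')`
  let fN : Ω × Ω → Ω := fun z => (z.2 - δ) ^ a * z.1 ^ b
  let Z : Finset (Ω × Ω) := ((s56r_orb P π₁) ×ˢ (s56r_orb P α')).filter
    (fun z => ∃ σ ∈ P.inertiaSubgroupIn ℚ, (σ π₁, σ α') = z)
  have hmemZ : ∀ z, z ∈ Z ↔ ∃ σ ∈ P.inertiaSubgroupIn ℚ, (σ π₁, σ α') = z := by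
    intro z
    simp only [Z, Finset.mem_filter, Finset.mem_product]
    constructor
    · exact fun h => h.2
    · rintro ⟨σ, hσ, rfl⟩
      exact ⟨⟨(s56r_mem_orb P).mpr ⟨σ, hσ, rfl⟩, (s56r_mem_orb P).mpr ⟨σ, hσ, rfl⟩⟩, σ, hσ, rfl⟩
  -- `#Z ≤ e₁ p`
  let σc : Ω → GQ := fun w =>
    if h : ∃ σ ∈ P.inertiaSubgroupIn ℚ, σ π₁ = w then Classical.choose h else 1
  have hσc : ∀ w ∈ s56r_orb P π₁, σc w ∈ P.inertiaSubgroupIn ℚ ∧ (σc w) π₁ = w := by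
    intro w hw
    have h : ∃ σ ∈ P.inertiaSubgroupIn ℚ, σ π₁ = w := (s56r_mem_orb P).mp hw
    have h1 : σc w = Classical.choose h := dif_pos h
    rw [h1]
    exact Classical.choose_spec h
  have : NeZero p := ⟨hp.ne_zero⟩
  have hroot : ∀ ξ : Ω, ξ ^ p = 1 → ∃ i < p, ζ₀ ^ i = ξ := fun ξ hξ =>
    hζ₀.eq_pow_of_pow_eq_one hξ
  -- elements of `I` fixing `π₁` multiply `α'` by a root of unity
  have hmul : ∀ τ ∈ P.inertiaSubgroupIn ℚ, τ π₁ = π₁ → ∃ i < p, τ α' = ζ₀ ^ i * α' := by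
    intro τ hτI hτπ
    have h1 : τ (α' ^ p) = α' ^ p := hα'p τ (hID τ hτI) (hfixK τ hτI hτπ)
    rw [map_pow] at h1
    have h2 : (τ α' / α') ^ p = 1 := by
      rw [div_pow, h1, div_self (pow_ne_zero _ hα'0)]
    obtain ⟨i, hi, hi'⟩ := hroot _ h2
    refine ⟨i, hi, ?_⟩
    rw [hi', div_mul_cancel₀ _ hα'0]
  have hZcard : Z.card ≤ e₁ * p := by
    have hsub : Z ⊆ ((s56r_orb P π₁) ×ˢ (Finset.range p)).image
        (fun wi => (wi.1, ζ₀ ^ wi.2 * (σc wi.1) α')) := by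
      intro z hz
      obtain ⟨σ, hσ, rfl⟩ := (hmemZ z).mp hz
      obtain ⟨w, hwdef⟩ : ∃ w, w = σ π₁ := ⟨_, rfl⟩
      have hw : w ∈ s56r_orb P π₁ := (s56r_mem_orb P).mpr ⟨σ, hσ, hwdef.symm⟩
      obtain ⟨hcI, hcπ⟩ := hσc w hw
      have hτI : (σc w)⁻¹ * σ ∈ P.inertiaSubgroupIn ℚ := mul_mem (inv_mem hcI) hσ
      have hτπ : ((σc w)⁻¹ * σ) π₁ = π₁ := by
        have h0 : (σc w)⁻¹ ((σc w) π₁) = π₁ := by
          rw [← AlgEquiv.mul_apply, inv_mul_cancel, AlgEquiv.one_apply]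
        rw [hcπ] at h0
        rw [AlgEquiv.mul_apply, ← hwdef]
        exact h0
      obtain ⟨i, hi, hiα⟩ := hmul _ hτI hτπ
      -- `σ α' = σc (ζ₀ ^ i) * σc α'`
      have h3 : σ α' = (σc w) (ζ₀ ^ i * α') := by
        rw [← hiα, ← AlgEquiv.mul_apply, mul_inv_cancel_left]
      have h4 : ((σc w) ζ₀) ^ p = 1 := by
        rw [← map_pow, hζ₀.pow_eq_one, map_one]
      obtain ⟨k, -, hk'⟩ := hroot _ h4
      have h5 : σ α' = ζ₀ ^ ((k * i) % p) * (σc w) α' := by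
        rw [h3, map_mul, map_pow, ← hk', ← pow_mul, pow_eq_pow_mod (k * i) hζ₀.pow_eq_one]
      rw [Finset.mem_image]
      refine ⟨(w, (k * i) % p), ?_, ?_⟩
      · rw [Finset.mem_product, Finset.mem_range]
        exact ⟨hw, Nat.mod_lt _ hp.pos⟩
      · simp only
        rw [← hwdef, h5]
    calc Z.card ≤ _ := Finset.card_le_card hsub
      _ ≤ ((s56r_orb P π₁) ×ˢ (Finset.range p)).card := Finset.card_image_le
      _ = e₁ * p := by rw [Finset.card_product, Finset.card_range]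
  -- `Y = fN(Z)`
  set Y := s56r_orb P πN with hYdef
  have hYimg : Y = Z.image fN := by
    ext w
    rw [hYdef, s56r_mem_orb, Finset.mem_image]
    constructor
    · rintro ⟨σ, hσ, rfl⟩
      exact ⟨(σ π₁, σ α'), (hmemZ _).mpr ⟨σ, hσ, rfl⟩, (hσπN σ hσ).symm⟩
    · rintro ⟨z, hz, rfl⟩
      obtain ⟨σ, hσ, rfl⟩ := (hmemZ z).mp hz
      exact ⟨σ, hσ, hσπN σ hσ⟩
  have hpe₁ : (0 : ℚ) < (p : ℚ) * (e₁ : ℚ) := mul_pos (by linarith) he₁q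
  have hYlow : 1 ≤ (Y.card : ℚ) * (1 / ((p : ℚ) * (e₁ : ℚ))) :=
    s56r_one_le_card_mul v (Γ := ↥(P.inertiaSubgroupIn ℚ)) (s56r_inertia_int' hp P hP)
      (s56r_inertia_val hp P hP) πN Y (fun w => s56r_mem_orb' P) _ hπN (one_div_pos.mpr hpe₁)
  have hYge : e₁ * p ≤ (Z.image fN).card := by
    rw [← hYimg]
    have h1 : (p : ℚ) * (e₁ : ℚ) ≤ (Y.card : ℚ) := by
      rw [mul_one_div, le_div_iff₀ hpe₁] at hYlow
      linarith
    have h2 : ((e₁ * p : ℕ) : ℚ) ≤ (Y.card : ℚ) := by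
      push_cast
      linarith
    exact_mod_cast h2
  obtain ⟨hinj, hYcard'⟩ := s56r_injOn_of_card Z fN (e₁ * p) hZcard hYge
  have hYcard : Y.card = e₁ * p := by rw [hYimg]; exact hYcard'
  have hdet : ∀ σ ∈ P.inertiaSubgroupIn ℚ, ∀ τ ∈ P.inertiaSubgroupIn ℚ, σ πN = τ πN →
      σ π₁ = τ π₁ ∧ σ α' = τ α' := by
    intro σ hσ τ hτ h
    have h1 : fN (σ π₁, σ α') = fN (τ π₁, τ α') := by
      show (σ α' - δ) ^ a * (σ π₁) ^ b = (τ α' - δ) ^ a * (τ π₁) ^ b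
      rw [← hσπN σ hσ, ← hσπN τ hτ]
      exact h
    have h2 := hinj (Finset.mem_coe.mpr ((hmemZ _).mpr ⟨σ, hσ, rfl⟩))
      (Finset.mem_coe.mpr ((hmemZ _).mpr ⟨τ, hτ, rfl⟩)) h1
    exact ⟨congrArg Prod.fst h2, congrArg Prod.snd h2⟩
  have hsπN : s πN ≠ πN := by
    intro h
    have h1 := hdet s hs 1 (one_mem _) h
    exact hsα h1.2
  have hvπN : v πN = ((((1 : ℚ) / (Y.card : ℚ) : ℚ)) : WithTop ℚ) := by
    rw [hπN, hYcard]
    congr 2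
    push_cast
    ring
  have hπNint : 0 ≤ v πN := by
    rw [hπN]
    have : (0 : ℚ) ≤ 1 / ((p : ℚ) * (e₁ : ℚ)) := (one_div_pos.mpr hpe₁).le
    exact_mod_cast this
  -- Herbrand-lite
  set X := s56r_orb P πL with hXdef
  have hπLval := s56r_unif_val hp P hP (L ⊔ K₁) πL hπLL hπL0 hπLmin
  have hF : ∃ F : Polynomial ↥(s56r_invRing v ↥(P.inertiaSubgroupIn ℚ)),
      (F.map (s56r_invRing v ↥(P.inertiaSubgroupIn ℚ)).subtype).eval πL = πN := by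
    refine s56r_interp v (s56r_inertia_int' hp P hP) πL X (fun w => s56r_mem_orb' P) hπLval πN
      hπNint ?_
    rintro ⟨δ', hδ'⟩ h
    exact hstabL' δ' hδ' h
  have hGy : ∀ c : Ω, 0 ≤ v c →
      (∀ δ' : ↥(P.inertiaSubgroupIn ℚ), δ' • πN = πN → δ' • c = c) →
      ∃ G : Polynomial ↥(s56r_invRing v ↥(P.inertiaSubgroupIn ℚ)),
        (G.map (s56r_invRing v ↥(P.inertiaSubgroupIn ℚ)).subtype).eval πN = c :=
    fun c hc hfix => s56r_interp v (s56r_inertia_int' hp P hP) πN Y (fun w => s56r_mem_orb' P)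
      hvπN c hc hfix
  obtain ⟨⟨s', hs'⟩, hs'y, hu⟩ := hHL v ↥(P.inertiaSubgroupIn ℚ) (s56r_inertia_val hp P hP)
    πL πN X Y hπL0.le (fun w => s56r_mem_orb' P) (fun w => s56r_mem_orb' P) hF hGy ⟨s, hs⟩
  have hs'y' : s' πN = s πN := hs'y
  have hu' : s56r_u v Y πN (s πN) ≤ s56r_u v X πL (s' πL) := hu
  -- `s'` fixes `K₁` and moves `πL`
  have hs'K : ∀ x ∈ K₁, s' x = x := by
    have h1 := (hdet s' hs' s hs hs'y').1
    rw [hsK π₁ hπ₁K] at h1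
    exact hfixK s' hs' h1
  have hs'πL : s' πL ≠ πL := by
    intro h
    have h1 := hstabL' s' hs' h
    rw [hs'y'] at h1
    exact hsπN h1
  -- the orbit of `πN` under `s`
  obtain ⟨k, hk, hkα⟩ := hmul s hs (hsK π₁ hπ₁K)
  have hk0 : k ≠ 0 := by
    intro h
    rw [h, pow_zero, one_mul] at hkα
    exact hsα hkα
  have hζ' : IsPrimitiveRoot (ζ₀ ^ k) p := by
    refine hζ₀.pow_of_coprime k ?_
    refine Nat.Coprime.symm ((Nat.Prime.coprime_iff_not_dvd hp).mpr ?_)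
    exact Nat.not_dvd_of_pos_of_lt (Nat.pos_of_ne_zero hk0) hk
  have hspow : ∀ i : ℕ, (s ^ i) α' = (ζ₀ ^ k) ^ i * α' := by
    intro i
    induction i with
    | zero => simp
    | succ i ih =>
      rw [pow_succ', AlgEquiv.mul_apply, ih, map_mul, map_pow, map_pow, hsK ζ₀ hζ₀K, hkα,
        pow_succ]
      ring
  have hsI : ∀ i : ℕ, s ^ i ∈ P.inertiaSubgroupIn ℚ := fun i => pow_mem hs i
  let S : Finset Ω := (Finset.range p).image (fun i => (s ^ i) πN)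
  have hSY : S ⊆ Y := by
    intro w hw
    obtain ⟨i, -, rfl⟩ := Finset.mem_image.mp hw
    exact (s56r_mem_orb P).mpr ⟨s ^ i, hsI i, rfl⟩
  have hScard : S.card = p := by
    rw [Finset.card_image_of_injOn, Finset.card_range]
    intro i hi j hj hij
    rw [Finset.mem_coe, Finset.mem_range] at hi hj
    have h1 := (hdet (s ^ i) (hsI i) (s ^ j) (hsI j) hij).2
    rw [hspow, hspow] at h1
    have h2 : (ζ₀ ^ k) ^ i = (ζ₀ ^ k) ^ j := mul_right_cancel₀ hα'0 h1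
    exact hζ'.pow_inj hi hj h2
  have hsv : ∀ x : Ω, v (s x) = v x := hIv s hs
  have hSbound : ∀ w ∈ S, v (s πN - πN) ≤ v (πN - w) := by
    intro w hw
    obtain ⟨i, -, rfl⟩ := Finset.mem_image.mp hw
    rw [AddValuation.map_sub_swap v πN ((s ^ i) πN)]
    exact s56r_val_pow_sub hp P hP s hsv πN i
  set ρ₀ : WithTop ℚ := ((((1 : ℚ) / ((p : ℚ) * (e₁ : ℚ)) : ℚ)) : WithTop ℚ) with hρ₀def
  have hρ₀ρ : ρ₀ ≤ v (s πN - πN) := by
    refine le_trans ?_ hcon.le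
    rw [hρ₀def]
    have : (1 : ℚ) / ((p : ℚ) * (e₁ : ℚ))
        ≤ 1 / ((p : ℚ) * ((p : ℚ) - 1)) + 1 / ((p : ℚ) * (e₁ : ℚ)) := by
      have : (0 : ℚ) ≤ 1 / ((p : ℚ) * ((p : ℚ) - 1)) := by
        have h1 : (0 : ℚ) < (p : ℚ) - 1 := by linarith
        have h2 : (0 : ℚ) < (p : ℚ) := by linarith
        exact (one_div_pos.mpr (mul_pos h2 h1)).le
      linarith
    exact_mod_cast this
  have hYbound : ∀ w ∈ Y, ρ₀ ≤ v (πN - w) := by
    intro w hw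
    obtain ⟨σ, hσ, rfl⟩ := (s56r_mem_orb P).mp hw
    refine AddValuation.map_le_sub v ?_ ?_
    · rw [hπN]
    · rw [hIv σ hσ, hπN]
  have hlow := s56r_u_lower v Y S hSY πN (s πN) ρ₀ hSbound hρ₀ρ hYbound
  rw [hScard, hYcard] at hlow
  -- make everything rational
  have hρne : v (s πN - πN) ≠ ⊤ := by
    intro h
    exact hsπN (sub_eq_zero.mp ((AddValuation.top_iff v).mp h))
  obtain ⟨ρ, hρ⟩ := WithTop.ne_top_iff_exists.mp hρne
  rw [← hρ] at hlow hcon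
  have hρlt : 1 / ((p : ℚ) * ((p : ℚ) - 1)) + 1 / ((p : ℚ) * (e₁ : ℚ)) < ρ := by
    exact_mod_cast hcon
  set B : ℚ := (p : ℚ) * ρ + ((e₁ * p - p : ℕ) : ℚ) * (1 / ((p : ℚ) * (e₁ : ℚ))) with hBdef
  have hlowB : (B : WithTop ℚ) ≤ s56r_u v Y πN (s πN) := by
    refine le_trans (le_of_eq ?_) hlow
    rw [hρ₀def, ← WithTop.coe_nsmul, ← WithTop.coe_nsmul, ← WithTop.coe_add, hBdef]
    congr 1
  have hB : (p : ℚ) / ((p : ℚ) - 1) < B := by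
    have hp1 : (0 : ℚ) < (p : ℚ) - 1 := by linarith
    have hp0 : (0 : ℚ) < (p : ℚ) := by linarith
    have hcast : ((e₁ * p - p : ℕ) : ℚ) = (e₁ : ℚ) * (p : ℚ) - (p : ℚ) := by
      rw [Nat.cast_sub (Nat.le_mul_of_pos_left p he₁pos)]
      push_cast
      ring
    rw [hBdef, hcast]
    have h1 : (p : ℚ) * (1 / ((p : ℚ) * ((p : ℚ) - 1)) + 1 / ((p : ℚ) * (e₁ : ℚ))) < (p : ℚ) * ρ :=
      mul_lt_mul_of_pos_left hρlt hp0
    have h2 : (p : ℚ) * (1 / ((p : ℚ) * ((p : ℚ) - 1)) + 1 / ((p : ℚ) * (e₁ : ℚ)))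
        = 1 / ((p : ℚ) - 1) + 1 / (e₁ : ℚ) := by
      have hp1' := hp1.ne'
      have hp0' := hp0.ne'
      have he' := he₁q.ne'
      field_simp
    have h3 : ((e₁ : ℚ) * (p : ℚ) - (p : ℚ)) * (1 / ((p : ℚ) * (e₁ : ℚ))) = 1 - 1 / (e₁ : ℚ) := by
      have hp0' := hp0.ne'
      have he' := he₁q.ne'
      field_simp
    have h4 : (p : ℚ) / ((p : ℚ) - 1) = 1 / ((p : ℚ) - 1) + 1 := by
      have hp1' := hp1.ne'
      field_simp
      ring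
    rw [h3, h4]
    linarith
  have hA := s56r_thmA hp P hP hΘ L K₁ B (hPm B hB) πL hπLL hπL0 hπLmin s' hs' hs'K hs'πL
  exact lt_irrefl _ (lt_of_le_of_lt (le_trans hlowB hu') hA)

end

end Fermat.Agent.Lib.S56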