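/-
PROGRAMME W (S56), wall [W8-F1] (helper6, prefix `s56r_`): **the export `s56r_IfaceKummer`** from the
three leaves (Θ), (HL), (NF).

`y = α^p ∈ K₁^h`.  By the normal form (NF) in `E = K₁^h`, up to `p`-th powers of `E`, `y` is
in `1 + p O_E` (done), or of valuation prime to `p` (case 2), or `1 + x` with `v x = j/e₁`,
`0 < j < e₁`, `p ∤ j` (case 3).  In cases 2, 3 an inertia element `s` fixing `K₁` moves `α' = α/z`,
and the uniformizer `π_N = (α' - δ)^a π₁^b` of `K₁(α')` has `v (s π_N - π_N)` larger than what the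
break lemma allows.
-/
import Mathlib
import Fermat.Agent.Lib.S56.RKummerC

set_option autoImplicit false

noncomputable section

namespace Fermat.Agent.Lib.S56

open Polynomial Fermat.Agent.Lib.Frey Fermat.Agent.Lib.CFT

local notation "Ω" => AlgebraicClosure ℚ
local notation "GQ" => (AlgebraicClosure ℚ ≃ₐ[ℚ] AlgebraicClosure ℚ)

/-- Bezout with a small positive coefficient -/
lemma s56r_bezout (p : ℕ) (hp : p.Prime) (c : ℤ) (hc : ¬ (p : ℤ) ∣ c) :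
    ∃ (a : ℕ) (b : ℤ), 0 < a ∧ a < p ∧ (a : ℤ) * c + b * (p : ℤ) = 1 := by
  haveI := Fact.mk hp
  have hc' : (c : ZMod p) ≠ 0 := by
    rwa [Ne, ZMod.intCast_zmod_eq_zero_iff_dvd]
  set u : ZMod p := (c : ZMod p)⁻¹ with hu
  have huc : u * (c : ZMod p) = 1 := inv_mul_cancel₀ hc'
  have hu0 : u ≠ 0 := inv_ne_zero hc'
  have h1 : (p : ℤ) ∣ (u.val : ℤ) * c - 1 := by
    rw [← ZMod.intCast_zmod_eq_zero_iff_dvd]
    push_cast
    rw [ZMod.natCast_zmod_val, huc, sub_self]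
  obtain ⟨k, hk⟩ := h1
  refine ⟨u.val, -k, (ZMod.val_pos).mpr hu0, ZMod.val_lt u, ?_⟩
  linarith

section val

variable {F : Type*} [Field F] (v : AddValuation F (WithTop ℚ))

lemma s56r_val_zpow (x : F) (r : ℚ) (hx : v x = (r : WithTop ℚ)) (b : ℤ) :
    v (x ^ b) = ((((b : ℚ) * r : ℚ)) : WithTop ℚ) := by
  obtain ⟨n, rfl | rfl⟩ := b.eq_nat_or_neg
  · rw [zpow_natCast, AddValuation.map_pow, hx, ← WithTop.coe_nsmul, nsmul_eq_mul,
      Int.cast_natCast]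
  · rw [zpow_neg, zpow_natCast, AddValuation.map_inv, AddValuation.map_pow, hx,
      ← WithTop.coe_nsmul, nsmul_eq_mul, Int.cast_neg, Int.cast_natCast, neg_mul]
    rfl

lemma s56r_val_npow (x : F) (r : ℚ) (hx : v x = (r : WithTop ℚ)) (a : ℕ) :
    v (x ^ a) = ((((a : ℚ) * r : ℚ)) : WithTop ℚ) := by
  rw [AddValuation.map_pow, hx, ← WithTop.coe_nsmul, nsmul_eq_mul]

lemma s56r_val_coe_of_ne_zero {x : F} (hx : x ≠ 0) : ∃ r : ℚ, v x = (r : WithTop ℚ) := by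
  have hne : v x ≠ ⊤ := fun h => hx ((AddValuation.top_iff v).mp h)
  obtain ⟨r, hr⟩ := WithTop.ne_top_iff_exists.mp hne
  exact ⟨r, hr.symm⟩

end val

lemma s56r_isPrimitiveRoot_of_prime {F : Type*} [Field F] {p : ℕ} (hp : p.Prime) {ζ : F}
    (h1 : ζ ^ p = 1) (h2 : ζ ≠ 1) : IsPrimitiveRoot ζ p := by
  haveI := Fact.mk hp
  have h3 : orderOf ζ = p := orderOf_eq_prime h1 h2
  rw [← h3]
  exact IsPrimitiveRoot.orderOf ζ

section core

variable {p : ℕ} (hp : p.Prime) (P : ValuationSubring Ω) (hP : (p : Ω) ∈ P.nonunits)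

/-- **Core**: if `v (α' - δ) = t/(p e₁)` with `p ∤ t`, some inertia element fixing `K₁` moves `α'`,
and a uniformizer `π_N = (α' - δ)^a π₁^b` obeys the break inequality. -/
theorem s56r_kummer_core (hΘ : s56r_IfaceTheta) (hHL : s56r_IfaceHerbrandLite)
    (L K₁ : IntermediateField ℚ Ω) [FiniteDimensional ℚ ↥L] [Normal ℚ ↥L]
    [FiniteDimensional ℚ ↥K₁] [Normal ℚ ↥K₁]
    (hPm : ∀ m : ℚ, (p : ℚ) / ((p : ℚ) - 1) < m → s56r_Pm p hp P hP L m)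
    (ζ₀ : Ω) (hζ₀K : ζ₀ ∈ K₁) (hζ₀ : IsPrimitiveRoot ζ₀ p)
    (π₁ : Ω) (hπ₁K : π₁ ∈ K₁) (hπ₁0 : 0 < ford_vQ P hp hP π₁)
    (hπ₁min : ∀ b ∈ K₁, 0 < ford_vQ P hp hP b → ford_vQ P hp hP π₁ ≤ ford_vQ P hp hP b)
    (α' : Ω) (hα'0 : α' ≠ 0)
    (hα'fix : ∀ g ∈ P.decompositionSubgroup ℚ, (∀ x ∈ L, g x = x) → (∀ x ∈ K₁, g x = x) →
      g α' = α')
    (hα'p : α' ^ p ∈ s56r_hens P K₁)
    (δ : Ω) (hδ : ∀ σ ∈ P.inertiaSubgroupIn ℚ, σ δ = δ) (t : ℤ) (ht : ¬ (p : ℤ) ∣ t)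
    (hvt : ford_vQ P hp hP (α' - δ)
      = ((((t : ℚ) / ((p : ℚ) * ((s56r_orb P π₁).card : ℚ)) : ℚ)) : WithTop ℚ)) :
    ∃ s ∈ P.inertiaSubgroupIn ℚ, (∀ x ∈ K₁, s x = x) ∧ s α' ≠ α' ∧ ∃ (a : ℕ) (b : ℤ),
      0 < a ∧ a < p ∧ (a : ℤ) * t + b * (p : ℤ) = 1 ∧
      ford_vQ P hp hP ((α' - δ) ^ a * π₁ ^ b)
        = ((((1 : ℚ) / ((p : ℚ) * ((s56r_orb P π₁).card : ℚ)) : ℚ)) : WithTop ℚ) ∧
      ford_vQ P hp hP (s ((α' - δ) ^ a * π₁ ^ b) - (α' - δ) ^ a * π₁ ^ b)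
        ≤ ((((1 : ℚ) / ((p : ℚ) * ((p : ℚ) - 1))
          + 1 / ((p : ℚ) * ((s56r_orb P π₁).card : ℚ)) : ℚ)) : WithTop ℚ) := by
  classical
  set v := ford_vQ P hp hP with hv
  set e₁ : ℕ := (s56r_orb P π₁).card with he₁
  have he₁pos : 0 < e₁ := Finset.card_pos.mpr ⟨π₁, s56r_self_mem_orb P π₁⟩
  have hpq : (1 : ℚ) < (p : ℚ) := by exact_mod_cast hp.one_lt
  have hp0 : (0 : ℚ) < (p : ℚ) := by linarith
  have he₁q : (0 : ℚ) < (e₁ : ℚ) := by exact_mod_cast he₁pos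
  have hvπ₁ : v π₁ = ((((1 : ℚ) / (e₁ : ℚ) : ℚ)) : WithTop ℚ) :=
    s56r_unif_val hp P hP K₁ π₁ hπ₁K hπ₁0 hπ₁min
  have hfixK : ∀ ι ∈ P.inertiaSubgroupIn ℚ, ι π₁ = π₁ → ∀ x ∈ K₁, ι x = x := fun ι hι h =>
    (s56r_inertia_fix_iff hp P hP K₁ π₁ hπ₁K hπ₁0 hπ₁min ι hι).mp h
  -- some `s` moves `α'`
  have hex : ∃ s ∈ P.inertiaSubgroupIn ℚ, s π₁ = π₁ ∧ s α' ≠ α' := by
    by_contra hcon
    push_neg at hcon
    have hne : α' - δ ≠ 0 := by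
      intro h
      rw [h, AddValuation.map_zero] at hvt
      exact WithTop.top_ne_coe hvt
    obtain ⟨k, hk⟩ := s56r_val_stab_fixed v (Γ := ↥(P.inertiaSubgroupIn ℚ))
      (s56r_inertia_int' hp P hP) π₁ (s56r_orb P π₁) (fun w => s56r_mem_orb' P) hvπ₁
      (α' - δ) hne (by
        rintro ⟨ι, hι⟩ hιπ
        change ι (α' - δ) = α' - δ
        rw [map_sub, hδ ι hι, hcon ι hι hιπ])
    rw [hvt] at hk
    have hk' : (t : ℚ) / ((p : ℚ) * (e₁ : ℚ)) = (k : ℚ) / (e₁ : ℚ) := by exact_mod_cast hk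
    have hk'' : (t : ℚ) = (k : ℚ) * (p : ℚ) := by
      have h1 := hp0.ne'
      have h2 := he₁q.ne'
      field_simp at hk'
      linarith
    apply ht
    refine ⟨k, ?_⟩
    have : ((t : ℤ) : ℚ) = (((p : ℤ) * k : ℤ) : ℚ) := by
      push_cast
      linarith
    exact_mod_cast this
  obtain ⟨s, hs, hsπ, hsα⟩ := hex
  have hsK : ∀ x ∈ K₁, s x = x := hfixK s hs hsπ
  obtain ⟨a, b, ha0, hap, hab⟩ := s56r_bezout p hp t ht
  have hvπN : v ((α' - δ) ^ a * π₁ ^ b)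
      = ((((1 : ℚ) / ((p : ℚ) * (e₁ : ℚ)) : ℚ)) : WithTop ℚ) := by
    rw [AddValuation.map_mul, s56r_val_npow v _ _ hvt a, s56r_val_zpow v _ _ hvπ₁ b,
      ← WithTop.coe_add]
    congr 1
    have habq : (a : ℚ) * (t : ℚ) + (b : ℚ) * (p : ℚ) = 1 := by exact_mod_cast hab
    have h1 := hp0.ne'
    have h2 := he₁q.ne'
    field_simp
    linarith
  refine ⟨s, hs, hsK, hsα, a, b, ha0, hap, hab, hvπN, ?_⟩
  exact s56r_break hp P hP hΘ hHL L K₁ hPm ζ₀ hζ₀K hζ₀ π₁ hπ₁K hπ₁0 hπ₁min α' hα'0 hα'fix hα'p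
    δ hδ a b hvπN s hs hsK hsα

end core

/-- **[W8-F1]: the export, from the three leaves.** -/
theorem s56r_kummer (hΘ : s56r_IfaceTheta) (hHL : s56r_IfaceHerbrandLite)
    (hNF : s56r_IfaceNormalForm) : s56r_IfaceKummer := by
  intro p hp P hP L K₁ hLfin hLnorm hKfin hKnorm hPm hζ α hα0 hαfix hαp
  obtain ⟨ζ₀, hζ₀K, hζ₀⟩ := hζ
  classical
  set v := ford_vQ P hp hP with hv
  obtain ⟨π₁, hπ₁K, hπ₁0, hπ₁min⟩ := s56r_exists_unif hp P hP K₁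
  set e₁ : ℕ := (s56r_orb P π₁).card with he₁
  have he₁pos : 0 < e₁ := Finset.card_pos.mpr ⟨π₁, s56r_self_mem_orb P π₁⟩
  have hpq : (1 : ℚ) < (p : ℚ) := by exact_mod_cast hp.one_lt
  have hp0 : (0 : ℚ) < (p : ℚ) := by linarith
  have hp1 : (0 : ℚ) < (p : ℚ) - 1 := by linarith
  have he₁q : (0 : ℚ) < (e₁ : ℚ) := by exact_mod_cast he₁pos
  have hvπ₁ : v π₁ = ((((1 : ℚ) / (e₁ : ℚ) : ℚ)) : WithTop ℚ) :=
    s56r_unif_val hp P hP K₁ π₁ hπ₁K hπ₁0 hπ₁min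
  have hvp : v (p : Ω) = 1 := ford_vQ_q hp hP
  have hyE : α ^ p ∈ s56r_hens P K₁ := hαp
  have hID : ∀ σ ∈ P.inertiaSubgroupIn ℚ, σ ∈ P.decompositionSubgroup ℚ :=
    fun σ hσ => (ford_inertia_spec P σ hσ).1
  have hAB : (1 : ℚ) / ((p : ℚ) - 1) = 1 / ((p : ℚ) * ((p : ℚ) - 1)) + 1 / (p : ℚ) := by
    have h1 := hp0.ne'
    have h2 := hp1.ne'
    field_simp
    ring
  rcases hNF v (s56r_hens P K₁) p hp hvp π₁ e₁ (s56r_le_hens P K₁ hπ₁K) he₁pos hvπ₁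
    (fun x hx hx0 => s56r_hens_valGroup hp P hP K₁ π₁ hπ₁K hπ₁0 hπ₁min x hx hx0)
    (fun c hc hvc => s56r_hens_perfect hp P hP K₁ c hc hvc)
    (α ^ p) hyE (pow_ne_zero p hα0) with h1 | h2 | h3
  · obtain ⟨z, hzE, w, hwE, hw0, hy⟩ := h1
    exact ⟨z, w, fun g hg hK => ⟨hzE g hg hK, hwE g hg hK⟩,
      (ford_vQ_nonneg_iff hp hP w).mp hw0, hy⟩
  · exfalso
    obtain ⟨z, hzE, hz0, c, hpc, hvc⟩ := h2
    set α' := α / z with hα'
    have hα'0 : α' ≠ 0 := div_ne_zero hα0 hz0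
    have hα'fix : ∀ g ∈ P.decompositionSubgroup ℚ, (∀ x ∈ L, g x = x) → (∀ x ∈ K₁, g x = x) →
        g α' = α' := by
      intro g hg hL hK
      rw [hα', map_div₀, hαfix g hg hL hK, hzE g hg hK]
    have hα'pow : α' ^ p = α ^ p / z ^ p := by rw [hα', div_pow]
    have hα'p : α' ^ p ∈ s56r_hens P K₁ := by
      rw [hα'pow]
      exact div_mem hyE (pow_mem hzE p)
    obtain ⟨r, hr⟩ := s56r_val_coe_of_ne_zero v hα'0
    have hrc : r = (c : ℚ) / ((p : ℚ) * (e₁ : ℚ)) := by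
      have h1 : v (α' ^ p) = ((((p : ℚ) * r : ℚ)) : WithTop ℚ) := s56r_val_npow v α' r hr p
      rw [hα'pow, hvc] at h1
      have h2 : (c : ℚ) / (e₁ : ℚ) = (p : ℚ) * r := by exact_mod_cast h1
      have h3 := hp0.ne'
      have h4 := he₁q.ne'
      field_simp
      field_simp at h2
      linarith
    have hvt : v (α' - 0) = ((((c : ℚ) / ((p : ℚ) * (e₁ : ℚ)) : ℚ)) : WithTop ℚ) := by
      rw [sub_zero, hr, hrc]
    obtain ⟨s, hs, hsK, hsα, a, b, ha0, hap, hab, hvπN, hle⟩ :=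
      s56r_kummer_core hp P hP hΘ hHL L K₁ hPm ζ₀ hζ₀K hζ₀ π₁ hπ₁K hπ₁0 hπ₁min α' hα'0 hα'fix
        hα'p 0 (fun σ _ => map_zero σ) c hpc hvt
    set ζ' := s α' / α' with hζ'def
    have hsα' : s α' = ζ' * α' := by
      rw [hζ'def, div_mul_cancel₀ _ hα'0]
    have hζ'p : ζ' ^ p = 1 := by
      rw [hζ'def, div_pow, ← map_pow, hα'p s (hID s hs) hsK, div_self (pow_ne_zero p hα'0)]
    have hζ'1 : ζ' ≠ 1 := by
      intro h
      apply hsα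
      rw [hsα', h, one_mul]
    have hζ' : IsPrimitiveRoot ζ' p := s56r_isPrimitiveRoot_of_prime hp hζ'p hζ'1
    have hζ'a : IsPrimitiveRoot (ζ' ^ a) p :=
      hζ'.pow_of_coprime a (Nat.Coprime.symm
        ((Nat.Prime.coprime_iff_not_dvd hp).mpr (Nat.not_dvd_of_pos_of_lt ha0 hap)))
    have hsπN : s ((α' - 0) ^ a * π₁ ^ b) - (α' - 0) ^ a * π₁ ^ b
        = (ζ' ^ a - 1) * ((α' - 0) ^ a * π₁ ^ b) := by
      rw [map_mul, map_pow, map_zpow₀, map_sub, map_zero, hsK π₁ hπ₁K, hsα']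
      ring
    rw [hsπN, AddValuation.map_mul, hvπN, s56r_val_zeta_sub_one v hp hvp hζ'a,
      ← WithTop.coe_add] at hle
    have hle' : (1 : ℚ) / ((p : ℚ) - 1) + 1 / ((p : ℚ) * (e₁ : ℚ))
        ≤ 1 / ((p : ℚ) * ((p : ℚ) - 1)) + 1 / ((p : ℚ) * (e₁ : ℚ)) := by exact_mod_cast hle
    have h5 : (0 : ℚ) < 1 / (p : ℚ) := one_div_pos.mpr hp0
    linarith
  · exfalso
    obtain ⟨z, hzE, hz0, x, hxE, j, hj0, hje, hpj, hvx, hy⟩ := h3
    set α' := α / z with hα'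
    have hα'0 : α' ≠ 0 := div_ne_zero hα0 hz0
    have hα'fix : ∀ g ∈ P.decompositionSubgroup ℚ, (∀ x ∈ L, g x = x) → (∀ x ∈ K₁, g x = x) →
        g α' = α' := by
      intro g hg hL hK
      rw [hα', map_div₀, hαfix g hg hL hK, hzE g hg hK]
    have hα'pow : α' ^ p = α ^ p / z ^ p := by rw [hα', div_pow]
    have hα'p : α' ^ p ∈ s56r_hens P K₁ := by
      rw [hα'pow]
      exact div_mem hyE (pow_mem hzE p)
    have hα'eq : α' ^ p = 1 + x := by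
      rw [hα'pow, hy, mul_div_cancel_left₀ _ (pow_ne_zero p hz0)]
    have hjq : (0 : ℚ) < (j : ℚ) := by exact_mod_cast hj0
    have hjlt : (j : ℚ) / (e₁ : ℚ) < 1 := by
      rw [div_lt_one he₁q]
      exact_mod_cast hje
    have hv1 : v (α' - 1) = (((((j : ℚ) / (e₁ : ℚ)) / (p : ℚ) : ℚ)) : WithTop ℚ) :=
      s56r_val_root_sub_one v hp hvp hζ₀ α' x hα'eq ((j : ℚ) / (e₁ : ℚ)) hvx hjlt
    have hvt : v (α' - 1) = (((((j : ℤ) : ℚ) / ((p : ℚ) * (e₁ : ℚ)) : ℚ)) : WithTop ℚ) := by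
      rw [hv1]
      congr 1
      have h3 := hp0.ne'
      have h4 := he₁q.ne'
      push_cast
      field_simp
    have hpj' : ¬ (p : ℤ) ∣ (j : ℤ) := by exact_mod_cast hpj
    obtain ⟨s, hs, hsK, hsα, a, b, ha0, hap, hab, hvπN, hle⟩ :=
      s56r_kummer_core hp P hP hΘ hHL L K₁ hPm ζ₀ hζ₀K hζ₀ π₁ hπ₁K hπ₁0 hπ₁min α' hα'0 hα'fix
        hα'p 1 (fun σ _ => map_one σ) (j : ℤ) hpj' hvt
    have hvα' : v α' = 0 := by
      have hx0 : 0 < v x := by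
        rw [hvx]
        exact_mod_cast (div_pos hjq he₁q)
      have h1 : v (1 + x) = 0 := by
        have : v (1 : Ω) < v x := by rw [AddValuation.map_one]; exact hx0
        rw [AddValuation.map_add_eq_of_lt_left v this, AddValuation.map_one]
      obtain ⟨r, hr⟩ := s56r_val_coe_of_ne_zero v hα'0
      have h2 := s56r_val_npow v α' r hr p
      rw [hα'eq, h1] at h2
      have h3 : (0 : ℚ) = (p : ℚ) * r := by exact_mod_cast h2
      have h4 : r = 0 := (mul_eq_zero.mp h3.symm).resolve_left hp0.ne'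
      rw [hr, h4]
      rfl
    set ζ' := s α' / α' with hζ'def
    have hsα' : s α' = ζ' * α' := by
      rw [hζ'def, div_mul_cancel₀ _ hα'0]
    have hζ'p : ζ' ^ p = 1 := by
      rw [hζ'def, div_pow, ← map_pow, hα'p s (hID s hs) hsK, div_self (pow_ne_zero p hα'0)]
    have hζ'1 : ζ' ≠ 1 := by
      intro h
      apply hsα
      rw [hsα', h, one_mul]
    have hζ' : IsPrimitiveRoot ζ' p := s56r_isPrimitiveRoot_of_prime hp hζ'p hζ'1
    have hα'1 : α' - 1 ≠ 0 := by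
      intro h
      rw [h, AddValuation.map_zero] at hv1
      exact WithTop.top_ne_coe hv1
    set ε := (ζ' - 1) * α' / (α' - 1) with hεdef
    have hsα1 : s α' - 1 = (α' - 1) * (1 + ε) := by
      rw [hsα', hεdef]
      field_simp
      ring
    have hvε : v ε = ((((1 : ℚ) / ((p : ℚ) - 1) - (j : ℚ) / ((p : ℚ) * (e₁ : ℚ)) : ℚ)) :
        WithTop ℚ) := by
      rw [hεdef, AddValuation.map_div, AddValuation.map_mul,
        s56r_val_zeta_sub_one v hp hvp hζ', hvα', hvt, add_zero,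
        ← WithTop.LinearOrderedAddCommGroup.coe_sub]
      congr 1
    have hJ : (j : ℚ) / ((p : ℚ) * (e₁ : ℚ)) = ((j : ℚ) / (e₁ : ℚ)) * (1 / (p : ℚ)) := by
      have h3 := hp0.ne'
      have h4 := he₁q.ne'
      field_simp
    have h5 : (0 : ℚ) < 1 / (p : ℚ) := one_div_pos.mpr hp0
    have hJlt : (j : ℚ) / ((p : ℚ) * (e₁ : ℚ)) < 1 / (p : ℚ) := by
      rw [hJ]
      nlinarith
    have hε0 : 0 < v ε := by
      rw [hvε]
      have : (0 : ℚ) < 1 / ((p : ℚ) - 1) - (j : ℚ) / ((p : ℚ) * (e₁ : ℚ)) := by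
        have h6 : (0 : ℚ) < 1 / ((p : ℚ) * ((p : ℚ) - 1)) := one_div_pos.mpr (mul_pos hp0 hp1)
        linarith
      exact_mod_cast this
    have hsπN : s ((α' - 1) ^ a * π₁ ^ b) - (α' - 1) ^ a * π₁ ^ b
        = ((1 + ε) ^ a - 1) * ((α' - 1) ^ a * π₁ ^ b) := by
      rw [map_mul, map_pow, map_zpow₀, map_sub, map_one, hsK π₁ hπ₁K, hsα1, mul_pow]
      ring
    rw [hsπN, AddValuation.map_mul, hvπN,
      s56r_val_one_add_pow_sub_one v hp hvp ε hε0 a ha0 hap, hvε, ← WithTop.coe_add] at hle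
    have hle' : (1 : ℚ) / ((p : ℚ) - 1) - (j : ℚ) / ((p : ℚ) * (e₁ : ℚ))
          + 1 / ((p : ℚ) * (e₁ : ℚ))
        ≤ 1 / ((p : ℚ) * ((p : ℚ) - 1)) + 1 / ((p : ℚ) * (e₁ : ℚ)) := by exact_mod_cast hle
    linarith

end Fermat.Agent.Lib.S56
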