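/-
PROGRAMME W (S56), wall [W8-F1] (helper6, prefix `s56r_`): glue of the export `s56r_IfaceKummer` to the
arithmetic input `s56f_KB` of [W8-F3] (helper3's `IfaceF3.lean`), for
`Good L := L/ℚ finite normal ∧ ∀ m > p/(p-1), (P_m)(L)`.
-/
import Mathlib
import Fermat.Agent.Lib.S56.RKummer
import Fermat.Agent.Lib.S56.IfaceF3

set_option autoImplicit false

noncomputable section

namespace Fermat.Agent.Lib.S56

open Polynomial Fermat.Agent.Lib.Frey

local notation "Q̄" => AlgebraicClosure ℚ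

/-- `s56r_IfaceKummer ⇒ s56f_KB` for the good fields of Fontaine. -/
theorem s56r_kb_of_kummer (hK : s56r_IfaceKummer) (p : ℕ) (hp : p.Prime)
    (P : ValuationSubring Q̄) (hP : (p : Q̄) ∈ P.nonunits) :
    s56f_KB p P (fun L => FiniteDimensional ℚ ↥L ∧ Normal ℚ ↥L ∧
      ∀ m : ℚ, (p : ℚ) / ((p : ℚ) - 1) < m → s56r_Pm p hp P hP L m) := by
  rintro L ⟨hLfin, hLnorm, hPm⟩ K₁ hKfin hKnorm - ⟨ζ, hζK, hζp, hζ1⟩ α hα0 hαfix hαp
  obtain ⟨z, w, hzw, hwP, h⟩ := hK p hp P hP L K₁ hLfin hLnorm hKfin hKnorm hPm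
    ⟨ζ, hζK, s56r_isPrimitiveRoot_of_prime hp hζp hζ1⟩ α hα0
    (by
      intro g hg hL hK'
      apply hαfix g hg
      rw [IntermediateField.fixingSubgroup_sup]
      exact ⟨(IntermediateField.mem_fixingSubgroup_iff L g).mpr hL,
        (IntermediateField.mem_fixingSubgroup_iff K₁ g).mpr hK'⟩)
    (by
      intro g hg hK'
      exact hαp g hg ((IntermediateField.mem_fixingSubgroup_iff K₁ g).mpr hK'))
  exact ⟨z, w, fun σ hσ hσK =>
    hzw σ hσ ((IntermediateField.mem_fixingSubgroup_iff K₁ σ).mp hσK), hwP, h⟩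

/-- **[W8-F1] final form**, from the three leaves. -/
theorem s56r_kb_of_leaves (hΘ : s56r_IfaceTheta) (hHL : s56r_IfaceHerbrandLite)
    (hNF : s56r_IfaceNormalForm) (p : ℕ) (hp : p.Prime)
    (P : ValuationSubring Q̄) (hP : (p : Q̄) ∈ P.nonunits) :
    s56f_KB p P (fun L => FiniteDimensional ℚ ↥L ∧ Normal ℚ ↥L ∧
      ∀ m : ℚ, (p : ℚ) / ((p : ℚ) - 1) < m → s56r_Pm p hp P hP L m) :=
  s56r_kb_of_kummer (s56r_kummer hΘ hHL hNF) p hp P hP

end Fermat.Agent.Lib.S56
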