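/-
PROGRAMME W (S56), wall [W8-F1], leaf (HL) (helper8 for helper6, prefix `s56r_`):
Herbrand-lite in orbit form, `s56r_herbrandLite : s56r_IfaceHerbrandLite`.
-/
import Mathlib
import Fermat.Agent.Lib.S56.IfaceF1

set_option autoImplicit false

noncomputable section

namespace Fermat.Agent.Lib.S56

open Polynomial

section HL

variable {Ω : Type*} [Field Ω] (v : AddValuation Ω (WithTop ℚ))

/-- the valuation ring of `v` -/
def s56r_hl_int : Subring Ω where
  carrier := {a | 0 ≤ v a}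
  mul_mem' := by
    intro a b ha hb
    show 0 ≤ v (a * b)
    rw [AddValuation.map_mul]
    exact add_nonneg ha hb
  one_mem' := by
    show 0 ≤ v (1 : Ω)
    rw [AddValuation.map_one]
  add_mem' := by
    intro a b ha hb
    exact le_trans (le_min ha hb) (AddValuation.map_add v a b)
  zero_mem' := by
    show 0 ≤ v (0 : Ω)
    rw [AddValuation.map_zero]; exact le_top
  neg_mem' := by
    intro a ha
    show 0 ≤ v (-a)
    rw [AddValuation.map_neg]; exact ha

lemma s56r_hl_mem_int {a : Ω} : a ∈ s56r_hl_int v ↔ 0 ≤ v a := Iff.rfl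

variable {Γ : Type*} [Group Γ] [MulSemiringAction Γ Ω]

lemma s56r_hl_invRing_le : s56r_invRing v Γ ≤ s56r_hl_int v := fun _ ha => ha.1

/-- evaluation of a polynomial over the ring of invariant integral elements -/
def s56r_hl_ev (G : Polynomial ↥(s56r_invRing v Γ)) (a : Ω) : Ω :=
  (G.map (s56r_invRing v Γ).subtype).eval a

/-- evaluation is equivariant -/
lemma s56r_hl_smul_ev (G : Polynomial ↥(s56r_invRing v Γ)) (σ : Γ) (a : Ω) :
    σ • s56r_hl_ev v G a = s56r_hl_ev v G (σ • a) := by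
  unfold s56r_hl_ev
  rw [eval_map, eval_map]
  have h := Polynomial.hom_eval₂ G (s56r_invRing v Γ).subtype
    (MulSemiringAction.toRingHom Γ Ω σ) a
  have hcomp : (MulSemiringAction.toRingHom Γ Ω σ).comp (s56r_invRing v Γ).subtype =
      (s56r_invRing v Γ).subtype := by
    ext c
    exact c.2.2 σ
  rw [hcomp] at h
  exact h

/-- evaluation at an integral point, computed in the valuation ring -/
lemma s56r_hl_ev_lift (G : Polynomial ↥(s56r_invRing v Γ)) (a : ↥(s56r_hl_int v)) :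
    s56r_hl_ev v G (a : Ω) =
      (((G.map (Subring.inclusion (s56r_hl_invRing_le v (Γ := Γ)))).eval a :
        ↥(s56r_hl_int v)) : Ω) := by
  unfold s56r_hl_ev
  rw [eval_map, eval_map]
  have h := Polynomial.hom_eval₂ G (Subring.inclusion (s56r_hl_invRing_le v (Γ := Γ)))
    (s56r_hl_int v).subtype a
  exact h.symm

lemma s56r_hl_ev_nonneg (G : Polynomial ↥(s56r_invRing v Γ)) {a : Ω} (ha : 0 ≤ v a) :
    0 ≤ v (s56r_hl_ev v G a) := by
  have h := s56r_hl_ev_lift v G ⟨a, ha⟩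
  rw [h]
  exact ((G.map (Subring.inclusion (s56r_hl_invRing_le v (Γ := Γ)))).eval
    (⟨a, ha⟩ : ↥(s56r_hl_int v))).2

lemma s56r_hl_ev_sub (G : Polynomial ↥(s56r_invRing v Γ)) {a b : Ω} (ha : 0 ≤ v a)
    (hb : 0 ≤ v b) : v (a - b) ≤ v (s56r_hl_ev v G a - s56r_hl_ev v G b) := by
  have h1 := s56r_hl_ev_lift v G ⟨a, ha⟩
  have h2 := s56r_hl_ev_lift v G ⟨b, hb⟩
  obtain ⟨r, hr⟩ := Polynomial.sub_dvd_eval_sub (⟨a, ha⟩ : ↥(s56r_hl_int v)) ⟨b, hb⟩
    (G.map (Subring.inclusion (s56r_hl_invRing_le v (Γ := Γ))))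
  have h3 : s56r_hl_ev v G a - s56r_hl_ev v G b = (a - b) * (r : Ω) := by
    have := congrArg (fun t : ↥(s56r_hl_int v) => (t : Ω)) hr
    simp only [AddSubgroupClass.coe_sub, Subring.coe_mul] at this
    rw [h1, h2]
    exact this
  rw [h3, AddValuation.map_mul]
  calc v (a - b) = v (a - b) + 0 := (add_zero _).symm
    _ ≤ v (a - b) + v (r : Ω) := by gcongr; exact r.2

/-- the ultrametric identity for a maximal coset element -/
lemma s56r_hl_min (hv : ∀ (σ : Γ) (a : Ω), v (σ • a) = v a) (x : Ω) (τ δ : Γ)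
    (hmax : v (x - (τ * δ) • x) ≤ v (x - τ • x)) :
    v (x - (τ * δ) • x) = min (v (x - τ • x)) (v (x - δ • x)) := by
  have h1 : x - (τ * δ) • x = (x - τ • x) + τ • (x - δ • x) := by
    rw [smul_sub, mul_smul]; ring
  have h2 : v (τ • (x - δ • x)) = v (x - δ • x) := hv _ _
  by_cases h : v (x - τ • x) = v (x - δ • x)
  · rw [← h, min_self]
    refine le_antisymm hmax ?_
    rw [h1]
    refine le_trans (le_min le_rfl ?_) (AddValuation.map_add v _ _)
    rw [h2, h]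
  · rw [h1, ← h2]
    rw [← h2] at h
    exact AddValuation.map_add_of_distinct_val v h

/-- **Serre, Corps locaux IV Prop. 3 (one direction), orbit form.** -/
lemma s56r_hl_a (hv : ∀ (σ : Γ) (a : Ω), v (σ • a) = v a) (x y : Ω) (hx : 0 ≤ v x)
    (hy : 0 ≤ v y) (Z : Finset Ω) (hxZ : x ∈ Z) (hZint : ∀ z ∈ Z, 0 ≤ v z)
    (hZstab : ∀ δ : Γ, δ • y = y → ∀ z ∈ Z, δ • z ∈ Z)
    (hG : ∀ c : Ω, 0 ≤ v c → (∀ δ : Γ, δ • y = y → δ • c = c) →
      ∃ G : Polynomial ↥(s56r_invRing v Γ), s56r_hl_ev v G y = c)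
    (s : Γ) : v (s • y - y) ≤ ∑ z ∈ Z, v (x - s • z) := by
  classical
  set f : Polynomial Ω := ∏ z ∈ Z, (X - C z) with hf
  -- integrality of the coefficients
  have hlift : f ∈ Polynomial.liftsRing (s56r_hl_int v).subtype := by
    rw [hf]
    refine Subring.prod_mem _ fun z hz => ?_
    refine Subring.sub_mem _ ((lifts_iff_liftsRing _ _).mp (X_mem_lifts _))
      ((lifts_iff_liftsRing _ _).mp ?_)
    exact C'_mem_lifts ⟨⟨z, hZint z hz⟩, rfl⟩
  have hcint : ∀ i, 0 ≤ v (f.coeff i) := by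
    intro i
    obtain ⟨c, hc⟩ := (lifts_iff_coeff_lifts f).mp ((lifts_iff_liftsRing _ _).mpr hlift) i
    rw [← hc]
    exact c.2
  -- invariance of the coefficients under the stabilizer of `y`
  have hmap : ∀ σ : Γ, f.map (MulSemiringAction.toRingHom Γ Ω σ) = ∏ z ∈ Z, (X - C (σ • z)) := by
    intro σ
    rw [hf, Polynomial.map_prod]
    refine Finset.prod_congr rfl fun z _ => ?_
    rw [Polynomial.map_sub, map_X, map_C]
    rfl
  have hcfix : ∀ i, ∀ δ : Γ, δ • y = y → δ • f.coeff i = f.coeff i := by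
    intro i δ hδ
    have himg : Z.image (fun z => δ • z) = Z := by
      refine Finset.eq_of_subset_of_card_le ?_ ?_
      · intro w hw
        obtain ⟨z, hz, rfl⟩ := Finset.mem_image.mp hw
        exact hZstab δ hδ z hz
      · rw [Finset.card_image_of_injective _ (MulAction.injective δ)]
    have h1 : f.map (MulSemiringAction.toRingHom Γ Ω δ) = f := by
      rw [hmap δ]
      conv_rhs => rw [hf, ← himg]
      rw [Finset.prod_image (fun a _ b _ h => MulAction.injective δ h)]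
    have h2 := congrArg (fun g : Polynomial Ω => g.coeff i) h1
    simp only [coeff_map] at h2
    exact h2
  -- the coefficients are polynomials in `y`
  have hchoose : ∀ i, ∃ G : Polynomial ↥(s56r_invRing v Γ), s56r_hl_ev v G y = f.coeff i :=
    fun i => hG _ (hcint i) (hcfix i)
  have hsy : 0 ≤ v (s • y) := by rw [hv]; exact hy
  have hcdiff : ∀ i, v (s • y - y) ≤ v (s • f.coeff i - f.coeff i) := by
    intro i
    obtain ⟨G, hGi⟩ := hchoose i
    rw [← hGi, s56r_hl_smul_ev]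
    exact s56r_hl_ev_sub v G hsy hy
  -- evaluate `s f - f` at `x`
  have hfx : f.eval x = 0 := by
    rw [hf, eval_prod]
    exact Finset.prod_eq_zero hxZ (by simp)
  have hsfx : (f.map (MulSemiringAction.toRingHom Γ Ω s)).eval x = ∏ z ∈ Z, (x - s • z) := by
    rw [hmap s, eval_prod]
    refine Finset.prod_congr rfl fun z _ => ?_
    rw [eval_sub, eval_X, eval_C]
  have hdiff : ∏ z ∈ Z, (x - s • z) =
      (f.map (MulSemiringAction.toRingHom Γ Ω s) - f).eval x := by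
    rw [eval_sub, hfx, sub_zero, hsfx]
  rw [← s56r_map_prod, hdiff, eval_eq_sum_range]
  refine AddValuation.map_le_sum v fun i _ => ?_
  rw [AddValuation.map_mul, coeff_sub, coeff_map, AddValuation.map_pow]
  calc v (s • y - y) = v (s • y - y) + 0 := (add_zero _).symm
    _ ≤ v ((MulSemiringAction.toRingHom Γ Ω s) (f.coeff i) - f.coeff i) + i • v x := by
        gcongr
        · exact hcdiff i
        · exact nsmul_nonneg hx i

end HL

/-- **Leaf (HL).** -/
theorem s56r_herbrandLite : s56r_IfaceHerbrandLite := by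
  intro Ω _ v Γ _ _ hv x y X Y hx hX hY hF hG s
  classical
  obtain ⟨F, hFxy⟩ := hF
  have hFxy' : s56r_hl_ev v F x = y := hFxy
  have hy : 0 ≤ v y := by rw [← hFxy']; exact s56r_hl_ev_nonneg v F hx
  have hFσ : ∀ σ : Γ, s56r_hl_ev v F (σ • x) = σ • y := fun σ => by
    rw [← s56r_hl_smul_ev, hFxy']
  -- the fibre over `y`
  set Z := X.filter (fun w => s56r_hl_ev v F w = y) with hZ
  have hZmem : ∀ w, w ∈ Z ↔ ∃ δ : Γ, δ • y = y ∧ δ • x = w := by
    intro w
    rw [hZ, Finset.mem_filter, hX]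
    constructor
    · rintro ⟨⟨σ, rfl⟩, h⟩
      exact ⟨σ, by rw [← hFσ]; exact h, rfl⟩
    · rintro ⟨δ, hδ, rfl⟩
      exact ⟨⟨δ, rfl⟩, by rw [hFσ, hδ]⟩
  have hxZ : x ∈ Z := (hZmem x).mpr ⟨1, one_smul _ _, one_smul _ _⟩
  have hZint : ∀ z ∈ Z, 0 ≤ v z := by
    intro z hz
    obtain ⟨δ, _, rfl⟩ := (hZmem z).mp hz
    rw [hv]; exact hx
  have hZstab : ∀ δ : Γ, δ • y = y → ∀ z ∈ Z, δ • z ∈ Z := by
    intro δ hδ z hz
    obtain ⟨δ', hδ', rfl⟩ := (hZmem z).mp hz
    exact (hZmem _).mpr ⟨δ * δ', by rw [mul_smul, hδ', hδ], mul_smul _ _ _⟩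
  have hA : ∀ t : Γ, v (t • y - y) ≤ ∑ z ∈ Z, v (x - t • z) :=
    s56r_hl_a v hv x y hx hy Z hxZ hZint hZstab hG
  -- maximal elements in cosets
  have hmaxex : ∀ τ₀ : Γ, ∃ τ : Γ, τ • y = τ₀ • y ∧
      ∀ δ : Γ, δ • y = y → v (x - (τ * δ) • x) ≤ v (x - τ • x) := by
    intro τ₀
    obtain ⟨z₀, hz₀, hmax⟩ := Finset.exists_max_image Z (fun z => v (x - τ₀ • z)) ⟨x, hxZ⟩
    obtain ⟨δ₀, hδ₀, rfl⟩ := (hZmem z₀).mp hz₀
    refine ⟨τ₀ * δ₀, by rw [mul_smul, hδ₀], fun δ hδ => ?_⟩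
    have h := hmax ((δ₀ * δ) • x) ((hZmem _).mpr ⟨δ₀ * δ, by rw [mul_smul, hδ, hδ₀], rfl⟩)
    rw [mul_smul, mul_smul, mul_smul]
    rw [mul_smul] at h
    exact h
  have hkey : ∀ τ : Γ, (∀ δ : Γ, δ • y = y → v (x - (τ * δ) • x) ≤ v (x - τ • x)) →
      ∀ z ∈ Z, v (x - τ • z) = min (v (x - τ • x)) (v (x - z)) := by
    intro τ hτ z hz
    obtain ⟨δ, hδ, rfl⟩ := (hZmem z).mp hz
    rw [← mul_smul]
    exact s56r_hl_min v hv x τ δ (hτ δ hδ)
  obtain ⟨s', hs'y, hs'max⟩ := hmaxex s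
  refine ⟨s', hs'y, ?_⟩
  unfold s56r_u
  have hmaps : ∀ w ∈ X, s56r_hl_ev v F w ∈ Y := by
    intro w hw
    obtain ⟨σ, rfl⟩ := (hX w).mp hw
    rw [hFσ]
    exact (hY _).mpr ⟨σ, rfl⟩
  rw [← Finset.sum_fiberwise_of_maps_to hmaps (fun w => min (v (s' • x - x)) (v (x - w)))]
  refine Finset.sum_le_sum fun y'' hy'' => ?_
  obtain ⟨τ₀, rfl⟩ := (hY y'').mp hy''
  obtain ⟨σ, hσy, hσmax⟩ := hmaxex τ₀
  have hfib : X.filter (fun w => s56r_hl_ev v F w = τ₀ • y) = Z.image (fun z => σ • z) := by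
    ext w
    rw [Finset.mem_filter, Finset.mem_image, hX]
    constructor
    · rintro ⟨⟨τ, rfl⟩, h⟩
      rw [hFσ] at h
      refine ⟨(σ⁻¹ * τ) • x, (hZmem _).mpr ⟨σ⁻¹ * τ, ?_, rfl⟩, ?_⟩
      · rw [mul_smul, h, ← hσy, inv_smul_smul]
      · rw [mul_smul, smul_inv_smul]
    · rintro ⟨z, hz, rfl⟩
      obtain ⟨δ, hδ, rfl⟩ := (hZmem z).mp hz
      refine ⟨⟨σ * δ, mul_smul _ _ _⟩, ?_⟩
      rw [← mul_smul, hFσ, mul_smul, hδ, hσy]
  rw [hfib, Finset.sum_image (fun a _ b _ h => MulAction.injective σ h)]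
  have ha : v (s' • x - x) = v (x - s' • x) := AddValuation.map_sub_swap v _ _
  rcases le_total (v (x - s' • x)) (v (x - σ • x)) with hab | hab
  · calc min (v (s • y - y)) (v (y - τ₀ • y)) ≤ v (s • y - y) := min_le_left _ _
      _ = v (s' • y - y) := by rw [hs'y]
      _ ≤ ∑ z ∈ Z, v (x - s' • z) := hA s'
      _ = ∑ z ∈ Z, min (v (s' • x - x)) (v (x - σ • z)) := by
          refine Finset.sum_congr rfl fun z hz => ?_
          rw [hkey s' hs'max z hz, hkey σ hσmax z hz, ha, ← min_assoc, min_eq_left hab]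
  · calc min (v (s • y - y)) (v (y - τ₀ • y)) ≤ v (y - τ₀ • y) := min_le_right _ _
      _ = v (σ • y - y) := by rw [hσy, AddValuation.map_sub_swap]
      _ ≤ ∑ z ∈ Z, v (x - σ • z) := hA σ
      _ = ∑ z ∈ Z, min (v (s' • x - x)) (v (x - σ • z)) := by
          refine Finset.sum_congr rfl fun z hz => ?_
          rw [hkey σ hσmax z hz, ha, ← min_assoc, min_eq_right hab]

end Fermat.Agent.Lib.S56
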