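/-
PROGRAMME W (S56), wall [W8-F1], leaf (NF) (helper8 for helper6, prefix `s56r_`):
the Kummer normal form below depth `e`, `s56r_normalForm : s56r_IfaceNormalForm`.
-/
import Mathlib
import Fermat.Agent.Lib.S56.IfaceF1

set_option autoImplicit false

noncomputable section

namespace Fermat.Agent.Lib.S56

section NF

variable {Ω : Type*} [Field Ω] (v : AddValuation Ω (WithTop ℚ))

/-- the value of a nonzero element is a rational number -/
lemma s56r_nf_exists_val {x : Ω} (hx : x ≠ 0) : ∃ q : ℚ, v x = (q : WithTop ℚ) := by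
  have h := (AddValuation.ne_top_iff v).mpr hx
  exact ⟨(v x).untop h, (WithTop.coe_untop _ _).symm⟩

lemma s56r_nf_ne_zero {x : Ω} {q : ℚ} (hx : v x = (q : WithTop ℚ)) : x ≠ 0 := by
  rintro rfl
  rw [AddValuation.map_zero] at hx
  exact WithTop.top_ne_coe hx

/-- `0 < v t → v (1 + t) = 0` -/
lemma s56r_nf_one_add {t : Ω} (ht : 0 < v t) : v (1 + t) = 0 := by
  have h : v (1 : Ω) < v t := by rw [AddValuation.map_one]; exact ht
  rw [AddValuation.map_add_eq_of_lt_left v h, AddValuation.map_one]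

/-- an approximate `p`-th root of a unit is a unit -/
lemma s56r_nf_root_unit {p : ℕ} (hp : 0 < p) {c d : Ω} (hc : v c = 0)
    (h : 0 < v (d ^ p - c)) : v d = 0 := by
  have h1 : v (d ^ p) = v c := AddValuation.map_eq_of_lt_sub v (by rw [hc]; exact h)
  rw [hc, AddValuation.map_pow] at h1
  have hd : d ≠ 0 := by
    rintro rfl
    rw [AddValuation.map_zero] at h1
    have : p • (⊤ : WithTop ℚ) = ⊤ := by
      obtain ⟨n, rfl⟩ : ∃ n, p = n + 1 := ⟨p - 1, by omega⟩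
      rw [succ_nsmul, add_top]
    rw [this] at h1
    exact WithTop.top_ne_zero h1
  obtain ⟨q, hq⟩ := s56r_nf_exists_val v hd
  rw [hq] at h1 ⊢
  have h2 : ((p • q : ℚ) : WithTop ℚ) = ((0 : ℚ) : WithTop ℚ) := by
    rw [WithTop.coe_nsmul]; exact h1
  have h3 : p • q = 0 := WithTop.coe_injective h2
  rw [nsmul_eq_mul] at h3
  have hp' : (p : ℚ) ≠ 0 := by exact_mod_cast hp.ne'
  have : q = 0 := by
    rcases mul_eq_zero.mp h3 with h | h
    · exact absurd h hp'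
    · exact h
  rw [this]; rfl

/-- the integral elements of a subfield -/
def s56r_nf_intRing (E : Subfield Ω) : Subring Ω where
  carrier := {a | a ∈ E ∧ 0 ≤ v a}
  mul_mem' := by
    rintro a b ⟨ha, ha'⟩ ⟨hb, hb'⟩
    refine ⟨mul_mem ha hb, ?_⟩
    rw [AddValuation.map_mul]
    exact add_nonneg ha' hb'
  one_mem' := ⟨one_mem _, by rw [AddValuation.map_one]⟩
  add_mem' := by
    rintro a b ⟨ha, ha'⟩ ⟨hb, hb'⟩
    exact ⟨add_mem ha hb, le_trans (le_min ha' hb') (AddValuation.map_add v a b)⟩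
  zero_mem' := ⟨zero_mem _, by rw [AddValuation.map_zero]; exact le_top⟩
  neg_mem' := by
    rintro a ⟨ha, ha'⟩
    exact ⟨neg_mem ha, by rw [AddValuation.map_neg]; exact ha'⟩

/-- `(1 + t)^p = 1 + t^p + p t r` with `r` integral -/
lemma s56r_nf_binom (E : Subfield Ω) {p : ℕ} (hp : p.Prime) {t : Ω} (htE : t ∈ E)
    (ht : 0 ≤ v t) : ∃ r ∈ E, 0 ≤ v r ∧ (1 + t) ^ p = 1 + t ^ p + (p : Ω) * t * r := by
  obtain ⟨r, hr⟩ := exists_add_pow_prime_eq hp (1 : s56r_nf_intRing v E) ⟨t, htE, ht⟩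
  refine ⟨r.1, r.2.1, r.2.2, ?_⟩
  have h := congrArg (Subtype.val) hr
  simpa using h

lemma s56r_nf_lt_add (a : ℚ) {b : WithTop ℚ} (hb : 0 < b) : (a : WithTop ℚ) < b + a := by
  induction b using WithTop.recTopCoe with
  | top => rw [top_add]; exact WithTop.coe_lt_top a
  | coe b =>
    have h1 : (0 : ℚ) < b := by exact_mod_cast hb
    have h2 : a < b + a := by linarith
    exact_mod_cast h2

lemma s56r_nf_lt_add' {a b : ℚ} (hab : a < b) {c : WithTop ℚ} (hc : 0 ≤ c) :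
    (a : WithTop ℚ) < (b : WithTop ℚ) + c := by
  induction c using WithTop.recTopCoe with
  | top => rw [add_top]; exact WithTop.coe_lt_top a
  | coe c =>
    have h1 : (0 : ℚ) ≤ c := by exact_mod_cast hc
    have h2 : a < b + c := by linarith
    exact_mod_cast h2

/-- the value of a power of the uniformizer -/
lemma s56r_nf_val_pow {ϖ : Ω} {e : ℕ} (hvϖ : v ϖ = (((1 : ℚ) / (e : ℚ) : ℚ) : WithTop ℚ))
    (n : ℕ) : v (ϖ ^ n) = ((((n : ℚ) / (e : ℚ) : ℚ)) : WithTop ℚ) := by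
  rw [AddValuation.map_pow, hvϖ, ← WithTop.coe_nsmul, nsmul_eq_mul]
  congr 1
  ring

/-- **The descent**: `1 + x`, `0 < v x`, is a `p`-th power times an element of `1 + p O_E` or an
element `1 + x'` of depth `j/e`, `0 < j < e`, `p ∤ j`. -/
lemma s56r_nf_main (E : Subfield Ω) (p : ℕ) (hp : p.Prime) (hvp : v (p : Ω) = 1)
    (ϖ : Ω) (e : ℕ) (hϖ : ϖ ∈ E) (he : 0 < e)
    (hvϖ : v ϖ = (((1 : ℚ) / (e : ℚ) : ℚ) : WithTop ℚ))
    (hdisc : ∀ x ∈ E, x ≠ 0 → ∃ k : ℤ, v x = ((((k : ℚ) / (e : ℚ) : ℚ)) : WithTop ℚ))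
    (hperf : ∀ c ∈ E, v c = 0 → ∃ d ∈ E, 0 < v (d ^ p - c)) :
    ∀ (n : ℕ) (x : Ω), x ∈ E → 0 < v x → (((((e : ℚ) - n) / e : ℚ)) : WithTop ℚ) ≤ v x →
      ∃ z ∈ E, z ≠ 0 ∧ ((∃ w ∈ E, 0 ≤ v w ∧ 1 + x = z ^ p * (1 + (p : Ω) * w)) ∨
        (∃ x' ∈ E, ∃ j : ℕ, 0 < j ∧ j < e ∧ ¬ p ∣ j ∧
          v x' = ((((j : ℚ) / (e : ℚ) : ℚ)) : WithTop ℚ) ∧ 1 + x = z ^ p * (1 + x'))) := by
  have heQ : (0 : ℚ) < e := by exact_mod_cast he
  have hp0 : (p : Ω) ≠ 0 := by
    intro h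
    rw [h, AddValuation.map_zero] at hvp
    exact WithTop.top_ne_one hvp
  have hpE : (p : Ω) ∈ E := natCast_mem E p
  intro n
  induction n with
  | zero =>
    intro x hxE hx0 hx1
    refine ⟨1, one_mem E, one_ne_zero, Or.inl ⟨x / p, div_mem hxE hpE, ?_, ?_⟩⟩
    · by_cases hx : x = 0
      · rw [hx, zero_div, AddValuation.map_zero]; exact le_top
      · obtain ⟨q, hq⟩ := s56r_nf_exists_val v hx
        rw [AddValuation.map_div, hvp, hq]
        rw [hq] at hx1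
        have h1 : (((e : ℚ) - ((0 : ℕ) : ℚ)) / e : ℚ) = 1 := by
          rw [Nat.cast_zero, sub_zero, div_self heQ.ne']
        rw [h1] at hx1
        have h2 : (1 : ℚ) ≤ q := by exact_mod_cast hx1
        have h3 : (0 : ℚ) ≤ q - 1 := sub_nonneg.mpr h2
        have h4 : (0 : WithTop ℚ) ≤ ((q - 1 : ℚ) : WithTop ℚ) := by exact_mod_cast h3
        exact h4
    · rw [one_pow, one_mul, mul_div_cancel₀ _ hp0]
  | succ n ih =>
    intro x hxE hx0 hx1
    by_cases hx : x = 0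
    · refine ⟨1, one_mem E, one_ne_zero, Or.inl ⟨0, zero_mem E, ?_, ?_⟩⟩
      · rw [AddValuation.map_zero]; exact le_top
      · rw [hx]; ring
    obtain ⟨k, hk⟩ := hdisc x hxE hx
    have hk0 : 0 < k := by
      rw [hk] at hx0
      have h1 : (0 : ℚ) < (k : ℚ) / e := by exact_mod_cast hx0
      have h2 : (0 : ℚ) < k := by
        by_contra hcon
        rw [not_lt] at hcon
        exact absurd h1 (not_lt.mpr (div_nonpos_of_nonpos_of_nonneg hcon heQ.le))
      exact_mod_cast h2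
    have hk1 : (e : ℤ) - (n + 1) ≤ k := by
      rw [hk] at hx1
      have h1 : ((e : ℚ) - ((n + 1 : ℕ) : ℚ)) / e ≤ (k : ℚ) / e := by exact_mod_cast hx1
      have h2 : (e : ℚ) - ((n + 1 : ℕ) : ℚ) ≤ k := by
        rwa [div_le_div_iff_of_pos_right heQ] at h1
      have h3 : (((e : ℤ) - (n + 1) : ℤ) : ℚ) ≤ (k : ℚ) := by
        push_cast; push_cast at h2; linarith
      exact_mod_cast h3
    by_cases hk2 : (e : ℤ) - n ≤ k
    · refine ih x hxE hx0 ?_
      rw [hk]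
      have h1 : ((e : ℚ) - (n : ℚ)) / e ≤ (k : ℚ) / e := by
        rw [div_le_div_iff_of_pos_right heQ]
        have h2 : (((e : ℤ) - n : ℤ) : ℚ) ≤ (k : ℚ) := by exact_mod_cast hk2
        push_cast at h2; linarith
      exact_mod_cast h1
    rw [not_le] at hk2
    have hk3 : k = (e : ℤ) - (n + 1) := by omega
    obtain ⟨j, rfl⟩ : ∃ j : ℕ, k = (j : ℤ) := ⟨k.toNat, (Int.toNat_of_nonneg hk0.le).symm⟩
    have hj0 : 0 < j := by exact_mod_cast hk0
    have hje : j < e := by omega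
    have hk' : v x = ((((j : ℚ) / (e : ℚ) : ℚ)) : WithTop ℚ) := by
      rw [hk, Int.cast_natCast]
    by_cases hpj : p ∣ j
    swap
    · exact ⟨1, one_mem E, one_ne_zero,
        Or.inr ⟨x, hxE, j, hj0, hje, hpj, hk', by rw [one_pow, one_mul]⟩⟩
    obtain ⟨m, rfl⟩ := hpj
    have hm0 : 0 < m := Nat.pos_of_mul_pos_left hj0
    have hϖ0 : ϖ ≠ 0 := s56r_nf_ne_zero v hvϖ
    set c := x / ϖ ^ (p * m) with hc
    have hcE : c ∈ E := div_mem hxE (pow_mem hϖ _)
    have hvc : v c = 0 := by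
      rw [hc, AddValuation.map_div, hk', s56r_nf_val_pow v hvϖ]
      norm_cast
      simp
    obtain ⟨d, hdE, hd⟩ := hperf c hcE hvc
    have hvd : v d = 0 := s56r_nf_root_unit v hp.pos hvc hd
    set t := d * ϖ ^ m with ht
    have htE : t ∈ E := mul_mem hdE (pow_mem hϖ _)
    have hvt : v t = ((((m : ℚ) / (e : ℚ) : ℚ)) : WithTop ℚ) := by
      rw [ht, AddValuation.map_mul, hvd, zero_add, s56r_nf_val_pow v hvϖ]
    have hmQ : (0 : ℚ) < (m : ℚ) / e := div_pos (by exact_mod_cast hm0) heQ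
    have hvt0 : 0 < v t := by
      rw [hvt]
      exact_mod_cast hmQ
    obtain ⟨r, hrE, hr0, hr⟩ := s56r_nf_binom v E hp htE hvt0.le
    set s := 1 + t with hs
    have hsE : s ∈ E := add_mem (one_mem E) htE
    have hvs : v s = 0 := s56r_nf_one_add v hvt0
    have hs0 : s ≠ 0 := by
      intro h
      rw [h, AddValuation.map_zero] at hvs
      exact WithTop.top_ne_zero hvs
    have hvsp : v (s ^ p) = 0 := by rw [AddValuation.map_pow, hvs, smul_zero]
    have hdiff : (1 + x) - s ^ p = (c - d ^ p) * ϖ ^ (p * m) + -((p : Ω) * t * r) := by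
      have hx' : x = c * ϖ ^ (p * m) := by
        rw [hc, div_mul_cancel₀ _ (pow_ne_zero _ hϖ0)]
      rw [hr, hx', ht]
      ring
    have hlt : ((((((p * m : ℕ) : ℚ)) / (e : ℚ) : ℚ)) : WithTop ℚ) < v ((1 + x) - s ^ p) := by
      rw [hdiff]
      refine AddValuation.map_lt_add v ?_ ?_
      · rw [AddValuation.map_mul, s56r_nf_val_pow v hvϖ, AddValuation.map_sub_swap]
        exact s56r_nf_lt_add _ hd
      · rw [AddValuation.map_neg, AddValuation.map_mul, AddValuation.map_mul, hvp, hvt]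
        have h1 : (((p * m : ℕ) : ℚ)) / (e : ℚ) < 1 + (m : ℚ) / e := by
          rw [div_lt_iff₀ heQ, add_mul, div_mul_cancel₀ _ heQ.ne', one_mul]
          have h2 : ((p * m : ℕ) : ℚ) < (e : ℚ) := by exact_mod_cast hje
          have h3 : (0 : ℚ) < m := by exact_mod_cast hm0
          linarith
        have h4 := s56r_nf_lt_add' h1 hr0
        rw [WithTop.coe_add, WithTop.coe_one] at h4
        exact h4
    set x' := ((1 + x) - s ^ p) / s ^ p with hx'
    have hx'E : x' ∈ E :=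
      div_mem (sub_mem (add_mem (one_mem E) hxE) (pow_mem hsE p)) (pow_mem hsE p)
    have hvx' : v x' = v ((1 + x) - s ^ p) := by
      rw [hx', AddValuation.map_div, hvsp, sub_zero]
    have hx'0 : 0 < v x' := by
      rw [hvx']
      refine lt_of_le_of_lt ?_ hlt
      have h1 : (0 : ℚ) ≤ (((p * m : ℕ) : ℚ)) / (e : ℚ) := div_nonneg (Nat.cast_nonneg _) heQ.le
      exact_mod_cast h1
    have hx'1 : (((((e : ℚ) - n) / e : ℚ)) : WithTop ℚ) ≤ v x' := by
      by_cases hx'z : x' = 0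
      · rw [hx'z, AddValuation.map_zero]; exact le_top
      obtain ⟨k', hk'⟩ := hdisc x' hx'E hx'z
      rw [hvx'] at hk'
      rw [hvx', hk']
      rw [hk'] at hlt
      have h1 : (((p * m : ℕ) : ℚ)) / (e : ℚ) < (k' : ℚ) / e := by exact_mod_cast hlt
      rw [div_lt_div_iff_of_pos_right heQ] at h1
      have h2 : ((p * m : ℕ) : ℤ) < k' := by exact_mod_cast h1
      have h3 : (e : ℤ) - n ≤ k' := by omega
      have h4 : ((e : ℚ) - (n : ℚ)) / e ≤ (k' : ℚ) / e := by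
        rw [div_le_div_iff_of_pos_right heQ]
        have h5 : (((e : ℤ) - n : ℤ) : ℚ) ≤ (k' : ℚ) := by exact_mod_cast h3
        push_cast at h5; linarith
      exact_mod_cast h4
    have hsp0 : s ^ p ≠ 0 := pow_ne_zero _ hs0
    have hone : 1 + x = s ^ p * (1 + x') := by
      rw [hx']
      field_simp
      ring
    obtain ⟨z', hz'E, hz'0, hcase⟩ := ih x' hx'E hx'0 hx'1
    refine ⟨s * z', mul_mem hsE hz'E, mul_ne_zero hs0 hz'0, ?_⟩
    rcases hcase with ⟨w, hwE, hw0, hw⟩ | ⟨x'', hx''E, j, hj0', hje', hpj', hvx'', hx''⟩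
    · exact Or.inl ⟨w, hwE, hw0, by rw [hone, hw, mul_pow, mul_assoc]⟩
    · exact Or.inr ⟨x'', hx''E, j, hj0', hje', hpj', hvx'', by rw [hone, hx'', mul_pow, mul_assoc]⟩

end NF

/-- **Leaf (NF).** -/
theorem s56r_normalForm : s56r_IfaceNormalForm := by
  intro Ω _ v E p hp hvp ϖ e hϖE he hvϖ hdisc hperf y hyE hy0
  have heQ : (0 : ℚ) < e := by exact_mod_cast he
  obtain ⟨k, hk⟩ := hdisc y hyE hy0
  by_cases hpk : (p : ℤ) ∣ k
  swap
  · right; left
    exact ⟨1, one_mem E, one_ne_zero, k, hpk, by rw [one_pow, div_one]; exact hk⟩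
  obtain ⟨m, rfl⟩ := hpk
  have hϖ0 : ϖ ≠ 0 := s56r_nf_ne_zero v hvϖ
  have hvz : ∀ i : ℤ, v (ϖ ^ i) = ((((i : ℚ) / (e : ℚ) : ℚ)) : WithTop ℚ) := by
    intro i
    obtain ⟨n, rfl | rfl⟩ := i.eq_nat_or_neg
    · rw [zpow_natCast, s56r_nf_val_pow v hvϖ, Int.cast_natCast]
    · rw [zpow_neg, zpow_natCast, AddValuation.map_inv, s56r_nf_val_pow v hvϖ, Int.cast_neg,
        Int.cast_natCast, neg_div]
      rfl
  set z₀ := ϖ ^ m with hz₀
  have hz₀E : z₀ ∈ E := zpow_mem hϖE m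
  have hz₀0 : z₀ ≠ 0 := zpow_ne_zero m hϖ0
  set y₁ := y / z₀ ^ p with hy₁
  have hy₁E : y₁ ∈ E := div_mem hyE (pow_mem hz₀E p)
  have hvy₁ : v y₁ = 0 := by
    rw [hy₁, AddValuation.map_div, hk, AddValuation.map_pow, hvz, ← WithTop.coe_nsmul,
      nsmul_eq_mul, ← WithTop.LinearOrderedAddCommGroup.coe_sub]
    have : ((((p : ℤ) * m : ℤ) : ℚ)) / e - (p : ℚ) * ((m : ℚ) / e) = 0 := by
      push_cast; ring
    rw [this]
    rfl
  obtain ⟨d, hdE, hd⟩ := hperf y₁ hy₁E hvy₁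
  have hvd : v d = 0 := s56r_nf_root_unit v hp.pos hvy₁ hd
  have hd0 : d ≠ 0 := by
    intro h
    rw [h, AddValuation.map_zero] at hvd
    exact WithTop.top_ne_zero hvd
  set x₂ := (y₁ - d ^ p) / d ^ p with hx₂
  have hx₂E : x₂ ∈ E := div_mem (sub_mem hy₁E (pow_mem hdE p)) (pow_mem hdE p)
  have hvx₂ : 0 < v x₂ := by
    rw [hx₂, AddValuation.map_div, AddValuation.map_pow, hvd, smul_zero, sub_zero,
      AddValuation.map_sub_swap]
    exact hd
  have hbound : (((((e : ℚ) - (e : ℕ)) / e : ℚ)) : WithTop ℚ) ≤ v x₂ := by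
    rw [sub_self, zero_div]
    exact hvx₂.le
  obtain ⟨z, hzE, hz0, hcase⟩ :=
    s56r_nf_main v E p hp hvp ϖ e hϖE he hvϖ hdisc hperf e x₂ hx₂E hvx₂ hbound
  have hdp0 : d ^ p ≠ 0 := pow_ne_zero _ hd0
  have hzp0 : z₀ ^ p ≠ 0 := pow_ne_zero _ hz₀0
  have hy : y = (z₀ * d) ^ p * (1 + x₂) := by
    rw [hx₂, hy₁]
    field_simp
    ring
  rcases hcase with ⟨w, hwE, hw0, hw⟩ | ⟨x', hx'E, j, hj0, hje, hpj, hvx', hx'⟩
  · left
    exact ⟨z₀ * d * z, mul_mem (mul_mem hz₀E hdE) hzE, w, hwE, hw0, by rw [hy, hw]; ring⟩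
  · right; right
    exact ⟨z₀ * d * z, mul_mem (mul_mem hz₀E hdE) hzE,
      mul_ne_zero (mul_ne_zero hz₀0 hd0) hz0, x', hx'E, j, hj0, hje, hpj, hvx',
      by rw [hy, hx']; ring⟩

end Fermat.Agent.Lib.S56
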