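/-
PROGRAMME W (S56), wall [W8-F1], leaf (Θ) (helper8 for helper6, prefix `s56r_`):
a normalised trace-one element, `s56r_theta : s56r_IfaceTheta`.
-/
import Mathlib
import Fermat.Agent.Lib.S56.IfaceF1

set_option autoImplicit false

noncomputable section

namespace Fermat.Agent.Lib.S56

section Theta

lemma s56r_th_nsmul_eq_zero {N : ℕ} (hN : 0 < N) {a : WithTop ℚ} (h : N • a = 0) : a = 0 := by
  induction a using WithTop.recTopCoe with
  | top =>
    exfalso
    obtain ⟨M, rfl⟩ : ∃ M, N = M + 1 := ⟨N - 1, by omega⟩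
    rw [succ_nsmul, add_top] at h
    exact WithTop.top_ne_zero h
  | coe a =>
    rw [← WithTop.coe_nsmul] at h
    have h1 : N • a = 0 := WithTop.coe_eq_zero.mp h
    rw [nsmul_eq_mul] at h1
    have hN' : (N : ℚ) ≠ 0 := by exact_mod_cast hN.ne'
    rcases mul_eq_zero.mp h1 with h2 | h2
    · exact absurd h2 hN'
    · rw [h2]; rfl

variable {Ω : Type*} [Field Ω] (v : AddValuation Ω (WithTop ℚ))

/-- roots of unity have valuation zero -/
lemma s56r_th_val_root {N : ℕ} (hN : 0 < N) {w : Ω} (hw : w ^ N = 1) : v w = 0 := by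
  have h := congrArg v hw
  rw [AddValuation.map_pow, AddValuation.map_one] at h
  exact s56r_th_nsmul_eq_zero hN h

/-- `1 - ζ^a` is a unit for `0 < a < N` when `N` is a unit -/
lemma s56r_th_one_sub {N : ℕ} {ζ : Ω} (hζ : IsPrimitiveRoot ζ N) (hN : 0 < N)
    (hvN : v (N : Ω) = 0) {a : ℕ} (ha0 : 0 < a) (haN : a < N) : v (1 - ζ ^ a) = 0 := by
  obtain ⟨M, rfl⟩ : ∃ M, N = M + 1 := ⟨N - 1, by omega⟩
  have hprod := hζ.prod_one_sub_pow_eq_order
  have h1 : v (∏ k ∈ Finset.range M, (1 - ζ ^ (k + 1))) = 0 := by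
    rw [hprod]
    have : ((M : Ω) + 1) = ((M + 1 : ℕ) : Ω) := by push_cast; ring
    rw [this]; exact hvN
  rw [s56r_map_prod] at h1
  have hnn : ∀ k ∈ Finset.range M, 0 ≤ v (1 - ζ ^ (k + 1)) := by
    intro k _
    refine le_trans (le_min ?_ ?_) (AddValuation.map_sub v _ _)
    · rw [AddValuation.map_one]
    · rw [AddValuation.map_pow, s56r_th_val_root v hN hζ.pow_eq_one, smul_zero]
  have h2 := (Finset.sum_eq_zero_iff_of_nonneg hnn).mp h1
  obtain ⟨k, rfl⟩ : ∃ k, a = k + 1 := ⟨a - 1, by omega⟩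
  exact h2 k (Finset.mem_range.mpr (by omega))

/-- two `N`-th roots of unity which are congruent are equal -/
lemma s56r_th_root_eq {N : ℕ} {ζ : Ω} (hζ : IsPrimitiveRoot ζ N) (hN : 0 < N)
    (hvN : v (N : Ω) = 0) {w₁ w₂ : Ω} (h₁ : w₁ ^ N = 1) (h₂ : w₂ ^ N = 1)
    (h : 0 < v (w₁ - w₂)) : w₁ = w₂ := by
  have : NeZero N := ⟨hN.ne'⟩
  obtain ⟨i, hi, rfl⟩ := hζ.eq_pow_of_pow_eq_one h₁
  obtain ⟨j, hj, rfl⟩ := hζ.eq_pow_of_pow_eq_one h₂
  have key : ∀ i j : ℕ, i < j → j < N → v (ζ ^ i - ζ ^ j) = 0 := by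
    intro i j hij hj
    have h1 : ζ ^ i - ζ ^ j = ζ ^ i * (1 - ζ ^ (j - i)) := by
      rw [mul_sub, mul_one, ← pow_add]
      congr 2
      omega
    rw [h1, AddValuation.map_mul, AddValuation.map_pow, s56r_th_val_root v hN hζ.pow_eq_one,
      smul_zero, zero_add]
    exact s56r_th_one_sub v hζ hN hvN (by omega) (by omega)
  rcases lt_trichotomy i j with hij | hij | hij
  · rw [key i j hij hj] at h
    exact absurd h (lt_irrefl _)
  · rw [hij]
  · rw [AddValuation.map_sub_swap, key j i hij hi] at h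
    exact absurd h (lt_irrefl _)

omit v in
/-- orthogonality: `∑_{a<N} w^a = 0` for an `N`-th root of unity `w ≠ 1` -/
lemma s56r_th_geom {N : ℕ} {w : Ω} (hw : w ^ N = 1) (hw1 : w ≠ 1) :
    ∑ a ∈ Finset.range N, w ^ a = 0 := by
  have h := geom_sum_mul w N
  rw [hw, sub_self] at h
  exact (mul_eq_zero.mp h).resolve_right (sub_ne_zero.mpr hw1)

omit v in
/-- the Fourier coefficient of `T = ∑_{k<n} X^{q^k}` at its leading exponent -/
lemma s56r_th_fourier {N q n : ℕ} {ζ : Ω} (hζ : IsPrimitiveRoot ζ N) (hq : 2 ≤ q) (hn : 0 < n)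
    (hN : N + 1 = q ^ n) :
    ∑ a ∈ Finset.range N, (∑ k ∈ Finset.range n, ζ ^ (a * q ^ k)) *
      ζ ^ (a * (N - q ^ (n - 1))) = (N : Ω) := by
  have hD : q ^ (n - 1) ≤ N := by
    have h1 : q ^ n = q * q ^ (n - 1) := by
      rw [← pow_succ']
      congr 1
      omega
    have h2 : 0 < q ^ (n - 1) := by positivity
    nlinarith
  simp_rw [Finset.sum_mul]
  rw [Finset.sum_comm]
  rw [Finset.sum_eq_single (n - 1)]
  · have h1 : ∀ a, ζ ^ (a * q ^ (n - 1)) * ζ ^ (a * (N - q ^ (n - 1))) = 1 := by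
      intro a
      rw [← pow_add, ← mul_add, Nat.add_sub_cancel' hD, mul_comm, pow_mul, hζ.pow_eq_one, one_pow]
    simp [h1]
  · intro k hk hkn
    have hk' : k < n - 1 := by
      rw [Finset.mem_range] at hk
      omega
    have hlt : q ^ k < q ^ (n - 1) := Nat.pow_lt_pow_right (by omega) hk'
    have h1 : ∀ a, ζ ^ (a * q ^ k) * ζ ^ (a * (N - q ^ (n - 1))) =
        (ζ ^ (q ^ k + (N - q ^ (n - 1)))) ^ a := by
      intro a
      rw [← pow_add, ← mul_add, mul_comm, pow_mul]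
    simp_rw [h1]
    apply s56r_th_geom
    · rw [← pow_mul, mul_comm, pow_mul, hζ.pow_eq_one, one_pow]
    · intro h2
      have h3 := (hζ.pow_eq_one_iff_dvd _).mp h2
      have hpos : 0 < q ^ k + (N - q ^ (n - 1)) := by
        have : 0 < q ^ k := by positivity
        omega
      have h4 := Nat.le_of_dvd hpos h3
      omega
  · intro h
    exact absurd (Finset.mem_range.mpr (by omega)) h

end Theta

/-- **Leaf (Θ).** -/
theorem s56r_theta : s56r_IfaceTheta := by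
  intro Ω _ _ _ v g p r hp hr hvp hg hfrob n hn
  set q := p ^ r with hq
  have hq2 : 2 ≤ q := by
    calc 2 ≤ p := hp.two_le
      _ = p ^ 1 := (pow_one p).symm
      _ ≤ p ^ r := Nat.pow_le_pow_right hp.pos hr
  have hqn : 2 ≤ q ^ n := by
    calc 2 ≤ q := hq2
      _ = q ^ 1 := (pow_one q).symm
      _ ≤ q ^ n := Nat.pow_le_pow_right (by omega) hn
  obtain ⟨N, hN⟩ : ∃ N, N + 1 = q ^ n := ⟨q ^ n - 1, by omega⟩
  have hNpos : 0 < N := by omega
  have hvq : 0 < v ((q ^ n : ℕ) : Ω) := by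
    have h1 : ((q ^ n : ℕ) : Ω) = (p : Ω) ^ (r * n) := by
      rw [hq]; push_cast; rw [pow_mul]
    rw [h1, AddValuation.map_pow]
    obtain ⟨m, hm⟩ : ∃ m, r * n = m + 1 := ⟨r * n - 1, by have := Nat.mul_pos hr hn; omega⟩
    rw [hm, succ_nsmul]
    exact lt_of_lt_of_le hvp (le_add_of_nonneg_left (nsmul_nonneg hvp.le m))
  have hvN : v (N : Ω) = 0 := by
    have h1 : (N : Ω) = ((q ^ n : ℕ) : Ω) - 1 := by
      rw [← hN]; push_cast; ring
    rw [h1, AddValuation.map_sub_swap]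
    have h2 : v (1 : Ω) < v ((q ^ n : ℕ) : Ω) := by rw [AddValuation.map_one]; exact hvq
    rw [AddValuation.map_sub_eq_of_lt_left v h2, AddValuation.map_one]
  have : NeZero (N : Ω) := ⟨by exact_mod_cast hNpos.ne'⟩
  obtain ⟨ζ, hζ⟩ := HasEnoughRootsOfUnity.exists_primitiveRoot Ω N
  have hvζ : ∀ a : ℕ, v (ζ ^ a) = 0 := fun a => by
    rw [AddValuation.map_pow, s56r_th_val_root v hNpos hζ.pow_eq_one, smul_zero]
  have hgζ : g ζ = ζ ^ q := by
    refine s56r_th_root_eq v hζ hNpos hvN ?_ ?_ ?_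
    · rw [← map_pow, hζ.pow_eq_one, map_one]
    · rw [← pow_mul, mul_comm, pow_mul, hζ.pow_eq_one, one_pow]
    · exact hfrob ζ (by rw [s56r_th_val_root v hNpos hζ.pow_eq_one])
  have hζqn : ζ ^ (q ^ n) = ζ := by rw [← hN, pow_succ, hζ.pow_eq_one, one_mul]
  have hiter : ∀ (k a : ℕ), g^[k] (ζ ^ a) = ζ ^ (a * q ^ k) := by
    intro k
    induction k with
    | zero => intro a; simp
    | succ k ih =>
      intro a
      rw [Function.iterate_succ_apply', ih, map_pow, hgζ, ← pow_mul, pow_succ]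
      congr 1
      ring
  have hu_int : ∀ a, 0 ≤ v (∑ k ∈ Finset.range n, ζ ^ (a * q ^ k)) := fun a =>
    AddValuation.map_le_sum v fun k _ => (hvζ _).ge
  have hgu : ∀ a, g (∑ k ∈ Finset.range n, ζ ^ (a * q ^ k)) =
      ∑ k ∈ Finset.range n, ζ ^ (a * q ^ k) := by
    intro a
    rw [map_sum]
    have h1 : ∀ k, g (ζ ^ (a * q ^ k)) = ζ ^ (a * q ^ (k + 1)) := by
      intro k
      rw [map_pow, hgζ, ← pow_mul, pow_succ]
      congr 1
      ring
    simp_rw [h1]
    obtain ⟨n', rfl⟩ : ∃ n', n = n' + 1 := ⟨n - 1, by omega⟩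
    rw [Finset.sum_range_succ (fun k => ζ ^ (a * q ^ (k + 1))) n',
      Finset.sum_range_succ' (fun k => ζ ^ (a * q ^ k)) n']
    congr 1
    rw [pow_zero, mul_one, mul_comm, pow_mul, hζqn]
  obtain ⟨a, ha⟩ : ∃ a, v (∑ k ∈ Finset.range n, ζ ^ (a * q ^ k)) = 0 := by
    by_contra hcon
    have hpos : ∀ a, 0 < v (∑ k ∈ Finset.range n, ζ ^ (a * q ^ k)) := fun a =>
      lt_of_le_of_ne (hu_int a) (fun h => hcon ⟨a, h.symm⟩)
    have hF := s56r_th_fourier (Ω := Ω) hζ hq2 hn hN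
    have hlt : 0 < v (∑ a ∈ Finset.range N, (∑ k ∈ Finset.range n, ζ ^ (a * q ^ k)) *
        ζ ^ (a * (N - q ^ (n - 1)))) := by
      refine AddValuation.map_lt_sum' v (WithTop.coe_lt_top (0 : ℚ)) fun a _ => ?_
      rw [AddValuation.map_mul, hvζ, add_zero]
      exact hpos a
    rw [hF, hvN] at hlt
    exact lt_irrefl _ hlt
  set u : Ω := ∑ k ∈ Finset.range n, ζ ^ (a * q ^ k) with hu
  have hua0 : u ≠ 0 := by
    intro h
    rw [h, AddValuation.map_zero] at ha
    exact WithTop.top_ne_zero ha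
  have hiter_u : ∀ k, g^[k] u = u := fun k => Function.iterate_fixed (hgu a) k
  have hiter_div : ∀ (k : ℕ) (x y : Ω), g^[k] (x / y) = g^[k] x / g^[k] y := by
    intro k
    induction k with
    | zero => intro x y; rfl
    | succ k ih =>
      intro x y
      rw [Function.iterate_succ_apply', ih, map_div₀, ← Function.iterate_succ_apply' g,
        ← Function.iterate_succ_apply' g]
  have hθk : ∀ k, g^[k] (ζ ^ a / u) = ζ ^ (a * q ^ k) / u := by
    intro k
    rw [hiter_div, hiter, hiter_u]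
  refine ⟨ζ ^ a / u, ?_, ?_, ?_⟩
  · rw [AddValuation.map_div, hvζ, ha, sub_zero]
  · rw [hθk, mul_comm, pow_mul, hζqn]
  · simp_rw [hθk]
    rw [← Finset.sum_div]
    exact div_self hua0

end Fermat.Agent.Lib.S56
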