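/-
PROGRAMME W (S56), wall [W8-F1] (helper6, prefix `s56r_`): **[W8-F1] assembled.**
Leaves (NF) `RNormalForm.lean`, (HL) `RHerbrand.lean`, (Θ) `RTheta.lean` are helper8's.
-/
import Mathlib
import Fermat.Agent.Lib.S56.RGlue
import Fermat.Agent.Lib.S56.RNormalForm
import Fermat.Agent.Lib.S56.RHerbrand
import Fermat.Agent.Lib.S56.RTheta

set_option autoImplicit false

noncomputable section

namespace Fermat.Agent.Lib.S56

open Polynomial Fermat.Agent.Lib.Frey

local notation "Q̄" => AlgebraicClosure ℚ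

/-- the export, modulo (Θ) -/
theorem s56r_kummer_of_theta (hΘ : s56r_IfaceTheta) : s56r_IfaceKummer :=
  s56r_kummer hΘ s56r_herbrandLite s56r_normalForm

/-- the arithmetic input of [W8-F3], modulo (Θ) -/
theorem s56r_kb_of_theta (hΘ : s56r_IfaceTheta) (p : ℕ) (hp : p.Prime)
    (P : ValuationSubring Q̄) (hP : (p : Q̄) ∈ P.nonunits) :
    s56f_KB p P (fun L => FiniteDimensional ℚ ↥L ∧ Normal ℚ ↥L ∧
      ∀ m : ℚ, (p : ℚ) / ((p : ℚ) - 1) < m → s56r_Pm p hp P hP L m) :=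
  s56r_kb_of_leaves hΘ s56r_herbrandLite s56r_normalForm p hp P hP

/-- **[W8-F1] the export `s56r_IfaceKummer`, unconditionally.** -/
theorem s56r_ifaceKummer : s56r_IfaceKummer := s56r_kummer_of_theta s56r_theta

/-- **[W8-F1] the arithmetic input `s56f_KB` of [W8-F3], unconditionally**, for
`Good L := L/ℚ finite normal ∧ ∀ m > p/(p-1), (P_m)(L)`. -/
theorem s56r_kb (p : ℕ) (hp : p.Prime) (P : ValuationSubring Q̄) (hP : (p : Q̄) ∈ P.nonunits) :
    s56f_KB p P (fun L => FiniteDimensional ℚ ↥L ∧ Normal ℚ ↥L ∧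
      ∀ m : ℚ, (p : ℚ) / ((p : ℚ) - 1) < m → s56r_Pm p hp P hP L m) :=
  s56r_kb_of_theta s56r_theta p hp P hP

end Fermat.Agent.Lib.S56
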