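/-
Programme W (S56), wall [W8-F3] §B (helper5, prefix `s56o_`; the contracts are helper3's `s56f_Iface…`
of `IfaceF3.lean`): **the local dictionary for `E = ℚ̄^{V₁}`**.

* `s56f_ifaceRedInj`  : reduction mod `𝔪_P` is injective on roots of unity of order prime to `p`;
* `s56f_ifaceResFin`  : the residue field of `P` is algebraic over `𝔽_p`;
* `s56f_ifaceLambda`  : `v (ζ - 1) = 1/(p-1)`, `p/(ζ-1)^(p-1) ≡ -1`;
* `s56f_ifaceOmega`   : `ω = ξ^(p+1)` on inertia;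
* `s56f_ifaceTameGen` : tame inertia is cyclic, generator `τ`, `τ π₁ = ξ π₁`, `ξ` of exact order `p² - 1`;
* `s56f_ifaceValGroup`: `v(E^×) ⊆ (1/(p²-1)) ℤ`.
-/
import Fermat.Agent.Lib.S56.IfaceF3
import Fermat.Agent.Lib.S56.FArith
import Fermat.Agent.Lib.S18.XPerfect
import Fermat.Agent.Lib.Frey.OrdInertia

set_option autoImplicit false
set_option linter.style.haveILetI false

noncomputable section

namespace Fermat.Agent.Lib.S56

open Fermat.Agent.Lib.Frey Fermat.Agent.Lib.S18 Fermat.Agent.Lib.Mz Fermat.Agent.Lib.CFT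

local notation "Qbar" => AlgebraicClosure ℚ
local notation "GQ" => (AlgebraicClosure ℚ ≃ₐ[ℚ] AlgebraicClosure ℚ)

/-! ### (RedInj) -/

/-- `ξ ∈ P`, `ξ - 1 ∈ 𝔪_P` ⇒ `ξ ^ i - 1 ∈ 𝔪_P`. -/
theorem s56o_pow_sub_one_mem (P : ValuationSubring Qbar) (ξ : Qbar) (h : ξ - 1 ∈ P.nonunits)
    (i : ℕ) : P.valuation (ξ ^ i - 1) < 1 := by
  have hξ : ξ ∈ P := by
    have : ξ = (ξ - 1) + 1 := by ring
    rw [this]
    exact P.add_mem _ _ (P.nonunits_le h) P.one_mem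
  have h1 : ξ ^ i - 1 = (∑ j ∈ Finset.range i, ξ ^ j) * (ξ - 1) := (geom_sum_mul ξ i).symm
  rw [h1, map_mul]
  have h2 : P.valuation (∑ j ∈ Finset.range i, ξ ^ j) ≤ 1 :=
    (P.valuation_le_one_iff _).mpr (P.toSubring.sum_mem fun j _ => P.toSubring.pow_mem hξ j)
  exact mul_lt_one_of_nonneg_of_lt_one_right h2 zero_le (P.mem_nonunits_iff.mp h)

theorem s56f_ifaceRedInj : s56f_IfaceRedInj := by
  intro p hp P hP ξ m hpm hξm hξ1
  by_contra hne
  have hsub : ξ - 1 ≠ 0 := sub_ne_zero.mpr hne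
  have hsum : ∑ j ∈ Finset.range m, ξ ^ j = 0 := by
    have := geom_sum_mul ξ m
    rw [hξm, sub_self] at this
    exact (mul_eq_zero.mp this).resolve_right hsub
  have h2 : P.valuation (∑ j ∈ Finset.range m, (ξ ^ j - 1)) < 1 :=
    Valuation.map_sum_lt _ one_ne_zero fun j _ => s56o_pow_sub_one_mem P ξ hξ1 j
  rw [Finset.sum_sub_distrib, hsum, zero_sub, Finset.sum_const, Finset.card_range, nsmul_eq_mul,
    mul_one, Valuation.map_neg, ← P.mem_nonunits_iff] at h2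
  have h3 : ((m : ℤ) : Qbar) ∈ P.nonunits := by exact_mod_cast h2
  have h4 := (ptm_intCast_mem_nonunits_iff hp P hP (m : ℤ)).mp h3
  exact hpm (by exact_mod_cast h4)

/-! ### (ResFin) -/

/-- an algebraic element of an `𝔽_p`-field is fixed by a power of Frobenius. -/
theorem s56o_pow_card_of_isAlgebraic {p : ℕ} [Fact p.Prime] {κ : Type*} [Field κ]
    [Algebra (ZMod p) κ] (z : κ) (hz : IsAlgebraic (ZMod p) z) :
    ∃ N : ℕ, 0 < N ∧ z ^ (p ^ N) = z := by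
  haveI : FiniteDimensional (ZMod p) (IntermediateField.adjoin (ZMod p) {z}) :=
    IntermediateField.adjoin.finiteDimensional hz.isIntegral
  haveI : Finite (IntermediateField.adjoin (ZMod p) {z}) := Module.finite_of_finite (ZMod p)
  haveI : Fintype (IntermediateField.adjoin (ZMod p) {z}) := Fintype.ofFinite _
  haveI : CharP (IntermediateField.adjoin (ZMod p) {z}) p :=
    charP_of_injective_algebraMap (algebraMap (ZMod p) _).injective p
  obtain ⟨n, -, hcard⟩ := FiniteField.card (IntermediateField.adjoin (ZMod p) {z}) p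
  have h := FiniteField.pow_card
    (⟨z, IntermediateField.mem_adjoin_simple_self _ z⟩ : IntermediateField.adjoin (ZMod p) {z})
  rw [hcard] at h
  refine ⟨n, n.pos, ?_⟩
  have := congrArg (fun t : IntermediateField.adjoin (ZMod p) {z} => (t : κ)) h
  simpa using this

theorem s56f_ifaceResFin : s56f_IfaceResFin := by
  intro p hp P hP c hc
  haveI : Fact p.Prime := ⟨hp⟩
  haveI : CharP (IsLocalRing.ResidueField P) p := s18x_charP_residueField P hp hP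
  letI : Algebra (ZMod p) (IsLocalRing.ResidueField P) := ZMod.algebra _ p
  obtain ⟨N, hN, h⟩ := s56o_pow_card_of_isAlgebraic (p := p)
    (IsLocalRing.residue P ⟨c, hc⟩) (s18x_residue_isAlgebraic P _)
  refine ⟨N, hN, ?_⟩
  have h1 : IsLocalRing.residue P (⟨c, hc⟩ ^ (p ^ N) - ⟨c, hc⟩) = 0 := by
    rw [map_sub, map_pow, h, sub_self]
  rw [IsLocalRing.residue_eq_zero_iff, ← ValuationSubring.coe_mem_nonunits_iff] at h1
  exact h1

/-! ### the rational valuation `ord` -/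

section ord

variable {p : ℕ} (hp : p.Prime) (P : ValuationSubring Qbar) (hP : P.LiesOverPrime p)

/-- the rational valuation of a non-zero element (`0` at `0`). -/
def s56o_ord (x : Qbar) : ℚ := (ford_vQ P hp hP x).untopD 0

theorem s56o_v_eq {x : Qbar} (hx : x ≠ 0) :
    ford_vQ P hp hP x = ((s56o_ord hp P hP x : ℚ) : WithTop ℚ) := by
  have h : ford_vQ P hp hP x ≠ ⊤ := fun h => hx ((AddValuation.top_iff _).mp h)
  obtain ⟨q, hq⟩ := WithTop.ne_top_iff_exists.mp h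
  rw [s56o_ord, ← hq]
  rfl

theorem s56o_ord_mul {x y : Qbar} (hx : x ≠ 0) (hy : y ≠ 0) :
    s56o_ord hp P hP (x * y) = s56o_ord hp P hP x + s56o_ord hp P hP y := by
  have h := (ford_vQ P hp hP).map_mul x y
  rw [s56o_v_eq hp P hP hx, s56o_v_eq hp P hP hy, s56o_v_eq hp P hP (mul_ne_zero hx hy),
    ← WithTop.coe_add, WithTop.coe_eq_coe] at h
  exact h

theorem s56o_ord_one : s56o_ord hp P hP 1 = 0 := by
  have h := (ford_vQ P hp hP).map_one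
  rw [s56o_v_eq hp P hP one_ne_zero, ← WithTop.coe_zero, WithTop.coe_eq_coe] at h
  exact h

theorem s56o_ord_pow {x : Qbar} (hx : x ≠ 0) (n : ℕ) :
    s56o_ord hp P hP (x ^ n) = n * s56o_ord hp P hP x := by
  induction n with
  | zero => simp [s56o_ord_one]
  | succ n ih =>
    rw [pow_succ, s56o_ord_mul hp P hP (pow_ne_zero n hx) hx, ih]
    push_cast
    ring

theorem s56o_ord_inv {x : Qbar} (hx : x ≠ 0) :
    s56o_ord hp P hP x⁻¹ = - s56o_ord hp P hP x := by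
  have h := s56o_ord_mul hp P hP hx (inv_ne_zero hx)
  rw [mul_inv_cancel₀ hx, s56o_ord_one] at h
  linarith

theorem s56o_ord_div {x y : Qbar} (hx : x ≠ 0) (hy : y ≠ 0) :
    s56o_ord hp P hP (x / y) = s56o_ord hp P hP x - s56o_ord hp P hP y := by
  rw [div_eq_mul_inv, s56o_ord_mul hp P hP hx (inv_ne_zero hy), s56o_ord_inv hp P hP hy]
  ring

theorem s56o_ord_neg (x : Qbar) : s56o_ord hp P hP (-x) = s56o_ord hp P hP x := by
  rw [s56o_ord, s56o_ord, AddValuation.map_neg]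

theorem s56o_ord_p : s56o_ord hp P hP (p : Qbar) = 1 := by
  have h := ford_vQ_q hp hP
  rw [s56o_v_eq hp P hP (s56o_p_ne_zero hp), ← WithTop.coe_one, WithTop.coe_eq_coe] at h
  exact h

theorem s56o_ord_nonneg_iff {x : Qbar} (hx : x ≠ 0) : 0 ≤ s56o_ord hp P hP x ↔ x ∈ P := by
  rw [← ford_vQ_nonneg_iff hp hP, s56o_v_eq hp P hP hx, ← WithTop.coe_zero, WithTop.coe_le_coe]

theorem s56o_ord_pos_iff {x : Qbar} (hx : x ≠ 0) :
    0 < s56o_ord hp P hP x ↔ x ∈ P.nonunits := by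
  rw [← ford_vQ_pos_iff hp hP, s56o_v_eq hp P hP hx, ← WithTop.coe_zero, WithTop.coe_lt_coe]

theorem s56o_ord_eq_zero_iff {x : Qbar} (hx : x ≠ 0) :
    s56o_ord hp P hP x = 0 ↔ P.valuation x = 1 := by
  rw [← map_one P.valuation, ← ford_vQ_eq_iff hp hP, s56o_v_eq hp P hP hx,
    s56o_v_eq hp P hP one_ne_zero, WithTop.coe_eq_coe, s56o_ord_one]

theorem s56o_ord_le_iff {x y : Qbar} (hx : x ≠ 0) (hy : y ≠ 0) :
    s56o_ord hp P hP x ≤ s56o_ord hp P hP y ↔ P.valuation y ≤ P.valuation x := by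
  rw [← ford_vQ_le_iff hp hP, s56o_v_eq hp P hP hx, s56o_v_eq hp P hP hy, WithTop.coe_le_coe]

theorem s56o_ord_add_ge {x y : Qbar} (hx : x ≠ 0) (hy : y ≠ 0) (hxy : x + y ≠ 0) :
    min (s56o_ord hp P hP x) (s56o_ord hp P hP y) ≤ s56o_ord hp P hP (x + y) := by
  have h := (ford_vQ P hp hP).map_add x y
  rw [s56o_v_eq hp P hP hx, s56o_v_eq hp P hP hy, s56o_v_eq hp P hP hxy, ← WithTop.coe_min,
    WithTop.coe_le_coe] at h
  exact h

theorem s56o_ord_decomp (σ : GQ) (hσ : σ ∈ P.decompositionSubgroup ℚ) (x : Qbar) :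
    s56o_ord hp P hP (σ x) = s56o_ord hp P hP x := by
  rw [s56o_ord, s56o_ord, ford_vQ_decomposition hp hP σ hσ]

end ord

/-- `(x + 1)^p = 1 + x^p + p x (1 + x w)`. -/
theorem s56o_add_one_pow_prime {R : Type*} [CommRing R] {p : ℕ} (hp : p.Prime) (x : R) :
    ∃ w : R, (x + 1) ^ p = 1 + x ^ p + p * x * (1 + x * w) := by
  obtain ⟨q, rfl⟩ : ∃ q, p = q + 2 := ⟨p - 2, by have := hp.two_le; omega⟩
  have hdvd : ∀ m ∈ Finset.range q, (q + 2) ∣ (q + 2).choose (m + 2) := fun m hm =>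
    hp.dvd_choose_self (by omega) (by have := Finset.mem_range.mp hm; omega)
  refine ⟨∑ m ∈ Finset.range q, x ^ m * (((q + 2).choose (m + 2) / (q + 2) : ℕ) : R), ?_⟩
  rw [add_pow, Finset.sum_range_succ, Finset.sum_range_succ', Finset.sum_range_succ']
  simp only [one_pow, mul_one, Nat.choose_self, Nat.cast_one, pow_zero, Nat.choose_zero_right,
    zero_add, pow_one, Nat.choose_one_right]
  have h : ∑ m ∈ Finset.range q, x ^ (m + 1 + 1) * ((q + 2).choose (m + 1 + 1) : R) =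
      ((q + 2 : ℕ) : R) * x * (x * ∑ m ∈ Finset.range q,
        x ^ m * (((q + 2).choose (m + 2) / (q + 2) : ℕ) : R)) := by
    rw [Finset.mul_sum, Finset.mul_sum]
    refine Finset.sum_congr rfl fun m hm => ?_
    obtain ⟨c, hc⟩ := hdvd m hm
    rw [show m + 1 + 1 = m + 2 from rfl, hc, Nat.mul_div_cancel_left _ (by omega : 0 < q + 2)]
    push_cast
    ring
  rw [h]
  push_cast
  ring

/-- a root of unity lies in `P`, with valuation `1`. -/
theorem s56o_val_root_of_unity (P : ValuationSubring Qbar) {ζ : Qbar} {n : ℕ} (hn : n ≠ 0)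
    (h : ζ ^ n = 1) : P.valuation ζ = 1 := by
  have h1 : P.valuation ζ ^ n = 1 := by rw [← map_pow, h, map_one]
  exact (pow_eq_one_iff_of_nonneg zero_le hn).mp h1

section lam

variable {p : ℕ} (hp : p.Prime) (P : ValuationSubring Qbar) (hP : P.LiesOverPrime p)
include hp hP

/-- the structure of `λ = ζ - 1`: `λ^(p-1) = -p u`, `u = 1 + λ w`, `w ∈ P`, `λ ∈ 𝔪_P`. -/
theorem s56o_lambda_struct (ζ : Qbar) (hζ : ζ ^ p = 1) (hζ1 : ζ ≠ 1) :
    ∃ w ∈ P, (ζ - 1) ^ (p - 1) = -(p : Qbar) * (1 + (ζ - 1) * w) ∧ ζ - 1 ∈ P.nonunits ∧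
      P.valuation (1 + (ζ - 1) * w) = 1 ∧
      s56o_ord hp P hP (ζ - 1) = 1 / ((p : ℚ) - 1) := by
  have hl0 : ζ - 1 ≠ 0 := sub_ne_zero.mpr hζ1
  have hζP : ζ ∈ P := (P.valuation_le_one_iff _).mp (s56o_val_root_of_unity P hp.ne_zero hζ).le
  have hlP : ζ - 1 ∈ P := P.toSubring.sub_mem hζP P.one_mem
  obtain ⟨w, hw⟩ := s56o_add_one_pow_prime (R := ↥P) hp ⟨ζ - 1, hlP⟩
  have hw' : ((ζ - 1) + 1) ^ p = 1 + (ζ - 1) ^ p + (p : Qbar) * (ζ - 1) * (1 + (ζ - 1) * (w : Qbar)) := by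
    have := congrArg (fun t : ↥P => (t : Qbar)) hw
    simpa using this
  rw [sub_add_cancel, hζ] at hw'
  have hpp : (ζ - 1) ^ p = (ζ - 1) * (ζ - 1) ^ (p - 1) := by
    rw [← pow_succ', Nat.sub_add_cancel hp.one_le]
  have hmain : (ζ - 1) ^ (p - 1) = -(p : Qbar) * (1 + (ζ - 1) * (w : Qbar)) := by
    have h0 : (ζ - 1) * ((ζ - 1) ^ (p - 1) + (p : Qbar) * (1 + (ζ - 1) * (w : Qbar))) = 0 := by
      rw [mul_add, ← hpp]
      linear_combination -hw'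
    have h1 := (mul_eq_zero.mp h0).resolve_left hl0
    linear_combination h1
  set u : Qbar := 1 + (ζ - 1) * (w : Qbar) with hu
  have hu0 : u ≠ 0 := by
    intro h
    rw [h, mul_zero] at hmain
    exact pow_ne_zero _ hl0 hmain
  have huP : u ∈ P := P.add_mem _ _ P.one_mem (P.mul_mem _ _ hlP w.2)
  have hp0 := s56o_p_ne_zero hp
  have hp1 : (0 : ℚ) < (p : ℚ) - 1 := by
    have : (1 : ℚ) < p := by exact_mod_cast hp.one_lt
    linarith
  have hcast : ((p - 1 : ℕ) : ℚ) = (p : ℚ) - 1 := by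
    rw [Nat.cast_sub hp.one_le, Nat.cast_one]
  -- `(p-1) ord λ = 1 + ord u`
  have hord : ((p : ℚ) - 1) * s56o_ord hp P hP (ζ - 1) = 1 + s56o_ord hp P hP u := by
    have := congrArg (s56o_ord hp P hP) hmain
    rw [s56o_ord_pow hp P hP hl0, neg_mul, s56o_ord_neg, s56o_ord_mul hp P hP hp0 hu0,
      s56o_ord_p, hcast] at this
    exact this
  have hupos : 0 ≤ s56o_ord hp P hP u := (s56o_ord_nonneg_iff hp P hP hu0).mpr huP
  have hlpos : 0 < s56o_ord hp P hP (ζ - 1) := by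
    by_contra hneg
    push Not at hneg
    have : ((p : ℚ) - 1) * s56o_ord hp P hP (ζ - 1) ≤ 0 :=
      mul_nonpos_of_nonneg_of_nonpos hp1.le hneg
    linarith
  have hlnu : ζ - 1 ∈ P.nonunits := (s56o_ord_pos_iff hp P hP hl0).mp hlpos
  have huval : P.valuation u = 1 := by
    rw [hu]
    apply Valuation.map_one_add_of_lt
    rw [map_mul]
    exact mul_lt_one_of_nonneg_of_lt_one_left zero_le (P.mem_nonunits_iff.mp hlnu)
      ((P.valuation_le_one_iff _).mpr w.2)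
  have hu_ord : s56o_ord hp P hP u = 0 := (s56o_ord_eq_zero_iff hp P hP hu0).mpr huval
  refine ⟨w, w.2, hmain, hlnu, huval, ?_⟩
  rw [hu_ord, add_zero] at hord
  field_simp
  linarith

end lam

theorem s56f_ifaceLambda : s56f_IfaceLambda := by
  intro p hp P hP ζ hζ hζ1
  obtain ⟨w, hwP, hmain, hlnu, huval, hord⟩ := s56o_lambda_struct hp P hP ζ hζ hζ1
  have hl0 : ζ - 1 ≠ 0 := sub_ne_zero.mpr hζ1
  refine ⟨?_, ?_⟩
  · rw [s56o_v_eq hp P hP hl0, hord]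
  · have hp0 := s56o_p_ne_zero hp
    have hu0 : 1 + (ζ - 1) * w ≠ 0 := by
      intro h
      rw [h, map_zero] at huval
      exact zero_ne_one huval
    have h1 : (p : Qbar) / (ζ - 1) ^ (p - 1) + 1 = (ζ - 1) * w / (1 + (ζ - 1) * w) := by
      rw [hmain]
      field_simp
      ring
    rw [h1, P.mem_nonunits_iff, map_div₀, huval, div_one, map_mul]
    exact mul_lt_one_of_nonneg_of_lt_one_left zero_le (P.mem_nonunits_iff.mp hlnu)
      ((P.valuation_le_one_iff _).mpr hwP)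

/-! ### `π₁` -/

theorem s56o_e1_pos {p : ℕ} (hp : p.Prime) : 0 < p ^ 2 - 1 := by
  have := hp.two_le
  have : 2 ^ 2 ≤ p ^ 2 := Nat.pow_le_pow_left this 2
  omega

theorem s56o_e1_cast {p : ℕ} (hp : p.Prime) : ((p ^ 2 - 1 : ℕ) : ℚ) = (p : ℚ) ^ 2 - 1 := by
  rw [Nat.cast_sub (Nat.one_le_pow _ _ hp.pos), Nat.cast_pow, Nat.cast_one]

theorem s56o_pi1_ne_zero {p : ℕ} (hp : p.Prime) {π₁ : Qbar} (hπ : π₁ ^ (p ^ 2 - 1) = -(p : Qbar)) :
    π₁ ≠ 0 := by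
  intro h
  rw [h, zero_pow (s56o_e1_pos hp).ne'] at hπ
  exact s56o_p_ne_zero hp (neg_eq_zero.mp hπ.symm)

/-- `σ π₁ = ξ π₁ ⇒ ξ ^ (p² - 1) = 1`. -/
theorem s56o_xi_pow {p : ℕ} (hp : p.Prime) {π₁ : Qbar} (hπ : π₁ ^ (p ^ 2 - 1) = -(p : Qbar))
    (σ : GQ) {ξ : Qbar} (h : σ π₁ = ξ * π₁) : ξ ^ (p ^ 2 - 1) = 1 := by
  have h1 : (σ π₁) ^ (p ^ 2 - 1) = -(p : Qbar) := by
    rw [← map_pow, hπ, map_neg, map_natCast]
  rw [h, mul_pow, hπ] at h1
  have hp0 : -(p : Qbar) ≠ 0 := neg_ne_zero.mpr (s56o_p_ne_zero hp)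
  exact mul_right_cancel₀ hp0 (by rw [h1, one_mul])

section pi1

variable {p : ℕ} (hp : p.Prime) (P : ValuationSubring Qbar) (hP : P.LiesOverPrime p)
include hp hP

theorem s56o_ord_pi1 {π₁ : Qbar} (hπ : π₁ ^ (p ^ 2 - 1) = -(p : Qbar)) :
    s56o_ord hp P hP π₁ = 1 / ((p : ℚ) ^ 2 - 1) := by
  have h0 := s56o_pi1_ne_zero hp hπ
  have h := congrArg (s56o_ord hp P hP) hπ
  rw [s56o_ord_pow hp P hP h0, s56o_ord_neg, s56o_ord_p, s56o_e1_cast hp] at h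
  have h1 : (0 : ℚ) < (p : ℚ) ^ 2 - 1 := by
    rw [← s56o_e1_cast hp]
    exact_mod_cast s56o_e1_pos hp
  field_simp
  linarith

end pi1

/-- (Omega), without the hypothesis `p ≠ 2`. -/
theorem s56o_omega {p : ℕ} (hp : p.Prime) (P : ValuationSubring Qbar) (hP : P.LiesOverPrime p)
    {π₁ : Qbar} (hπ : π₁ ^ (p ^ 2 - 1) = -(p : Qbar)) (σ : GQ)
    (hσ : σ ∈ P.inertiaSubgroupIn ℚ) (ξ ζ : Qbar) (a : ℕ) (hσπ : σ π₁ = ξ * π₁) (hζ : ζ ^ p = 1)
    (hζ1 : ζ ≠ 1) (hσζ : σ ζ = ζ ^ a) : ξ ^ (p + 1) - (a : Qbar) ∈ P.nonunits := by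
  obtain ⟨w, hwP, hmain, hlnu, huval, hordl⟩ := s56o_lambda_struct hp P hP ζ hζ hζ1
  have hl0 : ζ - 1 ≠ 0 := sub_ne_zero.mpr hζ1
  have hπ0 := s56o_pi1_ne_zero hp hπ
  have hξpow := s56o_xi_pow hp hπ σ hσπ
  have hξval : P.valuation ξ = 1 := s56o_val_root_of_unity P (s56o_e1_pos hp).ne' hξpow
  have hξ0 : ξ ≠ 0 := by
    intro h
    rw [h, map_zero] at hξval
    exact zero_ne_one hξval
  have hp1 : (0 : ℚ) < (p : ℚ) - 1 := by
    have : (1 : ℚ) < p := by exact_mod_cast hp.one_lt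
    linarith
  -- `y = λ / π₁^(p+1)` is a unit
  set y : Qbar := (ζ - 1) / π₁ ^ (p + 1) with hy
  have hy0 : y ≠ 0 := div_ne_zero hl0 (pow_ne_zero _ hπ0)
  have hyord : s56o_ord hp P hP y = 0 := by
    rw [hy, s56o_ord_div hp P hP hl0 (pow_ne_zero _ hπ0), s56o_ord_pow hp P hP hπ0, hordl,
      s56o_ord_pi1 hp P hP hπ]
    have h2 : (p : ℚ) ^ 2 - 1 = ((p : ℚ) - 1) * ((p : ℚ) + 1) := by ring
    have h3 : (0 : ℚ) < (p : ℚ) + 1 := by linarith
    rw [h2]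
    push_cast
    field_simp
    ring
  have hyval : P.valuation y = 1 := (s56o_ord_eq_zero_iff hp P hP hy0).mp hyord
  have hyP : y ∈ P := (P.valuation_le_one_iff _).mp hyval.le
  have hin := (ford_inertia_spec P σ hσ).2 y hyP
  -- `σ y = (S / ξ^(p+1)) y`
  set S : Qbar := ∑ j ∈ Finset.range a, ζ ^ j with hS
  have hσl : σ (ζ - 1) = S * (ζ - 1) := by
    rw [map_sub, map_one, hσζ, hS, geom_sum_mul]
  have hσy : σ y - y = y * ((S - ξ ^ (p + 1)) / ξ ^ (p + 1)) := by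
    rw [hy, map_div₀, map_pow, hσl, hσπ, mul_pow]
    field_simp
  rw [hσy, P.mem_nonunits_iff, map_mul, hyval, one_mul, map_div₀, map_pow, hξval, one_pow,
    div_one] at hin
  have hSa : P.valuation (S - (a : Qbar)) < 1 := by
    have h1 : S - (a : Qbar) = ∑ j ∈ Finset.range a, (ζ ^ j - 1) := by
      rw [Finset.sum_sub_distrib, Finset.sum_const, Finset.card_range, nsmul_eq_mul, mul_one]
    rw [h1]
    exact Valuation.map_sum_lt _ one_ne_zero fun j _ => s56o_pow_sub_one_mem P ζ hlnu j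
  have hfin : ξ ^ (p + 1) - (a : Qbar) = (S - (a : Qbar)) - (S - ξ ^ (p + 1)) := by ring
  rw [hfin, P.mem_nonunits_iff]
  exact Valuation.map_sub_lt _ hSa hin

theorem s56f_ifaceOmega : s56f_IfaceOmega :=
  fun _ hp _ P hP _ hπ σ hσ ξ ζ a hσπ hζ hζ1 hσζ =>
    s56o_omega hp P hP hπ σ hσ ξ ζ a hσπ hζ hζ1 hσζ

/-! ### the tame character `χ σ = σ π₁ / π₁` -/

theorem s56o_not_dvd_e1 {p : ℕ} (hp : p.Prime) : ¬ p ∣ p ^ 2 - 1 := by
  intro h
  have h1 : p ∣ p ^ 2 := dvd_pow_self p two_ne_zero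
  have h2 : p ∣ p ^ 2 - (p ^ 2 - 1) := Nat.dvd_sub h1 h
  have h3 : p ^ 2 - (p ^ 2 - 1) = 1 := by
    have := s56o_e1_pos hp
    omega
  rw [h3] at h2
  exact hp.one_lt.ne' (Nat.dvd_one.mp h2)

section tame

variable {p : ℕ} (hp : p.Prime) (P : ValuationSubring Qbar) (hP : P.LiesOverPrime p)
include hp hP

/-- inertia fixes the roots of unity of order prime to `p`. -/
theorem s56o_inertia_fix_root {m : ℕ} (hm : ¬ p ∣ m) {ξ : Qbar} (hξ : ξ ^ m = 1) (σ : GQ)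
    (hσ : σ ∈ P.inertiaSubgroupIn ℚ) : σ ξ = ξ := by
  have hm0 : m ≠ 0 := fun h => hm (h ▸ dvd_zero p)
  have hval : P.valuation ξ = 1 := s56o_val_root_of_unity P hm0 hξ
  have hξ0 : ξ ≠ 0 := by
    intro h
    rw [h, map_zero] at hval
    exact zero_ne_one hval
  have hξP : ξ ∈ P := (P.valuation_le_one_iff _).mp hval.le
  have h1 := (ford_inertia_spec P σ hσ).2 ξ hξP
  have h2 : (σ ξ / ξ) ^ m = 1 := by
    rw [div_pow, ← map_pow, hξ, map_one, div_one]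
  have h3 : σ ξ / ξ - 1 ∈ P.nonunits := by
    have : σ ξ / ξ - 1 = (σ ξ - ξ) / ξ := by field_simp
    rw [this, P.mem_nonunits_iff, map_div₀, hval, div_one]
    exact P.mem_nonunits_iff.mp h1
  have h4 := s56f_ifaceRedInj p hp P hP _ m hm h2 h3
  exact (div_eq_one_iff_eq hξ0).mp h4

/-- an element of `(ℚ̄^I)^×` has integral valuation. -/
theorem s56o_ord_int_of_fixed {y : Qbar} (hy0 : y ≠ 0)
    (hy : ∀ σ ∈ P.inertiaSubgroupIn ℚ, σ y = y) : ∃ n : ℤ, s56o_ord hp P hP y = n := by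
  have key : ∀ z : Qbar, z ≠ 0 → z ∈ P → (∀ σ ∈ P.inertiaSubgroupIn ℚ, σ z = z) →
      ∃ n : ℤ, s56o_ord hp P hP z = n := by
    intro z hz0 hzP hz
    obtain ⟨n, u, hu, hu', hzu⟩ := s56o_Our_factor hp P hP z ⟨hzP, hz⟩ hz0
    have hu0 : u ≠ 0 := by
      intro h
      rw [h, mul_zero] at hzu
      exact hz0 hzu
    have h1 : 0 ≤ s56o_ord hp P hP u := (s56o_ord_nonneg_iff hp P hP hu0).mpr hu.1
    have h2 : 0 ≤ s56o_ord hp P hP u⁻¹ := (s56o_ord_nonneg_iff hp P hP (inv_ne_zero hu0)).mpr hu'.1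
    rw [s56o_ord_inv hp P hP hu0] at h2
    have h3 : s56o_ord hp P hP u = 0 := le_antisymm (by linarith) h1
    refine ⟨n, ?_⟩
    rw [hzu, s56o_ord_mul hp P hP (pow_ne_zero _ (s56o_p_ne_zero hp)) hu0,
      s56o_ord_pow hp P hP (s56o_p_ne_zero hp), s56o_ord_p, h3]
    simp
  rcases P.mem_or_inv_mem y with h | h
  · exact key y hy0 h hy
  · obtain ⟨n, hn⟩ := key y⁻¹ (inv_ne_zero hy0) h (fun σ hσ => by rw [map_inv₀, hy σ hσ])
    refine ⟨-n, ?_⟩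
    rw [s56o_ord_inv hp P hP hy0] at hn
    push_cast
    linarith

variable {π₁ : Qbar} (hπ : π₁ ^ (p ^ 2 - 1) = -(p : Qbar))
include hπ

/-- the tame character. -/
def s56o_chi : ↥(P.inertiaSubgroupIn ℚ) →* Qbarˣ where
  toFun σ := Units.mk0 ((σ : GQ) π₁ / π₁)
    (div_ne_zero ((map_ne_zero _).mpr (s56o_pi1_ne_zero hp hπ)) (s56o_pi1_ne_zero hp hπ))
  map_one' := by
    apply Units.ext
    simp only [Units.val_mk0, Units.val_one]
    exact div_self (s56o_pi1_ne_zero hp hπ)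
  map_mul' σ τ := by
    apply Units.ext
    simp only [Units.val_mk0, Units.val_mul]
    have hπ0 := s56o_pi1_ne_zero hp hπ
    have h1 : (τ : GQ) π₁ = ((τ : GQ) π₁ / π₁) * π₁ := by field_simp
    have h2 : ((τ : GQ) π₁ / π₁) ^ (p ^ 2 - 1) = 1 := s56o_xi_pow hp hπ (τ : GQ) h1
    have h3 : (σ : GQ) ((τ : GQ) π₁ / π₁) = (τ : GQ) π₁ / π₁ :=
      s56o_inertia_fix_root hp P hP (s56o_not_dvd_e1 hp) h2 (σ : GQ) σ.2
    have h4 : ((σ * τ : ↥(P.inertiaSubgroupIn ℚ)) : GQ) π₁ = (σ : GQ) ((τ : GQ) π₁) := rfl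
    rw [h4]
    conv_lhs => rw [h1, map_mul, h3]
    field_simp

theorem s56o_chi_spec (σ : ↥(P.inertiaSubgroupIn ℚ)) :
    (σ : GQ) π₁ = ((s56o_chi hp P hP hπ σ : Qbarˣ) : Qbar) * π₁ := by
  have hπ0 := s56o_pi1_ne_zero hp hπ
  change (σ : GQ) π₁ = ((σ : GQ) π₁ / π₁) * π₁
  field_simp

theorem s56o_chi_pow (σ : ↥(P.inertiaSubgroupIn ℚ)) :
    (s56o_chi hp P hP hπ σ) ^ (p ^ 2 - 1) = 1 := by
  apply Units.ext
  rw [Units.val_pow_eq_pow_val, Units.val_one]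
  exact s56o_xi_pow hp hπ (σ : GQ) (s56o_chi_spec hp P hP hπ σ)

/-- inertia fixes the values of the tame character. -/
theorem s56o_chi_fixed (σ : ↥(P.inertiaSubgroupIn ℚ)) (τ : GQ) (hτ : τ ∈ P.inertiaSubgroupIn ℚ) :
    τ ((s56o_chi hp P hP hπ σ : Qbarˣ) : Qbar) = ((s56o_chi hp P hP hπ σ : Qbarˣ) : Qbar) := by
  refine s56o_inertia_fix_root hp P hP (s56o_not_dvd_e1 hp) ?_ τ hτ
  have := s56o_chi_pow hp P hP hπ σ
  have h := congrArg (fun u : Qbarˣ => (u : Qbar)) this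
  simpa using h

end tame

section tame2

variable {p : ℕ} (hp : p.Prime) (P : ValuationSubring Qbar) (hP : P.LiesOverPrime p)
  {π₁ : Qbar} (hπ : π₁ ^ (p ^ 2 - 1) = -(p : Qbar))
include hp hP hπ

/-- the image of the tame character. -/
def s56o_H : Subgroup Qbarˣ := (s56o_chi hp P hP hπ).range

theorem s56o_H_le : s56o_H hp P hP hπ ≤ rootsOfUnity (p ^ 2 - 1) Qbar := by
  rintro _ ⟨σ, rfl⟩
  rw [mem_rootsOfUnity]
  exact s56o_chi_pow hp P hP hπ σ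

theorem s56o_H_finite : Finite ↥(s56o_H hp P hP hπ) := by
  have : NeZero (p ^ 2 - 1) := ⟨(s56o_e1_pos hp).ne'⟩
  exact Finite.of_injective (Subgroup.inclusion (s56o_H_le hp P hP hπ))
    (Subgroup.inclusion_injective _)

/-- `σ (π₁ ^ n) = (χ σ)^n π₁^n`. -/
theorem s56o_chi_pi_pow (σ : ↥(P.inertiaSubgroupIn ℚ)) (n : ℕ) :
    (σ : GQ) (π₁ ^ n) = (((s56o_chi hp P hP hπ σ) ^ n : Qbarˣ) : Qbar) * π₁ ^ n := by
  rw [map_pow, s56o_chi_spec hp P hP hπ σ, mul_pow, Units.val_pow_eq_pow_val]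

/-- **the tame character is onto `μ_{p²-1}`**: its image has `p² - 1` elements. -/
theorem s56o_card_H : Nat.card ↥(s56o_H hp P hP hπ) = p ^ 2 - 1 := by
  have := s56o_H_finite hp P hP hπ
  obtain ⟨g, hg⟩ := IsCyclic.exists_generator (α := ↥(s56o_H hp P hP hπ))
  have hord : orderOf g = Nat.card ↥(s56o_H hp P hP hπ) := orderOf_eq_card_of_forall_mem_zpowers hg
  have hdvd : Nat.card ↥(s56o_H hp P hP hπ) ∣ p ^ 2 - 1 := by
    rw [← hord]
    apply orderOf_dvd_of_pow_eq_one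
    apply Subtype.ext
    have := (mem_rootsOfUnity _ _).mp (s56o_H_le hp P hP hπ g.2)
    simpa using this
  set D := Nat.card ↥(s56o_H hp P hP hπ) with hD
  have hDpos : 0 < D := Nat.card_pos
  have hπ0 := s56o_pi1_ne_zero hp hπ
  have hfix : ∀ σ ∈ P.inertiaSubgroupIn ℚ, σ (π₁ ^ D) = π₁ ^ D := by
    intro σ hσ
    have h1 := s56o_chi_pi_pow hp P hP hπ ⟨σ, hσ⟩ D
    have h2 : (s56o_chi hp P hP hπ ⟨σ, hσ⟩) ^ D = 1 := by
      have h3 : (⟨s56o_chi hp P hP hπ ⟨σ, hσ⟩, ⟨_, rfl⟩⟩ : ↥(s56o_H hp P hP hπ)) ^ D = 1 :=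
        pow_card_eq_one'
      have := congrArg (fun t : ↥(s56o_H hp P hP hπ) => (t : Qbarˣ)) h3
      simpa using this
    rw [h2, Units.val_one, one_mul] at h1
    exact h1
  obtain ⟨n, hn⟩ := s56o_ord_int_of_fixed hp P hP (pow_ne_zero D hπ0) hfix
  rw [s56o_ord_pow hp P hP hπ0, s56o_ord_pi1 hp P hP hπ, ← s56o_e1_cast hp] at hn
  have he1 : (0 : ℚ) < ((p ^ 2 - 1 : ℕ) : ℚ) := by exact_mod_cast s56o_e1_pos hp
  have h4 : (D : ℚ) = (n : ℚ) * ((p ^ 2 - 1 : ℕ) : ℚ) := by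
    field_simp at hn
    linarith
  have h5 : (D : ℤ) = n * ((p ^ 2 - 1 : ℕ) : ℤ) := by exact_mod_cast h4
  have h6 : ((p ^ 2 - 1 : ℕ) : ℤ) ∣ (D : ℤ) := ⟨n, by rw [h5, mul_comm]⟩
  have h7 : (p ^ 2 - 1) ∣ D := by exact_mod_cast h6
  exact Nat.dvd_antisymm hdvd h7

end tame2

theorem s56f_ifaceTameGen : s56f_IfaceTameGen := by
  intro p hp P hP π₁ hπ
  have := s56o_H_finite hp P hP hπ
  obtain ⟨g, hg⟩ := IsCyclic.exists_generator (α := ↥(s56o_H hp P hP hπ))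
  have hord : orderOf g = p ^ 2 - 1 := by
    rw [orderOf_eq_card_of_forall_mem_zpowers hg, s56o_card_H hp P hP hπ]
  obtain ⟨τ, hτ⟩ := g.2
  refine ⟨(τ : GQ), τ.2, ((s56o_chi hp P hP hπ τ : Qbarˣ) : Qbar), ?_, ?_, ?_⟩
  · rw [orderOf_units, hτ, Subgroup.orderOf_coe, hord]
  · exact s56o_chi_spec hp P hP hπ τ
  · intro σ hσ
    refine ⟨s56o_chi_fixed hp P hP hπ τ σ hσ, ?_⟩
    have h1 : (⟨s56o_chi hp P hP hπ ⟨σ, hσ⟩, ⟨_, rfl⟩⟩ : ↥(s56o_H hp P hP hπ)) ∈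
        Subgroup.zpowers g := hg _
    rw [← mem_powers_iff_mem_zpowers] at h1
    obtain ⟨i, hi⟩ := h1
    refine ⟨i, ?_⟩
    have h2 : (s56o_chi hp P hP hπ τ) ^ i = s56o_chi hp P hP hπ ⟨σ, hσ⟩ := by
      have := congrArg (fun t : ↥(s56o_H hp P hP hπ) => (t : Qbarˣ)) hi
      simp only [SubmonoidClass.coe_pow] at this
      rw [hτ]
      exact this
    rw [s56o_chi_spec hp P hP hπ ⟨σ, hσ⟩, ← h2, Units.val_pow_eq_pow_val]

/-! ### (ValGroup): the norm from `E = ℚ̄^{V₁}` to `ℚ̄^I` -/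

section valgroup

variable {p : ℕ} (hp : p.Prime) (P : ValuationSubring Qbar) (hP : P.LiesOverPrime p)
include hp hP

theorem s56o_ord_prod {ι : Type*} (s : Finset ι) (f : ι → Qbar) (hf : ∀ i ∈ s, f i ≠ 0) :
    s56o_ord hp P hP (∏ i ∈ s, f i) = ∑ i ∈ s, s56o_ord hp P hP (f i) := by
  classical
  induction s using Finset.induction_on with
  | empty => simp [s56o_ord_one]
  | insert a s ha ih =>
    rw [Finset.prod_insert ha, Finset.sum_insert ha,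
      s56o_ord_mul hp P hP (hf a (Finset.mem_insert_self a s))
        (Finset.prod_ne_zero_iff.mpr fun i hi => hf i (Finset.mem_insert_of_mem hi)),
      ih fun i hi => hf i (Finset.mem_insert_of_mem hi)]

theorem s56o_ord_inertia (σ : GQ) (hσ : σ ∈ P.inertiaSubgroupIn ℚ) (x : Qbar) :
    s56o_ord hp P hP (σ x) = s56o_ord hp P hP x :=
  s56o_ord_decomp hp P hP σ (ford_inertia_spec P σ hσ).1 x

variable {π₁ : Qbar} (hπ : π₁ ^ (p ^ 2 - 1) = -(p : Qbar))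
include hπ

/-- on `E = ℚ̄^{V₁}`, `σ ∈ I` acts through `χ σ`. -/
theorem s56o_act_congr {x : Qbar} (hx : ∀ σ ∈ s56f_V1 P π₁, σ x = x)
    (σ₁ σ₂ : ↥(P.inertiaSubgroupIn ℚ))
    (h : s56o_chi hp P hP hπ σ₁ = s56o_chi hp P hP hπ σ₂) : (σ₁ : GQ) x = (σ₂ : GQ) x := by
  have h1 : s56o_chi hp P hP hπ (σ₁⁻¹ * σ₂) = 1 := by
    rw [map_mul, map_inv, h, inv_mul_cancel]
  have h2 : ((σ₁⁻¹ * σ₂ : ↥(P.inertiaSubgroupIn ℚ)) : GQ) π₁ = π₁ := by
    rw [s56o_chi_spec hp P hP hπ (σ₁⁻¹ * σ₂), h1, Units.val_one, one_mul]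
  have h3 : ((σ₁⁻¹ * σ₂ : ↥(P.inertiaSubgroupIn ℚ)) : GQ) ∈ s56f_V1 P π₁ :=
    ⟨(σ₁⁻¹ * σ₂).2, h2⟩
  have h4 := hx _ h3
  have h5 : ((σ₁⁻¹ * σ₂ : ↥(P.inertiaSubgroupIn ℚ)) : GQ) x = (σ₁ : GQ)⁻¹ ((σ₂ : GQ) x) := rfl
  rw [h5] at h4
  have h6 : (σ₁ : GQ) ((σ₁ : GQ)⁻¹ ((σ₂ : GQ) x)) = (σ₂ : GQ) x := by
    rw [← AlgEquiv.mul_apply, mul_inv_cancel, AlgEquiv.one_apply]
  rw [h4] at h6
  exact h6

theorem s56o_valGroup_aux {x : Qbar} (hx0 : x ≠ 0) (hx : ∀ σ ∈ s56f_V1 P π₁, σ x = x) :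
    ∃ m : ℤ, s56o_ord hp P hP x = (m : ℚ) / ((p : ℚ) ^ 2 - 1) := by
  classical
  have := s56o_H_finite hp P hP hπ
  letI : Fintype ↥(s56o_H hp P hP hπ) := Fintype.ofFinite _
  -- a section of `χ`
  have hsec : ∀ h : ↥(s56o_H hp P hP hπ), ∃ σ : ↥(P.inertiaSubgroupIn ℚ),
      s56o_chi hp P hP hπ σ = (h : Qbarˣ) := fun h => h.2
  choose s hs using hsec
  set g : ↥(s56o_H hp P hP hπ) → Qbar := fun h => ((s h : ↥(P.inertiaSubgroupIn ℚ)) : GQ) x with hg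
  have hg0 : ∀ h, g h ≠ 0 := fun h => (map_ne_zero _).mpr hx0
  set N : Qbar := ∏ h : ↥(s56o_H hp P hP hπ), g h with hN
  have hN0 : N ≠ 0 := Finset.prod_ne_zero_iff.mpr fun h _ => hg0 h
  -- `N` is fixed by inertia
  have hNfix : ∀ σ ∈ P.inertiaSubgroupIn ℚ, σ N = N := by
    intro σ hσ
    set c : ↥(s56o_H hp P hP hπ) := ⟨s56o_chi hp P hP hπ ⟨σ, hσ⟩, ⟨_, rfl⟩⟩ with hc
    have h1 : ∀ h, σ (g h) = g (c * h) := by
      intro h
      have h2 : σ (g h) = (((⟨σ, hσ⟩ * s h : ↥(P.inertiaSubgroupIn ℚ))) : GQ) x := rfl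
      rw [h2]
      apply s56o_act_congr hp P hP hπ hx
      rw [map_mul, hs, hs]
      rfl
    rw [hN, map_prod]
    rw [Finset.prod_congr rfl fun h _ => h1 h]
    exact Equiv.prod_comp (Equiv.mulLeft c) g
  obtain ⟨n, hn⟩ := s56o_ord_int_of_fixed hp P hP hN0 hNfix
  have hordN : s56o_ord hp P hP N = ((p ^ 2 - 1 : ℕ) : ℚ) * s56o_ord hp P hP x := by
    rw [hN, s56o_ord_prod hp P hP _ _ fun h _ => hg0 h]
    rw [Finset.sum_congr rfl fun h _ => s56o_ord_inertia hp P hP _ (s h).2 x]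
    rw [Finset.sum_const, Finset.card_univ, ← Nat.card_eq_fintype_card,
      s56o_card_H hp P hP hπ, nsmul_eq_mul]
  have he1 : (0 : ℚ) < (p : ℚ) ^ 2 - 1 := by
    rw [← s56o_e1_cast hp]
    exact_mod_cast s56o_e1_pos hp
  refine ⟨n, ?_⟩
  rw [hordN, s56o_e1_cast hp] at hn
  field_simp
  linarith

end valgroup

theorem s56f_ifaceValGroup : s56f_IfaceValGroup := by
  intro p hp P hP π₁ hπ x hx0 hx
  obtain ⟨m, hm⟩ := s56o_valGroup_aux hp P hP hπ hx0 hx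
  exact ⟨m, by rw [s56o_v_eq hp P hP hx0, hm]⟩

/-! ### `V₁` fixes `μ_p` -/

theorem s56o_V1_fix_zeta {p : ℕ} (hp : p.Prime) (P : ValuationSubring Qbar)
    (hP : P.LiesOverPrime p) {π₁ : Qbar} (hπ : π₁ ^ (p ^ 2 - 1) = -(p : Qbar)) {ζ : Qbar}
    (hζ : ζ ^ p = 1) : ∀ σ ∈ s56f_V1 P π₁, σ ζ = ζ := by
  intro σ hσ
  by_cases hζ1 : ζ = 1
  · rw [hζ1, map_one]
  haveI : Fact p.Prime := ⟨hp⟩
  haveI : NeZero p := ⟨hp.ne_zero⟩
  have hprim : IsPrimitiveRoot ζ p := IsPrimitiveRoot.iff_orderOf.mpr (orderOf_eq_prime hζ hζ1)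
  have h1 : (σ ζ) ^ p = 1 := by rw [← map_pow, hζ, map_one]
  obtain ⟨a, ha, hζa⟩ := hprim.eq_pow_of_pow_eq_one h1
  have h2 := s56o_omega hp P hP hπ σ hσ.1 1 ζ a (by rw [hσ.2, one_mul]) hζ hζ1 hζa.symm
  rw [one_pow] at h2
  have h3 : (((1 - (a : ℤ) : ℤ)) : Qbar) ∈ P.nonunits := by
    push_cast
    exact h2
  have h4 := (ptm_intCast_mem_nonunits_iff hp P hP _).mp h3
  have h5 : a = 1 := by
    obtain ⟨c, hc⟩ := h4
    have hp2 : (2 : ℤ) ≤ p := by exact_mod_cast hp.two_le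
    have ha' : (a : ℤ) < p := by exact_mod_cast ha
    have ha0 : (0 : ℤ) ≤ a := Int.natCast_nonneg a
    have hc0 : c = 0 := by
      by_contra hne
      rcases lt_or_gt_of_ne hne with h | h
      · have : (p : ℤ) * c ≤ (p : ℤ) * (-1) := by
          apply mul_le_mul_of_nonneg_left _ (by linarith)
          omega
        linarith
      · have : (p : ℤ) * 1 ≤ (p : ℤ) * c := by
          apply mul_le_mul_of_nonneg_left _ (by linarith)
          omega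
        linarith
    rw [hc0, mul_zero] at hc
    omega
  rw [← hζa, h5, pow_one]

end Fermat.Agent.Lib.S56
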