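import Mathlib
import Fermat.Prelude.Def_GroupCohomology_ContinuousH1
import Fermat.Prelude.Def_GroupCohomology_ContinuousUnramified

/-!
# Programme W (S56), wall W1-bis: restriction of scalars `k → F` for representations and `H¹`
(helper2)

For fields `F ⊆ k` (`[Algebra F k]`) and `A : Rep k G`, `s56a_resF F A : Rep F G` is the same
carrier with the same action, the scalars restricted to `F`.  The 1-cocycles and 1-coboundaries of
`A` and of `s56a_resF F A` are the same functions; `s56a_H1Res F A : H1 A ≃+ H1 (s56a_resF F A)` is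
the induced identification, characterised by `s56a_H1Res_π`.
-/

set_option autoImplicit false
set_option linter.style.haveILetI false

noncomputable section

namespace Fermat.Agent.Lib.S56

open groupCohomology CategoryTheory

section Defs

variable (F : Type) [Field F] {k : Type} [Field k] [Algebra F k] {G : Type} [Group G]

/-- Restriction of scalars of a representation: same carrier, same action. -/
def s56a_resRepr {V : Type} [AddCommGroup V] [Module k V] (ρ : Representation k G V) :
    letI : Module F V := Module.compHom V (algebraMap F k)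
    Representation F G V :=
  letI : Module F V := Module.compHom V (algebraMap F k)
  { toFun := fun g =>
      { toFun := fun v => ρ g v
        map_add' := fun v w => map_add _ v w
        map_smul' := fun c v => by
          show ρ g (algebraMap F k c • v) = algebraMap F k c • ρ g v
          exact map_smul _ _ _ }
    map_one' := by
      ext v
      show ρ 1 v = v
      rw [map_one, Module.End.one_apply]
    map_mul' := fun g h => by
      ext v
      show ρ (g * h) v = ρ g (ρ h v)
      rw [map_mul, Module.End.mul_apply] }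

/-- Restriction of scalars `Rep k G → Rep F G` (same carrier, same action). -/
def s56a_resF (A : Rep.{0} k G) : Rep.{0} F G :=
  letI : Module F A.V := Module.compHom A.V (algebraMap F k)
  Rep.of (X := A.V) (s56a_resRepr F A.ρ)

variable (A : Rep.{0} k G)

theorem s56a_resF_V : (s56a_resF F A).V = A.V := rfl

/-- An element of `A` viewed in `s56a_resF F A`. -/
def s56a_toRes (x : A.V) : (s56a_resF F A).V := x

/-- An element of `s56a_resF F A` viewed in `A`. -/
def s56a_ofRes (x : (s56a_resF F A).V) : A.V := x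

@[simp] theorem s56a_ofRes_toRes (x : A.V) : s56a_ofRes F A (s56a_toRes F A x) = x := rfl
@[simp] theorem s56a_toRes_ofRes (x : (s56a_resF F A).V) :
    s56a_toRes F A (s56a_ofRes F A x) = x := rfl

theorem s56a_resF_ρ_apply (g : G) (x : A.V) :
    (s56a_resF F A).ρ g (s56a_toRes F A x) = s56a_toRes F A (A.ρ g x) := rfl

theorem s56a_resF_smul (c : F) (x : A.V) :
    c • s56a_toRes F A x = s56a_toRes F A (algebraMap F k c • x) := rfl

theorem s56a_toRes_add (x y : A.V) :
    s56a_toRes F A (x + y) = s56a_toRes F A x + s56a_toRes F A y := rfl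

theorem s56a_toRes_sub (x y : A.V) :
    s56a_toRes F A (x - y) = s56a_toRes F A x - s56a_toRes F A y := rfl

theorem s56a_toRes_zero : s56a_toRes F A 0 = 0 := rfl

/-- restriction along a group homomorphism commutes with restriction of scalars -/
theorem s56a_resF_res {H : Type} [Group H] (f : H →* G) :
    Rep.res f (s56a_resF F A) = s56a_resF F (Rep.res f A) := rfl

end Defs

section Cocycles

variable (F : Type) [Field F] {k : Type} [Field k] [Algebra F k] {G : Type} [Group G]
  (A : Rep.{0} k G)

/-- A cochain of `A` viewed as a cochain of `s56a_resF F A`. -/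
def s56a_cochRes (f : G → A.V) : G → (s56a_resF F A).V := f

/-- A cochain of `s56a_resF F A` viewed as a cochain of `A`. -/
def s56a_cochOfRes (f : G → (s56a_resF F A).V) : G → A.V := f

theorem s56a_mem_cocycles₁_res (f : G → A.V) :
    s56a_cochRes F A f ∈ cocycles₁ (s56a_resF F A) ↔ f ∈ cocycles₁ A := by
  rw [mem_cocycles₁_def, mem_cocycles₁_def]
  rfl

theorem s56a_mem_coboundaries₁_res (f : G → A.V) :
    s56a_cochRes F A f ∈ coboundaries₁ (s56a_resF F A) ↔ f ∈ coboundaries₁ A := by
  constructor
  · rintro ⟨x, hx⟩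
    refine ⟨s56a_ofRes F A x, ?_⟩
    funext g
    have := congrFun hx g
    rw [d₀₁_hom_apply] at this
    rw [d₀₁_hom_apply]
    exact this
  · rintro ⟨x, hx⟩
    refine ⟨s56a_toRes F A x, ?_⟩
    funext g
    have := congrFun hx g
    rw [d₀₁_hom_apply] at this
    rw [d₀₁_hom_apply]
    exact this

/-- A cocycle of `A` as a cocycle of `s56a_resF F A`. -/
def s56a_cocRes (c : cocycles₁ A) : cocycles₁ (s56a_resF F A) :=
  ⟨s56a_cochRes F A c.1, (s56a_mem_cocycles₁_res F A c.1).2 c.2⟩

/-- A cocycle of `s56a_resF F A` as a cocycle of `A`. -/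
def s56a_cocOfRes (c : cocycles₁ (s56a_resF F A)) : cocycles₁ A :=
  ⟨s56a_cochOfRes F A c.1, (s56a_mem_cocycles₁_res F A (s56a_cochOfRes F A c.1)).1 c.2⟩

@[simp] theorem s56a_cocRes_apply (c : cocycles₁ A) (g : G) :
    (s56a_cocRes F A c).1 g = s56a_toRes F A (c.1 g) := rfl

@[simp] theorem s56a_cocOfRes_apply (c : cocycles₁ (s56a_resF F A)) (g : G) :
    (s56a_cocOfRes F A c).1 g = s56a_ofRes F A (c.1 g) := rfl

@[simp] theorem s56a_cocOfRes_cocRes (c : cocycles₁ A) :
    s56a_cocOfRes F A (s56a_cocRes F A c) = c := rfl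

@[simp] theorem s56a_cocRes_cocOfRes (c : cocycles₁ (s56a_resF F A)) :
    s56a_cocRes F A (s56a_cocOfRes F A c) = c := rfl

theorem s56a_cocRes_add (c c' : cocycles₁ A) :
    s56a_cocRes F A (c + c') = s56a_cocRes F A c + s56a_cocRes F A c' := rfl

theorem s56a_cocRes_sub (c c' : cocycles₁ A) :
    s56a_cocRes F A (c - c') = s56a_cocRes F A c - s56a_cocRes F A c' := rfl

theorem s56a_cocRes_smul (a : F) (c : cocycles₁ A) :
    s56a_cocRes F A (algebraMap F k a • c) = a • s56a_cocRes F A c := rfl

theorem s56a_H1π_surjective (B : Rep.{0} k G) : Function.Surjective (H1π B).hom :=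
  (ModuleCat.epi_iff_surjective _).1 inferInstance

/-- Cohomologous cocycles of `A` are cohomologous in `s56a_resF F A`, and conversely. -/
theorem s56a_H1π_cocRes_eq_iff (c c' : cocycles₁ A) :
    (H1π (s56a_resF F A)).hom (s56a_cocRes F A c) = (H1π (s56a_resF F A)).hom (s56a_cocRes F A c') ↔
      (H1π A).hom c = (H1π A).hom c' := by
  have h1 := H1π_eq_iff (s56a_cocRes F A c) (s56a_cocRes F A c')
  have h2 := H1π_eq_iff c c'
  refine h1.trans (Iff.trans ?_ h2.symm)
  exact s56a_mem_coboundaries₁_res F A (⇑c - ⇑c')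

end Cocycles

section H1

variable (F : Type) [Field F] {k : Type} [Field k] [Algebra F k] {G : Type} [Group G]
  (A : Rep.{0} k G)

/-- the underlying function of `s56a_H1Res` -/
def s56a_H1ResFun (x : H1 A) : H1 (s56a_resF F A) :=
  (H1π (s56a_resF F A)).hom (s56a_cocRes F A (Function.surjInv (s56a_H1π_surjective A) x))

/-- the underlying function of the inverse of `s56a_H1Res` -/
def s56a_H1ResInv (y : H1 (s56a_resF F A)) : H1 A :=
  (H1π A).hom (s56a_cocOfRes F A (Function.surjInv (s56a_H1π_surjective (s56a_resF F A)) y))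

theorem s56a_H1ResFun_π (c : cocycles₁ A) :
    s56a_H1ResFun F A ((H1π A).hom c) = (H1π (s56a_resF F A)).hom (s56a_cocRes F A c) := by
  rw [s56a_H1ResFun, s56a_H1π_cocRes_eq_iff]
  exact Function.surjInv_eq (s56a_H1π_surjective A) _

theorem s56a_H1ResInv_π (c : cocycles₁ (s56a_resF F A)) :
    s56a_H1ResInv F A ((H1π (s56a_resF F A)).hom c) = (H1π A).hom (s56a_cocOfRes F A c) := by
  rw [s56a_H1ResInv, ← s56a_H1π_cocRes_eq_iff F A, s56a_cocRes_cocOfRes, s56a_cocRes_cocOfRes]
  exact Function.surjInv_eq (s56a_H1π_surjective (s56a_resF F A)) _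

/-- **Restriction of scalars on `H¹`**: the identification `H¹(G, A) ≃+ H¹(G, A|_F)`. -/
def s56a_H1Res : H1 A ≃+ H1 (s56a_resF F A) where
  toFun := s56a_H1ResFun F A
  invFun := s56a_H1ResInv F A
  left_inv x := by
    obtain ⟨c, rfl⟩ := s56a_H1π_surjective A x
    rw [s56a_H1ResFun_π, s56a_H1ResInv_π, s56a_cocOfRes_cocRes]
  right_inv y := by
    obtain ⟨c, rfl⟩ := s56a_H1π_surjective (s56a_resF F A) y
    rw [s56a_H1ResInv_π, s56a_H1ResFun_π, s56a_cocRes_cocOfRes]
  map_add' x y := by
    obtain ⟨c, rfl⟩ := s56a_H1π_surjective A x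
    obtain ⟨c', rfl⟩ := s56a_H1π_surjective A y
    rw [← map_add, s56a_H1ResFun_π, s56a_H1ResFun_π, s56a_H1ResFun_π, s56a_cocRes_add, map_add]

/-- `s56a_H1Res` on the class of a cocycle. -/
theorem s56a_H1Res_π (c : cocycles₁ A) :
    s56a_H1Res F A ((H1π A).hom c) = (H1π (s56a_resF F A)).hom (s56a_cocRes F A c) :=
  s56a_H1ResFun_π F A c

theorem s56a_H1Res_symm_π (c : cocycles₁ (s56a_resF F A)) :
    (s56a_H1Res F A).symm ((H1π (s56a_resF F A)).hom c) = (H1π A).hom (s56a_cocOfRes F A c) :=
  s56a_H1ResInv_π F A c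

/-- `s56a_H1Res` is `F`-semilinear. -/
theorem s56a_H1Res_smul (a : F) (x : H1 A) :
    s56a_H1Res F A (algebraMap F k a • x) = a • s56a_H1Res F A x := by
  obtain ⟨c, rfl⟩ := s56a_H1π_surjective A x
  rw [← map_smul, s56a_H1Res_π, s56a_H1Res_π, s56a_cocRes_smul, map_smul]

end H1

section Functoriality

variable (F : Type) [Field F] {k : Type} [Field k] [Algebra F k] {G : Type} [Group G]
  (A : Rep.{0} k G)

/-- (P1) `s56a_H1Res` commutes with restriction to a subgroup (the Prelude's `locRes`). -/
theorem s56a_H1Res_map {H : Type} [Group H] (f : H →* G) (x : H1 A) :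
    (map f (𝟙 (Rep.res f (s56a_resF F A))) 1).hom (s56a_H1Res F A x) =
      s56a_H1Res F (Rep.res f A) ((map f (𝟙 (Rep.res f A)) 1).hom x) := by
  obtain ⟨c, rfl⟩ := s56a_H1π_surjective A x
  rw [s56a_H1Res_π]
  have h1 : (map f (𝟙 (Rep.res f A)) 1).hom ((H1π A).hom c) =
      (H1π (Rep.res f A)).hom (mapCocycles₁ f (𝟙 (Rep.res f A)) c) :=
    H1π_comp_map_apply f (𝟙 (Rep.res f A)) c
  have h2 : (map f (𝟙 (Rep.res f (s56a_resF F A))) 1).hom
      ((H1π (s56a_resF F A)).hom (s56a_cocRes F A c)) =
      (H1π (Rep.res f (s56a_resF F A))).hom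
        (mapCocycles₁ f (𝟙 (Rep.res f (s56a_resF F A))) (s56a_cocRes F A c)) :=
    H1π_comp_map_apply f (𝟙 (Rep.res f (s56a_resF F A))) (s56a_cocRes F A c)
  rw [h1, h2, s56a_H1Res_π]
  rfl

end Functoriality

section Continuous

variable (F : Type) [Field F] {k : Type} [Field k] [Algebra F k] {G : Type} [Group G]
  (r : G →* (AlgebraicClosure ℚ ≃ₐ[ℚ] AlgebraicClosure ℚ)) (A : Rep.{0} k G)

/-- (P2) continuity of a class does not depend on the field of scalars. -/
theorem s56a_H1Res_mem_continuousH1 (x : H1 A) :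
    s56a_H1Res F A x ∈ continuousH1 r (s56a_resF F A) ↔ x ∈ continuousH1 r A := by
  rw [mem_continuousH1_iff, mem_continuousH1_iff]
  constructor
  · rintro ⟨c, hc, hcx⟩
    refine ⟨s56a_cocOfRes F A c, hc, ?_⟩
    apply (s56a_H1Res F A).injective
    rw [s56a_H1Res_π, s56a_cocRes_cocOfRes, hcx]
  · rintro ⟨c, hc, rfl⟩
    exact ⟨s56a_cocRes F A c, hc, (s56a_H1Res_π F A c).symm⟩

end Continuous

section ContinuousS

variable (F : Type) [Field F] {k : Type} [Field k] [Algebra F k]
  (S : Finset Nat.Primes)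
  (A : Rep.{0} k (AlgebraicClosure ℚ ≃ₐ[ℚ] AlgebraicClosure ℚ))

/-- (P2') `S`-continuity of a class does not depend on the field of scalars. -/
theorem s56a_H1Res_mem_continuousH1S (x : H1 A) :
    s56a_H1Res F A x ∈ continuousH1S S (s56a_resF F A) ↔ x ∈ continuousH1S S A := by
  rw [mem_continuousH1S_iff, mem_continuousH1S_iff]
  constructor
  · rintro ⟨c, hc, hcx⟩
    refine ⟨s56a_cocOfRes F A c, hc, ?_⟩
    apply (s56a_H1Res F A).injective
    rw [s56a_H1Res_π, s56a_cocRes_cocOfRes, hcx]
  · rintro ⟨c, hc, rfl⟩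
    exact ⟨s56a_cocRes F A c, hc, (s56a_H1Res_π F A c).symm⟩

end ContinuousS

section Finrank

variable (F : Type) [Field F] {k : Type} [Field k] [Algebra F k]

/-- Transport of dimensions along an `F`-semilinear additive bijection from a `k`-space to an
`F`-space: `dim_F L' = [k : F] · dim_k L`. -/
theorem s56a_finrank_of_semilinear {V W : Type*} [AddCommGroup V] [Module k V] [AddCommGroup W]
    [Module F W] (e : V ≃+ W) (he : ∀ (a : F) (v : V), e (algebraMap F k a • v) = a • e v)
    (L : Submodule k V) (L' : Submodule F W) (h : ∀ v, e v ∈ L' ↔ v ∈ L) :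
    Module.finrank F L' = Module.finrank F k * Module.finrank k L := by
  letI : Module F V := Module.compHom V (algebraMap F k)
  haveI : IsScalarTower F k V := IsScalarTower.of_algebraMap_smul fun _ _ => rfl
  let eL : ↥L ≃ₗ[F] ↥L' :=
    { toFun := fun v => ⟨e v, (h v).2 v.2⟩
      invFun := fun w => ⟨e.symm w, (h _).1 (by rw [e.apply_symm_apply]; exact w.2)⟩
      map_add' := fun v w => Subtype.ext (map_add e _ _)
      map_smul' := fun a v => Subtype.ext (he a v)
      left_inv := fun v => Subtype.ext (e.symm_apply_apply _)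
      right_inv := fun w => Subtype.ext (e.apply_symm_apply _) }
  rw [← eL.finrank_eq, Module.finrank_mul_finrank F k ↥L]

end Finrank

section Subspaces

variable (F : Type) [Field F] {k : Type} [Field k] [Algebra F k] {G : Type} [Group G]
  (A : Rep.{0} k G)

/-- (P3) The image of a `k`-subspace of `H¹(G, A)` in `H¹(G, A|_F)`, an `F`-subspace. -/
def s56a_mapF (L : Submodule k (H1 A)) : Submodule F (H1 (s56a_resF F A)) where
  carrier := s56a_H1Res F A '' L
  add_mem' := by
    rintro _ _ ⟨x, hx, rfl⟩ ⟨y, hy, rfl⟩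
    exact ⟨x + y, L.add_mem hx hy, map_add _ _ _⟩
  zero_mem' := ⟨0, L.zero_mem, map_zero _⟩
  smul_mem' := by
    rintro a _ ⟨x, hx, rfl⟩
    exact ⟨algebraMap F k a • x, L.smul_mem _ hx, s56a_H1Res_smul F A a x⟩

theorem s56a_mem_mapF (L : Submodule k (H1 A)) (x : H1 A) :
    s56a_H1Res F A x ∈ s56a_mapF F A L ↔ x ∈ L := by
  constructor
  · rintro ⟨y, hy, hyx⟩
    rwa [← (s56a_H1Res F A).injective hyx]
  · intro hx
    exact ⟨x, hx, rfl⟩

theorem s56a_mapF_mono {L L' : Submodule k (H1 A)} (h : L ≤ L') :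
    s56a_mapF F A L ≤ s56a_mapF F A L' := by
  rintro _ ⟨x, hx, rfl⟩
  exact ⟨x, h hx, rfl⟩

theorem s56a_finrank_mapF (L : Submodule k (H1 A)) :
    Module.finrank F (s56a_mapF F A L) = Module.finrank F k * Module.finrank k L :=
  s56a_finrank_of_semilinear F (k := k) (s56a_H1Res F A) (s56a_H1Res_smul F A) L _
    (s56a_mem_mapF F A L)

/-- the identity `A ≃+ A|_F` -/
def s56a_toResAddEquiv : A.V ≃+ (s56a_resF F A).V where
  toFun := s56a_toRes F A
  invFun := s56a_ofRes F A
  left_inv _ := rfl
  right_inv _ := rfl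
  map_add' _ _ := rfl

theorem s56a_mem_invariants_res (x : A.V) :
    s56a_toRes F A x ∈ (s56a_resF F A).ρ.invariants ↔ x ∈ A.ρ.invariants := Iff.rfl

/-- (P4) `dim_F H⁰(G, A|_F) = [k : F] · dim_k H⁰(G, A)`. -/
theorem s56a_finrank_invariants_res :
    Module.finrank F (s56a_resF F A).ρ.invariants =
      Module.finrank F k * Module.finrank k A.ρ.invariants :=
  s56a_finrank_of_semilinear F (k := k) (s56a_toResAddEquiv F A) (fun _ _ => rfl) A.ρ.invariants _
    (s56a_mem_invariants_res F A)

/-- `dim_F A|_F = [k : F] · dim_k A`. -/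
theorem s56a_finrank_res : Module.finrank F (s56a_resF F A).V =
    Module.finrank F k * Module.finrank k A.V := by
  have h := s56a_finrank_of_semilinear F (k := k) (s56a_toResAddEquiv F A) (fun _ _ => rfl)
    (⊤ : Submodule k A.V) (⊤ : Submodule F (s56a_resF F A).V) (fun _ => Iff.rfl)
  rwa [finrank_top, finrank_top] at h

end Subspaces

section Card

variable (F : Type) [Field F] {k : Type} [Field k] [Algebra F k] {G : Type} [Group G]
  (A : Rep.{0} k G)

/-- (P5) **Closing lemma.** A set of classes of `H¹(G, A)` whose image in `H¹(G, A|_F)` lies in an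
`F`-subspace of dimension at most `[k : F] · r` is contained in a finite set with at most `|k|^r`
elements. -/
theorem s56a_exists_finset_of_finrank_le [Finite F] [Finite k] (X : Set (H1 A))
    (W : Submodule F (H1 (s56a_resF F A))) [Module.Finite F W]
    (hX : ∀ x ∈ X, s56a_H1Res F A x ∈ W) (r : ℕ)
    (hW : Module.finrank F W ≤ Module.finrank F k * r) :
    ∃ T : Finset (H1 A), X ⊆ ↑T ∧ T.card ≤ Nat.card k ^ r := by
  classical
  haveI : Finite W := Module.finite_of_finite F
  have hWfin : (W : Set (H1 (s56a_resF F A))).Finite := Set.toFinite _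
  have hYfin : ((s56a_H1Res F A) ⁻¹' (W : Set (H1 (s56a_resF F A)))).Finite :=
    hWfin.preimage ((s56a_H1Res F A).injective.injOn)
  refine ⟨hYfin.toFinset, fun x hx => ?_, ?_⟩
  · rw [Set.Finite.coe_toFinset]
    exact hX x hx
  · have h1 : hYfin.toFinset.card ≤ Nat.card W := by
      rw [← Nat.card_eq_card_finite_toFinset hYfin]
      refine Nat.card_le_card_of_injective
        (fun y : ((s56a_H1Res F A) ⁻¹' (W : Set (H1 (s56a_resF F A)))) =>
          (⟨s56a_H1Res F A y.1, y.2⟩ : W)) ?_
      intro y y' hyy'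
      exact Subtype.ext ((s56a_H1Res F A).injective (congrArg Subtype.val hyy'))
    haveI : Module.Finite F k := Module.Finite.of_finite
    have h2 : Nat.card W = Nat.card F ^ Module.finrank F W := Module.natCard_eq_pow_finrank
    have h3 : Nat.card k = Nat.card F ^ Module.finrank F k := Module.natCard_eq_pow_finrank
    have hF : 0 < Nat.card F := Nat.card_pos
    calc hYfin.toFinset.card ≤ Nat.card W := h1
      _ = Nat.card F ^ Module.finrank F W := h2
      _ ≤ Nat.card F ^ (Module.finrank F k * r) := Nat.pow_le_pow_right hF hW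
      _ = Nat.card k ^ r := by rw [h3, pow_mul]

end Card

section Finite

variable (F : Type) [Field F] {k : Type} [Field k] [Algebra F k] {G : Type} [Group G]
  (A : Rep.{0} k G)

/-- `A|_F` is finite over `F` if `A` is finite over `k` and `k` is finite over `F`. -/
theorem s56a_finite_resF [Module.Finite F k] [Module.Finite k A.V] :
    Module.Finite F (s56a_resF F A).V := by
  letI : Module F A.V := Module.compHom A.V (algebraMap F k)
  haveI : IsScalarTower F k A.V := IsScalarTower.of_algebraMap_smul fun _ _ => rfl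
  exact Module.Finite.trans (R := F) k A.V

end Finite

end Fermat.Agent.Lib.S56
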