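import Fermat.Agent.Lib.S56.ADefs
import Fermat.Agent.Lib.S56.ARes

/-!
# Programme W (S56), wall W1-bis: basic properties of `ad⁰ ρ̄` as a Galois module (helper2)

Finite-dimensionality, `dim ad⁰ ρ̄ = 3`, smoothness (`hsm`) and unramifiedness outside the
ramification set of `ρ̄` (`hMur`), for `s56a_ad0 ρbar` and for its restriction of scalars
`s56a_resF F (s56a_ad0 ρbar)` — the hypotheses of the landed Poitou–Tate statement (S55) and of W2.
-/

set_option autoImplicit false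
set_option linter.style.haveILetI false

noncomputable section

namespace Fermat.Agent.Lib.S56

open IsLocalRing groupCohomology Module

local notation "Γℚ" => (AlgebraicClosure ℚ ≃ₐ[ℚ] AlgebraicClosure ℚ)

section Ad0

variable {k : Type} [Field k] (ρbar : ResidualGaloisRep k)

instance s56a_finite_ad0 : Module.Finite k (s56a_ad0 ρbar) :=
  inferInstanceAs (Module.Finite k ↥(s56a_sl ρbar))

/-- `dim_k ad⁰ ρ̄ = 3` (characteristic `≠ 2`). -/
theorem s56a_finrank_ad0 (h2 : (2 : k) ≠ 0) : Module.finrank k (s56a_ad0 ρbar) = 3 := by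
  have h1 := LinearMap.finrank_range_add_finrank_ker (LinearMap.trace k ρbar.V)
  have hend : Module.finrank k (Module.End k ρbar.V) = 4 := by
    rw [Module.finrank_linearMap, ρbar.finrank_eq]
  have hrange : LinearMap.range (LinearMap.trace k ρbar.V) = ⊤ := by
    rw [LinearMap.range_eq_top]
    intro a
    refine ⟨(a / 2) • (1 : Module.End k ρbar.V), ?_⟩
    rw [map_smul, LinearMap.trace_one, ρbar.finrank_eq, smul_eq_mul]
    push_cast
    field_simp
  rw [hrange, finrank_top, Module.finrank_self, hend] at h1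
  show Module.finrank k ↥(LinearMap.ker (LinearMap.trace k ρbar.V)) = 3
  omega

/-- `ad⁰ ρ̄` is a smooth Galois module. -/
theorem s56a_ad0_smooth (m : s56a_ad0 ρbar) :
    ∃ F : IntermediateField ℚ (AlgebraicClosure ℚ), FiniteDimensional ℚ F ∧
      ∀ s ∈ F.fixingSubgroup, (s56a_ad0 ρbar).ρ s m = m := by
  obtain ⟨L, hL, hρL⟩ := ρbar.factorsThroughFiniteLevel
  refine ⟨L, hL, fun s hs => ?_⟩
  have h1 : ∀ t : Γℚ, t ∈ L.fixingSubgroup → ρbar.ρ t = 1 := fun t ht =>
    hρL t fun x hx => (IntermediateField.mem_fixingSubgroup_iff L t).1 ht x hx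
  apply Subtype.ext
  show ρbar.ρ s * s56a_toEnd ρbar m * ρbar.ρ s⁻¹ = s56a_toEnd ρbar m
  rw [h1 s hs, h1 s⁻¹ (inv_mem hs), one_mul, mul_one]

/-- `ad⁰ ρ̄` is unramified wherever `ρ̄` is. -/
theorem s56a_ad0_unramified (q : ℕ) (hq : ρbar.IsUnramifiedAt q)
    (A : ValuationSubring (AlgebraicClosure ℚ)) (hA : A.LiesOverPrime q) (g : Γℚ)
    (hg : g ∈ A.inertiaSubgroupIn ℚ) : (s56a_ad0 ρbar).ρ g = 1 := by
  have h1 : ρbar.ρ g = 1 := hq A hA g hg
  have h2 : ρbar.ρ g⁻¹ = 1 := hq A hA g⁻¹ (inv_mem hg)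
  ext m
  apply Subtype.ext
  show ρbar.ρ g * s56a_toEnd ρbar m * ρbar.ρ g⁻¹ = s56a_toEnd ρbar m
  rw [h1, h2, one_mul, mul_one]

variable (F : Type) [Field F] [Algebra F k]

instance s56a_finite_ad0_res [Module.Finite F k] :
    Module.Finite F (s56a_resF F (s56a_ad0 ρbar)) :=
  s56a_finite_resF F (s56a_ad0 ρbar)

/-- `dim_F ad⁰ ρ̄|_F = 3 [k : F]`. -/
theorem s56a_finrank_ad0_res (h2 : (2 : k) ≠ 0) :
    Module.finrank F (s56a_resF F (s56a_ad0 ρbar)) = Module.finrank F k * 3 := by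
  rw [s56a_finrank_res, s56a_finrank_ad0 ρbar h2]

/-- `ad⁰ ρ̄|_F` is a smooth Galois module (`hsm` of S55 / W2). -/
theorem s56a_ad0_res_smooth (m : s56a_resF F (s56a_ad0 ρbar)) :
    ∃ E : IntermediateField ℚ (AlgebraicClosure ℚ), FiniteDimensional ℚ E ∧
      ∀ s ∈ E.fixingSubgroup, (s56a_resF F (s56a_ad0 ρbar)).ρ s m = m :=
  s56a_ad0_smooth ρbar (s56a_ofRes F _ m)

/-- `ad⁰ ρ̄|_F` is unramified wherever `ρ̄` is (`hMur` of S55 / W2). -/
theorem s56a_ad0_res_unramified (q : ℕ) (hq : ρbar.IsUnramifiedAt q)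
    (A : ValuationSubring (AlgebraicClosure ℚ)) (hA : A.LiesOverPrime q) (g : Γℚ)
    (hg : g ∈ A.inertiaSubgroupIn ℚ) : (s56a_resF F (s56a_ad0 ρbar)).ρ g = 1 := by
  have h := s56a_ad0_unramified ρbar q hq A hA g hg
  ext m
  have := LinearMap.congr_fun h (s56a_ofRes F _ m)
  exact this

end Ad0

end Fermat.Agent.Lib.S56
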