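import Fermat.Agent.Lib.S56.ADefs
import Fermat.Agent.Lib.S56.ARes
import Fermat.Agent.Lib.S30.CycConj

/-!
# Programme W (S56), wall W1-bis: the archimedean local term of `ad⁰ ρ̄` (helper2)

If `det ρ̄` is the mod `p` cyclotomic character (`p` odd), then `det ρ̄(c) = -1` for the complex
conjugation `c`, and `H⁰(G_ℝ, ad⁰ ρ̄)` is the line spanned by `ρ̄(c)`: its dimension is `1` over `k`
and `[k : F]` over a subfield `F`.
-/

set_option autoImplicit false
set_option linter.style.haveILetI false

noncomputable section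

namespace Fermat.Agent.Lib.S56

open IsLocalRing groupCohomology Module ExtCitation

local notation "Γℚ" => (AlgebraicClosure ℚ ≃ₐ[ℚ] AlgebraicClosure ℚ)

section Matrix

variable {k : Type} [Field k]

/-- An involution of determinant `-1` has trace `0`. -/
theorem s56a_trace_eq_zero_of_involution (C : Matrix (Fin 2) (Fin 2) k) (hC2 : C * C = 1)
    (hdet : C.det = -1) : C.trace = 0 := by
  have e00 : C 0 0 * C 0 0 + C 0 1 * C 1 0 = 1 := by
    have := congrFun (congrFun hC2 0) 0
    simpa [Matrix.mul_apply, Fin.sum_univ_two] using this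
  have e01 : C 0 0 * C 0 1 + C 0 1 * C 1 1 = 0 := by
    have := congrFun (congrFun hC2 0) 1
    simpa [Matrix.mul_apply, Fin.sum_univ_two] using this
  have e10 : C 1 0 * C 0 0 + C 1 1 * C 1 0 = 0 := by
    have := congrFun (congrFun hC2 1) 0
    simpa [Matrix.mul_apply, Fin.sum_univ_two] using this
  have e11 : C 1 0 * C 0 1 + C 1 1 * C 1 1 = 1 := by
    have := congrFun (congrFun hC2 1) 1
    simpa [Matrix.mul_apply, Fin.sum_univ_two] using this
  rw [Matrix.det_fin_two] at hdet
  rw [Matrix.trace_fin_two]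
  by_contra ht
  have ha : C 0 0 = 0 := by
    have : C 0 0 * (C 0 0 + C 1 1) = 0 := by linear_combination e00 + hdet
    exact (mul_eq_zero.mp this).resolve_right ht
  have hb : C 0 1 = 0 := by
    have : C 0 1 * (C 0 0 + C 1 1) = 0 := by linear_combination e01
    exact (mul_eq_zero.mp this).resolve_right ht
  rw [ha, hb] at e00
  simp at e00

/-- A trace-zero matrix commuting with a trace-zero involution is a multiple of it
(characteristic `≠ 2`). -/
theorem s56a_eq_smul_of_comm_involution (h2 : (2 : k) ≠ 0) (C X : Matrix (Fin 2) (Fin 2) k)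
    (hC2 : C * C = 1) (hCtr : C.trace = 0) (hXtr : X.trace = 0) (hcomm : C * X = X * C) :
    X = (X 0 0 * C 0 0 + X 0 1 * C 1 0) • C := by
  rw [Matrix.trace_fin_two] at hCtr hXtr
  have hC11 : C 1 1 = -C 0 0 := by linear_combination hCtr
  have hX11 : X 1 1 = -X 0 0 := by linear_combination hXtr
  have e1 : C 0 0 * C 0 0 + C 0 1 * C 1 0 = 1 := by
    have := congrFun (congrFun hC2 0) 0
    simpa [Matrix.mul_apply, Fin.sum_univ_two] using this
  have c00 : C 0 0 * X 0 0 + C 0 1 * X 1 0 = X 0 0 * C 0 0 + X 0 1 * C 1 0 := by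
    have := congrFun (congrFun hcomm 0) 0
    simpa [Matrix.mul_apply, Fin.sum_univ_two] using this
  have c01 : C 0 0 * X 0 1 + C 0 1 * X 1 1 = X 0 0 * C 0 1 + X 0 1 * C 1 1 := by
    have := congrFun (congrFun hcomm 0) 1
    simpa [Matrix.mul_apply, Fin.sum_univ_two] using this
  have c10 : C 1 0 * X 0 0 + C 1 1 * X 1 0 = X 1 0 * C 0 0 + X 1 1 * C 1 0 := by
    have := congrFun (congrFun hcomm 1) 0
    simpa [Matrix.mul_apply, Fin.sum_univ_two] using this
  rw [hC11, hX11] at c01 c10
  have e4 : C 0 1 * X 1 0 = X 0 1 * C 1 0 := by linear_combination c00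
  have e5 : C 0 0 * X 0 1 = X 0 0 * C 0 1 := by
    have : (2 : k) * (C 0 0 * X 0 1 - X 0 0 * C 0 1) = 0 := by linear_combination c01
    have := (mul_eq_zero.mp this).resolve_left h2
    linear_combination this
  have e6 : C 1 0 * X 0 0 = C 0 0 * X 1 0 := by
    have : (2 : k) * (C 1 0 * X 0 0 - C 0 0 * X 1 0) = 0 := by linear_combination c10
    have := (mul_eq_zero.mp this).resolve_left h2
    linear_combination this
  ext i j
  fin_cases i <;> fin_cases j
  · simp only [Fin.zero_eta, Fin.isValue, Matrix.smul_apply, smul_eq_mul]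
    linear_combination (-(X 0 0)) * e1 - C 1 0 * e5
  · simp only [Fin.zero_eta, Fin.isValue, Fin.mk_one, Matrix.smul_apply, smul_eq_mul]
    linear_combination (-(X 0 1)) * e1 + C 0 0 * e5
  · simp only [Fin.zero_eta, Fin.isValue, Fin.mk_one, Matrix.smul_apply, smul_eq_mul]
    linear_combination (-(X 1 0)) * e1 - C 0 0 * e6 + C 1 0 * e4
  · simp only [Fin.isValue, Fin.mk_one, Matrix.smul_apply, smul_eq_mul, hC11, hX11]
    linear_combination (X 0 0) * e1 + C 1 0 * e5

end Matrix

section Odd

variable {k : Type} [Field k] (ρbar : ResidualGaloisRep k)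

theorem s56a_natCast_eq_zero_of_detIsCyclotomic (p : ℕ)
    (hdet : (GaloisRepAdic.ofResidualGaloisRep ρbar).DetIsCyclotomic p) : ((p : ℕ) : k) = 0 := by
  have h1 := hdet.1
  have hbot : maximalIdeal k = ⊥ :=
    (Ideal.eq_bot_or_top _).resolve_right (Ideal.IsMaximal.ne_top inferInstance)
  rw [hbot, Ideal.mem_bot] at h1
  exact h1

theorem s56a_two_ne_zero (p : ℕ) [Fact p.Prime] (hp2 : p ≠ 2) (hp : ((p : ℕ) : k) = 0) :
    (2 : k) ≠ 0 := by
  intro h2
  obtain ⟨m, hm⟩ := (Fact.out : p.Prime).odd_of_ne_two hp2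
  have : ((p : ℕ) : k) = 1 := by
    rw [hm]
    push_cast
    rw [h2, zero_mul, zero_add]
  rw [hp] at this
  exact zero_ne_one this

/-- **Oddness**: `det ρ̄(c) = -1`. -/
theorem s56a_det_complexConjugation (p : ℕ) [Fact p.Prime]
    (hdet : (GaloisRepAdic.ofResidualGaloisRep ρbar).DetIsCyclotomic p) :
    LinearMap.det (ρbar.ρ complexConjugation) = -1 := by
  have hp0 := s56a_natCast_eq_zero_of_detIsCyclotomic ρbar p hdet
  have hpp : p.Prime := Fact.out
  have h := hdet.2 1 complexConjugation (p - 1) (fun μ hμ =>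
    Fermat.Agent.Lib.S30.s30c2_conj_root μ p (by rwa [pow_one] at hμ) hpp.ne_zero)
  rw [pow_one, hp0, Ideal.span_singleton_zero, Ideal.mem_bot, sub_eq_zero] at h
  have h1 : ((p - 1 : ℕ) : k) = -1 := by
    rw [Nat.cast_sub hpp.one_le, hp0, Nat.cast_one, zero_sub]
  rw [h1] at h
  exact h

end Odd

section Inv

variable {k : Type} [Field k] (ρbar : ResidualGaloisRep k)

theorem s56a_mem_zpowers_archimedeanGen (x : ↥archimedeanDecomposition) :
    x ∈ Subgroup.zpowers archimedeanGen := by
  obtain ⟨n, hn⟩ := Subgroup.mem_zpowers_iff.1 x.2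
  refine Subgroup.mem_zpowers_iff.2 ⟨n, Subtype.ext ?_⟩
  rw [Subgroup.coe_zpow]
  exact hn

theorem s56a_rho_conj_mul_self :
    ρbar.ρ complexConjugation * ρbar.ρ complexConjugation = 1 := by
  rw [← map_mul, complexConjugation_mul_self, map_one]

/-- The invariants of complex conjugation on `ad⁰ ρ̄`: the trace-zero endomorphisms commuting
with `ρ̄(c)`. -/
theorem s56a_mem_invariants_arch (X : s56a_ad0 ρbar) :
    X ∈ (Rep.res archimedeanLoc (s56a_ad0 ρbar)).ρ.invariants ↔
      ρbar.ρ complexConjugation * s56a_toEnd ρbar X =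
        s56a_toEnd ρbar X * ρbar.ρ complexConjugation := by
  rw [Representation.mem_invariants_iff_of_forall_mem_zpowers _ archimedeanGen
    s56a_mem_zpowers_archimedeanGen]
  have hCC := s56a_rho_conj_mul_self ρbar
  have h1 : ((Rep.res archimedeanLoc (s56a_ad0 ρbar)).ρ archimedeanGen X = X) ↔
      ρbar.ρ complexConjugation * s56a_toEnd ρbar X * ρbar.ρ complexConjugation⁻¹ =
        s56a_toEnd ρbar X := by
    constructor
    · intro h
      exact congrArg (s56a_toEnd ρbar) h
    · intro h
      exact Subtype.ext h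
  rw [h1, complexConjugation_inv]
  constructor
  · intro h
    calc ρbar.ρ complexConjugation * s56a_toEnd ρbar X
        = ρbar.ρ complexConjugation * s56a_toEnd ρbar X *
            (ρbar.ρ complexConjugation * ρbar.ρ complexConjugation) := by rw [hCC, mul_one]
      _ = (ρbar.ρ complexConjugation * s56a_toEnd ρbar X * ρbar.ρ complexConjugation) *
            ρbar.ρ complexConjugation := by simp only [mul_assoc]
      _ = s56a_toEnd ρbar X * ρbar.ρ complexConjugation := by rw [h]
  · intro h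
    rw [h, mul_assoc, hCC, mul_one]

/-- `dim_k H⁰(G_ℝ, ad⁰ ρ̄) = 1`. -/
theorem s56a_finrank_invariants_arch (p : ℕ) [Fact p.Prime] (hp2 : p ≠ 2)
    (hdet : (GaloisRepAdic.ofResidualGaloisRep ρbar).DetIsCyclotomic p) :
    Module.finrank k (Rep.res archimedeanLoc (s56a_ad0 ρbar)).ρ.invariants = 1 := by
  have hp0 := s56a_natCast_eq_zero_of_detIsCyclotomic ρbar p hdet
  have h2 := s56a_two_ne_zero (k := k) p hp2 hp0
  set C := ρbar.ρ complexConjugation with hC
  have hCC : C * C = 1 := s56a_rho_conj_mul_self ρbar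
  have hCdet : LinearMap.det C = -1 := s56a_det_complexConjugation ρbar p hdet
  let b := Module.finBasisOfFinrankEq k ρbar.V ρbar.finrank_eq
  let T := LinearMap.toMatrixAlgEquiv b
  have hTtr : ∀ f : Module.End k ρbar.V, LinearMap.trace k ρbar.V f = (T f).trace :=
    fun f => LinearMap.trace_eq_matrix_trace k b f
  have hCm2 : T C * T C = 1 := by rw [← map_mul, hCC, map_one]
  have hCmdet : (T C).det = -1 := by
    rw [← hCdet]
    exact LinearMap.det_toMatrix b C
  have hCmtr : (T C).trace = 0 := s56a_trace_eq_zero_of_involution (T C) hCm2 hCmdet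
  have hCsl : C ∈ s56a_sl ρbar := by rw [s56a_mem_sl, hTtr, hCmtr]
  let C₀ : s56a_ad0 ρbar := (⟨C, hCsl⟩ : ↥(s56a_sl ρbar))
  have hC₀ : s56a_toEnd ρbar C₀ = C := rfl
  have hC₀ne : C₀ ≠ 0 := by
    intro h0
    have h1 : C = 0 := by rw [← hC₀, h0, map_zero]
    rw [h1, mul_zero] at hCC
    haveI : Nontrivial ρbar.V := Module.nontrivial_of_finrank_pos (R := k) (by
      rw [ρbar.finrank_eq]; norm_num)
    exact zero_ne_one hCC
  have hspan : (Rep.res archimedeanLoc (s56a_ad0 ρbar)).ρ.invariants =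
      Submodule.span k {C₀} := by
    ext X
    rw [s56a_mem_invariants_arch, Submodule.mem_span_singleton]
    constructor
    · intro hcomm
      have hXtr : (T (s56a_toEnd ρbar X)).trace = 0 := by
        rw [← hTtr]
        exact (s56a_mem_sl ρbar _).1 X.2
      have hcommM : T C * T (s56a_toEnd ρbar X) = T (s56a_toEnd ρbar X) * T C := by
        rw [← map_mul, ← map_mul, hcomm]
      have key := s56a_eq_smul_of_comm_involution h2 (T C) (T (s56a_toEnd ρbar X)) hCm2 hCmtr
        hXtr hcommM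
      refine ⟨T (s56a_toEnd ρbar X) 0 0 * T C 0 0 + T (s56a_toEnd ρbar X) 0 1 * T C 1 0, ?_⟩
      apply Subtype.ext
      apply T.injective
      show T (s56a_toEnd ρbar
        ((T (s56a_toEnd ρbar X) 0 0 * T C 0 0 + T (s56a_toEnd ρbar X) 0 1 * T C 1 0) • C₀)) =
          T (s56a_toEnd ρbar X)
      rw [map_smul, hC₀, map_smul]
      exact key.symm
    · rintro ⟨a, rfl⟩
      rw [map_smul, hC₀, mul_smul_comm, smul_mul_assoc]
  rw [hspan]
  exact finrank_span_singleton hC₀ne

/-- `dim_F H⁰(G_ℝ, ad⁰ ρ̄|_F) = [k : F]`. -/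
theorem s56a_finrank_invariants_arch_res (F : Type) [Field F] [Algebra F k] (p : ℕ)
    [Fact p.Prime] (hp2 : p ≠ 2)
    (hdet : (GaloisRepAdic.ofResidualGaloisRep ρbar).DetIsCyclotomic p) :
    Module.finrank F (Rep.res archimedeanLoc (s56a_resF F (s56a_ad0 ρbar))).ρ.invariants =
      Module.finrank F k := by
  have h := s56a_finrank_invariants_res F (Rep.res archimedeanLoc (s56a_ad0 ρbar))
  rw [s56a_finrank_invariants_arch ρbar p hp2 hdet, mul_one] at h
  exact h

end Inv

end Fermat.Agent.Lib.S56
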