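import Mathlib

/-!
# Programme W (S56), wall W1: `2 × 2` matrices over the dual numbers (helper2)

A multiplicative family `σ ↦ M σ` over `k[ε]` with constant part `σ ↦ M̄ σ` gives the cocycle
`C σ = (ε-part of M σ) * M̄ σ⁻¹`.
-/

set_option autoImplicit false

noncomputable section

namespace Fermat.Agent.Lib.S56

section DualMat

variable {k : Type} [Field k]

/-- Constant part of a matrix over `k[ε]`. -/
def s56a_fstM (M : Matrix (Fin 2) (Fin 2) (DualNumber k)) : Matrix (Fin 2) (Fin 2) k :=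
  M.map TrivSqZeroExt.fst

/-- `ε`-part of a matrix over `k[ε]`. -/
def s56a_sndM (M : Matrix (Fin 2) (Fin 2) (DualNumber k)) : Matrix (Fin 2) (Fin 2) k :=
  M.map TrivSqZeroExt.snd

@[simp] theorem s56a_fstM_apply (M : Matrix (Fin 2) (Fin 2) (DualNumber k)) (i j : Fin 2) :
    s56a_fstM M i j = (M i j).fst := rfl

@[simp] theorem s56a_sndM_apply (M : Matrix (Fin 2) (Fin 2) (DualNumber k)) (i j : Fin 2) :
    s56a_sndM M i j = (M i j).snd := rfl

theorem s56a_fstM_mul (M N : Matrix (Fin 2) (Fin 2) (DualNumber k)) :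
    s56a_fstM (M * N) = s56a_fstM M * s56a_fstM N := by
  ext i j
  simp [Matrix.mul_apply, TrivSqZeroExt.fst_sum]

theorem s56a_sndM_mul (M N : Matrix (Fin 2) (Fin 2) (DualNumber k)) :
    s56a_sndM (M * N) = s56a_fstM M * s56a_sndM N + s56a_sndM M * s56a_fstM N := by
  ext i j
  simp only [s56a_sndM_apply, Matrix.mul_apply, Matrix.add_apply, s56a_fstM_apply,
    TrivSqZeroExt.snd_sum, TrivSqZeroExt.snd_mul, smul_eq_mul, MulOpposite.smul_eq_mul_unop,
    MulOpposite.unop_op, Finset.sum_add_distrib]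

theorem s56a_fstM_one : s56a_fstM (1 : Matrix (Fin 2) (Fin 2) (DualNumber k)) = 1 := by
  ext i j
  by_cases h : i = j <;> simp [Matrix.one_apply, h]

theorem s56a_sndM_one : s56a_sndM (1 : Matrix (Fin 2) (Fin 2) (DualNumber k)) = 0 := by
  ext i j
  by_cases h : i = j <;> simp [Matrix.one_apply, h]

/-- The matrix `M̄ + ε E` over `k[ε]`. -/
def s56a_mkM (M E : Matrix (Fin 2) (Fin 2) k) : Matrix (Fin 2) (Fin 2) (DualNumber k) :=
  Matrix.of fun i j => TrivSqZeroExt.inl (M i j) + TrivSqZeroExt.inr (E i j)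

@[simp] theorem s56a_fstM_mkM (M E : Matrix (Fin 2) (Fin 2) k) : s56a_fstM (s56a_mkM M E) = M := by
  ext i j; simp [s56a_mkM]

@[simp] theorem s56a_sndM_mkM (M E : Matrix (Fin 2) (Fin 2) k) : s56a_sndM (s56a_mkM M E) = E := by
  ext i j; simp [s56a_mkM]

theorem s56a_mkM_fst_snd (M : Matrix (Fin 2) (Fin 2) (DualNumber k)) :
    s56a_mkM (s56a_fstM M) (s56a_sndM M) = M := by
  ext i j
  · simp [s56a_mkM]
  · simp [s56a_mkM]

theorem s56a_ext_fst_snd {M N : Matrix (Fin 2) (Fin 2) (DualNumber k)}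
    (h1 : s56a_fstM M = s56a_fstM N) (h2 : s56a_sndM M = s56a_sndM N) : M = N := by
  rw [← s56a_mkM_fst_snd M, ← s56a_mkM_fst_snd N, h1, h2]

/-- `snd (det M)` for a matrix whose constant part is `1` is the trace of the `ε`-part. -/
theorem s56a_snd_det_of_fst_one (U : Matrix (Fin 2) (Fin 2) (DualNumber k))
    (h : s56a_fstM U = 1) : (U.det).snd = (s56a_sndM U).trace := by
  have h00 : (U 0 0).fst = 1 := by have := congrFun (congrFun h 0) 0; simpa using this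
  have h11 : (U 1 1).fst = 1 := by have := congrFun (congrFun h 1) 1; simpa using this
  have h01 : (U 0 1).fst = 0 := by have := congrFun (congrFun h 0) 1; simpa using this
  have h10 : (U 1 0).fst = 0 := by have := congrFun (congrFun h 1) 0; simpa using this
  rw [Matrix.det_fin_two, Matrix.trace_fin_two]
  simp only [TrivSqZeroExt.snd_sub, TrivSqZeroExt.snd_mul, smul_eq_mul,
    MulOpposite.smul_eq_mul_unop, MulOpposite.unop_op, s56a_sndM_apply, h00, h11, h01, h10]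
  ring

end DualMat

section Cocycle

variable {k : Type} [Field k] {G : Type*} [Group G]
  (Mb : G →* Matrix (Fin 2) (Fin 2) k) (M : G →* Matrix (Fin 2) (Fin 2) (DualNumber k))

/-- `inl` applied entrywise. -/
def s56a_inlM (N : Matrix (Fin 2) (Fin 2) k) : Matrix (Fin 2) (Fin 2) (DualNumber k) :=
  N.map (TrivSqZeroExt.inlHom k k)

@[simp] theorem s56a_fstM_inlM (N : Matrix (Fin 2) (Fin 2) k) : s56a_fstM (s56a_inlM N) = N := by
  ext i j; simp [s56a_inlM]

@[simp] theorem s56a_sndM_inlM (N : Matrix (Fin 2) (Fin 2) k) : s56a_sndM (s56a_inlM N) = 0 := by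
  ext i j; simp [s56a_inlM]

theorem s56a_det_inlM (N : Matrix (Fin 2) (Fin 2) k) :
    (s56a_inlM N).det = TrivSqZeroExt.inl N.det := by
  have := RingHom.map_det (TrivSqZeroExt.inlHom k k) N
  rw [TrivSqZeroExt.inlHom_apply] at this
  rw [this]
  rfl

theorem s56a_Mb_mul_inv (σ : G) : Mb σ * Mb σ⁻¹ = 1 := by
  rw [← map_mul, mul_inv_cancel, map_one]

theorem s56a_Mb_inv_mul (σ : G) : Mb σ⁻¹ * Mb σ = 1 := by
  rw [← map_mul, inv_mul_cancel, map_one]

/-- The cocycle `C σ = (ε-part of M σ) * M̄ σ⁻¹`. -/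
def s56a_cocM (σ : G) : Matrix (Fin 2) (Fin 2) k := s56a_sndM (M σ) * Mb σ⁻¹

theorem s56a_cocM_mul_Mb (σ : G) : s56a_cocM Mb M σ * Mb σ = s56a_sndM (M σ) := by
  rw [s56a_cocM, mul_assoc, s56a_Mb_inv_mul, mul_one]

variable (hM : ∀ σ, s56a_fstM (M σ) = Mb σ)

include hM in
theorem s56a_cocM_mul (σ τ : G) :
    s56a_cocM Mb M (σ * τ) = s56a_cocM Mb M σ + Mb σ * s56a_cocM Mb M τ * Mb σ⁻¹ := by
  simp only [s56a_cocM]
  rw [map_mul M, s56a_sndM_mul, hM, hM, mul_inv_rev, map_mul Mb, add_mul, add_comm]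
  congr 1
  · rw [mul_assoc (s56a_sndM (M σ)), ← mul_assoc (Mb τ), s56a_Mb_mul_inv, one_mul]
  · simp only [mul_assoc]

include hM in
theorem s56a_trace_cocM (hdet : ∀ σ, (M σ).det.snd = 0) (σ : G) :
    (s56a_cocM Mb M σ).trace = 0 := by
  set U := M σ * s56a_inlM (Mb σ⁻¹) with hU
  have h1 : s56a_fstM U = 1 := by
    rw [hU, s56a_fstM_mul, hM, s56a_fstM_inlM, s56a_Mb_mul_inv]
  have h2 : s56a_sndM U = s56a_cocM Mb M σ := by
    rw [hU, s56a_sndM_mul, s56a_sndM_inlM, mul_zero, zero_add, s56a_fstM_inlM, s56a_cocM]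
  have h3 : U.det.snd = 0 := by
    rw [hU, Matrix.det_mul, s56a_det_inlM, TrivSqZeroExt.snd_mul, TrivSqZeroExt.snd_inl, hdet σ]
    simp
  rw [← h2, ← s56a_snd_det_of_fst_one U h1, h3]

end Cocycle

section Conj

variable {k : Type} [Field k] {G : Type*} [Group G]
  (Mb : G →* Matrix (Fin 2) (Fin 2) k) (M M' : G →* Matrix (Fin 2) (Fin 2) (DualNumber k))

theorem s56a_mkM_one_mul_neg (X : Matrix (Fin 2) (Fin 2) k) :
    s56a_mkM 1 X * s56a_mkM 1 (-X) = 1 := by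
  apply s56a_ext_fst_snd
  · rw [s56a_fstM_mul, s56a_fstM_mkM, s56a_fstM_mkM, s56a_fstM_one, mul_one]
  · rw [s56a_sndM_mul, s56a_fstM_mkM, s56a_fstM_mkM, s56a_sndM_mkM, s56a_sndM_mkM, s56a_sndM_one,
      one_mul, mul_one, neg_add_cancel]

theorem s56a_mkM_neg_mul_one (X : Matrix (Fin 2) (Fin 2) k) :
    s56a_mkM 1 (-X) * s56a_mkM 1 X = 1 := by
  have := s56a_mkM_one_mul_neg (-X)
  rwa [neg_neg] at this

/-- Cohomologous cocycles come from conjugate matrix families. -/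
theorem s56a_conj_of_coboundary (hM : ∀ σ, s56a_fstM (M σ) = Mb σ)
    (hM' : ∀ σ, s56a_fstM (M' σ) = Mb σ) (X : Matrix (Fin 2) (Fin 2) k)
    (h : ∀ σ, s56a_cocM Mb M σ - s56a_cocM Mb M' σ = Mb σ * X * Mb σ⁻¹ - X) (σ : G) :
    M' σ = s56a_mkM 1 X * M σ * s56a_mkM 1 (-X) := by
  apply s56a_ext_fst_snd
  · rw [s56a_fstM_mul, s56a_fstM_mul, s56a_fstM_mkM, s56a_fstM_mkM, hM, hM', one_mul, mul_one]
  · rw [s56a_sndM_mul, s56a_fstM_mul, s56a_sndM_mul, s56a_fstM_mkM, s56a_fstM_mkM, s56a_sndM_mkM,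
      s56a_sndM_mkM, hM, one_mul, one_mul, mul_one, ← s56a_cocM_mul_Mb Mb M' σ,
      ← s56a_cocM_mul_Mb Mb M σ]
    have h1 : s56a_cocM Mb M' σ = s56a_cocM Mb M σ - (Mb σ * X * Mb σ⁻¹ - X) := by
      rw [← h σ]; abel
    rw [h1, sub_mul, sub_mul, mul_assoc (Mb σ * X), s56a_Mb_inv_mul, mul_one, mul_neg]
    abel

end Conj

end Fermat.Agent.Lib.S56
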