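import Fermat.Agent.Lib.S56.ADefs
import Fermat.Agent.Lib.S56.ADualMat
import Fermat.Agent.Lib.S53.MatrixRep

/-!
# Programme W (S56), wall W1: the cocycle of a first-order matrix deformation (helper2)

For a basis `b` of `V̄` and a multiplicative family `σ ↦ M σ ∈ M₂(k[ε])` with constant part the
matrices of `ρ̄` in `b` and `ε`-free determinant, `s56a_cocOf` is the cocycle
`σ ↦ (ε-part of M σ) * M̄ σ⁻¹` with values in `ad⁰ ρ̄`; the matrices of `s56a_liftRep` of this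
cocycle in the basis `s56a_epsBasis b` are again `M σ`.
-/

set_option autoImplicit false

noncomputable section

namespace Fermat.Agent.Lib.S56

open IsLocalRing groupCohomology Module
open Fermat.Agent.Lib.S53 (matOf matOfRes matOf_apply matOfRes_apply)

local notation "Γℚ" => (AlgebraicClosure ℚ ≃ₐ[ℚ] AlgebraicClosure ℚ)

section Coc

variable {k : Type} [Field k] (ρbar : ResidualGaloisRep k) (b : Basis (Fin 2) k ρbar.V)

theorem s56a_toLin_matOfRes (σ : Γℚ) :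
    Matrix.toLinAlgEquiv b (matOfRes ρbar b σ) = ρbar.ρ σ :=
  Matrix.toLinAlgEquiv_toMatrixAlgEquiv b (ρbar.ρ σ)

theorem s56a_trace_toLin (C : Matrix (Fin 2) (Fin 2) k) :
    LinearMap.trace k ρbar.V (Matrix.toLinAlgEquiv b C) = C.trace := by
  rw [LinearMap.trace_eq_matrix_trace k b]
  congr 1
  exact LinearMap.toMatrix_toLin b b C

variable (M : Γℚ →* Matrix (Fin 2) (Fin 2) (DualNumber k))

/-- The value at `σ` of the cocycle attached to `M`. -/
def s56a_cocFun (hM : ∀ σ, s56a_fstM (M σ) = matOfRes ρbar b σ)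
    (hdet : ∀ σ, (M σ).det.snd = 0) (σ : Γℚ) : s56a_ad0 ρbar :=
  (⟨Matrix.toLinAlgEquiv b (s56a_cocM (matOfRes ρbar b) M σ), by
    rw [s56a_mem_sl, s56a_trace_toLin, s56a_trace_cocM _ _ hM hdet]⟩ : ↥(s56a_sl ρbar))

theorem s56a_toEnd_cocFun (hM : ∀ σ, s56a_fstM (M σ) = matOfRes ρbar b σ)
    (hdet : ∀ σ, (M σ).det.snd = 0) (σ : Γℚ) :
    s56a_toEnd ρbar (s56a_cocFun ρbar b M hM hdet σ) =
      Matrix.toLinAlgEquiv b (s56a_cocM (matOfRes ρbar b) M σ) := rfl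

theorem s56a_cocFun_mem (hM : ∀ σ, s56a_fstM (M σ) = matOfRes ρbar b σ)
    (hdet : ∀ σ, (M σ).det.snd = 0) :
    s56a_cocFun ρbar b M hM hdet ∈ cocycles₁ (s56a_ad0 ρbar) := by
  rw [mem_cocycles₁_iff]
  intro g h
  apply Subtype.ext
  show Matrix.toLinAlgEquiv b (s56a_cocM (matOfRes ρbar b) M (g * h)) =
    ρbar.ρ g * Matrix.toLinAlgEquiv b (s56a_cocM (matOfRes ρbar b) M h) * ρbar.ρ g⁻¹ +
      Matrix.toLinAlgEquiv b (s56a_cocM (matOfRes ρbar b) M g)
  rw [s56a_cocM_mul _ _ hM, map_add, map_mul, map_mul, s56a_toLin_matOfRes, s56a_toLin_matOfRes,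
    add_comm]

/-- The cocycle attached to `M`. -/
def s56a_cocOf (hM : ∀ σ, s56a_fstM (M σ) = matOfRes ρbar b σ)
    (hdet : ∀ σ, (M σ).det.snd = 0) : cocycles₁ (s56a_ad0 ρbar) :=
  ⟨s56a_cocFun ρbar b M hM hdet, s56a_cocFun_mem ρbar b M hM hdet⟩

theorem s56a_toEnd_cocOf (hM : ∀ σ, s56a_fstM (M σ) = matOfRes ρbar b σ)
    (hdet : ∀ σ, (M σ).det.snd = 0) (σ : Γℚ) :
    s56a_toEnd ρbar ((s56a_cocOf ρbar b M hM hdet).1 σ) =
      Matrix.toLinAlgEquiv b (s56a_cocM (matOfRes ρbar b) M σ) := rfl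

end Coc

section EpsBasis

variable {k : Type} [Field k] (ρbar : ResidualGaloisRep k) (b : Basis (Fin 2) k ρbar.V)

/-- The `k[ε]`-basis of `V̄[ε]` attached to a `k`-basis of `V̄`. -/
def s56a_epsBasis : Basis (Fin 2) (DualNumber k) (s56a_VEps ρbar) :=
  Basis.ofEquivFun (s56a_VEps_equivFun ρbar b)

theorem s56a_epsBasis_repr (x : s56a_VEps ρbar) (i : Fin 2) :
    (s56a_epsBasis ρbar b).repr x i =
      TrivSqZeroExt.inl (b.repr x.re i) + TrivSqZeroExt.inr (b.repr x.im i) := rfl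

theorem s56a_equivFun_symm_single (j : Fin 2) :
    b.equivFun.symm (Pi.single j (1 : k)) = b j := by
  apply b.equivFun.injective
  rw [LinearEquiv.apply_symm_apply]
  funext i
  rw [Basis.equivFun_self, Pi.single_apply]
  by_cases h : i = j
  · rw [if_pos h, if_pos h.symm]
  · rw [if_neg h, if_neg (Ne.symm h)]

theorem s56a_epsBasis_apply (j : Fin 2) :
    s56a_epsBasis ρbar b j = s56a_VEps.mk (b j) 0 := by
  rw [s56a_epsBasis, Basis.coe_ofEquivFun]
  show s56a_VEps.mk (b.equivFun.symm fun i => ((Pi.single j (1 : DualNumber k) : Fin 2 → DualNumber k) i).fst)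
    (b.equivFun.symm fun i => ((Pi.single j (1 : DualNumber k) : Fin 2 → DualNumber k) i).snd) = _
  have h1 : (fun i => ((Pi.single j (1 : DualNumber k) : Fin 2 → DualNumber k) i).fst) =
      Pi.single j (1 : k) := by
    funext i
    by_cases h : i = j
    · subst h; simp
    · simp [h]
  have h2 : (fun i => ((Pi.single j (1 : DualNumber k) : Fin 2 → DualNumber k) i).snd) =
      (0 : Fin 2 → k) := by
    funext i
    by_cases h : i = j
    · subst h; simp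
    · simp [h]
  rw [h1, h2, s56a_equivFun_symm_single, map_zero]

theorem s56a_matOf_liftRep_apply (c : cocycles₁ (s56a_ad0 ρbar)) (hc : s56a_IsLevel c.1) (σ : Γℚ)
    (i j : Fin 2) :
    matOf (s56a_liftRep ρbar c hc) (s56a_epsBasis ρbar b) σ i j =
      TrivSqZeroExt.inl (b.repr (ρbar.ρ σ (b j)) i) +
        TrivSqZeroExt.inr (b.repr (s56a_toEnd ρbar (c.1 σ) (ρbar.ρ σ (b j))) i) := by
  have h1 : matOf (s56a_liftRep ρbar c hc) (s56a_epsBasis ρbar b) σ i j =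
      (s56a_epsBasis ρbar b).repr ((s56a_liftRep ρbar c hc).ρ σ (s56a_epsBasis ρbar b j)) i := by
    rw [matOf_apply (s56a_liftRep ρbar c hc) (s56a_epsBasis ρbar b) σ]
    exact LinearMap.toMatrix_apply _ _ _ i j
  rw [h1]
  show (s56a_epsBasis ρbar b).repr (s56a_VEps.mk (ρbar.ρ σ (s56a_epsBasis ρbar b j).re)
    (ρbar.ρ σ (s56a_epsBasis ρbar b j).im +
      s56a_toEnd ρbar (c.1 σ) (ρbar.ρ σ (s56a_epsBasis ρbar b j).re))) i = _
  rw [s56a_epsBasis_apply, s56a_epsBasis_repr]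
  simp only [s56a_VEps.re_mk, s56a_VEps.im_mk, map_zero, zero_add]

theorem s56a_matOf_liftRep (c : cocycles₁ (s56a_ad0 ρbar)) (hc : s56a_IsLevel c.1) (σ : Γℚ) :
    matOf (s56a_liftRep ρbar c hc) (s56a_epsBasis ρbar b) σ =
      s56a_mkM (matOfRes ρbar b σ)
        (LinearMap.toMatrix b b (s56a_toEnd ρbar (c.1 σ)) * matOfRes ρbar b σ) := by
  refine Matrix.ext fun i j => ?_
  rw [s56a_matOf_liftRep_apply, s56a_mkM, Matrix.of_apply, matOfRes_apply,
    ← LinearMap.toMatrix_mul, LinearMap.toMatrix_apply, LinearMap.toMatrix_apply,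
    Module.End.mul_apply]

end EpsBasis

section Dict

variable {k : Type} [Field k] (ρbar : ResidualGaloisRep k) (b : Basis (Fin 2) k ρbar.V)
  (M : Γℚ →* Matrix (Fin 2) (Fin 2) (DualNumber k))

/-- The matrices of the lift attached to the cocycle of `M` are the `M σ`. -/
theorem s56a_matOf_liftRep_cocOf (hM : ∀ σ, s56a_fstM (M σ) = matOfRes ρbar b σ)
    (hdet : ∀ σ, (M σ).det.snd = 0) (hc : s56a_IsLevel (s56a_cocOf ρbar b M hM hdet).1) (σ : Γℚ) :
    matOf (s56a_liftRep ρbar (s56a_cocOf ρbar b M hM hdet) hc) (s56a_epsBasis ρbar b) σ = M σ := by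
  rw [s56a_matOf_liftRep, s56a_toEnd_cocOf]
  have h1 : LinearMap.toMatrix b b
      (Matrix.toLinAlgEquiv b (s56a_cocM (matOfRes ρbar b) M σ)) =
      s56a_cocM (matOfRes ρbar b) M σ := LinearMap.toMatrix_toLin b b _
  rw [h1, s56a_cocM_mul_Mb, ← hM σ, s56a_mkM_fst_snd]

theorem s56a_isLevel_cocOf (hM : ∀ σ, s56a_fstM (M σ) = matOfRes ρbar b σ)
    (hdet : ∀ σ, (M σ).det.snd = 0)
    (hcont : ∃ L : IntermediateField ℚ (AlgebraicClosure ℚ), FiniteDimensional ℚ L ∧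
      ∀ σ : Γℚ, (∀ x ∈ L, σ x = x) → M σ = 1) :
    s56a_IsLevel (s56a_cocOf ρbar b M hM hdet).1 := by
  obtain ⟨L, hL, h⟩ := hcont
  refine ⟨L, hL, fun g s hs => ?_⟩
  have hs1 : M s = 1 := by
    refine h s fun x hx => ?_
    have := (IntermediateField.mem_fixingSubgroup_iff L s).1 hs x hx
    exact this
  apply Subtype.ext
  show Matrix.toLinAlgEquiv b (s56a_cocM (matOfRes ρbar b) M (g * s)) =
    Matrix.toLinAlgEquiv b (s56a_cocM (matOfRes ρbar b) M g)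
  rw [s56a_cocM_mul _ _ hM]
  have h0 : s56a_cocM (matOfRes ρbar b) M s = 0 := by
    rw [s56a_cocM, hs1, s56a_sndM_one, zero_mul]
  rw [h0, mul_zero, zero_mul, add_zero]

variable (M' : Γℚ →* Matrix (Fin 2) (Fin 2) (DualNumber k))

/-- Two matrix families with cohomologous cocycles are conjugate. -/
theorem s56a_conj_of_H1_eq (hM : ∀ σ, s56a_fstM (M σ) = matOfRes ρbar b σ)
    (hdet : ∀ σ, (M σ).det.snd = 0) (hM' : ∀ σ, s56a_fstM (M' σ) = matOfRes ρbar b σ)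
    (hdet' : ∀ σ, (M' σ).det.snd = 0)
    (h : (H1π (s56a_ad0 ρbar)).hom (s56a_cocOf ρbar b M hM hdet) =
      (H1π (s56a_ad0 ρbar)).hom (s56a_cocOf ρbar b M' hM' hdet')) :
    ∃ U U' : Matrix (Fin 2) (Fin 2) (DualNumber k), U * U' = 1 ∧ U' * U = 1 ∧
      ∀ σ, M' σ = U * M σ * U' := by
  have h1 := (H1π_eq_iff (s56a_cocOf ρbar b M hM hdet) (s56a_cocOf ρbar b M' hM' hdet')).1 h
  obtain ⟨X, hX⟩ := h1
  set Xm : Matrix (Fin 2) (Fin 2) k := LinearMap.toMatrixAlgEquiv b (s56a_toEnd ρbar X) with hXm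
  have hTX : Matrix.toLinAlgEquiv b Xm = s56a_toEnd ρbar X :=
    Matrix.toLinAlgEquiv_toMatrixAlgEquiv b _
  refine ⟨s56a_mkM 1 Xm, s56a_mkM 1 (-Xm), s56a_mkM_one_mul_neg Xm, s56a_mkM_neg_mul_one Xm,
    s56a_conj_of_coboundary (matOfRes ρbar b) M M' hM hM' Xm fun σ => ?_⟩
  apply (Matrix.toLinAlgEquiv b).injective
  rw [map_sub, map_sub, map_mul, map_mul, s56a_toLin_matOfRes, s56a_toLin_matOfRes, hTX,
    ← s56a_toEnd_cocOf ρbar b M hM hdet, ← s56a_toEnd_cocOf ρbar b M' hM' hdet', ← map_sub]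
  have h2 := congrFun hX σ
  rw [d₀₁_hom_apply] at h2
  have h3 : (s56a_cocOf ρbar b M hM hdet).1 σ - (s56a_cocOf ρbar b M' hM' hdet').1 σ =
      (s56a_ad0 ρbar).ρ σ X - X := h2.symm
  rw [h3, map_sub]
  rfl

end Dict

end Fermat.Agent.Lib.S56
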