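import Fermat.Agent.Lib.S56.ADefs
import Fermat.Agent.Lib.S53.MatrixRep

/-!
# Programme W (S56), wall W1: stability of the primitive local conditions (helper2)

Invariance under equivalence (any local ring) and stability under base change (surjective base
change for `IsFlatAt`) of `DetIsCyclotomic`, `IsUnramifiedAt`, `IsUnipotentOnInertiaAt`,
`IsStrictOrdinaryAt`, `IsFlatAt`.
-/

set_option autoImplicit false
set_option linter.style.haveILetI false

noncomputable section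

namespace Fermat.Agent.Lib.S56

open IsLocalRing TensorProduct

local notation "Γℚ" => (AlgebraicClosure ℚ ≃ₐ[ℚ] AlgebraicClosure ℚ)

section Equiv

variable {A : Type} [CommRing A] [IsLocalRing A] {ρ₁ ρ₂ : GaloisRepAdic A}

theorem s56a_equiv_rho (e : GaloisRepAdic.Equiv ρ₁ ρ₂) (σ : Γℚ) :
    ρ₂.ρ σ = e.toLinearEquiv.conj (ρ₁.ρ σ) := by
  ext x
  rw [LinearEquiv.conj_apply_apply, e.map_apply, LinearEquiv.apply_symm_apply]

theorem s56a_detIsCyclotomic_of_equiv (e : GaloisRepAdic.Equiv ρ₁ ρ₂) {p : ℕ}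
    (h : ρ₁.DetIsCyclotomic p) : ρ₂.DetIsCyclotomic p := by
  refine ⟨h.1, fun n σ a ha => ?_⟩
  rw [s56a_equiv_rho e, LinearEquiv.conj_apply, LinearMap.comp_assoc, LinearMap.det_conj]
  exact h.2 n σ a ha

theorem s56a_isUnramifiedAt_of_equiv (e : GaloisRepAdic.Equiv ρ₁ ρ₂) {q : ℕ}
    (h : ρ₁.IsUnramifiedAt q) : ρ₂.IsUnramifiedAt q := by
  intro P hP σ hσ
  rw [s56a_equiv_rho e, h P hP σ hσ]
  ext x
  simp [LinearEquiv.conj_apply_apply]

theorem s56a_isUnipotentOnInertiaAt_of_equiv (e : GaloisRepAdic.Equiv ρ₁ ρ₂) {q : ℕ}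
    (h : ρ₁.IsUnipotentOnInertiaAt q) : ρ₂.IsUnipotentOnInertiaAt q := by
  intro P hP σ hσ
  rw [s56a_equiv_rho e, LinearEquiv.charpoly_conj]
  exact h P hP σ hσ

theorem s56a_isStrictOrdinaryAt_of_equiv (e : GaloisRepAdic.Equiv ρ₁ ρ₂) {p : ℕ}
    (h : ρ₁.IsStrictOrdinaryAt p) : ρ₂.IsStrictOrdinaryAt p := by
  refine ⟨h.1, fun P hP => ?_⟩
  obtain ⟨L, ⟨b, hb⟩, hD, hI, hx⟩ := h.2 P hP
  refine ⟨L.map e.toLinearEquiv.toLinearMap, ⟨b.map e.toLinearEquiv, ?_⟩, ?_, ?_, ?_⟩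
  · rw [hb, Submodule.map_span, Set.image_singleton]
    rfl
  · rintro σ hσ _ ⟨v, hv, rfl⟩
    refine ⟨ρ₁.ρ σ v, hD σ hσ v hv, ?_⟩
    exact e.map_apply σ v
  · intro σ hσ w
    obtain ⟨v, rfl⟩ := e.toLinearEquiv.surjective w
    refine ⟨ρ₁.ρ σ v - v, hI σ hσ v, ?_⟩
    rw [← e.map_apply, ← map_sub]
    rfl
  · intro σ hσ
    obtain ⟨x, z, h1, h2, h3⟩ := hx σ hσ
    refine ⟨x, z, ?_, ?_, h3⟩
    · rintro _ ⟨v, hv, rfl⟩
      show ρ₂.ρ σ (e.toLinearEquiv v) = x • e.toLinearEquiv v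
      rw [← e.map_apply, h1 v hv, map_smul]
    · intro w
      obtain ⟨v, rfl⟩ := e.toLinearEquiv.surjective w
      refine ⟨ρ₁.ρ σ v - z • v, h2 v, ?_⟩
      rw [← e.map_apply, ← map_smul, ← map_sub]
      rfl

theorem s56a_map_smul_top_equiv (e : GaloisRepAdic.Equiv ρ₁ ρ₂) (I : Ideal A) :
    (I • (⊤ : Submodule A ρ₁.V)).map (e.toLinearEquiv : ρ₁.V →ₗ[A] ρ₂.V) =
      I • (⊤ : Submodule A ρ₂.V) := by
  rw [Submodule.map_smul'', Submodule.map_top, LinearEquiv.range]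

/-- The isomorphism `V₁/IV₁ ≃ V₂/IV₂` induced by an equivalence. -/
def s56a_levelEquiv (e : GaloisRepAdic.Equiv ρ₁ ρ₂) (I : Ideal A) :
    (ρ₁.V ⧸ (I • (⊤ : Submodule A ρ₁.V))) ≃ₗ[A] (ρ₂.V ⧸ (I • (⊤ : Submodule A ρ₂.V))) :=
  Submodule.Quotient.equiv _ _ e.toLinearEquiv (s56a_map_smul_top_equiv e I)

theorem s56a_levelEquiv_mk (e : GaloisRepAdic.Equiv ρ₁ ρ₂) (I : Ideal A) (v : ρ₁.V) :
    s56a_levelEquiv e I (Submodule.Quotient.mk v) = Submodule.Quotient.mk (e.toLinearEquiv v) :=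
  rfl

theorem s56a_levelAction_mk (ρ : GaloisRepAdic A) (I : Ideal A) (σ : Γℚ) (v : ρ.V) :
    ρ.levelAction I σ (Submodule.Quotient.mk v) = Submodule.Quotient.mk (ρ.ρ σ v) := rfl

theorem s56a_levelEquiv_levelAction (e : GaloisRepAdic.Equiv ρ₁ ρ₂) (I : Ideal A) (σ : Γℚ)
    (x : ρ₁.V ⧸ (I • (⊤ : Submodule A ρ₁.V))) :
    s56a_levelEquiv e I (ρ₁.levelAction I σ x) = ρ₂.levelAction I σ (s56a_levelEquiv e I x) := by
  obtain ⟨v, rfl⟩ := Submodule.Quotient.mk_surjective _ x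
  rw [s56a_levelAction_mk, s56a_levelEquiv_mk, s56a_levelEquiv_mk, s56a_levelAction_mk,
    e.map_apply]

theorem s56a_isFlatAt_of_equiv (e : GaloisRepAdic.Equiv ρ₁ ρ₂) {p : ℕ}
    (h : ρ₁.IsFlatAt p) : ρ₂.IsFlatAt p := by
  refine ⟨h.1, fun I hI => ?_⟩
  obtain ⟨H, i1, i2, hfin, hflat, hco, e₁, hadd, hgal⟩ := h.2 I hI
  refine ⟨H, i1, i2, hfin, hflat, hco, e₁.trans (s56a_levelEquiv e I).toEquiv, ?_, ?_⟩
  · intro f g
    simp only [Equiv.trans_apply, LinearEquiv.coe_toEquiv, hadd, map_add]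
  · intro σ f g hfg
    simp only [Equiv.trans_apply, LinearEquiv.coe_toEquiv]
    rw [hgal σ f g hfg, s56a_levelEquiv_levelAction]


end Equiv

section BaseChange

variable {A B : Type} [CommRing A] [IsLocalRing A] [CommRing B] [IsLocalRing B]

theorem s56a_map_mem_maximalIdeal (φ : A →+* B) (hφ : IsLocalHom φ) {a : A}
    (ha : a ∈ maximalIdeal A) : φ a ∈ maximalIdeal B := by
  have h : (maximalIdeal A).map φ ≤ maximalIdeal B := ((IsLocalRing.local_hom_TFAE φ).out 0 2).mp hφ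
  exact h (Ideal.mem_map_of_mem φ ha)

theorem s56a_det_baseChangeAlong (φ : A →+* B) (hφ : IsLocalHom φ) (ρ : GaloisRepAdic A) (σ : Γℚ) :
    LinearMap.det ((ρ.baseChangeAlong φ hφ).ρ σ) = φ (LinearMap.det (ρ.ρ σ)) := by
  letI : Algebra A B := φ.toAlgebra
  exact LinearMap.det_baseChange (ρ.ρ σ)

theorem s56a_charpoly_baseChangeAlong (φ : A →+* B) (hφ : IsLocalHom φ) (ρ : GaloisRepAdic A)
    (σ : Γℚ) :
    LinearMap.charpoly ((ρ.baseChangeAlong φ hφ).ρ σ) = (LinearMap.charpoly (ρ.ρ σ)).map φ := by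
  letI : Algebra A B := φ.toAlgebra
  exact LinearMap.charpoly_baseChange (ρ.ρ σ) B

theorem s56a_baseChangeAlong_apply_tmul (φ : A →+* B) (hφ : IsLocalHom φ) (ρ : GaloisRepAdic A)
    (σ : Γℚ) (b : B) (v : ρ.V) :
    letI : Algebra A B := φ.toAlgebra
    (ρ.baseChangeAlong φ hφ).ρ σ (b ⊗ₜ[A] v : B ⊗[A] ρ.V) = (b ⊗ₜ[A] ρ.ρ σ v : B ⊗[A] ρ.V) := by
  letI : Algebra A B := φ.toAlgebra
  exact LinearMap.baseChange_tmul _ _ _

theorem s56a_detIsCyclotomic_baseChange (φ : A →+* B) (hφ : IsLocalHom φ) (ρ : GaloisRepAdic A)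
    {p : ℕ} (h : ρ.DetIsCyclotomic p) :
    (ρ.baseChangeAlong φ hφ).DetIsCyclotomic p := by
  refine ⟨?_, fun n σ a ha => ?_⟩
  · have hp : (p : B) = φ (p : A) := by rw [map_natCast]
    rw [hp]
    exact s56a_map_mem_maximalIdeal φ hφ h.1
  · rw [s56a_det_baseChangeAlong]
    obtain ⟨c, hc⟩ := Ideal.mem_span_singleton'.mp (h.2 n σ a ha)
    refine Ideal.mem_span_singleton'.mpr ⟨φ c, ?_⟩
    have h2 : ((p ^ n : ℕ) : B) = φ ((p ^ n : ℕ) : A) := by rw [map_natCast]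
    have h3 : ((a : ℕ) : B) = φ ((a : ℕ) : A) := by rw [map_natCast]
    rw [h2, h3, ← map_mul, hc, map_sub]

theorem s56a_isUnramifiedAt_baseChange (φ : A →+* B) (hφ : IsLocalHom φ) (ρ : GaloisRepAdic A)
    {q : ℕ} (h : ρ.IsUnramifiedAt q) :
    (ρ.baseChangeAlong φ hφ).IsUnramifiedAt q := by
  letI : Algebra A B := φ.toAlgebra
  intro P hP σ hσ
  refine LinearMap.ext fun x => ?_
  show (ρ.ρ σ).baseChange B x = x
  rw [h P hP σ hσ, LinearMap.baseChange_one]
  rfl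

theorem s56a_isUnipotentOnInertiaAt_baseChange (φ : A →+* B) (hφ : IsLocalHom φ)
    (ρ : GaloisRepAdic A) {q : ℕ} (h : ρ.IsUnipotentOnInertiaAt q) :
    (ρ.baseChangeAlong φ hφ).IsUnipotentOnInertiaAt q := by
  intro P hP σ hσ
  rw [s56a_charpoly_baseChangeAlong, h P hP σ hσ]
  simp

end BaseChange

section StrictOrdBaseChange

variable {A B : Type} [CommRing A] [IsLocalRing A] [CommRing B] [IsLocalRing B] [Algebra A B]

theorem s56a_tmul_mem_span {V : Type} [AddCommGroup V] [Module A V] (v₀ : V) {v : V}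
    (hv : v ∈ (A ∙ v₀ : Submodule A V)) (c : B) :
    (c ⊗ₜ[A] v : B ⊗[A] V) ∈ (B ∙ ((1 : B) ⊗ₜ[A] v₀) : Submodule B (B ⊗[A] V)) := by
  obtain ⟨α, rfl⟩ := Submodule.mem_span_singleton.mp hv
  have h1 : (c ⊗ₜ[A] (α • v₀) : B ⊗[A] V) = (c * algebraMap A B α) • ((1 : B) ⊗ₜ[A] v₀) := by
    rw [TensorProduct.smul_tmul', smul_eq_mul, mul_one, mul_comm, ← Algebra.smul_def,
      TensorProduct.smul_tmul]
  rw [h1]
  exact Submodule.smul_mem _ _ (Submodule.mem_span_singleton_self _)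

theorem s56a_strictOrd_raw (hloc : ∀ a ∈ maximalIdeal A, algebraMap A B a ∈ maximalIdeal B)
    (ρ : GaloisRepAdic A) {p : ℕ} (h : ρ.IsStrictOrdinaryAt p) :
    (p : B) ∈ maximalIdeal B ∧
    ∀ P : ValuationSubring (AlgebraicClosure ℚ), P.LiesOverPrime p →
      ∃ L : Submodule B (B ⊗[A] ρ.V),
        (∃ b : Module.Basis (Fin 2) B (B ⊗[A] ρ.V), L = B ∙ b 0) ∧
        (∀ σ ∈ P.decompositionSubgroup ℚ, ∀ v ∈ L, (ρ.ρ σ).baseChange B v ∈ L) ∧
        (∀ σ ∈ P.inertiaSubgroupIn ℚ, ∀ v : B ⊗[A] ρ.V, (ρ.ρ σ).baseChange B v - v ∈ L) ∧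
        (∀ σ ∈ P.decompositionSubgroup ℚ, ∃ x z : B,
          (∀ w ∈ L, (ρ.ρ σ).baseChange B w = x • w) ∧
          (∀ v : B ⊗[A] ρ.V, (ρ.ρ σ).baseChange B v - z • v ∈ L) ∧
          ∀ (n a : ℕ), (∀ μ : AlgebraicClosure ℚ, μ ^ p ^ n = 1 → σ μ = μ ^ a) →
            x - (a : B) * z ∈ Ideal.span {((p ^ n : ℕ) : B)}) := by
  refine ⟨?_, fun P hP => ?_⟩
  · have hp : (p : B) = algebraMap A B (p : A) := by rw [map_natCast]
    rw [hp]
    exact hloc _ h.1
  · obtain ⟨L, ⟨b, hb⟩, hD, hI, hx⟩ := h.2 P hP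
    have hb0 : b 0 ∈ L := by rw [hb]; exact Submodule.mem_span_singleton_self _
    have hbasis : (Algebra.TensorProduct.basis B b) 0 = (1 : B) ⊗ₜ[A] b 0 :=
      Algebra.TensorProduct.basis_apply b 0
    have key : ∀ v ∈ L, ∀ c : B,
        (c ⊗ₜ[A] v : B ⊗[A] ρ.V) ∈ (B ∙ ((1 : B) ⊗ₜ[A] b 0) : Submodule B (B ⊗[A] ρ.V)) := by
      intro v hv c
      rw [hb] at hv
      exact s56a_tmul_mem_span (b 0) hv c
    refine ⟨B ∙ ((1 : B) ⊗ₜ[A] b 0), ⟨Algebra.TensorProduct.basis B b, by rw [hbasis]⟩,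
      ?_, ?_, ?_⟩
    · intro σ hσ w hw
      obtain ⟨β, rfl⟩ := Submodule.mem_span_singleton.mp hw
      rw [map_smul, LinearMap.baseChange_tmul]
      exact Submodule.smul_mem _ _ (key _ (hD σ hσ _ hb0) 1)
    · intro σ hσ w
      induction w using TensorProduct.induction_on with
      | zero => rw [LinearMap.map_zero, sub_zero]; exact Submodule.zero_mem _
      | tmul c v =>
        rw [LinearMap.baseChange_tmul, ← TensorProduct.tmul_sub]
        exact key _ (hI σ hσ v) c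
      | add x y hx hy =>
        rw [map_add, add_sub_add_comm]
        exact Submodule.add_mem _ hx hy
    · intro σ hσ
      obtain ⟨x, z, h1, h2, h3⟩ := hx σ hσ
      refine ⟨algebraMap A B x, algebraMap A B z, ?_, ?_, ?_⟩
      · intro w hw
        obtain ⟨β, rfl⟩ := Submodule.mem_span_singleton.mp hw
        rw [map_smul, LinearMap.baseChange_tmul, h1 _ hb0, smul_comm, TensorProduct.tmul_smul,
          algebraMap_smul]
      · intro w
        induction w using TensorProduct.induction_on with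
        | zero => rw [LinearMap.map_zero, smul_zero, sub_zero]; exact Submodule.zero_mem _
        | tmul c v =>
          rw [LinearMap.baseChange_tmul, algebraMap_smul, ← TensorProduct.tmul_smul,
            ← TensorProduct.tmul_sub]
          exact key _ (h2 v) c
        | add x y hx hy =>
          rw [map_add, smul_add, add_sub_add_comm]
          exact Submodule.add_mem _ hx hy
      · intro n a ha
        obtain ⟨c, hc⟩ := Ideal.mem_span_singleton'.mp (h3 n a ha)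
        refine Ideal.mem_span_singleton'.mpr ⟨algebraMap A B c, ?_⟩
        have h2' : ((p ^ n : ℕ) : B) = algebraMap A B ((p ^ n : ℕ) : A) := by rw [map_natCast]
        have h3' : ((a : ℕ) : B) = algebraMap A B ((a : ℕ) : A) := by rw [map_natCast]
        rw [h2', h3', ← map_mul, hc, map_sub, map_mul]

end StrictOrdBaseChange

theorem s56a_isStrictOrdinaryAt_baseChange {A B : Type} [CommRing A] [IsLocalRing A] [CommRing B]
    [IsLocalRing B] (φ : A →+* B) (hφ : IsLocalHom φ) (ρ : GaloisRepAdic A)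
    {p : ℕ} (h : ρ.IsStrictOrdinaryAt p) :
    (ρ.baseChangeAlong φ hφ).IsStrictOrdinaryAt p := by
  letI : Algebra A B := φ.toAlgebra
  exact s56a_strictOrd_raw (fun a ha => s56a_map_mem_maximalIdeal φ hφ ha) ρ h

section FlatBaseChange

theorem s56a_mem_smul_top_iff_repr {R V ι : Type*} [CommRing R] [AddCommGroup V] [Module R V]
    [Fintype ι] (b : Module.Basis ι R V) (I : Ideal R) (x : V) :
    x ∈ I • (⊤ : Submodule R V) ↔ ∀ i, b.repr x i ∈ I := by
  constructor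
  · intro hx i
    refine Submodule.smul_induction_on (p := fun x => b.repr x i ∈ I) hx ?_ ?_
    · intro a ha y _
      rw [map_smul, Finsupp.smul_apply, smul_eq_mul]
      exact Ideal.mul_mem_right _ _ ha
    · intro x y hx hy
      rw [map_add, Finsupp.add_apply]
      exact I.add_mem hx hy
  · intro h
    rw [← b.sum_repr x]
    exact Submodule.sum_mem _ fun i _ => Submodule.smul_mem_smul (h i) Submodule.mem_top

variable (A : Type) {B : Type} [CommRing A] [CommRing B] [Algebra A B]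
  (V : Type) [AddCommGroup V] [Module A V]

/-- `v ↦ [1 ⊗ v] : V → (B ⊗ V)/I(B ⊗ V)`. -/
def s56a_flatMap (I : Ideal B) :
    V →ₗ[A] ((B ⊗[A] V) ⧸ (I • (⊤ : Submodule B (B ⊗[A] V)))) :=
  ((I • (⊤ : Submodule B (B ⊗[A] V))).mkQ.restrictScalars A).comp (TensorProduct.mk A B V 1)

theorem s56a_flatMap_apply (I : Ideal B) (v : V) :
    s56a_flatMap A V I v = Submodule.Quotient.mk ((1 : B) ⊗ₜ[A] v) := rfl

theorem s56a_flatMap_surjective (hs : Function.Surjective (algebraMap A B)) (I : Ideal B) :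
    Function.Surjective (s56a_flatMap A V I) := by
  intro y
  obtain ⟨w, rfl⟩ := Submodule.Quotient.mk_surjective _ y
  induction w using TensorProduct.induction_on with
  | zero => exact ⟨0, by rw [map_zero]; rfl⟩
  | tmul c v =>
    obtain ⟨a, rfl⟩ := hs c
    refine ⟨a • v, ?_⟩
    rw [s56a_flatMap_apply, TensorProduct.tmul_smul, TensorProduct.smul_tmul', Algebra.smul_def,
      mul_one]
  | add x y hx hy =>
    obtain ⟨vx, hvx⟩ := hx
    obtain ⟨vy, hvy⟩ := hy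
    exact ⟨vx + vy, by rw [map_add, hvx, hvy]; rfl⟩

theorem s56a_flatMap_ker [Module.Free A V] [Module.Finite A V] (I : Ideal B) :
    LinearMap.ker (s56a_flatMap A V I) = (I.comap (algebraMap A B)) • (⊤ : Submodule A V) := by
  classical
  let b := Module.Free.chooseBasis A V
  ext v
  rw [LinearMap.mem_ker, s56a_flatMap_apply, Submodule.Quotient.mk_eq_zero,
    s56a_mem_smul_top_iff_repr (Algebra.TensorProduct.basis B b),
    s56a_mem_smul_top_iff_repr b]
  refine forall_congr' fun i => ?_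
  rw [Algebra.TensorProduct.basis_repr_tmul, Finsupp.smul_apply, Finsupp.mapRange_apply,
    smul_eq_mul, one_mul, Ideal.mem_comap]

/-- `V/JV ≃ (B ⊗ V)/I(B ⊗ V)` for `J = I ∩ A` when `A → B` is onto. -/
def s56a_flatEquiv [Module.Free A V] [Module.Finite A V]
    (hs : Function.Surjective (algebraMap A B)) (I : Ideal B) :
    (V ⧸ ((I.comap (algebraMap A B)) • (⊤ : Submodule A V))) ≃ₗ[A]
      ((B ⊗[A] V) ⧸ (I • (⊤ : Submodule B (B ⊗[A] V)))) :=
  (Submodule.quotEquivOfEq _ _ (s56a_flatMap_ker A V I).symm).trans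
    (LinearMap.quotKerEquivOfSurjective (s56a_flatMap A V I) (s56a_flatMap_surjective A V hs I))

theorem s56a_flatEquiv_mk [Module.Free A V] [Module.Finite A V]
    (hs : Function.Surjective (algebraMap A B)) (I : Ideal B) (v : V) :
    s56a_flatEquiv A V hs I (Submodule.Quotient.mk v) =
      Submodule.Quotient.mk ((1 : B) ⊗ₜ[A] v) :=
  rfl

end FlatBaseChange

theorem s56a_isFlatAt_baseChange {A B : Type} [CommRing A] [IsLocalRing A] [CommRing B]
    [IsLocalRing B] (φ : A →+* B) (hφ : IsLocalHom φ) (hsurj : Function.Surjective φ)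
    (ρ : GaloisRepAdic A) {p : ℕ} (h : ρ.IsFlatAt p) :
    (ρ.baseChangeAlong φ hφ).IsFlatAt p := by
  letI : Algebra A B := φ.toAlgebra
  have hs : Function.Surjective (algebraMap A B) := hsurj
  refine ⟨?_, fun I hI => ?_⟩
  · haveI := h.1
    haveI := hφ
    refine Finite.of_surjective (IsLocalRing.ResidueField.map φ) ?_
    intro y
    obtain ⟨b, rfl⟩ := IsLocalRing.residue_surjective y
    obtain ⟨a, rfl⟩ := hsurj b
    exact ⟨IsLocalRing.residue A a, rfl⟩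
  · have hJ : Finite (A ⧸ I.comap φ) :=
      Finite.of_injective (Ideal.quotientMap I φ le_rfl) (Ideal.quotientMap_injective)
    obtain ⟨H, i1, i2, hfin, hflat, hco, e₁, hadd, hgal⟩ := h.2 (I.comap φ) hJ
    let θ : (ρ.V ⧸ ((I.comap φ) • (⊤ : Submodule A ρ.V))) ≃
        ((ρ.baseChangeAlong φ hφ).V ⧸
          (I • (⊤ : Submodule B (ρ.baseChangeAlong φ hφ).V))) :=
      (s56a_flatEquiv A ρ.V hs I).toEquiv
    have hθadd : ∀ x y, θ (x + y) = θ x + θ y := fun x y =>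
      map_add (s56a_flatEquiv A ρ.V hs I) x y
    have hθmk : ∀ (σ : Γℚ) (v : ρ.V), θ (Submodule.Quotient.mk (ρ.ρ σ v)) =
        (ρ.baseChangeAlong φ hφ).levelAction I σ (θ (Submodule.Quotient.mk v)) := by
      intro σ v
      show s56a_flatEquiv A ρ.V hs I (Submodule.Quotient.mk (ρ.ρ σ v)) =
        Submodule.Quotient.mk ((ρ.ρ σ).baseChange B ((1 : B) ⊗ₜ[A] v))
      rw [s56a_flatEquiv_mk, LinearMap.baseChange_tmul]
    refine ⟨H, i1, i2, hfin, hflat, hco, e₁.trans θ, ?_, ?_⟩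
    · intro f g
      rw [Equiv.trans_apply, Equiv.trans_apply, Equiv.trans_apply, hadd, hθadd]
    · intro σ f g hfg
      rw [Equiv.trans_apply, Equiv.trans_apply, hgal σ f g hfg]
      obtain ⟨v, hv⟩ := Submodule.Quotient.mk_surjective _ (e₁ f)
      rw [← hv, s56a_levelAction_mk, hθmk]

end Fermat.Agent.Lib.S56
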