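import Fermat.Agent.Lib.S56.ACocycle
import Fermat.Agent.Lib.S53.Special
import Fermat.Agent.Lib.Deform.Tangent

/-!
# Programme W (S56), wall W1: universal ring homomorphisms to `k[ε]` and Selmer classes (helper2)

For a deformation ring `D` of type `𝒟` (tangent-stable), every surjective `𝒪`-algebra map
`φ : D.R → k[ε]` gives a class in the Selmer set `s56a_SelmerSet 𝒪 ρbar 𝒟`, injectively; and there
is at most one non-surjective `φ`.
-/

set_option autoImplicit false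
set_option linter.style.haveILetI false

noncomputable section

namespace Fermat.Agent.Lib.S56

open IsLocalRing groupCohomology Module
open Fermat.Agent.Lib.S53 (matOf matOfRes matOf_apply matOfRes_apply mapHom mapHom_apply
  MatContinuous matContinuous_matOf toRep toRepBasis matOf_toRep isEquiv_of_matOf_eq
  exists_basis_baseChangeAlong exists_basis_conj NormData isEquiv_symm)

local notation "Γℚ" => (AlgebraicClosure ℚ ≃ₐ[ℚ] AlgebraicClosure ℚ)

section Cyclo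

/-- The exponent of `σ` on `μ_p`. -/
theorem s56a_exists_cycloExp (p : ℕ) [Fact p.Prime] (σ : Γℚ) :
    ∃ a : ℕ, ∀ μ : AlgebraicClosure ℚ, μ ^ p ^ 1 = 1 → σ μ = μ ^ a := by
  haveI : NeZero p := ⟨(Fact.out : p.Prime).ne_zero⟩
  obtain ⟨m, hm⟩ := rootsOfUnity.integer_power_of_ringEquiv' p
    (σ : AlgebraicClosure ℚ ≃+* AlgebraicClosure ℚ)
  refine ⟨(m % (p : ℤ)).toNat, fun μ hμ => ?_⟩
  rw [pow_one] at hμ
  have hμ0 : μ ≠ 0 := by
    rintro rfl
    rw [zero_pow (NeZero.ne p)] at hμ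
    exact zero_ne_one hμ
  have hmem : Units.mk0 μ hμ0 ∈ rootsOfUnity p (AlgebraicClosure ℚ) := by
    rw [mem_rootsOfUnity]
    exact Units.ext (by rw [Units.val_pow_eq_pow_val, Units.val_mk0, hμ, Units.val_one])
  have h := hm _ hmem
  have h1 : (Units.mk0 μ hμ0) ^ (p : ℤ) = 1 := by
    rw [zpow_natCast]
    exact (mem_rootsOfUnity _ _).1 hmem
  have hnn : 0 ≤ m % (p : ℤ) := Int.emod_nonneg _ (by exact_mod_cast NeZero.ne p)
  have h2 : (Units.mk0 μ hμ0) ^ m = (Units.mk0 μ hμ0) ^ ((m % (p : ℤ)).toNat) := by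
    rw [zpow_eq_zpow_emod m h1, ← zpow_natCast, Int.toNat_of_nonneg hnn]
  rw [h2, Units.val_pow_eq_pow_val, Units.val_mk0] at h
  exact h

end Cyclo

section DualField

variable {k : Type} [Field k]

theorem s56a_mem_maximalIdeal_dual (x : DualNumber k) :
    x ∈ maximalIdeal (DualNumber k) ↔ x.fst = 0 := by
  rw [mem_maximalIdeal, mem_nonunits_iff, TrivSqZeroExt.isUnit_iff_isUnit_fst, isUnit_iff_ne_zero,
    not_not]

theorem s56a_maximalIdeal_dual_sq : maximalIdeal (DualNumber k) ^ 2 = ⊥ := by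
  rw [eq_bot_iff, sq, Ideal.mul_le]
  intro x hx y hy
  rw [s56a_mem_maximalIdeal_dual] at hx hy
  rw [Ideal.mem_bot]
  apply TrivSqZeroExt.ext
  · rw [TrivSqZeroExt.fst_mul, hx, zero_mul, TrivSqZeroExt.fst_zero]
  · rw [TrivSqZeroExt.snd_mul, hx, hy, zero_smul, MulOpposite.op_zero, zero_smul, add_zero,
      TrivSqZeroExt.snd_zero]

theorem s56a_hcont_of_matContinuous (M : Γℚ →* Matrix (Fin 2) (Fin 2) (DualNumber k))
    (h : MatContinuous M) :
    ∃ L : IntermediateField ℚ (AlgebraicClosure ℚ), FiniteDimensional ℚ L ∧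
      ∀ σ : Γℚ, (∀ x ∈ L, σ x = x) → M σ = 1 := by
  obtain ⟨L, hL, hσ⟩ := h 2
  refine ⟨L, hL, fun σ hσL => ?_⟩
  rw [← sub_eq_zero]
  ext i j : 1
  have := hσ σ hσL i j
  rw [s56a_maximalIdeal_dual_sq, Ideal.mem_bot] at this
  rw [this]
  rfl

/-- A representation over `k[ε]` with cyclotomic determinant has `ε`-free determinants. -/
theorem s56a_det_snd_eq_zero (p : ℕ) [Fact p.Prime] (ρ : GaloisRepAdic (DualNumber k))
    (hρ : ρ.DetIsCyclotomic p) (b : Basis (Fin 2) (DualNumber k) ρ.V) (σ : Γℚ) :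
    (matOf ρ b σ).det.snd = 0 := by
  obtain ⟨hp, h⟩ := hρ
  rw [s56a_mem_maximalIdeal_dual, TrivSqZeroExt.fst_natCast] at hp
  have hp0 : ((p : ℕ) : DualNumber k) = 0 := by
    apply TrivSqZeroExt.ext
    · rw [TrivSqZeroExt.fst_natCast, hp, TrivSqZeroExt.fst_zero]
    · rw [TrivSqZeroExt.snd_natCast, TrivSqZeroExt.snd_zero]
  obtain ⟨a, ha⟩ := s56a_exists_cycloExp p σ
  have h1 := h 1 σ a ha
  rw [pow_one, hp0, Ideal.span_singleton_zero, Ideal.mem_bot, sub_eq_zero] at h1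
  rw [matOf_apply, LinearMap.det_toMatrix, h1, TrivSqZeroExt.snd_natCast]

end DualField

section Ring

open Fermat.Agent.Lib.Deform (dualNumberAlgebra IsTestAlgebra isTestAlgebra_dualNumber
  dualNumber_algebraMap_apply dualNumber_mem_maximalIdeal_iff isLocalHom_of_isTestAlgebra resk
  resk_comp resk_eq_iff)

attribute [local instance] Fermat.Agent.Lib.Deform.dualNumberAlgebra

variable {𝒪 : Type} [CommRing 𝒪] [IsDomain 𝒪] [IsDiscreteValuationRing 𝒪]
  [IsAdicComplete (maximalIdeal 𝒪) 𝒪]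
  {ρbar : ResidualGaloisRep (ResidueField 𝒪)}
  {𝒟 : ∀ ⦃A : Type⦄ [CommRing A] [IsLocalRing A] [Algebra 𝒪 A], GaloisRepAdic A → Prop}
  (D : GaloisRep.DeformationRingData 𝒪 ρbar 𝒟) (N : NormData ρbar)

theorem s56a_isTestAlgebra_R : IsTestAlgebra 𝒪 D.R := ⟨D.instIsLocalHom, D.residue_surjective⟩

theorem s56a_isLocalHom_hom (φ : D.R →ₐ[𝒪] DualNumber (ResidueField 𝒪)) :
    IsLocalHom (φ : D.R →+* DualNumber (ResidueField 𝒪)) :=
  isLocalHom_of_isTestAlgebra (isTestAlgebra_dualNumber 𝒪) φ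

/-- A basis of the universal deformation whose matrices reduce to those of `ρ̄`. -/
theorem s56a_exists_basisR : ∃ bR : Basis (Fin 2) D.R D.ρ.V,
    ∀ σ i j, matOf D.ρ bR σ i j - algebraMap 𝒪 D.R (N.Mtil σ i j) ∈ maximalIdeal D.R :=
  @Fermat.Agent.Lib.S53.exists_basis_res 𝒪 _ _ ρbar N D.R _ _ _
    (ResidueField.map (algebraMap 𝒪 D.R)).toAlgebra
    Fermat.Agent.Lib.S53.residueField_map_compat D.ρ D.residual_isEquiv

section NonSurj

omit [IsAdicComplete (maximalIdeal 𝒪) 𝒪] in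
theorem s56a_resk_dual (y : DualNumber (ResidueField 𝒪)) :
    resk (isTestAlgebra_dualNumber 𝒪) y = y.fst := by
  obtain ⟨r, hr⟩ := IsLocalRing.residue_surjective y.fst
  rw [← hr, resk_eq_iff, dualNumber_mem_maximalIdeal_iff, TrivSqZeroExt.fst_sub,
    dualNumber_algebraMap_apply, TrivSqZeroExt.fst_inl, hr, sub_self]

theorem s56a_fst_hom (φ : D.R →ₐ[𝒪] DualNumber (ResidueField 𝒪)) (x : D.R) :
    (φ x).fst = resk (s56a_isTestAlgebra_R D) x := by
  rw [← s56a_resk_dual, resk_comp (s56a_isTestAlgebra_R D) (isTestAlgebra_dualNumber 𝒪) φ x]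

/-- A homomorphism `D.R → k[ε]` which is not surjective has no `ε`-part. -/
theorem s56a_snd_eq_zero_of_not_surjective (φ : D.R →ₐ[𝒪] DualNumber (ResidueField 𝒪))
    (h : ¬ Function.Surjective φ) (x : D.R) : (φ x).snd = 0 := by
  by_contra hne
  apply h
  intro y
  obtain ⟨t, ht⟩ := IsLocalRing.residue_surjective (φ x).fst
  set x' : D.R := x - algebraMap 𝒪 D.R t with hx'
  have h1 : φ x' = φ x - TrivSqZeroExt.inl (φ x).fst := by
    rw [hx', map_sub, φ.commutes, dualNumber_algebraMap_apply, ht]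
  have hf : (φ x').fst = 0 := by
    rw [h1, TrivSqZeroExt.fst_sub, TrivSqZeroExt.fst_inl, sub_self]
  have hs : (φ x').snd = (φ x).snd := by
    rw [h1, TrivSqZeroExt.snd_sub, TrivSqZeroExt.snd_inl, sub_zero]
  obtain ⟨u, hu⟩ := IsLocalRing.residue_surjective y.fst
  obtain ⟨v, hv⟩ := IsLocalRing.residue_surjective (y.snd / (φ x).snd)
  refine ⟨algebraMap 𝒪 D.R u + algebraMap 𝒪 D.R v * x', ?_⟩
  rw [map_add, map_mul, φ.commutes, φ.commutes, dualNumber_algebraMap_apply,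
    dualNumber_algebraMap_apply, hu, hv]
  apply TrivSqZeroExt.ext
  · rw [TrivSqZeroExt.fst_add, TrivSqZeroExt.fst_mul, TrivSqZeroExt.fst_inl,
      TrivSqZeroExt.fst_inl, hf, mul_zero, add_zero]
  · rw [TrivSqZeroExt.snd_add, TrivSqZeroExt.snd_mul, TrivSqZeroExt.snd_inl,
      TrivSqZeroExt.snd_inl, TrivSqZeroExt.fst_inl, hf, hs, MulOpposite.op_zero, zero_smul,
      add_zero, zero_add, smul_eq_mul, div_mul_cancel₀ _ hne]

/-- There is at most one non-surjective homomorphism `D.R → k[ε]`. -/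
theorem s56a_eq_of_not_surjective (φ ψ : D.R →ₐ[𝒪] DualNumber (ResidueField 𝒪))
    (hφ : ¬ Function.Surjective φ) (hψ : ¬ Function.Surjective ψ) : φ = ψ := by
  refine AlgHom.ext fun x => TrivSqZeroExt.ext ?_ ?_
  · rw [s56a_fst_hom, s56a_fst_hom]
  · rw [s56a_snd_eq_zero_of_not_surjective D φ hφ, s56a_snd_eq_zero_of_not_surjective D ψ hψ]

end NonSurj

variable (bR : Basis (Fin 2) D.R D.ρ.V)

/-- The matrix family over `k[ε]` attached to `φ : D.R → k[ε]`. -/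
def s56a_famOf (φ : D.R →ₐ[𝒪] DualNumber (ResidueField 𝒪)) :
    Γℚ →* Matrix (Fin 2) (Fin 2) (DualNumber (ResidueField 𝒪)) :=
  mapHom (φ : D.R →+* DualNumber (ResidueField 𝒪)) (matOf D.ρ bR)

theorem s56a_famOf_apply (φ : D.R →ₐ[𝒪] DualNumber (ResidueField 𝒪)) (σ : Γℚ) :
    s56a_famOf D bR φ σ = (matOf D.ρ bR σ).map φ := rfl

theorem s56a_matContinuous_famOf (φ : D.R →ₐ[𝒪] DualNumber (ResidueField 𝒪)) :
    MatContinuous (s56a_famOf D bR φ) :=
  (matContinuous_matOf D.ρ bR).map_ringHom _ (s56a_isLocalHom_hom D φ)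

variable (hbR : ∀ σ i j, matOf D.ρ bR σ i j - algebraMap 𝒪 D.R (N.Mtil σ i j) ∈ maximalIdeal D.R)

include hbR in
theorem s56a_famOf_res (φ : D.R →ₐ[𝒪] DualNumber (ResidueField 𝒪)) (σ : Γℚ) (i j : Fin 2) :
    s56a_famOf D bR φ σ i j - algebraMap 𝒪 (DualNumber (ResidueField 𝒪)) (N.Mtil σ i j) ∈
      maximalIdeal (DualNumber (ResidueField 𝒪)) := by
  haveI := s56a_isLocalHom_hom D φ
  have h1 := map_nonunit (φ : D.R →+* DualNumber (ResidueField 𝒪)) _ (hbR σ i j)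
  rw [map_sub] at h1
  have h2 : (φ : D.R →+* DualNumber (ResidueField 𝒪)) (algebraMap 𝒪 D.R (N.Mtil σ i j)) =
      algebraMap 𝒪 (DualNumber (ResidueField 𝒪)) (N.Mtil σ i j) := φ.commutes _
  rw [h2] at h1
  exact h1

include hbR in
theorem s56a_fst_famOf (φ : D.R →ₐ[𝒪] DualNumber (ResidueField 𝒪)) (σ : Γℚ) :
    s56a_fstM (s56a_famOf D bR φ σ) = matOfRes ρbar N.b σ := by
  ext i j
  have h := s56a_famOf_res D N bR hbR φ σ i j
  rw [dualNumber_mem_maximalIdeal_iff, TrivSqZeroExt.fst_sub, dualNumber_algebraMap_apply,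
    TrivSqZeroExt.fst_inl, sub_eq_zero, N.residue_Mtil] at h
  rw [s56a_fstM_apply, h]

section Selmer

variable (p : ℕ) [Fact p.Prime] (h𝒟 : s56a_TangentStable 𝒪 𝒟 p)

omit [Fact p.Prime] in
include h𝒟 in
theorem s56a_isOfType_baseChange (φ : D.R →ₐ[𝒪] DualNumber (ResidueField 𝒪))
    (hsurj : Function.Surjective φ) :
    𝒟 (D.ρ.baseChangeAlong (φ : D.R →+* DualNumber (ResidueField 𝒪)) (s56a_isLocalHom_hom D φ)) :=
  h𝒟.baseChange φ (s56a_isLocalHom_hom D φ) hsurj D.isOfType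

include h𝒟 in
theorem s56a_det_famOf (φ : D.R →ₐ[𝒪] DualNumber (ResidueField 𝒪))
    (hsurj : Function.Surjective φ) (σ : Γℚ) : (s56a_famOf D bR φ σ).det.snd = 0 := by
  obtain ⟨b', hb'⟩ := exists_basis_baseChangeAlong D.ρ bR
    (φ : D.R →+* DualNumber (ResidueField 𝒪)) (s56a_isLocalHom_hom D φ)
  have h1 := s56a_det_snd_eq_zero p _ (h𝒟.det (s56a_isOfType_baseChange D p h𝒟 φ hsurj)) b' σ
  rw [hb'] at h1
  exact h1

/-- The cocycle attached to a surjective `φ : D.R → k[ε]`. -/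
def s56a_cocPhi (φ : D.R →ₐ[𝒪] DualNumber (ResidueField 𝒪)) (hsurj : Function.Surjective φ) :
    cocycles₁ (s56a_ad0 ρbar) :=
  s56a_cocOf ρbar N.b (s56a_famOf D bR φ) (s56a_fst_famOf D N bR hbR φ)
    (s56a_det_famOf D bR p h𝒟 φ hsurj)

theorem s56a_isLevel_cocPhi (φ : D.R →ₐ[𝒪] DualNumber (ResidueField 𝒪))
    (hsurj : Function.Surjective φ) : s56a_IsLevel (s56a_cocPhi D N bR hbR p h𝒟 φ hsurj).1 :=
  s56a_isLevel_cocOf ρbar N.b _ _ _
    (s56a_hcont_of_matContinuous _ (s56a_matContinuous_famOf D bR φ))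

theorem s56a_liftRep_cocPhi_isEquiv (φ : D.R →ₐ[𝒪] DualNumber (ResidueField 𝒪))
    (hsurj : Function.Surjective φ) :
    (s56a_liftRep ρbar (s56a_cocPhi D N bR hbR p h𝒟 φ hsurj)
      (s56a_isLevel_cocPhi D N bR hbR p h𝒟 φ hsurj)).IsEquiv
      (D.ρ.baseChangeAlong (φ : D.R →+* DualNumber (ResidueField 𝒪))
        (s56a_isLocalHom_hom D φ)) := by
  obtain ⟨b', hb'⟩ := exists_basis_baseChangeAlong D.ρ bR
    (φ : D.R →+* DualNumber (ResidueField 𝒪)) (s56a_isLocalHom_hom D φ)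
  refine isEquiv_of_matOf_eq (s56a_epsBasis ρbar N.b) b' fun σ => ?_
  rw [hb']
  exact s56a_matOf_liftRep_cocOf ρbar N.b _ _ _ _ σ

/-- The class of `φ` lies in the Selmer set. -/
theorem s56a_class_mem_selmerSet (φ : D.R →ₐ[𝒪] DualNumber (ResidueField 𝒪))
    (hsurj : Function.Surjective φ) :
    (H1π (s56a_ad0 ρbar)).hom (s56a_cocPhi D N bR hbR p h𝒟 φ hsurj) ∈
      s56a_SelmerSet 𝒪 ρbar 𝒟 :=
  ⟨_, s56a_isLevel_cocPhi D N bR hbR p h𝒟 φ hsurj, rfl,
    h𝒟.of_isEquiv (isEquiv_symm (s56a_liftRep_cocPhi_isEquiv D N bR hbR p h𝒟 φ hsurj))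
      (s56a_isOfType_baseChange D p h𝒟 φ hsurj)⟩

section Injective

variable [Finite (ResidueField 𝒪)]

/-- Injectivity: two surjective homomorphisms with cohomologous cocycles are equal. -/
theorem s56a_eq_of_class_eq (φ ψ : D.R →ₐ[𝒪] DualNumber (ResidueField 𝒪))
    (hφs : Function.Surjective φ) (hψs : Function.Surjective ψ)
    (h : (H1π (s56a_ad0 ρbar)).hom (s56a_cocPhi D N bR hbR p h𝒟 φ hφs) =
      (H1π (s56a_ad0 ρbar)).hom (s56a_cocPhi D N bR hbR p h𝒟 ψ hψs)) : φ = ψ := by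
  obtain ⟨U, U', hUU', hU'U, hconj⟩ := s56a_conj_of_H1_eq ρbar N.b _ _ _ _ _ _ h
  have hφl := s56a_isLocalHom_hom D φ
  have hψl := s56a_isLocalHom_hom D ψ
  -- the target representation
  set ρA : GaloisRepAdic (DualNumber (ResidueField 𝒪)) :=
    toRep (s56a_famOf D bR ψ) (s56a_matContinuous_famOf D bR ψ) with hρA
  obtain ⟨bφ, hbφ⟩ := exists_basis_baseChangeAlong D.ρ bR
    (φ : D.R →+* DualNumber (ResidueField 𝒪)) hφl
  obtain ⟨bψ, hbψ⟩ := exists_basis_baseChangeAlong D.ρ bR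
    (ψ : D.R →+* DualNumber (ResidueField 𝒪)) hψl
  have eψ : (D.ρ.baseChangeAlong (ψ : D.R →+* DualNumber (ResidueField 𝒪)) hψl).IsEquiv ρA := by
    refine isEquiv_of_matOf_eq bψ (toRepBasis _ _) fun σ => ?_
    rw [hbψ, matOf_toRep]
    rfl
  have eφ : (D.ρ.baseChangeAlong (φ : D.R →+* DualNumber (ResidueField 𝒪)) hφl).IsEquiv ρA := by
    obtain ⟨b'', hb''⟩ := exists_basis_conj _ bφ U U' hUU' hU'U
    refine isEquiv_of_matOf_eq b'' (toRepBasis _ _) fun σ => ?_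
    rw [hb'', hbφ, matOf_toRep, hconj σ]
    rfl
  have h𝒟A : 𝒟 ρA := h𝒟.of_isEquiv eψ (s56a_isOfType_baseChange D p h𝒟 ψ hψs)
  haveI : IsLocalHom (algebraMap 𝒪 (DualNumber (ResidueField 𝒪))) :=
    (isTestAlgebra_dualNumber 𝒪).isLocalHom
  have hres : ρA.residual.IsEquiv
      (ρbar.baseChangeAlong (ResidueField.map (algebraMap 𝒪 (DualNumber (ResidueField 𝒪))))) :=
    @Fermat.Agent.Lib.S53.residual_isEquiv_of_res 𝒪 _ _ ρbar N _ _ _ _
      (ResidueField.map (algebraMap 𝒪 (DualNumber (ResidueField 𝒪)))).toAlgebra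
      Fermat.Agent.Lib.S53.residueField_map_compat _ _ (s56a_famOf_res D N bR hbR ψ)
  haveI : Finite (DualNumber (ResidueField 𝒪)) := Fermat.Agent.Lib.Deform.finite_dualNumber 𝒪
  haveI : IsAdicComplete (maximalIdeal (DualNumber (ResidueField 𝒪)))
      (DualNumber (ResidueField 𝒪)) :=
    Fermat.Agent.Lib.Deform.isAdicComplete_of_isArtinianRing _
  have huniv := D.universal (DualNumber (ResidueField 𝒪))
    (isTestAlgebra_dualNumber 𝒪).residue_surjective ρA h𝒟A hres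
  exact huniv.unique ⟨hφl, eφ⟩ ⟨hψl, eψ⟩

end Injective

end Selmer

end Ring

end Fermat.Agent.Lib.S56
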