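import Fermat.Agent.Lib.S56.ADefs
import Fermat.Agent.Lib.PT.GLevelField

/-!
# Programme W (S56), wall W1: glue between the Selmer set and `continuousH1S` (helper2)

If the first-order lift attached to a level-constant cocycle `c` is unramified outside `Σ`, then
`c` is `Σ`-level-constant (its level can be taken unramified outside `Σ`).  Hence, for a deformation
type implying unramifiedness outside `Σ`, the Selmer set lies in `continuousH1S Σ (ad⁰ ρ̄)`.
-/

set_option autoImplicit false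
set_option linter.style.haveILetI false

noncomputable section

namespace Fermat.Agent.Lib.S56

open IsLocalRing groupCohomology

local notation "Γℚ" => (AlgebraicClosure ℚ ≃ₐ[ℚ] AlgebraicClosure ℚ)

section LevelS

variable {k : Type} [Field k] (ρbar : ResidualGaloisRep k)

/-- `ρ_c(s) = 1` forces `c(g s) = c(g)`. -/
theorem s56a_cocycle_mul_of_lift_eq_one (c : cocycles₁ (s56a_ad0 ρbar)) (hc : s56a_IsLevel c.1)
    (g s : Γℚ) (hs : (s56a_liftRep ρbar c hc).ρ s = 1) : c.1 (g * s) = c.1 g := by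
  have h1 : ∀ v : ρbar.V, ρbar.ρ s v = v := by
    intro v
    have h : (s56a_liftRep ρbar c hc).ρ s (s56a_VEps.mk v 0) = s56a_VEps.mk v 0 := by
      rw [hs]; rfl
    exact congrArg s56a_VEps.re h
  have h2 : ∀ v : ρbar.V, s56a_toEnd ρbar (c.1 s) v = 0 := by
    intro v
    have h : (s56a_liftRep ρbar c hc).ρ s (s56a_VEps.mk v 0) = s56a_VEps.mk v 0 := by
      rw [hs]; rfl
    have h' : ρbar.ρ s 0 + s56a_toEnd ρbar (c.1 s) (ρbar.ρ s v) = 0 := congrArg s56a_VEps.im h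
    rwa [map_zero, zero_add, h1] at h'
  have h3 : s56a_toEnd ρbar (c.1 s) = 0 := LinearMap.ext h2
  apply Subtype.ext
  show s56a_toEnd ρbar (c.1 (g * s)) = s56a_toEnd ρbar (c.1 g)
  rw [s56a_cocycle_apply_mul, h3, mul_zero, zero_mul, add_zero]

/-- The first-order lift as an object of `Rep k[ε] Γℚ`. -/
def s56a_liftRepObj (c : cocycles₁ (s56a_ad0 ρbar)) (hc : s56a_IsLevel c.1) :
    Rep (DualNumber k) Γℚ :=
  Rep.of (s56a_liftRep ρbar c hc).ρ

/-- If the lift attached to `c` is unramified outside `Σ`, then `c` is `Σ`-level-constant. -/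
theorem s56a_isLevelS_of_unramified (c : cocycles₁ (s56a_ad0 ρbar)) (hc : s56a_IsLevel c.1)
    (Sg : Finset Nat.Primes)
    (hur : ∀ q : Nat.Primes, q ∉ Sg → (s56a_liftRep ρbar c hc).IsUnramifiedAt q) :
    IsLevelConstantS₁ Sg c.1 := by
  haveI : Module.Finite (DualNumber k) (s56a_liftRepObj ρbar c hc) :=
    inferInstanceAs (Module.Finite (DualNumber k) (s56a_VEps ρbar))
  have hsm : ∀ m : s56a_liftRepObj ρbar c hc, ∃ F : IntermediateField ℚ (AlgebraicClosure ℚ),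
      FiniteDimensional ℚ F ∧ ∀ s ∈ F.fixingSubgroup, (s56a_liftRepObj ρbar c hc).ρ s m = m := by
    intro m
    obtain ⟨F, hF, hcF⟩ := hc
    obtain ⟨L, hL, hρL⟩ := ρbar.factorsThroughFiniteLevel
    refine ⟨F ⊔ L, IntermediateField.finiteDimensional_sup F L, fun s hs => ?_⟩
    have hsF : s ∈ F.fixingSubgroup :=
      IntermediateField.fixingSubgroup_antitone le_sup_left hs
    have hsL : s ∈ L.fixingSubgroup :=
      IntermediateField.fixingSubgroup_antitone le_sup_right hs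
    have h1 : ρbar.ρ s = 1 :=
      hρL s fun x hx => (IntermediateField.mem_fixingSubgroup_iff L s).1 hsL x hx
    have h2 : c.1 s = 0 := by
      have := hcF 1 s hsF
      rw [one_mul] at this
      rw [this]
      exact Subtype.ext (s56a_cocycle_apply_one ρbar c)
    show s56a_epsEnd ρbar (ρbar.ρ s) (s56a_toEnd ρbar (c.1 s) * ρbar.ρ s) m = m
    rw [h1, h2, map_zero, zero_mul, s56a_epsEnd_one]
    rfl
  have hMur : ∀ q : Nat.Primes, q ∉ Sg → ∀ A : ValuationSubring (AlgebraicClosure ℚ),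
      A.LiesOverPrime (q : ℕ) → ∀ g ∈ A.inertiaSubgroupIn ℚ,
        (s56a_liftRepObj ρbar c hc).ρ g = 1 :=
    fun q hq A hA g hg => hur q hq A hA g hg
  have hlev := Fermat.Agent.Lib.PT.pta_isLevel_kerField (S := Sg) hsm hMur
  refine ⟨_, hlev.unram, fun g s hs => ?_⟩
  have hker := hlev.triv hs
  rw [MonoidHom.mem_ker] at hker
  exact s56a_cocycle_mul_of_lift_eq_one ρbar c hc g s hker

end LevelS

section Selmer

open Fermat.Agent.Lib.Deform (dualNumberAlgebra)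

variable (𝒪 : Type) [CommRing 𝒪] [IsDomain 𝒪] [IsDiscreteValuationRing 𝒪]
  [IsAdicComplete (maximalIdeal 𝒪) 𝒪]
  (ρbar : ResidualGaloisRep (ResidueField 𝒪))
  (𝒟 : ∀ ⦃A : Type⦄ [CommRing A] [IsLocalRing A] [Algebra 𝒪 A], GaloisRepAdic A → Prop)

omit [IsAdicComplete (maximalIdeal 𝒪) 𝒪] in
/-- For a deformation type implying unramifiedness outside `Σ`, the Selmer set lies in
`continuousH1S Σ (ad⁰ ρ̄)`. -/
theorem s56a_selmerSet_le_continuousH1S (Sg : Finset Nat.Primes)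
    (h𝒟 : letI := dualNumberAlgebra 𝒪
      ∀ ρ : GaloisRepAdic (DualNumber (ResidueField 𝒪)), 𝒟 ρ →
        ∀ q : Nat.Primes, q ∉ Sg → ρ.IsUnramifiedAt q) :
    s56a_SelmerSet 𝒪 ρbar 𝒟 ⊆ ↑(continuousH1S Sg (s56a_ad0 ρbar)) := by
  rintro x ⟨c, hc, rfl, hcD⟩
  exact (mem_continuousH1S_iff Sg (s56a_ad0 ρbar) _).2
    ⟨c, s56a_isLevelS_of_unramified ρbar c hc Sg (h𝒟 _ hcD), rfl⟩

/-- The primes of a finite set of natural numbers. -/
def s56a_primesOf (Sg : Finset ℕ) : Finset Nat.Primes := Sg.subtype Nat.Prime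

theorem s56a_mem_primesOf (Sg : Finset ℕ) (q : Nat.Primes) :
    q ∈ s56a_primesOf Sg ↔ (q : ℕ) ∈ Sg := Finset.mem_subtype

omit [IsAdicComplete (maximalIdeal 𝒪) 𝒪] in
/-- The strict-ordinary Selmer set of S56 lies in `continuousH1S`. -/
theorem s56a_selmerSet_ord_le (p : ℕ) (Sg Smin : Finset ℕ) :
    s56a_SelmerSet 𝒪 ρbar (fun _A _ _ _ ρ =>
      GaloisRep.strictOrdinaryCondition 𝒪 p Sg ρ ∧
        ∀ q ∈ Smin, q.Prime → q ≠ p → ρ.IsUnipotentOnInertiaAt q) ⊆
      ↑(continuousH1S (s56a_primesOf Sg) (s56a_ad0 ρbar)) :=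
  s56a_selmerSet_le_continuousH1S 𝒪 ρbar _ _ fun _ hρ q hq =>
    hρ.1.2.2 q q.2 fun h => hq ((s56a_mem_primesOf Sg q).2 h)

omit [IsAdicComplete (maximalIdeal 𝒪) 𝒪] in
/-- The flat Selmer set of S56 lies in `continuousH1S`. -/
theorem s56a_selmerSet_flat_le (p : ℕ) (Sg Smin : Finset ℕ) :
    s56a_SelmerSet 𝒪 ρbar (fun _A _ _ _ ρ =>
      GaloisRep.flatCondition 𝒪 p Sg ρ ∧
        ∀ q ∈ Smin, q.Prime → q ≠ p → ρ.IsUnipotentOnInertiaAt q) ⊆
      ↑(continuousH1S (s56a_primesOf Sg) (s56a_ad0 ρbar)) :=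
  s56a_selmerSet_le_continuousH1S 𝒪 ρbar _ _ fun _ hρ q hq =>
    hρ.1.2.2 q q.2 fun h => hq ((s56a_mem_primesOf Sg q).2 h)

end Selmer

end Fermat.Agent.Lib.S56
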