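import Fermat.Agent.Lib.Deform.Tangent
import Fermat.Agent.Lib.Deform.PowerSeries

/-!
# Programme W (S56), wall W1: relative cotangent space and generators (helper2)

For a complete Noetherian local `𝒪`-algebra `R` with the residue field of `𝒪`: if `k^(r+1)` does
not embed into `Hom_𝒪(R, k[ε])` then `R` is a quotient of `𝒪[[x₁,…,x_r]]`.
-/

set_option autoImplicit false
set_option linter.style.haveILetI false

noncomputable section

namespace Fermat.Agent.Lib.S56

open IsLocalRing Fermat.Agent.Lib.Deform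

section RelCot

variable {𝒪 : Type} [CommRing 𝒪] [IsLocalRing 𝒪]
variable {R : Type} [CommRing R] [IsLocalRing R] [Algebra 𝒪 R] (hR : IsTestAlgebra 𝒪 R)

/-- The image of `𝔪_𝒪` in the maximal ideal of `R`. -/
def s56a_baseElt (t : maximalIdeal 𝒪) : maximalIdeal R :=
  ⟨algebraMap 𝒪 R t, hR.algebraMap_mem t.2⟩

/-- The subspace of the cotangent space of `R` spanned by `𝔪_𝒪`. -/
def s56a_cotU : Submodule (ResidueField R) (CotangentSpace R) :=
  Submodule.span (ResidueField R)
    (Set.range fun t : maximalIdeal 𝒪 => (maximalIdeal R).toCotangent (s56a_baseElt hR t))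

/-- The relative cotangent space `𝔪_R / (𝔪_R² + 𝔪_𝒪 R)`. -/
abbrev s56a_RelCot : Type := CotangentSpace R ⧸ s56a_cotU hR

/-- The functional on the cotangent space attached to a functional on the relative one. -/
def s56a_lamOf (l : s56a_RelCot hR →ₗ[ResidueField R] ResidueField R) :
    CotangentSpace R →ₗ[ResidueField R] ResidueField R :=
  l.comp (s56a_cotU hR).mkQ

theorem s56a_lamOf_base (l : s56a_RelCot hR →ₗ[ResidueField R] ResidueField R)
    (t : 𝒪) (ht : t ∈ maximalIdeal 𝒪) :
    s56a_lamOf hR l ((maximalIdeal R).toCotangent ⟨algebraMap 𝒪 R t, hR.algebraMap_mem ht⟩) = 0 := by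
  have hmem : (maximalIdeal R).toCotangent ⟨algebraMap 𝒪 R t, hR.algebraMap_mem ht⟩ ∈
      s56a_cotU hR := Submodule.subset_span ⟨⟨t, ht⟩, rfl⟩
  rw [s56a_lamOf, LinearMap.comp_apply, Submodule.mkQ_apply,
    (Submodule.Quotient.mk_eq_zero _).mpr hmem, map_zero]

/-- The tangent vector `R → k[ε]` attached to a functional on the relative cotangent space. -/
def s56a_tangentOf (l : s56a_RelCot hR →ₗ[ResidueField R] ResidueField R) :
    letI := dualNumberAlgebra 𝒪
    R →ₐ[𝒪] DualNumber (ResidueField 𝒪) :=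
  tangentHom hR (s56a_lamOf hR l) (s56a_lamOf_base hR l)

theorem s56a_tangentOf_injective :
    letI := dualNumberAlgebra 𝒪
    Function.Injective (s56a_tangentOf hR) := by
  letI := dualNumberAlgebra 𝒪
  intro l l' h
  refine LinearMap.ext fun q => ?_
  obtain ⟨c, rfl⟩ := Submodule.Quotient.mk_surjective _ q
  obtain ⟨m, rfl⟩ := (maximalIdeal R).toCotangent_surjective c
  have h1 := congrArg (fun ψ : R →ₐ[𝒪] DualNumber (ResidueField 𝒪) => ψ (m : R)) h
  simp only [s56a_tangentOf] at h1
  rw [tangentHom_apply_of_mem hR _ _ (m : R) m.2, tangentHom_apply_of_mem hR _ _ (m : R) m.2] at h1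
  have h2 := (residueEquiv hR).injective (TrivSqZeroExt.inr_injective h1)
  exact h2

end RelCot

section Gen

variable {𝒪 : Type} [CommRing 𝒪] [IsLocalRing 𝒪]
variable {R : Type} [CommRing R] [IsLocalRing R] [Algebra 𝒪 R] (hR : IsTestAlgebra 𝒪 R)
variable [IsNoetherianRing R]

/-- If the relative cotangent space has dimension `> r`, then `k^(r+1)` embeds into the tangent
space `Hom_𝒪(R, k[ε])`. -/
theorem s56a_exists_injective_of_lt (r : ℕ)
    (h : r + 1 ≤ Module.finrank (ResidueField R) (s56a_RelCot hR)) :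
    letI := dualNumberAlgebra 𝒪
    ∃ f : (Fin (r + 1) → ResidueField 𝒪) → (R →ₐ[𝒪] DualNumber (ResidueField 𝒪)),
      Function.Injective f := by
  letI := dualNumberAlgebra 𝒪
  classical
  set d := Module.finrank (ResidueField R) (s56a_RelCot hR) with hd
  let b : Module.Basis (Fin d) (ResidueField R) (s56a_RelCot hR) :=
    Module.finBasis (ResidueField R) (s56a_RelCot hR)
  let g : (Fin (r + 1) → ResidueField 𝒪) → (Fin d → ResidueField R) := fun a i =>
    if hi : i.1 < r + 1 then (residueEquiv hR).symm (a ⟨i.1, hi⟩) else 0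
  have hg : Function.Injective g := by
    intro a a' haa
    funext i
    have hi : i.1 < d := lt_of_lt_of_le i.2 h
    have := congrFun haa ⟨i.1, hi⟩
    simp only [g, dif_pos i.2] at this
    exact (residueEquiv hR).symm.injective this
  refine ⟨fun a => s56a_tangentOf hR (b.constr (ResidueField R) (g a)), ?_⟩
  intro a a' haa
  exact hg ((b.constr (ResidueField R)).injective (s56a_tangentOf_injective hR haa))

/-- If the relative cotangent space has dimension `≤ r`, the maximal ideal of `R` is generated by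
`r` elements and `𝔪_𝒪`. -/
theorem s56a_exists_gens (r : ℕ)
    (h : Module.finrank (ResidueField R) (s56a_RelCot hR) ≤ r) :
    ∃ x : Fin r → R, (∀ i, x i ∈ maximalIdeal R) ∧
      maximalIdeal R ≤ Ideal.span (Set.range x) ⊔ (maximalIdeal 𝒪).map (algebraMap 𝒪 R) := by
  classical
  set d := Module.finrank (ResidueField R) (s56a_RelCot hR) with hd
  let b : Module.Basis (Fin d) (ResidueField R) (s56a_RelCot hR) :=
    Module.finBasis (ResidueField R) (s56a_RelCot hR)
  have hy : ∀ i : Fin d, ∃ y : maximalIdeal R,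
      (s56a_cotU hR).mkQ ((maximalIdeal R).toCotangent y) = b i := by
    intro i
    obtain ⟨c, hc⟩ := Submodule.Quotient.mk_surjective _ (b i)
    obtain ⟨y, rfl⟩ := (maximalIdeal R).toCotangent_surjective c
    exact ⟨y, hc⟩
  choose y hy using hy
  let x' : Fin r → maximalIdeal R := fun i => if hi : i.1 < d then y ⟨i.1, hi⟩ else 0
  let s : Set (maximalIdeal R) := Set.range x' ∪ Set.range (s56a_baseElt hR)
  -- the span of the images of `s` in the cotangent space is everything
  have hS : Submodule.span (ResidueField R) ((maximalIdeal R).toCotangent '' s) = ⊤ := by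
    set S := Submodule.span (ResidueField R) ((maximalIdeal R).toCotangent '' s) with hSdef
    have hU : s56a_cotU hR ≤ S := by
      rw [s56a_cotU, Submodule.span_le]
      rintro _ ⟨t, rfl⟩
      exact Submodule.subset_span ⟨s56a_baseElt hR t, Or.inr ⟨t, rfl⟩, rfl⟩
    have hmap : S.map (s56a_cotU hR).mkQ = ⊤ := by
      rw [eq_top_iff, ← b.span_eq, Submodule.span_le]
      rintro _ ⟨i, rfl⟩
      have hi : i.1 < r := lt_of_lt_of_le i.2 h
      refine ⟨(maximalIdeal R).toCotangent (y i), ?_, hy i⟩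
      refine Submodule.subset_span ⟨y i, Or.inl ⟨⟨i.1, hi⟩, ?_⟩, rfl⟩
      simp only [x', dif_pos i.2]
    rw [eq_top_iff]
    intro c _
    have hc : (s56a_cotU hR).mkQ c ∈ S.map (s56a_cotU hR).mkQ := by rw [hmap]; exact Submodule.mem_top
    obtain ⟨c', hc'S, hc'⟩ := hc
    have hsub : c - c' ∈ s56a_cotU hR := by
      rw [← Submodule.Quotient.mk_eq_zero, Submodule.Quotient.mk_sub, sub_eq_zero]
      exact hc'.symm
    have := S.add_mem (hU hsub) hc'S
    rwa [sub_add_cancel] at this
  rw [CotangentSpace.span_image_eq_top_iff] at hS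
  refine ⟨fun i => (x' i : R), fun i => (x' i).2, fun z hz => ?_⟩
  have hz' : (⟨z, hz⟩ : maximalIdeal R) ∈ Submodule.span R s := by rw [hS]; exact Submodule.mem_top
  have hmapz : z ∈ (Submodule.span R s).map (maximalIdeal R).subtype := ⟨⟨z, hz⟩, hz', rfl⟩
  rw [Submodule.map_span] at hmapz
  refine (Submodule.span_le (p := Ideal.span (Set.range fun i => (x' i : R)) ⊔
    (maximalIdeal 𝒪).map (algebraMap 𝒪 R))).mpr ?_ hmapz
  rintro _ ⟨w, hw | hw, rfl⟩
  · obtain ⟨i, rfl⟩ := hw
    exact Ideal.mem_sup_left (Ideal.subset_span ⟨i, rfl⟩)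
  · obtain ⟨t, rfl⟩ := hw
    exact Ideal.mem_sup_right (Ideal.mem_map_of_mem _ t.2)

end Gen

section Surj

variable {𝒪 : Type} [CommRing 𝒪] [IsLocalRing 𝒪] [IsAdicComplete (maximalIdeal 𝒪) 𝒪]
variable {R : Type} [CommRing R] [IsLocalRing R] [Algebra 𝒪 R] (hR : IsTestAlgebra 𝒪 R)
variable [IsAdicComplete (maximalIdeal R) R]

theorem s56a_C_mem_maximalIdeal {σ : Type*} {t : 𝒪} (ht : t ∈ maximalIdeal 𝒪) :
    (MvPowerSeries.C t : MvPowerSeries σ 𝒪) ∈ maximalIdeal (MvPowerSeries σ 𝒪) := by
  rw [mem_maximalIdeal, mem_nonunits_iff, MvPowerSeries.isUnit_iff_constantCoeff,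
    MvPowerSeries.constantCoeff_C]
  exact ht

include hR in
/-- `𝒪[[x₁,…,x_r]] → R` is onto as soon as the `x_i` and `𝔪_𝒪` generate the maximal ideal. -/
theorem s56a_exists_surjective_of_gens {r : ℕ} (x : Fin r → R) (hx : ∀ i, x i ∈ maximalIdeal R)
    (hgen : maximalIdeal R ≤
      Ideal.span (Set.range x) ⊔ (maximalIdeal 𝒪).map (algebraMap 𝒪 R)) :
    ∃ γ : MvPowerSeries (Fin r) 𝒪 →ₐ[𝒪] R, Function.Surjective γ := by
  let γ : MvPowerSeries (Fin r) 𝒪 →ₐ[𝒪] R := evalHom (maximalIdeal R) x hx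
  have hγX : ∀ i, γ (MvPowerSeries.X i) = x i := fun i => evalHom_X _ _ _ i
  have hγC : ∀ t : 𝒪, γ (MvPowerSeries.C t) = algebraMap 𝒪 R t := by
    intro t
    have : (MvPowerSeries.C t : MvPowerSeries (Fin r) 𝒪) =
        algebraMap 𝒪 (MvPowerSeries (Fin r) 𝒪) t := by
      rw [MvPowerSeries.algebraMap_apply, Algebra.algebraMap_self, RingHom.id_apply]
    rw [this, γ.commutes]
  refine ⟨γ, ?_⟩
  -- the image of the maximal ideal generates the maximal ideal
  have hle : maximalIdeal R ≤ (maximalIdeal (MvPowerSeries (Fin r) 𝒪)).map (γ : _ →+* R) := by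
    refine hgen.trans (sup_le ?_ ?_)
    · rw [Ideal.span_le]
      rintro _ ⟨i, rfl⟩
      rw [← hγX i]
      exact Ideal.mem_map_of_mem _ (X_mem_maximalIdeal i)
    · rw [Ideal.map_le_iff_le_comap]
      intro t ht
      rw [Ideal.mem_comap, ← hγC t]
      exact Ideal.mem_map_of_mem _ (s56a_C_mem_maximalIdeal ht)
  have hge : (maximalIdeal (MvPowerSeries (Fin r) 𝒪)).map (γ : _ →+* R) ≤ maximalIdeal R := by
    rw [Ideal.map_le_iff_le_comap]
    intro f hf
    rw [Ideal.mem_comap]
    have hc : MvPowerSeries.constantCoeff f ∈ maximalIdeal 𝒪 := by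
      rw [mem_maximalIdeal, mem_nonunits_iff, MvPowerSeries.isUnit_iff_constantCoeff] at hf
      exact hf
    have hsplit : f = MvPowerSeries.C (MvPowerSeries.constantCoeff f) +
        (f - MvPowerSeries.C (MvPowerSeries.constantCoeff f)) := by ring
    have h1 : γ (MvPowerSeries.C (MvPowerSeries.constantCoeff f)) ∈ maximalIdeal R := by
      rw [hγC]; exact hR.algebraMap_mem hc
    have h2 : γ (f - MvPowerSeries.C (MvPowerSeries.constantCoeff f)) ∈ maximalIdeal R ^ 1 := by
      refine algHom_mem_pow_of_coeff_eq_zero (maximalIdeal R) γ (fun i => by rw [hγX]; exact hx i)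
        (fun d hd => ?_)
      have hd0 : d = 0 := by
        have : Finsupp.degree d = 0 := by omega
        exact (Finsupp.degree_eq_zero_iff d).mp this
      subst hd0
      rw [map_sub, MvPowerSeries.coeff_zero_eq_constantCoeff_apply,
        MvPowerSeries.coeff_zero_eq_constantCoeff_apply, MvPowerSeries.constantCoeff_C, sub_self]
    rw [pow_one] at h2
    show γ f ∈ maximalIdeal R
    rw [hsplit, map_add]
    exact Ideal.add_mem _ h1 h2
  have heq : (maximalIdeal (MvPowerSeries (Fin r) 𝒪)).map (γ : _ →+* R) = maximalIdeal R :=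
    le_antisymm hge hle
  haveI : IsHausdorff ((maximalIdeal (MvPowerSeries (Fin r) 𝒪)).map (γ : _ →+* R)) R := by
    rw [heq]; infer_instance
  refine surjective_of_mk_map_comp_surjective (I := maximalIdeal (MvPowerSeries (Fin r) 𝒪))
    (γ : MvPowerSeries (Fin r) 𝒪 →+* R) ?_
  intro q
  obtain ⟨a, rfl⟩ := Ideal.Quotient.mk_surjective q
  obtain ⟨t, ht⟩ := hR.exists_sub_mem a
  refine ⟨MvPowerSeries.C t, ?_⟩
  rw [RingHom.comp_apply, Ideal.Quotient.eq, heq]
  have : (γ : MvPowerSeries (Fin r) 𝒪 →+* R) (MvPowerSeries.C t) = algebraMap 𝒪 R t := hγC t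
  rw [this, ← neg_sub]
  exact neg_mem ht

include hR in
/-- **Relative cotangent criterion.** If `k^(r+1)` does not embed into `Hom_𝒪(R, k[ε])`, then `R`
is a quotient of `𝒪[[x₁,…,x_r]]`. -/
theorem s56a_exists_surjective [IsNoetherianRing R] (r : ℕ)
    (h : letI := dualNumberAlgebra 𝒪
      ¬ ∃ f : (Fin (r + 1) → ResidueField 𝒪) → (R →ₐ[𝒪] DualNumber (ResidueField 𝒪)),
        Function.Injective f) :
    ∃ γ : MvPowerSeries (Fin r) 𝒪 →ₐ[𝒪] R, Function.Surjective γ := by
  have hd : Module.finrank (ResidueField R) (s56a_RelCot hR) ≤ r := by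
    by_contra hlt
    exact h (s56a_exists_injective_of_lt hR r (by omega))
  obtain ⟨x, hx, hgen⟩ := s56a_exists_gens hR r hd
  exact s56a_exists_surjective_of_gens hR x hx hgen

end Surj

end Fermat.Agent.Lib.S56
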