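import Fermat.Agent.Lib.S56.ADict
import Fermat.Agent.Lib.S56.ATangent

/-!
# Programme W (S56), wall W1: from a bound on the Selmer set to generators (helper2)

`s56a_of_selmer`: if the Selmer set of a tangent-stable deformation type `𝒟` lies in a finite set
of at most `|k|^r` classes, every deformation ring of type `𝒟` is a quotient of `𝒪[[x₁,…,x_r]]`.
-/

set_option autoImplicit false
set_option linter.style.haveILetI false

noncomputable section

namespace Fermat.Agent.Lib.S56

open IsLocalRing groupCohomology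

local notation "Γℚ" => (AlgebraicClosure ℚ ≃ₐ[ℚ] AlgebraicClosure ℚ)

section Card

/-- A finite field of odd characteristic `p` has at least three elements. -/
theorem s56a_three_le_card (k : Type*) [Field k] [Finite k] (p : ℕ) [Fact p.Prime] (hp2 : p ≠ 2)
    (hp : (p : k) = 0) : 3 ≤ Nat.card k := by
  have hpp : p.Prime := Fact.out
  haveI : CharP k p := by
    obtain ⟨q, hq⟩ := CharP.exists k
    have hqp : q ∣ p := (CharP.cast_eq_zero_iff k q p).1 hp
    rcases (Nat.dvd_prime hpp).1 hqp with h1 | h1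
    · subst h1
      exact absurd rfl (CharP.char_ne_one k 1)
    · subst h1
      exact hq
  haveI : Fintype k := Fintype.ofFinite k
  obtain ⟨n, -, hn⟩ := FiniteField.card k p
  rw [Nat.card_eq_fintype_card, hn]
  have h3 : 3 ≤ p := by
    have := hpp.two_le
    omega
  calc 3 ≤ p := h3
    _ = p ^ 1 := (pow_one p).symm
    _ ≤ p ^ (n : ℕ) := Nat.pow_le_pow_right (by omega) n.pos

end Card

section Main

open Fermat.Agent.Lib.Deform (dualNumberAlgebra)

attribute [local instance] Fermat.Agent.Lib.Deform.dualNumberAlgebra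

variable (𝒪 : Type) [CommRing 𝒪] [IsDomain 𝒪] [IsDiscreteValuationRing 𝒪]
  [IsAdicComplete (maximalIdeal 𝒪) 𝒪]
  (ρbar : ResidualGaloisRep (ResidueField 𝒪))
  (𝒟 : ∀ ⦃A : Type⦄ [CommRing A] [IsLocalRing A] [Algebra 𝒪 A], GaloisRepAdic A → Prop)

/-- **W1, main theorem.** If the Selmer set of `𝒟` is contained in a finite set with at most
`|k|^r` elements, every deformation ring of type `𝒟` is a quotient of `𝒪[[x₁,…,x_r]]`. -/
theorem s56a_of_selmer [Finite (ResidueField 𝒪)] (p : ℕ) [Fact p.Prime] (hp2 : p ≠ 2)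
    (hdet : (GaloisRepAdic.ofResidualGaloisRep ρbar).DetIsCyclotomic p)
    (h𝒟 : s56a_TangentStable 𝒪 𝒟 p) (r : ℕ)
    (hsel : ∃ T : Finset (H1 (s56a_ad0 ρbar)),
      s56a_SelmerSet 𝒪 ρbar 𝒟 ⊆ ↑T ∧ T.card ≤ Nat.card (ResidueField 𝒪) ^ r)
    (D : GaloisRep.DeformationRingData 𝒪 ρbar 𝒟) :
    ∃ γ : MvPowerSeries (Fin r) 𝒪 →ₐ[𝒪] D.R, Function.Surjective γ := by
  classical
  obtain ⟨T, hT, hcard⟩ := hsel
  obtain ⟨N⟩ := Fermat.Agent.Lib.S53.exists_normData ρbar D.absIrr
  obtain ⟨bR, hbR⟩ := s56a_exists_basisR D N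
  refine s56a_exists_surjective (s56a_isTestAlgebra_R D) r ?_
  rintro ⟨f, hf⟩
  -- the characteristic
  have hpk : ((p : ℕ) : ResidueField 𝒪) = 0 := by
    have h1 := hdet.1
    have hbot : maximalIdeal (ResidueField 𝒪) = ⊥ :=
      (Ideal.eq_bot_or_top _).resolve_right (Ideal.IsMaximal.ne_top inferInstance)
    rw [hbot, Ideal.mem_bot] at h1
    exact h1
  have h3 := s56a_three_le_card (ResidueField 𝒪) p hp2 hpk
  -- the counting map
  let g : (Fin (r + 1) → ResidueField 𝒪) → Option {x // x ∈ T} := fun x =>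
    if hs : Function.Surjective (f x) then
      some ⟨(H1π (s56a_ad0 ρbar)).hom (s56a_cocPhi D N bR hbR p h𝒟 (f x) hs),
        hT (s56a_class_mem_selmerSet D N bR hbR p h𝒟 (f x) hs)⟩
    else none
  have hg : Function.Injective g := by
    intro x y hxy
    by_cases hx : Function.Surjective (f x) <;> by_cases hy : Function.Surjective (f y)
    · simp only [g, dif_pos hx, dif_pos hy, Option.some.injEq, Subtype.mk.injEq] at hxy
      exact hf (s56a_eq_of_class_eq D N bR hbR p h𝒟 _ _ hx hy hxy)
    · simp only [g, dif_pos hx, dif_neg hy] at hxy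
      exact absurd hxy (Option.some_ne_none _)
    · simp only [g, dif_neg hx, dif_pos hy] at hxy
      exact absurd hxy.symm (Option.some_ne_none _)
    · exact hf (s56a_eq_of_not_surjective D _ _ hx hy)
  have h1 : Nat.card (Fin (r + 1) → ResidueField 𝒪) ≤ Nat.card (Option {x // x ∈ T}) :=
    Nat.card_le_card_of_injective g hg
  rw [Nat.card_eq_fintype_card (α := Option {x // x ∈ T}), Fintype.card_option,
    Fintype.card_coe, Nat.card_fun, Nat.card_eq_fintype_card (α := Fin (r + 1)),
    Fintype.card_fin, pow_succ] at h1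
  have h4 : 1 ≤ Nat.card (ResidueField 𝒪) ^ r := Nat.one_le_pow _ _ (by omega)
  nlinarith

end Main

end Fermat.Agent.Lib.S56
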