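/-
Programme W (S56, Taylor–Wiles primes), wall [W5] (helper5, prefix `s56o_`):
**the strict-ordinary local condition at `p`** (Wiles, Prop. 1.9 (iii)).

Definitions + statements (every `def … : Prop` below is a deliverable of W5, PROVED in
`OTri.lean` / `OBound.lean`).  `ad⁰ρ̄` is the common `s56a_ad0 ρbar : Rep k Γℚ` of W1 (helper2,
`Lib/S56/ADefs.lean`, byte-identical copy).

Mathematics.  Let `A` be local with `p = 0` in `A` (e.g. `A = k[ε]`), `ρ` strict-ordinary at `p` with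
cyclotomic determinant.  For `σ ∈ D_P` the Prelude gives `x, z` with `ρσ = x` on the line `L`,
`ρσ ≡ z` on `V/L`, `x = a z` (`σ = a` on `μ_p`; the ideal `(pⁿ)` is `0`) and `det ρσ = x z = a`, hence
`z² = 1`, `z = ±1`: **`ρ|D_P` is upper triangular with CONSTANT diagonal `(χ̄ψ̄, ψ̄)`, `ψ̄ = ±1`**
(`s56o_StrictOrdTriangular`).  Consequently the cocycle of a strict-ordinary deformation to `k[ε]` is,
after a coboundary, valued in the line `N = Hom(V̄/L̄, L̄) ≅ k(χ̄)` of `ad⁰ρ̄`, i.e. the local class lies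
in `s56o_Lp = im (H¹(G_p, N) → H¹(G_p, ad⁰ρ̄))`, and (`s56o_LocalBound`)
`dim s56o_Lp ≤ dim H¹(G_p, k(χ̄)) − h⁰(G_p, ad⁰/N) + h⁰(G_p, ad⁰) ≤ h⁰(G_p, ad⁰ρ̄) + 1`
because `dim H¹(G_p, k(χ̄)) = 2` (W3: local Euler characteristic / Kummer theory, `[ℚ_pˣ : ℚ_pˣᵖ] = p²`)
and `diag(1,-1)` is invariant in `ad⁰/N`.  No classification of anything is needed.
-/
import Mathlib
import Fermat.Prelude.Def_GaloisRep_StrictOrdinary
import Fermat.Prelude.Def_GroupCohomology_ContinuousH1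
import Fermat.Prelude.Def_DualSelmer_ExtConditions
import Fermat.Agent.Lib.S56.ADefs

set_option autoImplicit false

noncomputable section

namespace Fermat.Agent.Lib.S56

open groupCohomology CategoryTheory

local notation "Γℚ" => (AlgebraicClosure ℚ ≃ₐ[ℚ] AlgebraicClosure ℚ)

/-! ### (W5-A) the triangular normal form of a strict-ordinary representation in characteristic `p` -/

/-- `ρ|D_P` is upper triangular in a basis `b`, with diagonal `(a·s, s)`, `s = ±1`, `s = 1` on inertia,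
`a` = the exponent of `σ` on `μ_p`. -/
def s56o_TriangularAt {A : Type} [CommRing A] [IsLocalRing A] (ρ : GaloisRepAdic A) (p : ℕ)
    (P : ValuationSubring (AlgebraicClosure ℚ)) : Prop :=
  ∃ (b : Module.Basis (Fin 2) A ρ.V) (s : Γℚ → A),
    (∀ σ ∈ P.decompositionSubgroup ℚ, s σ = 1 ∨ s σ = -1) ∧
    (∀ σ ∈ P.inertiaSubgroupIn ℚ, s σ = 1) ∧
    ∀ σ ∈ P.decompositionSubgroup ℚ, ∀ a : ℕ,
      (∀ μ : AlgebraicClosure ℚ, μ ^ p = 1 → σ μ = μ ^ a) →
        ρ.ρ σ (b 0) = ((a : A) * s σ) • b 0 ∧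
        ρ.ρ σ (b 1) - s σ • b 1 ∈ Submodule.span A {b 0}

/-- **deliverable (W5-A).** -/
def s56o_StrictOrdTriangular : Prop :=
  ∀ (A : Type) [CommRing A] [IsLocalRing A] (p : ℕ) [Fact p.Prime], p ≠ 2 → (p : A) = 0 →
    ∀ ρ : GaloisRepAdic A, ρ.DetIsCyclotomic p → ρ.IsStrictOrdinaryAt p →
      ∀ P : ValuationSubring (AlgebraicClosure ℚ), P.LiesOverPrime p → s56o_TriangularAt ρ p P

/-! ### the line `N`, the local condition (`ad⁰ρ̄ = s56a_ad0 ρbar` is helper2's, `Lib/S56/ADefs.lean`) -/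

variable {k : Type} [Field k]

/-- the nilpotent line `N = Hom(V̄/L̄, L̄) ⊆ End(V̄)` attached to a line `L̄ ⊆ V̄`. -/
def s56o_N (ρbar : ResidualGaloisRep k) (Lbar : Submodule k ρbar.V) :
    Submodule k (Module.End k ρbar.V) where
  carrier := {f | (∀ v, f v ∈ Lbar) ∧ ∀ v ∈ Lbar, f v = 0}
  add_mem' := fun {f g} hf hg => ⟨fun v => by
      rw [LinearMap.add_apply]; exact Lbar.add_mem (hf.1 v) (hg.1 v),
    fun v hv => by rw [LinearMap.add_apply, hf.2 v hv, hg.2 v hv, add_zero]⟩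
  zero_mem' := ⟨fun v => by rw [LinearMap.zero_apply]; exact Lbar.zero_mem, fun v _ => rfl⟩
  smul_mem' := fun c f hf => ⟨fun v => by
      rw [LinearMap.smul_apply]; exact Lbar.smul_mem c (hf.1 v),
    fun v hv => by rw [LinearMap.smul_apply, hf.2 v hv, smul_zero]⟩

variable {G : Type} [Group G]

/-- the underlying endomorphism of an element of `ad⁰ρ̄` (restricted to a local group). -/
def s56o_val (ρbar : ResidualGaloisRep k) (r : G →* Γℚ) :
    ↑(Rep.res r (s56a_ad0 ρbar)) →ₗ[k] Module.End k ρbar.V :=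
  (s56a_sl ρbar).subtype

/-- **the strict-ordinary local condition** at a local group `r : G →* Γℚ` (in Programme W:
`G = primeLocalGaloisGroup (pPrime p)`, `r = primeLocalToGlobal (pPrime p)`): the classes of
`H¹(G, ad⁰ρ̄)` represented by a level-constant cocycle with values in `N`. -/
def s56o_Lp (ρbar : ResidualGaloisRep k) (Lbar : Submodule k ρbar.V) (r : G →* Γℚ) :
    Submodule k (H1 (Rep.res r (s56a_ad0 ρbar))) :=
  Submodule.span k {x | ∃ c : cocycles₁ (Rep.res r (s56a_ad0 ρbar)),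
    IsLevelConstant₁ r c ∧
    (∀ g : G, s56o_val ρbar r (c.val g) ∈ s56o_N ρbar Lbar) ∧
    (H1π (Rep.res r (s56a_ad0 ρbar))).hom c = x}

/-- `G` acts on `L̄` through `χ·s` and on `V̄/L̄` through `s` (so that `N ≅ k(χ)`). -/
def s56o_ActsTriangular (ρbar : ResidualGaloisRep k) (Lbar : Submodule k ρbar.V) (r : G →* Γℚ)
    (χ : G →* kˣ) : Prop :=
  ∀ τ : G, ∃ s : k, s ≠ 0 ∧ (∀ v ∈ Lbar, ρbar.ρ (r τ) v = ((χ τ : k) * s) • v) ∧
    ∀ v : ρbar.V, ρbar.ρ (r τ) v - s • v ∈ Lbar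

/-- **deliverable (W5-B): the dimension bound**, generic in the local group and in the character:
`dim L_p ≤ h⁰(G, ad⁰ρ̄) + dim H¹_cont(G, k(χ)) − 1`.  With W3's `dim H¹_cont(G_{ℚ_p}, k(χ̄_p)) = 2`
this is Wiles' `dim L_p − h⁰(G_p, ad⁰ρ̄) ≤ 1`. -/
def s56o_LocalBound : Prop :=
  ∀ (k : Type) [Field k] (_h2 : (2 : k) ≠ 0) (ρbar : ResidualGaloisRep k)
    (Lbar : Submodule k ρbar.V) (_hL : Module.finrank k Lbar = 1)
    (G : Type) [Group G] (r : G →* Γℚ) (χ : G →* kˣ)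
    (_hact : s56o_ActsTriangular ρbar Lbar r χ) (d : ℕ)
    (_hfin : Module.Finite k ↥(continuousH1 r (ofChar χ)))
    (_hd : Module.finrank k ↥(continuousH1 r (ofChar χ)) ≤ d),
    Module.finrank k ↥(s56o_Lp ρbar Lbar r) + 1 ≤
      Module.finrank k (H0 (Rep.res r (s56a_ad0 ρbar))) + d

/-- **deliverable (W5-C): the cocycle criterion** used to put the local class of a strict-ordinary
deformation into `s56o_Lp`: if a level-constant cocycle `c` of `ad⁰ρ̄|G` becomes `N`-valued after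
subtracting the coboundary of some `X ∈ End(V̄)`, its class lies in `s56o_Lp`.  (The passage from a
`GaloisRepAdic k[ε]` satisfying `s56o_TriangularAt` to such a pair `(c, X)` is the dictionary
deformation ↔ cocycle of W1; I supply it as soon as W1 fixes its model of `k[ε]`.) -/
def s56o_CocycleCriterion : Prop :=
  ∀ (k : Type) [Field k] (_h2 : (2 : k) ≠ 0) (ρbar : ResidualGaloisRep k)
    (Lbar : Submodule k ρbar.V) (G : Type) [Group G] (r : G →* Γℚ)
    (c : cocycles₁ (Rep.res r (s56a_ad0 ρbar))) (_hc : IsLevelConstant₁ r c)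
    (X : Module.End k ρbar.V)
    (_hX : ∀ g : G, s56o_val ρbar r (c.val g) +
      (ρbar.ρ (r g) ∘ₗ X ∘ₗ ρbar.ρ (r g)⁻¹ - X) ∈ s56o_N ρbar Lbar),
    (H1π (Rep.res r (s56a_ad0 ρbar))).hom c ∈ s56o_Lp ρbar Lbar r

end Fermat.Agent.Lib.S56
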