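/-
Programme W (S56), wall [W5] (helper5, prefix `s56o_`): linear algebra of `End(V)`, `dim V = 2`, relative
to a basis `b` (`b 0` spans the distinguished line): the nilpotent `n₀ = E₀₁`, the diagonal `h₀ = diag(1,-1)`,
the coordinate `coef f = f₀₁`, and their conjugates under an upper triangular automorphism.
-/
import Mathlib

set_option autoImplicit false

noncomputable section

namespace Fermat.Agent.Lib.S56

variable {k : Type*} [Field k] {V : Type*} [AddCommGroup V] [Module k V]

/-- `n₀ : b 0 ↦ 0, b 1 ↦ b 0`. -/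
def s56o_n0 (b : Module.Basis (Fin 2) k V) : Module.End k V := b.constr k ![0, b 0]

/-- `h₀ : b 0 ↦ b 0, b 1 ↦ - b 1`. -/
def s56o_h0 (b : Module.Basis (Fin 2) k V) : Module.End k V := b.constr k ![b 0, - b 1]

/-- the upper right coefficient. -/
def s56o_coef (b : Module.Basis (Fin 2) k V) : Module.End k V →ₗ[k] k where
  toFun f := b.repr (f (b 1)) 0
  map_add' f g := by simp
  map_smul' c f := by simp

variable (b : Module.Basis (Fin 2) k V)

@[simp] theorem s56o_n0_zero : s56o_n0 b (b 0) = 0 := by simp [s56o_n0]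
@[simp] theorem s56o_n0_one : s56o_n0 b (b 1) = b 0 := by simp [s56o_n0]
@[simp] theorem s56o_h0_zero : s56o_h0 b (b 0) = b 0 := by simp [s56o_h0]
@[simp] theorem s56o_h0_one : s56o_h0 b (b 1) = - b 1 := by simp [s56o_h0]

theorem s56o_coef_apply (f : Module.End k V) : s56o_coef b f = b.repr (f (b 1)) 0 := rfl

@[simp] theorem s56o_coef_n0 : s56o_coef b (s56o_n0 b) = 1 := by
  simp [s56o_coef_apply]

theorem s56o_trace_n0 : LinearMap.trace k V (s56o_n0 b) = 0 := by
  rw [LinearMap.trace_eq_matrix_trace k b, Matrix.trace_fin_two]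
  simp [LinearMap.toMatrix_apply]

theorem s56o_trace_h0 : LinearMap.trace k V (s56o_h0 b) = 0 := by
  rw [LinearMap.trace_eq_matrix_trace k b, Matrix.trace_fin_two]
  simp [LinearMap.toMatrix_apply]

/-- two endomorphisms agreeing on `b 0` and `b 1` are equal. -/
theorem s56o_end_ext {f g : Module.End k V} (h0 : f (b 0) = g (b 0)) (h1 : f (b 1) = g (b 1)) :
    f = g :=
  b.ext fun i => by fin_cases i <;> assumption

/-- an endomorphism with image in `⟨b 0⟩` killing `b 0` is `coef • n₀`. -/
theorem s56o_eq_coef_smul_n0 {f : Module.End k V} (h0 : f (b 0) = 0)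
    (h1 : f (b 1) ∈ Submodule.span k {b 0}) : f = s56o_coef b f • s56o_n0 b := by
  obtain ⟨t, ht⟩ := Submodule.mem_span_singleton.mp h1
  refine s56o_end_ext b ?_ ?_
  · rw [h0, LinearMap.smul_apply, s56o_n0_zero, smul_zero]
  · rw [LinearMap.smul_apply, s56o_n0_one, s56o_coef_apply, ← ht]
    simp

theorem s56o_n0_h0_linearIndependent :
    ∀ s t : k, s • s56o_n0 b + t • s56o_h0 b = 0 → s = 0 ∧ t = 0 := by
  intro s t h
  have h0 := congrArg (fun f : Module.End k V => f (b 0)) h
  have h1 := congrArg (fun f : Module.End k V => f (b 1)) h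
  simp only [LinearMap.add_apply, LinearMap.smul_apply, s56o_n0_zero, s56o_h0_zero, smul_zero,
    zero_add, LinearMap.zero_apply, s56o_n0_one, s56o_h0_one] at h0 h1
  have ht : t = 0 := by
    by_contra hne
    exact b.ne_zero 0 ((smul_eq_zero.mp h0).resolve_left hne)
  refine ⟨?_, ht⟩
  rw [ht, zero_smul, add_zero] at h1
  by_contra hne
  exact b.ne_zero 0 ((smul_eq_zero.mp h1).resolve_left hne)

/-! ### conjugation by an upper triangular automorphism -/

/-- `g F g⁻¹ = F'` as soon as `g F = F' g` (`ginv` a right inverse of `g`). -/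
theorem s56o_conj_eq {g ginv F F' : Module.End k V} (hinv : g * ginv = 1)
    (h : g * F = F' * g) : g * F * ginv = F' := by
  rw [h, mul_assoc, hinv, mul_one]

variable {g : Module.End k V} {χ s u : k}

theorem s56o_mul_n0 (h0 : g (b 0) = (χ * s) • b 0) (h1 : g (b 1) = s • b 1 + u • b 0) :
    g * s56o_n0 b = (χ • s56o_n0 b) * g := by
  refine s56o_end_ext b ?_ ?_
  · simp only [Module.End.mul_apply, s56o_n0_zero, map_zero, h0, map_smul, LinearMap.smul_apply,
      smul_zero]
  · simp only [Module.End.mul_apply, s56o_n0_one, h0, h1, map_add, map_smul,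
      LinearMap.smul_apply, s56o_n0_zero, smul_zero, add_zero, smul_smul]
    ring_nf

theorem s56o_mul_h0 (hs : s ≠ 0) (h0 : g (b 0) = (χ * s) • b 0) (h1 : g (b 1) = s • b 1 + u • b 0) :
    g * s56o_h0 b = (s56o_h0 b - (2 * u / s) • s56o_n0 b) * g := by
  refine s56o_end_ext b ?_ ?_
  · simp only [Module.End.mul_apply, s56o_h0_zero, h0, map_smul, LinearMap.sub_apply,
      LinearMap.smul_apply, s56o_n0_zero, smul_zero, sub_zero]
  · simp only [Module.End.mul_apply, s56o_h0_one, h0, h1, map_add, map_smul, map_neg,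
      LinearMap.sub_apply, LinearMap.smul_apply, s56o_n0_zero, s56o_n0_one, s56o_h0_zero,
      smul_zero, sub_zero, smul_neg, add_zero, smul_smul]
    have : s * (2 * u / s) = 2 * u := by field_simp
    rw [smul_sub, smul_neg, smul_smul, this]
    module

end Fermat.Agent.Lib.S56
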