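/-
Programme W (S56), wall [W5] (helper5, prefix `s56o_`): `ad⁰ρ̄|G` for a local group `r : G →* Γℚ` on which
`ρ̄` is upper triangular in a basis `b` (`s56o_Tri`): conjugation formulas for `n₀`, `h₀`, and the
morphism `φ : k(χ) ⟶ ad⁰ρ̄|G`, `x ↦ x • n₀`.
-/
import Fermat.Agent.Lib.S56.IfaceW5
import Fermat.Agent.Lib.S56.OLin

set_option autoImplicit false
noncomputable section
namespace Fermat.Agent.Lib.S56
open groupCohomology CategoryTheory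
local notation "Γℚ" => (AlgebraicClosure ℚ ≃ₐ[ℚ] AlgebraicClosure ℚ)

variable {k : Type} [Field k] {G : Type} [Group G]

theorem s56o_val_rho (ρbar : ResidualGaloisRep k) (r : G →* Γℚ) (g : G)
    (m : ↑(Rep.res r (s56a_ad0 ρbar))) :
    s56o_val ρbar r ((Rep.res r (s56a_ad0 ρbar)).ρ g m) =
      ρbar.ρ (r g) * s56o_val ρbar r m * ρbar.ρ (r g)⁻¹ := rfl

theorem s56o_val_injective (ρbar : ResidualGaloisRep k) (r : G →* Γℚ) :
    Function.Injective (s56o_val ρbar r) := Subtype.val_injective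

/-- the element of `ad⁰ρ̄` with a given trace-zero underlying endomorphism. -/
def s56o_mk (ρbar : ResidualGaloisRep k) (r : G →* Γℚ) (f : Module.End k ρbar.V)
    (hf : LinearMap.trace k ρbar.V f = 0) : ↑(Rep.res r (s56a_ad0 ρbar)) :=
  (⟨f, hf⟩ : ↥(s56a_sl ρbar))

theorem s56o_val_mk (ρbar : ResidualGaloisRep k) (r : G →* Γℚ) (f : Module.End k ρbar.V)
    (hf : LinearMap.trace k ρbar.V f = 0) : s56o_val ρbar r (s56o_mk ρbar r f hf) = f := rfl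

/-- the triangular shape of `ρ̄|G` in the basis `b`. -/
def s56o_Tri (ρbar : ResidualGaloisRep k) (r : G →* Γℚ) (χ : G →* kˣ)
    (b : Module.Basis (Fin 2) k ρbar.V) : Prop :=
  ∀ τ : G, ∃ s u : k, s ≠ 0 ∧ ρbar.ρ (r τ) (b 0) = ((χ τ : k) * s) • b 0 ∧
    ρbar.ρ (r τ) (b 1) = s • b 1 + u • b 0

variable {ρbar : ResidualGaloisRep k} {r : G →* Γℚ} {χ : G →* kˣ}
  {b : Module.Basis (Fin 2) k ρbar.V}

theorem s56o_rho_mul_inv (ρbar : ResidualGaloisRep k) (σ : Γℚ) : ρbar.ρ σ * ρbar.ρ σ⁻¹ = 1 := by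
  rw [← map_mul, mul_inv_cancel, map_one]

theorem s56o_conj_n0 (h : s56o_Tri ρbar r χ b) (τ : G) :
    ρbar.ρ (r τ) * s56o_n0 b * ρbar.ρ (r τ)⁻¹ = (χ τ : k) • s56o_n0 b := by
  obtain ⟨s, u, hs, h0, h1⟩ := h τ
  exact s56o_conj_eq (s56o_rho_mul_inv ρbar _) (s56o_mul_n0 b h0 h1)

theorem s56o_conj_h0 (h : s56o_Tri ρbar r χ b) (τ : G) :
    ∃ t : k, ρbar.ρ (r τ) * s56o_h0 b * ρbar.ρ (r τ)⁻¹ = s56o_h0 b - t • s56o_n0 b := by
  obtain ⟨s, u, hs, h0, h1⟩ := h τ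
  exact ⟨2 * u / s, s56o_conj_eq (s56o_rho_mul_inv ρbar _) (s56o_mul_h0 b hs h0 h1)⟩

/-- `n₀` as an element of `ad⁰ρ̄`. -/
def s56o_n0' (ρbar : ResidualGaloisRep k) (r : G →* Γℚ) (b : Module.Basis (Fin 2) k ρbar.V) :
    ↑(Rep.res r (s56a_ad0 ρbar)) :=
  s56o_mk ρbar r (s56o_n0 b) (s56o_trace_n0 b)

/-- `h₀` as an element of `ad⁰ρ̄`. -/
def s56o_h0' (ρbar : ResidualGaloisRep k) (r : G →* Γℚ) (b : Module.Basis (Fin 2) k ρbar.V) :
    ↑(Rep.res r (s56a_ad0 ρbar)) :=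
  s56o_mk ρbar r (s56o_h0 b) (s56o_trace_h0 b)

theorem s56o_rho_n0' (h : s56o_Tri ρbar r χ b) (τ : G) :
    (Rep.res r (s56a_ad0 ρbar)).ρ τ (s56o_n0' ρbar r b) = (χ τ : k) • s56o_n0' ρbar r b := by
  apply s56o_val_injective ρbar r
  rw [s56o_val_rho, map_smul]
  exact s56o_conj_n0 h τ

/-- **the morphism `k(χ) → ad⁰ρ̄|G`, `x ↦ x • n₀`.** -/
def s56o_phi (h : s56o_Tri ρbar r χ b) : ofChar χ ⟶ Rep.res r (s56a_ad0 ρbar) :=
  Rep.ofHom ⟨LinearMap.toSpanSingleton k _ (s56o_n0' ρbar r b), fun g => by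
    ext
    simp only [LinearMap.coe_comp, Function.comp_apply, LinearMap.toSpanSingleton_apply]
    change ((χ g : k) • (1 : k)) • s56o_n0' ρbar r b =
      (Rep.res r (s56a_ad0 ρbar)).ρ g ((1 : k) • s56o_n0' ρbar r b)
    rw [one_smul, smul_eq_mul, mul_one, s56o_rho_n0' h g]⟩

theorem s56o_phi_apply (h : s56o_Tri ρbar r χ b) (x : k) :
    (s56o_phi h).hom x = x • s56o_n0' ρbar r b := rfl

end Fermat.Agent.Lib.S56
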