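/-
Programme W (S56), wall [W5] (helper5, prefix `s56o_`): **the strict-ordinary local condition at `p`:
(W5-B) the dimension bound `s56o_localBound` and (W5-C) the cocycle criterion `s56o_cocycleCriterion`.**

`Ψ_* : H¹(G, k(χ)) → H¹(G, ad⁰ρ̄)` is induced by `x ↦ x • n₀`; `L_p ⊆ Ψ_*(H¹_cont)`; `Z = {Y : gY − Y ∈ ⟨n₀⟩}`
contains `n₀, h₀` (dimension ≥ 2); `δ' : Z → H¹_cont(G, k(χ))`, `Y ↦ [g ↦ coef (gY − Y)]` lands in `ker Ψ_*`
and `ker δ' ⊆ (ad⁰ρ̄)^G + ⟨n₀⟩`.  Rank–nullity twice gives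
`dim L_p + 1 ≤ h⁰(G, ad⁰ρ̄) + dim H¹_cont(G, k(χ))`.
-/
import Fermat.Agent.Lib.S56.OAct

set_option autoImplicit false
noncomputable section
namespace Fermat.Agent.Lib.S56
open groupCohomology CategoryTheory
local notation "Γℚ" => (AlgebraicClosure ℚ ≃ₐ[ℚ] AlgebraicClosure ℚ)

variable {k : Type} [Field k] {G : Type} [Group G]
variable {ρbar : ResidualGaloisRep k} {r : G →* Γℚ} {χ : G →* kˣ}
  {b : Module.Basis (Fin 2) k ρbar.V}

/-- `Ψ_* : H¹(G, k(χ)) → H¹(G, ad⁰ρ̄)`. -/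
def s56o_PsiH (h : s56o_Tri ρbar r χ b) :
    H1 (ofChar χ) →ₗ[k] H1 (Rep.res r (s56a_ad0 ρbar)) :=
  (groupCohomology.map (MonoidHom.id G) (s56o_phi h) 1).hom

theorem s56o_PsiH_H1π (h : s56o_Tri ρbar r χ b) (f : cocycles₁ (ofChar χ)) :
    s56o_PsiH h ((H1π (ofChar χ)).hom f) =
      (H1π (Rep.res r (s56a_ad0 ρbar))).hom
        ((mapCocycles₁ (MonoidHom.id G) (s56o_phi h)).hom f) := by
  have := H1π_comp_map_apply (MonoidHom.id G) (s56o_phi h) f
  exact this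

theorem s56o_mapCocycles_apply (h : s56o_Tri ρbar r χ b) (f : cocycles₁ (ofChar χ)) (g : G) :
    ((mapCocycles₁ (MonoidHom.id G) (s56o_phi h)).hom f : G → _) g =
      (f g : k) • s56o_n0' ρbar r b := rfl

end Fermat.Agent.Lib.S56

namespace Fermat.Agent.Lib.S56
open groupCohomology CategoryTheory
local notation "Γℚ" => (AlgebraicClosure ℚ ≃ₐ[ℚ] AlgebraicClosure ℚ)

variable {k : Type} [Field k] {G : Type} [Group G]
variable {ρbar : ResidualGaloisRep k} {r : G →* Γℚ} {χ : G →* kˣ}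
  {b : Module.Basis (Fin 2) k ρbar.V}

/-- an `N`-valued element is `coef • n₀`. -/
theorem s56o_eq_coef_smul_n0' {Lbar : Submodule k ρbar.V} (hLb : Lbar = Submodule.span k {b 0})
    (m : ↑(Rep.res r (s56a_ad0 ρbar))) (hm : s56o_val ρbar r m ∈ s56o_N ρbar Lbar) :
    m = s56o_coef b (s56o_val ρbar r m) • s56o_n0' ρbar r b := by
  apply s56o_val_injective ρbar r
  rw [map_smul]
  have h0 : s56o_val ρbar r m (b 0) = 0 :=
    hm.2 (b 0) (by rw [hLb]; exact Submodule.mem_span_singleton_self _)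
  have h1 : s56o_val ρbar r m (b 1) ∈ Submodule.span k {b 0} := by
    rw [← hLb]; exact hm.1 (b 1)
  exact s56o_eq_coef_smul_n0 b h0 h1

theorem s56o_coef_n0' : s56o_coef b (s56o_val ρbar r (s56o_n0' ρbar r b)) = 1 :=
  s56o_coef_n0 b

/-- the coefficient cocycle of an `N`-valued cocycle. -/
theorem s56o_coef_cocycle (h : s56o_Tri ρbar r χ b) {Lbar : Submodule k ρbar.V}
    (hLb : Lbar = Submodule.span k {b 0})
    (c : cocycles₁ (Rep.res r (s56a_ad0 ρbar)))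
    (hc : ∀ g : G, s56o_val ρbar r (c.val g) ∈ s56o_N ρbar Lbar) :
    (fun g : G => s56o_coef b (s56o_val ρbar r (c.val g))) ∈ cocycles₁ (ofChar χ) := by
  rw [mem_cocycles₁_iff]
  intro g g'
  have hcc := (mem_cocycles₁_iff (c : G → ↑(Rep.res r (s56a_ad0 ρbar)))).mp c.2 g g'
  have h1 := s56o_eq_coef_smul_n0' hLb (c.val g') (hc g')
  change s56o_coef b (s56o_val ρbar r (c.val (g * g'))) =
    (χ g : k) * s56o_coef b (s56o_val ρbar r (c.val g')) + s56o_coef b (s56o_val ρbar r (c.val g))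
  have h2 : c.val (g * g') = (Rep.res r (s56a_ad0 ρbar)).ρ g (c.val g') + c.val g := hcc
  rw [h2, map_add, map_add]
  congr 1
  conv_lhs => rw [h1]
  rw [map_smul, s56o_rho_n0' h g, map_smul, map_smul, map_smul, map_smul, s56o_coef_n0',
    smul_eq_mul, smul_eq_mul, mul_one, mul_comm]

end Fermat.Agent.Lib.S56

namespace Fermat.Agent.Lib.S56
open groupCohomology CategoryTheory
local notation "Γℚ" => (AlgebraicClosure ℚ ≃ₐ[ℚ] AlgebraicClosure ℚ)

variable {k : Type} [Field k] {G : Type} [Group G]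
variable {ρbar : ResidualGaloisRep k} {r : G →* Γℚ} {χ : G →* kˣ}
  {b : Module.Basis (Fin 2) k ρbar.V}

/-- **`L_p ⊆ Ψ_*(H¹_cont(G, k(χ)))`.** -/
theorem s56o_Lp_le_map (h : s56o_Tri ρbar r χ b) {Lbar : Submodule k ρbar.V}
    (hLb : Lbar = Submodule.span k {b 0}) :
    s56o_Lp ρbar Lbar r ≤ (continuousH1 r (ofChar χ)).map (s56o_PsiH h) := by
  refine Submodule.span_le.mpr ?_
  rintro x ⟨c, hlev, hN, rfl⟩
  let f : cocycles₁ (ofChar χ) := ⟨_, s56o_coef_cocycle h hLb c hN⟩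
  refine ⟨(H1π (ofChar χ)).hom f, H1π_mem_continuousH1 r (ofChar χ) (c := f) ?_, ?_⟩
  · exact hlev.comp (fun m => s56o_coef b (s56o_val ρbar r m))
  · rw [s56o_PsiH_H1π]
    congr 1
    apply cocycles₁_ext
    intro g
    rw [s56o_mapCocycles_apply]
    exact (s56o_eq_coef_smul_n0' hLb (c.val g) (hN g)).symm

end Fermat.Agent.Lib.S56

namespace Fermat.Agent.Lib.S56
open groupCohomology CategoryTheory
local notation "Γℚ" => (AlgebraicClosure ℚ ≃ₐ[ℚ] AlgebraicClosure ℚ)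

variable {k : Type} [Field k] {G : Type} [Group G]
variable {ρbar : ResidualGaloisRep k} {r : G →* Γℚ} {χ : G →* kˣ}
  {b : Module.Basis (Fin 2) k ρbar.V}

/-- `Z = {Y ∈ ad⁰ρ̄ : gY − Y ∈ ⟨n₀⟩ for all g}` (the preimage of `(ad⁰/N)^G`). -/
def s56o_Z (ρbar : ResidualGaloisRep k) (r : G →* Γℚ) (b : Module.Basis (Fin 2) k ρbar.V) :
    Submodule k ↑(Rep.res r (s56a_ad0 ρbar)) where
  carrier := {Y | ∀ g : G, (Rep.res r (s56a_ad0 ρbar)).ρ g Y - Y ∈
    Submodule.span k {s56o_n0' ρbar r b}}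
  add_mem' := fun {Y Y'} hY hY' g => by
    have : (Rep.res r (s56a_ad0 ρbar)).ρ g (Y + Y') - (Y + Y') =
        ((Rep.res r (s56a_ad0 ρbar)).ρ g Y - Y) + ((Rep.res r (s56a_ad0 ρbar)).ρ g Y' - Y') := by
      rw [map_add]; abel
    rw [this]
    exact Submodule.add_mem _ (hY g) (hY' g)
  zero_mem' := fun g => by
    rw [map_zero, sub_zero]; exact Submodule.zero_mem _
  smul_mem' := fun c Y hY g => by
    have : (Rep.res r (s56a_ad0 ρbar)).ρ g (c • Y) - c • Y =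
        c • ((Rep.res r (s56a_ad0 ρbar)).ρ g Y - Y) := by
      rw [map_smul, smul_sub]
    rw [this]
    exact Submodule.smul_mem _ c (hY g)

/-- the coefficient function `g ↦ coef (gY − Y)`. -/
def s56o_delta0 (ρbar : ResidualGaloisRep k) (r : G →* Γℚ) (b : Module.Basis (Fin 2) k ρbar.V) :
    ↥(s56o_Z ρbar r b) →ₗ[k] (G → k) :=
  LinearMap.pi fun g => (s56o_coef b) ∘ₗ (s56o_val ρbar r) ∘ₗ
    ((Rep.res r (s56a_ad0 ρbar)).ρ g - 1) ∘ₗ (s56o_Z ρbar r b).subtype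

theorem s56o_delta0_apply (Y : ↥(s56o_Z ρbar r b)) (g : G) :
    s56o_delta0 ρbar r b Y g = s56o_coef b (s56o_val ρbar r
      ((Rep.res r (s56a_ad0 ρbar)).ρ g (Y : ↑(Rep.res r (s56a_ad0 ρbar))) - Y)) := rfl

theorem s56o_delta0_spec (Y : ↥(s56o_Z ρbar r b)) (g : G) :
    (Rep.res r (s56a_ad0 ρbar)).ρ g (Y : ↑(Rep.res r (s56a_ad0 ρbar))) - Y =
      s56o_delta0 ρbar r b Y g • s56o_n0' ρbar r b := by
  obtain ⟨t, ht⟩ := Submodule.mem_span_singleton.mp (Y.2 g)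
  rw [s56o_delta0_apply, ← ht, map_smul, map_smul, s56o_coef_n0', smul_eq_mul, mul_one]

theorem s56o_delta0_mem (h : s56o_Tri ρbar r χ b) (Y : ↥(s56o_Z ρbar r b)) :
    s56o_delta0 ρbar r b Y ∈ cocycles₁ (ofChar χ) := by
  rw [mem_cocycles₁_iff]
  intro g g'
  change s56o_delta0 ρbar r b Y (g * g') =
    (χ g : k) * s56o_delta0 ρbar r b Y g' + s56o_delta0 ρbar r b Y g
  have h1 : (Rep.res r (s56a_ad0 ρbar)).ρ (g * g') (Y : ↑(Rep.res r (s56a_ad0 ρbar))) - Y =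
      (Rep.res r (s56a_ad0 ρbar)).ρ g
        ((Rep.res r (s56a_ad0 ρbar)).ρ g' (Y : ↑(Rep.res r (s56a_ad0 ρbar))) - Y) +
      ((Rep.res r (s56a_ad0 ρbar)).ρ g (Y : ↑(Rep.res r (s56a_ad0 ρbar))) - Y) := by
    rw [map_mul, Module.End.mul_apply, map_sub]; abel
  rw [s56o_delta0_apply, h1, s56o_delta0_spec Y g', s56o_delta0_spec Y g, map_smul,
    s56o_rho_n0' h g, map_add, map_add, map_smul, map_smul, map_smul, map_smul, map_smul, map_smul,
    s56o_coef_n0', smul_eq_mul, smul_eq_mul, smul_eq_mul, mul_one, mul_one, mul_comm]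

/-- `δ : Z → Z¹(G, k(χ))`. -/
def s56o_deltaC (h : s56o_Tri ρbar r χ b) : ↥(s56o_Z ρbar r b) →ₗ[k] ↥(cocycles₁ (ofChar χ)) :=
  LinearMap.codRestrict _ (s56o_delta0 ρbar r b) (s56o_delta0_mem h)

end Fermat.Agent.Lib.S56

namespace Fermat.Agent.Lib.S56
open groupCohomology CategoryTheory
local notation "Γℚ" => (AlgebraicClosure ℚ ≃ₐ[ℚ] AlgebraicClosure ℚ)

variable {k : Type} [Field k] {G : Type} [Group G]
variable {ρbar : ResidualGaloisRep k} {r : G →* Γℚ} {χ : G →* kˣ}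
  {b : Module.Basis (Fin 2) k ρbar.V}

/-- the action of `ad⁰ρ̄|G` is level-constant. -/
theorem s56o_exists_level (ρbar : ResidualGaloisRep k) (r : G →* Γℚ) :
    ∃ F : IntermediateField ℚ (AlgebraicClosure ℚ), FiniteDimensional ℚ F ∧
      ∀ (s : G), r s ∈ F.fixingSubgroup →
        ∀ m : ↑(Rep.res r (s56a_ad0 ρbar)), (Rep.res r (s56a_ad0 ρbar)).ρ s m = m := by
  obtain ⟨F, hF, h1⟩ := ρbar.factorsThroughFiniteLevel
  refine ⟨F, hF, fun s hs m => ?_⟩
  have hfix : ∀ x ∈ F, (r s) x = x := fun x hx =>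
    (IntermediateField.mem_fixingSubgroup_iff F (r s)).mp hs x hx
  have h2 : ρbar.ρ (r s) = 1 := h1 (r s) hfix
  have h3 : ρbar.ρ (r s)⁻¹ = 1 := by
    have := s56o_rho_mul_inv ρbar (r s)
    rwa [h2, one_mul] at this
  apply s56o_val_injective ρbar r
  rw [s56o_val_rho, h2, h3, one_mul, mul_one]

theorem s56o_delta0_level (Y : ↥(s56o_Z ρbar r b)) :
    IsLevelConstant₁ r (s56o_delta0 ρbar r b Y) := by
  obtain ⟨F, hF, h1⟩ := s56o_exists_level ρbar r
  refine ⟨F, hF, fun g s hs => ?_⟩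
  rw [s56o_delta0_apply, s56o_delta0_apply, map_mul, Module.End.mul_apply, h1 s hs]

/-- `δ' : Z → H¹_cont(G, k(χ))`. -/
def s56o_deltaH (h : s56o_Tri ρbar r χ b) :
    ↥(s56o_Z ρbar r b) →ₗ[k] ↥(continuousH1 r (ofChar χ)) :=
  LinearMap.codRestrict _ ((H1π (ofChar χ)).hom ∘ₗ s56o_deltaC h) fun Y =>
    H1π_mem_continuousH1 r (ofChar χ) (c := s56o_deltaC h Y) (s56o_delta0_level Y)

theorem s56o_deltaH_coe (h : s56o_Tri ρbar r χ b) (Y : ↥(s56o_Z ρbar r b)) :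
    ((s56o_deltaH h Y : ↥(continuousH1 r (ofChar χ))) : H1 (ofChar χ)) =
      (H1π (ofChar χ)).hom (s56o_deltaC h Y) := rfl

/-- `Ψ_* ∘ δ' = 0`. -/
theorem s56o_PsiH_deltaH (h : s56o_Tri ρbar r χ b) (Y : ↥(s56o_Z ρbar r b)) :
    s56o_PsiH h (s56o_deltaH h Y : ↥(continuousH1 r (ofChar χ))) = 0 := by
  rw [s56o_deltaH_coe, s56o_PsiH_H1π]
  refine (H1π_eq_zero_iff _).mpr ?_
  refine ⟨(Y : ↑(Rep.res r (s56a_ad0 ρbar))), ?_⟩
  funext g
  rw [s56o_mapCocycles_apply, d₀₁_hom_apply]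
  exact s56o_delta0_spec Y g

/-- `ker δ' ⊆ (ad⁰ρ̄)^G + ⟨n₀⟩`. -/
theorem s56o_ker_deltaH_le (h : s56o_Tri ρbar r χ b) :
    (LinearMap.ker (s56o_deltaH h)).map (s56o_Z ρbar r b).subtype ≤
      (Rep.res r (s56a_ad0 ρbar)).ρ.invariants ⊔ Submodule.span k {s56o_n0' ρbar r b} := by
  rintro _ ⟨Y, hY, rfl⟩
  rw [SetLike.mem_coe, LinearMap.mem_ker] at hY
  have h1 : (H1π (ofChar χ)).hom (s56o_deltaC h Y) = 0 := by
    rw [← s56o_deltaH_coe, hY]; rfl
  obtain ⟨t, ht⟩ := (H1π_eq_zero_iff _).mp h1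
  have ht' : ∀ g : G, (χ g : k) * t - t = s56o_delta0 ρbar r b Y g := fun g => by
    have := congrFun ht g
    rw [d₀₁_hom_apply] at this
    exact this
  rw [Submodule.coe_subtype]
  have hdecomp : (Y : ↑(Rep.res r (s56a_ad0 ρbar))) =
      ((Y : ↑(Rep.res r (s56a_ad0 ρbar))) - (t : k) • s56o_n0' ρbar r b) +
        (t : k) • s56o_n0' ρbar r b := by abel
  rw [hdecomp]
  refine Submodule.add_mem_sup ?_ (Submodule.smul_mem _ _ (Submodule.mem_span_singleton_self _))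
  rw [Representation.mem_invariants]
  intro g
  have h2 := s56o_delta0_spec Y g
  rw [map_sub, map_smul, s56o_rho_n0' h g, sub_eq_iff_eq_add.mp h2, ← ht' g, smul_smul]
  module

end Fermat.Agent.Lib.S56

namespace Fermat.Agent.Lib.S56
open groupCohomology CategoryTheory
local notation "Γℚ" => (AlgebraicClosure ℚ ≃ₐ[ℚ] AlgebraicClosure ℚ)

variable {k : Type} [Field k] {G : Type} [Group G]
variable {ρbar : ResidualGaloisRep k} {r : G →* Γℚ} {χ : G →* kˣ}
  {b : Module.Basis (Fin 2) k ρbar.V}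

theorem s56o_n0'_mem_Z (h : s56o_Tri ρbar r χ b) : s56o_n0' ρbar r b ∈ s56o_Z ρbar r b := by
  intro g
  rw [s56o_rho_n0' h g]
  have : (χ g : k) • s56o_n0' ρbar r b - s56o_n0' ρbar r b =
      ((χ g : k) - 1) • s56o_n0' ρbar r b := by rw [sub_smul, one_smul]
  rw [this]
  exact Submodule.smul_mem _ _ (Submodule.mem_span_singleton_self _)

theorem s56o_h0'_mem_Z (h : s56o_Tri ρbar r χ b) : s56o_h0' ρbar r b ∈ s56o_Z ρbar r b := by
  intro g
  obtain ⟨t, ht⟩ := s56o_conj_h0 h g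
  have : (Rep.res r (s56a_ad0 ρbar)).ρ g (s56o_h0' ρbar r b) - s56o_h0' ρbar r b =
      (-t) • s56o_n0' ρbar r b := by
    apply s56o_val_injective ρbar r
    rw [map_sub, s56o_val_rho, map_smul]
    change ρbar.ρ (r g) * s56o_h0 b * ρbar.ρ (r g)⁻¹ - s56o_h0 b = (-t) • s56o_n0 b
    rw [ht, neg_smul]; abel
  rw [this]
  exact Submodule.smul_mem _ _ (Submodule.mem_span_singleton_self _)

instance s56o_finite_ad0 (ρbar : ResidualGaloisRep k) (r : G →* Γℚ) :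
    Module.Finite k ↑(Rep.res r (s56a_ad0 ρbar)) :=
  inferInstanceAs (Module.Finite k ↥(s56a_sl ρbar))

theorem s56o_two_le_finrank_Z (h : s56o_Tri ρbar r χ b) :
    2 ≤ Module.finrank k ↥(s56o_Z ρbar r b) := by
  have hli : LinearIndependent k ![(⟨s56o_n0' ρbar r b, s56o_n0'_mem_Z h⟩ : ↥(s56o_Z ρbar r b)),
      ⟨s56o_h0' ρbar r b, s56o_h0'_mem_Z h⟩] := by
    rw [LinearIndependent.pair_iff]
    intro s t hst
    have h1 := congrArg (fun Y : ↥(s56o_Z ρbar r b) =>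
      s56o_val ρbar r (Y : ↑(Rep.res r (s56a_ad0 ρbar)))) hst
    simp only [Submodule.coe_add, Submodule.coe_smul, map_add, map_smul, Submodule.coe_zero,
      map_zero] at h1
    exact s56o_n0_h0_linearIndependent b s t h1
  have := hli.fintype_card_le_finrank
  simpa using this

end Fermat.Agent.Lib.S56

namespace Fermat.Agent.Lib.S56
open groupCohomology CategoryTheory
local notation "Γℚ" => (AlgebraicClosure ℚ ≃ₐ[ℚ] AlgebraicClosure ℚ)

variable {k : Type} [Field k] {G : Type} [Group G]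
variable {ρbar : ResidualGaloisRep k} {r : G →* Γℚ} {χ : G →* kˣ}
  {b : Module.Basis (Fin 2) k ρbar.V}

theorem s56o_finrank_H0 (ρbar : ResidualGaloisRep k) (r : G →* Γℚ) :
    Module.finrank k (H0 (Rep.res r (s56a_ad0 ρbar))) =
      Module.finrank k ↥((Rep.res r (s56a_ad0 ρbar)).ρ.invariants) :=
  (H0Iso (Rep.res r (s56a_ad0 ρbar))).toLinearEquiv.finrank_eq

theorem s56o_n0'_ne_zero (ρbar : ResidualGaloisRep k) (r : G →* Γℚ)
    (b : Module.Basis (Fin 2) k ρbar.V) : s56o_n0' ρbar r b ≠ 0 := by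
  intro h0
  have h1 := congrArg (fun m => s56o_val ρbar r m (b 1)) h0
  simp only [map_zero, LinearMap.zero_apply] at h1
  change s56o_n0 b (b 1) = 0 at h1
  rw [s56o_n0_one] at h1
  exact b.ne_zero 0 h1

/-- **the dimension bound, in a triangularising basis.** -/
theorem s56o_bound_of_tri (h : s56o_Tri ρbar r χ b) {Lbar : Submodule k ρbar.V}
    (hLb : Lbar = Submodule.span k {b 0}) (d : ℕ)
    [Module.Finite k ↥(continuousH1 r (ofChar χ))]
    (hd : Module.finrank k ↥(continuousH1 r (ofChar χ)) ≤ d) :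
    Module.finrank k ↥(s56o_Lp ρbar Lbar r) + 1 ≤
      Module.finrank k (H0 (Rep.res r (s56a_ad0 ρbar))) + d := by
  set Ψr := (s56o_PsiH h).domRestrict (continuousH1 r (ofChar χ)) with hΨr
  have ha := LinearMap.finrank_range_add_finrank_ker Ψr
  have hrange : LinearMap.range Ψr = (continuousH1 r (ofChar χ)).map (s56o_PsiH h) :=
    LinearMap.range_domRestrict _ _
  have hLp : Module.finrank k ↥(s56o_Lp ρbar Lbar r) ≤ Module.finrank k ↥(LinearMap.range Ψr) := by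
    rw [hrange]
    exact Submodule.finrank_mono (s56o_Lp_le_map h hLb)
  have hb : LinearMap.range (s56o_deltaH h) ≤ LinearMap.ker Ψr := by
    rintro _ ⟨Y, rfl⟩
    rw [LinearMap.mem_ker]
    exact s56o_PsiH_deltaH h Y
  have hb' := Submodule.finrank_mono hb
  have hc := LinearMap.finrank_range_add_finrank_ker (s56o_deltaH h)
  have hd1 : Module.finrank k ↥(LinearMap.ker (s56o_deltaH h)) ≤
      Module.finrank k ↥((Rep.res r (s56a_ad0 ρbar)).ρ.invariants) + 1 := by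
    rw [← Submodule.finrank_map_subtype_eq (s56o_Z ρbar r b) (LinearMap.ker (s56o_deltaH h))]
    refine (Submodule.finrank_mono (s56o_ker_deltaH_le h)).trans ?_
    refine (Submodule.finrank_add_le_finrank_add_finrank _ _).trans ?_
    rw [finrank_span_singleton (s56o_n0'_ne_zero ρbar r b)]
  have he := s56o_two_le_finrank_Z h
  rw [s56o_finrank_H0]
  omega

end Fermat.Agent.Lib.S56

namespace Fermat.Agent.Lib.S56
open groupCohomology CategoryTheory
local notation "Γℚ" => (AlgebraicClosure ℚ ≃ₐ[ℚ] AlgebraicClosure ℚ)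

variable {k : Type} [Field k] {G : Type} [Group G]

/-- a triangularising basis adapted to the line `L̄`. -/
theorem s56o_exists_basis (ρbar : ResidualGaloisRep k) (Lbar : Submodule k ρbar.V)
    (hL : Module.finrank k ↥Lbar = 1) (r : G →* Γℚ) (χ : G →* kˣ)
    (hact : s56o_ActsTriangular ρbar Lbar r χ) :
    ∃ b : Module.Basis (Fin 2) k ρbar.V, Lbar = Submodule.span k {b 0} ∧ s56o_Tri ρbar r χ b := by
  obtain ⟨v, hv0, hv⟩ := finrank_eq_one_iff'.mp hL
  have he0 : (v : ρbar.V) ≠ 0 := fun h => hv0 (Subtype.ext h)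
  have hspan : Lbar = Submodule.span k {(v : ρbar.V)} := by
    apply le_antisymm
    · intro w hw
      obtain ⟨c, hc⟩ := hv ⟨w, hw⟩
      rw [Submodule.mem_span_singleton]
      exact ⟨c, by rw [← Submodule.coe_smul, hc]⟩
    · rw [Submodule.span_singleton_le_iff_mem]
      exact v.2
  have h2 : 1 < Module.finrank k ρbar.V := by rw [ρbar.finrank_eq]; norm_num
  obtain ⟨y, hy⟩ := exists_linearIndependent_pair_of_one_lt_finrank h2 he0
  let b : Module.Basis (Fin 2) k ρbar.V :=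
    basisOfLinearIndependentOfCardEqFinrank hy (by rw [ρbar.finrank_eq]; rfl)
  have hb0 : b 0 = (v : ρbar.V) := by
    simp [b, coe_basisOfLinearIndependentOfCardEqFinrank]
  have hb1 : b 1 = y := by
    simp [b, coe_basisOfLinearIndependentOfCardEqFinrank]
  refine ⟨b, by rw [hb0]; exact hspan, fun τ => ?_⟩
  obtain ⟨s, hs, hLτ, hqτ⟩ := hact τ
  have hmem : ρbar.ρ (r τ) (b 1) - s • b 1 ∈ Submodule.span k {b 0} := by
    rw [hb0, ← hspan]; exact hqτ _
  obtain ⟨u, hu⟩ := Submodule.mem_span_singleton.mp hmem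
  refine ⟨s, u, hs, hLτ (b 0) (by rw [hb0]; exact v.2), ?_⟩
  rw [hu]; abel

end Fermat.Agent.Lib.S56

namespace Fermat.Agent.Lib.S56
open groupCohomology CategoryTheory
local notation "Γℚ" => (AlgebraicClosure ℚ ≃ₐ[ℚ] AlgebraicClosure ℚ)

/-- **(W5-B)** the dimension bound. -/
theorem s56o_localBound : s56o_LocalBound := by
  intro k _ _ ρbar Lbar hL G _ r χ hact d hfin hd
  obtain ⟨b, hLb, htri⟩ := s56o_exists_basis ρbar Lbar hL r χ hact
  exact s56o_bound_of_tri htri hLb d hd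

/-- **(W5-C)** the cocycle criterion. -/
theorem s56o_cocycleCriterion : s56o_CocycleCriterion := by
  intro k _ h2 ρbar Lbar G _ r c hc X hX
  -- the trace-zero correction of `X`
  set t : k := LinearMap.trace k ρbar.V X / 2 with ht
  set X₀ : Module.End k ρbar.V := X - t • 1 with hX₀
  have htr : LinearMap.trace k ρbar.V X₀ = 0 := by
    rw [hX₀, map_sub, map_smul, LinearMap.trace_one, ρbar.finrank_eq, ht, smul_eq_mul]
    push_cast
    field_simp
    ring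
  have hconj : ∀ g : G, ρbar.ρ (r g) * X₀ * ρbar.ρ (r g)⁻¹ - X₀ =
      ρbar.ρ (r g) ∘ₗ X ∘ₗ ρbar.ρ (r g)⁻¹ - X := fun g => by
    have h1 : ρbar.ρ (r g) * (t • (1 : Module.End k ρbar.V)) * ρbar.ρ (r g)⁻¹ = t • 1 := by
      rw [mul_smul_comm, mul_one, smul_mul_assoc, s56o_rho_mul_inv]
    rw [hX₀, mul_sub, sub_mul, h1]
    change ρbar.ρ (r g) * X * ρbar.ρ (r g)⁻¹ - t • 1 - (X - t • 1) =
      ρbar.ρ (r g) * (X * ρbar.ρ (r g)⁻¹) - X
    rw [mul_assoc]; abel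
  let Y : ↑(Rep.res r (s56a_ad0 ρbar)) := s56o_mk ρbar r X₀ htr
  let B : cocycles₁ (Rep.res r (s56a_ad0 ρbar)) :=
    ⟨(d₀₁ (Rep.res r (s56a_ad0 ρbar))).hom Y, d₀₁_apply_mem_cocycles₁ Y⟩
  have hB0 : (H1π (Rep.res r (s56a_ad0 ρbar))).hom B = 0 :=
    (H1π_eq_zero_iff _).mpr ⟨Y, rfl⟩
  have hBlev : IsLevelConstant₁ r (B : G → ↑(Rep.res r (s56a_ad0 ρbar))) := by
    obtain ⟨F, hF, h1⟩ := s56o_exists_level ρbar r
    refine ⟨F, hF, fun g s hs => ?_⟩
    change (d₀₁ (Rep.res r (s56a_ad0 ρbar))).hom Y (g * s) =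
      (d₀₁ (Rep.res r (s56a_ad0 ρbar))).hom Y g
    rw [d₀₁_hom_apply, d₀₁_hom_apply, map_mul, Module.End.mul_apply, h1 s hs]
  have hsum : (H1π (Rep.res r (s56a_ad0 ρbar))).hom c =
      (H1π (Rep.res r (s56a_ad0 ρbar))).hom (c + B) := by
    rw [map_add, hB0, add_zero]
  rw [hsum]
  refine Submodule.subset_span ⟨c + B, ?_, fun g => ?_, rfl⟩
  · exact hc.add hBlev
  · have : s56o_val ρbar r ((c + B).val g) =
        s56o_val ρbar r (c.val g) + (ρbar.ρ (r g) ∘ₗ X ∘ₗ ρbar.ρ (r g)⁻¹ - X) := by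
      rw [← hconj g]
      change s56o_val ρbar r (c.val g + (d₀₁ (Rep.res r (s56a_ad0 ρbar))).hom Y g) = _
      rw [map_add, d₀₁_hom_apply, map_sub, s56o_val_rho]
      rfl
    rw [this]
    exact hX g

end Fermat.Agent.Lib.S56
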