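/-
Programme W (S56), wall [W5] (helper5, prefix `s56o_`): **(W5-A)** a strict-ordinary representation with
cyclotomic determinant over a local ring of characteristic `p` is, on every decomposition group at `p`,
upper triangular with CONSTANT diagonal `(a·s, s)`, `s = ±1`.
-/
import Fermat.Agent.Lib.S56.IfaceW5
import Fermat.Prelude.Def_ExtCitation_AdmissibleExtension

set_option autoImplicit false
set_option linter.style.haveILetI false

noncomputable section

namespace Fermat.Agent.Lib.S56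

open groupCohomology CategoryTheory

local notation "Γℚ" => (AlgebraicClosure ℚ ≃ₐ[ℚ] AlgebraicClosure ℚ)

/-- the exponent of `σ` on `μ_p`. -/
theorem s56o_exists_cycloExp (p : ℕ) [Fact p.Prime] (σ : Γℚ) :
    ∃ a : ℕ, a.Coprime p ∧ ∀ μ : AlgebraicClosure ℚ, μ ^ p = 1 → σ μ = μ ^ a := by
  haveI : NeZero p := ⟨(Fact.out : p.Prime).ne_zero⟩
  refine ⟨((modularCyclotomicCharacter (AlgebraicClosure ℚ) (ExtCitation.card_rootsOfUnity_eq_self p)
      (σ : AlgebraicClosure ℚ ≃+* AlgebraicClosure ℚ) : (ZMod p)ˣ) : ZMod p).val,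
    ZMod.val_coe_unit_coprime _, fun μ hμ => ?_⟩
  have hμ0 : μ ≠ 0 := by
    rintro rfl
    rw [zero_pow (NeZero.ne p)] at hμ
    exact zero_ne_one hμ
  have hmem : Units.mk0 μ hμ0 ∈ rootsOfUnity p (AlgebraicClosure ℚ) := by
    rw [mem_rootsOfUnity]
    exact Units.ext (by rw [Units.val_pow_eq_pow_val, Units.val_mk0, hμ, Units.val_one])
  have h := modularCyclotomicCharacter.spec (AlgebraicClosure ℚ)
    (ExtCitation.card_rootsOfUnity_eq_self p)
    (σ : AlgebraicClosure ℚ ≃+* AlgebraicClosure ℚ) hmem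
  rw [Units.val_mk0] at h
  exact h

/-- a natural number prime to `p` is a unit in a ring where `p = 0`. -/
theorem s56o_isUnit_natCast {A : Type*} [CommRing A] {p : ℕ} (hp0 : (p : A) = 0) {a : ℕ}
    (ha : a.Coprime p) : IsUnit (a : A) := by
  have h := Nat.Coprime.gcd_eq_one ha
  have hb := Int.gcd_eq_gcd_ab (a : ℤ) (p : ℤ)
  rw [Int.gcd_natCast_natCast, h] at hb
  have hc := congrArg (Int.cast : ℤ → A) hb
  push_cast at hc
  rw [hp0, zero_mul, add_zero] at hc
  exact IsUnit.of_mul_eq_one _ hc.symm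

/-- in a local ring where `2` is a unit, `z² = 1` forces `z = ±1`. -/
theorem s56o_sq_eq_one {A : Type*} [CommRing A] [IsLocalRing A] (h2 : IsUnit (2 : A)) {z : A}
    (hz : z * z = 1) : z = 1 ∨ z = -1 := by
  have hprod : (z - 1) * (z + 1) = 0 := by ring_nf; rw [sq, hz]; ring
  have hsum : IsUnit ((z + 1) - (z - 1)) := by
    have : (z + 1) - (z - 1) = 2 := by ring
    rw [this]; exact h2
  rcases IsLocalRing.isUnit_or_isUnit_of_isUnit_add (a := z + 1) (b := -(z - 1))
    (by rwa [← sub_eq_add_neg]) with h | h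
  · left
    have := h.mul_left_eq_zero.mp hprod
    exact sub_eq_zero.mp this
  · right
    have h' : IsUnit (z - 1) := by rwa [IsUnit.neg_iff] at h
    have := h'.mul_right_eq_zero.mp hprod
    exact eq_neg_of_add_eq_zero_left this

/-- **(W5-A)**: the triangular normal form. -/
theorem s56o_strictOrdTriangular : s56o_StrictOrdTriangular := by
  intro A _ _ p _ hp2 hp0 ρ hdet hso P hP
  obtain ⟨L, ⟨b, hLb⟩, hD, hI, hxz⟩ := hso.2 P hP
  have hpp : p.Prime := Fact.out
  have h2 : IsUnit (2 : A) := by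
    have hcop : Nat.Coprime 2 p := by
      rw [Nat.coprime_comm]
      exact (Nat.coprime_primes hpp Nat.prime_two).mpr hp2
    exact_mod_cast s56o_isUnit_natCast hp0 hcop
  have hspan : Ideal.span {((p ^ 1 : ℕ) : A)} = ⊥ := by
    rw [pow_one, hp0, Ideal.span_singleton_eq_bot]
  have hroot : ∀ (σ : Γℚ) (a : ℕ), (∀ μ : AlgebraicClosure ℚ, μ ^ p = 1 → σ μ = μ ^ a) →
      ∀ μ : AlgebraicClosure ℚ, μ ^ p ^ 1 = 1 → σ μ = μ ^ a := fun σ a h μ hμ => by
    rw [pow_one] at hμ
    exact h μ hμ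
  have key : ∀ σ : Γℚ, ∃ z : A, σ ∈ P.decompositionSubgroup ℚ → (z = 1 ∨ z = -1) ∧
      (σ ∈ P.inertiaSubgroupIn ℚ → z = 1) ∧
      ∀ a : ℕ, (∀ μ : AlgebraicClosure ℚ, μ ^ p = 1 → σ μ = μ ^ a) →
        ρ.ρ σ (b 0) = ((a : A) * z) • b 0 ∧
        ρ.ρ σ (b 1) - z • b 1 ∈ Submodule.span A {b 0} := by
    intro σ
    by_cases hσ : σ ∈ P.decompositionSubgroup ℚ
    · obtain ⟨x, z, hx, hz, hcyc⟩ := hxz σ hσ
      have hb0L : b 0 ∈ L := by rw [hLb]; exact Submodule.mem_span_singleton_self _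
      have hb0 : ρ.ρ σ (b 0) = x • b 0 := hx (b 0) hb0L
      have hxa : ∀ a : ℕ, (∀ μ : AlgebraicClosure ℚ, μ ^ p = 1 → σ μ = μ ^ a) → x = a * z := by
        intro a ha
        have := hcyc 1 a (hroot σ a ha)
        rw [hspan, Ideal.mem_bot, sub_eq_zero] at this
        exact this
      refine ⟨z, fun _ => ⟨?_, ?_, fun a ha => ⟨by rw [hb0, hxa a ha], by rw [← hLb]; exact hz (b 1)⟩⟩⟩
      swap
      · intro hσI
        have h3 : (z - 1) • b 1 ∈ L := by
          have h4 := L.sub_mem (hI σ hσI (b 1)) (hz (b 1))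
          have h5 : ρ.ρ σ (b 1) - b 1 - (ρ.ρ σ (b 1) - z • b 1) = (z - 1) • b 1 := by
            rw [sub_smul, one_smul]; abel
          rwa [h5] at h4
        rw [hLb, Submodule.mem_span_singleton] at h3
        obtain ⟨u, hu⟩ := h3
        have h6 := congrArg (fun v => b.repr v 1) hu
        simp only [map_smul, Module.Basis.repr_self, Finsupp.smul_single, smul_eq_mul, mul_one,
          Finsupp.single_apply] at h6
        simp at h6
        exact sub_eq_zero.mp h6.symm
      obtain ⟨a₀, ha₀, hspec⟩ := s56o_exists_cycloExp p σ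
      have hdet' : LinearMap.det (ρ.ρ σ) = a₀ := by
        have := hdet.2 1 σ a₀ (hroot σ a₀ hspec)
        rw [hspan, Ideal.mem_bot, sub_eq_zero] at this
        exact this
      obtain ⟨u, hu⟩ : ∃ u : A, ρ.ρ σ (b 1) = z • b 1 + u • b 0 := by
        have := hz (b 1)
        rw [hLb, Submodule.mem_span_singleton] at this
        obtain ⟨u, hu⟩ := this
        exact ⟨u, by rw [hu]; abel⟩
      have hdetxz : LinearMap.det (ρ.ρ σ) = x * z := by
        rw [← LinearMap.det_toMatrix b, Matrix.det_fin_two]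
        simp only [LinearMap.toMatrix_apply, hb0, hu, map_add, map_smul, Module.Basis.repr_self,
          Finsupp.smul_single, smul_eq_mul, mul_one, Finsupp.coe_add, Pi.add_apply,
          Finsupp.single_apply]
        simp
      have hunit : IsUnit (a₀ : A) := s56o_isUnit_natCast hp0 ha₀
      have hzz : z * z = 1 := by
        have h1 : (a₀ : A) * (z * z) = (a₀ : A) * 1 := by
          rw [mul_one, ← mul_assoc, ← hxa a₀ hspec, ← hdetxz, hdet']
        exact hunit.mul_left_cancel h1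
      exact s56o_sq_eq_one h2 hzz
    · exact ⟨1, fun h => absurd h hσ⟩
  choose s hs using key
  have hID : ∀ σ ∈ P.inertiaSubgroupIn ℚ, σ ∈ P.decompositionSubgroup ℚ := by
    rintro _ ⟨τ, -, rfl⟩
    exact τ.2
  exact ⟨b, s, fun σ hσ => (hs σ hσ).1, fun σ hσ => (hs σ (hID σ hσ)).2.1 hσ,
    fun σ hσ a ha => (hs σ hσ).2.2 a ha⟩

end Fermat.Agent.Lib.S56
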