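/-
Programme W (S56), wall [W5] (helper5, prefix `s56o_`): **the ordinary line of `ρ̄` at `p` is CANONICAL.**

* `s56o_exists_inertia_cyclo_ne_one` : for `p` odd and `P | p`, the inertia group `I_P` acts non-trivially on
  `μ_p` (the mod `p` cyclotomic character is unramified outside `p`, so if it were unramified at `p` it
  would be trivial by Minkowski, `kwn_char_eq_one`).
* `s56o_IsOrdLine ρbar p P Lbar` : `Lbar ⊂ V̄` is a line on which `D_P` acts by `χ̄·s`, with `V̄/Lbar` acted on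
  by `s`, `s = ±1`, `s = 1` on inertia.
* `s56o_ordLine_unique` : there is at most one such line; `s56o_ordLine ρbar p P` is the canonical choice.
-/
import Fermat.Agent.Lib.S56.OTri
import Fermat.Agent.Lib.KW.Char
import Fermat.Agent.Lib.PT.GLevelTwist
import Fermat.Agent.Lib.Mz.ValConj

set_option autoImplicit false
set_option linter.style.haveILetI false

noncomputable section

namespace Fermat.Agent.Lib.S56

open ExtCitation Fermat.Agent.Lib.PT Fermat.Agent.Lib.KW Fermat.Agent.Lib.Mz Fermat.Agent.Lib.CFT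

local notation "Γℚ" => (AlgebraicClosure ℚ ≃ₐ[ℚ] AlgebraicClosure ℚ)

/-- for `p` odd, the mod `p` cyclotomic character is non-trivial. -/
theorem s56o_cycloChar_ne_one (p : ℕ) [Fact p.Prime] (hp2 : p ≠ 2) : cycloChar p ≠ 1 := by
  have hpp : p.Prime := Fact.out
  have := cfg_isGalois_QBar
  obtain ⟨ζ, hζ⟩ := pta_exists_primitiveRoot p
  intro h1
  have hfix : ∀ σ : Γℚ, σ ζ = ζ := fun σ => by
    rw [← pta_cycloChar_eq_one_iff hζ σ, h1]; rfl
  have hmem : ζ ∈ (⊥ : IntermediateField ℚ (AlgebraicClosure ℚ)) := by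
    have h2 : IntermediateField.fixedField (⊤ : Subgroup Γℚ) = ⊥ := by
      rw [← IntermediateField.fixingSubgroup_bot]
      exact InfiniteGalois.fixedField_fixingSubgroup ⊥
    rw [← h2, IntermediateField.mem_fixedField_iff]
    exact fun σ _ => hfix σ
  obtain ⟨x, hx⟩ := IntermediateField.mem_bot.mp hmem
  have hodd : Odd p := hpp.odd_of_ne_two hp2
  have hxp : x ^ p = 1 := by
    have h3 : (algebraMap ℚ (AlgebraicClosure ℚ)) (x ^ p) = algebraMap ℚ (AlgebraicClosure ℚ) 1 := by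
      rw [map_pow, hx, hζ.pow_eq_one, map_one]
    exact (algebraMap ℚ (AlgebraicClosure ℚ)).injective h3
  have hx1 : x = 1 := by
    have h4 := hodd.strictMono_pow (R := ℚ)
    apply h4.injective
    show x ^ p = 1 ^ p
    rw [hxp, one_pow]
  rw [hx1, map_one] at hx
  exact hζ.ne_one hpp.one_lt hx.symm

/-- **the mod `p` cyclotomic character is ramified at `p`** (`p` odd). -/
theorem s56o_exists_inertia_cyclo_ne_one (p : ℕ) [Fact p.Prime] (hp2 : p ≠ 2)
    (P : ValuationSubring (AlgebraicClosure ℚ)) (hP : P.LiesOverPrime p) :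
    ∃ σ ∈ P.inertiaSubgroupIn ℚ, cycloChar p σ ≠ 1 := by
  have hpp : p.Prime := Fact.out
  by_contra hcon
  push Not at hcon
  apply s56o_cycloChar_ne_one p hp2
  apply kwn_char_eq_one (cycloChar p)
    ⟨pta_cycloField p, inferInstance, le_of_eq pta_fixingSubgroup_cycloField⟩
  intro ℓ hℓ A hA τ hτ
  rw [MonoidHom.mem_ker]
  by_cases hℓp : ℓ = p
  · subst hℓp
    obtain ⟨g, hg⟩ := ptm_inertia_conj hℓ P A hP hA
    have h1 := hcon _ (hg τ hτ)
    rwa [map_mul, map_mul, map_inv, mul_comm, ← mul_assoc, inv_mul_cancel, one_mul] at h1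
  · exact pta_cycloChar_unramified hℓ hℓp A hA τ hτ

/-- some `σ ∈ I_P` has an exponent on `μ_p` which is `≢ 1 mod p`. -/
theorem s56o_exists_inertia_exp (p : ℕ) [Fact p.Prime] (hp2 : p ≠ 2)
    (P : ValuationSubring (AlgebraicClosure ℚ)) (hP : P.LiesOverPrime p) :
    ∃ σ ∈ P.inertiaSubgroupIn ℚ, ∀ a : ℕ,
      (∀ μ : AlgebraicClosure ℚ, μ ^ p = 1 → σ μ = μ ^ a) → ¬ a ≡ 1 [MOD p] := by
  obtain ⟨σ, hσ, hne⟩ := s56o_exists_inertia_cyclo_ne_one p hp2 P hP
  refine ⟨σ, hσ, fun a ha hmod => hne ?_⟩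
  obtain ⟨ζ, hζ⟩ := pta_exists_primitiveRoot p
  rw [pta_cycloChar_eq_one_iff hζ σ, ha ζ hζ.pow_eq_one]
  have h1 : ζ ^ a = ζ ^ 1 := by
    rw [← pow_mod_orderOf ζ a, ← pow_mod_orderOf ζ 1, ← hζ.eq_orderOf]
    exact congrArg (ζ ^ ·) hmod
  rw [h1, pow_one]

/-- in a field where `p = 0`, a natural number `≢ 1 mod p` is `≠ 1`. -/
theorem s56o_natCast_sub_one_ne_zero {k : Type*} [Field k] {p : ℕ} (hpp : p.Prime)
    (hp0 : (p : k) = 0) {a : ℕ} (ha : ¬ a ≡ 1 [MOD p]) : (a : k) - 1 ≠ 0 := by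
  intro h0
  apply ha
  have hcp : CharP k p := by
    have := CharP.ringChar_of_prime_eq_zero hpp hp0
    rw [← this]
    exact ringChar.charP k
  have h1 : ((a : ℕ) : k) = ((1 : ℕ) : k) := by
    rw [Nat.cast_one]; exact sub_eq_zero.mp h0
  exact (CharP.natCast_eq_natCast k p).mp h1

variable {k : Type} [Field k]

/-- **an ordinary line of `ρ̄` at `P | p`**: `D_P` acts on `Lbar` by `a·s` (`a` = exponent on `μ_p`) and on
`V̄/Lbar` by `s`, where `s = ±1` and `s = 1` on inertia. -/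
def s56o_IsOrdLine (ρbar : ResidualGaloisRep k) (p : ℕ)
    (P : ValuationSubring (AlgebraicClosure ℚ)) (Lbar : Submodule k ρbar.V) : Prop :=
  Module.finrank k Lbar = 1 ∧
  ∀ σ ∈ P.decompositionSubgroup ℚ, ∃ s : k, (s = 1 ∨ s = -1) ∧
    (σ ∈ P.inertiaSubgroupIn ℚ → s = 1) ∧
    ∀ a : ℕ, (∀ μ : AlgebraicClosure ℚ, μ ^ p = 1 → σ μ = μ ^ a) →
      (∀ v ∈ Lbar, ρbar.ρ σ v = ((a : k) * s) • v) ∧ ∀ v : ρbar.V, ρbar.ρ σ v - s • v ∈ Lbar

theorem s56o_inertia_le_decomposition (P : ValuationSubring (AlgebraicClosure ℚ)) :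
    P.inertiaSubgroupIn ℚ ≤ P.decompositionSubgroup ℚ := by
  rintro _ ⟨τ, -, rfl⟩
  exact τ.2

theorem s56o_ordLine_le (ρbar : ResidualGaloisRep k) (p : ℕ) [Fact p.Prime] (hp2 : p ≠ 2)
    (hp0 : (p : k) = 0) (P : ValuationSubring (AlgebraicClosure ℚ)) (hP : P.LiesOverPrime p)
    {L₁ L₂ : Submodule k ρbar.V} (h₁ : s56o_IsOrdLine ρbar p P L₁)
    (h₂ : s56o_IsOrdLine ρbar p P L₂) : L₂ ≤ L₁ := by
  have hpp : p.Prime := Fact.out
  obtain ⟨σ, hσI, hσ⟩ := s56o_exists_inertia_exp p hp2 P hP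
  have hσD := s56o_inertia_le_decomposition P hσI
  obtain ⟨a, -, ha⟩ := s56o_exists_cycloExp p σ
  have hne := s56o_natCast_sub_one_ne_zero hpp hp0 (hσ a ha)
  obtain ⟨s₁, -, hs₁I, hs₁⟩ := h₁.2 σ hσD
  obtain ⟨s₂, -, hs₂I, hs₂⟩ := h₂.2 σ hσD
  have e₁ := hs₁I hσI
  have e₂ := hs₂I hσI
  subst e₁ e₂
  intro v hv
  have h3 := (hs₁ a ha).2 v
  rw [(hs₂ a ha).1 v hv, mul_one] at h3
  nth_rewrite 2 [← one_smul k v] at h3
  rw [one_smul, ← sub_smul] at h3
  have h4 := L₁.smul_mem ((a : k) - 1)⁻¹ h3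
  rwa [smul_smul, inv_mul_cancel₀ hne, one_smul] at h4

/-- **uniqueness of the ordinary line.** -/
theorem s56o_ordLine_unique (ρbar : ResidualGaloisRep k) (p : ℕ) [Fact p.Prime] (hp2 : p ≠ 2)
    (hp0 : (p : k) = 0) (P : ValuationSubring (AlgebraicClosure ℚ)) (hP : P.LiesOverPrime p)
    {L₁ L₂ : Submodule k ρbar.V} (h₁ : s56o_IsOrdLine ρbar p P L₁)
    (h₂ : s56o_IsOrdLine ρbar p P L₂) : L₁ = L₂ :=
  le_antisymm (s56o_ordLine_le ρbar p hp2 hp0 P hP h₂ h₁) (s56o_ordLine_le ρbar p hp2 hp0 P hP h₁ h₂)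

open Classical in
/-- **the canonical ordinary line** of `ρ̄` at `P` (`⊥` if there is none). -/
def s56o_ordLine (ρbar : ResidualGaloisRep k) (p : ℕ)
    (P : ValuationSubring (AlgebraicClosure ℚ)) : Submodule k ρbar.V :=
  if h : ∃ L : Submodule k ρbar.V, s56o_IsOrdLine ρbar p P L then h.choose else ⊥

theorem s56o_ordLine_eq (ρbar : ResidualGaloisRep k) (p : ℕ) [Fact p.Prime] (hp2 : p ≠ 2)
    (hp0 : (p : k) = 0) (P : ValuationSubring (AlgebraicClosure ℚ)) (hP : P.LiesOverPrime p)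
    {L : Submodule k ρbar.V} (h : s56o_IsOrdLine ρbar p P L) : s56o_ordLine ρbar p P = L := by
  have hex : ∃ L : Submodule k ρbar.V, s56o_IsOrdLine ρbar p P L := ⟨L, h⟩
  rw [s56o_ordLine, dif_pos hex]
  exact s56o_ordLine_unique ρbar p hp2 hp0 P hP hex.choose_spec h

end Fermat.Agent.Lib.S56
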