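/-
Programme W (S56), wall [W5] (helper5, prefix `s56o_`): **the GLUE with W1's vocabulary.**

If the first-order deformation `s56a_liftRep ρbar c hc = (1 + ε c) ρ̄` (helper2, `ADefs.lean`) is strict-ordinary
at `p` with cyclotomic determinant, then `ρ̄` has an ordinary line `Lbar` at every `P | p`
(`s56o_IsOrdLine`, hence `Lbar = s56o_ordLine ρbar p P`), and `c + ∂X` is `N(Lbar)`-valued on `D_P` for some
`X ∈ End V̄` (`s56o_glue`).  Consequently the restriction of `[c]` to any local group `r : G →* Γℚ` with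
image in `D_P` lies in `s56o_Lp ρbar (s56o_ordLine ρbar p P) r` (`s56o_locRes_mem_Lp`).
-/
import Fermat.Agent.Lib.S56.OLine
import Fermat.Agent.Lib.S56.OBound

set_option autoImplicit false
set_option linter.style.haveILetI false

noncomputable section

namespace Fermat.Agent.Lib.S56

open groupCohomology CategoryTheory

local notation "Γℚ" => (AlgebraicClosure ℚ ≃ₐ[ℚ] AlgebraicClosure ℚ)

variable {k : Type} [Field k]

theorem s56o_natCast_dualNumber (n : ℕ) : (n : DualNumber k) = TrivSqZeroExt.inl (n : k) := by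
  apply TrivSqZeroExt.ext <;> simp

section Reduction

variable {ρbar : ResidualGaloisRep k} (b : Module.Basis (Fin 2) (DualNumber k) (s56a_VEps ρbar))

/-- every vector of `V̄` is a combination of the reductions of `b 0`, `b 1`. -/
theorem s56o_exists_red (v : ρbar.V) : ∃ α β : k, v = α • (b 0).re + β • (b 1).re := by
  have h := b.sum_repr (s56a_VEps.mk v 0)
  rw [Fin.sum_univ_two] at h
  have h2 := congrArg s56a_VEps.re h
  rw [s56a_VEps.re_add, s56a_VEps.re_smul, s56a_VEps.re_smul, s56a_VEps.re_mk] at h2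
  exact ⟨_, _, h2.symm⟩

/-- the reduction mod `ε` of a `k[ε]`-basis of `V̄[ε]` is a `k`-basis of `V̄`. -/
def s56o_redBasis : Module.Basis (Fin 2) k ρbar.V :=
  basisOfTopLeSpanOfCardEqFinrank ![(b 0).re, (b 1).re] (by
    rintro v -
    obtain ⟨α, β, rfl⟩ := s56o_exists_red b v
    refine Submodule.add_mem _ (Submodule.smul_mem _ _ (Submodule.subset_span ⟨0, rfl⟩))
      (Submodule.smul_mem _ _ (Submodule.subset_span ⟨1, rfl⟩))) (by
    rw [Fintype.card_fin, ρbar.finrank_eq])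

theorem s56o_redBasis_zero : s56o_redBasis b 0 = (b 0).re := by
  rw [s56o_redBasis, coe_basisOfTopLeSpanOfCardEqFinrank]; rfl

theorem s56o_redBasis_one : s56o_redBasis b 1 = (b 1).re := by
  rw [s56o_redBasis, coe_basisOfTopLeSpanOfCardEqFinrank]; rfl

/-- the endomorphism `X` with `X e₀ = e₁`, `X f₀ = f₁` (`b 0 = e₀ + ε e₁`, `b 1 = f₀ + ε f₁`). -/
def s56o_X : Module.End k ρbar.V :=
  (s56o_redBasis b).constr k ![(b 0).im, (b 1).im]

theorem s56o_X_zero : s56o_X b (b 0).re = (b 0).im := by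
  rw [← s56o_redBasis_zero, s56o_X, Module.Basis.constr_basis]; rfl

theorem s56o_X_one : s56o_X b (b 1).re = (b 1).im := by
  rw [← s56o_redBasis_one, s56o_X, Module.Basis.constr_basis]; rfl

theorem s56o_red_zero_ne : (b 0).re ≠ 0 := by
  rw [← s56o_redBasis_zero]; exact (s56o_redBasis b).ne_zero 0

/-- **the linear algebra of the glue**: if `(A, C·A)` (acting on `V̄[ε]`) is upper triangular in `b` with
diagonal `(t, s) ∈ k²`, then `A` is upper triangular for the line `k e₀` and `C + A X A⁻¹ − X ∈ N`. -/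
theorem s56o_glue_linalg (A A' C : Module.End k ρbar.V) (hAA' : A * A' = 1) (hA'A : A' * A = 1)
    (t s : k) (u : DualNumber k)
    (h0 : s56a_epsEnd ρbar A (C * A) (b 0) = (TrivSqZeroExt.inl t : DualNumber k) • b 0)
    (h1 : s56a_epsEnd ρbar A (C * A) (b 1) = (TrivSqZeroExt.inl s : DualNumber k) • b 1 + u • b 0) :
    (∀ v ∈ Submodule.span k {(b 0).re}, A v = t • v) ∧
    (∀ v : ρbar.V, A v - s • v ∈ Submodule.span k {(b 0).re}) ∧
    C + (A ∘ₗ s56o_X b ∘ₗ A' - s56o_X b) ∈ s56o_N ρbar (Submodule.span k {(b 0).re}) := by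
  -- the four coordinate equations
  have r0 : A (b 0).re = t • (b 0).re := by
    have := congrArg s56a_VEps.re h0
    rwa [s56a_epsEnd_re, s56a_VEps.re_smul, TrivSqZeroExt.fst_inl] at this
  have i0 : A (b 0).im + C (A (b 0).re) = t • (b 0).im := by
    have := congrArg s56a_VEps.im h0
    rw [s56a_epsEnd_im, s56a_VEps.im_smul, TrivSqZeroExt.fst_inl, TrivSqZeroExt.snd_inl, zero_smul,
      add_zero] at this
    exact this
  have r1 : A (b 1).re = s • (b 1).re + u.fst • (b 0).re := by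
    have := congrArg s56a_VEps.re h1
    rwa [s56a_epsEnd_re, s56a_VEps.re_add, s56a_VEps.re_smul, s56a_VEps.re_smul,
      TrivSqZeroExt.fst_inl] at this
  have i1 : A (b 1).im + C (A (b 1).re) =
      s • (b 1).im + (u.fst • (b 0).im + u.snd • (b 0).re) := by
    have := congrArg s56a_VEps.im h1
    rw [s56a_epsEnd_im, s56a_VEps.im_add, s56a_VEps.im_smul, s56a_VEps.im_smul,
      TrivSqZeroExt.fst_inl, TrivSqZeroExt.snd_inl, zero_smul, add_zero] at this
    exact this
  set e₀ := (b 0).re with he₀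
  set f₀ := (b 1).re with hf₀
  set X := s56o_X b with hX
  have hXe : X e₀ = (b 0).im := s56o_X_zero b
  have hXf : X f₀ = (b 1).im := s56o_X_one b
  have he₀ne : e₀ ≠ 0 := s56o_red_zero_ne b
  have hmemL : ∀ a : k, a • e₀ ∈ Submodule.span k {e₀} := fun a =>
    Submodule.smul_mem _ _ (Submodule.mem_span_singleton_self _)
  -- `G = F ∘ A`
  set F : Module.End k ρbar.V := C + (A ∘ₗ X ∘ₗ A' - X) with hF
  have hFA : ∀ w : ρbar.V, F (A w) = C (A w) + A (X w) - X (A w) := by
    intro w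
    have h2 : A' (A w) = w := by
      rw [← Module.End.mul_apply, hA'A, Module.End.one_apply]
    simp only [hF, LinearMap.add_apply, LinearMap.sub_apply, LinearMap.comp_apply, h2]
    abel
  have hG0 : F (A e₀) = 0 := by
    have h3 : X (A e₀) = t • (b 0).im := by rw [r0, map_smul, hXe]
    rw [hFA, h3, hXe, ← i0]
    abel
  have hG1 : F (A f₀) = u.snd • e₀ := by
    have h3 : X (A f₀) = s • (b 1).im + u.fst • (b 0).im := by
      rw [r1, map_add, map_smul, map_smul, hXe, hXf]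
    have h4 : C (A f₀) + A (b 1).im = s • (b 1).im + (u.fst • (b 0).im + u.snd • e₀) := by
      rw [add_comm]; exact i1
    rw [hFA, h3, hXf, h4]
    abel
  have ht : t ≠ 0 := by
    intro ht0
    rw [ht0, zero_smul] at r0
    have h3 : A' (A e₀) = e₀ := by
      rw [← Module.End.mul_apply, hA'A, Module.End.one_apply]
    rw [r0, map_zero] at h3
    exact he₀ne h3.symm
  have hFe : F e₀ = 0 := by
    have h3 : F (t • e₀) = 0 := by rw [← r0]; exact hG0
    rw [map_smul, smul_eq_zero] at h3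
    exact h3.resolve_left ht
  refine ⟨fun v hv => ?_, fun v => ?_, fun v => ?_, fun v hv => ?_⟩
  · obtain ⟨γ, rfl⟩ := Submodule.mem_span_singleton.mp hv
    rw [map_smul, r0, smul_comm]
  · obtain ⟨α, β, rfl⟩ := s56o_exists_red b v
    have : A (α • e₀ + β • f₀) - s • (α • e₀ + β • f₀) = (α * (t - s) + β * u.fst) • e₀ := by
      rw [map_add, map_smul, map_smul, r0, r1]
      simp only [smul_add, smul_smul, add_smul, sub_smul, mul_sub]
      rw [mul_comm s α, mul_comm s β]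
      abel
    rw [this]
    exact hmemL _
  · obtain ⟨α, β, hw⟩ := s56o_exists_red b (A' v)
    have hv : v = A (A' v) := by
      rw [← Module.End.mul_apply, hAA', Module.End.one_apply]
    rw [hv, hw, map_add, map_smul, map_smul, map_add, map_smul, map_smul, hG0, hG1, smul_zero,
      zero_add, smul_smul]
    exact hmemL _
  · obtain ⟨γ, rfl⟩ := Submodule.mem_span_singleton.mp hv
    rw [map_smul, hFe, smul_zero]

end Reduction

/-- **(W5-D) the glue.** A strict-ordinary first-order deformation with cyclotomic determinant produces an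
ordinary line of `ρ̄` and a coboundary correction making the cocycle `N`-valued on `D_P`. -/
theorem s56o_glue (p : ℕ) [Fact p.Prime] (hp2 : p ≠ 2) (hp0 : (p : k) = 0)
    (ρbar : ResidualGaloisRep k) (c : cocycles₁ (s56a_ad0 ρbar)) (hc : s56a_IsLevel c.1)
    (hdet : (s56a_liftRep ρbar c hc).DetIsCyclotomic p)
    (hso : (s56a_liftRep ρbar c hc).IsStrictOrdinaryAt p)
    (P : ValuationSubring (AlgebraicClosure ℚ)) (hP : P.LiesOverPrime p) :
    ∃ (Lbar : Submodule k ρbar.V) (X : Module.End k ρbar.V), s56o_IsOrdLine ρbar p P Lbar ∧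
      ∀ σ ∈ P.decompositionSubgroup ℚ,
        s56a_toEnd ρbar (c.1 σ) + (ρbar.ρ σ ∘ₗ X ∘ₗ ρbar.ρ σ⁻¹ - X) ∈ s56o_N ρbar Lbar := by
  have hp0' : (p : DualNumber k) = 0 := by
    rw [s56o_natCast_dualNumber, hp0, TrivSqZeroExt.inl_zero]
  obtain ⟨b, s, hs, hsI, hb⟩ :=
    s56o_strictOrdTriangular (DualNumber k) p hp2 hp0' (s56a_liftRep ρbar c hc) hdet hso P hP
  let b' : Module.Basis (Fin 2) (DualNumber k) (s56a_VEps ρbar) := b
  -- the constant `s̄ ∈ {1, -1} ⊂ k`
  have hsk : ∀ σ ∈ P.decompositionSubgroup ℚ, ∃ sb : k, (sb = 1 ∨ sb = -1) ∧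
      s σ = TrivSqZeroExt.inl sb := by
    intro σ hσ
    rcases hs σ hσ with h | h
    · exact ⟨1, Or.inl rfl, by rw [h, TrivSqZeroExt.inl_one]⟩
    · exact ⟨-1, Or.inr rfl, by rw [h, TrivSqZeroExt.inl_neg, TrivSqZeroExt.inl_one]⟩
  have key : ∀ σ ∈ P.decompositionSubgroup ℚ, ∀ a : ℕ,
      (∀ μ : AlgebraicClosure ℚ, μ ^ p = 1 → σ μ = μ ^ a) → ∀ sb : k, s σ = TrivSqZeroExt.inl sb →
      (∀ v ∈ Submodule.span k {(b' 0).re}, ρbar.ρ σ v = ((a : k) * sb) • v) ∧
      (∀ v : ρbar.V, ρbar.ρ σ v - sb • v ∈ Submodule.span k {(b' 0).re}) ∧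
      s56a_toEnd ρbar (c.1 σ) + (ρbar.ρ σ ∘ₗ s56o_X b' ∘ₗ ρbar.ρ σ⁻¹ - s56o_X b') ∈
        s56o_N ρbar (Submodule.span k {(b' 0).re}) := by
    intro σ hσ a ha sb hsb
    obtain ⟨h0, h1⟩ := hb σ hσ a ha
    obtain ⟨u, hu⟩ := Submodule.mem_span_singleton.mp h1
    refine s56o_glue_linalg b' (ρbar.ρ σ) (ρbar.ρ σ⁻¹) (s56a_toEnd ρbar (c.1 σ))
      (s56a_rho_mul_inv ρbar σ) (s56a_rho_inv_mul ρbar σ) ((a : k) * sb) sb u ?_ ?_
    · rw [TrivSqZeroExt.inl_mul, ← s56o_natCast_dualNumber, ← hsb]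
      exact h0
    · have h5 : (s56a_liftRep ρbar c hc).ρ σ (b 1) = s σ • b 1 + u • b 0 := by
        rw [hu]; exact (add_sub_cancel _ _).symm
      rw [← hsb]
      exact h5
  refine ⟨Submodule.span k {(b' 0).re}, s56o_X b', ⟨finrank_span_singleton (s56o_red_zero_ne b'),
    fun σ hσ => ?_⟩, fun σ hσ => ?_⟩
  · obtain ⟨sb, hsb1, hsb⟩ := hsk σ hσ
    refine ⟨sb, hsb1, fun hσI => ?_, fun a ha => ?_⟩
    · have := hsI σ hσI
      rw [hsb] at this
      have h2 := congrArg TrivSqZeroExt.fst this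
      rwa [TrivSqZeroExt.fst_inl, TrivSqZeroExt.fst_one] at h2
    · exact ⟨(key σ hσ a ha sb hsb).1, (key σ hσ a ha sb hsb).2.1⟩
  · obtain ⟨sb, -, hsb⟩ := hsk σ hσ
    obtain ⟨a, -, ha⟩ := s56o_exists_cycloExp p σ
    exact (key σ hσ a ha sb hsb).2.2

/-! ### restriction to a local group -/

section Local

variable {G : Type} [Group G]

/-- restriction of a global cocycle of `ad⁰ρ̄` to a local group `r : G →* Γℚ`. -/
def s56o_resCocycle (ρbar : ResidualGaloisRep k) (r : G →* Γℚ) (c : cocycles₁ (s56a_ad0 ρbar)) :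
    cocycles₁ (Rep.res r (s56a_ad0 ρbar)) :=
  (mapCocycles₁ r (𝟙 (Rep.res r (s56a_ad0 ρbar)))).hom c

theorem s56o_resCocycle_apply (ρbar : ResidualGaloisRep k) (r : G →* Γℚ)
    (c : cocycles₁ (s56a_ad0 ρbar)) (g : G) :
    (s56o_resCocycle ρbar r c).val g = c.val (r g) := rfl

/-- the Prelude's localisation map `locRes` on the class of a cocycle. -/
theorem s56o_locRes_H1π (ρbar : ResidualGaloisRep k) (r : G →* Γℚ) (c : cocycles₁ (s56a_ad0 ρbar)) :
    (groupCohomology.map r (𝟙 (Rep.res r (s56a_ad0 ρbar))) 1).hom ((H1π (s56a_ad0 ρbar)).hom c) =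
      (H1π (Rep.res r (s56a_ad0 ρbar))).hom (s56o_resCocycle ρbar r c) :=
  H1π_comp_map_apply r (𝟙 (Rep.res r (s56a_ad0 ρbar))) c

theorem s56o_resCocycle_level (ρbar : ResidualGaloisRep k) (r : G →* Γℚ)
    (c : cocycles₁ (s56a_ad0 ρbar)) (hc : s56a_IsLevel c.1) :
    IsLevelConstant₁ r (s56o_resCocycle ρbar r c) := by
  obtain ⟨F, hF, h⟩ := hc
  refine ⟨F, hF, fun g s hs => ?_⟩
  show c.val (r (g * s)) = c.val (r g)
  rw [map_mul]
  exact h (r g) (r s) hs

/-- **(W5-E)** the local class at `p` of a strict-ordinary first-order deformation lies in the CANONICAL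
local condition `s56o_Lp ρbar (s56o_ordLine ρbar p P) r`, for every local group `r : G →* Γℚ` with image
in `D_P` (e.g. `r = primeLocalToGlobal (pPrime p)`, `P = primeLocalPlace (pPrime p)`). -/
theorem s56o_locRes_mem_Lp (p : ℕ) [Fact p.Prime] (hp2 : p ≠ 2) (hp0 : (p : k) = 0)
    (ρbar : ResidualGaloisRep k) (c : cocycles₁ (s56a_ad0 ρbar)) (hc : s56a_IsLevel c.1)
    (hdet : (s56a_liftRep ρbar c hc).DetIsCyclotomic p)
    (hso : (s56a_liftRep ρbar c hc).IsStrictOrdinaryAt p)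
    (P : ValuationSubring (AlgebraicClosure ℚ)) (hP : P.LiesOverPrime p)
    (r : G →* Γℚ) (hr : ∀ g : G, r g ∈ P.decompositionSubgroup ℚ) :
    s56o_IsOrdLine ρbar p P (s56o_ordLine ρbar p P) ∧
    (groupCohomology.map r (𝟙 (Rep.res r (s56a_ad0 ρbar))) 1).hom ((H1π (s56a_ad0 ρbar)).hom c) ∈
      s56o_Lp ρbar (s56o_ordLine ρbar p P) r := by
  have hpp : p.Prime := Fact.out
  have h2 : (2 : k) ≠ 0 := by
    have hcop : Nat.Coprime 2 p := by
      rw [Nat.coprime_comm]
      exact (Nat.coprime_primes hpp Nat.prime_two).mpr hp2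
    have := (s56o_isUnit_natCast (A := k) hp0 hcop).ne_zero
    exact_mod_cast this
  obtain ⟨Lbar, X, hL, hX⟩ := s56o_glue p hp2 hp0 ρbar c hc hdet hso P hP
  have hLeq := s56o_ordLine_eq ρbar p hp2 hp0 P hP hL
  rw [hLeq]
  refine ⟨hL, ?_⟩
  rw [s56o_locRes_H1π]
  exact s56o_cocycleCriterion k h2 ρbar Lbar G r (s56o_resCocycle ρbar r c)
    (s56o_resCocycle_level ρbar r c hc) X (fun g => hX (r g) (hr g))

end Local

end Fermat.Agent.Lib.S56
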