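/-
Programme W (S56), wall [W5] (helper5, prefix `s56o_`): **the strict-ordinary local condition at `p`, final form.**

`L_p := s56o_Lp ρbar (s56o_ordLine ρbar p P) r` is CANONICAL (it depends only on `ρ̄`, `p`, `P`, `r`), it is
contained in the level-continuous classes `continuousH1 r _`, it contains the local class of every
strict-ordinary first-order deformation (`s56o_locRes_mem_Lp`, file `OGlue.lean`) and
**`dim L_p + 1 ≤ h⁰(G, ad⁰ρ̄) + d`** whenever `dim H¹_cont(G, k(χ̄)) ≤ d`, `1 ≤ d`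
(`s56o_finrank_Lp_ordLine`; W3 gives `d = 2` for `G = G_{ℚ_p}`).
-/
import Fermat.Agent.Lib.S56.OGlue

set_option autoImplicit false
set_option linter.style.haveILetI false

noncomputable section

namespace Fermat.Agent.Lib.S56

open groupCohomology CategoryTheory ExtCitation

local notation "Γℚ" => (AlgebraicClosure ℚ ≃ₐ[ℚ] AlgebraicClosure ℚ)

variable {k : Type} [Field k] {G : Type} [Group G]

/-- `L_p` consists of level-continuous classes. -/
theorem s56o_Lp_le_continuousH1 (ρbar : ResidualGaloisRep k) (Lbar : Submodule k ρbar.V)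
    (r : G →* Γℚ) : s56o_Lp ρbar Lbar r ≤ continuousH1 r (Rep.res r (s56a_ad0 ρbar)) := by
  rw [s56o_Lp, Submodule.span_le]
  rintro _ ⟨c, hc, -, rfl⟩
  exact H1π_mem_continuousH1 r _ hc

/-- for the zero "line" the local condition is zero. -/
theorem s56o_Lp_bot (ρbar : ResidualGaloisRep k) (r : G →* Γℚ) :
    s56o_Lp ρbar ⊥ r = ⊥ := by
  rw [s56o_Lp, Submodule.span_eq_bot]
  rintro _ ⟨c, -, hc, rfl⟩
  have h0 : c = 0 := by
    apply Subtype.ext
    funext g
    apply s56o_val_injective ρbar r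
    show s56o_val ρbar r (c.val g) = s56o_val ρbar r 0
    rw [map_zero]
    ext v
    have := (hc g).1 v
    rwa [Submodule.mem_bot] at this
  rw [h0, map_zero]

/-- an ordinary line gives the triangular action required by `s56o_LocalBound`. -/
theorem s56o_actsTriangular_of_isOrdLine (ρbar : ResidualGaloisRep k) (p : ℕ) [Fact p.Prime]
    (P : ValuationSubring (AlgebraicClosure ℚ)) {Lbar : Submodule k ρbar.V}
    (hL : s56o_IsOrdLine ρbar p P Lbar) (r : G →* Γℚ)
    (hr : ∀ g : G, r g ∈ P.decompositionSubgroup ℚ) (χ : G →* kˣ)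
    (hχ : ∀ (g : G) (a : ℕ), (∀ μ : AlgebraicClosure ℚ, μ ^ p = 1 → r g μ = μ ^ a) →
      (χ g : k) = (a : k)) :
    s56o_ActsTriangular ρbar Lbar r χ := by
  intro τ
  obtain ⟨s, hs, -, h⟩ := hL.2 (r τ) (hr τ)
  obtain ⟨a, -, ha⟩ := s56o_exists_cycloExp p (r τ)
  refine ⟨s, ?_, fun v hv => ?_, (h a ha).2⟩
  · rcases hs with rfl | rfl
    · exact one_ne_zero
    · exact neg_ne_zero.mpr one_ne_zero
  · rw [hχ τ a ha]
    exact (h a ha).1 v hv

/-- **(W5-F) the bound for the canonical local condition.** -/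
theorem s56o_finrank_Lp_ordLine (p : ℕ) [Fact p.Prime] (hp2 : p ≠ 2) (hp0 : (p : k) = 0)
    (ρbar : ResidualGaloisRep k) (P : ValuationSubring (AlgebraicClosure ℚ))
    (r : G →* Γℚ) (hr : ∀ g : G, r g ∈ P.decompositionSubgroup ℚ) (χ : G →* kˣ)
    (hχ : ∀ (g : G) (a : ℕ), (∀ μ : AlgebraicClosure ℚ, μ ^ p = 1 → r g μ = μ ^ a) →
      (χ g : k) = (a : k))
    (d : ℕ) (hd1 : 1 ≤ d) (hfin : Module.Finite k ↥(continuousH1 r (ofChar χ)))
    (hd : Module.finrank k ↥(continuousH1 r (ofChar χ)) ≤ d) :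
    Module.finrank k ↥(s56o_Lp ρbar (s56o_ordLine ρbar p P) r) + 1 ≤
      Module.finrank k (H0 (Rep.res r (s56a_ad0 ρbar))) + d := by
  have hpp : p.Prime := Fact.out
  have h2 : (2 : k) ≠ 0 := by
    have hcop : Nat.Coprime 2 p := by
      rw [Nat.coprime_comm]
      exact (Nat.coprime_primes hpp Nat.prime_two).mpr hp2
    have := (s56o_isUnit_natCast (A := k) hp0 hcop).ne_zero
    exact_mod_cast this
  by_cases hex : ∃ L : Submodule k ρbar.V, s56o_IsOrdLine ρbar p P L
  · have hL : s56o_IsOrdLine ρbar p P (s56o_ordLine ρbar p P) := by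
      rw [s56o_ordLine, dif_pos hex]
      exact hex.choose_spec
    exact s56o_localBound k h2 ρbar _ hL.1 G r χ
      (s56o_actsTriangular_of_isOrdLine ρbar p P hL r hr χ hχ) d hfin hd
  · rw [s56o_ordLine, dif_neg hex, s56o_Lp_bot, finrank_bot]
    omega

/-- the exponent property of the mod `p` cyclotomic character with values in `kˣ`
(the shape of helper3's `s56c_cyclo`). -/
theorem s56o_cyclo_spec (p : ℕ) [Fact p.Prime] (k : Type) [Field k] [Algebra (ZMod p) k] (σ : Γℚ)
    (a : ℕ) (ha : ∀ μ : AlgebraicClosure ℚ, μ ^ p = 1 → σ μ = μ ^ a) :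
    ((Units.map ((algebraMap (ZMod p) k : ZMod p →+* k) : ZMod p →* k) (cycloChar p σ) : kˣ) : k) =
      (a : k) := by
  have hpp : p.Prime := Fact.out
  haveI : NeZero p := ⟨hpp.ne_zero⟩
  obtain ⟨ζ, hζ⟩ := Fermat.Agent.Lib.PT.pta_exists_primitiveRoot p
  obtain ⟨e, -, he⟩ := s56o_exists_cycloExp p σ
  rw [Units.coe_map]
  show algebraMap (ZMod p) k ((cycloChar p σ : (ZMod p)ˣ) : ZMod p) = (a : k)
  rw [coe_cycloChar]
  have h1 : ζ ^ (cycloExp p σ) = ζ ^ a := by
    rw [← ha ζ hζ.pow_eq_one]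
    have hμ0 : ζ ≠ 0 := hζ.ne_zero hpp.ne_zero
    have hmem : Units.mk0 ζ hμ0 ∈ rootsOfUnity p (AlgebraicClosure ℚ) := by
      rw [mem_rootsOfUnity]
      exact Units.ext (by rw [Units.val_pow_eq_pow_val, Units.val_mk0, hζ.pow_eq_one, Units.val_one])
    have h := modularCyclotomicCharacter.spec (AlgebraicClosure ℚ)
      (ExtCitation.card_rootsOfUnity_eq_self p)
      (σ : AlgebraicClosure ℚ ≃+* AlgebraicClosure ℚ) hmem
    rw [Units.val_mk0] at h
    exact h.symm
  have h2 : cycloExp p σ = a % p := by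
    have h3 : ζ ^ (cycloExp p σ) = ζ ^ (a % p) := by
      rw [h1]
      conv_rhs => rw [hζ.eq_orderOf, pow_mod_orderOf]
    exact hζ.pow_inj (ZMod.val_lt _) (Nat.mod_lt _ hpp.pos) h3
  rw [h2, map_natCast]
  have h4 : ((a % p : ℕ) : ZMod p) = (a : ZMod p) := ZMod.natCast_mod a p
  have h5 := congrArg (algebraMap (ZMod p) k) h4
  rwa [map_natCast, map_natCast] at h5

end Fermat.Agent.Lib.S56
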