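import Fermat.Agent.Lib.S56.ATopGlue
import Fermat.Agent.Lib.S56.OFinal
import Fermat.Agent.Lib.PT.BridgeA

/-!
# Programme W (S56): the contract (T2) of `IfaceTop` for the strict-ordinary condition (helper2)

`s56a_lpBound_ord` : `s56z_LpBound p ρbar (fun ρ => ρ.DetIsCyclotomic p ∧ ρ.IsStrictOrdinaryAt p)`, i.e.
`dim_{𝔽_p} L_p ≤ h⁰(G_p, M) + [k : 𝔽_p]`, from W5 (`s56o_locRes_mem_Lp`, `s56o_finrank_Lp_ordLine`), the
`k → 𝔽_p` dictionary (`ARes.lean`) and ONE explicit local hypothesis (W3):
`H¹_cont(G_p, k(χ̄_cyc))` is finite-dimensional of dimension `≤ 2`.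
-/

set_option autoImplicit false
set_option linter.style.haveILetI false

noncomputable section

namespace Fermat.Agent.Lib.S56

open groupCohomology ExtCitation CategoryTheory Module

local notation "GQ" => (AlgebraicClosure ℚ ≃ₐ[ℚ] AlgebraicClosure ℚ)

variable (p : ℕ) [Fact p.Prime] (k : Type) [Field k] [Algebra (ZMod p) k]

/-- the mod `p` cyclotomic character of `G_p` with values in `kˣ` (unfolds to the same term as helper3's
`s56c_locChar p k (pPrime p)`). -/
def s56a_chiP : primeLocalGaloisGroup (pPrime p) →* kˣ :=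
  ((Units.map ((algebraMap (ZMod p) k : ZMod p →+* k) : ZMod p →* k)).comp (cycloChar p)).comp
    (primeLocalToGlobal (pPrime p))

theorem s56a_chiP_spec (g : primeLocalGaloisGroup (pPrime p)) (a : ℕ)
    (ha : ∀ μ : AlgebraicClosure ℚ, μ ^ p = 1 → primeLocalToGlobal (pPrime p) g μ = μ ^ a) :
    (s56a_chiP p k g : k) = (a : k) :=
  s56o_cyclo_spec p k (primeLocalToGlobal (pPrime p) g) a ha

/-- the `p`-adic place lies over `p`. -/
theorem s56a_primeLocalPlace_liesOver : (primeLocalPlace (pPrime p)).LiesOverPrime p :=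
  Fermat.Agent.Lib.PT.ptg_padicPlace_liesOver p

/-- the local Galois group lands in the decomposition group of the `p`-adic place. -/
theorem s56a_primeLocalToGlobal_mem (g : primeLocalGaloisGroup (pPrime p)) :
    primeLocalToGlobal (pPrime p) g ∈ (primeLocalPlace (pPrime p)).decompositionSubgroup ℚ :=
  localGaloisToGlobal_mem_decompositionSubgroup p g

/-- the characteristic of `k` is `p`. -/
theorem s56a_natCast_eq_zero_of_algebra : (p : k) = 0 := by
  have h := congrArg (algebraMap (ZMod p) k) (ZMod.natCast_self p)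
  rwa [map_natCast, map_zero] at h

section Semilinear

variable (F : Type) [Field F] {k : Type} [Field k] [Algebra F k]

/-- finiteness transports along an `F`-semilinear additive bijection (companion of
`s56a_finrank_of_semilinear`). -/
theorem s56a_finite_of_semilinear {V W : Type*} [AddCommGroup V] [Module k V] [AddCommGroup W]
    [Module F W] (e : V ≃+ W) (he : ∀ (a : F) (v : V), e (algebraMap F k a • v) = a • e v)
    (L : Submodule k V) (L' : Submodule F W) (h : ∀ v, e v ∈ L' ↔ v ∈ L)
    [Module.Finite F k] [Module.Finite k ↥L] : Module.Finite F ↥L' := by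
  letI : Module F V := Module.compHom V (algebraMap F k)
  haveI : IsScalarTower F k V := IsScalarTower.of_algebraMap_smul fun _ _ => rfl
  let eL : ↥L ≃ₗ[F] ↥L' :=
    { toFun := fun v => ⟨e v, (h v).2 v.2⟩
      invFun := fun w => ⟨e.symm w, (h _).1 (by rw [e.apply_symm_apply]; exact w.2)⟩
      map_add' := fun v w => Subtype.ext (map_add e _ _)
      map_smul' := fun a v => Subtype.ext (he a v)
      left_inv := fun v => Subtype.ext (e.symm_apply_apply _)
      right_inv := fun w => Subtype.ext (e.apply_symm_apply _) }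
  haveI : Module.Finite F ↥L := Module.Finite.trans k ↥L
  exact Module.Finite.equiv eL

theorem s56a_finite_mapF {G : Type} [Group G] (A : Rep.{0} k G) (L : Submodule k (H1 A))
    [Module.Finite F k] [Module.Finite k ↥L] : Module.Finite F ↥(s56a_mapF F A L) :=
  s56a_finite_of_semilinear F (k := k) (s56a_H1Res F A) (s56a_H1Res_smul F A) L _
    (s56a_mem_mapF F A L)

end Semilinear

variable {k} (ρbar : ResidualGaloisRep k)

omit [Algebra (ZMod p) k] in
/-- finiteness of W5's canonical local condition (from the finiteness of `H¹_cont(G, k(χ))`). -/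
theorem s56a_finite_Lp_ordLine {G : Type} [Group G]
    (P : ValuationSubring (AlgebraicClosure ℚ)) (r : G →* GQ)
    (hr : ∀ g : G, r g ∈ P.decompositionSubgroup ℚ) (χ : G →* kˣ)
    (hχ : ∀ (g : G) (a : ℕ), (∀ μ : AlgebraicClosure ℚ, μ ^ p = 1 → r g μ = μ ^ a) →
      (χ g : k) = (a : k))
    (hfin : Module.Finite k ↥(continuousH1 r (ofChar χ))) :
    Module.Finite k ↥(s56o_Lp ρbar (s56o_ordLine ρbar p P) r) := by
  by_cases hex : ∃ L : Submodule k ρbar.V, s56o_IsOrdLine ρbar p P L
  · have hL : s56o_IsOrdLine ρbar p P (s56o_ordLine ρbar p P) := by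
      rw [s56o_ordLine, dif_pos hex]
      exact hex.choose_spec
    obtain ⟨b, hLb, htri⟩ := s56o_exists_basis ρbar _ hL.1 r χ
      (s56o_actsTriangular_of_isOrdLine ρbar p P hL r hr χ hχ)
    have hle := s56o_Lp_le_map htri hLb
    haveI : Module.Finite k ↥((continuousH1 r (ofChar χ)).map (s56o_PsiH htri)) :=
      Module.Finite.map _ _
    exact Submodule.finiteDimensional_of_le hle
  · rw [s56o_ordLine, dif_neg hex, s56o_Lp_bot]
    infer_instance

section Span

variable (F : Type) [Field F] {k : Type} [Field k] [Algebra F k] {G : Type} [Group G]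
  (A : Rep.{0} k G)

/-- an `F`-span of classes which all come from a finite-dimensional `k`-subspace `L` of `H¹(G, A)` has
`F`-dimension at most `[k : F] · dim_k L`. -/
theorem s56a_finrank_span_le_of_mapF (L : Submodule k (H1 A)) [Module.Finite F k]
    [Module.Finite k ↥L] (C : Submodule F (H1 (s56a_resF F A))) (X : Set ↥C)
    (hX : ∀ x ∈ X, ∃ y ∈ L, s56a_H1Res F A y = (x : H1 (s56a_resF F A))) :
    finrank F ↥(Submodule.span F X) ≤ finrank F k * finrank k ↥L := by
  haveI := s56a_finite_mapF F A L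
  have hle : (Submodule.span F X).map C.subtype ≤ s56a_mapF F A L := by
    rw [Submodule.map_le_iff_le_comap, Submodule.span_le]
    intro x hx
    obtain ⟨y, hy, hxy⟩ := hX x hx
    exact ⟨y, hy, hxy⟩
  have h2 := Submodule.finrank_mono hle
  rwa [Submodule.finrank_map_subtype_eq, s56a_finrank_mapF] at h2

/-- the numerical form used for (T2). -/
theorem s56a_lpBound_of_mapF (L : Submodule k (H1 A)) [Module.Finite F k]
    [Module.Finite k ↥L] (C : Submodule F (H1 (s56a_resF F A))) (X : Set ↥C)
    (hX : ∀ x ∈ X, ∃ y ∈ L, s56a_H1Res F A y = (x : H1 (s56a_resF F A)))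
    (hn : finrank k ↥L ≤ finrank k ↥A.ρ.invariants + 1) :
    finrank F ↥(Submodule.span F X) ≤
      finrank F ↥(s56a_resF F A).ρ.invariants + finrank F k := by
  rw [s56a_finrank_invariants_res]
  calc finrank F ↥(Submodule.span F X) ≤ finrank F k * finrank k ↥L :=
        s56a_finrank_span_le_of_mapF F A L C X hX
    _ ≤ finrank F k * (finrank k ↥A.ρ.invariants + 1) := Nat.mul_le_mul_left _ hn
    _ = _ := by ring

end Span

/-- **(T2) for the strict-ordinary condition**: `dim_{𝔽_p} L_p ≤ h⁰(G_p, M) + [k : 𝔽_p]`, given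
`dim_k H¹_cont(G_p, k(χ̄_cyc)) ≤ 2` (W3). -/
theorem s56a_lpBound_ord [Module.Finite (ZMod p) k] (hp2 : p ≠ 2)
    (hfin : Module.Finite k
      ↥(continuousH1 (primeLocalToGlobal (pPrime p)) (ofChar (s56a_chiP p k))))
    (hd : finrank k ↥(continuousH1 (primeLocalToGlobal (pPrime p)) (ofChar (s56a_chiP p k))) ≤ 2) :
    s56z_LpBound p ρbar (fun ρ => ρ.DetIsCyclotomic p ∧ ρ.IsStrictOrdinaryAt p) := by
  have hp0 : (p : k) = 0 := s56a_natCast_eq_zero_of_algebra p k
  have hP := s56a_primeLocalPlace_liesOver p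
  have hr := s56a_primeLocalToGlobal_mem p
  have hLfin := s56a_finite_Lp_ordLine p ρbar (primeLocalPlace (pPrime p))
    (primeLocalToGlobal (pPrime p)) hr (s56a_chiP p k) (s56a_chiP_spec p k) hfin
  have hbound := s56o_finrank_Lp_ordLine p hp2 hp0 ρbar (primeLocalPlace (pPrime p))
    (primeLocalToGlobal (pPrime p)) hr (s56a_chiP p k) (s56a_chiP_spec p k) 2 (by norm_num) hfin hd
  rw [s56o_finrank_H0] at hbound
  refine s56a_lpBound_of_mapF (ZMod p) (Rep.res (primeLocalToGlobal (pPrime p)) (s56a_ad0 ρbar))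
    (s56o_Lp ρbar (s56o_ordLine ρbar p (primeLocalPlace (pPrime p))) (primeLocalToGlobal (pPrime p)))
    _ _ ?_ (by omega)
  rintro x ⟨c, hc, ⟨hdet, hso⟩, hx⟩
  refine ⟨_, (s56o_locRes_mem_Lp p hp2 hp0 ρbar c hc hdet hso (primeLocalPlace (pPrime p)) hP
      (primeLocalToGlobal (pPrime p)) hr).2, ?_⟩
  have h1 := (s56a_H1Res_map (ZMod p) (s56a_ad0 ρbar) (primeLocalToGlobal (pPrime p))
    ((H1π (s56a_ad0 ρbar)).hom c)).symm
  rw [s56a_H1Res_π] at h1
  exact h1.trans hx.symm

end Fermat.Agent.Lib.S56
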