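import Fermat.Agent.Lib.S56.ADefs
import Fermat.Agent.Lib.S56.ARes
import Fermat.Agent.Lib.S53.NormData

/-!
# Programme W (S56), wall W1-bis: `H⁰(G_ℚ, ad⁰ ρ̄) = 0` (helper2)

Schur's lemma for an absolutely irreducible `ρ̄` in characteristic `≠ 2`: a trace-zero endomorphism
commuting with `ρ̄` vanishes.
-/

set_option autoImplicit false
set_option linter.style.haveILetI false

noncomputable section

namespace Fermat.Agent.Lib.S56

open IsLocalRing groupCohomology Module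
open Fermat.Agent.Lib.S53 (matOfRes matOfRes_apply exists_residual_normalization
  eq_smul_one_add_smul_of_intertwine)

local notation "Γℚ" => (AlgebraicClosure ℚ ≃ₐ[ℚ] AlgebraicClosure ℚ)

section Schur

variable {k : Type} [Field k] (ρbar : ResidualGaloisRep k)

/-- **Schur**: an endomorphism commuting with an absolutely irreducible `ρ̄` is a scalar. -/
theorem s56a_eq_smul_one_of_commute (habs : ρbar.IsAbsolutelyIrreducible)
    (X : Module.End k ρbar.V) (hX : ∀ σ : Γℚ, ρbar.ρ σ * X = X * ρbar.ρ σ) :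
    ∃ x : k, X = x • (1 : Module.End k ρbar.V) := by
  obtain ⟨b, g₀, g₁, i₀, j₀, h00, h10, hcomm⟩ := exists_residual_normalization ρbar habs
  let T := LinearMap.toMatrixAlgEquiv b
  have hT : ∀ σ, T (ρbar.ρ σ) = matOfRes ρbar b σ := fun σ => rfl
  have hN : ∀ σ, T X * matOfRes ρbar b σ = matOfRes ρbar b σ * T X := by
    intro σ
    rw [← hT, ← map_mul, ← map_mul, hX σ]
  have h1 := eq_smul_one_add_smul_of_intertwine (matOfRes ρbar b g₀) (matOfRes ρbar b g₀) (T X)
    h00 h10 h00 h10 (hN g₀)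
  set x := T X 0 0 with hx
  set y := T X 1 0 with hy
  have h2 := hN g₁
  rw [h1] at h2
  have h3 : y • (matOfRes ρbar b g₀ * matOfRes ρbar b g₁ -
      matOfRes ρbar b g₁ * matOfRes ρbar b g₀) = 0 := by
    have : (x • (1 : Matrix (Fin 2) (Fin 2) k) + y • matOfRes ρbar b g₀) * matOfRes ρbar b g₁ -
        matOfRes ρbar b g₁ * (x • (1 : Matrix (Fin 2) (Fin 2) k) + y • matOfRes ρbar b g₀) = 0 :=
      sub_eq_zero.mpr h2
    rw [← this]
    simp only [add_mul, mul_add, Matrix.smul_mul, Matrix.mul_smul, Matrix.one_mul, Matrix.mul_one,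
      smul_sub]
    abel
  have h4 : y = 0 := by
    have := congrFun (congrFun h3 i₀) j₀
    rw [Matrix.smul_apply, smul_eq_mul, Matrix.zero_apply] at this
    exact (mul_eq_zero.mp this).resolve_right hcomm
  refine ⟨x, ?_⟩
  apply T.injective
  rw [h1, h4, zero_smul, add_zero, map_smul, map_one]

/-- `H⁰(G_ℚ, ad⁰ ρ̄) = 0` for `ρ̄` absolutely irreducible, in characteristic `≠ 2`. -/
theorem s56a_invariants_ad0_eq_bot (habs : ρbar.IsAbsolutelyIrreducible) (h2 : (2 : k) ≠ 0) :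
    (s56a_ad0 ρbar).ρ.invariants = ⊥ := by
  rw [eq_bot_iff]
  intro X hX
  rw [Submodule.mem_bot]
  have hcomm : ∀ σ : Γℚ, ρbar.ρ σ * s56a_toEnd ρbar X = s56a_toEnd ρbar X * ρbar.ρ σ := by
    intro σ
    have h1 : ρbar.ρ σ * s56a_toEnd ρbar X * ρbar.ρ σ⁻¹ = s56a_toEnd ρbar X :=
      congrArg (s56a_toEnd ρbar) (hX σ)
    calc ρbar.ρ σ * s56a_toEnd ρbar X
        = ρbar.ρ σ * s56a_toEnd ρbar X * (ρbar.ρ σ⁻¹ * ρbar.ρ σ) := by
          rw [s56a_rho_inv_mul, mul_one]
      _ = (ρbar.ρ σ * s56a_toEnd ρbar X * ρbar.ρ σ⁻¹) * ρbar.ρ σ := by simp only [mul_assoc]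
      _ = s56a_toEnd ρbar X * ρbar.ρ σ := by rw [h1]
  obtain ⟨x, hx⟩ := s56a_eq_smul_one_of_commute ρbar habs _ hcomm
  have htr : LinearMap.trace k ρbar.V (s56a_toEnd ρbar X) = 0 := (s56a_mem_sl ρbar _).1 X.2
  rw [hx, map_smul, LinearMap.trace_one, ρbar.finrank_eq, smul_eq_mul] at htr
  have hx0 : x = 0 := by
    have h2' : ((2 : ℕ) : k) ≠ 0 := by exact_mod_cast h2
    exact (mul_eq_zero.mp htr).resolve_right h2'
  apply Subtype.ext
  show s56a_toEnd ρbar X = 0
  rw [hx, hx0, zero_smul]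

theorem s56a_finrank_invariants_ad0 (habs : ρbar.IsAbsolutelyIrreducible) (h2 : (2 : k) ≠ 0) :
    Module.finrank k (s56a_ad0 ρbar).ρ.invariants = 0 := by
  rw [s56a_invariants_ad0_eq_bot ρbar habs h2, finrank_bot]

/-- `dim_F H⁰(G_ℚ, ad⁰ ρ̄|_F) = 0`. -/
theorem s56a_finrank_invariants_ad0_res (F : Type) [Field F] [Algebra F k]
    (habs : ρbar.IsAbsolutelyIrreducible) (h2 : (2 : k) ≠ 0) :
    Module.finrank F (s56a_resF F (s56a_ad0 ρbar)).ρ.invariants = 0 := by
  rw [s56a_finrank_invariants_res, s56a_finrank_invariants_ad0 ρbar habs h2, mul_zero]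

end Schur

end Fermat.Agent.Lib.S56
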