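import Fermat.Agent.Lib.S56.ACond

/-!
# Programme W (S56), wall W1: the two deformation types of S56 are tangent-stable (helper2)
-/

set_option autoImplicit false
set_option linter.style.haveILetI false

noncomputable section

namespace Fermat.Agent.Lib.S56

open IsLocalRing

section

variable (𝒪 : Type) [CommRing 𝒪] [IsDomain 𝒪] [IsDiscreteValuationRing 𝒪]
  [IsAdicComplete (maximalIdeal 𝒪) 𝒪]

/-- The strict-ordinary deformation type of S56 is tangent-stable. -/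
theorem s56a_tangentStable_ord (p : ℕ) [Fact p.Prime] (Sg Smin : Finset ℕ) :
    s56a_TangentStable 𝒪 (fun _A _ _ _ ρ =>
      GaloisRep.strictOrdinaryCondition 𝒪 p Sg ρ ∧
        ∀ q ∈ Smin, q.Prime → q ≠ p → ρ.IsUnipotentOnInertiaAt q) p where
  baseChange := by
    intro A _ _ _ φ hφ _ ρ h
    exact ⟨⟨s56a_detIsCyclotomic_baseChange _ hφ ρ h.1.1,
      s56a_isStrictOrdinaryAt_baseChange _ hφ ρ h.1.2.1,
      fun q hq hqS => s56a_isUnramifiedAt_baseChange _ hφ ρ (h.1.2.2 q hq hqS)⟩,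
      fun q hq hqp hne => s56a_isUnipotentOnInertiaAt_baseChange _ hφ ρ (h.2 q hq hqp hne)⟩
  of_isEquiv := by
    rintro ρ ρ' ⟨e⟩ h
    exact ⟨⟨s56a_detIsCyclotomic_of_equiv e h.1.1, s56a_isStrictOrdinaryAt_of_equiv e h.1.2.1,
      fun q hq hqS => s56a_isUnramifiedAt_of_equiv e (h.1.2.2 q hq hqS)⟩,
      fun q hq hqp hne => s56a_isUnipotentOnInertiaAt_of_equiv e (h.2 q hq hqp hne)⟩
  det := fun _ h => h.1.1

/-- The flat deformation type of S56 is tangent-stable. -/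
theorem s56a_tangentStable_flat (p : ℕ) [Fact p.Prime] (Sg Smin : Finset ℕ) :
    s56a_TangentStable 𝒪 (fun _A _ _ _ ρ =>
      GaloisRep.flatCondition 𝒪 p Sg ρ ∧
        ∀ q ∈ Smin, q.Prime → q ≠ p → ρ.IsUnipotentOnInertiaAt q) p where
  baseChange := by
    intro A _ _ _ φ hφ hsurj ρ h
    exact ⟨⟨s56a_detIsCyclotomic_baseChange _ hφ ρ h.1.1,
      s56a_isFlatAt_baseChange _ hφ hsurj ρ h.1.2.1,
      fun q hq hqS => s56a_isUnramifiedAt_baseChange _ hφ ρ (h.1.2.2 q hq hqS)⟩,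
      fun q hq hqp hne => s56a_isUnipotentOnInertiaAt_baseChange _ hφ ρ (h.2 q hq hqp hne)⟩
  of_isEquiv := by
    rintro ρ ρ' ⟨e⟩ h
    exact ⟨⟨s56a_detIsCyclotomic_of_equiv e h.1.1, s56a_isFlatAt_of_equiv e h.1.2.1,
      fun q hq hqS => s56a_isUnramifiedAt_of_equiv e (h.1.2.2 q hq hqS)⟩,
      fun q hq hqp hne => s56a_isUnipotentOnInertiaAt_of_equiv e (h.2 q hq hqp hne)⟩
  det := fun _ h => h.1.1

end

end Fermat.Agent.Lib.S56
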