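import Fermat.Agent.Lib.S56.IfaceTop
import Fermat.Agent.Lib.S56.AGlue
import Fermat.Agent.Lib.S56.AArch
import Fermat.Agent.Lib.S56.ASchur

/-!
# Programme W (S56), wall W1-bis: the contracts (T5), (T6) of `IfaceTop` (helper2)

`s56z_M p ρbar` of `IfaceTop` is DEFINITIONALLY `s56a_resF (ZMod p) (s56a_ad0 ρbar)`, so the whole
dictionary of `ARes.lean` applies to it.
-/

set_option autoImplicit false

noncomputable section

namespace Fermat.Agent.Lib.S56

open groupCohomology ExtCitation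

variable (p : ℕ) [Fact p.Prime] {k : Type} [Field k] [Algebra (ZMod p) k]
  (ρbar : ResidualGaloisRep k)

/-- the `rfl`-bridge between the top's `M` and the restriction of scalars of `ad⁰ ρ̄`. -/
theorem s56a_zM_eq : s56z_M p ρbar = s56a_resF (ZMod p) (s56a_ad0 ρbar) := rfl

theorem s56a_zcoc_eq (c : cocycles₁ (s56a_ad0 ρbar)) :
    s56z_coc p ρbar c = s56a_cocRes (ZMod p) (s56a_ad0 ρbar) c := rfl

/-- **(T6)** -/
theorem s56a_levelOfUnr : s56z_LevelOfUnr ρbar := fun c hc T h =>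
  s56a_isLevelS_of_unramified ρbar c hc (s56z_prm T) fun q hq =>
    h q q.2 fun h' => hq (Finset.mem_subtype.2 h')

/-- **(T5)** -/
theorem s56a_globInv (hp2 : p ≠ 2) (habs : ρbar.IsAbsolutelyIrreducible)
    (hdet : (GaloisRepAdic.ofResidualGaloisRep ρbar).DetIsCyclotomic p) :
    s56z_GlobInv p ρbar :=
  ⟨s56a_finrank_invariants_ad0_res ρbar (ZMod p) habs
      (s56a_two_ne_zero p hp2 (s56a_natCast_eq_zero_of_detIsCyclotomic ρbar p hdet)),
    (s56a_finrank_invariants_arch_res ρbar (ZMod p) p hp2 hdet).ge⟩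

end Fermat.Agent.Lib.S56
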