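/-
Programme W (S56), wall [W2] (helper4), brick (a): **the linear-algebra core of the
Greenberg–Wiles formula.**

Setting: finite-dimensional `k`-spaces `H, H'` ("global `H¹` of `M`, `M*`"), `P, P'` ("sum of the local
`H¹`"), a pairing `B : P × P' → k` separating on both sides, localisation maps `loc : H → P`,
`loc' : H' → P'`.

* `s56b_orth B W` : the right orthogonal of a subspace; `s56b_finrank_orth`;
* `s56b_range_eq_orth` : **Poitou–Tate middle exactness by counting**: if `im loc ⟂ im loc'`
  (global reciprocity) and `dim im loc + dim im loc' = dim P`, then `im loc' = (im loc)^⊥`;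
* `s56b_gw_abstract` : for every subspace `L ⊆ P`:
  `dim loc⁻¹(L) + dim ker loc' + dim P = dim loc'⁻¹(L^⊥) + dim H + dim L`.
-/
import Mathlib

set_option autoImplicit false
set_option linter.unusedSectionVars false

namespace Fermat.Agent.Lib.S56

open Module

section Orth

variable {k : Type*} [Field k] {P P' : Type*} [AddCommGroup P] [Module k P]
  [AddCommGroup P'] [Module k P']

/-- the right orthogonal of a subspace under a pairing. -/
def s56b_orth (B : P →ₗ[k] P' →ₗ[k] k) (W : Submodule k P) : Submodule k P' :=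
  W.dualAnnihilator.comap B.flip

lemma s56b_mem_orth (B : P →ₗ[k] P' →ₗ[k] k) (W : Submodule k P) (y : P') :
    y ∈ s56b_orth B W ↔ ∀ x ∈ W, B x y = 0 := by
  simp only [s56b_orth, Submodule.mem_comap, Submodule.mem_dualAnnihilator]
  exact forall₂_congr fun x _ => by rw [LinearMap.flip_apply]

lemma s56b_orth_anti (B : P →ₗ[k] P' →ₗ[k] k) {W W' : Submodule k P} (h : W ≤ W') :
    s56b_orth B W' ≤ s56b_orth B W := fun y hy =>
  (s56b_mem_orth B W y).2 fun x hx => (s56b_mem_orth B W' y).1 hy x (h hx)

lemma s56b_orth_sup (B : P →ₗ[k] P' →ₗ[k] k) (W W' : Submodule k P) :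
    s56b_orth B (W ⊔ W') = s56b_orth B W ⊓ s56b_orth B W' := by
  ext y
  simp only [Submodule.mem_inf, s56b_mem_orth]
  constructor
  · intro h
    exact ⟨fun x hx => h x (Submodule.mem_sup_left hx), fun x hx => h x (Submodule.mem_sup_right hx)⟩
  · rintro ⟨h1, h2⟩ x hx
    obtain ⟨a, ha, b, hb, rfl⟩ := Submodule.mem_sup.1 hx
    rw [map_add, LinearMap.add_apply, h1 a ha, h2 b hb, add_zero]

/-- a pairing separating on both sides. -/
structure s56b_Perfect (B : P →ₗ[k] P' →ₗ[k] k) : Prop where
  left : ∀ x, (∀ y, B x y = 0) → x = 0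
  right : ∀ y, (∀ x, B x y = 0) → y = 0

variable [FiniteDimensional k P] [FiniteDimensional k P']

lemma s56b_Perfect.flip_injective {B : P →ₗ[k] P' →ₗ[k] k} (h : s56b_Perfect B) :
    Function.Injective B.flip := by
  rw [← LinearMap.ker_eq_bot, LinearMap.ker_eq_bot']
  intro y hy
  exact h.right y fun x => by
    have := LinearMap.congr_fun hy x
    simpa using this

lemma s56b_Perfect.injective {B : P →ₗ[k] P' →ₗ[k] k} (h : s56b_Perfect B) :
    Function.Injective B := by
  rw [← LinearMap.ker_eq_bot, LinearMap.ker_eq_bot']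
  intro x hx
  exact h.left x fun y => by
    have := LinearMap.congr_fun hx y
    simpa using this

lemma s56b_Perfect.finrank_eq {B : P →ₗ[k] P' →ₗ[k] k} (h : s56b_Perfect B) :
    finrank k P = finrank k P' := by
  have h1 : finrank k P' ≤ finrank k (Dual k P) :=
    LinearMap.finrank_le_finrank_of_injective h.flip_injective
  have h2 : finrank k P ≤ finrank k (Dual k P') :=
    LinearMap.finrank_le_finrank_of_injective h.injective
  rw [Subspace.dual_finrank_eq] at h1 h2
  exact le_antisymm h2 h1

lemma s56b_Perfect.flip_bijective {B : P →ₗ[k] P' →ₗ[k] k} (h : s56b_Perfect B) :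
    Function.Bijective B.flip := by
  refine ⟨h.flip_injective, ?_⟩
  have hd : finrank k P' = finrank k (Dual k P) := by
    rw [Subspace.dual_finrank_eq, h.finrank_eq]
  exact (LinearMap.injective_iff_surjective_of_finrank_eq_finrank hd).1 h.flip_injective

/-- `dim W + dim W^⊥ = dim P`. -/
theorem s56b_finrank_orth {B : P →ₗ[k] P' →ₗ[k] k} (h : s56b_Perfect B) (W : Submodule k P) :
    finrank k W + finrank k (s56b_orth B W) = finrank k P := by
  let e : P' ≃ₗ[k] Dual k P := LinearEquiv.ofBijective B.flip h.flip_bijective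
  have h1 : s56b_orth B W = W.dualAnnihilator.comap (e : P' →ₗ[k] Dual k P) := rfl
  have h2 : finrank k (W.dualAnnihilator.comap (e : P' →ₗ[k] Dual k P)) =
      finrank k W.dualAnnihilator := by
    have : W.dualAnnihilator.comap (e : P' →ₗ[k] Dual k P) =
        W.dualAnnihilator.map (e.symm : Dual k P →ₗ[k] P') := by
      rw [Submodule.map_equiv_eq_comap_symm]
      rfl
    rw [this]
    exact LinearEquiv.finrank_map_eq e.symm _
  rw [h1, h2]
  exact Subspace.finrank_add_finrank_dualAnnihilator_eq W

end Orth

section Core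

variable {k : Type*} [Field k] {H H' P P' : Type*}
  [AddCommGroup H] [Module k H] [AddCommGroup H'] [Module k H']
  [AddCommGroup P] [Module k P] [AddCommGroup P'] [Module k P']
  [FiniteDimensional k H] [FiniteDimensional k H'] [FiniteDimensional k P] [FiniteDimensional k P']

/-- **Poitou–Tate middle exactness by counting.** -/
theorem s56b_range_eq_orth {B : P →ₗ[k] P' →ₗ[k] k} (hB : s56b_Perfect B)
    (loc : H →ₗ[k] P) (loc' : H' →ₗ[k] P')
    (horth : ∀ x y, B (loc x) (loc' y) = 0)
    (hcount : finrank k (LinearMap.range loc) + finrank k (LinearMap.range loc') = finrank k P) :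
    LinearMap.range loc' = s56b_orth B (LinearMap.range loc) := by
  have hle : LinearMap.range loc' ≤ s56b_orth B (LinearMap.range loc) := by
    rintro _ ⟨y, rfl⟩
    rw [s56b_mem_orth]
    rintro _ ⟨x, rfl⟩
    exact horth x y
  have hdim := s56b_finrank_orth hB (LinearMap.range loc)
  exact Submodule.eq_of_le_of_finrank_eq hle (by omega)

/-- `dim f⁻¹(L) = dim ker f + dim (im f ∩ L)`. -/
theorem s56b_finrank_comap {V W : Type*} [AddCommGroup V] [Module k V] [AddCommGroup W]
    [Module k W] [FiniteDimensional k V] (f : V →ₗ[k] W) (L : Submodule k W) :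
    finrank k (L.comap f) = finrank k (LinearMap.ker f) + finrank k ↥(LinearMap.range f ⊓ L) := by
  -- restrict `f` to `f⁻¹(L)`
  let g : ↥(L.comap f) →ₗ[k] W := f.comp (L.comap f).subtype
  have hr : LinearMap.range g = LinearMap.range f ⊓ L := by
    ext w
    constructor
    · rintro ⟨⟨v, hv⟩, rfl⟩
      exact ⟨⟨v, rfl⟩, hv⟩
    · rintro ⟨⟨v, rfl⟩, hv⟩
      exact ⟨⟨v, hv⟩, rfl⟩
  have hk : finrank k (LinearMap.ker g) = finrank k (LinearMap.ker f) := by
    have hle : LinearMap.ker f ≤ L.comap f := fun v hv => by
      rw [Submodule.mem_comap, LinearMap.mem_ker.1 hv]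
      exact L.zero_mem
    have : LinearMap.ker g = (LinearMap.ker f).comap (L.comap f).subtype := by
      ext v
      simp [g, LinearMap.mem_ker]
    rw [this]
    exact (Submodule.comapSubtypeEquivOfLe hle).finrank_eq
  have := LinearMap.finrank_range_add_finrank_ker g
  rw [hr, hk] at this
  omega

/-- **the abstract Greenberg–Wiles identity.** -/
theorem s56b_gw_abstract {B : P →ₗ[k] P' →ₗ[k] k} (hB : s56b_Perfect B)
    (loc : H →ₗ[k] P) (loc' : H' →ₗ[k] P')
    (horth : ∀ x y, B (loc x) (loc' y) = 0)
    (hcount : finrank k (LinearMap.range loc) + finrank k (LinearMap.range loc') = finrank k P)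
    (L : Submodule k P) :
    finrank k (L.comap loc) + finrank k (LinearMap.ker loc') + finrank k P =
      finrank k ((s56b_orth B L).comap loc') + finrank k H + finrank k L := by
  have hmid := s56b_range_eq_orth hB loc loc' horth hcount
  have h1 := s56b_finrank_comap loc L
  have h2 := s56b_finrank_comap loc' (s56b_orth B L)
  rw [hmid, ← s56b_orth_sup] at h2
  have h3 := s56b_finrank_orth hB (LinearMap.range loc ⊔ L)
  have h4 := Submodule.finrank_sup_add_finrank_inf_eq (LinearMap.range loc) L
  have h5 := LinearMap.finrank_range_add_finrank_ker loc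
  omega

end Core

end Fermat.Agent.Lib.S56
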