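/-
Programme W (S56), wall [W2] (helper4), brick (a2): **the Greenberg–Wiles formula from its
numerical inputs**, for a finite family of local spaces.

`ι` = the finite places of `S`; `P v`, `P' v` = `H¹(G_v, M)`, `H¹(G_v, M*)`; `B v` the local Tate pairing;
`H`, `H'` = `H¹(G_S, M)`, `H¹(G_S, M*)`; `loc`, `loc'` the localisation maps.

* `s56b_piPairing`, `s56b_piPairing_perfect` : the sum of the local pairings;
* `s56b_orth_pi` : `(∏ L_v)^⊥ = ∏ L_v^⊥`;
* `s56b_selmer` : `loc⁻¹(∏ L_v)`;
* `s56b_gw_of_inputs` : **Greenberg–Wiles** from: reciprocity, the two `Ш`-identities (S55), the two tails,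
  the two global Euler characteristics, the local Euler characteristics and local dualities.
-/
import Fermat.Agent.Lib.S56.BGW

set_option autoImplicit false
set_option linter.unusedSectionVars false

namespace Fermat.Agent.Lib.S56

open Module

section Pi

variable {k : Type*} [Field k] {ι : Type*} [Fintype ι] [DecidableEq ι]
  {P P' : ι → Type*} [∀ v, AddCommGroup (P v)] [∀ v, Module k (P v)]
  [∀ v, AddCommGroup (P' v)] [∀ v, Module k (P' v)]

/-- the sum of the local pairings. -/
def s56b_piPairing (B : ∀ v, P v →ₗ[k] P' v →ₗ[k] k) :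
    (∀ v, P v) →ₗ[k] (∀ v, P' v) →ₗ[k] k :=
  ∑ v, (B v).compl₁₂ (LinearMap.proj v) (LinearMap.proj v)

@[simp] lemma s56b_piPairing_apply (B : ∀ v, P v →ₗ[k] P' v →ₗ[k] k) (x : ∀ v, P v)
    (y : ∀ v, P' v) : s56b_piPairing B x y = ∑ v, B v (x v) (y v) := by
  simp only [s56b_piPairing, LinearMap.sum_apply, LinearMap.compl₁₂_apply, LinearMap.proj_apply]

lemma s56b_piPairing_perfect {B : ∀ v, P v →ₗ[k] P' v →ₗ[k] k} (hB : ∀ v, s56b_Perfect (B v)) :
    s56b_Perfect (s56b_piPairing B) := by
  constructor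
  · intro x hx
    funext v
    refine (hB v).left (x v) fun y => ?_
    have := hx (Pi.single v y)
    rw [s56b_piPairing_apply, Finset.sum_eq_single v] at this
    · simpa using this
    · intro w _ hw
      rw [Pi.single_eq_of_ne hw, map_zero]
    · intro h
      exact absurd (Finset.mem_univ v) h
  · intro y hy
    funext v
    refine (hB v).right (y v) fun x => ?_
    have := hy (Pi.single v x)
    rw [s56b_piPairing_apply, Finset.sum_eq_single v] at this
    · simpa using this
    · intro w _ hw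
      rw [Pi.single_eq_of_ne hw, map_zero, LinearMap.zero_apply]
    · intro h
      exact absurd (Finset.mem_univ v) h

/-- `(∏ L_v)^⊥ = ∏ L_v^⊥`. -/
lemma s56b_orth_pi (B : ∀ v, P v →ₗ[k] P' v →ₗ[k] k) (L : ∀ v, Submodule k (P v)) :
    s56b_orth (s56b_piPairing B) (Submodule.pi Set.univ L) =
      Submodule.pi Set.univ fun v => s56b_orth (B v) (L v) := by
  ext y
  simp only [s56b_mem_orth, Submodule.mem_pi, Set.mem_univ, true_implies, s56b_piPairing_apply]
  constructor
  · intro h v x hx
    have := h (Pi.single v x) (fun w => by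
      by_cases hw : w = v
      · subst hw
        simpa using hx
      · rw [Pi.single_eq_of_ne hw]
        exact (L w).zero_mem)
    rw [Finset.sum_eq_single v] at this
    · simpa using this
    · intro w _ hw
      rw [Pi.single_eq_of_ne hw, map_zero, LinearMap.zero_apply]
    · intro h
      exact absurd (Finset.mem_univ v) h
  · intro h x hx
    exact Finset.sum_eq_zero fun v _ => h v (x v) (hx v)

lemma s56b_finrank_pi [∀ v, FiniteDimensional k (P v)] (L : ∀ v, Submodule k (P v)) :
    finrank k ↥(Submodule.pi Set.univ L) = ∑ v, finrank k (L v) := by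
  let e : ↥(Submodule.pi Set.univ L) ≃ₗ[k] ∀ v, ↥(L v) :=
    { toFun := fun x v => ⟨x.1 v, x.2 v (Set.mem_univ v)⟩
      map_add' := fun _ _ => rfl
      map_smul' := fun _ _ => rfl
      invFun := fun x => ⟨fun v => (x v : P v), fun v _ => (x v).2⟩
      left_inv := fun _ => rfl
      right_inv := fun _ => rfl }
  rw [e.finrank_eq, Module.finrank_pi_fintype]

end Pi

section GW

variable {k : Type*} [Field k] {ι : Type*} [Fintype ι] [DecidableEq ι]
  {P P' : ι → Type*} [∀ v, AddCommGroup (P v)] [∀ v, Module k (P v)]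
  [∀ v, AddCommGroup (P' v)] [∀ v, Module k (P' v)]
  [∀ v, FiniteDimensional k (P v)] [∀ v, FiniteDimensional k (P' v)]
  {H H' : Type*} [AddCommGroup H] [Module k H] [AddCommGroup H'] [Module k H']
  [FiniteDimensional k H] [FiniteDimensional k H']

/-- the Selmer group `loc⁻¹(∏ L_v)`. -/
def s56b_selmer (loc : H →ₗ[k] ∀ v, P v) (L : ∀ v, Submodule k (P v)) : Submodule k H :=
  (Submodule.pi Set.univ L).comap loc

lemma s56b_mem_selmer (loc : H →ₗ[k] ∀ v, P v) (L : ∀ v, Submodule k (P v)) (x : H) :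
    x ∈ s56b_selmer loc L ↔ ∀ v, loc x v ∈ L v := by
  simp [s56b_selmer, Submodule.mem_pi]

/-- **Greenberg–Wiles from its inputs.**  `h0, h2` = `h⁰(G_S,M), h²(G_S,M)`; `s1, s2` = `dim Ш¹(M), dim Ш²(M)`;
primes = the same for `M*`; `l0 v, l2 v` = `h⁰(G_v,M), h²(G_v,M)`; `d = dim M`, `dp = dim M^{c=1}`,
`dm = dim (M*)^{c=1}`, `e v = [v = p]·d`. -/
theorem s56b_gw_of_inputs {B : ∀ v, P v →ₗ[k] P' v →ₗ[k] k} (hB : ∀ v, s56b_Perfect (B v))
    (loc : H →ₗ[k] ∀ v, P v) (loc' : H' →ₗ[k] ∀ v, P' v)
    (horth : ∀ x y, ∑ v, B v (loc x v) (loc' y v) = 0)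
    {h0 h0' h2 h2' s1 s1' s2 s2' d dp dm : ℕ} {l0 l2 l2' e : ι → ℕ}
    (hs1 : finrank k (LinearMap.ker loc) = s1) (hs1' : finrank k (LinearMap.ker loc') = s1')
    (hS55 : s2 = s1') (hS55' : s2' = s1)
    (htail : h2 + h0' = s2 + ∑ v, l2 v) (htail' : h2' + h0 = s2' + ∑ v, l2' v)
    (heul : h0 + h2 + d = finrank k H + dp) (heul' : h0' + h2' + d = finrank k H' + dm)
    (hpm : dp + dm = d)
    (hloc : ∀ v, finrank k (P v) = l0 v + l2 v + e v) (hdual : ∀ v, l2' v = l0 v)
    (he : ∑ v, e v = d)
    (L : ∀ v, Submodule k (P v)) :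
    finrank k (s56b_selmer loc L) + h0' + ∑ v, l0 v + dp =
      finrank k (s56b_selmer loc' fun v => s56b_orth (B v) (L v)) + h0 + ∑ v, finrank k (L v) := by
  have hBt := s56b_piPairing_perfect hB
  have horth' : ∀ x y, s56b_piPairing B (loc x) (loc' y) = 0 := fun x y => by
    rw [s56b_piPairing_apply]; exact horth x y
  have hP : finrank k (∀ v, P v) = ∑ v, l0 v + ∑ v, l2 v + d := by
    rw [Module.finrank_pi_fintype, Finset.sum_congr rfl fun v _ => hloc v, Finset.sum_add_distrib,
      Finset.sum_add_distrib, he]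
  have hl : ∑ v, l2' v = ∑ v, l0 v := Finset.sum_congr rfl fun v _ => hdual v
  have hr := LinearMap.finrank_range_add_finrank_ker loc
  have hr' := LinearMap.finrank_range_add_finrank_ker loc'
  have hcount : finrank k (LinearMap.range loc) + finrank k (LinearMap.range loc') =
      finrank k (∀ v, P v) := by
    omega
  have key := s56b_gw_abstract hBt loc loc' horth' hcount (Submodule.pi Set.univ L)
  rw [s56b_orth_pi, s56b_finrank_pi] at key
  show finrank k ↥((Submodule.pi Set.univ L).comap loc) + h0' + ∑ v, l0 v + dp =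
    finrank k ↥((Submodule.pi Set.univ fun v => s56b_orth (B v) (L v)).comap loc') + h0 +
      ∑ v, finrank k (L v)
  omega

end GW

end Fermat.Agent.Lib.S56
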