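/-
Programme W (S56), wall [W2] (helper4 + helper9): **INTERFACE of the Greenberg–Wiles formula.**

Vocabulary (Prelude objects only; `p` odd, `p ∈ S`, `M` a finite `𝔽_p[G_ℚ]`-module, continuous,
unramified outside `S`; `M' = M.dualTwist (cycloChar p) = Hom(M, μ_p)`):

* `s56b_H1 S M`   = `H¹(G_S, M)`   := `↥(continuousH1S S M)`        (classes of `S`-level-constant cocycles)
* `s56b_H1q S M q`= `H¹(G_q, M)`   := `↥(continuousH1 (primeLocalToGlobal q) (Rep.res _ M))`, `q ∈ S` finite
* `s56b_loc S M`  : `H¹(G_S,M) → ∏_{q∈S} H¹(G_q,M)`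
* `H²(G_S,M)` := `continuousH2S S M`, `H²(G_q,M)` := `continuousH2 (primeLocalToGlobal q) (Rep.res _ M)`,
  `Ш¹`, `Ш²` := the Prelude's `sha₁ S M`, `sha₂ S M`; `H⁰` := `ρ.invariants`.
  (The archimedean place enters only through `dim M^{c=1}`: `H¹(G_ℝ,-) = 0` for `p` odd.)

INPUT contracts (one per producer), all `Prop`-valued `def`s about a family of local pairings `B`:
* `s56b_LocalDuality`  [W3, helper3] : `B q` separates both sides of `H¹(G_q,M) × H¹(G_q,M')`;
* `s56b_LocalEuler`    [W3, helper3] : finiteness + `h¹(G_q,M) = h⁰(G_q,M) + h²(G_q,M) + [q = p]·dim M`,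
                                        `h²(G_q,M') = h⁰(G_q,M)`;
* `s56b_ArchSplit`     (easy)        : `dim M^{c=1} + dim M'^{c=1} = dim M`;
* `s56b_ShaKer`        (easy, Lib/PT): `ker loc = Ш¹`;
  (`s56b_Tail`, `s56b_ShaDuality`, `s56b_LocalEuler` take the dual as a second argument `N`, so that they can
  be used for `(M, M')` and for `(M', M)` without double duals: `s56b_Contracts`.)
* `s56b_GlobalEuler`   [W4, helper1] : finiteness + `h⁰ + h² + dim M = h¹ + dim M^{c=1}` for `G_S`;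
* `s56b_Tail`          [W2, helper9] : `h²(G_S,M) + h⁰(G_S,M') = dim Ш²(M) + Σ_q h²(G_q,M)`;
* `s56b_ShaDuality`    (landed S55)  : `dim Ш²(M) = dim Ш¹(M')`;
* `s56b_Reciprocity`   [W2, helper4] : `Σ_q B q (loc_q x) (loc_q y) = 0` for global classes.
OUTPUT:
* `s56b_GW` : for every family of local conditions `L q ⊆ H¹(G_q,M)`:
  `h¹_L(M) + h⁰(G_ℚ,M') + Σ_q h⁰(G_q,M) + dim M^{c=1} = h¹_{L^⊥}(M') + h⁰(G_ℚ,M) + Σ_q dim L_q`.
`s56b_gw_of_contracts` (file `BGWConc.lean`) : inputs for `M` and `M'` ⟹ output.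
-/
import Fermat.Prelude.Def_GroupCohomology_ContinuousUnramified
import Fermat.Agent.Lib.S56.BGWPi

set_option autoImplicit false
set_option linter.unusedSectionVars false

noncomputable section

namespace Fermat.Agent.Lib.S56

open CategoryTheory groupCohomology ExtCitation Module

local notation "GQ" => (AlgebraicClosure ℚ ≃ₐ[ℚ] AlgebraicClosure ℚ)

variable {p : ℕ} [Fact p.Prime] (S : Finset Nat.Primes)

/-- the local maps at the finite places of `S`. -/
abbrev s56b_locq : ∀ q : ↥S, primeLocalGaloisGroup q.1 →* GQ := fun q => primeLocalToGlobal q.1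

variable (M : Rep.{0} (ZMod p) GQ)

/-- the restriction of `M` to `G_q`. -/
abbrev s56b_Mq (q : ↥S) : Rep.{0} (ZMod p) (primeLocalGaloisGroup q.1) :=
  Rep.res (primeLocalToGlobal q.1) M

/-- `H¹(G_S, M)`. -/
abbrev s56b_H1 : Type := ↥(continuousH1S S M)

/-- `H¹(G_q, M)`, `q ∈ S`. -/
abbrev s56b_H1q (q : ↥S) : Type :=
  ↥(continuousH1 (primeLocalToGlobal q.1) (s56b_Mq S M q))

/-- the localisation of an `S`-continuous class is continuous. -/
theorem s56b_locRes_mem (q : ↥S) {x : H1 M} (hx : x ∈ continuousH1S S M) :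
    (locRes (s56b_locq S) M q).hom x ∈
      continuousH1 (primeLocalToGlobal q.1) (s56b_Mq S M q) := by
  obtain ⟨c, hc, rfl⟩ := (mem_continuousH1S_iff S M x).1 hx
  have h1 : (locRes (s56b_locq S) M q).hom ((H1π M).hom c) =
      (H1π (Rep.res (s56b_locq S q) M)).hom
        (mapCocycles₁ (s56b_locq S q) (𝟙 (Rep.res (s56b_locq S q) M)) c) :=
    H1π_comp_map_apply (s56b_locq S q) (𝟙 (Rep.res (s56b_locq S q) M)) c
  rw [h1]
  refine H1π_mem_continuousH1 _ _ ?_
  obtain ⟨F, hF, h⟩ := hc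
  refine ⟨F, hF.1, fun g s hs => ?_⟩
  rw [coe_mapCocycles₁]
  show c.1 (primeLocalToGlobal q.1 (g * s)) = c.1 (primeLocalToGlobal q.1 g)
  rw [map_mul]
  exact h _ _ hs

/-- the localisation map `H¹(G_S,M) → ∏_{q ∈ S} H¹(G_q,M)`. -/
def s56b_loc : s56b_H1 S M →ₗ[ZMod p] ∀ q : ↥S, s56b_H1q S M q :=
  LinearMap.pi fun q =>
    ((locRes (s56b_locq S) M q).hom.comp (continuousH1S S M).subtype).codRestrict
      (continuousH1 (primeLocalToGlobal q.1) (s56b_Mq S M q))
      (fun x => s56b_locRes_mem S M q x.2)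

@[simp] lemma s56b_loc_coe (x : s56b_H1 S M) (q : ↥S) :
    ((s56b_loc S M x q : s56b_H1q S M q) : H1 (s56b_Mq S M q)) =
      (locRes (s56b_locq S) M q).hom (x : H1 M) := rfl

/-- the kernel of the localisation map is `Ш¹` (as a set of classes). -/
def s56b_ShaKer : Prop :=
  ∀ x : s56b_H1 S M, x ∈ LinearMap.ker (s56b_loc S M) ↔ (x : H1 M) ∈ sha₁ S M

/-- the Tate dual `M' = Hom(M, μ_p)`. -/
abbrev s56b_dual : Rep.{0} (ZMod p) GQ := M.dualTwist (cycloChar p)

/-- a family of local pairings. -/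
abbrev s56b_Pairings : Type :=
  ∀ q : ↥S, s56b_H1q S M q →ₗ[ZMod p] s56b_H1q S (s56b_dual M) q →ₗ[ZMod p] ZMod p

variable {S M}

/-- **[W3]** local Tate duality in degree `(1,1)`. -/
def s56b_LocalDuality (B : s56b_Pairings S M) : Prop := ∀ q : ↥S, s56b_Perfect (B q)

variable (S M)

/-- **[W3]** finiteness and the local Euler characteristic of `M`, and local duality in degrees `(0,2)`
against `N` (`N = M'`, or any module isomorphic to it). -/
def s56b_LocalEuler (N : Rep.{0} (ZMod p) GQ) : Prop :=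
  ∀ q : ↥S,
    FiniteDimensional (ZMod p) (s56b_H1q S M q) ∧
    FiniteDimensional (ZMod p)
      (continuousH2 (primeLocalToGlobal q.1) (s56b_Mq S M q)) ∧
    finrank (ZMod p) (s56b_H1q S M q) =
      finrank (ZMod p) (s56b_Mq S M q).ρ.invariants +
      finrank (ZMod p) (continuousH2 (primeLocalToGlobal q.1) (s56b_Mq S M q)) +
      (if q.1 = pPrime p then finrank (ZMod p) M else 0) ∧
    finrank (ZMod p) (continuousH2 (primeLocalToGlobal q.1) (s56b_Mq S N q)) =
      finrank (ZMod p) (s56b_Mq S M q).ρ.invariants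

/-- **[W4]** finiteness and Tate's global Euler characteristic formula (`p` odd, over `ℚ`). -/
def s56b_GlobalEuler : Prop :=
  FiniteDimensional (ZMod p) (s56b_H1 S M) ∧
  FiniteDimensional (ZMod p) (continuousH2S S M) ∧
  finrank (ZMod p) M.ρ.invariants + finrank (ZMod p) (continuousH2S S M) + finrank (ZMod p) M =
    finrank (ZMod p) (s56b_H1 S M) +
      finrank (ZMod p) (Rep.res archimedeanLoc M).ρ.invariants

/-- **[W2, tail]** `H²(G_S,M) → ⊕_{q∈S} H²(G_q,M) → H⁰(G_S,N)^∨ → 0` is exact (numerical form; `N = M'` or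
any module isomorphic to it). -/
def s56b_Tail (N : Rep.{0} (ZMod p) GQ) : Prop :=
  finrank (ZMod p) (continuousH2S S M) + finrank (ZMod p) N.ρ.invariants =
    finrank (ZMod p) (sha₂ S M) +
      ∑ q : ↥S, finrank (ZMod p) (continuousH2 (primeLocalToGlobal q.1) (s56b_Mq S M q))

/-- **(landed S55)** `dim Ш²(M) = dim Ш¹(N)` (`N = M'` or any module isomorphic to it). -/
def s56b_ShaDuality (N : Rep.{0} (ZMod p) GQ) : Prop :=
  finrank (ZMod p) (sha₂ S M) = finrank (ZMod p) (sha₁ S N)

/-- the archimedean place: `dim M^{c=1} + dim N^{c=1} = dim M` for `N = M'` (`p` odd). -/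
def s56b_ArchSplit (N : Rep.{0} (ZMod p) GQ) : Prop :=
  finrank (ZMod p) (Rep.res archimedeanLoc M).ρ.invariants +
    finrank (ZMod p) (Rep.res archimedeanLoc N).ρ.invariants = finrank (ZMod p) M

variable {S M}

/-- **[W2, reciprocity]** the images of the global classes of `M` and `M'` are orthogonal. -/
def s56b_Reciprocity (B : s56b_Pairings S M) : Prop :=
  ∀ (x : s56b_H1 S M) (y : s56b_H1 S (s56b_dual M)),
    ∑ q : ↥S, B q (s56b_loc S M x q) (s56b_loc S (s56b_dual M) y q) = 0

/-- **OUTPUT: the Greenberg–Wiles formula** for every family of local conditions. -/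
def s56b_GW (B : s56b_Pairings S M) : Prop :=
  ∀ L : ∀ q : ↥S, Submodule (ZMod p) (s56b_H1q S M q),
    finrank (ZMod p) (s56b_selmer (s56b_loc S M) L) +
        finrank (ZMod p) (s56b_dual M).ρ.invariants +
        ∑ q : ↥S, finrank (ZMod p) (s56b_Mq S M q).ρ.invariants +
        finrank (ZMod p) (Rep.res archimedeanLoc M).ρ.invariants =
      finrank (ZMod p) (s56b_selmer (s56b_loc S (s56b_dual M)) fun q => s56b_orth (B q) (L q)) +
        finrank (ZMod p) M.ρ.invariants +
        ∑ q : ↥S, finrank (ZMod p) (L q)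

/-- **the package of input contracts** for `M` and its dual `M' = M.dualTwist (cycloChar p)`. -/
structure s56b_Contracts (B : s56b_Pairings S M) : Prop where
  dual : s56b_LocalDuality B
  recip : s56b_Reciprocity B
  locEuler : s56b_LocalEuler S M (s56b_dual M)
  locFin' : ∀ q : ↥S, FiniteDimensional (ZMod p) (s56b_H1q S (s56b_dual M) q)
  euler : s56b_GlobalEuler S M
  euler' : s56b_GlobalEuler S (s56b_dual M)
  tail : s56b_Tail S M (s56b_dual M)
  tail' : s56b_Tail S (s56b_dual M) M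
  sha : s56b_ShaDuality S M (s56b_dual M)
  sha' : s56b_ShaDuality S (s56b_dual M) M
  shaKer : s56b_ShaKer S M
  shaKer' : s56b_ShaKer S (s56b_dual M)
  arch : s56b_ArchSplit M (s56b_dual M)

end Fermat.Agent.Lib.S56
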