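/-
Programme W (S56), wall [W2] (helper4): the easy contracts of `IfaceW2.lean`.

* `s56b_shaKer` : `ker (s56b_loc S M) = Ш¹_S(M)` (as sets of classes), `p` odd.
* `s56b_cycloChar_conj` : `χ_cyc(c) = -1`;  `s56b_archSplit` : `dim M^{c=1} + dim M'^{c=1} = dim M`, `p` odd.
-/
import Fermat.Agent.Lib.S56.IfaceW2
import Fermat.Agent.Lib.PT.GLevelArch
import Fermat.Agent.Lib.S30.CycConj

set_option autoImplicit false
set_option linter.unusedSectionVars false

noncomputable section

namespace Fermat.Agent.Lib.S56

open CategoryTheory groupCohomology ExtCitation Module Fermat.Agent.Lib.PT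

local notation "GQ" => (AlgebraicClosure ℚ ≃ₐ[ℚ] AlgebraicClosure ℚ)

variable {p : ℕ} [Fact p.Prime] (S : Finset Nat.Primes) (M : Rep.{0} (ZMod p) GQ)

/-- `ker loc = Ш¹`. -/
theorem s56b_shaKer (hp2 : p ≠ 2) : s56b_ShaKer S M := by
  intro x
  rw [LinearMap.mem_ker, pta_mem_sha₁_iff S hp2 M]
  constructor
  · intro h
    refine ⟨x.2, fun q => ?_⟩
    have := congrArg (fun f => ((f q : s56b_H1q S M q) : H1 (s56b_Mq S M q))) h
    exact this
  · rintro ⟨-, h⟩
    funext q
    apply Subtype.ext
    exact h q

/-- the mod `p` cyclotomic character sends complex conjugation to `-1`. -/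
theorem s56b_cycloChar_conj : cycloChar p complexConjugation = -1 := by
  have hp : p.Prime := Fact.out
  haveI : NeZero p := ⟨hp.ne_zero⟩
  symm
  have key := modularCyclotomicCharacter.unique (AlgebraicClosure ℚ)
    (card_rootsOfUnity_eq_self p)
    ((complexConjugation : GQ) : AlgebraicClosure ℚ ≃+* AlgebraicClosure ℚ)
    (c := (-1 : ZMod p)) ?_
  · apply Units.ext
    rw [Units.val_neg, Units.val_one]
    exact key
  · intro t ht
    have ht' : ((t : (AlgebraicClosure ℚ)ˣ) : AlgebraicClosure ℚ) ^ p = 1 := by
      have := (mem_rootsOfUnity _ _).mp ht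
      rw [← Units.val_pow_eq_pow_val, this, Units.val_one]
    have h1 : (-1 : ZMod p).val = p - 1 := by
      obtain ⟨m, hm⟩ : ∃ m, p = m + 1 := ⟨p - 1, by have := hp.pos; omega⟩
      subst hm
      exact ZMod.val_neg_one m
    rw [h1]
    exact Fermat.Agent.Lib.S30.s30c2_conj_root _ p ht' hp.ne_zero

/-- the elements of the archimedean decomposition group. -/
lemma s56b_mem_arch {x : GQ} (hx : x ∈ archimedeanDecomposition) :
    x = 1 ∨ x = complexConjugation := by
  obtain ⟨n, rfl⟩ := Subgroup.mem_zpowers_iff.1 hx
  rcases Int.even_or_odd' n with ⟨k, rfl | rfl⟩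
  · left
    rw [zpow_mul, zpow_two, complexConjugation_mul_self, one_zpow]
  · right
    rw [zpow_add, zpow_mul, zpow_two, complexConjugation_mul_self, one_zpow, one_mul, zpow_one]

/-- invariants of the restriction to the archimedean decomposition group. -/
lemma s56b_mem_invariants_arch (A : Rep.{0} (ZMod p) GQ) (m : A.V) :
    m ∈ (Rep.res archimedeanLoc A).ρ.invariants ↔ A.ρ complexConjugation m = m := by
  rw [Representation.mem_invariants]
  constructor
  · intro h
    exact h archimedeanGen
  · rintro h ⟨x, hx⟩
    rcases s56b_mem_arch hx with rfl | rfl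
    · show A.ρ 1 m = m
      rw [map_one]; rfl
    · exact h

/-- **the archimedean place**: `dim M^{c=1} + dim M'^{c=1} = dim M`. -/
theorem s56b_archSplit (hp2 : p ≠ 2) [FiniteDimensional (ZMod p) M] :
    s56b_ArchSplit M (s56b_dual M) := by
  have hp : p.Prime := Fact.out
  set W : Submodule (ZMod p) M.V := (Rep.res archimedeanLoc M).ρ.invariants with hW
  have h2 : (2 : ZMod p) ≠ 0 := by
    intro h
    have : (p : ℕ) ∣ 2 := (ZMod.natCast_eq_zero_iff 2 p).1 (by exact_mod_cast h)
    exact hp2 ((Nat.prime_dvd_prime_iff_eq hp Nat.prime_two).1 this)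
  have hT : ∀ m : M.V, M.ρ complexConjugation (M.ρ complexConjugation m) = m := fun m => by
    rw [← Module.End.mul_apply, ← map_mul, complexConjugation_mul_self, map_one]
    rfl
  -- the invariants of the dual are the annihilator of `W`
  have key : ∀ f : Module.Dual (ZMod p) M.V,
      f ∈ (Rep.res archimedeanLoc (s56b_dual M)).ρ.invariants ↔ f ∈ W.dualAnnihilator := by
    intro f
    have hact : (s56b_dual M).ρ complexConjugation f = -(f ∘ₗ M.ρ complexConjugation) := by
      rw [Rep.dualTwist_ρ_apply, complexConjugation_inv, s56b_cycloChar_conj]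
      simp only [Units.val_neg, Units.val_one]
      ext m
      simp
    rw [s56b_mem_invariants_arch (s56b_dual M) f, hact, Submodule.mem_dualAnnihilator]
    constructor
    · intro h m hm
      have hm' : M.ρ complexConjugation m = m := (s56b_mem_invariants_arch M m).1 hm
      have h1 := LinearMap.congr_fun h m
      simp only [LinearMap.neg_apply, LinearMap.comp_apply, hm'] at h1
      have h3 : (2 : ZMod p) * f m = 0 := by
        have : f m + f m = 0 := by
          nth_rewrite 1 [← h1]
          exact neg_add_cancel _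
        rw [two_mul]; exact this
      exact (mul_eq_zero.1 h3).resolve_left h2
    · intro h
      ext m
      have hmem : m + M.ρ complexConjugation m ∈ W := by
        rw [hW, s56b_mem_invariants_arch M, map_add, hT, add_comm]
      have h1 := h _ hmem
      rw [map_add] at h1
      simp only [LinearMap.neg_apply, LinearMap.comp_apply]
      exact (eq_neg_of_add_eq_zero_right h1).symm ▸ (by rw [neg_neg])
  have e : finrank (ZMod p) (Rep.res archimedeanLoc (s56b_dual M)).ρ.invariants =
      finrank (ZMod p) W.dualAnnihilator := by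
    have : (Rep.res archimedeanLoc (s56b_dual M)).ρ.invariants = W.dualAnnihilator :=
      Submodule.ext key
    rw [this]
  show finrank (ZMod p) W + _ = _
  rw [e]
  exact Subspace.finrank_add_finrank_dualAnnihilator_eq W

end Fermat.Agent.Lib.S56
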