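/-
Programme W (S56), wall [W2] (helper4): **the Greenberg–Wiles formula from the input contracts**
(`IfaceW2.lean`): `s56b_gw_of_contracts : s56b_Contracts B → s56b_GW B`.
-/
import Fermat.Agent.Lib.S56.IfaceW2

set_option autoImplicit false
set_option linter.unusedSectionVars false

noncomputable section

namespace Fermat.Agent.Lib.S56

open CategoryTheory groupCohomology ExtCitation Module

local notation "GQ" => (AlgebraicClosure ℚ ≃ₐ[ℚ] AlgebraicClosure ℚ)

variable {p : ℕ} [Fact p.Prime] {S : Finset Nat.Primes} {M : Rep.{0} (ZMod p) GQ}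

/-- `dim ker loc = dim Ш¹`. -/
theorem s56b_finrank_ker_loc (h : s56b_ShaKer S M) :
    finrank (ZMod p) (LinearMap.ker (s56b_loc S M)) = finrank (ZMod p) (sha₁ S M) := by
  have hle : sha₁ S M ≤ continuousH1S S M := inf_le_left
  let e : ↥(LinearMap.ker (s56b_loc S M)) ≃ₗ[ZMod p] ↥(sha₁ S M) :=
    { toFun := fun x => ⟨(x.1 : H1 M), (h x.1).1 x.2⟩
      map_add' := fun _ _ => rfl
      map_smul' := fun _ _ => rfl
      invFun := fun y => ⟨⟨y.1, hle y.2⟩, (h ⟨y.1, hle y.2⟩).2 y.2⟩
      left_inv := fun _ => rfl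
      right_inv := fun _ => rfl }
  exact e.finrank_eq

/-- **Greenberg–Wiles from the contracts.** -/
theorem s56b_gw_of_contracts (hpS : pPrime p ∈ S) [FiniteDimensional (ZMod p) M]
    {B : s56b_Pairings S M} (h : s56b_Contracts B) : s56b_GW B := by
  classical
  intro L
  have i1 : ∀ q : ↥S, FiniteDimensional (ZMod p) (s56b_H1q S M q) := fun q => (h.locEuler q).1
  have i2 : ∀ q : ↥S, FiniteDimensional (ZMod p) (s56b_H1q S (s56b_dual M) q) := h.locFin'
  have i3 : FiniteDimensional (ZMod p) (s56b_H1 S M) := h.euler.1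
  have i4 : FiniteDimensional (ZMod p) (s56b_H1 S (s56b_dual M)) := h.euler'.1
  have he : ∑ q : ↥S, (if q.1 = pPrime p then finrank (ZMod p) M else 0) = finrank (ZMod p) M := by
    rw [Finset.sum_eq_single (⟨pPrime p, hpS⟩ : ↥S)]
    · rw [if_pos rfl]
    · intro q _ hq
      rw [if_neg]
      intro h'
      exact hq (Subtype.ext h')
    · intro h'
      exact absurd (Finset.mem_univ _) h'
  have hd : finrank (ZMod p) (s56b_dual M) = finrank (ZMod p) M :=
    Rep.finrank_dualTwist (ZMod p) M (cycloChar p)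
  have heul' := h.euler'.2.2
  rw [hd] at heul'
  exact s56b_gw_of_inputs (B := B) h.dual (s56b_loc S M) (s56b_loc S (s56b_dual M)) h.recip
    (h0 := finrank (ZMod p) M.ρ.invariants) (h0' := finrank (ZMod p) (s56b_dual M).ρ.invariants)
    (h2 := finrank (ZMod p) (continuousH2S S M))
    (h2' := finrank (ZMod p) (continuousH2S S (s56b_dual M)))
    (s1 := finrank (ZMod p) (sha₁ S M)) (s1' := finrank (ZMod p) (sha₁ S (s56b_dual M)))
    (s2 := finrank (ZMod p) (sha₂ S M)) (s2' := finrank (ZMod p) (sha₂ S (s56b_dual M)))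
    (d := finrank (ZMod p) M)
    (dp := finrank (ZMod p) (Rep.res archimedeanLoc M).ρ.invariants)
    (dm := finrank (ZMod p) (Rep.res archimedeanLoc (s56b_dual M)).ρ.invariants)
    (l0 := fun q => finrank (ZMod p) (s56b_Mq S M q).ρ.invariants)
    (l2 := fun q => finrank (ZMod p) (continuousH2 (primeLocalToGlobal q.1) (s56b_Mq S M q)))
    (l2' := fun q => finrank (ZMod p)
      (continuousH2 (primeLocalToGlobal q.1) (s56b_Mq S (s56b_dual M) q)))
    (e := fun q => if q.1 = pPrime p then finrank (ZMod p) M else 0)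
    (s56b_finrank_ker_loc h.shaKer) (s56b_finrank_ker_loc h.shaKer')
    h.sha h.sha' h.tail h.tail' h.euler.2.2 heul' h.arch
    (fun q => (h.locEuler q).2.2.1) (fun q => (h.locEuler q).2.2.2) he L

end Fermat.Agent.Lib.S56
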