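/-
Programme W (S56), wall [W4], brick B7 (helper4): **the unit-idele presentation of `C_S(K)`** in the
embedding model of `Lib/PT`.

For a number field `K` and a finite nonempty set `S` of rational primes:

  `1 → O_K^× → ∏_{q ∈ S} U_q(K) → C_S(K) = J_K / (Kˣ · U_{K,S}) → Cl(K) = J_K / (Kˣ · U_K) → 1`

is exact, equivariantly for every group `Γ` acting on `K`
(`U_q(K)` the local units at `q`, `U_K = J_{K,∅}` the unit ideles, `O_K^× = E_∅ = Kˣ ∩ U_K`).

* subgroup form, for arbitrary `S`, `T`: `s56b_princUT_inf_JT`, `s56b_ET_inf_UT`,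
  `s56b_JT_sup_princUT`;
* map form: `s56b_iotaS`, `s56b_toCS`, `s56b_toCl` with `s56b_iotaS_injective`,
  `s56b_range_iotaS`, `s56b_range_toCS`, `s56b_toCl_surjective` and the equivariance lemmas.
-/
import Fermat.Agent.Lib.PT.FirstE
import Fermat.Agent.Lib.PT.GPlaceClC

set_option autoImplicit false
set_option linter.unusedSectionVars false

noncomputable section

namespace Fermat.Agent.Lib.S56

open Fermat.Agent.Lib.PT

variable {K : Type*} [Field K] [NumberField K] {S T : Finset Nat.Primes}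

/-! ### Subgroup form -/

/-- `U_{K,S} ⊆ J_{K,T}` (the elements of `U_{K,S}` are units everywhere). -/
theorem s56b_UT_le_JT : ptj_UT K S ≤ ptj_JT K T := fun f hf q _ => by
  by_cases hqS : q ∈ S
  · intro σ
    rw [hf.1 q hqS]
    simp
  · exact hf.2 q hqS

/-- `E_T ⊆ J_{K,T}`. -/
theorem s56b_ET_le_JT : cfh_ET K T ≤ ptj_JT K T := inf_le_right

/-- exactness in the middle: `(Kˣ · U_{K,S}) ∩ J_{K,T} = E_T · U_{K,S}`. -/
theorem s56b_princUT_inf_JT :
    ptj_princUT K S ⊓ ptj_JT K T = cfh_ET K T ⊔ ptj_UT K S := by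
  apply le_antisymm
  · rintro f ⟨hf1, hf2⟩
    obtain ⟨x, u, hu, rfl⟩ := (ptj_mem_princUT_iff f).1 hf1
    have hx : ptj_diag K x ∈ ptj_JT K T := by
      have := (ptj_JT K T).mul_mem hf2 ((ptj_JT K T).inv_mem (s56b_UT_le_JT hu))
      rwa [mul_inv_cancel_right] at this
    exact Subgroup.mem_sup.2 ⟨_, ⟨⟨x, rfl⟩, hx⟩, u, hu, rfl⟩
  · refine sup_le ?_ ?_
    · exact fun f hf => ⟨Subgroup.mem_sup_left hf.1, hf.2⟩
    · exact fun f hf => ⟨Subgroup.mem_sup_right hf, s56b_UT_le_JT hf⟩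

/-- a principal idele which is trivial at some prime is trivial. -/
theorem s56b_eq_one_of_diag_apply_eq_one {x : Kˣ} {q : Nat.Primes}
    (h : ((ptj_diag K x : ptj_J K) : ptj_Amb K) q = 1) : x = 1 := by
  let _ : Algebra ℚ (ptj_Om q) := DivisionRing.toRatAlgebra
  let σ : K →ₐ[ℚ] ptj_Om q := IsAlgClosed.lift
  have h2 := congrArg (fun g : ptj_Emb K q → (ptj_Om q)ˣ =>
    ((g (σ : K →+* ptj_Om q) : (ptj_Om q)ˣ) : ptj_Om q)) h
  simp only [ptj_diag_coe, ptj_diagAmb_apply, Pi.one_apply, Units.val_one] at h2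
  have hx : (x : K) = 1 := (σ : K →+* ptj_Om q).injective (by rw [h2, map_one])
  exact Units.ext hx

/-- injectivity: `E_T ∩ U_{K,S} = 1` for `S ≠ ∅`. -/
theorem s56b_ET_inf_UT (hS : S.Nonempty) : cfh_ET K T ⊓ ptj_UT K S = ⊥ := by
  rw [eq_bot_iff]
  rintro f ⟨⟨⟨x, rfl⟩, -⟩, hu⟩
  obtain ⟨q, hq⟩ := hS
  rw [Subgroup.mem_bot, s56b_eq_one_of_diag_apply_eq_one (hu.1 q hq), map_one]

/-- surjectivity: `J_K = J_{K,T} · (Kˣ · U_{K,S})` for `T` large. -/
theorem s56b_JT_sup_princUT (hT : ptj_principal K ⊔ ptj_JT K T = ⊤) :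
    ptj_JT K T ⊔ ptj_princUT K S = ⊤ := by
  rw [eq_top_iff, ← hT]
  refine sup_le ?_ le_sup_left
  exact le_sup_of_le_right le_sup_left

/-! ### The local unit groups -/

variable (K) in
/-- the local units at `q`: the norm-one elements of `J_q(K)`. -/
def s56b_Uq (q : Nat.Primes) : Subgroup (ptj_Emb K q → (ptj_Om q)ˣ) where
  carrier := {f | f ∈ ptj_Jq K q ∧ ∀ σ, ‖((f σ : (ptj_Om q)ˣ) : ptj_Om q)‖ = 1}
  one_mem' := ⟨(ptj_Jq K q).one_mem, fun σ => by simp⟩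
  mul_mem' := fun {f g} hf hg => ⟨(ptj_Jq K q).mul_mem hf.1 hg.1, fun σ => by
    simp only [Pi.mul_apply, Units.val_mul, norm_mul, hf.2 σ, hg.2 σ, mul_one]⟩
  inv_mem' := fun {f} hf => ⟨(ptj_Jq K q).inv_mem hf.1, fun σ => by
    simp only [Pi.inv_apply, Units.val_inv_eq_inv_val, norm_inv, hf.2 σ, inv_one]⟩

lemma s56b_mem_Uq {q : Nat.Primes} (f : ptj_Emb K q → (ptj_Om q)ˣ) :
    f ∈ s56b_Uq K q ↔ f ∈ ptj_Jq K q ∧ ∀ σ, ‖((f σ : (ptj_Om q)ˣ) : ptj_Om q)‖ = 1 := Iff.rfl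

variable {Γ : Type*} [Group Γ] [MulSemiringAction Γ K]

/-- the action of `Γ` on the local units (precomposition). -/
instance s56b_UqAction (q : Nat.Primes) : MulDistribMulAction Γ ↥(s56b_Uq K q) where
  smul γ f := ⟨fun σ => f.1 (ptj_pre γ σ), ptj_smul_mem_Jq γ f.2.1, fun σ => f.2.2 _⟩
  one_smul f := Subtype.ext (funext fun σ => by
    show f.1 (ptj_pre (1 : Γ) σ) = f.1 σ
    rw [ptj_pre_one])
  mul_smul γ γ' f := Subtype.ext (funext fun σ => by
    show f.1 (ptj_pre (γ * γ') σ) = f.1 (ptj_pre γ' (ptj_pre γ σ))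
    rw [ptj_pre_mul])
  smul_mul γ f g := rfl
  smul_one γ := rfl

@[simp] lemma s56b_Uq_smul_apply {q : Nat.Primes} (γ : Γ) (f : ↥(s56b_Uq K q))
    (σ : ptj_Emb K q) : (γ • f : ↥(s56b_Uq K q)).1 σ = f.1 (ptj_pre γ σ) := rfl

/-! ### Stable subgroups -/

/-- the action on a stable subgroup. -/
@[reducible] def s56b_subAction {G : Type*} [Group G] [MulDistribMulAction Γ G] (H : Subgroup G)
    (hH : ∀ (γ : Γ) (x : G), x ∈ H → γ • x ∈ H) : MulDistribMulAction Γ ↥H where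
  smul γ x := ⟨γ • x.1, hH γ x.1 x.2⟩
  one_smul x := Subtype.ext (one_smul Γ x.1)
  mul_smul γ γ' x := Subtype.ext (mul_smul γ γ' x.1)
  smul_mul γ x y := Subtype.ext (smul_mul' γ x.1 y.1)
  smul_one γ := Subtype.ext (smul_one γ)

instance s56b_ETAction (T : Finset Nat.Primes) : MulDistribMulAction Γ ↥(cfh_ET K T) :=
  s56b_subAction _ fun γ _ hf => ⟨ptj_smul_mem_principal γ hf.1, ptj_smul_mem_JT γ hf.2⟩

@[simp] lemma s56b_ET_smul_coe (T : Finset Nat.Primes) (γ : Γ) (x : ↥(cfh_ET K T)) :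
    ((γ • x : ↥(cfh_ET K T)) : ptj_J K) = γ • (x : ptj_J K) := rfl

instance s56b_JTAction (T : Finset Nat.Primes) : MulDistribMulAction Γ ↥(ptj_JT K T) :=
  s56b_subAction _ fun γ _ hf => ptj_smul_mem_JT γ hf

@[simp] lemma s56b_JT_smul_coe (T : Finset Nat.Primes) (γ : Γ) (x : ↥(ptj_JT K T)) :
    ((γ • x : ↥(ptj_JT K T)) : ptj_J K) = γ • (x : ptj_J K) := rfl

variable (K) in
/-- the class group of the model: `J_K / (Kˣ · U_K)`. -/
abbrev s56b_Cl : Type _ := ptj_J K ⧸ (ptj_principal K ⊔ ptj_JT K ∅)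

instance s56b_ClAction : MulDistribMulAction Γ (s56b_Cl K) :=
  ptj_quotAction (ptj_principal K ⊔ ptj_JT K ∅) fun γ f hf => by
    obtain ⟨a, ha, b, hb, rfl⟩ := Subgroup.mem_sup.1 hf
    rw [smul_mul']
    exact Subgroup.mem_sup.2 ⟨γ • a, ptj_smul_mem_principal γ ha, γ • b, ptj_smul_mem_JT γ hb, rfl⟩

@[simp] lemma s56b_Cl_smul_mk (γ : Γ) (f : ptj_J K) :
    γ • (QuotientGroup.mk f : s56b_Cl K) = QuotientGroup.mk (γ • f) := rfl

/-! ### The maps -/

open scoped Classical in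
variable (K S) in
/-- extension by `1` outside `S` (ambient form). -/
def s56b_extAmb (u : ∀ q : ↥S, ↥(s56b_Uq K q.1)) : ptj_Amb K := fun q =>
  if h : q ∈ S then (u ⟨q, h⟩).1 else 1

lemma s56b_extAmb_of_mem (u : ∀ q : ↥S, ↥(s56b_Uq K q.1)) {q : Nat.Primes} (h : q ∈ S) :
    s56b_extAmb K S u q = (u ⟨q, h⟩).1 := by
  classical
  rw [s56b_extAmb, dif_pos h]

lemma s56b_extAmb_of_not_mem (u : ∀ q : ↥S, ↥(s56b_Uq K q.1)) {q : Nat.Primes} (h : q ∉ S) :
    s56b_extAmb K S u q = 1 := by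
  classical
  rw [s56b_extAmb, dif_neg h]

lemma s56b_extAmb_isUnitAt (u : ∀ q : ↥S, ↥(s56b_Uq K q.1)) (q : Nat.Primes) :
    ptj_IsUnitAt (s56b_extAmb K S u) q := fun σ => by
  by_cases h : q ∈ S
  · rw [s56b_extAmb_of_mem u h]
    exact (u ⟨q, h⟩).2.2 σ
  · rw [s56b_extAmb_of_not_mem u h]
    simp

lemma s56b_extAmb_mem_J (u : ∀ q : ↥S, ↥(s56b_Uq K q.1)) : s56b_extAmb K S u ∈ ptj_J K := by
  refine ⟨fun q => ?_, Filter.Eventually.of_forall (s56b_extAmb_isUnitAt u)⟩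
  by_cases h : q ∈ S
  · rw [s56b_extAmb_of_mem u h]
    exact (u ⟨q, h⟩).2.1
  · rw [s56b_extAmb_of_not_mem u h]
    exact (ptj_Jq K q).one_mem

variable (K S) in
/-- extension by `1` outside `S`: `∏_{q ∈ S} U_q → U_K ⊆ J_K`. -/
def s56b_ext : (∀ q : ↥S, ↥(s56b_Uq K q.1)) →* ptj_J K where
  toFun u := ⟨s56b_extAmb K S u, s56b_extAmb_mem_J u⟩
  map_one' := Subtype.ext (funext fun q => by
    show s56b_extAmb K S 1 q = 1
    by_cases h : q ∈ S
    · rw [s56b_extAmb_of_mem _ h]; rfl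
    · rw [s56b_extAmb_of_not_mem _ h])
  map_mul' u v := Subtype.ext (funext fun q => by
    show s56b_extAmb K S (u * v) q = s56b_extAmb K S u q * s56b_extAmb K S v q
    by_cases h : q ∈ S
    · rw [s56b_extAmb_of_mem _ h, s56b_extAmb_of_mem _ h, s56b_extAmb_of_mem _ h]; rfl
    · rw [s56b_extAmb_of_not_mem _ h, s56b_extAmb_of_not_mem _ h, s56b_extAmb_of_not_mem _ h,
        one_mul])

lemma s56b_ext_coe (u : ∀ q : ↥S, ↥(s56b_Uq K q.1)) :
    ((s56b_ext K S u : ptj_J K) : ptj_Amb K) = s56b_extAmb K S u := rfl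

lemma s56b_ext_mem_JT (u : ∀ q : ↥S, ↥(s56b_Uq K q.1)) : s56b_ext K S u ∈ ptj_JT K T :=
  fun q _ => s56b_extAmb_isUnitAt u q

lemma s56b_ext_smul (γ : Γ) (u : ∀ q : ↥S, ↥(s56b_Uq K q.1)) :
    s56b_ext K S (γ • u) = γ • s56b_ext K S u := by
  apply Subtype.ext
  funext q σ
  show s56b_extAmb K S (γ • u) q σ = s56b_extAmb K S u q (ptj_pre γ σ)
  by_cases h : q ∈ S
  · rw [s56b_extAmb_of_mem _ h, s56b_extAmb_of_mem _ h]; rfl
  · rw [s56b_extAmb_of_not_mem _ h, s56b_extAmb_of_not_mem _ h]; rfl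

variable (K S) in
/-- the components at `S` of a unit idele. -/
def s56b_compS : ↥(ptj_JT K ∅) →* ∀ q : ↥S, ↥(s56b_Uq K q.1) where
  toFun f q := ⟨(f.1 : ptj_Amb K) q.1, f.1.2.1 q.1, f.2 q.1 (Finset.notMem_empty _)⟩
  map_one' := rfl
  map_mul' _ _ := rfl

lemma s56b_compS_smul (γ : Γ) (f : ↥(ptj_JT K ∅)) :
    s56b_compS K S (γ • f) = γ • s56b_compS K S f := rfl

lemma s56b_compS_ext (u : ∀ q : ↥S, ↥(s56b_Uq K q.1)) :
    s56b_compS K S ⟨s56b_ext K S u, s56b_ext_mem_JT u⟩ = u := by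
  funext q
  apply Subtype.ext
  show s56b_extAmb K S u q.1 = (u q).1
  rw [s56b_extAmb_of_mem u q.2]

/-- a unit idele differs from the extension of its `S`-components by an element of `U_{K,S}`. -/
lemma s56b_div_ext_mem_UT (f : ↥(ptj_JT K ∅)) :
    (f : ptj_J K) / s56b_ext K S (s56b_compS K S f) ∈ ptj_UT K S := by
  refine ⟨fun q hq => ?_, fun q hq σ => ?_⟩
  · show (f.1 : ptj_Amb K) q / s56b_extAmb K S (s56b_compS K S f) q = 1
    rw [s56b_extAmb_of_mem _ hq]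
    exact div_self' _
  · have h1 : (((f : ptj_J K) / s56b_ext K S (s56b_compS K S f) : ptj_J K) : ptj_Amb K) q σ
        = (f.1 : ptj_Amb K) q σ := by
      show (f.1 : ptj_Amb K) q σ / s56b_extAmb K S (s56b_compS K S f) q σ = _
      rw [s56b_extAmb_of_not_mem _ hq]
      simp
    rw [h1]
    exact f.2 q (Finset.notMem_empty _) σ

variable (K S) in
/-- `∏_{q ∈ S} U_q → C_S(K)`. -/
def s56b_toCS : (∀ q : ↥S, ↥(s56b_Uq K q.1)) →* ptj_CT K S :=
  (QuotientGroup.mk' (ptj_princUT K S)).comp (s56b_ext K S)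

lemma s56b_toCS_smul (γ : Γ) (u : ∀ q : ↥S, ↥(s56b_Uq K q.1)) :
    s56b_toCS K S (γ • u) = γ • s56b_toCS K S u := by
  show (QuotientGroup.mk (s56b_ext K S (γ • u)) : ptj_CT K S) = γ • QuotientGroup.mk _
  rw [s56b_ext_smul, ptj_CT_smul_mk]

variable (K S) in
/-- the global units inside `∏_{q ∈ S} U_q`. -/
def s56b_iotaS : ↥(cfh_ET K ∅) →* ∀ q : ↥S, ↥(s56b_Uq K q.1) :=
  (s56b_compS K S).comp (Subgroup.inclusion s56b_ET_le_JT)

lemma s56b_iotaS_smul (γ : Γ) (x : ↥(cfh_ET K ∅)) :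
    s56b_iotaS K S (γ • x) = γ • s56b_iotaS K S x := rfl

theorem s56b_iotaS_injective (hS : S.Nonempty) : Function.Injective (s56b_iotaS K S) := by
  rw [injective_iff_map_eq_one]
  rintro ⟨f, ⟨x, rfl⟩, hx2⟩ h
  obtain ⟨q, hq⟩ := hS
  have h1 := congrArg (fun u : ∀ q : ↥S, ↥(s56b_Uq K q.1) => (u ⟨q, hq⟩).1) h
  have h2 : ((ptj_diag K x : ptj_J K) : ptj_Amb K) q = 1 := h1
  apply Subtype.ext
  show ptj_diag K x = 1
  rw [s56b_eq_one_of_diag_apply_eq_one h2, map_one]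

/-- exactness at `∏_{q ∈ S} U_q`. -/
theorem s56b_range_iotaS : (s56b_iotaS K S).range = (s56b_toCS K S).ker := by
  ext u
  rw [MonoidHom.mem_ker]
  constructor
  · rintro ⟨x, rfl⟩
    show (QuotientGroup.mk (s56b_ext K S (s56b_iotaS K S x)) : ptj_CT K S) = 1
    rw [QuotientGroup.eq_one_iff]
    have h1 := s56b_div_ext_mem_UT (S := S) (Subgroup.inclusion s56b_ET_le_JT x)
    have h2 : s56b_ext K S (s56b_iotaS K S x)
        = (x : ptj_J K) * ((x : ptj_J K) / s56b_ext K S (s56b_iotaS K S x))⁻¹ := by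
      rw [inv_div, mul_div_cancel]
    rw [h2]
    exact Subgroup.mem_sup.2 ⟨_, x.2.1, _, (ptj_UT K S).inv_mem h1, rfl⟩
  · intro h
    have h' : s56b_ext K S u ∈ ptj_princUT K S := (QuotientGroup.eq_one_iff _).1 h
    obtain ⟨x, v, hv, hxv⟩ := (ptj_mem_princUT_iff _).1 h'
    have hx : ptj_diag K x ∈ ptj_JT K ∅ := by
      have h3 : ptj_diag K x = s56b_ext K S u * v⁻¹ := by rw [hxv, mul_inv_cancel_right]
      rw [h3]
      exact (ptj_JT K ∅).mul_mem (s56b_ext_mem_JT u) ((ptj_JT K ∅).inv_mem (s56b_UT_le_JT hv))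
    refine ⟨⟨ptj_diag K x, ⟨x, rfl⟩, hx⟩, ?_⟩
    funext q
    apply Subtype.ext
    show ((ptj_diag K x : ptj_J K) : ptj_Amb K) q.1 = (u q).1
    have h4 : ((s56b_ext K S u : ptj_J K) : ptj_Amb K) q.1
        = ((ptj_diag K x * v : ptj_J K) : ptj_Amb K) q.1 :=
      congrArg (fun f : ptj_J K => (f : ptj_Amb K) q.1) hxv
    rw [s56b_ext_coe, s56b_extAmb_of_mem u q.2] at h4
    rw [h4]
    show _ = ((ptj_diag K x : ptj_J K) : ptj_Amb K) q.1 * (v : ptj_Amb K) q.1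
    rw [hv.1 q.1 q.2, mul_one]

lemma s56b_princUT_le : ptj_princUT K S ≤ ptj_principal K ⊔ ptj_JT K ∅ :=
  sup_le le_sup_left (le_sup_of_le_right s56b_UT_le_JT)

variable (K S) in
/-- `C_S(K) → Cl(K)`. -/
def s56b_toCl : ptj_CT K S →* s56b_Cl K :=
  QuotientGroup.map _ _ (MonoidHom.id (ptj_J K)) s56b_princUT_le

@[simp] lemma s56b_toCl_mk (f : ptj_J K) :
    s56b_toCl K S (QuotientGroup.mk f) = (QuotientGroup.mk f : s56b_Cl K) := rfl

theorem s56b_toCl_surjective : Function.Surjective (s56b_toCl K S) := by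
  intro c
  induction c using QuotientGroup.induction_on with
  | H f => exact ⟨QuotientGroup.mk f, rfl⟩

lemma s56b_toCl_smul (γ : Γ) (c : ptj_CT K S) :
    s56b_toCl K S (γ • c) = γ • s56b_toCl K S c := by
  induction c using QuotientGroup.induction_on with
  | H f => rfl

/-- exactness at `C_S(K)`. -/
theorem s56b_range_toCS : (s56b_toCS K S).range = (s56b_toCl K S).ker := by
  ext c
  rw [MonoidHom.mem_ker]
  constructor
  · rintro ⟨u, rfl⟩
    show (QuotientGroup.mk (s56b_ext K S u) : s56b_Cl K) = 1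
    rw [QuotientGroup.eq_one_iff]
    exact Subgroup.mem_sup_right (s56b_ext_mem_JT u)
  · induction c using QuotientGroup.induction_on with
    | H f =>
      intro h
      have h' : f ∈ ptj_principal K ⊔ ptj_JT K ∅ := (QuotientGroup.eq_one_iff _).1 h
      obtain ⟨a, ha, w, hw, rfl⟩ := Subgroup.mem_sup.1 h'
      refine ⟨s56b_compS K S ⟨w, hw⟩, ?_⟩
      show (QuotientGroup.mk (s56b_ext K S (s56b_compS K S ⟨w, hw⟩)) : ptj_CT K S)
        = QuotientGroup.mk (a * w)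
      rw [QuotientGroup.eq]
      have h1 := s56b_div_ext_mem_UT (S := S) ⟨w, hw⟩
      have h2 : (s56b_ext K S (s56b_compS K S ⟨w, hw⟩))⁻¹ * (a * w)
          = a * (w / s56b_ext K S (s56b_compS K S ⟨w, hw⟩)) := by
        rw [div_eq_mul_inv]
        exact (mul_left_comm _ _ _).trans (by rw [mul_comm _ w])
      rw [h2]
      exact Subgroup.mem_sup.2 ⟨a, ha, _, h1, rfl⟩

end Fermat.Agent.Lib.S56
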