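/-
PROGRAMME W (S56), wall [W4], brick (E3) "modular Artin induction" — linear algebra preliminaries
(helper1, prefix `s56d_`):
* `s56d_charpoly_eq_mul`: the characteristic polynomial is multiplicative along an invariant subspace;
* `s56d_charpoly_add_nilpotent`: adding a commuting nilpotent endomorphism does not change it.
-/
import Mathlib

set_option autoImplicit false

noncomputable section

namespace Fermat.Agent.Lib.S56

open Module Polynomial

section Mul

variable {R V : Type*} [CommRing R] [AddCommGroup V] [Module R V] [Module.Finite R V]
  (W : Submodule R V) [Module.Free R W] [Module.Finite R W] [Module.Free R (V ⧸ W)]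
  [Module.Free R V]

open Module.Basis in
/-- The characteristic polynomial of an endomorphism preserving `W` is the product of the characteristic
polynomials on `W` and on `V ⧸ W`. -/
theorem s56d_charpoly_eq_mul (e : V →ₗ[R] V) (he : W ≤ W.comap e) :
    e.charpoly = (e.restrict he).charpoly * (W.mapQ W e he).charpoly := by
  let m := Module.Free.ChooseBasisIndex R W
  let bW : Basis m R W := Module.Free.chooseBasis R W
  let n := Module.Free.ChooseBasisIndex R (V ⧸ W)
  let bQ : Basis n R (V ⧸ W) := Module.Free.chooseBasis R (V ⧸ W)
  let b := sumQuot bW bQ
  let A : Matrix m m R := LinearMap.toMatrix bW bW (e.restrict he)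
  let B : Matrix m n R := Matrix.of fun i l ↦
    ((sumQuot bW bQ).repr (e ((sumQuot bW bQ) (Sum.inr l)))) (Sum.inl i)
  let D : Matrix n n R := LinearMap.toMatrix bQ bQ (W.mapQ W e he)
  suffices LinearMap.toMatrix b b e = Matrix.fromBlocks A B 0 D by
    rw [← LinearMap.charpoly_toMatrix e b, this, Matrix.charpoly_fromBlocks_zero₂₁,
      LinearMap.charpoly_toMatrix, LinearMap.charpoly_toMatrix]
  ext u v
  cases u with
  | inl i =>
    cases v with
    | inl k =>
      simp only [b, sumQuot_inl, Matrix.fromBlocks_apply₁₁, A, LinearMap.toMatrix_apply]
      apply sumQuot_repr_inl_of_mem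
    | inr l => simp [b, LinearMap.toMatrix_apply, Matrix.fromBlocks_apply₁₂, B]
  | inr j =>
    cases v with
    | inl k =>
      suffices W.mkQ (e (bW k)) = 0 by simp [LinearMap.toMatrix_apply, b, this]
      rw [← LinearMap.mem_ker, Submodule.ker_mkQ]
      exact he (Submodule.coe_mem (bW k))
    | inr l =>
      simp only [LinearMap.toMatrix_apply, sumQuot_repr_inr,
        Matrix.fromBlocks_apply₂₂, b, D]
      rw [← sumQuot_inr bW bQ l, W.mapQ_apply]
      simp

end Mul

section Nilpotent

universe u

variable (K : Type*) [Field K]

private theorem s56d_charpoly_add_nilpotent_aux : ∀ (d : ℕ) (V : Type u) [AddCommGroup V] [Module K V]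
    [FiniteDimensional K V], finrank K V = d → ∀ f n : Module.End K V, Commute f n → IsNilpotent n →
      (f + n).charpoly = f.charpoly := by
  intro d
  induction d using Nat.strong_induction_on with
  | _ d ih =>
    intro V _ _ _ hd f n hc hn
    by_cases hV : Subsingleton V
    · have : Subsingleton (Module.End K V) := ⟨fun a b => LinearMap.ext fun x => Subsingleton.elim _ _⟩
      rw [Subsingleton.elim (f + n) f]
    · rw [not_subsingleton_iff_nontrivial] at hV
      set W : Submodule K V := LinearMap.ker n with hW
      have hWne : W ≠ ⊥ := by
        intro h0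
        obtain ⟨r, hr⟩ := hn
        have hinj : Function.Injective n := LinearMap.ker_eq_bot.mp h0
        have hinj' : Function.Injective ⇑(n ^ r) := by
          rw [Module.End.coe_pow]; exact hinj.iterate r
        obtain ⟨x, hx⟩ := exists_ne (0 : V)
        apply hx
        apply hinj'
        rw [hr]; simp
      have hcomm : ∀ x, n (f x) = f (n x) := fun x => by
        have := congrArg (fun g : Module.End K V => g x) hc.eq
        simpa [Module.End.mul_apply] using this.symm
      have he_f : W ≤ W.comap f := fun x hx => by
        rw [Submodule.mem_comap, hW, LinearMap.mem_ker, hcomm, LinearMap.mem_ker.mp hx, map_zero]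
      have he_n : W ≤ W.comap n := fun x hx => by
        rw [Submodule.mem_comap, hW, LinearMap.mem_ker, LinearMap.mem_ker.mp hx, map_zero]
      have he : W ≤ W.comap (f + n) := fun x hx => by
        rw [Submodule.mem_comap, LinearMap.add_apply]
        exact W.add_mem (he_f hx) (he_n hx)
      have hres : LinearMap.restrict (p := W) (q := W) (f + n) he = LinearMap.restrict (p := W) (q := W) f he_f := by
        ext x
        simp only [LinearMap.restrict_coe_apply, LinearMap.add_apply]
        rw [LinearMap.mem_ker.mp x.2, add_zero]
      have hq : W.mapQ W (f + n) he = W.mapQ W f he_f + W.mapQ W n he_n := by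
        apply Submodule.linearMap_qext
        ext x
        simp
      have hcq : Commute (W.mapQ W f he_f) (W.mapQ W n he_n) := by
        change _ * _ = _ * _
        apply Submodule.linearMap_qext
        ext x
        simp [Module.End.mul_apply, hcomm]
      have hnq : IsNilpotent (W.mapQ W n he_n) := by
        obtain ⟨r, hr⟩ := hn
        refine ⟨r, ?_⟩
        rw [← Submodule.mapQ_pow W he_n r]
        apply Submodule.linearMap_qext
        ext x
        simp [hr]
      have hlt : finrank K (V ⧸ W) < d := by
        have h1 := W.finrank_quotient_add_finrank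
        have h2 : 0 < finrank K W := by
          rw [Module.finrank_pos_iff]
          exact (Submodule.nontrivial_iff_ne_bot).mpr hWne
        omega
      rw [s56d_charpoly_eq_mul W (f + n) he, s56d_charpoly_eq_mul W f he_f, hres, hq,
        ih _ hlt (V ⧸ W) rfl _ _ hcq hnq]

/-- Adding a commuting nilpotent endomorphism does not change the characteristic polynomial. -/
theorem s56d_charpoly_add_nilpotent {V : Type*} [AddCommGroup V] [Module K V] [FiniteDimensional K V]
    (f n : Module.End K V) (hc : Commute f n) (hn : IsNilpotent n) :
    (f + n).charpoly = f.charpoly :=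
  s56d_charpoly_add_nilpotent_aux K _ V rfl f n hc hn

end Nilpotent

end Fermat.Agent.Lib.S56
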