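/-
PROGRAMME W (S56), wall [W4], brick (E3) "modular Artin induction" (helper1, prefix `s56d_`):
additive invariants of finite representations, unbundled.

* `s56d_RepIso M N`: isomorphism of representations (an equivariant linear equivalence exists);
* `s56d_AddInv φ`: `φ : Rep k G → ℤ` is isomorphism invariant and additive along invariant submodules
  of finite representations; `s56d_addInv_of_cat` derives it from the categorical hypotheses of the
  contract `s56d_ModularArtin`;
* `s56d_cp M a`: the characteristic polynomial of `a : k[G]` on `M`, multiplicative along invariant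
  submodules (`s56d_cp_eq_mul`) and isomorphism invariant (`s56d_cp_congr`);
* `s56d_Simple M`, existence of simple subrepresentations, and the Jordan–Hölder multiplicities
  `s56d_exists_mult`.
-/
import Mathlib
import Fermat.Agent.Lib.S56.DLinAlg

set_option autoImplicit false

noncomputable section

namespace Fermat.Agent.Lib.S56

open CategoryTheory Polynomial

variable {k : Type} [Field k] {G : Type} [Group G]

/-- isomorphism of representations, unbundled. -/
def s56d_RepIso (M N : Rep.{0, 0, 0} k G) : Prop :=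
  ∃ e : M.V ≃ₗ[k] N.V, ∀ g x, e (M.ρ g x) = N.ρ g (e x)

theorem s56d_RepIso.refl (M : Rep.{0, 0, 0} k G) : s56d_RepIso M M :=
  ⟨LinearEquiv.refl k _, fun _ _ => rfl⟩

theorem s56d_RepIso.symm {M N : Rep.{0, 0, 0} k G} (h : s56d_RepIso M N) : s56d_RepIso N M := by
  obtain ⟨e, he⟩ := h
  refine ⟨e.symm, fun g x => ?_⟩
  apply e.injective
  rw [he, e.apply_symm_apply, e.apply_symm_apply]

theorem s56d_RepIso.trans {M N P : Rep.{0, 0, 0} k G} (h : s56d_RepIso M N) (h' : s56d_RepIso N P) :
    s56d_RepIso M P := by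
  obtain ⟨e, he⟩ := h
  obtain ⟨e', he'⟩ := h'
  exact ⟨e.trans e', fun g x => by simp [he, he']⟩

/-- an unbundled isomorphism gives a categorical one. -/
theorem s56d_RepIso.nonempty_iso {M N : Rep.{0, 0, 0} k G} (h : s56d_RepIso M N) :
    Nonempty (M ≅ N) := by
  obtain ⟨e, he⟩ := h
  exact ⟨Rep.mkIso (Representation.Equiv.mk e (fun g => LinearMap.ext fun x => he g x))⟩

theorem s56d_RepIso.of_iso {M N : Rep.{0, 0, 0} k G} (i : M ≅ N) : s56d_RepIso M N := by
  let e := Representation.equivOfIso i
  refine ⟨e.toLinearEquiv, fun g x => ?_⟩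
  have := e.toIntertwiningMap.isIntertwining' g
  exact congrArg (fun f : M.V →ₗ[k] N.V => f x) this

/-- equivariant linear maps commute with the action of the group algebra. -/
theorem s56d_asAlgebraHom_comm {M N : Rep.{0, 0, 0} k G} (f : M.V →ₗ[k] N.V)
    (hf : ∀ g x, f (M.ρ g x) = N.ρ g (f x)) (a : MonoidAlgebra k G) (x : M.V) :
    f (M.ρ.asAlgebraHom a x) = N.ρ.asAlgebraHom a (f x) := by
  induction a using MonoidAlgebra.induction_on with
  | of g => simp [Representation.asAlgebraHom_of, hf]
  | add a b ha hb => simp [map_add, ha, hb]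
  | smul r a ha => simp [map_smul, ha]

/-- **additive invariants** (unbundled form). -/
structure s56d_AddInv (φ : Rep.{0, 0, 0} k G → ℤ) : Prop where
  iso : ∀ M N : Rep.{0, 0, 0} k G, s56d_RepIso M N → φ M = φ N
  add : ∀ (M : Rep.{0, 0, 0} k G), Finite M.V → ∀ (W : Submodule k M.V)
    (hW : ∀ g, W ≤ W.comap (M.ρ g)),
    φ M = φ (M.subrepresentation W hW) + φ (M.quotient W hW)

theorem s56d_shortExact_sub_quot (M : Rep.{0, 0, 0} k G) (W : Submodule k M.V)
    (hW : ∀ g, W ≤ W.comap (M.ρ g)) :
    (ShortComplex.mk (M.subtype W hW) (M.mkQ W hW) (by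
      ext x
      simp)).ShortExact := by
  have hmono : Mono (M.subtype W hW) := by
    rw [Rep.mono_iff_injective]
    exact W.injective_subtype
  have hepi : Epi (M.mkQ W hW) := by
    rw [Rep.epi_iff_surjective]
    exact W.mkQ_surjective
  refine ShortComplex.ShortExact.mk' ?_ hmono hepi
  rw [← ShortComplex.exact_map_iff_of_faithful _ (forget₂ (Rep.{0, 0, 0} k G) (ModuleCat.{0} k))]
  rw [ShortComplex.moduleCat_exact_iff]
  have key : ∀ y : M.V, W.mkQ y = 0 → ∃ w : W, W.subtype w = y := by
    intro y hy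
    rw [← LinearMap.mem_ker, Submodule.ker_mkQ] at hy
    exact ⟨⟨y, hy⟩, rfl⟩
  intro x hx
  exact key x hx

/-- the categorical hypotheses of `s56d_ModularArtin` give an additive invariant. -/
theorem s56d_addInv_of_cat [Finite k] (φ : Rep.{0, 0, 0} k G → ℤ)
    (hiso : ∀ M N : Rep.{0, 0, 0} k G, Nonempty (M ≅ N) → φ M = φ N)
    (hadd : ∀ X : ShortComplex (Rep.{0, 0, 0} k G), X.ShortExact → FiniteDimensional k X.X₂ →
      φ X.X₂ = φ X.X₁ + φ X.X₃) : s56d_AddInv φ where
  iso M N h := hiso M N h.nonempty_iso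
  add M hM W hW := by
    have : Finite M.V := hM
    exact hadd _ (s56d_shortExact_sub_quot M W hW) (Module.Finite.of_finite)

theorem s56d_AddInv.zero {φ : Rep.{0, 0, 0} k G → ℤ} (h : s56d_AddInv φ) (M : Rep.{0, 0, 0} k G)
    (hM : Subsingleton M.V) : φ M = 0 := by
  have hfin : Finite M.V := Finite.of_subsingleton
  have hW : ∀ g, (⊥ : Submodule k M.V) ≤ (⊥ : Submodule k M.V).comap (M.ρ g) := fun g x hx => by
    rw [Submodule.mem_bot] at hx
    simp [hx]
  have h1 := h.add M hfin ⊥ hW
  have h2 : φ (M.subrepresentation ⊥ hW) = φ M := by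
    apply h.iso
    refine ⟨⟨⟨⟨fun x => x.1, fun _ _ => rfl⟩, fun _ _ => rfl⟩, fun _ => 0,
      fun x => Subsingleton.elim _ _, fun x => Subsingleton.elim _ _⟩, fun g x => ?_⟩
    exact Subsingleton.elim _ _
  have h3 : φ (M.quotient ⊥ hW) = φ M := by
    apply h.iso
    have : Subsingleton (M.quotient ⊥ hW).V := by
      change Subsingleton (M.V ⧸ (⊥ : Submodule k M.V))
      infer_instance
    refine ⟨⟨⟨⟨fun _ => 0, fun _ _ => Subsingleton.elim _ _⟩, fun _ _ => Subsingleton.elim _ _⟩,
      fun _ => 0, fun x => Subsingleton.elim _ _, fun x => Subsingleton.elim _ _⟩, fun g x => ?_⟩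
    exact Subsingleton.elim _ _
  rw [h2, h3] at h1
  omega

/-! ### characteristic polynomials -/

/-- the characteristic polynomial of `a : k[G]` acting on `M`. -/
def s56d_cp (M : Rep.{0, 0, 0} k G) [Module.Finite k M.V] (a : MonoidAlgebra k G) : k[X] :=
  (M.ρ.asAlgebraHom a).charpoly

theorem s56d_cp_monic (M : Rep.{0, 0, 0} k G) [Module.Finite k M.V] (a : MonoidAlgebra k G) :
    (s56d_cp M a).Monic := LinearMap.charpoly_monic _

theorem s56d_cp_congr {M N : Rep.{0, 0, 0} k G} [Module.Finite k M.V] [Module.Finite k N.V]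
    (h : s56d_RepIso M N) (a : MonoidAlgebra k G) : s56d_cp M a = s56d_cp N a := by
  obtain ⟨e, he⟩ := h
  unfold s56d_cp
  rw [← LinearEquiv.charpoly_conj e (M.ρ.asAlgebraHom a)]
  congr 1
  ext x
  rw [LinearEquiv.conj_apply_apply]
  have := s56d_asAlgebraHom_comm e.toLinearMap he a (e.symm x)
  simpa using this

theorem s56d_cp_of_subsingleton (M : Rep.{0, 0, 0} k G) [Module.Finite k M.V] (hM : Subsingleton M.V)
    (a : MonoidAlgebra k G) : s56d_cp M a = 1 := by
  have h1 : (s56d_cp M a).natDegree = 0 := by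
    unfold s56d_cp
    rw [LinearMap.charpoly_natDegree, Module.finrank_zero_of_subsingleton]
  exact (s56d_cp_monic M a).natDegree_eq_zero.mp h1

theorem s56d_asAlgebraHom_le_comap (M : Rep.{0, 0, 0} k G) (W : Submodule k M.V)
    (hW : ∀ g, W ≤ W.comap (M.ρ g)) (a : MonoidAlgebra k G) :
    W ≤ W.comap (M.ρ.asAlgebraHom a) := fun v hv =>
  M.ρ.asAlgebraHom_mem_of_forall_mem W (fun g v hv => hW g hv) v hv a

instance s56d_finite_sub (M : Rep.{0, 0, 0} k G) [Module.Finite k M.V] (W : Submodule k M.V)
    (hW : ∀ g, W ≤ W.comap (M.ρ g)) : Module.Finite k (M.subrepresentation W hW).V :=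
  inferInstanceAs (Module.Finite k W)

instance s56d_finite_quot (M : Rep.{0, 0, 0} k G) [Module.Finite k M.V] (W : Submodule k M.V)
    (hW : ∀ g, W ≤ W.comap (M.ρ g)) : Module.Finite k (M.quotient W hW).V :=
  inferInstanceAs (Module.Finite k (M.V ⧸ W))

theorem s56d_cp_eq_mul (M : Rep.{0, 0, 0} k G) [Module.Finite k M.V] (W : Submodule k M.V)
    (hW : ∀ g, W ≤ W.comap (M.ρ g)) (a : MonoidAlgebra k G) :
    s56d_cp M a = s56d_cp (M.subrepresentation W hW) a * s56d_cp (M.quotient W hW) a := by
  have he := s56d_asAlgebraHom_le_comap M W hW a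
  have h1 : (M.subrepresentation W hW).ρ.asAlgebraHom a
      = LinearMap.restrict (p := W) (q := W) (M.ρ.asAlgebraHom a) he := by
    ext x
    have := s56d_asAlgebraHom_comm (M := M.subrepresentation W hW) (N := M) W.subtype
      (fun g x => rfl) a x
    simpa using this
  have h2 : (M.quotient W hW).ρ.asAlgebraHom a = W.mapQ W (M.ρ.asAlgebraHom a) he := by
    apply Submodule.linearMap_qext
    ext x
    have := s56d_asAlgebraHom_comm (M := M) (N := M.quotient W hW) W.mkQ
      (fun g x => rfl) a x
    simpa using this.symm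
  unfold s56d_cp
  rw [h1, h2]
  exact s56d_charpoly_eq_mul W (M.ρ.asAlgebraHom a) he

/-! ### simple representations -/

/-- simple (irreducible) representations, unbundled. -/
def s56d_Simple (M : Rep.{0, 0, 0} k G) : Prop :=
  Nontrivial M.V ∧ ∀ W : Submodule k M.V, (∀ g, W ≤ W.comap (M.ρ g)) → W = ⊥ ∨ W = ⊤

theorem s56d_Simple.of_iso {M N : Rep.{0, 0, 0} k G} (h : s56d_RepIso M N) (hM : s56d_Simple M) :
    s56d_Simple N := by
  obtain ⟨e, he⟩ := h
  obtain ⟨hnt, hM⟩ := hM
  refine ⟨e.toEquiv.symm.nontrivial, fun W hW => ?_⟩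
  · have hW' : ∀ g, W.comap e.toLinearMap ≤ (W.comap e.toLinearMap).comap (M.ρ g) := fun g x hx => by
      rw [Submodule.mem_comap, Submodule.mem_comap, LinearEquiv.coe_coe, he]
      exact hW g hx
    rcases hM _ hW' with h0 | h1
    · left
      rw [eq_bot_iff]
      intro y hy
      have : e.symm y ∈ W.comap e.toLinearMap := by
        rw [Submodule.mem_comap, LinearEquiv.coe_coe, e.apply_symm_apply]; exact hy
      rw [h0, Submodule.mem_bot] at this
      rw [Submodule.mem_bot, ← e.apply_symm_apply y, this, map_zero]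
    · right
      rw [eq_top_iff]
      intro y _
      have : e.symm y ∈ W.comap e.toLinearMap := by rw [h1]; trivial
      rw [Submodule.mem_comap, LinearEquiv.coe_coe, e.apply_symm_apply] at this
      exact this

/-- a nontrivial finite representation contains a simple subrepresentation. -/
theorem s56d_exists_simple_sub (M : Rep.{0, 0, 0} k G) [Finite M.V] [Nontrivial M.V] :
    ∃ (W : Submodule k M.V) (hW : ∀ g, W ≤ W.comap (M.ρ g)), W ≠ ⊥ ∧
      s56d_Simple (M.subrepresentation W hW) := by
  classical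
  let P : ℕ → Prop := fun n => ∃ W : Submodule k M.V, (∀ g, W ≤ W.comap (M.ρ g)) ∧ W ≠ ⊥ ∧
    Nat.card W = n
  have hP : ∃ n, P n := ⟨_, ⊤, fun g => le_top, top_ne_bot, rfl⟩
  obtain ⟨W, hW, hne, hcard⟩ := Nat.find_spec hP
  refine ⟨W, hW, hne, ?_, fun W' hW' => ?_⟩
  · exact (Submodule.nontrivial_iff_ne_bot).mpr hne
  · by_cases h0 : W' = ⊥
    · exact Or.inl h0
    · right
      set W'' : Submodule k M.V := W'.map W.subtype with hW''
      have hle : W'' ≤ W := by
        rintro _ ⟨y, -, rfl⟩
        exact y.2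
      have hinv : ∀ g, W'' ≤ W''.comap (M.ρ g) := by
        rintro g _ ⟨y, hy, rfl⟩
        exact ⟨_, hW' g hy, rfl⟩
      have hne'' : W'' ≠ ⊥ := by
        intro h
        apply h0
        rw [eq_bot_iff]
        intro y hy
        have : (y : M.V) ∈ W'' := ⟨y, hy, rfl⟩
        rw [h, Submodule.mem_bot] at this
        rw [Submodule.mem_bot]
        exact Subtype.ext this
      have hmin : Nat.find hP ≤ Nat.card W'' := Nat.find_min' hP ⟨W'', hinv, hne'', rfl⟩
      have heq : W'' = W := by
        have hfin : (W : Set M.V).Finite := Set.toFinite _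
        have hsub : (W'' : Set M.V) ⊆ (W : Set M.V) := hle
        have hc : (W : Set M.V).ncard ≤ (W'' : Set M.V).ncard := by
          have h1 : (W : Set M.V).ncard = Nat.card W := rfl
          have h2 : (W'' : Set M.V).ncard = Nat.card W'' := rfl
          rw [h1, h2, hcard]
          exact hmin
        exact SetLike.coe_injective (Set.eq_of_subset_of_ncard_le hsub hc hfin)
      rw [eq_top_iff]
      intro y _
      have hy : (y : M.V) ∈ W'' := by rw [heq]; exact y.2
      obtain ⟨z, hz, hzy⟩ := hy
      have : z = y := Subtype.ext hzy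
      rwa [← this]

/-! ### Jordan–Hölder multiplicities -/

instance s56d_finite_quot' (M : Rep.{0, 0, 0} k G) [Finite M.V] (W : Submodule k M.V)
    (hW : ∀ g, W ≤ W.comap (M.ρ g)) : Finite (M.quotient W hW).V :=
  Finite.of_surjective W.mkQ W.mkQ_surjective

instance s56d_finite_sub' (M : Rep.{0, 0, 0} k G) [Finite M.V] (W : Submodule k M.V)
    (hW : ∀ g, W ≤ W.comap (M.ρ g)) : Finite (M.subrepresentation W hW).V :=
  inferInstanceAs (Finite W)

/-- **Jordan–Hölder**: every finite representation has a multiplicity vector with respect to an exhaustive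
family of simple representations, computing all additive invariants and all characteristic polynomials. -/
theorem s56d_exists_mult {I : Type} [Fintype I] (S : I → Rep.{0, 0, 0} k G) [∀ i, Finite (S i).V]
    (hex : ∀ N : Rep.{0, 0, 0} k G, Finite N.V → s56d_Simple N → ∃ i, s56d_RepIso N (S i)) :
    ∀ (n : ℕ) (M : Rep.{0, 0, 0} k G) [Finite M.V], Nat.card M.V ≤ n → ∃ m : I → ℕ,
      (∀ φ : Rep.{0, 0, 0} k G → ℤ, s56d_AddInv φ → φ M = ∑ i, (m i : ℤ) * φ (S i)) ∧
      (∀ a : MonoidAlgebra k G, s56d_cp M a = ∏ i, s56d_cp (S i) a ^ m i) := by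
  classical
  intro n
  induction n with
  | zero =>
    intro M _ hM
    have : 0 < Nat.card M.V := Nat.card_pos
    omega
  | succ n ih =>
    intro M _ hM
    by_cases hsub : Subsingleton M.V
    · refine ⟨fun _ => 0, fun φ hφ => ?_, fun a => ?_⟩
      · rw [hφ.zero M hsub]; simp
      · rw [s56d_cp_of_subsingleton M hsub]; simp
    · rw [not_subsingleton_iff_nontrivial] at hsub
      obtain ⟨W, hW, hne, hsimple⟩ := s56d_exists_simple_sub M
      obtain ⟨i₀, hi₀⟩ := hex _ inferInstance hsimple
      have hcard : Nat.card (M.quotient W hW).V ≤ n := by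
        have : Finite (M.V ⧸ W) := Finite.of_surjective W.mkQ W.mkQ_surjective
        have h1 : Nat.card M.V = Nat.card W * Nat.card (M.V ⧸ W) :=
          Submodule.card_eq_card_quotient_mul_card W
        have h2 : 1 < Nat.card W := by
          have : Nontrivial W := (Submodule.nontrivial_iff_ne_bot).mpr hne
          exact Finite.one_lt_card
        have h3 : 0 < Nat.card (M.V ⧸ W) := Nat.card_pos
        have h4 : Nat.card (M.quotient W hW).V = Nat.card (M.V ⧸ W) := rfl
        rw [h4]
        nlinarith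
      obtain ⟨m', hm'1, hm'2⟩ := ih (M.quotient W hW) hcard
      refine ⟨fun i => m' i + if i = i₀ then 1 else 0, fun φ hφ => ?_, fun a => ?_⟩
      · rw [hφ.add M inferInstance W hW, hm'1 φ hφ, hφ.iso _ _ hi₀]
        simp only [Nat.cast_add, Nat.cast_ite, Nat.cast_one, Nat.cast_zero, add_mul, ite_mul, one_mul,
          zero_mul]
        rw [Finset.sum_add_distrib, Finset.sum_ite_eq' Finset.univ i₀]
        simp [add_comm]
      · rw [s56d_cp_eq_mul M W hW a, hm'2 a, s56d_cp_congr hi₀ a]
        simp only [pow_add, pow_ite, pow_one, pow_zero]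
        rw [Finset.prod_mul_distrib, Finset.prod_ite_eq' Finset.univ i₀]
        simp [mul_comm]

end Fermat.Agent.Lib.S56
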