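/-
PROGRAMME W (S56), wall [W4], brick (E3) "modular Artin induction" (helper1, prefix `s56d_`):
a finite complete irredundant family of simple representations of a finite group over a finite field
(`s56d_Irr k G`, `s56d_irrRep`), obtained from the quotients of the left regular representation.
-/
import Mathlib
import Fermat.Agent.Lib.S56.DInv

set_option autoImplicit false

noncomputable section

namespace Fermat.Agent.Lib.S56

open CategoryTheory Polynomial

variable (k : Type) [Field k] (G : Type) [Group G]

instance s56d_finite_monoidAlgebra [Finite k] [Finite G] : Finite (MonoidAlgebra k G) :=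
  Finite.of_equiv (G → k) (Finsupp.equivFunOnFinite.symm.trans MonoidAlgebra.coeffEquiv.symm)

instance s56d_finite_leftRegular [Finite k] [Finite G] : Finite (Rep.leftRegular k G).V :=
  inferInstanceAs (Finite (MonoidAlgebra k G))

variable {k G}

/-- a simple representation is a quotient of the left regular representation. -/
theorem s56d_simple_iso_quot (N : Rep.{0, 0, 0} k G) (hN : s56d_Simple N) :
    ∃ (W : Submodule k (Rep.leftRegular k G).V)
      (hW : ∀ g, W ≤ W.comap ((Rep.leftRegular k G).ρ g)),
      s56d_RepIso ((Rep.leftRegular k G).quotient W hW) N := by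
  obtain ⟨hnt, hN⟩ := hN
  obtain ⟨x, hx⟩ := exists_ne (0 : N.V)
  let F := Rep.leftRegularHom N x
  let fl : (Rep.leftRegular k G).V →ₗ[k] N.V := F.hom.toLinearMap
  have hfl : ∀ g y, fl ((Rep.leftRegular k G).ρ g y) = N.ρ g (fl y) := fun g y =>
    Rep.hom_comm_apply F g y
  have hx1 : fl (MonoidAlgebra.single 1 1) = x := by
    refine (Rep.leftRegularHom_hom_single (A := N) (1 : G) x (1 : k)).trans ?_
    simp
  have hsurj : Function.Surjective fl := by
    rw [← LinearMap.range_eq_top]
    have hinv : ∀ g, LinearMap.range fl ≤ (LinearMap.range fl).comap (N.ρ g) := by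
      rintro g _ ⟨y, rfl⟩
      exact ⟨_, hfl g y⟩
    rcases hN _ hinv with h0 | h1
    · exfalso
      apply hx
      have : x ∈ LinearMap.range fl := ⟨_, hx1⟩
      rw [h0, Submodule.mem_bot] at this
      exact this
    · exact h1
  have hW : ∀ g, LinearMap.ker fl ≤ (LinearMap.ker fl).comap ((Rep.leftRegular k G).ρ g) :=
    fun g y hy => by
      rw [Submodule.mem_comap, LinearMap.mem_ker, hfl, LinearMap.mem_ker.mp hy, map_zero]
  refine ⟨LinearMap.ker fl, hW, fl.quotKerEquivOfSurjective hsurj, fun g y => ?_⟩
  obtain ⟨y, rfl⟩ := Submodule.mkQ_surjective _ y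
  exact hfl g y

variable (k G)

/-- the invariant submodules of the left regular representation with simple quotient. -/
def s56d_IrrCarrier : Type :=
  {W : Submodule k (Rep.leftRegular k G).V //
    ∃ hW : ∀ g, W ≤ W.comap ((Rep.leftRegular k G).ρ g),
      s56d_Simple ((Rep.leftRegular k G).quotient W hW)}

variable {k G}

/-- the quotient attached to an element of the carrier. -/
def s56d_carrierRep (W : s56d_IrrCarrier k G) : Rep.{0, 0, 0} k G :=
  (Rep.leftRegular k G).quotient W.1 W.2.choose

theorem s56d_carrierRep_simple (W : s56d_IrrCarrier k G) : s56d_Simple (s56d_carrierRep W) :=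
  W.2.choose_spec

variable (k G)

/-- isomorphism of the quotients. -/
def s56d_irrSetoid : Setoid (s56d_IrrCarrier k G) where
  r W W' := s56d_RepIso (s56d_carrierRep W) (s56d_carrierRep W')
  iseqv := ⟨fun _ => s56d_RepIso.refl _, fun h => h.symm, fun h h' => h.trans h'⟩

/-- **the index set of the simple representations** (isomorphism classes). -/
def s56d_Irr : Type := Quotient (s56d_irrSetoid k G)

instance s56d_finite_irr [Finite k] [Finite G] : Finite (s56d_Irr k G) := by
  have : Finite (s56d_IrrCarrier k G) := by
    unfold s56d_IrrCarrier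
    infer_instance
  unfold s56d_Irr
  infer_instance

variable {k G}

/-- the chosen simple representation in a class. -/
def s56d_irrRep (i : s56d_Irr k G) : Rep.{0, 0, 0} k G :=
  s56d_carrierRep (Quotient.out (s := s56d_irrSetoid k G) i)

theorem s56d_irrRep_simple (i : s56d_Irr k G) : s56d_Simple (s56d_irrRep i) :=
  s56d_carrierRep_simple _

instance s56d_finite_irrRep [Finite k] [Finite G] (i : s56d_Irr k G) : Finite (s56d_irrRep i).V := by
  unfold s56d_irrRep s56d_carrierRep
  exact s56d_finite_quot' _ _ _

/-- the family is irredundant. -/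
theorem s56d_irrRep_injective {i j : s56d_Irr k G} (h : s56d_RepIso (s56d_irrRep i) (s56d_irrRep j)) :
    i = j := by
  have h1 : (s56d_irrSetoid k G).r (Quotient.out (s := s56d_irrSetoid k G) i)
      (Quotient.out (s := s56d_irrSetoid k G) j) := h
  have h2 := Quotient.sound (s := s56d_irrSetoid k G) h1
  rwa [Quotient.out_eq, Quotient.out_eq] at h2

/-- the family is exhaustive. -/
theorem s56d_irrRep_exhaustive (N : Rep.{0, 0, 0} k G) (hN : s56d_Simple N) :
    ∃ i : s56d_Irr k G, s56d_RepIso N (s56d_irrRep i) := by
  obtain ⟨W, hW, hiso⟩ := s56d_simple_iso_quot N hN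
  have hs : s56d_Simple ((Rep.leftRegular k G).quotient W hW) := hN.of_iso hiso.symm
  let c : s56d_IrrCarrier k G := ⟨W, hW, hs⟩
  refine ⟨Quotient.mk (s56d_irrSetoid k G) c, ?_⟩
  have h1 : (s56d_irrSetoid k G).r
      (Quotient.out (s := s56d_irrSetoid k G) (Quotient.mk (s56d_irrSetoid k G) c)) c :=
    Quotient.mk_out (s := s56d_irrSetoid k G) c
  have h2 : s56d_RepIso (s56d_carrierRep c) N := hiso
  exact (h1.trans h2).symm

end Fermat.Agent.Lib.S56
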