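/-
PROGRAMME W (S56), wall [W4], brick (E4) "cyclic case", algebra (helper1, prefix `s56d_`):
**dimensions of spaces of equivariant maps** for a finite group whose order is invertible in `k`.

`s56d_homDim X Y = dim_k Hom_G(X, Y)`.  It is invariant under isomorphisms, additive in both variables
(Maschke: the functor of invariants is exact, `s56d_finrank_invariants_add`), vanishes between non-isomorphic
simple representations (Schur) and is symmetric (`s56d_homDim_symm`; `k` finite).
-/
import Fermat.Agent.Lib.S56.DBN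
import Fermat.Agent.Lib.S56.DIrr

set_option autoImplicit false
set_option linter.unusedSectionVars false

noncomputable section

namespace Fermat.Agent.Lib.S56

open Module Function

section Inv

variable {k : Type*} [Field k] {G : Type*} [Group G] [Finite G]
variable {V V' : Type*} [AddCommGroup V] [Module k V] [AddCommGroup V'] [Module k V']

/-- averaging: an invariant vector in the image of a surjective equivariant map lifts to an invariant
vector (`#G` invertible). -/
theorem s56d_exists_invariant_lift (hG : (Nat.card G : k) ≠ 0) (ρ : Representation k G V)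
    (ρ' : Representation k G V') (T : V →ₗ[k] V') (hT : ∀ g v, T (ρ g v) = ρ' g (T v))
    (hsurj : Surjective T) (w : V') (hw : ∀ g, ρ' g w = w) :
    ∃ v, (∀ g, ρ g v = v) ∧ T v = w := by
  classical
  have : Fintype G := Fintype.ofFinite G
  obtain ⟨v₀, hv₀⟩ := hsurj w
  refine ⟨(Nat.card G : k)⁻¹ • ∑ g : G, ρ g v₀, fun h => ?_, ?_⟩
  · rw [map_smul, map_sum]
    congr 1
    have : ∀ g : G, ρ h (ρ g v₀) = ρ (h * g) v₀ := fun g => by rw [map_mul]; rfl
    simp only [this]
    exact Fintype.sum_equiv (Equiv.mulLeft h) _ _ (fun g => rfl)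
  · rw [map_smul, map_sum]
    simp only [hT, hv₀, hw]
    rw [Finset.sum_const, Finset.card_univ, ← Nat.card_eq_fintype_card, ← Nat.cast_smul_eq_nsmul k,
      smul_smul, inv_mul_cancel₀ hG, one_smul]

/-- the functor of invariants is exact (`#G` invertible): numerical form. -/
theorem s56d_finrank_invariants_add [FiniteDimensional k V] (hG : (Nat.card G : k) ≠ 0)
    (ρ : Representation k G V) (ρ' : Representation k G V') (T : V →ₗ[k] V')
    (hT : ∀ g v, T (ρ g v) = ρ' g (T v)) (hsurj : Surjective T) :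
    finrank k ρ.invariants
      = finrank k ↥(ρ.invariants ⊓ LinearMap.ker T) + finrank k ρ'.invariants := by
  have hmap : ∀ v ∈ ρ.invariants, T v ∈ ρ'.invariants := fun v hv g => by
    rw [← hT, hv g]
  let T' : ρ.invariants →ₗ[k] ρ'.invariants := T.restrict hmap
  have hrange : LinearMap.range T' = ⊤ := by
    rw [LinearMap.range_eq_top]
    rintro ⟨w, hw⟩
    obtain ⟨v, hv, hvw⟩ := s56d_exists_invariant_lift hG ρ ρ' T hT hsurj w hw
    exact ⟨⟨v, hv⟩, Subtype.ext hvw⟩
  have hker : finrank k (LinearMap.ker T') = finrank k ↥(ρ.invariants ⊓ LinearMap.ker T) := by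
    refine LinearEquiv.finrank_eq ?_
    refine LinearEquiv.ofBijective
      ((ρ.invariants.subtype.comp (LinearMap.ker T').subtype).codRestrict _ ?_) ⟨?_, ?_⟩
    · rintro ⟨⟨v, hv⟩, hv'⟩
      refine ⟨hv, ?_⟩
      rw [LinearMap.mem_ker] at hv'
      change T v = 0
      exact congrArg Subtype.val hv'
    · intro x y hxy
      apply Subtype.ext
      apply Subtype.ext
      exact congrArg (fun z : ↥(ρ.invariants ⊓ LinearMap.ker T) => (z : V)) hxy
    · rintro ⟨v, hv, hv'⟩
      refine ⟨⟨⟨v, hv⟩, ?_⟩, rfl⟩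
      rw [LinearMap.mem_ker]
      apply Subtype.ext
      exact hv'
  have h := LinearMap.finrank_range_add_finrank_ker T'
  rw [hrange, finrank_top, hker] at h
  omega

end Inv

section Hom

variable {k : Type} [Field k] {G : Type} [Group G]

/-- the dimension of the space of equivariant linear maps. -/
def s56d_homDim (X Y : Rep.{0, 0, 0} k G) : ℕ :=
  finrank k (Representation.linHom X.ρ Y.ρ).invariants

theorem s56d_mem_homInv {X Y : Rep.{0, 0, 0} k G} (f : X.V →ₗ[k] Y.V) :
    f ∈ (Representation.linHom X.ρ Y.ρ).invariants ↔ ∀ g x, f (X.ρ g x) = Y.ρ g (f x) := by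
  constructor
  · intro h g x
    have h1 := h g
    rw [Representation.linHom_apply] at h1
    have h2 := LinearMap.congr_fun h1 (X.ρ g x)
    simp only [LinearMap.comp_apply] at h2
    rw [← Module.End.mul_apply, ← map_mul, inv_mul_cancel, map_one, Module.End.one_apply] at h2
    exact h2.symm
  · intro h g
    rw [Representation.linHom_apply]
    apply LinearMap.ext
    intro x
    simp only [LinearMap.comp_apply]
    rw [← h, ← Module.End.mul_apply, ← map_mul, mul_inv_cancel, map_one, Module.End.one_apply]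

/-- invariance under isomorphisms. -/
theorem s56d_homDim_congr {X X' Y Y' : Rep.{0, 0, 0} k G} (hX : s56d_RepIso X X')
    (hY : s56d_RepIso Y Y') : s56d_homDim X Y = s56d_homDim X' Y' := by
  obtain ⟨e, he⟩ := hX
  obtain ⟨e', he'⟩ := hY
  have he_symm : ∀ g x, e.symm (X'.ρ g x) = X.ρ g (e.symm x) := fun g x => by
    apply e.injective
    rw [he, e.apply_symm_apply, e.apply_symm_apply]
  unfold s56d_homDim
  refine LinearEquiv.finrank_eq (LinearEquiv.ofBijective
    (((LinearEquiv.arrowCongr e e').toLinearMap.comp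
      (Representation.linHom X.ρ Y.ρ).invariants.subtype).codRestrict _ ?_) ⟨?_, ?_⟩)
  · intro f
    rw [s56d_mem_homInv]
    intro g x
    have hf := (s56d_mem_homInv f.1).mp f.2
    simp only [LinearMap.comp_apply, Submodule.subtype_apply, LinearEquiv.coe_coe,
      LinearEquiv.arrowCongr_apply]
    rw [he_symm, hf, he']
  · intro f f' hff'
    apply Subtype.ext
    have := congrArg (fun z : ↥(Representation.linHom X'.ρ Y'.ρ).invariants => (z : X'.V →ₗ[k] Y'.V)) hff'
    exact (LinearEquiv.arrowCongr e e').injective this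
  · intro f'
    have hf' := (s56d_mem_homInv f'.1).mp f'.2
    refine ⟨⟨(LinearEquiv.arrowCongr e e').symm f'.1, ?_⟩, ?_⟩
    · rw [s56d_mem_homInv]
      intro g x
      simp only [LinearEquiv.arrowCongr_symm_apply]
      apply e'.injective
      rw [e'.apply_symm_apply, he', e'.apply_symm_apply, he, hf']
    · apply Subtype.ext
      exact (LinearEquiv.arrowCongr e e').apply_symm_apply f'.1

variable [Finite G]

/-- additivity in the second variable. -/
theorem s56d_homDim_add_right (hG : (Nat.card G : k) ≠ 0) (X M : Rep.{0, 0, 0} k G)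
    [FiniteDimensional k X.V] [FiniteDimensional k M.V] (W : Submodule k M.V)
    (hW : ∀ g, W ≤ W.comap (M.ρ g)) :
    s56d_homDim X M = s56d_homDim X (M.subrepresentation W hW)
      + s56d_homDim X (M.quotient W hW) := by
  unfold s56d_homDim
  have hsurj : Surjective (LinearMap.compRight k (M := X.V) W.mkQ) := by
    intro h
    obtain ⟨s, hs⟩ := W.mkQ.exists_rightInverse_of_surjective W.range_mkQ
    refine ⟨s.comp h, ?_⟩
    rw [LinearMap.compRight_apply, ← LinearMap.comp_assoc, hs, LinearMap.id_comp]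
  have key := s56d_finrank_invariants_add hG (Representation.linHom X.ρ M.ρ)
    (Representation.linHom X.ρ (M.quotient W hW).ρ) (LinearMap.compRight k W.mkQ)
    (fun g f => by
      apply LinearMap.ext
      intro x
      rfl) hsurj
  rw [key]
  congr 1
  symm
  refine LinearEquiv.finrank_eq (LinearEquiv.ofBijective
    (((LinearMap.compRight k (M := X.V) W.subtype).comp
      (Representation.linHom X.ρ (M.subrepresentation W hW).ρ).invariants.subtype).codRestrict _ ?_)
    ⟨?_, ?_⟩)
  · intro f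
    have hf := (s56d_mem_homInv f.1).mp f.2
    refine ⟨?_, ?_⟩
    · change _ ∈ (Representation.linHom X.ρ M.ρ).invariants
      rw [s56d_mem_homInv]
      intro g x
      simp only [LinearMap.comp_apply, Submodule.subtype_apply, LinearMap.compRight_apply]
      rw [hf]
      rfl
    · rw [SetLike.mem_coe, LinearMap.mem_ker]
      apply LinearMap.ext
      intro x
      simp
  · intro f f' hff'
    apply Subtype.ext
    apply LinearMap.ext
    intro x
    apply Subtype.ext
    have := congrArg (fun z : ↥((Representation.linHom X.ρ M.ρ).invariants ⊓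
      LinearMap.ker (LinearMap.compRight k (M := X.V) W.mkQ)) => (z : X.V →ₗ[k] M.V) x) hff'
    exact this
  · rintro ⟨f, hf1, hf2⟩
    rw [SetLike.mem_coe, LinearMap.mem_ker] at hf2
    have hfW : ∀ x, f x ∈ W := fun x => by
      have := LinearMap.congr_fun hf2 x
      simpa using this
    have hf1' := (s56d_mem_homInv f).mp hf1
    refine ⟨⟨f.codRestrict W hfW, ?_⟩, ?_⟩
    · rw [s56d_mem_homInv]
      intro g x
      apply Subtype.ext
      exact hf1' g x
    · apply Subtype.ext
      apply LinearMap.ext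
      intro x
      rfl

/-- additivity in the first variable. -/
theorem s56d_homDim_add_left (hG : (Nat.card G : k) ≠ 0) (X M : Rep.{0, 0, 0} k G)
    [FiniteDimensional k X.V] [FiniteDimensional k M.V] (W : Submodule k M.V)
    (hW : ∀ g, W ≤ W.comap (M.ρ g)) :
    s56d_homDim M X = s56d_homDim (M.subrepresentation W hW) X
      + s56d_homDim (M.quotient W hW) X := by
  unfold s56d_homDim
  have hsurj : Surjective (LinearMap.lcomp k X.V W.subtype) := by
    intro h
    obtain ⟨f, hf⟩ := LinearMap.exists_extend h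
    exact ⟨f, hf⟩
  have key := s56d_finrank_invariants_add hG (Representation.linHom M.ρ X.ρ)
    (Representation.linHom (M.subrepresentation W hW).ρ X.ρ) (LinearMap.lcomp k X.V W.subtype)
    (fun g f => by
      apply LinearMap.ext
      intro x
      rfl) hsurj
  rw [key, add_comm]
  congr 1
  symm
  refine LinearEquiv.finrank_eq (LinearEquiv.ofBijective
    (((LinearMap.lcomp k X.V W.mkQ).comp
      (Representation.linHom (M.quotient W hW).ρ X.ρ).invariants.subtype).codRestrict _ ?_)
    ⟨?_, ?_⟩)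
  · intro f
    have hf := (s56d_mem_homInv f.1).mp f.2
    refine ⟨?_, ?_⟩
    · change _ ∈ (Representation.linHom M.ρ X.ρ).invariants
      rw [s56d_mem_homInv]
      intro g x
      simp only [LinearMap.comp_apply, Submodule.subtype_apply, LinearMap.lcomp_apply]
      rw [← hf]
      rfl
    · rw [SetLike.mem_coe, LinearMap.mem_ker]
      apply LinearMap.ext
      intro x
      simp only [LinearMap.comp_apply, Submodule.subtype_apply, LinearMap.lcomp_apply,
        LinearMap.zero_apply]
      have hx : W.mkQ (x : M.V) = 0 := (Submodule.Quotient.mk_eq_zero W).mpr x.2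
      rw [hx, map_zero]
  · intro f f' hff'
    apply Subtype.ext
    apply LinearMap.ext
    intro y
    obtain ⟨x, rfl⟩ := W.mkQ_surjective y
    have := congrArg (fun z : ↥((Representation.linHom M.ρ X.ρ).invariants ⊓
      LinearMap.ker (LinearMap.lcomp k X.V W.subtype)) => (z : M.V →ₗ[k] X.V) x) hff'
    exact this
  · rintro ⟨f, hf1, hf2⟩
    rw [SetLike.mem_coe, LinearMap.mem_ker] at hf2
    have hfW : W ≤ LinearMap.ker f := fun x hx => by
      have := LinearMap.congr_fun hf2 ⟨x, hx⟩
      simpa using this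
    have hf1' := (s56d_mem_homInv f).mp hf1
    refine ⟨⟨W.liftQ f hfW, ?_⟩, ?_⟩
    · rw [s56d_mem_homInv]
      intro g y
      obtain ⟨x, rfl⟩ := W.mkQ_surjective y
      exact hf1' g x
    · apply Subtype.ext
      apply LinearMap.ext
      intro x
      rfl

variable [Finite k]

theorem s56d_addInv_homDim_right (hG : (Nat.card G : k) ≠ 0) (X : Rep.{0, 0, 0} k G)
    [FiniteDimensional k X.V] : s56d_AddInv (fun Y : Rep.{0, 0, 0} k G => (s56d_homDim X Y : ℤ)) where
  iso M N h := by
    simp only [Nat.cast_inj]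
    exact s56d_homDim_congr (s56d_RepIso.refl X) h
  add M hM W hW := by
    have : Finite M.V := hM
    have : FiniteDimensional k M.V := Module.Finite.of_finite
    rw [s56d_homDim_add_right hG X M W hW]
    push_cast
    rfl

theorem s56d_addInv_homDim_left (hG : (Nat.card G : k) ≠ 0) (X : Rep.{0, 0, 0} k G)
    [FiniteDimensional k X.V] : s56d_AddInv (fun Y : Rep.{0, 0, 0} k G => (s56d_homDim Y X : ℤ)) where
  iso M N h := by
    simp only [Nat.cast_inj]
    exact s56d_homDim_congr h (s56d_RepIso.refl X)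
  add M hM W hW := by
    have : Finite M.V := hM
    have : FiniteDimensional k M.V := Module.Finite.of_finite
    rw [s56d_homDim_add_left hG X M W hW]
    push_cast
    rfl

/-- **Schur's lemma**: no nonzero equivariant maps between non-isomorphic simple representations. -/
theorem s56d_homDim_eq_zero_of_simple {S Y : Rep.{0, 0, 0} k G} (hS : s56d_Simple S)
    (hY : s56d_Simple Y) (hne : ¬ s56d_RepIso S Y) : s56d_homDim S Y = 0 := by
  unfold s56d_homDim
  have hbot : (Representation.linHom S.ρ Y.ρ).invariants = ⊥ := by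
    rw [eq_bot_iff]
    intro f hf
    rw [Submodule.mem_bot]
    have hf' := (s56d_mem_homInv f).mp hf
    by_contra hf0
    have hker : LinearMap.ker f = ⊥ := by
      rcases hS.2 (LinearMap.ker f) (fun g x hx => by
        rw [Submodule.mem_comap, LinearMap.mem_ker, hf', LinearMap.mem_ker.mp hx, map_zero]) with h | h
      · exact h
      · exfalso
        apply hf0
        apply LinearMap.ext
        intro x
        have : x ∈ LinearMap.ker f := by rw [h]; trivial
        exact this
    have hrange : LinearMap.range f = ⊤ := by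
      rcases hY.2 (LinearMap.range f) (fun g y hy => by
        obtain ⟨x, rfl⟩ := hy
        exact ⟨S.ρ g x, hf' g x⟩) with h | h
      · exfalso
        apply hf0
        apply LinearMap.ext
        intro x
        have : f x ∈ LinearMap.range f := ⟨x, rfl⟩
        rw [h, Submodule.mem_bot] at this
        exact this
      · exact h
    exact hne ⟨LinearEquiv.ofBijective f ⟨LinearMap.ker_eq_bot.mp hker,
      LinearMap.range_eq_top.mp hrange⟩, hf'⟩
  rw [hbot]
  exact finrank_bot k _

theorem s56d_AddInv.sub' {φ ψ : Rep.{0, 0, 0} k G → ℤ} (hφ : s56d_AddInv φ) (hψ : s56d_AddInv ψ) :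
    s56d_AddInv (fun M => φ M - ψ M) where
  iso M N h := by rw [hφ.iso M N h, hψ.iso M N h]
  add M hM W hW := by
    rw [hφ.add M hM W hW, hψ.add M hM W hW]
    ring

/-- **symmetry** of `dim Hom_G` (semisimple case). -/
theorem s56d_homDim_symm (hG : (Nat.card G : k) ≠ 0) (X Y : Rep.{0, 0, 0} k G)
    [Finite X.V] [Finite Y.V] : s56d_homDim X Y = s56d_homDim Y X := by
  classical
  have : Fintype (s56d_Irr k G) := Fintype.ofFinite _
  have hfd : ∀ Z : Rep.{0, 0, 0} k G, Finite Z.V → FiniteDimensional k Z.V := fun Z hZ =>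
    Module.Finite.of_finite
  -- the simple case
  have hsimple : ∀ i j : s56d_Irr k G,
      s56d_homDim (s56d_irrRep i) (s56d_irrRep j) = s56d_homDim (s56d_irrRep j) (s56d_irrRep i) := by
    intro i j
    by_cases hij : i = j
    · rw [hij]
    · rw [s56d_homDim_eq_zero_of_simple (s56d_irrRep_simple i) (s56d_irrRep_simple j)
          (fun h => hij (s56d_irrRep_injective h)),
        s56d_homDim_eq_zero_of_simple (s56d_irrRep_simple j) (s56d_irrRep_simple i)
          (fun h => hij (s56d_irrRep_injective h.symm))]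
  -- one simple argument
  have hone : ∀ (i : s56d_Irr k G) (Z : Rep.{0, 0, 0} k G), Finite Z.V →
      (s56d_homDim (s56d_irrRep i) Z : ℤ) = s56d_homDim Z (s56d_irrRep i) := by
    intro i Z hZ
    have := hfd _ (s56d_finite_irrRep i)
    obtain ⟨m, hm, -⟩ := s56d_exists_mult s56d_irrRep
      (fun N _ hs => s56d_irrRep_exhaustive N hs) _ Z le_rfl
    rw [hm _ (s56d_addInv_homDim_right hG (s56d_irrRep i)),
      hm _ (s56d_addInv_homDim_left hG (s56d_irrRep i))]
    refine Finset.sum_congr rfl fun j _ => ?_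
    rw [hsimple i j]
  have := hfd X inferInstance
  have := hfd Y inferInstance
  obtain ⟨m, hm, -⟩ := s56d_exists_mult s56d_irrRep
    (fun N _ hs => s56d_irrRep_exhaustive N hs) _ X le_rfl
  have h1 := hm _ (s56d_addInv_homDim_left hG Y)
  have h2 := hm _ (s56d_addInv_homDim_right hG Y)
  have h3 : (s56d_homDim X Y : ℤ) = s56d_homDim Y X := by
    rw [h1, h2]
    refine Finset.sum_congr rfl fun j _ => ?_
    rw [hone j Y inferInstance]
  exact_mod_cast h3

end Hom

section Six

variable {k : Type} [Field k] {G : Type} [Group G]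

theorem s56d_AddInv.sub_congr {φ : Rep.{0, 0, 0} k G → ℤ} (X : Rep.{0, 0, 0} k G)
    {W W' : Submodule k X.V} (h : W = W') (hW : ∀ g, W ≤ W.comap (X.ρ g))
    (hW' : ∀ g, W' ≤ W'.comap (X.ρ g)) :
    φ (X.subrepresentation W hW) = φ (X.subrepresentation W' hW') := by
  subst h
  rfl

theorem s56d_AddInv.sub_bot {φ : Rep.{0, 0, 0} k G → ℤ} (hφ : s56d_AddInv φ) (X : Rep.{0, 0, 0} k G)
    (hW : ∀ g, (⊥ : Submodule k X.V) ≤ (⊥ : Submodule k X.V).comap (X.ρ g)) :
    φ (X.subrepresentation ⊥ hW) = 0 :=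
  hφ.zero _ (inferInstanceAs (Subsingleton (⊥ : Submodule k X.V)))

theorem s56d_AddInv.sub_top {φ : Rep.{0, 0, 0} k G → ℤ} (hφ : s56d_AddInv φ) (X : Rep.{0, 0, 0} k G)
    (hW : ∀ g, (⊤ : Submodule k X.V) ≤ (⊤ : Submodule k X.V).comap (X.ρ g)) :
    φ (X.subrepresentation ⊤ hW) = φ X :=
  hφ.iso _ _ ⟨Submodule.topEquiv, fun _ _ => rfl⟩

theorem s56d_ker_invariant {X Y : Rep.{0, 0, 0} k G} (f : X.V →ₗ[k] Y.V)
    (hf : ∀ g x, f (X.ρ g x) = Y.ρ g (f x)) (g : G) :
    LinearMap.ker f ≤ (LinearMap.ker f).comap (X.ρ g) := fun x hx => by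
  rw [Submodule.mem_comap, LinearMap.mem_ker, hf, LinearMap.mem_ker.mp hx, map_zero]

theorem s56d_range_invariant {X Y : Rep.{0, 0, 0} k G} (f : X.V →ₗ[k] Y.V)
    (hf : ∀ g x, f (X.ρ g x) = Y.ρ g (f x)) (g : G) :
    LinearMap.range f ≤ (LinearMap.range f).comap (Y.ρ g) := by
  rintro _ ⟨x, rfl⟩
  exact ⟨X.ρ g x, hf g x⟩

/-- an additive invariant splits along kernel and range of an equivariant map. -/
theorem s56d_AddInv.ker_range {φ : Rep.{0, 0, 0} k G → ℤ} (hφ : s56d_AddInv φ)
    (X Y : Rep.{0, 0, 0} k G) [Finite X.V] (f : X.V →ₗ[k] Y.V)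
    (hf : ∀ g x, f (X.ρ g x) = Y.ρ g (f x)) :
    φ X = φ (X.subrepresentation (LinearMap.ker f) (s56d_ker_invariant f hf))
      + φ (Y.subrepresentation (LinearMap.range f) (s56d_range_invariant f hf)) := by
  rw [hφ.add X inferInstance (LinearMap.ker f) (s56d_ker_invariant f hf)]
  congr 1
  apply hφ.iso
  refine ⟨f.quotKerEquivRange, fun g y => ?_⟩
  obtain ⟨x, rfl⟩ := (LinearMap.ker f).mkQ_surjective y
  apply Subtype.ext
  exact hf g x

/-- the alternating sum of an additive invariant along a six-term exact sequence vanishes. -/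
theorem s56d_AddInv.six_term {φ : Rep.{0, 0, 0} k G → ℤ} (hφ : s56d_AddInv φ)
    (X₁ X₂ X₃ X₄ X₅ X₆ : Rep.{0, 0, 0} k G) [Finite X₁.V] [Finite X₂.V] [Finite X₃.V] [Finite X₄.V]
    [Finite X₅.V]
    (f₁ : X₁.V →ₗ[k] X₂.V) (f₂ : X₂.V →ₗ[k] X₃.V) (f₃ : X₃.V →ₗ[k] X₄.V) (f₄ : X₄.V →ₗ[k] X₅.V)
    (f₅ : X₅.V →ₗ[k] X₆.V)
    (e₁ : ∀ g x, f₁ (X₁.ρ g x) = X₂.ρ g (f₁ x)) (e₂ : ∀ g x, f₂ (X₂.ρ g x) = X₃.ρ g (f₂ x))
    (e₃ : ∀ g x, f₃ (X₃.ρ g x) = X₄.ρ g (f₃ x)) (e₄ : ∀ g x, f₄ (X₄.ρ g x) = X₅.ρ g (f₄ x))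
    (e₅ : ∀ g x, f₅ (X₅.ρ g x) = X₆.ρ g (f₅ x))
    (h₁ : LinearMap.ker f₁ = ⊥) (h₁₂ : LinearMap.range f₁ = LinearMap.ker f₂)
    (h₂₃ : LinearMap.range f₂ = LinearMap.ker f₃) (h₃₄ : LinearMap.range f₃ = LinearMap.ker f₄)
    (h₄₅ : LinearMap.range f₄ = LinearMap.ker f₅) (h₅ : LinearMap.range f₅ = ⊤) :
    φ X₁ + φ X₃ + φ X₅ = φ X₂ + φ X₄ + φ X₆ := by
  have a₁ := hφ.ker_range X₁ X₂ f₁ e₁
  have a₂ := hφ.ker_range X₂ X₃ f₂ e₂
  have a₃ := hφ.ker_range X₃ X₄ f₃ e₃
  have a₄ := hφ.ker_range X₄ X₅ f₄ e₄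
  have a₅ := hφ.ker_range X₅ X₆ f₅ e₅
  have b₁ : φ (X₁.subrepresentation (LinearMap.ker f₁) (s56d_ker_invariant f₁ e₁)) = 0 := by
    rw [s56d_AddInv.sub_congr (φ := φ) X₁ h₁ _ (fun g => by simp)]
    exact hφ.sub_bot X₁ _
  have b₆ : φ (X₆.subrepresentation (LinearMap.range f₅) (s56d_range_invariant f₅ e₅)) = φ X₆ := by
    rw [s56d_AddInv.sub_congr (φ := φ) X₆ h₅ _ (fun g => by simp)]
    exact hφ.sub_top X₆ _
  have c₁₂ := s56d_AddInv.sub_congr (φ := φ) X₂ h₁₂ (s56d_range_invariant f₁ e₁)
    (s56d_ker_invariant f₂ e₂)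
  have c₂₃ := s56d_AddInv.sub_congr (φ := φ) X₃ h₂₃ (s56d_range_invariant f₂ e₂)
    (s56d_ker_invariant f₃ e₃)
  have c₃₄ := s56d_AddInv.sub_congr (φ := φ) X₄ h₃₄ (s56d_range_invariant f₃ e₃)
    (s56d_ker_invariant f₄ e₄)
  have c₄₅ := s56d_AddInv.sub_congr (φ := φ) X₅ h₄₅ (s56d_range_invariant f₄ e₄)
    (s56d_ker_invariant f₅ e₅)
  linarith

end Six

end Fermat.Agent.Lib.S56
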