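/-
PROGRAMME W (S56), wall [W4], brick (E4) "cyclic case", algebra (helper1, prefix `s56d_`):
**the multiplicative Euler characteristic `h_N` of multiplication by `p`** on abelian groups with an
action of a finite group `C` of order prime to `p`.

For a `ℤ`-linear representation `ρ` of `C` on `Λ`: `s56d_modP p ρ = Λ/pΛ` and `s56d_torP p ρ = Λ[p]` as
representations over `ZMod p`; `s56d_hN N ρ = dim Hom_C(Λ/p, N) − dim Hom_C(N, Λ[p])`.
Main results: the six-term (snake) exact sequence for a short exact sequence `0 → Λ' → Λ → Λ'' → 0` and the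
additivity of `h_N` (`s56d_hN_add`).
-/
import Fermat.Agent.Lib.S56.DHom

set_option autoImplicit false
set_option linter.unusedSectionVars false

noncomputable section

namespace Fermat.Agent.Lib.S56

open Module Function

section Types

variable (p : ℕ) (Λ Λ' Λ'' : Type) [AddCommGroup Λ] [AddCommGroup Λ'] [AddCommGroup Λ'']

/-- `Λ / pΛ`. -/
def s56d_ModP : Type := Λ ⧸ (nsmulAddMonoidHom (α := Λ) p).range

instance : AddCommGroup (s56d_ModP p Λ) :=
  inferInstanceAs (AddCommGroup (Λ ⧸ (nsmulAddMonoidHom (α := Λ) p).range))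

instance [NeZero p] : Module (ZMod p) (s56d_ModP p Λ) :=
  QuotientAddGroup.zmodModule (n := p) (H := (nsmulAddMonoidHom (α := Λ) p).range) (fun x => ⟨x, rfl⟩)

/-- `Λ[p]`. -/
def s56d_TorP : Type := ↥(nsmulAddMonoidHom (α := Λ) p).ker

instance : AddCommGroup (s56d_TorP p Λ) :=
  inferInstanceAs (AddCommGroup ↥(nsmulAddMonoidHom (α := Λ) p).ker)

instance [NeZero p] : Module (ZMod p) (s56d_TorP p Λ) :=
  AddCommGroup.zmodModule (n := p) (G := ↥(nsmulAddMonoidHom (α := Λ) p).ker)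
    (fun x => Subtype.ext x.2)

variable {Λ Λ' Λ''}

/-- the class of an element modulo `p`. -/
def s56d_ModP.mk : Λ →+ s56d_ModP p Λ := QuotientAddGroup.mk' _

theorem s56d_ModP.mk_surjective : Surjective (s56d_ModP.mk p (Λ := Λ)) :=
  QuotientAddGroup.mk'_surjective _

theorem s56d_ModP.mk_eq_zero_iff (x : Λ) : s56d_ModP.mk p x = 0 ↔ ∃ y : Λ, p • y = x := by
  change ((x : Λ ⧸ (nsmulAddMonoidHom (α := Λ) p).range) = 0) ↔ _
  rw [QuotientAddGroup.eq_zero_iff]
  rfl

/-- the underlying element of a `p`-torsion element. -/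
def s56d_TorP.val : s56d_TorP p Λ →+ Λ := AddSubgroup.subtype _

theorem s56d_TorP.val_injective : Injective (s56d_TorP.val p (Λ := Λ)) := Subtype.val_injective

theorem s56d_TorP.nsmul_val (x : s56d_TorP p Λ) : p • s56d_TorP.val p x = 0 := x.2

/-- a `p`-torsion element, bundled. -/
def s56d_TorP.ofTor (x : Λ) (hx : p • x = 0) : s56d_TorP p Λ := ⟨x, hx⟩

@[simp] theorem s56d_TorP.val_ofTor (x : Λ) (hx : p • x = 0) :
    s56d_TorP.val p (s56d_TorP.ofTor p x hx) = x := rfl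

/-- functoriality of `Λ/p`. -/
def s56d_ModP.map (f : Λ →+ Λ') : s56d_ModP p Λ →+ s56d_ModP p Λ' :=
  QuotientAddGroup.map _ _ f (by
    rintro _ ⟨x, rfl⟩
    exact ⟨f x, by simp⟩)

@[simp] theorem s56d_ModP.map_mk (f : Λ →+ Λ') (x : Λ) :
    s56d_ModP.map p f (s56d_ModP.mk p x) = s56d_ModP.mk p (f x) := rfl

/-- functoriality of `Λ[p]`. -/
def s56d_TorP.map (f : Λ →+ Λ') : s56d_TorP p Λ →+ s56d_TorP p Λ' where
  toFun x := ⟨f x.1, by
    have := x.2
    simp only [AddMonoidHom.mem_ker, nsmulAddMonoidHom_apply] at this ⊢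
    rw [← map_nsmul, this, map_zero]⟩
  map_zero' := Subtype.ext (map_zero f)
  map_add' x y := Subtype.ext (map_add f _ _)

@[simp] theorem s56d_TorP.val_map (f : Λ →+ Λ') (x : s56d_TorP p Λ) :
    s56d_TorP.val p (s56d_TorP.map p f x) = f (s56d_TorP.val p x) := rfl

theorem s56d_ModP.map_id (x : s56d_ModP p Λ) : s56d_ModP.map p (AddMonoidHom.id Λ) x = x := by
  obtain ⟨y, rfl⟩ := s56d_ModP.mk_surjective p x
  rfl

theorem s56d_ModP.map_comp (g : Λ' →+ Λ'') (f : Λ →+ Λ') (x : s56d_ModP p Λ) :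
    s56d_ModP.map p (g.comp f) x = s56d_ModP.map p g (s56d_ModP.map p f x) := by
  obtain ⟨y, rfl⟩ := s56d_ModP.mk_surjective p x
  rfl

theorem s56d_TorP.map_id (x : s56d_TorP p Λ) : s56d_TorP.map p (AddMonoidHom.id Λ) x = x := rfl

theorem s56d_TorP.map_comp (g : Λ' →+ Λ'') (f : Λ →+ Λ') (x : s56d_TorP p Λ) :
    s56d_TorP.map p (g.comp f) x = s56d_TorP.map p g (s56d_TorP.map p f x) := rfl

end Types

section Reps

variable (p : ℕ) [Fact p.Prime] {C : Type} [Group C]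
variable {Λ Λ' Λ'' : Type} [AddCommGroup Λ] [AddCommGroup Λ'] [AddCommGroup Λ'']

/-- the action on `Λ/pΛ`. -/
def s56d_modPRep (ρ : Representation ℤ C Λ) : Representation (ZMod p) C (s56d_ModP p Λ) where
  toFun c := (s56d_ModP.map p (ρ c).toAddMonoidHom).toZModLinearMap p
  map_one' := by
    apply LinearMap.ext
    intro x
    obtain ⟨y, rfl⟩ := s56d_ModP.mk_surjective p x
    change s56d_ModP.mk p (ρ 1 y) = _
    rw [map_one]
    rfl
  map_mul' c d := by
    apply LinearMap.ext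
    intro x
    obtain ⟨y, rfl⟩ := s56d_ModP.mk_surjective p x
    change s56d_ModP.mk p (ρ (c * d) y) = _
    rw [map_mul]
    rfl

/-- the action on `Λ[p]`. -/
def s56d_torPRep (ρ : Representation ℤ C Λ) : Representation (ZMod p) C (s56d_TorP p Λ) where
  toFun c := (s56d_TorP.map p (ρ c).toAddMonoidHom).toZModLinearMap p
  map_one' := by
    apply LinearMap.ext
    intro x
    apply s56d_TorP.val_injective
    change ρ 1 (s56d_TorP.val p x) = _
    rw [map_one]
    rfl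
  map_mul' c d := by
    apply LinearMap.ext
    intro x
    apply s56d_TorP.val_injective
    change ρ (c * d) (s56d_TorP.val p x) = _
    rw [map_mul]
    rfl

/-- `Λ/pΛ` as a representation over `ZMod p`. -/
def s56d_modP (ρ : Representation ℤ C Λ) : Rep.{0, 0, 0} (ZMod p) C := Rep.of (s56d_modPRep p ρ)

/-- `Λ[p]` as a representation over `ZMod p`. -/
def s56d_torP (ρ : Representation ℤ C Λ) : Rep.{0, 0, 0} (ZMod p) C := Rep.of (s56d_torPRep p ρ)

theorem s56d_modP_ρ_mk (ρ : Representation ℤ C Λ) (c : C) (x : Λ) :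
    (s56d_modP p ρ).ρ c (s56d_ModP.mk p x) = s56d_ModP.mk p (ρ c x) := rfl

theorem s56d_torP_ρ_val (ρ : Representation ℤ C Λ) (c : C) (x : s56d_TorP p Λ) :
    s56d_TorP.val p ((s56d_torP p ρ).ρ c x) = ρ c (s56d_TorP.val p x) := rfl

end Reps

section Snake

variable (p : ℕ) [Fact p.Prime]
variable {Λ Λ' Λ'' : Type} [AddCommGroup Λ] [AddCommGroup Λ'] [AddCommGroup Λ'']
variable (i : Λ' →+ Λ) (j : Λ →+ Λ'')

/-- the graph of the connecting map `Λ''[p] → Λ'/p`. -/
def s56d_SnakeRel (z : s56d_TorP p Λ'') (w : s56d_ModP p Λ') : Prop :=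
  ∃ (x : Λ) (y : Λ'), j x = s56d_TorP.val p z ∧ i y = p • x ∧ s56d_ModP.mk p y = w

variable {p i j}

theorem s56d_SnakeRel.add {z z' : s56d_TorP p Λ''} {w w' : s56d_ModP p Λ'}
    (h : s56d_SnakeRel p i j z w) (h' : s56d_SnakeRel p i j z' w') :
    s56d_SnakeRel p i j (z + z') (w + w') := by
  obtain ⟨x, y, h1, h2, h3⟩ := h
  obtain ⟨x', y', h1', h2', h3'⟩ := h'
  refine ⟨x + x', y + y', ?_, ?_, ?_⟩
  · rw [map_add, map_add, h1, h1']
  · rw [map_add, h2, h2', nsmul_add]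
  · rw [map_add, h3, h3']

variable (hinj : Injective i) (hsurj : Surjective j) (hex : ∀ x, j x = 0 ↔ ∃ y, i y = x)

include hsurj hex in
theorem s56d_SnakeRel.exists (z : s56d_TorP p Λ'') : ∃ w, s56d_SnakeRel p i j z w := by
  obtain ⟨x, hx⟩ := hsurj (s56d_TorP.val p z)
  have h1 : j (p • x) = 0 := by rw [map_nsmul, hx, s56d_TorP.nsmul_val]
  obtain ⟨y, hy⟩ := (hex _).mp h1
  exact ⟨_, x, y, hx, hy, rfl⟩

include hinj hex in
theorem s56d_SnakeRel.unique {z : s56d_TorP p Λ''} {w w' : s56d_ModP p Λ'}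
    (h : s56d_SnakeRel p i j z w) (h' : s56d_SnakeRel p i j z w') : w = w' := by
  obtain ⟨x, y, h1, h2, rfl⟩ := h
  obtain ⟨x', y', h1', h2', rfl⟩ := h'
  have h3 : j (x - x') = 0 := by rw [map_sub, h1, h1', sub_self]
  obtain ⟨t, ht⟩ := (hex _).mp h3
  have h4 : i (y - y') = i (p • t) := by
    rw [map_sub, h2, h2', map_nsmul, ht, nsmul_sub]
  have h5 := hinj h4
  rw [← sub_eq_zero, ← map_sub, s56d_ModP.mk_eq_zero_iff]
  exact ⟨t, h5.symm⟩

/-- the connecting map `δ : Λ''[p] → Λ'/p`. -/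
def s56d_snakeδ : s56d_TorP p Λ'' →+ s56d_ModP p Λ' where
  toFun z := (s56d_SnakeRel.exists hsurj hex z).choose
  map_zero' := by
    refine s56d_SnakeRel.unique hinj hex (s56d_SnakeRel.exists hsurj hex 0).choose_spec ?_
    exact ⟨0, 0, by simp, by simp, by simp⟩
  map_add' z z' :=
    s56d_SnakeRel.unique hinj hex (s56d_SnakeRel.exists hsurj hex (z + z')).choose_spec
      ((s56d_SnakeRel.exists hsurj hex z).choose_spec.add
        (s56d_SnakeRel.exists hsurj hex z').choose_spec)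

theorem s56d_snakeδ_spec (z : s56d_TorP p Λ'') :
    s56d_SnakeRel p i j z (s56d_snakeδ hinj hsurj hex z) :=
  (s56d_SnakeRel.exists hsurj hex z).choose_spec

theorem s56d_snakeδ_eq {z : s56d_TorP p Λ''} {w : s56d_ModP p Λ'} (h : s56d_SnakeRel p i j z w) :
    s56d_snakeδ hinj hsurj hex z = w :=
  s56d_SnakeRel.unique hinj hex (s56d_snakeδ_spec hinj hsurj hex z) h

/-! exactness of the six-term sequence -/

include hinj in
theorem s56d_snake_inj : Injective (s56d_TorP.map p i) := by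
  intro x y hxy
  apply s56d_TorP.val_injective
  apply hinj
  exact congrArg (s56d_TorP.val p) hxy

include hinj hex in
theorem s56d_snake_ex1 (x : s56d_TorP p Λ) :
    s56d_TorP.map p j x = 0 ↔ ∃ y, s56d_TorP.map p i y = x := by
  constructor
  · intro h
    have h1 : j (s56d_TorP.val p x) = 0 := congrArg (s56d_TorP.val p) h
    obtain ⟨y, hy⟩ := (hex _).mp h1
    have hy' : p • y = 0 := by
      apply hinj
      rw [map_nsmul, hy, s56d_TorP.nsmul_val, map_zero]
    exact ⟨s56d_TorP.ofTor p y hy', s56d_TorP.val_injective p hy⟩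
  · rintro ⟨y, rfl⟩
    apply s56d_TorP.val_injective
    change j (i (s56d_TorP.val p y)) = 0
    exact (hex _).mpr ⟨_, rfl⟩

include hinj hsurj hex in
theorem s56d_snake_ex2 (z : s56d_TorP p Λ'') :
    s56d_snakeδ hinj hsurj hex z = 0 ↔ ∃ x, s56d_TorP.map p j x = z := by
  constructor
  · intro h
    obtain ⟨x, y, h1, h2, h3⟩ := s56d_snakeδ_spec hinj hsurj hex z
    rw [h, s56d_ModP.mk_eq_zero_iff] at h3
    obtain ⟨y', hy'⟩ := h3
    have hx : p • (x - i y') = 0 := by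
      rw [nsmul_sub, ← map_nsmul, hy', h2, sub_self]
    refine ⟨s56d_TorP.ofTor p (x - i y') hx, s56d_TorP.val_injective p ?_⟩
    change j (x - i y') = _
    rw [map_sub, h1, (hex _).mpr ⟨y', rfl⟩, sub_zero]
  · rintro ⟨x, rfl⟩
    apply s56d_snakeδ_eq
    exact ⟨s56d_TorP.val p x, 0, rfl, by rw [map_zero, s56d_TorP.nsmul_val], map_zero _⟩

include hinj hsurj hex in
theorem s56d_snake_ex3 (w : s56d_ModP p Λ') :
    s56d_ModP.map p i w = 0 ↔ ∃ z, s56d_snakeδ hinj hsurj hex z = w := by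
  constructor
  · intro h
    obtain ⟨y, rfl⟩ := s56d_ModP.mk_surjective p w
    rw [s56d_ModP.map_mk, s56d_ModP.mk_eq_zero_iff] at h
    obtain ⟨x, hx⟩ := h
    have hz : p • j x = 0 := by
      rw [← map_nsmul, hx]
      exact (hex _).mpr ⟨y, rfl⟩
    refine ⟨s56d_TorP.ofTor p (j x) hz, ?_⟩
    apply s56d_snakeδ_eq
    exact ⟨x, y, rfl, hx.symm, rfl⟩
  · rintro ⟨z, rfl⟩
    obtain ⟨x, y, h1, h2, h3⟩ := s56d_snakeδ_spec hinj hsurj hex z
    rw [← h3, s56d_ModP.map_mk, s56d_ModP.mk_eq_zero_iff]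
    exact ⟨x, h2.symm⟩

include hsurj hex in
theorem s56d_snake_ex4 (w : s56d_ModP p Λ) :
    s56d_ModP.map p j w = 0 ↔ ∃ w', s56d_ModP.map p i w' = w := by
  constructor
  · intro h
    obtain ⟨x, rfl⟩ := s56d_ModP.mk_surjective p w
    rw [s56d_ModP.map_mk, s56d_ModP.mk_eq_zero_iff] at h
    obtain ⟨z, hz⟩ := h
    obtain ⟨x', rfl⟩ := hsurj z
    have h1 : j (x - p • x') = 0 := by rw [map_sub, map_nsmul, hz, sub_self]
    obtain ⟨y, hy⟩ := (hex _).mp h1
    refine ⟨s56d_ModP.mk p y, ?_⟩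
    rw [s56d_ModP.map_mk, hy, map_sub, sub_eq_self, s56d_ModP.mk_eq_zero_iff]
    exact ⟨x', rfl⟩
  · rintro ⟨w', rfl⟩
    obtain ⟨y, rfl⟩ := s56d_ModP.mk_surjective p w'
    rw [s56d_ModP.map_mk, s56d_ModP.map_mk, (hex _).mpr ⟨y, rfl⟩, map_zero]

include hsurj in
theorem s56d_snake_surj : Surjective (s56d_ModP.map p j) := by
  intro w
  obtain ⟨z, rfl⟩ := s56d_ModP.mk_surjective p w
  obtain ⟨x, rfl⟩ := hsurj z
  exact ⟨s56d_ModP.mk p x, rfl⟩

end Snake

section HN

variable (p : ℕ) [Fact p.Prime] {C : Type} [Group C] [Finite C]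
variable {Λ Λ' Λ'' : Type} [AddCommGroup Λ] [AddCommGroup Λ'] [AddCommGroup Λ'']

/-- `h_N(Λ) = dim Hom_C(Λ/p, N) − dim Hom_C(N, Λ[p])`. -/
def s56d_hN (N : Rep.{0, 0, 0} (ZMod p) C) (ρ : Representation ℤ C Λ) : ℤ :=
  (s56d_homDim (s56d_modP p ρ) N : ℤ) - s56d_homDim N (s56d_torP p ρ)

theorem s56d_card_ne_zero (hC : (Nat.card C).Coprime p) : ((Nat.card C : ℕ) : ZMod p) ≠ 0 := by
  intro h
  rw [ZMod.natCast_eq_zero_iff] at h
  have h1 : p ∣ Nat.gcd (Nat.card C) p := Nat.dvd_gcd h dvd_rfl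
  rw [hC] at h1
  exact (Fact.out : p.Prime).one_lt.ne' (Nat.dvd_one.mp h1)

variable {p}

/-- **additivity of `h_N`** on short exact sequences. -/
theorem s56d_hN_add (hC : (Nat.card C).Coprime p) (N : Rep.{0, 0, 0} (ZMod p) C) [Finite N.V]
    (ρ' : Representation ℤ C Λ') (ρ : Representation ℤ C Λ) (ρ'' : Representation ℤ C Λ'')
    (i : Λ' →+ Λ) (j : Λ →+ Λ'')
    (hi : ∀ c x, i (ρ' c x) = ρ c (i x)) (hj : ∀ c x, j (ρ c x) = ρ'' c (j x))
    (hinj : Injective i) (hsurj : Surjective j) (hex : ∀ x, j x = 0 ↔ ∃ y, i y = x)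
    [Finite (s56d_TorP p Λ')] [Finite (s56d_TorP p Λ)] [Finite (s56d_TorP p Λ'')]
    [Finite (s56d_ModP p Λ')] [Finite (s56d_ModP p Λ)] [Finite (s56d_ModP p Λ'')] :
    s56d_hN p N ρ = s56d_hN p N ρ' + s56d_hN p N ρ'' := by
  have hG := s56d_card_ne_zero p hC
  have : FiniteDimensional (ZMod p) N.V := Module.Finite.of_finite
  have hφ := s56d_addInv_homDim_right hG N
  have hfT' : Finite (s56d_torP p ρ').V := inferInstanceAs (Finite (s56d_TorP p Λ'))
  have hfT : Finite (s56d_torP p ρ).V := inferInstanceAs (Finite (s56d_TorP p Λ))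
  have hfT'' : Finite (s56d_torP p ρ'').V := inferInstanceAs (Finite (s56d_TorP p Λ''))
  have hfM' : Finite (s56d_modP p ρ').V := inferInstanceAs (Finite (s56d_ModP p Λ'))
  have hfM : Finite (s56d_modP p ρ).V := inferInstanceAs (Finite (s56d_ModP p Λ))
  have hfM'' : Finite (s56d_modP p ρ'').V := inferInstanceAs (Finite (s56d_ModP p Λ''))
  have key := hφ.six_term (s56d_torP p ρ') (s56d_torP p ρ) (s56d_torP p ρ'') (s56d_modP p ρ')
    (s56d_modP p ρ) (s56d_modP p ρ'')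
    ((s56d_TorP.map p i).toZModLinearMap p) ((s56d_TorP.map p j).toZModLinearMap p)
    ((s56d_snakeδ hinj hsurj hex).toZModLinearMap p)
    ((s56d_ModP.map p i).toZModLinearMap p) ((s56d_ModP.map p j).toZModLinearMap p)
    (fun c x => by
      apply s56d_TorP.val_injective
      exact hi c _)
    (fun c x => by
      apply s56d_TorP.val_injective
      exact hj c _)
    (fun c z => by
      change s56d_snakeδ hinj hsurj hex ((s56d_torP p ρ'').ρ c z)
        = (s56d_modP p ρ').ρ c (s56d_snakeδ hinj hsurj hex z)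
      apply s56d_snakeδ_eq
      obtain ⟨x, y, h1, h2, h3⟩ := s56d_snakeδ_spec hinj hsurj hex z
      refine ⟨ρ c x, ρ' c y, ?_, ?_, ?_⟩
      · rw [hj, h1]
        rfl
      · rw [hi, h2, map_nsmul]
      · rw [← h3]
        rfl)
    (fun c w => by
      obtain ⟨x, rfl⟩ := s56d_ModP.mk_surjective p w
      change s56d_ModP.mk p (i (ρ' c x)) = s56d_ModP.mk p (ρ c (i x))
      rw [hi])
    (fun c w => by
      obtain ⟨x, rfl⟩ := s56d_ModP.mk_surjective p w
      change s56d_ModP.mk p (j (ρ c x)) = s56d_ModP.mk p (ρ'' c (j x))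
      rw [hj])
    (LinearMap.ker_eq_bot.mpr (s56d_snake_inj hinj))
    (Submodule.ext fun x => by
      constructor
      · rintro ⟨y, rfl⟩
        exact LinearMap.mem_ker.mpr ((s56d_snake_ex1 hinj hex _).mpr ⟨y, rfl⟩)
      · intro hx
        obtain ⟨y, hy⟩ := (s56d_snake_ex1 hinj hex x).mp (LinearMap.mem_ker.mp hx)
        exact ⟨y, hy⟩)
    (Submodule.ext fun x => by
      constructor
      · rintro ⟨y, rfl⟩
        exact LinearMap.mem_ker.mpr ((s56d_snake_ex2 hinj hsurj hex _).mpr ⟨y, rfl⟩)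
      · intro hx
        obtain ⟨y, hy⟩ := (s56d_snake_ex2 hinj hsurj hex x).mp (LinearMap.mem_ker.mp hx)
        exact ⟨y, hy⟩)
    (Submodule.ext fun x => by
      constructor
      · rintro ⟨y, rfl⟩
        exact LinearMap.mem_ker.mpr ((s56d_snake_ex3 hinj hsurj hex _).mpr ⟨y, rfl⟩)
      · intro hx
        obtain ⟨y, hy⟩ := (s56d_snake_ex3 hinj hsurj hex x).mp (LinearMap.mem_ker.mp hx)
        exact ⟨y, hy⟩)
    (Submodule.ext fun x => by
      constructor
      · rintro ⟨y, rfl⟩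
        exact LinearMap.mem_ker.mpr ((s56d_snake_ex4 hsurj hex _).mpr ⟨y, rfl⟩)
      · intro hx
        obtain ⟨y, hy⟩ := (s56d_snake_ex4 hsurj hex x).mp (LinearMap.mem_ker.mp hx)
        exact ⟨y, hy⟩)
    (LinearMap.range_eq_top.mpr (s56d_snake_surj hsurj))
  unfold s56d_hN
  rw [s56d_homDim_symm hG (s56d_modP p ρ) N, s56d_homDim_symm hG (s56d_modP p ρ') N,
    s56d_homDim_symm hG (s56d_modP p ρ'') N]
  linarith

end HN

end Fermat.Agent.Lib.S56
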