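/-
PROGRAMME W (S56), wall [W4], brick (E4), algebra (helper1, prefix `s56d_`):
**`h_N` vanishes on finite modules** (`s56d_hN_finite`), and iso-invariance of `h_N`.
-/
import Fermat.Agent.Lib.S56.DHN

set_option autoImplicit false
set_option linter.unusedSectionVars false

noncomputable section

namespace Fermat.Agent.Lib.S56

open Module Function

section Iso

variable {p : ℕ} [Fact p.Prime] {C : Type} [Group C] [Finite C]
variable {Λ Λ' : Type} [AddCommGroup Λ] [AddCommGroup Λ']

/-- an equivariant isomorphism induces an isomorphism on `Λ/p`. -/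
theorem s56d_modP_iso (ρ : Representation ℤ C Λ) (ρ' : Representation ℤ C Λ') (e : Λ ≃+ Λ')
    (he : ∀ c x, e (ρ c x) = ρ' c (e x)) : s56d_RepIso (s56d_modP p ρ) (s56d_modP p ρ') := by
  refine ⟨LinearEquiv.ofBijective ((s56d_ModP.map p e.toAddMonoidHom).toZModLinearMap p) ⟨?_, ?_⟩,
    fun c x => ?_⟩
  · intro x y hxy
    have h1 := congrArg (s56d_ModP.map p e.symm.toAddMonoidHom) hxy
    change s56d_ModP.map p e.symm.toAddMonoidHom (s56d_ModP.map p e.toAddMonoidHom x)
      = s56d_ModP.map p e.symm.toAddMonoidHom (s56d_ModP.map p e.toAddMonoidHom y) at h1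
    rw [← s56d_ModP.map_comp, ← s56d_ModP.map_comp] at h1
    have h2 : e.symm.toAddMonoidHom.comp e.toAddMonoidHom = AddMonoidHom.id Λ := by
      ext z
      simp
    rwa [h2, s56d_ModP.map_id, s56d_ModP.map_id] at h1
  · intro y
    obtain ⟨z, rfl⟩ := s56d_ModP.mk_surjective p y
    exact ⟨s56d_ModP.mk p (e.symm z), by
      change s56d_ModP.mk p (e (e.symm z)) = _
      rw [e.apply_symm_apply]⟩
  · obtain ⟨z, rfl⟩ := s56d_ModP.mk_surjective p x
    change s56d_ModP.mk p (e (ρ c z)) = s56d_ModP.mk p (ρ' c (e z))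
    rw [he]

/-- an equivariant isomorphism induces an isomorphism on `Λ[p]`. -/
theorem s56d_torP_iso (ρ : Representation ℤ C Λ) (ρ' : Representation ℤ C Λ') (e : Λ ≃+ Λ')
    (he : ∀ c x, e (ρ c x) = ρ' c (e x)) : s56d_RepIso (s56d_torP p ρ) (s56d_torP p ρ') := by
  refine ⟨LinearEquiv.ofBijective ((s56d_TorP.map p e.toAddMonoidHom).toZModLinearMap p) ⟨?_, ?_⟩,
    fun c x => ?_⟩
  · intro x y hxy
    apply s56d_TorP.val_injective
    apply e.injective
    exact congrArg (s56d_TorP.val p) hxy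
  · intro y
    have hy : p • e.symm (s56d_TorP.val p y) = 0 := by
      rw [← map_nsmul, s56d_TorP.nsmul_val, map_zero]
    refine ⟨s56d_TorP.ofTor p _ hy, ?_⟩
    apply s56d_TorP.val_injective
    change e (e.symm (s56d_TorP.val p y)) = _
    rw [e.apply_symm_apply]
  · apply s56d_TorP.val_injective
    exact he c _

/-- `h_N` is invariant under equivariant isomorphisms. -/
theorem s56d_hN_congr (N : Rep.{0, 0, 0} (ZMod p) C) (ρ : Representation ℤ C Λ)
    (ρ' : Representation ℤ C Λ') (e : Λ ≃+ Λ') (he : ∀ c x, e (ρ c x) = ρ' c (e x)) :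
    s56d_hN p N ρ = s56d_hN p N ρ' := by
  unfold s56d_hN
  rw [s56d_homDim_congr (s56d_modP_iso ρ ρ' e he) (s56d_RepIso.refl N),
    s56d_homDim_congr (s56d_RepIso.refl N) (s56d_torP_iso ρ ρ' e he)]

end Iso

section Finite

variable {p : ℕ} [Fact p.Prime] {C : Type} [Group C] [Finite C]

instance s56d_finite_ModP (Λ : Type) [AddCommGroup Λ] [Finite Λ] : Finite (s56d_ModP p Λ) :=
  inferInstanceAs (Finite (Λ ⧸ (nsmulAddMonoidHom (α := Λ) p).range))

instance s56d_finite_TorP (Λ : Type) [AddCommGroup Λ] [Finite Λ] : Finite (s56d_TorP p Λ) :=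
  inferInstanceAs (Finite ↥(nsmulAddMonoidHom (α := Λ) p).ker)

/-- `h_N` of a module killed by `p` vanishes. -/
theorem s56d_hN_of_killed (hC : (Nat.card C).Coprime p) (N : Rep.{0, 0, 0} (ZMod p) C) [Finite N.V]
    {Λ : Type} [AddCommGroup Λ] [Finite Λ] (ρ : Representation ℤ C Λ) (hΛ : ∀ x : Λ, p • x = 0) :
    s56d_hN p N ρ = 0 := by
  have hG := s56d_card_ne_zero p hC
  have hiso : s56d_RepIso (s56d_torP p ρ) (s56d_modP p ρ) := by
    refine ⟨LinearEquiv.ofBijective
      (((s56d_ModP.mk p).comp (s56d_TorP.val p)).toZModLinearMap p) ⟨?_, ?_⟩, fun c x => rfl⟩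
    · intro x y hxy
      apply s56d_TorP.val_injective
      have h1 : s56d_ModP.mk p (s56d_TorP.val p x - s56d_TorP.val p y) = 0 := by
        rw [map_sub, sub_eq_zero]
        exact hxy
      rw [s56d_ModP.mk_eq_zero_iff] at h1
      obtain ⟨z, hz⟩ := h1
      rw [hΛ z] at hz
      exact (sub_eq_zero.mp hz.symm)
    · intro y
      obtain ⟨z, rfl⟩ := s56d_ModP.mk_surjective p y
      exact ⟨s56d_TorP.ofTor p z (hΛ z), rfl⟩
  have hfM : Finite (s56d_modP p ρ).V := inferInstanceAs (Finite (s56d_ModP p Λ))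
  unfold s56d_hN
  rw [s56d_homDim_symm hG (s56d_modP p ρ) N,
    s56d_homDim_congr (s56d_RepIso.refl N) hiso, sub_self]

/-- **`h_N` vanishes on finite modules.** -/
theorem s56d_hN_finite (hC : (Nat.card C).Coprime p) (N : Rep.{0, 0, 0} (ZMod p) C) [Finite N.V] :
    ∀ (n : ℕ) (Λ : Type) [AddCommGroup Λ] [Finite Λ] (ρ : Representation ℤ C Λ),
      Nat.card Λ ≤ n → s56d_hN p N ρ = 0 := by
  intro n
  induction n with
  | zero =>
    intro Λ _ _ ρ h
    have : 0 < Nat.card Λ := Nat.card_pos
    omega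
  | succ n ih =>
    intro Λ _ _ ρ hcard
    -- the p-torsion submodule
    let T : Submodule ℤ Λ := LinearMap.ker (LinearMap.lsmul ℤ Λ (p : ℤ))
    have hTmem : ∀ x, x ∈ T ↔ p • x = 0 := fun x => by
      change (p : ℤ) • x = 0 ↔ _
      rw [natCast_zsmul]
    have hT : ∀ c, T ≤ T.comap (ρ c) := fun c x hx => by
      rw [Submodule.mem_comap, hTmem, ← map_nsmul, (hTmem x).mp hx, map_zero]
    by_cases hbot : T = ⊥
    · -- multiplication by p is bijective
      have hinj : Injective (nsmulAddMonoidHom (α := Λ) p) := by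
        rw [injective_iff_map_eq_zero]
        intro x hx
        have : x ∈ T := (hTmem x).mpr hx
        rwa [hbot, Submodule.mem_bot] at this
      have hsurj : Surjective (nsmulAddMonoidHom (α := Λ) p) := Finite.surjective_of_injective hinj
      have h1 : Subsingleton (s56d_modP p ρ).V := by
        refine ⟨fun x y => ?_⟩
        obtain ⟨a, rfl⟩ := s56d_ModP.mk_surjective p x
        obtain ⟨b, rfl⟩ := s56d_ModP.mk_surjective p y
        have ha : s56d_ModP.mk p a = 0 := (s56d_ModP.mk_eq_zero_iff p a).mpr (hsurj a)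
        have hb : s56d_ModP.mk p b = 0 := (s56d_ModP.mk_eq_zero_iff p b).mpr (hsurj b)
        rw [ha, hb]
      have h2 : Subsingleton (s56d_torP p ρ).V := by
        refine ⟨fun x y => ?_⟩
        apply s56d_TorP.val_injective
        have hx : s56d_TorP.val p x = 0 := hinj (by simpa using s56d_TorP.nsmul_val p x)
        have hy : s56d_TorP.val p y = 0 := hinj (by simpa using s56d_TorP.nsmul_val p y)
        rw [hx, hy]
      unfold s56d_hN s56d_homDim
      have h3 : Subsingleton ((s56d_modP p ρ).V →ₗ[ZMod p] N.V) :=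
        ⟨fun f g => LinearMap.ext fun x => by rw [Subsingleton.elim x 0, map_zero, map_zero]⟩
      have h4 : Subsingleton (N.V →ₗ[ZMod p] (s56d_torP p ρ).V) :=
        ⟨fun f g => LinearMap.ext fun x => Subsingleton.elim _ _⟩
      rw [finrank_zero_of_subsingleton, finrank_zero_of_subsingleton]
      simp
    · -- the exact sequence 0 → T → Λ → Λ/T → 0
      have hfQ : Finite (Λ ⧸ T) := Finite.of_surjective T.mkQ T.mkQ_surjective
      have hfT : Finite ↥T := inferInstance
      have hlt : Nat.card (Λ ⧸ T) ≤ n := by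
        have h1 : Nat.card Λ = Nat.card T * Nat.card (Λ ⧸ T) :=
          Submodule.card_eq_card_quotient_mul_card T
        have h2 : 1 < Nat.card T := by
          rw [Finite.one_lt_card_iff_nontrivial]
          exact (Submodule.nontrivial_iff_ne_bot).mpr hbot
        have h3 : 0 < Nat.card (Λ ⧸ T) := Nat.card_pos
        nlinarith
      have hadd := s56d_hN_add hC N (ρ.subrepresentation T hT) ρ (ρ.quotient T hT)
        T.subtype.toAddMonoidHom T.mkQ.toAddMonoidHom (fun c x => rfl) (fun c x => rfl)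
        T.injective_subtype T.mkQ_surjective (fun x => by
          change T.mkQ x = 0 ↔ _
          rw [← LinearMap.mem_ker, Submodule.ker_mkQ]
          exact ⟨fun hx => ⟨⟨x, hx⟩, rfl⟩, fun ⟨y, hy⟩ => hy ▸ y.2⟩)
      rw [hadd, ih (Λ ⧸ T) (ρ.quotient T hT) hlt,
        s56d_hN_of_killed hC N (ρ.subrepresentation T hT) (fun x => by
          apply Subtype.ext
          exact (hTmem x.1).mp x.2), add_zero]

theorem s56d_hN_finite' (hC : (Nat.card C).Coprime p) (N : Rep.{0, 0, 0} (ZMod p) C) [Finite N.V]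
    {Λ : Type} [AddCommGroup Λ] [Finite Λ] (ρ : Representation ℤ C Λ) : s56d_hN p N ρ = 0 :=
  s56d_hN_finite hC N _ Λ ρ le_rfl

end Finite

end Fermat.Agent.Lib.S56
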