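/-
PROGRAMME W (S56), wall [W4], brick (E4), algebra (helper1, prefix `s56d_`):
* `s56d_PFin p Λ` : `Λ[p]` and `Λ/p` are finite; two-out-of-three in short exact sequences;
* `s56d_hN_add'` : additivity of `h_N` with `s56d_PFin` hypotheses;
* the MULTIPLICATIVE wrapper: for `[CommGroup X] [MulDistribMulAction C X]`,
  `s56d_hNm p N X := s56d_hN p N (Representation.ofMulDistribMulAction C X)`, with additivity on short exact
  sequences of multiplicative groups (`s56d_hNm_add`), iso-invariance (`s56d_hNm_congr`), vanishing on finite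
  groups (`s56d_hNm_finite`) and the finiteness criterion `s56d_pFinM_iff`.
-/
import Fermat.Agent.Lib.S56.DHNFin

set_option autoImplicit false
set_option linter.unusedSectionVars false

noncomputable section

namespace Fermat.Agent.Lib.S56

open Module Function

section Exact

/-- the middle term of an exact sequence of additive groups with finite ends is finite. -/
theorem s56d_finite_of_exact {A B D : Type*} [AddCommGroup A] [AddCommGroup B] [AddCommGroup D]
    [Finite A] [Finite D] (f : A →+ B) (g : B →+ D) (hex : ∀ b, g b = 0 ↔ ∃ a, f a = b) :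
    Finite B := by
  classical
  let s : D → B := fun d => if h : ∃ b, g b = d then h.choose else 0
  have hs : ∀ b, g (s (g b)) = g b := fun b => by
    have h : ∃ b', g b' = g b := ⟨b, rfl⟩
    change g (if h : ∃ b', g b' = g b then h.choose else 0) = g b
    rw [dif_pos h]
    exact h.choose_spec
  refine Finite.of_surjective (fun x : A × D => f x.1 + s x.2) fun b => ?_
  have h1 : g (b - s (g b)) = 0 := by rw [map_sub, hs, sub_self]
  obtain ⟨a, ha⟩ := (hex _).mp h1
  exact ⟨(a, g b), by change f a + s (g b) = b; rw [ha, sub_add_cancel]⟩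

end Exact

section PFin

variable (p : ℕ) [Fact p.Prime]
variable {Λ Λ' Λ'' : Type} [AddCommGroup Λ] [AddCommGroup Λ'] [AddCommGroup Λ'']

/-- `Λ[p]` and `Λ/p` are finite. -/
def s56d_PFin (Λ : Type) [AddCommGroup Λ] : Prop :=
  Finite (s56d_TorP p Λ) ∧ Finite (s56d_ModP p Λ)

theorem s56d_pFin_of_finite (Λ : Type) [AddCommGroup Λ] [Finite Λ] : s56d_PFin p Λ :=
  ⟨inferInstance, inferInstance⟩

variable {p}
variable {i : Λ' →+ Λ} {j : Λ →+ Λ''}

theorem s56d_PFin.of_left_right (hinj : Injective i) (hsurj : Surjective j)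
    (hex : ∀ x, j x = 0 ↔ ∃ y, i y = x) (h' : s56d_PFin p Λ') (h'' : s56d_PFin p Λ'') :
    s56d_PFin p Λ := by
  obtain ⟨hT', hM'⟩ := h'
  obtain ⟨hT'', hM''⟩ := h''
  exact ⟨s56d_finite_of_exact (s56d_TorP.map p i) (s56d_TorP.map p j) (s56d_snake_ex1 hinj hex),
    s56d_finite_of_exact (s56d_ModP.map p i) (s56d_ModP.map p j) (s56d_snake_ex4 hsurj hex)⟩

theorem s56d_PFin.of_left_mid (hinj : Injective i) (hsurj : Surjective j)
    (hex : ∀ x, j x = 0 ↔ ∃ y, i y = x) (h' : s56d_PFin p Λ') (h : s56d_PFin p Λ) :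
    s56d_PFin p Λ'' := by
  obtain ⟨hT', hM'⟩ := h'
  obtain ⟨hT, hM⟩ := h
  exact ⟨s56d_finite_of_exact (s56d_TorP.map p j) (s56d_snakeδ hinj hsurj hex)
      (s56d_snake_ex2 hinj hsurj hex),
    Finite.of_surjective _ (s56d_snake_surj (p := p) hsurj)⟩

theorem s56d_PFin.of_mid_right (hinj : Injective i) (hsurj : Surjective j)
    (hex : ∀ x, j x = 0 ↔ ∃ y, i y = x) (h : s56d_PFin p Λ) (h'' : s56d_PFin p Λ'') :
    s56d_PFin p Λ' := by
  obtain ⟨hT, hM⟩ := h
  obtain ⟨hT'', hM''⟩ := h''
  exact ⟨Finite.of_injective _ (s56d_snake_inj (p := p) hinj),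
    s56d_finite_of_exact (s56d_snakeδ hinj hsurj hex) (s56d_ModP.map p i)
      (s56d_snake_ex3 hinj hsurj hex)⟩

/-- `PFin` is invariant under isomorphisms. -/
theorem s56d_PFin.congr (e : Λ ≃+ Λ') (h : s56d_PFin p Λ) : s56d_PFin p Λ' := by
  obtain ⟨hT, hM⟩ := h
  refine ⟨Finite.of_injective (s56d_TorP.map p e.symm.toAddMonoidHom) fun x y hxy => ?_,
    Finite.of_surjective (s56d_ModP.map p e.toAddMonoidHom) fun y => ?_⟩
  · apply s56d_TorP.val_injective
    apply e.symm.injective
    exact congrArg (s56d_TorP.val p) hxy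
  · obtain ⟨z, rfl⟩ := s56d_ModP.mk_surjective p y
    exact ⟨s56d_ModP.mk p (e.symm z), by
      change s56d_ModP.mk p (e (e.symm z)) = _
      rw [e.apply_symm_apply]⟩

variable {C : Type} [Group C] [Finite C]

/-- **additivity of `h_N`**, `PFin` form. -/
theorem s56d_hN_add' (hC : (Nat.card C).Coprime p) (N : Rep.{0, 0, 0} (ZMod p) C) [Finite N.V]
    (ρ' : Representation ℤ C Λ') (ρ : Representation ℤ C Λ) (ρ'' : Representation ℤ C Λ'')
    (i : Λ' →+ Λ) (j : Λ →+ Λ'')
    (hi : ∀ c x, i (ρ' c x) = ρ c (i x)) (hj : ∀ c x, j (ρ c x) = ρ'' c (j x))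
    (hinj : Injective i) (hsurj : Surjective j) (hex : ∀ x, j x = 0 ↔ ∃ y, i y = x)
    (h' : s56d_PFin p Λ') (h'' : s56d_PFin p Λ'') :
    s56d_hN p N ρ = s56d_hN p N ρ' + s56d_hN p N ρ'' := by
  have h := s56d_PFin.of_left_right hinj hsurj hex h' h''
  obtain ⟨hT', hM'⟩ := h'
  obtain ⟨hT'', hM''⟩ := h''
  obtain ⟨hT, hM⟩ := h
  exact s56d_hN_add hC N ρ' ρ ρ'' i j hi hj hinj hsurj hex

end PFin

section Mul

variable (p : ℕ) [Fact p.Prime] {C : Type} [Group C] [Finite C]
variable (X X' X'' : Type) [CommGroup X] [CommGroup X'] [CommGroup X'']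

/-- `X[p]` and `X/X^p` are finite (multiplicative notation). -/
def s56d_PFinM : Prop := s56d_PFin p (Additive X)

theorem s56d_pFinM_of_finite [Finite X] : s56d_PFinM p X :=
  s56d_pFin_of_finite p (Additive X)

/-- the finiteness criterion in multiplicative terms. -/
theorem s56d_pFinM_iff : s56d_PFinM p X ↔
    Finite {x : X // x ^ p = 1} ∧ Finite (X ⧸ (powMonoidHom p : X →* X).range) := by
  constructor
  · rintro ⟨hT, hM⟩
    refine ⟨Finite.of_injective
      (fun x : {x : X // x ^ p = 1} => s56d_TorP.ofTor p (Additive.ofMul x.1) (by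
        change Additive.ofMul (x.1 ^ p) = 0
        rw [x.2]; rfl)) fun x y hxy => ?_, ?_⟩
    · apply Subtype.ext
      exact congrArg (fun z => Additive.toMul (s56d_TorP.val p z)) hxy
    · refine Finite.of_surjective (fun w : s56d_ModP p (Additive X) =>
        (QuotientGroup.mk (Additive.toMul (Quotient.out w)) : X ⧸ (powMonoidHom p : X →* X).range))
        fun y => ?_
      obtain ⟨x, rfl⟩ := QuotientGroup.mk_surjective y
      refine ⟨s56d_ModP.mk p (Additive.ofMul x), ?_⟩
      have h1 : s56d_ModP.mk p (Quotient.out (s56d_ModP.mk p (Additive.ofMul x)))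
          = s56d_ModP.mk p (Additive.ofMul x) := Quotient.out_eq _
      have h2 : s56d_ModP.mk p (Quotient.out (s56d_ModP.mk p (Additive.ofMul x))
          - Additive.ofMul x) = 0 := by rw [map_sub, h1, sub_self]
      rw [s56d_ModP.mk_eq_zero_iff] at h2
      obtain ⟨z, hz⟩ := h2
      change (QuotientGroup.mk _ : X ⧸ (powMonoidHom p : X →* X).range) = QuotientGroup.mk x
      rw [QuotientGroup.eq]
      refine ⟨(Additive.toMul z)⁻¹, ?_⟩
      have h3 := congrArg Additive.toMul hz
      change (Additive.toMul z) ^ p = _ / x at h3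
      change ((Additive.toMul z)⁻¹) ^ p = _
      rw [inv_pow, h3, inv_div, div_eq_mul_inv, mul_comm]
  · rintro ⟨hT, hM⟩
    refine ⟨Finite.of_injective (fun z : s56d_TorP p (Additive X) =>
      (⟨Additive.toMul (s56d_TorP.val p z), by
        have := s56d_TorP.nsmul_val p z
        exact congrArg Additive.toMul this⟩ : {x : X // x ^ p = 1})) fun x y hxy => ?_, ?_⟩
    · apply s56d_TorP.val_injective
      exact congrArg (fun z : {x : X // x ^ p = 1} => Additive.ofMul z.1) hxy
    · refine Finite.of_surjective (fun y : X ⧸ (powMonoidHom p : X →* X).range =>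
        s56d_ModP.mk p (Additive.ofMul (Quotient.out y))) fun w => ?_
      obtain ⟨x, rfl⟩ := s56d_ModP.mk_surjective p w
      refine ⟨QuotientGroup.mk (Additive.toMul x), ?_⟩
      have h1 : (QuotientGroup.mk (Quotient.out (QuotientGroup.mk (Additive.toMul x) :
          X ⧸ (powMonoidHom p : X →* X).range)) : X ⧸ (powMonoidHom p : X →* X).range)
          = QuotientGroup.mk (Additive.toMul x) := Quotient.out_eq _
      rw [QuotientGroup.eq] at h1
      obtain ⟨z, hz⟩ := h1
      change s56d_ModP.mk p _ = s56d_ModP.mk p x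
      rw [← sub_eq_zero, ← map_sub, s56d_ModP.mk_eq_zero_iff]
      refine ⟨Additive.ofMul z⁻¹, ?_⟩
      change Additive.ofMul ((z⁻¹) ^ p) = Additive.ofMul (_ / Additive.toMul x)
      congr 1
      change z ^ p = _ at hz
      rw [inv_pow, hz, mul_inv_rev, inv_inv, div_eq_mul_inv]
      exact mul_comm _ _

variable {X X' X''} [MulDistribMulAction C X] [MulDistribMulAction C X'] [MulDistribMulAction C X'']

variable (X) in
/-- `h_N` of a multiplicative `C`-module. -/
def s56d_hNm (N : Rep.{0, 0, 0} (ZMod p) C) : ℤ :=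
  s56d_hN p N (Representation.ofMulDistribMulAction C X)

variable {p}

/-- additivity of `h_N` on short exact sequences of multiplicative `C`-modules. -/
theorem s56d_hNm_add (hC : (Nat.card C).Coprime p) (N : Rep.{0, 0, 0} (ZMod p) C) [Finite N.V]
    (i : X' →* X) (j : X →* X'')
    (hi : ∀ (c : C) x, i (c • x) = c • i x) (hj : ∀ (c : C) x, j (c • x) = c • j x)
    (hinj : Injective i) (hsurj : Surjective j) (hex : ∀ x, j x = 1 ↔ ∃ y, i y = x)
    (h' : s56d_PFinM p X') (h'' : s56d_PFinM p X'') :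
    s56d_hNm p X N = s56d_hNm p X' N + s56d_hNm p X'' N :=
  s56d_hN_add' hC N _ _ _ (MonoidHom.toAdditive i) (MonoidHom.toAdditive j)
    (fun c x => congrArg Additive.ofMul (hi c (Additive.toMul x)))
    (fun c x => congrArg Additive.ofMul (hj c (Additive.toMul x)))
    (fun x y hxy => congrArg Additive.ofMul (hinj (congrArg Additive.toMul hxy)))
    (fun y => by
      obtain ⟨x, hx⟩ := hsurj (Additive.toMul y)
      exact ⟨Additive.ofMul x, congrArg Additive.ofMul hx⟩)
    (fun x => by
      constructor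
      · intro h
        obtain ⟨y, hy⟩ := (hex (Additive.toMul x)).mp (congrArg Additive.toMul h)
        exact ⟨Additive.ofMul y, congrArg Additive.ofMul hy⟩
      · rintro ⟨y, rfl⟩
        exact congrArg Additive.ofMul ((hex _).mpr ⟨Additive.toMul y, rfl⟩)) h' h''

/-- two-out-of-three for `PFinM` (the other two cases are obtained in the same way from
`s56d_PFin.of_left_mid`, `s56d_PFin.of_mid_right`). -/
theorem s56d_PFinM.of_left_right (i : X' →* X) (j : X →* X'')
    (hinj : Injective i) (hsurj : Surjective j) (hex : ∀ x, j x = 1 ↔ ∃ y, i y = x)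
    (h' : s56d_PFinM p X') (h'' : s56d_PFinM p X'') : s56d_PFinM p X :=
  s56d_PFin.of_left_right (i := MonoidHom.toAdditive i) (j := MonoidHom.toAdditive j)
    (fun x y hxy => congrArg Additive.ofMul (hinj (congrArg Additive.toMul hxy)))
    (fun y => by
      obtain ⟨x, hx⟩ := hsurj (Additive.toMul y)
      exact ⟨Additive.ofMul x, congrArg Additive.ofMul hx⟩)
    (fun x => by
      constructor
      · intro h
        obtain ⟨y, hy⟩ := (hex (Additive.toMul x)).mp (congrArg Additive.toMul h)
        exact ⟨Additive.ofMul y, congrArg Additive.ofMul hy⟩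
      · rintro ⟨y, rfl⟩
        exact congrArg Additive.ofMul ((hex _).mpr ⟨Additive.toMul y, rfl⟩)) h' h''

theorem s56d_PFinM.of_left_mid (i : X' →* X) (j : X →* X'')
    (hinj : Injective i) (hsurj : Surjective j) (hex : ∀ x, j x = 1 ↔ ∃ y, i y = x)
    (h' : s56d_PFinM p X') (h : s56d_PFinM p X) : s56d_PFinM p X'' :=
  s56d_PFin.of_left_mid (i := MonoidHom.toAdditive i) (j := MonoidHom.toAdditive j)
    (fun x y hxy => congrArg Additive.ofMul (hinj (congrArg Additive.toMul hxy)))
    (fun y => by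
      obtain ⟨x, hx⟩ := hsurj (Additive.toMul y)
      exact ⟨Additive.ofMul x, congrArg Additive.ofMul hx⟩)
    (fun x => by
      constructor
      · intro h
        obtain ⟨y, hy⟩ := (hex (Additive.toMul x)).mp (congrArg Additive.toMul h)
        exact ⟨Additive.ofMul y, congrArg Additive.ofMul hy⟩
      · rintro ⟨y, rfl⟩
        exact congrArg Additive.ofMul ((hex _).mpr ⟨Additive.toMul y, rfl⟩)) h' h

theorem s56d_PFinM.of_mid_right (i : X' →* X) (j : X →* X'')
    (hinj : Injective i) (hsurj : Surjective j) (hex : ∀ x, j x = 1 ↔ ∃ y, i y = x)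
    (h : s56d_PFinM p X) (h'' : s56d_PFinM p X'') : s56d_PFinM p X' :=
  s56d_PFin.of_mid_right (i := MonoidHom.toAdditive i) (j := MonoidHom.toAdditive j)
    (fun x y hxy => congrArg Additive.ofMul (hinj (congrArg Additive.toMul hxy)))
    (fun y => by
      obtain ⟨x, hx⟩ := hsurj (Additive.toMul y)
      exact ⟨Additive.ofMul x, congrArg Additive.ofMul hx⟩)
    (fun x => by
      constructor
      · intro h
        obtain ⟨y, hy⟩ := (hex (Additive.toMul x)).mp (congrArg Additive.toMul h)
        exact ⟨Additive.ofMul y, congrArg Additive.ofMul hy⟩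
      · rintro ⟨y, rfl⟩
        exact congrArg Additive.ofMul ((hex _).mpr ⟨Additive.toMul y, rfl⟩)) h h''

/-- iso-invariance. -/
theorem s56d_hNm_congr (N : Rep.{0, 0, 0} (ZMod p) C) (e : X ≃* X')
    (he : ∀ (c : C) x, e (c • x) = c • e x) : s56d_hNm p X N = s56d_hNm p X' N :=
  s56d_hN_congr N _ _ (MulEquiv.toAdditive e)
    (fun c x => congrArg Additive.ofMul (he c (Additive.toMul x)))

theorem s56d_PFinM.congr (e : X ≃* X') (h : s56d_PFinM p X) : s56d_PFinM p X' :=
  s56d_PFin.congr (MulEquiv.toAdditive e) h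

/-- `h_N` vanishes on finite groups. -/
theorem s56d_hNm_finite (hC : (Nat.card C).Coprime p) (N : Rep.{0, 0, 0} (ZMod p) C) [Finite N.V]
    [Finite X] : s56d_hNm p X N = 0 :=
  s56d_hN_finite' hC N _

end Mul

end Fermat.Agent.Lib.S56
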