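/-
Programme W (S56), wall [W4], brick (E4), idele half (helper4): general lemmas on helper1's `h_N`
(`s56d_hNm`, `DHNMul.lean`) for multiplicative `C`-modules:
* `s56b_hNm_of_bijective`: `x ↦ x ^ p` bijective on `X` ⟹ `h_N(X) = 0`;
* `s56b_hNm_of_finiteIndex`: `V ≤ X` stable of finite index ⟹ `h_N(X) = h_N(V)`;
* `s56b_hNm_eq_of_modP_iso`: `X[p] = 1`, `Λ'[p] = 0`, `Λ'/p ≅ X/X^p` equivariantly ⟹
  `h_N(X) = h_N(Λ')`;
* `s56b_pFin_of_fg`: finitely generated abelian groups have finite `Λ[p]`, `Λ/p`.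
-/
import Fermat.Agent.Lib.S56.DHNMul
import Fermat.Agent.Lib.S56.BIdeleSeq

set_option autoImplicit false
set_option linter.unusedSectionVars false

noncomputable section

namespace Fermat.Agent.Lib.S56

open Module Function

section HomDim

variable {k : Type} [Field k] {G : Type} [Group G]

theorem s56b_homDim_zero_left (X Y : Rep.{0, 0, 0} k G) [Subsingleton X.V] :
    s56d_homDim X Y = 0 := by
  unfold s56d_homDim
  have h1 : Subsingleton (X.V →ₗ[k] Y.V) :=
    ⟨fun f g => LinearMap.ext fun x => by rw [Subsingleton.elim x 0, map_zero, map_zero]⟩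
  exact Module.finrank_zero_of_subsingleton

theorem s56b_homDim_zero_right (X Y : Rep.{0, 0, 0} k G) [Subsingleton Y.V] :
    s56d_homDim X Y = 0 := by
  unfold s56d_homDim
  have h1 : Subsingleton (X.V →ₗ[k] Y.V) :=
    ⟨fun f g => LinearMap.ext fun x => Subsingleton.elim _ _⟩
  exact Module.finrank_zero_of_subsingleton

end HomDim

section Gen

variable {p : ℕ} [Fact p.Prime] {C : Type} [Group C] [Finite C]
variable {X : Type} [CommGroup X] [MulDistribMulAction C X]

/-- the action on the quotient by a stable subgroup. -/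
@[reducible] def s56b_quotAction (V : Subgroup X) (hV : ∀ (c : C) (x : X), x ∈ V → c • x ∈ V) :
    MulDistribMulAction C (X ⧸ V) where
  smul c := Quotient.map' (fun f => c • f) (fun a b hab => by
    rw [QuotientGroup.leftRel_apply] at hab ⊢
    have := hV c _ hab
    rwa [smul_mul', smul_inv'] at this)
  one_smul x := by
    induction x using QuotientGroup.induction_on with
    | H f => exact congrArg _ (one_smul C f)
  mul_smul c c' x := by
    induction x using QuotientGroup.induction_on with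
    | H f => exact congrArg _ (mul_smul c c' f)
  smul_mul c x y := by
    induction x using QuotientGroup.induction_on with
    | H f =>
      induction y using QuotientGroup.induction_on with
      | H g => exact congrArg _ (smul_mul' c f g)
  smul_one c := congrArg _ (smul_one c)

theorem s56b_subsingleton_torP (hinj : ∀ x : X, x ^ p = 1 → x = 1) :
    Subsingleton (s56d_TorP p (Additive X)) := by
  refine ⟨fun a b => ?_⟩
  apply s56d_TorP.val_injective
  have key : ∀ z : s56d_TorP p (Additive X), s56d_TorP.val p z = 0 := by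
    intro z
    have h1 := s56d_TorP.nsmul_val p z
    have h2 : (Additive.toMul (s56d_TorP.val p z)) ^ p = 1 := congrArg Additive.toMul h1
    exact congrArg Additive.ofMul (hinj _ h2)
  rw [key a, key b]

theorem s56b_subsingleton_modP (hsurj : ∀ y : X, ∃ x : X, x ^ p = y) :
    Subsingleton (s56d_ModP p (Additive X)) := by
  have key : ∀ w : s56d_ModP p (Additive X), w = 0 := by
    intro w
    obtain ⟨y, rfl⟩ := s56d_ModP.mk_surjective p w
    rw [s56d_ModP.mk_eq_zero_iff]
    obtain ⟨x, hx⟩ := hsurj (Additive.toMul y)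
    exact ⟨Additive.ofMul x, congrArg Additive.ofMul hx⟩
  exact ⟨fun a b => by rw [key a, key b]⟩

/-- `h_N` vanishes when `x ↦ x ^ p` is bijective. -/
theorem s56b_hNm_of_bijective (N : Rep.{0, 0, 0} (ZMod p) C)
    (hinj : ∀ x : X, x ^ p = 1 → x = 1) (hsurj : ∀ y : X, ∃ x : X, x ^ p = y) :
    s56d_PFinM p X ∧ s56d_hNm p X N = 0 := by
  have hT := s56b_subsingleton_torP (p := p) hinj
  have hM := s56b_subsingleton_modP (p := p) hsurj
  refine ⟨⟨inferInstance, inferInstance⟩, ?_⟩
  unfold s56d_hNm s56d_hN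
  have hM' : Subsingleton (s56d_modP p (Representation.ofMulDistribMulAction C X)).V := hM
  have hT' : Subsingleton (s56d_torP p (Representation.ofMulDistribMulAction C X)).V := hT
  rw [s56b_homDim_zero_left (s56d_modP p (Representation.ofMulDistribMulAction C X)) N,
    s56b_homDim_zero_right N (s56d_torP p (Representation.ofMulDistribMulAction C X))]
  simp

/-- `h_N` only depends on a stable subgroup of finite index. -/
theorem s56b_hNm_of_finiteIndex (hC : (Nat.card C).Coprime p) (N : Rep.{0, 0, 0} (ZMod p) C)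
    [Finite N.V] (V : Subgroup X) (hV : ∀ (c : C) (x : X), x ∈ V → c • x ∈ V) [V.FiniteIndex]
    (hPV : s56d_PFinM p ↥V) :
    s56d_PFinM p X ∧
      s56d_hNm p X N = @s56d_hNm p _ C _ ↥V _ (s56b_subAction V hV) N := by
  let _ := s56b_subAction V hV
  let _ := s56b_quotAction V hV
  have hfin : Finite (X ⧸ V) := Subgroup.finite_quotient_of_finiteIndex
  have hex : ∀ x : X, QuotientGroup.mk' V x = 1 ↔ ∃ y : ↥V, V.subtype y = x := by
    intro x
    rw [QuotientGroup.mk'_apply, QuotientGroup.eq_one_iff]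
    exact ⟨fun h => ⟨⟨x, h⟩, rfl⟩, fun ⟨y, hy⟩ => hy ▸ y.2⟩
  have hq := s56d_pFinM_of_finite p (X ⧸ V)
  refine ⟨s56d_PFinM.of_left_right V.subtype (QuotientGroup.mk' V) V.subtype_injective
    (QuotientGroup.mk'_surjective V) hex hPV hq, ?_⟩
  rw [s56d_hNm_add hC N V.subtype (QuotientGroup.mk' V) (fun _ _ => rfl) (fun _ _ => rfl)
    V.subtype_injective (QuotientGroup.mk'_surjective V) hex hPV hq,
    s56d_hNm_finite (X := X ⧸ V) hC N, add_zero]

/-- `h_N(X) = h_N(Λ')` if both are `p`-torsion free and `Λ'/p ≅ X/X^p` equivariantly. -/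
theorem s56b_hNm_eq_of_modP_iso (N : Rep.{0, 0, 0} (ZMod p) C)
    {Λ' : Type} [AddCommGroup Λ'] (ρ' : Representation ℤ C Λ') [Finite (s56d_ModP p Λ')]
    (hX : ∀ x : X, x ^ p = 1 → x = 1) (hΛ' : ∀ a : Λ', p • a = 0 → a = 0)
    (e : s56d_ModP p Λ' ≃+ s56d_ModP p (Additive X))
    (he : ∀ (c : C) (a : Λ'), ∃ x : X, e (s56d_ModP.mk p a) = s56d_ModP.mk p (Additive.ofMul x) ∧
      e (s56d_ModP.mk p (ρ' c a)) = s56d_ModP.mk p (Additive.ofMul (c • x))) :
    s56d_PFinM p X ∧ s56d_hNm p X N = s56d_hN p N ρ' := by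
  have hT := s56b_subsingleton_torP (p := p) hX
  have hT' : Subsingleton (s56d_TorP p Λ') := by
    refine ⟨fun a b => ?_⟩
    apply s56d_TorP.val_injective
    rw [hΛ' _ (s56d_TorP.nsmul_val p a), hΛ' _ (s56d_TorP.nsmul_val p b)]
  refine ⟨⟨inferInstance, Finite.of_equiv _ e.toEquiv⟩, ?_⟩
  unfold s56d_hNm s56d_hN
  have h1 : Subsingleton (s56d_torP p (Representation.ofMulDistribMulAction C X)).V := hT
  have h2 : Subsingleton (s56d_torP p ρ').V := hT'
  rw [s56b_homDim_zero_right N (s56d_torP p (Representation.ofMulDistribMulAction C X)),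
    s56b_homDim_zero_right N (s56d_torP p ρ')]
  have hiso : s56d_RepIso (s56d_modP p ρ') (s56d_modP p (Representation.ofMulDistribMulAction C X)) := by
    refine ⟨LinearEquiv.ofBijective (e.toAddMonoidHom.toZModLinearMap p) e.bijective, fun c w => ?_⟩
    obtain ⟨a, rfl⟩ := s56d_ModP.mk_surjective p w
    obtain ⟨x, hx1, hx2⟩ := he c a
    rw [s56d_modP_ρ_mk]
    change e (s56d_ModP.mk p (ρ' c a)) = (s56d_modP p (Representation.ofMulDistribMulAction C X)).ρ c
      (e (s56d_ModP.mk p a))
    rw [hx2, hx1, s56d_modP_ρ_mk]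
    rfl
  rw [s56d_homDim_congr hiso (s56d_RepIso.refl N)]

end Gen

section FG

variable (p : ℕ) [Fact p.Prime]

/-- finitely generated abelian groups have finite `Λ[p]` and `Λ/p`. -/
theorem s56b_pFin_of_fg (Λ : Type) [AddCommGroup Λ] [Module.Finite ℤ Λ] : s56d_PFin p Λ := by
  have hp0 : (p : ℤ) ≠ 0 := by exact_mod_cast (Fact.out : p.Prime).ne_zero
  constructor
  · -- `Λ[p]`
    have hfg : Module.Finite ℤ ↥(nsmulAddMonoidHom (α := Λ) p).ker.toIntSubmodule :=
      Module.IsNoetherian.finite ℤ _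
    have htors : Module.IsTorsion ℤ ↥(nsmulAddMonoidHom (α := Λ) p).ker.toIntSubmodule := by
      intro x
      refine ⟨⟨(p : ℤ), mem_nonZeroDivisors_of_ne_zero hp0⟩, ?_⟩
      apply Subtype.ext
      have hx : p • (x : Λ) = 0 := x.2
      rw [Submonoid.mk_smul, Submodule.coe_smul, natCast_zsmul]
      exact hx
    have := Module.finite_of_fg_torsion _ htors
    exact Finite.of_equiv ↥(nsmulAddMonoidHom (α := Λ) p).ker.toIntSubmodule
      (Equiv.subtypeEquivRight fun _ => Iff.rfl)
  · -- `Λ/p`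
    have hfg : Module.Finite ℤ (Λ ⧸ (nsmulAddMonoidHom (α := Λ) p).range.toIntSubmodule) :=
      inferInstance
    have htors : Module.IsTorsion ℤ (Λ ⧸ (nsmulAddMonoidHom (α := Λ) p).range.toIntSubmodule) := by
      intro x
      refine ⟨⟨(p : ℤ), mem_nonZeroDivisors_of_ne_zero hp0⟩, ?_⟩
      obtain ⟨y, rfl⟩ := Submodule.Quotient.mk_surjective _ x
      rw [Submonoid.mk_smul, ← Submodule.Quotient.mk_smul, Submodule.Quotient.mk_eq_zero,
        natCast_zsmul]
      exact ⟨y, rfl⟩
    have := Module.finite_of_fg_torsion _ htors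
    exact this

end FG

end Fermat.Agent.Lib.S56
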