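/-
Programme W (S56), wall [W4], brick B7 (S2) (helper4): **the class group of the embedding model is
finite**: `Finite (s56b_Cl K)`, `s56b_Cl K = J_K / (Kˣ · U_K)`.

Proof: `J_K = Kˣ · J_{K,T}` for `T` large (`ptk_class_group`); two `T`-ideles whose valuation vectors
at the primes over `T` are congruent modulo `n` (`n · ℤ^P ⊆ ord(T-units)`,
`cfh_exists_smul_mem_range`) have the same class.
-/
import Fermat.Agent.Lib.S56.BIdeleSeq

set_option autoImplicit false
set_option linter.unusedSectionVars false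

noncomputable section

namespace Fermat.Agent.Lib.S56

open Fermat.Agent.Lib.PT IsDedekindDomain NumberField

variable {K : Type*} [Field K] [NumberField K]

/-- norm criterion: if `w = y / (y' x)` has trivial valuation at `primeOf σ`, the norms multiply. -/
lemma s56b_norm_eq_of_valuation {q : Nat.Primes} (σ : ptj_Emb K q) (y y' x : Kˣ)
    (h : (cfh_primeOf σ).valuation K ((y : K) / ((y' : K) * (x : K))) = 1) :
    ‖σ (y : K)‖ = ‖σ (y' : K)‖ * ‖σ (x : K)‖ := by
  have h1 := (cfh_norm_eq_one_iff σ _).2 h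
  rw [map_div₀, map_mul, norm_div, norm_mul] at h1
  have h0 : ‖σ (y' : K)‖ * ‖σ (x : K)‖ ≠ 0 := by
    apply mul_ne_zero
    · exact norm_ne_zero_iff.2 ((map_ne_zero σ).2 y'.ne_zero)
    · exact norm_ne_zero_iff.2 ((map_ne_zero σ).2 x.ne_zero)
  exact (div_eq_one_iff_eq h0).1 h1

/-- two `T`-ideles whose valuation vectors over `T` differ by the divisor of a `T`-unit differ by a
principal idele times a unit idele. -/
lemma s56b_div_mem_JT_empty {T : Finset Nat.Primes} {f g : ptj_J K} (hf : f ∈ ptj_JT K T)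
    (hg : g ∈ ptj_JT K T) (x : Kˣ) (hx : ptj_diag K x ∈ ptj_JT K T)
    (yf yg : HeightOneSpectrum (𝓞 K) → Kˣ)
    (hyf : ∀ (v : HeightOneSpectrum (𝓞 K)) (q : Nat.Primes) (σ : ptj_Emb K q), cfh_primeOf σ = v →
      ‖σ (yf v : K)‖ = ‖(((f : ptj_Amb K) q σ : (ptj_Om q)ˣ) : ptj_Om q)‖)
    (hyg : ∀ (v : HeightOneSpectrum (𝓞 K)) (q : Nat.Primes) (σ : ptj_Emb K q), cfh_primeOf σ = v →
      ‖σ (yg v : K)‖ = ‖(((g : ptj_Amb K) q σ : (ptj_Om q)ˣ) : ptj_Om q)‖)
    (hval : ∀ v ∈ cfh_primesOver K T,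
      v.valuationOfNeZero (yf v) = v.valuationOfNeZero (yg v) * v.valuationOfNeZero x) :
    f / (g * ptj_diag K x) ∈ ptj_JT K ∅ := by
  intro q _ σ
  have hcoe : ((((f / (g * ptj_diag K x) : ptj_J K) : ptj_Amb K) q σ : (ptj_Om q)ˣ) : ptj_Om q) =
      (((f : ptj_Amb K) q σ : (ptj_Om q)ˣ) : ptj_Om q) /
        ((((g : ptj_Amb K) q σ : (ptj_Om q)ˣ) : ptj_Om q) * σ (x : K)) := by
    show ((((f : ptj_Amb K) q σ) / (((g : ptj_Amb K) q σ) * (ptj_diagAmb x q σ)) : (ptj_Om q)ˣ) :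
      ptj_Om q) = _
    rw [Units.val_div_eq_div_val, Units.val_mul, ptj_diagAmb_apply]
  rw [hcoe, norm_div, norm_mul]
  by_cases hq : q ∈ T
  · have hv : cfh_primeOf σ ∈ cfh_primesOver K T := (cfh_primeOf_mem_primesOver σ).2 hq
    set v := cfh_primeOf σ with hvdef
    have h1 : v.valuationOfNeZero (yf v / (yg v * x)) = 1 := by
      rw [map_div, map_mul, hval v hv, div_self']
    have h2 : v.valuation K (((yf v / (yg v * x) : Kˣ)) : K) = 1 := by
      rw [← v.valuationOfNeZero_eq, h1]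
      rfl
    have h3 : (((yf v / (yg v * x) : Kˣ)) : K) = (yf v : K) / ((yg v : K) * (x : K)) := by
      rw [Units.val_div_eq_div_val, Units.val_mul]
    rw [h3] at h2
    have h4 := s56b_norm_eq_of_valuation σ (yf v) (yg v) x h2
    rw [← hyf v q σ rfl, ← hyg v q σ rfl, h4]
    apply div_self
    apply mul_ne_zero
    · exact norm_ne_zero_iff.2 ((map_ne_zero σ).2 (yg v).ne_zero)
    · exact norm_ne_zero_iff.2 ((map_ne_zero σ).2 x.ne_zero)
  · have h1 := hf q hq σ
    have h2 := hg q hq σ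
    have h3 : ‖σ (x : K)‖ = 1 := hx q hq σ
    rw [h1, h2, h3]
    norm_num

variable (K) in
/-- **The class group of the embedding model is finite.** -/
theorem s56b_finite_Cl : Finite (s56b_Cl K) := by
  classical
  obtain ⟨T, hT₀⟩ := ptk_class_group K
  have hTop : ptj_principal K ⊔ ptj_JT K T = ⊤ := hT₀ T subset_rfl
  obtain ⟨n, hn0, hn⟩ := cfh_exists_smul_mem_range K (cfh_primesOver K T)
  have : NeZero n := ⟨hn0⟩
  choose y hy using fun f : ptj_J K => fun v : HeightOneSpectrum (𝓞 K) => ptk_exists_same_norm f v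
  -- every class has a representative in `J_{K,T}`
  have hrep : ∀ c : s56b_Cl K, ∃ f : ptj_J K, f ∈ ptj_JT K T ∧
      (QuotientGroup.mk f : s56b_Cl K) = c := by
    intro c
    induction c using QuotientGroup.induction_on with
    | H f =>
      have hf : f ∈ ptj_principal K ⊔ ptj_JT K T := by rw [hTop]; trivial
      obtain ⟨a, ha, g, hg, rfl⟩ := Subgroup.mem_sup.1 hf
      refine ⟨g, hg, ?_⟩
      symm
      rw [QuotientGroup.eq]
      have : (a * g)⁻¹ * g = a⁻¹ := by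
        rw [mul_inv_rev, mul_comm g⁻¹, mul_assoc, inv_mul_cancel, mul_one]
      rw [this]
      exact Subgroup.mem_sup_left ((ptj_principal K).inv_mem ha)
  choose r hrT hrc using hrep
  let Φ : ptj_J K → ({v // v ∈ cfh_primesOver K T} → ℤ) := fun f v =>
    Multiplicative.toAdd (v.1.valuationOfNeZero (y f v.1))
  let R : s56b_Cl K → ({v // v ∈ cfh_primesOver K T} → ZMod n) := fun c v =>
    ((Φ (r c) v : ℤ) : ZMod n)
  refine Finite.of_injective R fun c c' h => ?_
  -- the difference of the valuation vectors is divisible by `n`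
  have hdvd : ∀ v, (n : ℤ) ∣ Φ (r c) v - Φ (r c') v := fun v => by
    have := congrFun h v
    have h2 : (((Φ (r c) v - Φ (r c') v : ℤ)) : ZMod n) = 0 := by
      rw [Int.cast_sub]
      exact sub_eq_zero.2 this
    exact (ZMod.intCast_zmod_eq_zero_iff_dvd _ n).1 h2
  choose d hd using hdvd
  obtain ⟨xa, hxa⟩ := hn d
  set x : ↥(cfh_SUnit K (cfh_primesOver K T)) := Additive.toMul xa with hxdef
  have hxT : ptj_diag K (x : Kˣ) ∈ ptj_JT K T := (cfh_diag_mem_JT_iff T _).2 x.2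
  have hval : ∀ v ∈ cfh_primesOver K T,
      v.valuationOfNeZero (y (r c) v) = v.valuationOfNeZero (y (r c') v) *
        v.valuationOfNeZero (x : Kˣ) := by
    intro v hv
    have h1 := congrFun hxa ⟨v, hv⟩
    have h2 : cfh_ord K (cfh_primesOver K T) xa ⟨v, hv⟩ =
        Multiplicative.toAdd (v.valuationOfNeZero (x : Kˣ)) := cfh_ord_apply K _ x ⟨v, hv⟩
    rw [h2] at h1
    have h3 : Multiplicative.toAdd (v.valuationOfNeZero (x : Kˣ)) = (n : ℤ) * d ⟨v, hv⟩ := by
      rw [h1]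
      simp
    have h4 := hd ⟨v, hv⟩
    apply Multiplicative.toAdd.injective
    rw [toAdd_mul, h3, ← h4]
    show Φ (r c) ⟨v, hv⟩ = Φ (r c') ⟨v, hv⟩ + (Φ (r c) ⟨v, hv⟩ - Φ (r c') ⟨v, hv⟩)
    ring
  have hkey := s56b_div_mem_JT_empty (hrT c) (hrT c') (x : Kˣ) hxT (y (r c)) (y (r c'))
    (fun v q σ hσ => hy (r c) v q σ hσ) (fun v q σ hσ => hy (r c') v q σ hσ) hval
  rw [← hrc c, ← hrc c']
  symm
  rw [QuotientGroup.eq]
  have h5 : (r c')⁻¹ * r c = ptj_diag K (x : Kˣ) * (r c / (r c' * ptj_diag K (x : Kˣ))) := by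
    rw [div_eq_mul_inv, mul_inv_rev]
    rw [mul_comm (r c), mul_assoc, ← mul_assoc (ptj_diag K (x : Kˣ)), mul_inv_cancel, one_mul]
  rw [h5]
  exact Subgroup.mem_sup.2 ⟨_, ⟨_, rfl⟩, _, hkey, rfl⟩

end Fermat.Agent.Lib.S56
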