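/-
Programme W (S56), wall [W4], brick B8 (helper4): **`V_1 / V_2 ≅ 𝒪_K / q 𝒪_K`** for the higher unit
groups at `q` of the embedding model: `a ↦ (σ ↦ 1 + q σ(a))`.

* `s56b_lam q a : U_q(K)`, `s56b_lam_mem : lam a ∈ V_1`, `s56b_lam_smul` (equivariance);
* `s56b_lam_add : (lam (a + b))⁻¹ * (lam a * lam b) ∈ V_2`;
* `s56b_lam_div_mem_iff : (lam a)⁻¹ * lam b ∈ V_2 ↔ b - a ∈ q 𝒪_K`;
* `s56b_mem_span_q_iff_global : c ∈ q 𝒪_K ↔ ∀ σ, ‖σ c‖ ≤ 1/q`.
-/
import Fermat.Agent.Lib.S56.BLocIndex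

set_option autoImplicit false
set_option linter.unusedSectionVars false

noncomputable section

namespace Fermat.Agent.Lib.S56

open Fermat.Agent.Lib.PT NumberField IsDedekindDomain

variable {K : Type*} [Field K] [NumberField K] {q : Nat.Primes}

lemma s56b_norm_q_mul_le (σ : ptj_Emb K q) (a : 𝓞 K) :
    ‖((q : ℕ) : ptj_Om q) * σ (a : K)‖ ≤ s56b_r q := by
  rw [norm_mul, s56b_norm_q]
  exact mul_le_of_le_one_right (s56b_r_pos q).le (cfh_norm_emb_le_one σ a)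

lemma s56b_norm_one_add (σ : ptj_Emb K q) (a : 𝓞 K) :
    ‖1 + ((q : ℕ) : ptj_Om q) * σ (a : K)‖ = 1 := by
  have : ‖((q : ℕ) : ptj_Om q) * σ (a : K)‖ < ‖(1 : ptj_Om q)‖ := by
    rw [norm_one]
    exact lt_of_le_of_lt (s56b_norm_q_mul_le σ a) (s56b_r_lt_one q)
  rw [s56b_norm_add_eq_of_lt this, norm_one]

lemma s56b_one_add_ne_zero (σ : ptj_Emb K q) (a : 𝓞 K) :
    1 + ((q : ℕ) : ptj_Om q) * σ (a : K) ≠ 0 := by
  intro h
  have := s56b_norm_one_add σ a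
  rw [h, norm_zero] at this
  exact zero_ne_one this

variable (q) in
/-- `a ↦ (σ ↦ 1 + q σ(a))`, `𝒪_K → U_q(K)`. -/
def s56b_lam (a : 𝓞 K) : ↥(s56b_Uq K q) :=
  ⟨fun σ => Units.mk0 (1 + ((q : ℕ) : ptj_Om q) * σ (a : K)) (s56b_one_add_ne_zero σ a),
    fun τ σ => by
      apply Units.ext
      rw [ptj_tauU_coe, Units.val_mk0, Units.val_mk0, ptj_post_apply, map_add, map_one, map_mul,
        map_natCast],
    fun σ => by rw [Units.val_mk0]; exact s56b_norm_one_add σ a⟩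

@[simp] lemma s56b_lam_coe (a : 𝓞 K) (σ : ptj_Emb K q) :
    (((s56b_lam q a).1 σ : (ptj_Om q)ˣ) : ptj_Om q) = 1 + ((q : ℕ) : ptj_Om q) * σ (a : K) := rfl

lemma s56b_lam_mem (a : 𝓞 K) : s56b_lam q a ∈ s56b_Vq K q 1 := fun σ => by
  rw [s56b_lam_coe, add_sub_cancel_left, pow_one]
  exact s56b_norm_q_mul_le σ a

lemma s56b_lam_zero : s56b_lam q (0 : 𝓞 K) = 1 := by
  apply Subtype.ext
  funext σ
  apply Units.ext
  rw [s56b_lam_coe]
  simp

variable {Γ : Type*} [Group Γ] [MulSemiringAction Γ K]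

/-- equivariance of `lam`, in a form which does not depend on the presentation of the action of
`Γ` on `𝒪_K`. -/
lemma s56b_lam_smul (γ : Γ) (a a' : 𝓞 K) (h : (a' : K) = γ • (a : K)) :
    s56b_lam q a' = γ • s56b_lam q a := by
  apply Subtype.ext
  funext σ
  apply Units.ext
  rw [s56b_Uq_smul_apply, s56b_lam_coe, s56b_lam_coe, ptj_pre_apply, h]

/-- `lam` is additive modulo `V_2`. -/
lemma s56b_lam_add (a b : 𝓞 K) :
    (s56b_lam q (a + b))⁻¹ * (s56b_lam q a * s56b_lam q b) ∈ s56b_Vq K q 2 := fun σ => by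
  show ‖((((s56b_lam q (a + b)).1⁻¹ * ((s56b_lam q a).1 * (s56b_lam q b).1)) σ : (ptj_Om q)ˣ) :
    ptj_Om q) - 1‖ ≤ _
  rw [Pi.mul_apply, Pi.inv_apply, Pi.mul_apply, Units.val_mul, Units.val_inv_eq_inv_val,
    Units.val_mul, s56b_norm_inv_mul_sub_one ((s56b_lam q (a + b)).2.2 σ), s56b_lam_coe,
    s56b_lam_coe, s56b_lam_coe]
  have h1 : (1 + ((q : ℕ) : ptj_Om q) * σ (a : K)) * (1 + ((q : ℕ) : ptj_Om q) * σ (b : K)) -
      (1 + ((q : ℕ) : ptj_Om q) * σ ((a + b : 𝓞 K) : K)) =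
      ((q : ℕ) : ptj_Om q) ^ 2 * (σ (a : K) * σ (b : K)) := by
    rw [show ((a + b : 𝓞 K) : K) = (a : K) + (b : K) from rfl, map_add]
    ring
  rw [h1, norm_mul, norm_pow, s56b_norm_q, norm_mul]
  refine mul_le_of_le_one_right (pow_nonneg (s56b_r_pos q).le _) ?_
  exact mul_le_one₀ (cfh_norm_emb_le_one σ a) (norm_nonneg _) (cfh_norm_emb_le_one σ b)

/-- `c ∈ q 𝒪_K ↔ ‖σ c‖ ≤ 1/q` for all `q`-adic embeddings `σ`. -/
theorem s56b_mem_span_q_iff_global (c : 𝓞 K) :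
    c ∈ Ideal.span {(((q : ℕ) : ℕ) : 𝓞 K)} ↔ ∀ σ : ptj_Emb K q, ‖σ (c : K)‖ ≤ s56b_r q := by
  constructor
  · intro h σ
    obtain ⟨d, rfl⟩ := Ideal.mem_span_singleton.1 h
    have : ((((q : ℕ) : 𝓞 K) * d : 𝓞 K) : K) = ((q : ℕ) : K) * (d : K) := by
      simp
    rw [this, map_mul, map_natCast]
    exact s56b_norm_q_mul_le σ d
  · intro h
    have hq0 : ((q : ℕ) : K) ≠ 0 := by exact_mod_cast q.2.ne_zero
    have hval : ∀ v : HeightOneSpectrum (𝓞 K), v.valuation K ((c : K) / ((q : ℕ) : K)) ≤ 1 := by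
      intro v
      obtain ⟨q', hq'⟩ := cfh_exists_natPrime_mem v
      obtain ⟨σ', rfl⟩ := cfh_exists_primeOf_eq q' _ hq'
      rw [← cfh_norm_le_one_iff, map_div₀, norm_div, map_natCast]
      by_cases hqq : q' = q
      · subst hqq
        rw [s56b_norm_q]
        exact div_le_one_of_le₀ (h σ') (s56b_r_pos q').le
      · have hnd : ¬ (((q' : ℕ) : ℤ) ∣ (((q : ℕ) : ℕ) : ℤ)) := by
          intro hd
          have hd' : (q' : ℕ) ∣ (q : ℕ) := by exact_mod_cast hd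
          exact hqq (Subtype.ext ((Nat.prime_dvd_prime_iff_eq q'.2 q.2).1 hd'))
        have h1 := ptj_norm_intCast_eq_one q' hnd
        rw [Int.cast_natCast] at h1
        rw [h1, div_one]
        exact cfh_norm_emb_le_one σ' c
    obtain ⟨d, hd⟩ := HeightOneSpectrum.mem_integers_of_valuation_le_one K _ hval
    rw [Ideal.mem_span_singleton]
    refine ⟨d, ?_⟩
    apply RingOfIntegers.ext
    have hd' : (d : K) = (c : K) / ((q : ℕ) : K) := hd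
    have : ((((q : ℕ) : 𝓞 K) * d : 𝓞 K) : K) = ((q : ℕ) : K) * (d : K) := by
      simp
    rw [this, hd', mul_div_cancel₀ _ hq0]

/-- the kernel of `lam` modulo `V_2`. -/
theorem s56b_lam_div_mem_iff (a b : 𝓞 K) :
    (s56b_lam q a)⁻¹ * s56b_lam q b ∈ s56b_Vq K q 2 ↔
      b - a ∈ Ideal.span {(((q : ℕ) : ℕ) : 𝓞 K)} := by
  rw [s56b_mem_span_q_iff_global]
  have key : ∀ σ : ptj_Emb K q,
      ‖(((((s56b_lam q a)⁻¹ * s56b_lam q b : ↥(s56b_Uq K q))).1 σ : (ptj_Om q)ˣ) : ptj_Om q) - 1‖ =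
        s56b_r q * ‖σ ((b - a : 𝓞 K) : K)‖ := by
    intro σ
    show ‖((((s56b_lam q a).1⁻¹ * (s56b_lam q b).1) σ : (ptj_Om q)ˣ) : ptj_Om q) - 1‖ = _
    rw [Pi.mul_apply, Pi.inv_apply, Units.val_mul, Units.val_inv_eq_inv_val,
      s56b_norm_inv_mul_sub_one ((s56b_lam q a).2.2 σ), s56b_lam_coe, s56b_lam_coe]
    have h1 : (1 + ((q : ℕ) : ptj_Om q) * σ (b : K)) - (1 + ((q : ℕ) : ptj_Om q) * σ (a : K)) =
        ((q : ℕ) : ptj_Om q) * σ ((b - a : 𝓞 K) : K) := by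
      rw [show ((b - a : 𝓞 K) : K) = (b : K) - (a : K) from rfl, map_sub]
      ring
    rw [h1, norm_mul, s56b_norm_q]
  constructor
  · intro h σ
    have h1 := h σ
    rw [key, pow_two] at h1
    exact le_of_mul_le_mul_left h1 (s56b_r_pos q)
  · intro h σ
    rw [key, pow_two]
    exact mul_le_mul_of_nonneg_left (h σ) (s56b_r_pos q).le

end Fermat.Agent.Lib.S56
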