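/-
Programme W (S56), wall [W4], brick B8 (helper4): **surjectivity of `𝒪_K → V_1 / V_2`** by counting:
`#(𝒪_K / q) = q ^ [K : ℚ]` and `#(V_1 / V_2) ≤ ∏_{w ∣ q} #(O_w / q) = q ^ [K : ℚ]`.
Main results: `s56b_lam_surjective`, and the packaged isomorphism
`s56b_lamEquiv : Multiplicative (𝒪_K ⧸ q) ≃* V_1 ⧸ V_2`.
-/
import Fermat.Agent.Lib.S56.BLocLam
import Fermat.Agent.Lib.PT.GPlaceLocF

set_option autoImplicit false
set_option linter.unusedSectionVars false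

noncomputable section

namespace Fermat.Agent.Lib.S56

open Fermat.Agent.Lib.PT NumberField IsDedekindDomain

variable {K : Type*} [Field K] [NumberField K] {q : Nat.Primes}

variable (K q) in
/-- `#(𝒪_K / q 𝒪_K) = q ^ [K : ℚ]`. -/
theorem s56b_card_quot_global :
    Nat.card (𝓞 K ⧸ Ideal.span {(((q : ℕ) : ℕ) : 𝓞 K)}) = (q : ℕ) ^ Module.finrank ℚ K := by
  rw [← Submodule.cardQuot_apply, ← Ideal.absNorm_apply, Ideal.absNorm_span_natCast,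
    RingOfIntegers.rank]

variable (K q) in
/-- the primes of `K` over `q`, as the set of primes induced by the `q`-adic embeddings. -/
abbrev s56b_W : Type _ := ↥(Set.range (cfh_primeOf : ptj_Emb K q → HeightOneSpectrum (𝓞 K)))

/-- a chosen embedding inducing a given prime over `q`. -/
def s56b_rep (v : s56b_W K q) : ptj_Emb K q := Classical.choose v.2

lemma s56b_primeOf_rep (v : s56b_W K q) : cfh_primeOf (s56b_rep v) = v.1 := Classical.choose_spec v.2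

/-- every embedding is conjugate to the chosen embedding of its prime. -/
lemma s56b_exists_post_rep (σ : ptj_Emb K q) :
    ∃ (v : s56b_W K q) (τ : ptj_Gq q), ptj_post τ (s56b_rep v) = σ := by
  refine ⟨⟨cfh_primeOf σ, σ, rfl⟩, ?_⟩
  exact cfh_primeOf_eq_iff.1 (s56b_primeOf_rep ⟨cfh_primeOf σ, σ, rfl⟩).symm

/-- `∑_{w ∣ q} [K_w : ℚ_q] = [K : ℚ]`, in the form used here. -/
theorem s56b_card_pi_quot :
    Nat.card (∀ v : s56b_W K q, (↥(ptl_O (q : ℕ) ↥(ptj_Kσ (s56b_rep v))) ⧸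
      Ideal.span {(((q : ℕ) : ℕ) : ↥(ptl_O (q : ℕ) ↥(ptj_Kσ (s56b_rep v))))})) =
      (q : ℕ) ^ Module.finrank ℚ K := by
  classical
  have : Fintype (s56b_W K q) := Fintype.ofFinite _
  rw [Nat.card_pi]
  have h1 : ∀ v : s56b_W K q, Nat.card (↥(ptl_O (q : ℕ) ↥(ptj_Kσ (s56b_rep v))) ⧸
      Ideal.span {(((q : ℕ) : ℕ) : ↥(ptl_O (q : ℕ) ↥(ptj_Kσ (s56b_rep v))))}) =
      (q : ℕ) ^ Nat.card {σ' : ptj_Emb K q //
        Set.rangeFactorization (cfh_primeOf : ptj_Emb K q → HeightOneSpectrum (𝓞 K)) σ' = v} := by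
    intro v
    rw [ptk_card_quot_q (q : ℕ) ↥(ptj_Kσ (s56b_rep v)), ptk_finrank_Kσ, s56b_primeOf_rep]
    congr 1
    apply Nat.card_congr
    refine Equiv.subtypeEquivRight fun σ' => ?_
    rw [Subtype.ext_iff]
    rfl
  rw [Finset.prod_congr rfl fun v _ => h1 v, Finset.prod_pow_eq_pow_sum, ← Nat.card_sigma,
    Nat.card_congr (Equiv.sigmaFiberEquiv _), Nat.card_eq_fintype_card,
    NumberField.Embeddings.card K (ptj_Om q)]

/-- `#(V_1 / V_2) ≤ q ^ [K : ℚ]`. -/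
theorem s56b_card_V1_mod_V2_le :
    Finite (↥(s56b_Vq K q 1) ⧸ (s56b_Vq K q 2).subgroupOf (s56b_Vq K q 1)) ∧
    Nat.card (↥(s56b_Vq K q 1) ⧸ (s56b_Vq K q 2).subgroupOf (s56b_Vq K q 1)) ≤
      (q : ℕ) ^ Module.finrank ℚ K := by
  have hfin : ∀ v : s56b_W K q, Finite (↥(ptl_O (q : ℕ) ↥(ptj_Kσ (s56b_rep v))) ⧸
      Ideal.span {(((q : ℕ) : ℕ) : ↥(ptl_O (q : ℕ) ↥(ptj_Kσ (s56b_rep v))))}) :=
    fun v => s56b_finite_quot_q _
  have hq0 : ((q : ℕ) : ptj_Om q) ≠ 0 := by exact_mod_cast q.2.ne_zero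
  have hmem : ∀ (f : ↥(s56b_Vq K q 1)) (σ : ptj_Emb K q),
      ((((f : ↥(s56b_Uq K q)).1 σ : (ptj_Om q)ˣ) : ptj_Om q) - 1) / ((q : ℕ) : ptj_Om q) ∈
        ptj_Kσ σ := fun f σ =>
    div_mem (sub_mem (ptj_mem_Kσ_of_mem_Jq f.1.2.1 σ) (one_mem _)) (natCast_mem _ _)
  have hnorm : ∀ (f : ↥(s56b_Vq K q 1)) (σ : ptj_Emb K q),
      ‖((((f : ↥(s56b_Uq K q)).1 σ : (ptj_Om q)ˣ) : ptj_Om q) - 1) / ((q : ℕ) : ptj_Om q)‖ ≤ 1 := by
    intro f σ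
    rw [norm_div, s56b_norm_q]
    have := f.2 σ
    rw [pow_one] at this
    exact div_le_one_of_le₀ this (s56b_r_pos q).le
  let Θ : ↥(s56b_Vq K q 1) → ∀ v : s56b_W K q, (↥(ptl_O (q : ℕ) ↥(ptj_Kσ (s56b_rep v))) ⧸
      Ideal.span {(((q : ℕ) : ℕ) : ↥(ptl_O (q : ℕ) ↥(ptj_Kσ (s56b_rep v))))}) := fun f v =>
    Ideal.Quotient.mk _ (s56b_toR (s56b_rep v) _ (hmem f (s56b_rep v)) (hnorm f (s56b_rep v)))
  have hΘ : ∀ f g, Θ f = Θ g → f⁻¹ * g ∈ (s56b_Vq K q 2).subgroupOf (s56b_Vq K q 1) := by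
    intro f g h
    rw [Subgroup.mem_subgroupOf]
    intro σ
    obtain ⟨v, τ, rfl⟩ := s56b_exists_post_rep σ
    have h1 := congrFun h v
    rw [Ideal.Quotient.eq, s56b_mem_span_q_iff] at h1
    have h2 : ‖((((f : ↥(s56b_Uq K q)).1 (s56b_rep v) : (ptj_Om q)ˣ) : ptj_Om q) - 1) /
        ((q : ℕ) : ptj_Om q) - ((((g : ↥(s56b_Uq K q)).1 (s56b_rep v) : (ptj_Om q)ˣ) :
        ptj_Om q) - 1) / ((q : ℕ) : ptj_Om q)‖ ≤ s56b_r q := h1
    rw [← sub_div, norm_div, s56b_norm_q, div_le_iff₀ (s56b_r_pos q), sub_sub_sub_cancel_right,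
      ← pow_two] at h2
    set h' : ↥(s56b_Uq K q) := ((f⁻¹ * g : ↥(s56b_Vq K q 1)) : ↥(s56b_Uq K q)) with hh'
    have h3 : ((h'.1 (ptj_post τ (s56b_rep v)) : (ptj_Om q)ˣ) : ptj_Om q) - 1 =
        τ (((h'.1 (s56b_rep v) : (ptj_Om q)ˣ) : ptj_Om q) - 1) := by
      rw [h'.2.1 τ (s56b_rep v), ptj_tauU_coe, map_sub, map_one]
    rw [h3, s56b_norm_tau]
    show ‖(((((f : ↥(s56b_Uq K q)).1)⁻¹ * (g : ↥(s56b_Uq K q)).1) (s56b_rep v) : (ptj_Om q)ˣ) :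
      ptj_Om q) - 1‖ ≤ _
    rw [Pi.mul_apply, Pi.inv_apply, Units.val_mul, Units.val_inv_eq_inv_val,
      s56b_norm_inv_mul_sub_one (f.1.2.2 _), ← norm_neg, neg_sub]
    exact h2
  have h := s56b_quot_le ((s56b_Vq K q 2).subgroupOf (s56b_Vq K q 1)) Θ hΘ
  refine ⟨h.1, ?_⟩
  have h' := h.2
  rwa [s56b_card_pi_quot] at h'

/-- **surjectivity of `𝒪_K → V_1 / V_2`**. -/
theorem s56b_lam_surjective {f : ↥(s56b_Uq K q)} (hf : f ∈ s56b_Vq K q 1) :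
    ∃ a : 𝓞 K, (s56b_lam q a)⁻¹ * f ∈ s56b_Vq K q 2 := by
  obtain ⟨hfin, hcard⟩ := s56b_card_V1_mod_V2_le (K := K) (q := q)
  let Ψ : (𝓞 K ⧸ Ideal.span {(((q : ℕ) : ℕ) : 𝓞 K)}) →
      (↥(s56b_Vq K q 1) ⧸ (s56b_Vq K q 2).subgroupOf (s56b_Vq K q 1)) := fun c =>
    QuotientGroup.mk ⟨s56b_lam q (Quotient.out c), s56b_lam_mem _⟩
  have hinj : Function.Injective Ψ := by
    intro c d h
    have h1 : (⟨s56b_lam q (Quotient.out c), s56b_lam_mem _⟩ : ↥(s56b_Vq K q 1))⁻¹ *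
        ⟨s56b_lam q (Quotient.out d), s56b_lam_mem _⟩ ∈
        (s56b_Vq K q 2).subgroupOf (s56b_Vq K q 1) := QuotientGroup.eq.1 h
    rw [Subgroup.mem_subgroupOf] at h1
    have h2 := (s56b_lam_div_mem_iff (Quotient.out c) (Quotient.out d)).1 h1
    have h3 : (Ideal.Quotient.mk (Ideal.span {(((q : ℕ) : ℕ) : 𝓞 K)})) (Quotient.out d) =
        (Ideal.Quotient.mk (Ideal.span {(((q : ℕ) : ℕ) : 𝓞 K)})) (Quotient.out c) :=
      Ideal.Quotient.eq.2 h2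
    have hc : (Ideal.Quotient.mk (Ideal.span {(((q : ℕ) : ℕ) : 𝓞 K)})) (Quotient.out c) = c :=
      Quotient.out_eq c
    have hd : (Ideal.Quotient.mk (Ideal.span {(((q : ℕ) : ℕ) : 𝓞 K)})) (Quotient.out d) = d :=
      Quotient.out_eq d
    rw [← hc, ← hd, h3]
  have hbij := hinj.bijective_of_nat_card_le (by rw [s56b_card_quot_global]; exact hcard)
  obtain ⟨c, hc⟩ := hbij.2 (QuotientGroup.mk ⟨f, hf⟩)
  refine ⟨Quotient.out c, ?_⟩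
  have h1 : (⟨s56b_lam q (Quotient.out c), s56b_lam_mem _⟩ : ↥(s56b_Vq K q 1))⁻¹ * ⟨f, hf⟩ ∈
      (s56b_Vq K q 2).subgroupOf (s56b_Vq K q 1) := QuotientGroup.eq.1 hc
  rw [Subgroup.mem_subgroupOf] at h1
  exact h1

end Fermat.Agent.Lib.S56
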