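/-
Programme W (S56), wall [W4], brick B8 (helper4): **the local unit groups `U_q(K)` and multiplication
by `p`** — the statements (S4a), (S4b) consumed by the computation of `h_N(C_S(K))`.

For every prime `q`, `V_1 = s56b_Vq K q 1 ⊆ U_q(K)` is a `Γ`-stable subgroup of finite index
(`s56b_Vq_one_finiteIndex`, `s56b_smul_mem_Vq`).

* (S4a) `q ≠ p`: `f ↦ f ^ p` is bijective on `V_1` (`s56b_S4a`).
* (S4b) `q = p` odd: `f ↦ f ^ p` is a bijection `V_1 → V_2` (`s56b_S4b`) and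
  `a ↦ (σ ↦ 1 + p σ(a))` induces a `Γ`-equivariant isomorphism `𝒪_K / p ≅ V_1 / V_1^p`
  (`s56b_lamModP`, `s56b_lamModP_mk`, `s56b_lam_smul`).
* in both cases the kernel of `f ↦ f ^ p` on `U_q(K)` is finite and its image has finite index
  (`s56b_finite_ker_pow`, `s56b_finiteIndex_range_pow`).
-/
import Fermat.Agent.Lib.S56.BLocCount

set_option autoImplicit false
set_option linter.unusedSectionVars false

noncomputable section

namespace Fermat.Agent.Lib.S56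

open Fermat.Agent.Lib.PT NumberField IsDedekindDomain

variable {K : Type*} [Field K] [NumberField K] {q : Nat.Primes}

lemma s56b_norm_p_of_ne {p : ℕ} (hp : p.Prime) (hpq : p ≠ (q : ℕ)) :
    ‖((p : ℕ) : ptj_Om q)‖ = s56b_r q ^ 0 := by
  have hnd : ¬ (((q : ℕ) : ℤ) ∣ ((p : ℕ) : ℤ)) := by
    intro hd
    have hd' : (q : ℕ) ∣ p := by exact_mod_cast hd
    exact hpq ((Nat.prime_dvd_prime_iff_eq q.2 hp).1 hd').symm
  have h1 := ptj_norm_intCast_eq_one q hnd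
  rw [Int.cast_natCast] at h1
  rw [h1, pow_zero]

lemma s56b_norm_p_self : ‖(((q : ℕ) : ℕ) : ptj_Om q)‖ = s56b_r q ^ 1 := by
  rw [pow_one, s56b_norm_q]

/-- **(S4a)**: for `q ≠ p` the `p`-power map is bijective on the finite-index subgroup `V_1`. -/
theorem s56b_S4a {p : ℕ} (hp : p.Prime) (hpq : p ≠ (q : ℕ)) :
    (s56b_Vq K q 1).FiniteIndex ∧
    (∀ f ∈ s56b_Vq K q 1, f ^ p ∈ s56b_Vq K q 1) ∧
    (∀ f ∈ s56b_Vq K q 1, f ^ p = 1 → f = 1) ∧
    (∀ g ∈ s56b_Vq K q 1, ∃ f ∈ s56b_Vq K q 1, f ^ p = g) := by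
  have hv := s56b_norm_p_of_ne (q := q) hp hpq
  have hn : 0 < 1 * (p - 1) := by have := hp.two_le; omega
  exact ⟨s56b_Vq_one_finiteIndex, fun f hf => s56b_pow_mem_Vq hp hv hn hf,
    fun f hf h => s56b_eq_one_of_pow_eq_one_Vq hp hv hn hf h,
    fun g hg => s56b_exists_pow_eq_Vq hp hv hn hg⟩

/-- **(S4b)**, first half: for `q = p` odd the `p`-power map is a bijection `V_1 → V_2`. -/
theorem s56b_S4b (hq2 : (q : ℕ) ≠ 2) :
    (s56b_Vq K q 1).FiniteIndex ∧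
    (∀ f ∈ s56b_Vq K q 1, f ^ (q : ℕ) ∈ s56b_Vq K q 2) ∧
    (∀ f ∈ s56b_Vq K q 1, f ^ (q : ℕ) = 1 → f = 1) ∧
    (∀ g ∈ s56b_Vq K q 2, ∃ f ∈ s56b_Vq K q 1, f ^ (q : ℕ) = g) := by
  have hv := s56b_norm_p_self (q := q)
  have hn : 1 < 1 * ((q : ℕ) - 1) := by have := q.2.two_le; omega
  exact ⟨s56b_Vq_one_finiteIndex, fun f hf => s56b_pow_mem_Vq q.2 hv hn hf,
    fun f hf h => s56b_eq_one_of_pow_eq_one_Vq q.2 hv hn hf h,
    fun g hg => s56b_exists_pow_eq_Vq q.2 hv hn hg⟩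

/-- `V_2` has finite index in `U_q`. -/
theorem s56b_Vq_two_finiteIndex : (s56b_Vq K q 2).FiniteIndex := by
  have h1 := s56b_Vq_one_finiteIndex (K := K) (q := q)
  have hle : s56b_Vq K q 2 ≤ s56b_Vq K q 1 := s56b_Vq_anti (by norm_num)
  obtain ⟨hfin, -⟩ := s56b_card_V1_mod_V2_le (K := K) (q := q)
  have h2 : ((s56b_Vq K q 2).subgroupOf (s56b_Vq K q 1)).FiniteIndex :=
    Subgroup.finiteIndex_of_finite_quotient
  refine ⟨?_⟩
  rw [← Subgroup.relIndex_mul_index hle]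
  exact mul_ne_zero h2.index_ne_zero h1.index_ne_zero

/-- the image of the `p`-power map on `U_q` has finite index (any `p`, `q`; `q` odd if `p = q`). -/
theorem s56b_finiteIndex_range_pow {p : ℕ} (hp : p.Prime) (h2 : p = (q : ℕ) → p ≠ 2) :
    (powMonoidHom p : ↥(s56b_Uq K q) →* ↥(s56b_Uq K q)).range.FiniteIndex := by
  by_cases hpq : p = (q : ℕ)
  · have hq2 : (q : ℕ) ≠ 2 := hpq ▸ h2 hpq
    have h := (s56b_S4b (K := K) hq2).2.2.2
    have := s56b_Vq_two_finiteIndex (K := K) (q := q)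
    refine Subgroup.finiteIndex_of_le (H := s56b_Vq K q 2) fun g hg => ?_
    obtain ⟨f, -, hf⟩ := h g hg
    exact ⟨f, by rw [powMonoidHom_apply, hpq, hf]⟩
  · have h := (s56b_S4a (K := K) hp hpq).2.2.2
    have := s56b_Vq_one_finiteIndex (K := K) (q := q)
    refine Subgroup.finiteIndex_of_le (H := s56b_Vq K q 1) fun g hg => ?_
    obtain ⟨f, -, hf⟩ := h g hg
    exact ⟨f, by rw [powMonoidHom_apply, hf]⟩

/-- the kernel of the `p`-power map on `U_q` is finite. -/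
theorem s56b_finite_ker_pow {p : ℕ} (hp : p.Prime) (h2 : p = (q : ℕ) → p ≠ 2) :
    Finite ↥(powMonoidHom p : ↥(s56b_Uq K q) →* ↥(s56b_Uq K q)).ker := by
  have hinjV : ∀ f ∈ s56b_Vq K q 1, f ^ p = 1 → f = 1 := by
    by_cases hpq : p = (q : ℕ)
    · subst hpq
      exact (s56b_S4b (K := K) (h2 rfl)).2.2.1
    · exact (s56b_S4a (K := K) hp hpq).2.2.1
  have := s56b_Vq_one_finiteIndex (K := K) (q := q)
  have hfin : Finite (↥(s56b_Uq K q) ⧸ s56b_Vq K q 1) := Subgroup.finite_quotient_of_finiteIndex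
  refine Finite.of_injective
    (fun x : ↥(powMonoidHom p : ↥(s56b_Uq K q) →* ↥(s56b_Uq K q)).ker =>
      (QuotientGroup.mk x.1 : ↥(s56b_Uq K q) ⧸ s56b_Vq K q 1)) ?_
  intro x y h
  have h1 : x.1⁻¹ * y.1 ∈ s56b_Vq K q 1 := QuotientGroup.eq.1 h
  have hx : x.1 ^ p = 1 := x.2
  have hy : y.1 ^ p = 1 := y.2
  have h3 := hinjV _ h1 (by rw [mul_pow, inv_pow, hx, hy, inv_one, one_mul])
  exact Subtype.ext (inv_mul_eq_one.1 h3)

/-! ### `𝒪_K / p ≅ V_1 / V_1^p` -/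

section ModP

variable (hq2 : (q : ℕ) ≠ 2)

/-- the class of `lam a` in `V_1 / V_1^p` (additive notation). -/
def s56b_lamCls (a : 𝓞 K) :
    Additive ↥(s56b_Vq K q 1) ⧸
      (nsmulAddMonoidHom (α := Additive ↥(s56b_Vq K q 1)) (q : ℕ)).range :=
  QuotientAddGroup.mk (Additive.ofMul ⟨s56b_lam q a, s56b_lam_mem a⟩)

include hq2 in
/-- an element of `V_1` lying in `V_2` is `p` times an element of `V_1` (additive notation). -/
lemma s56b_mem_range_nsmul_iff (f : ↥(s56b_Vq K q 1)) :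
    Additive.ofMul f ∈ (nsmulAddMonoidHom (α := Additive ↥(s56b_Vq K q 1)) (q : ℕ)).range ↔
      (f : ↥(s56b_Uq K q)) ∈ s56b_Vq K q 2 := by
  constructor
  · rintro ⟨g, hg⟩
    have h1 : (Additive.toMul g) ^ (q : ℕ) = f := by
      have := congrArg Additive.toMul hg
      simpa using this
    rw [← h1, Subgroup.coe_pow]
    exact (s56b_S4b (K := K) hq2).2.1 _ (Additive.toMul g).2
  · intro hf
    obtain ⟨g, hg1, hg2⟩ := (s56b_S4b (K := K) hq2).2.2.2 _ hf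
    refine ⟨Additive.ofMul ⟨g, hg1⟩, ?_⟩
    show Additive.ofMul ((⟨g, hg1⟩ : ↥(s56b_Vq K q 1)) ^ (q : ℕ)) = Additive.ofMul f
    congr 1
    exact Subtype.ext hg2

include hq2 in
lemma s56b_lamCls_add (a b : 𝓞 K) : s56b_lamCls (q := q) (a + b) = s56b_lamCls a + s56b_lamCls b := by
  unfold s56b_lamCls
  rw [← QuotientAddGroup.mk_add, QuotientAddGroup.eq]
  refine (s56b_mem_range_nsmul_iff hq2
    ((⟨s56b_lam q (a + b), s56b_lam_mem _⟩ : ↥(s56b_Vq K q 1))⁻¹ *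
      (⟨s56b_lam q a, s56b_lam_mem a⟩ * ⟨s56b_lam q b, s56b_lam_mem b⟩))).2 ?_
  rw [Subgroup.coe_mul, Subgroup.coe_inv, Subgroup.coe_mul]
  exact s56b_lam_add a b

include hq2 in
lemma s56b_lamCls_eq_iff (a b : 𝓞 K) :
    s56b_lamCls (q := q) a = s56b_lamCls b ↔ b - a ∈ Ideal.span {(((q : ℕ) : ℕ) : 𝓞 K)} := by
  rw [← s56b_lam_div_mem_iff]
  unfold s56b_lamCls
  rw [QuotientAddGroup.eq]
  have h := s56b_mem_range_nsmul_iff hq2
    ((⟨s56b_lam q a, s56b_lam_mem a⟩ : ↥(s56b_Vq K q 1))⁻¹ * ⟨s56b_lam q b, s56b_lam_mem b⟩)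
  rw [Subgroup.coe_mul, Subgroup.coe_inv] at h
  exact h

/-- `a ↦ [lam a]`, as an additive map `𝒪_K → V_1 / V_1^p`. -/
def s56b_lamAdd : 𝓞 K →+ Additive ↥(s56b_Vq K q 1) ⧸
    (nsmulAddMonoidHom (α := Additive ↥(s56b_Vq K q 1)) (q : ℕ)).range :=
  AddMonoidHom.mk' s56b_lamCls (s56b_lamCls_add hq2)

lemma s56b_lamAdd_apply (a : 𝓞 K) : s56b_lamAdd hq2 a = s56b_lamCls a := rfl

lemma s56b_mem_span_q_iff_nsmul (a : 𝓞 K) :
    a ∈ Ideal.span {(((q : ℕ) : ℕ) : 𝓞 K)} ↔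
      a ∈ (nsmulAddMonoidHom (α := 𝓞 K) (q : ℕ)).range := by
  rw [Ideal.mem_span_singleton]
  constructor
  · rintro ⟨b, rfl⟩
    exact ⟨b, by simp [nsmul_eq_mul]⟩
  · rintro ⟨b, rfl⟩
    exact ⟨b, by simp [nsmul_eq_mul]⟩

/-- **(S4b)**, second half: `𝒪_K / p ≅ V_1 / V_1^p` (both sides in the form `Λ ⧸ range (p • ·)`). -/
def s56b_lamModP :
    (𝓞 K ⧸ (nsmulAddMonoidHom (α := 𝓞 K) (q : ℕ)).range) ≃+
      (Additive ↥(s56b_Vq K q 1) ⧸
        (nsmulAddMonoidHom (α := Additive ↥(s56b_Vq K q 1)) (q : ℕ)).range) :=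
  AddEquiv.ofBijective
    (QuotientAddGroup.lift _ (s56b_lamAdd hq2) (fun a ha => by
      rw [← s56b_mem_span_q_iff_nsmul] at ha
      have h0 : s56b_lamCls (q := q) (0 : 𝓞 K) = 0 := (s56b_lamAdd hq2).map_zero
      rw [AddMonoidHom.mem_ker, s56b_lamAdd_apply, ← h0]
      exact ((s56b_lamCls_eq_iff hq2 0 a).2 (by rwa [sub_zero])).symm))
    (by
      constructor
      · rw [injective_iff_map_eq_zero]
        intro c hc
        obtain ⟨a, rfl⟩ := QuotientAddGroup.mk_surjective c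
        rw [QuotientAddGroup.lift_mk, s56b_lamAdd_apply] at hc
        have h0 : s56b_lamCls (q := q) (0 : 𝓞 K) = 0 := (s56b_lamAdd hq2).map_zero
        rw [← h0] at hc
        have h1 := (s56b_lamCls_eq_iff hq2 a 0).1 hc
        rw [zero_sub, neg_mem_iff, s56b_mem_span_q_iff_nsmul] at h1
        exact (QuotientAddGroup.eq_zero_iff a).2 h1
      · intro c
        obtain ⟨f, rfl⟩ := QuotientAddGroup.mk_surjective c
        obtain ⟨a, ha⟩ := s56b_lam_surjective (Additive.toMul f).2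
        refine ⟨QuotientAddGroup.mk a, ?_⟩
        rw [QuotientAddGroup.lift_mk, s56b_lamAdd_apply]
        unfold s56b_lamCls
        rw [QuotientAddGroup.eq]
        refine (s56b_mem_range_nsmul_iff hq2
          ((⟨s56b_lam q a, s56b_lam_mem a⟩ : ↥(s56b_Vq K q 1))⁻¹ * Additive.toMul f)).2 ?_
        rw [Subgroup.coe_mul, Subgroup.coe_inv]
        exact ha)

@[simp] lemma s56b_lamModP_mk (a : 𝓞 K) :
    s56b_lamModP hq2 (QuotientAddGroup.mk a) =
      QuotientAddGroup.mk (Additive.ofMul ⟨s56b_lam q a, s56b_lam_mem a⟩) := rfl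

end ModP

end Fermat.Agent.Lib.S56
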