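/-
PROGRAMME W (S56), wall [W4], brick (E4), algebra (helper1, prefix `s56d_`):
**cardinalities of groups of equivariant homomorphisms** in terms of `s56d_homDim`:
`#Hom_C(Λ, N) = p ^ dim Hom_C(Λ/p, N)` and `#Hom_C(N, Λ) = p ^ dim Hom_C(N, Λ[p])` for an `𝔽_p[C]`-module `N`.
-/
import Fermat.Agent.Lib.S56.DHNMul

set_option autoImplicit false
set_option linter.unusedSectionVars false

noncomputable section

namespace Fermat.Agent.Lib.S56

open Module Function

section Card

variable {p : ℕ} [Fact p.Prime] {C : Type} [Group C]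
variable {Λ : Type} [AddCommGroup Λ]

/-- the universal property of `Λ/p`. -/
def s56d_ModP.lift {B : Type} [AddCommGroup B] (f : Λ →+ B) (hf : ∀ y, f (p • y) = 0) :
    s56d_ModP p Λ →+ B :=
  QuotientAddGroup.lift _ f (by
    rintro x ⟨y, rfl⟩
    exact hf y)

theorem s56d_ModP.lift_mk {B : Type} [AddCommGroup B] (f : Λ →+ B) (hf : ∀ y, f (p • y) = 0)
    (x : Λ) : s56d_ModP.lift f hf (s56d_ModP.mk p x) = f x := rfl

/-- the universal property of `Λ[p]`. -/
def s56d_TorP.colift {B : Type} [AddCommGroup B] (f : B →+ Λ) (hf : ∀ b, p • f b = 0) :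
    B →+ s56d_TorP p Λ where
  toFun b := s56d_TorP.ofTor p (f b) (hf b)
  map_zero' := by
    apply s56d_TorP.val_injective
    exact map_zero f
  map_add' a b := by
    apply s56d_TorP.val_injective
    exact map_add f a b

theorem s56d_TorP.val_colift {B : Type} [AddCommGroup B] (f : B →+ Λ) (hf : ∀ b, p • f b = 0)
    (b : B) : s56d_TorP.val p (s56d_TorP.colift f hf b) = f b := rfl

theorem s56d_nsmul_eq_zero_of_zmod {B : Type} [AddCommGroup B] [Module (ZMod p) B] (b : B) :
    p • b = 0 := by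
  have h : (p : ZMod p) • b = 0 := by rw [ZMod.natCast_self, zero_smul]
  rwa [Nat.cast_smul_eq_nsmul] at h

/-- `Hom_C(Λ, N) ≃ Hom_C(Λ/p, N)`. -/
def s56d_homModPEquiv (N : Rep.{0, 0, 0} (ZMod p) C) (ρ : Representation ℤ C Λ) :
    {f : Λ →+ N.V // ∀ c a, f (ρ c a) = N.ρ c (f a)} ≃
      ↥(Representation.linHom (s56d_modP p ρ).ρ N.ρ).invariants where
  toFun f := ⟨(s56d_ModP.lift (p := p) f.1 (fun y => by
      rw [map_nsmul]
      exact s56d_nsmul_eq_zero_of_zmod _)).toZModLinearMap p, by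
    rw [s56d_mem_homInv]
    intro c w
    obtain ⟨x, rfl⟩ := s56d_ModP.mk_surjective p w
    exact f.2 c x⟩
  invFun g := ⟨(g.1.toAddMonoidHom).comp (s56d_ModP.mk p), fun c a =>
    ((s56d_mem_homInv g.1).mp g.2 c (s56d_ModP.mk p a))⟩
  left_inv f := by
    apply Subtype.ext
    ext a
    rfl
  right_inv g := by
    apply Subtype.ext
    apply LinearMap.ext
    intro w
    obtain ⟨x, rfl⟩ := s56d_ModP.mk_surjective p w
    rfl

/-- `Hom_C(N, Λ) ≃ Hom_C(N, Λ[p])`. -/
def s56d_homTorPEquiv (N : Rep.{0, 0, 0} (ZMod p) C) (ρ : Representation ℤ C Λ) :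
    {f : N.V →+ Λ // ∀ c n, f (N.ρ c n) = ρ c (f n)} ≃
      ↥(Representation.linHom N.ρ (s56d_torP p ρ).ρ).invariants where
  toFun f := ⟨(s56d_TorP.colift (p := p) f.1 (fun n => by
      rw [← map_nsmul, s56d_nsmul_eq_zero_of_zmod, map_zero])).toZModLinearMap p, by
    rw [s56d_mem_homInv]
    intro c n
    apply s56d_TorP.val_injective
    exact f.2 c n⟩
  invFun g := ⟨(s56d_TorP.val p).comp g.1.toAddMonoidHom, fun c n =>
    congrArg (s56d_TorP.val p) ((s56d_mem_homInv g.1).mp g.2 c n)⟩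
  left_inv f := by
    apply Subtype.ext
    ext a
    rfl
  right_inv g := by
    apply Subtype.ext
    apply LinearMap.ext
    intro w
    apply s56d_TorP.val_injective
    rfl

variable [Finite C]

theorem s56d_card_hom_modP (N : Rep.{0, 0, 0} (ZMod p) C) [Finite N.V] (ρ : Representation ℤ C Λ)
    [Finite (s56d_ModP p Λ)] :
    Nat.card {f : Λ →+ N.V // ∀ c a, f (ρ c a) = N.ρ c (f a)}
      = p ^ s56d_homDim (s56d_modP p ρ) N := by
  have hfM : Finite (s56d_modP p ρ).V := inferInstanceAs (Finite (s56d_ModP p Λ))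
  rw [Nat.card_congr (s56d_homModPEquiv N ρ), Module.natCard_eq_pow_finrank (K := ZMod p),
    Nat.card_zmod]
  rfl

theorem s56d_card_hom_torP (N : Rep.{0, 0, 0} (ZMod p) C) [Finite N.V] (ρ : Representation ℤ C Λ)
    [Finite (s56d_TorP p Λ)] :
    Nat.card {f : N.V →+ Λ // ∀ c n, f (N.ρ c n) = ρ c (f n)}
      = p ^ s56d_homDim N (s56d_torP p ρ) := by
  have hfM : Finite (s56d_torP p ρ).V := inferInstanceAs (Finite (s56d_TorP p Λ))
  rw [Nat.card_congr (s56d_homTorPEquiv N ρ), Module.natCard_eq_pow_finrank (K := ZMod p),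
    Nat.card_zmod]
  rfl

end Card

end Fermat.Agent.Lib.S56
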