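/-
PROGRAMME W (S56), wall [W4], brick (E4), algebra (helper1, prefix `s56d_`):
**`h_N` of lattices.**  For a `ℤ`-free finitely generated `C`-module `Λ`:
* `Λ[p] = 0`, so `h_N(Λ) = dim Hom_C(Λ/p, N)` (`s56d_hN_lattice`);
* the characteristic polynomial of `c` on `Λ/p` is the reduction of that on `Λ` (`s56d_charpoly_modP`);
* if `Λ` spans a `K`-vector space `W` (`K` of characteristic zero) on which `c` acts by `T`, the characteristic
  polynomial of `T` is the image of that of `c` on `Λ` (`s56d_charpoly_of_lattice`).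
-/
import Fermat.Agent.Lib.S56.DHNCard

set_option autoImplicit false
set_option linter.unusedSectionVars false

noncomputable section

namespace Fermat.Agent.Lib.S56

open Module Function Polynomial

section IntMat

/-- two endomorphisms whose matrices correspond under a ring homomorphism have corresponding characteristic
polynomials. -/
theorem s56d_charpoly_of_toMatrix_map {R A : Type*} [CommRing R] [CommRing A] (φ : R →+* A)
    {ι : Type*} [Fintype ι] [DecidableEq ι]
    {M M' : Type*} [AddCommGroup M] [Module R M] [Module.Free R M] [Module.Finite R M]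
    [AddCommGroup M'] [Module A M'] [Module.Free A M'] [Module.Finite A M']
    (b : Basis ι R M) (b' : Basis ι A M') (f : M →ₗ[R] M) (g : M' →ₗ[A] M')
    (h : LinearMap.toMatrix b' b' g = (LinearMap.toMatrix b b f).map φ) :
    g.charpoly = f.charpoly.map φ := by
  rw [← LinearMap.charpoly_toMatrix g b', ← LinearMap.charpoly_toMatrix f b, h, Matrix.charpoly_map]

end IntMat

section ModPBasis

variable (p : ℕ) [Fact p.Prime] {Λ : Type} [AddCommGroup Λ]
variable {ι : Type} [Fintype ι] [DecidableEq ι] (b : Basis ι ℤ Λ)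

/-- reduction of coordinates mod `p`. -/
def s56d_redCoord : Λ →+ (ι → ZMod p) where
  toFun x i := ((b.repr x i : ℤ) : ZMod p)
  map_zero' := by
    funext i
    simp
  map_add' x y := by
    funext i
    simp

theorem s56d_redCoord_apply (x : Λ) (i : ι) : s56d_redCoord p b x i = ((b.repr x i : ℤ) : ZMod p) :=
  rfl

theorem s56d_redCoord_nsmul (y : Λ) : s56d_redCoord p b (p • y) = 0 := by
  funext i
  rw [s56d_redCoord_apply, map_nsmul, Finsupp.smul_apply, nsmul_eq_mul, Int.cast_mul,
    Int.cast_natCast, ZMod.natCast_self, zero_mul]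
  rfl

/-- `Λ/p ≃ 𝔽_p^ι`. -/
def s56d_modPEquivFun : s56d_ModP p Λ ≃ₗ[ZMod p] (ι → ZMod p) :=
  LinearEquiv.ofBijective
    ((s56d_ModP.lift (p := p) (s56d_redCoord p b) (s56d_redCoord_nsmul p b)).toZModLinearMap p) (by
    constructor
    · rw [← LinearMap.ker_eq_bot, LinearMap.ker_eq_bot']
      intro w hw
      obtain ⟨x, rfl⟩ := s56d_ModP.mk_surjective p w
      change s56d_redCoord p b x = 0 at hw
      rw [s56d_ModP.mk_eq_zero_iff]
      have h1 : ∀ i, ∃ q : ℤ, b.repr x i = p * q := fun i => by
        have := congrFun hw i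
        rw [s56d_redCoord_apply] at this
        exact (ZMod.intCast_zmod_eq_zero_iff_dvd _ _).mp this
      choose q hq using h1
      refine ⟨b.equivFun.symm q, ?_⟩
      apply b.equivFun.injective
      rw [map_nsmul, LinearEquiv.apply_symm_apply]
      funext i
      rw [Basis.equivFun_apply, hq i, Pi.smul_apply, nsmul_eq_mul]
    · intro t
      refine ⟨s56d_ModP.mk p (b.equivFun.symm fun i => ((t i).val : ℤ)), ?_⟩
      change s56d_redCoord p b _ = t
      funext i
      rw [s56d_redCoord_apply, ← Basis.equivFun_apply, LinearEquiv.apply_symm_apply,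
        Int.cast_natCast, ZMod.natCast_zmod_val])

theorem s56d_modPEquivFun_mk (x : Λ) (i : ι) :
    s56d_modPEquivFun p b (s56d_ModP.mk p x) i = ((b.repr x i : ℤ) : ZMod p) := rfl

/-- the reduction of a `ℤ`-basis is an `𝔽_p`-basis of `Λ/p`. -/
def s56d_modPBasis : Basis ι (ZMod p) (s56d_ModP p Λ) := Basis.ofEquivFun (s56d_modPEquivFun p b)

theorem s56d_modPBasis_apply (i : ι) : s56d_modPBasis p b i = s56d_ModP.mk p (b i) := by
  unfold s56d_modPBasis
  rw [Basis.coe_ofEquivFun]
  apply (s56d_modPEquivFun p b).injective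
  rw [LinearEquiv.apply_symm_apply]
  funext j
  rw [s56d_modPEquivFun_mk, Basis.repr_self, Finsupp.single_apply, Pi.single_apply]
  split_ifs with h1 h2 h2
  · simp
  · exact absurd h1.symm h2
  · exact absurd h2.symm h1
  · simp

include b in
theorem s56d_finite_modP_of_basis : Finite (s56d_ModP p Λ) :=
  Finite.of_equiv _ (s56d_modPEquivFun p b).symm.toEquiv

/-- the matrix of the reduction is the reduction of the matrix. -/
theorem s56d_toMatrix_modP (f : Λ →+ Λ) :
    LinearMap.toMatrix (s56d_modPBasis p b) (s56d_modPBasis p b)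
        ((s56d_ModP.map p f).toZModLinearMap p)
      = (LinearMap.toMatrix b b f.toIntLinearMap).map (Int.castRingHom (ZMod p)) := by
  ext i j
  rw [LinearMap.toMatrix_apply, Matrix.map_apply, LinearMap.toMatrix_apply, s56d_modPBasis_apply]
  unfold s56d_modPBasis
  rw [Basis.ofEquivFun_repr_apply]
  change s56d_modPEquivFun p b (s56d_ModP.mk p (f (b j))) i = _
  rw [s56d_modPEquivFun_mk]
  rfl

end ModPBasis

section Lattice

variable (p : ℕ) [Fact p.Prime] {C : Type} [Group C]
variable {Λ : Type} [AddCommGroup Λ] [Module.Free ℤ Λ] [Module.Finite ℤ Λ]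

instance s56d_finite_modP_lattice : Finite (s56d_ModP p Λ) := by
  classical
  exact s56d_finite_modP_of_basis p (Module.Free.chooseBasis ℤ Λ)

instance s56d_subsingleton_torP_lattice : Subsingleton (s56d_TorP p Λ) := by
  refine ⟨fun x y => ?_⟩
  apply s56d_TorP.val_injective
  have hp : (p : ℤ) ≠ 0 := by exact_mod_cast (Fact.out : p.Prime).ne_zero
  have h0 : ∀ z : s56d_TorP p Λ, s56d_TorP.val p z = 0 := fun z => by
    have h := s56d_TorP.nsmul_val p z
    rw [← natCast_zsmul] at h
    exact (smul_eq_zero.mp h).resolve_left hp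
  rw [h0 x, h0 y]

theorem s56d_pFin_lattice : s56d_PFin p Λ := ⟨inferInstance, inferInstance⟩

instance s56d_finite_modP_rep (ρ : Representation ℤ C Λ) : Module.Finite (ZMod p) (s56d_modP p ρ).V :=
  have : Finite (s56d_modP p ρ).V := inferInstanceAs (Finite (s56d_ModP p Λ))
  Module.Finite.of_finite

/-- the characteristic polynomial of `c` on `Λ/p` is the reduction of that on `Λ`. -/
theorem s56d_charpoly_modP (ρ : Representation ℤ C Λ) (c : C) :
    ((s56d_modP p ρ).ρ c).charpoly = (ρ c).charpoly.map (Int.castRingHom (ZMod p)) := by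
  classical
  let b := Module.Free.chooseBasis ℤ Λ
  have h := s56d_toMatrix_modP p b (ρ c).toAddMonoidHom
  have : Module.Finite (ZMod p) (s56d_ModP p Λ) := s56d_finite_modP_rep p ρ
  exact s56d_charpoly_of_toMatrix_map (Int.castRingHom (ZMod p)) b (s56d_modPBasis p b) (ρ c)
    ((s56d_ModP.map p (ρ c).toAddMonoidHom).toZModLinearMap p) h

variable [Finite C]

/-- `h_N` of a lattice. -/
theorem s56d_hN_lattice (N : Rep.{0, 0, 0} (ZMod p) C) (ρ : Representation ℤ C Λ) :
    s56d_hN p N ρ = s56d_homDim (s56d_modP p ρ) N := by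
  unfold s56d_hN s56d_homDim
  have h4 : Subsingleton (N.V →ₗ[ZMod p] (s56d_torP p ρ).V) :=
    ⟨fun f g => LinearMap.ext fun x =>
      (s56d_subsingleton_torP_lattice p (Λ := Λ)).elim _ _⟩
  rw [finrank_zero_of_subsingleton (M := ↥(Representation.linHom N.ρ (s56d_torP p ρ).ρ).invariants)]
  simp

end Lattice

end Fermat.Agent.Lib.S56
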