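/-
PROGRAMME W (S56), wall [W4], brick (E4), algebra (helper1, prefix `s56d_`):
**lattices which become permutation modules after extending scalars to a field of characteristic zero.**

`s56d_permRep k C P` is the permutation representation of `C` on `P → k`.  If a `C`-lattice `Λ` maps
equivariantly to `P → K` (`K` a field of characteristic zero) carrying a `ℤ`-basis to a `K`-basis, then
`h_N(Λ) = dim Hom_C(𝔽_p[P], N)` (`s56d_hN_latticePerm`; Brauer–Nesbitt).
-/
import Fermat.Agent.Lib.S56.DLat
import Fermat.Agent.Lib.S56.DPerm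

set_option autoImplicit false
set_option linter.unusedSectionVars false

noncomputable section

namespace Fermat.Agent.Lib.S56

open Module Function Polynomial

section Lattice

variable {Λ : Type*} [AddCommGroup Λ] [Module.Free ℤ Λ] [Module.Finite ℤ Λ]

/-- coordinates of the image of a lattice vector. -/
theorem s56d_repr_of_lattice {K : Type*} [Field K] {W : Type*} [AddCommGroup W] [Module K W]
    {ι : Type*} [Fintype ι] (b : Basis ι ℤ Λ) (j : Λ →+ W) (b' : Basis ι K W)
    (hb' : ∀ i, b' i = j (b i)) (x : Λ) (i : ι) : b'.repr (j x) i = ((b.repr x i : ℤ) : K) := by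
  classical
  have h1 : j x = ∑ m, ((b.repr x m : ℤ) : K) • b' m := by
    conv_lhs => rw [← b.sum_repr x]
    rw [map_sum]
    refine Finset.sum_congr rfl fun m _ => ?_
    rw [map_zsmul, hb', Int.cast_smul_eq_zsmul]
  rw [h1, Basis.repr_sum_self]

/-- if the lattice `Λ` spans `W`, the characteristic polynomial of an endomorphism of `W` preserving `Λ` is
the image of the characteristic polynomial of its restriction to `Λ`. -/
theorem s56d_charpoly_of_lattice {K : Type*} [Field K] {W : Type*} [AddCommGroup W] [Module K W]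
    [FiniteDimensional K W] {ι : Type*} [Fintype ι] [DecidableEq ι] (b : Basis ι ℤ Λ) (j : Λ →+ W)
    (b' : Basis ι K W) (hb' : ∀ i, b' i = j (b i)) (f : Λ →ₗ[ℤ] Λ) (T : W →ₗ[K] W)
    (hfT : ∀ x, j (f x) = T (j x)) : T.charpoly = f.charpoly.map (Int.castRingHom K) := by
  refine s56d_charpoly_of_toMatrix_map (Int.castRingHom K) b b' f T ?_
  ext i l
  rw [LinearMap.toMatrix_apply, Matrix.map_apply, LinearMap.toMatrix_apply, hb', ← hfT,
    s56d_repr_of_lattice b j b' hb']
  rfl

end Lattice

section PermMat

variable {P : Type*} [Fintype P] [DecidableEq P]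

/-- the integral permutation matrix. -/
def s56d_permMat (σ : Equiv.Perm P) : Matrix P P ℤ := Matrix.of fun x y => if σ.symm x = y then 1 else 0

theorem s56d_charpoly_permEnd_id {k : Type*} [Field k] (σ : Equiv.Perm P) :
    (s56d_permEnd σ (LinearMap.id : k →ₗ[k] k)).charpoly
      = (s56d_permMat σ).charpoly.map (Int.castRingHom k) := by
  rw [← Matrix.charpoly_map, ← LinearMap.charpoly_toMatrix _ (Pi.basisFun k P)]
  congr 1
  ext x y
  rw [LinearMap.toMatrix_apply, Matrix.map_apply, Pi.basisFun_repr, Pi.basisFun_apply,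
    s56d_permEnd_apply, LinearMap.id_apply, Pi.single_apply]
  unfold s56d_permMat
  rw [Matrix.of_apply]
  split_ifs <;> simp

end PermMat

section PermRep

variable (k : Type) [Field k] (C P : Type) [Group C] [MulAction C P]

/-- the permutation representation on `P → k`: `(c • F) w = F (c⁻¹ • w)`. -/
def s56d_permRepn : Representation k C (P → k) where
  toFun c := s56d_permEnd (MulAction.toPerm c) LinearMap.id
  map_one' := by
    ext F w
    simp
  map_mul' c c' := by
    ext F w
    simp [mul_smul]

theorem s56d_permRepn_apply (c : C) (F : P → k) (w : P) :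
    s56d_permRepn k C P c F w = F (c⁻¹ • w) := rfl

/-- the permutation representation as an object of `Rep`. -/
def s56d_permRep : Rep.{0, 0, 0} k C := Rep.of (s56d_permRepn k C P)

theorem s56d_permRep_ρ_apply (c : C) (F : P → k) (w : P) :
    (s56d_permRep k C P).ρ c F w = F (c⁻¹ • w) := rfl

instance s56d_finite_permRep [Finite P] [Finite k] : Finite (s56d_permRep k C P).V :=
  inferInstanceAs (Finite (P → k))

end PermRep

section BNTwo

variable {p : ℕ} [Fact p.Prime] {C : Type} [Group C] [Finite C]

/-- Brauer–Nesbitt for two representations. -/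
theorem s56d_bn_two (A B : Rep.{0, 0, 0} (ZMod p) C) [Finite A.V] [Finite B.V]
    (h : ∀ c : C, (A.ρ c).charpoly = (B.ρ c).charpoly)
    (φ : Rep.{0, 0, 0} (ZMod p) C → ℤ) (hφ : s56d_AddInv φ) : φ A = φ B := by
  let M : Fin 2 → Rep.{0, 0, 0} (ZMod p) C := ![A, B]
  have hM : ∀ j, Finite (M j).V := fun j => by
    fin_cases j
    · exact inferInstanceAs (Finite A.V)
    · exact inferInstanceAs (Finite B.V)
  have hM' : ∀ j, Module.Finite (ZMod p) (M j).V := fun j => Module.Finite.of_finite
  have key := s56d_brauer_nesbitt p M ![1, 0] ![0, 1] (fun g _ => by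
    rw [Fin.prod_univ_two, Fin.prod_univ_two]
    have hA : Module.Finite (ZMod p) A.V := Module.Finite.of_finite
    have hB : Module.Finite (ZMod p) B.V := Module.Finite.of_finite
    have h0 : s56d_cp (M 0) (MonoidAlgebra.of (ZMod p) C g) = (A.ρ g).charpoly := s56d_cp_of A g
    have h1 : s56d_cp (M 1) (MonoidAlgebra.of (ZMod p) C g) = (B.ρ g).charpoly := s56d_cp_of B g
    rw [h0, h1, h g]
    simp) φ hφ
  rw [Fin.sum_univ_two, Fin.sum_univ_two] at key
  simpa [M] using key

end BNTwo

section LatticePerm

variable {p : ℕ} [Fact p.Prime] {C : Type} [Group C] [Finite C]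
variable {Λ : Type} [AddCommGroup Λ] [Module.Free ℤ Λ] [Module.Finite ℤ Λ]

/-- **a lattice which is rationally a permutation module.** -/
theorem s56d_hN_latticePerm (hC : (Nat.card C).Coprime p) (N : Rep.{0, 0, 0} (ZMod p) C) [Finite N.V]
    (ρ : Representation ℤ C Λ) {P : Type} [Fintype P] [MulAction C P]
    {K : Type*} [Field K] [CharZero K] {ι : Type} [Fintype ι] (b : Basis ι ℤ Λ) (j : Λ →+ (P → K))
    (hj : ∀ c x w, j (ρ c x) w = j x (c⁻¹ • w))
    (hli : LinearIndependent K (fun i => j (b i))) (hcard : Fintype.card ι = Fintype.card P) :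
    s56d_hN p N ρ = s56d_homDim (s56d_permRep (ZMod p) C P) N := by
  classical
  have hG := s56d_card_ne_zero p hC
  have hNf : FiniteDimensional (ZMod p) N.V := Module.Finite.of_finite
  rw [s56d_hN_lattice]
  have hfA : Finite (s56d_modP p ρ).V := inferInstanceAs (Finite (s56d_ModP p Λ))
  refine s56d_bn_two (s56d_modP p ρ) (s56d_permRep (ZMod p) C P) (fun c => ?_)
    (fun Y => (s56d_homDim Y N : ℤ)) (s56d_addInv_homDim_left hG N)
  -- compare characteristic polynomials over `ℤ`
  let b' : Basis ι K (P → K) := basisOfLinearIndependentOfCardEqFinrank' _ hli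
    (hcard.trans (Module.finrank_fintype_fun_eq_card K).symm)
  have hb' : ∀ i, b' i = j (b i) := fun i => by
    simp only [b', coe_basisOfLinearIndependentOfCardEqFinrank']
  have h1 := s56d_charpoly_of_lattice b j b' hb' (ρ c)
    (s56d_permEnd (MulAction.toPerm c) (LinearMap.id : K →ₗ[K] K)) (fun x => by
      funext w
      rw [hj]
      rfl)
  rw [s56d_charpoly_permEnd_id] at h1
  have h2 : (ρ c).charpoly = (s56d_permMat (MulAction.toPerm c : Equiv.Perm P)).charpoly :=
    (Polynomial.map_injective (Int.castRingHom K) Int.cast_injective h1).symm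
  rw [s56d_charpoly_modP, h2]
  exact (s56d_charpoly_permEnd_id (k := ZMod p) (MulAction.toPerm c : Equiv.Perm P)).symm

end LatticePerm

end Fermat.Agent.Lib.S56
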