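/-
PROGRAMME W (S56), wall [W4], brick (E4), algebra (helper1, prefix `s56d_`):
**equivariant functions.**  For a finite `C`-set `P` and a `k[C]`-module `N`,
`Hom_C(k[P], N) = {φ : P → N | φ (c • w) = c φ(w)}` (`s56d_homDim_permRep`).  For a transitive `Γ`-set `P = Γ·w₀`,
`C ≤ Γ`, `π : G ↠ Γ`, these are the functions in `Coind_{π⁻¹C}^G N` which are right invariant under a subgroup
`H ≤ G` with `π(H) = Stab(w₀)` (`s56d_eqFunCoindEquiv`).
-/
import Fermat.Agent.Lib.S56.DLatPerm

set_option autoImplicit false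
set_option linter.unusedSectionVars false

noncomputable section

namespace Fermat.Agent.Lib.S56

open Module Function

section EqFun

variable {k : Type} [Field k] {C : Type} [Group C] (P : Type) [MulAction C P]

/-- the `C`-equivariant functions `P → N`. -/
def s56d_eqFun (N : Rep.{0, 0, 0} k C) : Submodule k (P → N.V) where
  carrier := {φ | ∀ (c : C) (w : P), φ (c • w) = N.ρ c (φ w)}
  add_mem' {a b} ha hb c w := by
    rw [Pi.add_apply, Pi.add_apply, ha, hb, map_add]
  zero_mem' c w := by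
    rw [Pi.zero_apply, Pi.zero_apply, map_zero]
  smul_mem' r a ha c w := by
    rw [Pi.smul_apply, Pi.smul_apply, ha, map_smul]

theorem s56d_mem_eqFun (N : Rep.{0, 0, 0} k C) (φ : P → N.V) :
    φ ∈ s56d_eqFun P N ↔ ∀ (c : C) (w : P), φ (c • w) = N.ρ c (φ w) := Iff.rfl

variable [Fintype P] [DecidableEq P]

theorem s56d_permRep_single (c : C) (w : P) :
    (s56d_permRep k C P).ρ c (Pi.single w (1 : k)) = Pi.single (c • w) (1 : k) := by
  funext w'
  rw [s56d_permRep_ρ_apply, Pi.single_apply, Pi.single_apply]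
  have : c⁻¹ • w' = w ↔ w' = c • w := by
    rw [inv_smul_eq_iff]
  simp only [this]

/-- `Hom_C(k[P], N)` is the space of equivariant functions. -/
def s56d_homPermEquiv (N : Rep.{0, 0, 0} k C) :
    ↥(Representation.linHom (s56d_permRep k C P).ρ N.ρ).invariants ≃ₗ[k] ↥(s56d_eqFun P N) where
  toFun f := ⟨fun w => f.1 (Pi.single w (1 : k)), fun c w => by
    change f.1 (Pi.single (c • w) (1 : k)) = N.ρ c (f.1 (Pi.single w (1 : k)))
    rw [← s56d_permRep_single, (s56d_mem_homInv f.1).mp f.2]⟩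
  map_add' f g := rfl
  map_smul' r f := rfl
  invFun φ := ⟨(Fintype.linearCombination k φ.1 : (P → k) →ₗ[k] N.V), by
    rw [s56d_mem_homInv]
    intro c F
    change Fintype.linearCombination k φ.1 ((s56d_permRep k C P).ρ c F)
      = N.ρ c (Fintype.linearCombination k φ.1 (F : P → k))
    rw [Fintype.linearCombination_apply, Fintype.linearCombination_apply, map_sum]
    simp only [map_smul, ← φ.2 c]
    exact Fintype.sum_equiv (MulAction.toPerm c⁻¹) _ _ fun w => by
      change F (c⁻¹ • w) • φ.1 w = F (c⁻¹ • w) • φ.1 (c • c⁻¹ • w)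
      rw [smul_inv_smul]⟩
  left_inv f := by
    apply Subtype.ext
    apply LinearMap.ext
    intro F
    change Fintype.linearCombination k (fun w => f.1 (Pi.single w (1 : k))) (F : P → k) = f.1 F
    rw [Fintype.linearCombination_apply]
    simp only [← map_smul, ← map_sum]
    congr 1
    exact (pi_eq_sum_univ' (F : P → k)).symm
  right_inv φ := by
    apply Subtype.ext
    funext w
    change Fintype.linearCombination k φ.1 (Pi.single w (1 : k)) = φ.1 w
    rw [Fintype.linearCombination_apply_single, one_smul]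

theorem s56d_homDim_permRep (N : Rep.{0, 0, 0} k C) :
    s56d_homDim (s56d_permRep k C P) N = finrank k ↥(s56d_eqFun P N) :=
  LinearEquiv.finrank_eq (s56d_homPermEquiv P N)

end EqFun

section Unit

variable {k : Type} [Field k] {C : Type} [Group C]

/-- equivariant functions on a point are the invariants. -/
def s56d_eqFunUnitEquiv (N : Rep.{0, 0, 0} k C) : ↥(s56d_eqFun Unit N) ≃ₗ[k] ↥N.ρ.invariants where
  toFun φ := ⟨φ.1 (), fun c => (φ.2 c ()).symm⟩
  map_add' a b := rfl
  map_smul' r a := rfl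
  invFun v := ⟨fun _ => v.1, fun c _ => (v.2 c).symm⟩
  left_inv φ := rfl
  right_inv v := rfl

theorem s56d_homDim_permRep_unit (N : Rep.{0, 0, 0} k C) :
    s56d_homDim (s56d_permRep k C Unit) N = finrank k ↥N.ρ.invariants := by
  rw [s56d_homDim_permRep]
  exact LinearEquiv.finrank_eq (s56d_eqFunUnitEquiv N)

end Unit

section Coind

variable {k : Type} [Field k] {G Γ : Type} [Group G] [Group Γ] (π : G →* Γ) (C : Subgroup Γ)
variable (N : Rep.{0, 0, 0} k ↥C) {P : Type} [MulAction Γ P]

/-- the functions in `Coind_{π⁻¹C}^G N` which are right invariant under `H`. -/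
def s56d_coindInv (H : Subgroup G) :
    Submodule k ↥(Representation.coindV (C.comap π).subtype (N.ρ.comp (π.subgroupComap C))) where
  carrier := {f | ∀ h ∈ H, ∀ g, f.1 (g * h) = f.1 g}
  add_mem' {a b} ha hb h hh g := by
    change a.1 (g * h) + b.1 (g * h) = a.1 g + b.1 g
    rw [ha h hh, hb h hh]
  zero_mem' h hh g := rfl
  smul_mem' r a ha h hh g := by
    change r • a.1 (g * h) = r • a.1 g
    rw [ha h hh]

variable {π} (hπ : Surjective π) (w₀ : P) (htr : ∀ w : P, ∃ γ : Γ, γ • w₀ = w)
variable (H : Subgroup G) (hH : ∀ γ : Γ, γ • w₀ = w₀ ↔ γ ∈ H.map π)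

include hπ htr hH in
/-- **equivariant functions on a transitive `Γ`-set as right-invariant coinduced functions.** -/
theorem s56d_eqFunCoindEquiv :
    Nonempty (↥(s56d_eqFun P N) ≃ₗ[k] ↥(s56d_coindInv π C N H)) := by
  classical
  -- the kernel of `π` acts trivially
  have hker : ∀ (f : ↥(Representation.coindV (C.comap π).subtype
      (N.ρ.comp (π.subgroupComap C)))) (g v : G), π v = 1 → f.1 (g * v) = f.1 g := by
    intro f g v hv
    have hu : g * v * g⁻¹ ∈ C.comap π := by
      rw [Subgroup.mem_comap, map_mul, map_mul, hv, mul_one, ← map_mul, mul_inv_cancel, map_one]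
      exact C.one_mem
    have h1 := f.2 ⟨g * v * g⁻¹, hu⟩ g
    have h2 : (π.subgroupComap C) ⟨g * v * g⁻¹, hu⟩ = 1 := by
      apply Subtype.ext
      change π (g * v * g⁻¹) = 1
      rw [map_mul, map_mul, hv, mul_one, ← map_mul, mul_inv_cancel, map_one]
    change f.1 (g * v * g⁻¹ * g) = N.ρ ((π.subgroupComap C) ⟨g * v * g⁻¹, hu⟩) (f.1 g) at h1
    rw [h2, map_one, inv_mul_cancel_right] at h1
    exact h1
  -- well-definedness
  have hwd : ∀ (f : ↥(s56d_coindInv π C N H)) (g g' : G), π g • w₀ = π g' • w₀ →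
      f.1.1 g = f.1.1 g' := by
    intro f g g' hgg
    have h1 : (π g)⁻¹ * π g' ∈ H.map π := by
      rw [← hH, mul_smul, ← hgg, inv_smul_smul]
    obtain ⟨h, hh, hh'⟩ := h1
    have h2 : π (h⁻¹ * g⁻¹ * g') = 1 := by
      rw [map_mul, map_mul, map_inv, map_inv, hh', mul_assoc, inv_mul_cancel]
    have h3 : g' = g * h * (h⁻¹ * g⁻¹ * g') := by group
    rw [h3, hker f.1 _ _ h2, f.2 h hh]
  choose s hs using hπ
  choose t ht using htr
  refine ⟨{ toFun := fun ψ => ⟨⟨fun g => ψ.1 (π g • w₀), fun u g => ?_⟩, fun h hh g => ?_⟩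
            map_add' := fun a b => rfl
            map_smul' := fun r a => rfl
            invFun := fun f => ⟨fun w => f.1.1 (s (t w)), fun c w => ?_⟩
            left_inv := fun ψ => ?_
            right_inv := fun f => ?_ }⟩
  · change ψ.1 (π (↑u * g) • w₀) = N.ρ ((π.subgroupComap C) u) (ψ.1 (π g • w₀))
    rw [map_mul, mul_smul]
    exact ψ.2 ((π.subgroupComap C) u) (π g • w₀)
  · change ψ.1 (π (g * h) • w₀) = ψ.1 (π g • w₀)
    rw [map_mul, mul_smul, (hH (π h)).mpr ⟨h, hh, rfl⟩]
  · -- equivariance of the inverse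
    obtain ⟨u, hu⟩ : ∃ u, π u = (c : Γ) := ⟨s c, hs c⟩
    have hu' : u ∈ C.comap π := by
      rw [Subgroup.mem_comap, hu]
      exact c.2
    have h1 : f.1.1 (s (t (c • w))) = f.1.1 (u * s (t w)) := by
      apply hwd
      rw [hs, ht, map_mul, hs, mul_smul, ht, hu]
      rfl
    change f.1.1 (s (t (c • w))) = N.ρ c (f.1.1 (s (t w)))
    rw [h1]
    have h2 := f.1.2 ⟨u, hu'⟩ (s (t w))
    change f.1.1 (u * s (t w)) = N.ρ ((π.subgroupComap C) ⟨u, hu'⟩) (f.1.1 (s (t w))) at h2
    rw [h2]
    congr 2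
    exact Subtype.ext hu
  · apply Subtype.ext
    funext w
    change ψ.1 (π (s (t w)) • w₀) = ψ.1 w
    rw [hs, ht]
  · apply Subtype.ext
    apply Subtype.ext
    funext g
    change f.1.1 (s (t (π g • w₀))) = f.1.1 g
    apply hwd
    rw [hs, ht]

end Coind

end Fermat.Agent.Lib.S56
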