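/-
PROGRAMME W (S56), wall [W4], brick (E4), arithmetic (helper1, prefix `s56d_`):
**the equivariant Dirichlet unit theorem, `h_N` form.**  For a number field `L`, `Γ = Gal(L/ℚ)`, `C ≤ Γ` of
order prime to `p` and an `𝔽_p[C]`-module `N`:

  `h_N((𝓞 L)ˣ) + dim N^C = dim Hom_C(𝔽_p[InfinitePlace L], N)`      (`s56d_hN_units`).

Proof: the full logarithmic map `(𝓞 L)ˣ → ℝ^{InfinitePlace L}` is equivariant, has finite kernel and its image
together with `(1, …, 1)` is a lattice spanning `ℝ^{InfinitePlace L}`; then `s56d_hN_latticePerm`.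
-/
import Fermat.Agent.Lib.S56.DEqFun

set_option autoImplicit false
set_option linter.unusedSectionVars false
set_option maxSynthPendingDepth 3

noncomputable section

namespace Fermat.Agent.Lib.S56

open Module Function NumberField NumberField.Units NumberField.InfinitePlace

section Action

variable (L : Type) [Field L] [NumberField L]

/-- the Galois action on the units. -/
instance s56d_unitsAction : MulDistribMulAction (L ≃ₐ[ℚ] L) (𝓞 L)ˣ where
  smul σ u := Units.map (MulSemiringAction.toRingHom (L ≃ₐ[ℚ] L) (𝓞 L) σ : 𝓞 L →* 𝓞 L) u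
  one_smul u := by
    apply Units.ext
    exact one_smul (L ≃ₐ[ℚ] L) (u : 𝓞 L)
  mul_smul σ τ u := by
    apply Units.ext
    exact mul_smul σ τ (u : 𝓞 L)
  smul_mul σ u v := by
    apply Units.ext
    exact smul_mul' σ (u : 𝓞 L) (v : 𝓞 L)
  smul_one σ := by
    apply Units.ext
    exact smul_one σ

variable {L}

theorem s56d_units_smul_coe (σ : L ≃ₐ[ℚ] L) (u : (𝓞 L)ˣ) :
    (((σ • u : (𝓞 L)ˣ) : 𝓞 L) : L) = σ ((u : 𝓞 L) : L) := rfl

/-- the torsion subgroup is stable. -/
theorem s56d_smul_mem_torsion (σ : L ≃ₐ[ℚ] L) {u : (𝓞 L)ˣ} (hu : u ∈ torsion L) :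
    σ • u ∈ torsion L := by
  rw [torsion, CommGroup.mem_torsion] at hu ⊢
  obtain ⟨n, hn, hu⟩ := isOfFinOrder_iff_pow_eq_one.mp hu
  exact isOfFinOrder_iff_pow_eq_one.mpr ⟨n, hn, by rw [← smul_pow', hu, smul_one]⟩

variable (L)

/-- the full logarithmic map. -/
def s56d_logFull : Additive (𝓞 L)ˣ →+ (InfinitePlace L → ℝ) where
  toFun x w := mult w * Real.log (w ((x.toMul : (𝓞 L)ˣ) : 𝓞 L))
  map_zero' := by
    funext w
    simp
  map_add' x y := by
    funext w
    simp [Real.log_mul, mul_add]

variable {L}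

theorem s56d_logFull_apply (u : (𝓞 L)ˣ) (w : InfinitePlace L) :
    s56d_logFull L (Additive.ofMul u) w = mult w * Real.log (w ((u : 𝓞 L) : L)) := rfl

theorem s56d_mult_smul (σ : L ≃ₐ[ℚ] L) (w : InfinitePlace L) : mult (σ • w) = mult w := by
  unfold mult
  rw [isReal_smul_iff]

/-- equivariance of the logarithmic map. -/
theorem s56d_logFull_smul (σ : L ≃ₐ[ℚ] L) (u : (𝓞 L)ˣ) (w : InfinitePlace L) :
    s56d_logFull L (Additive.ofMul (σ • u)) w = s56d_logFull L (Additive.ofMul u) (σ⁻¹ • w) := by
  rw [s56d_logFull_apply, s56d_logFull_apply, s56d_mult_smul, InfinitePlace.smul_apply,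
    s56d_units_smul_coe]
  rfl

/-- the logarithmic map lands in the hyperplane `∑ = 0`. -/
theorem s56d_sum_logFull (x : Additive (𝓞 L)ˣ) : ∑ w, s56d_logFull L x w = 0 :=
  sum_mult_mul_log (x.toMul : (𝓞 L)ˣ)

/-- the components outside `w₀` are those of Mathlib's `logEmbedding`. -/
theorem s56d_logFull_restrict (x : Additive (𝓞 L)ˣ)
    (w : {w : InfinitePlace L // w ≠ dirichletUnitTheorem.w₀}) :
    s56d_logFull L x w.1 = logEmbedding L x w := rfl

theorem s56d_logFull_eq_zero_iff (u : (𝓞 L)ˣ) :
    s56d_logFull L (Additive.ofMul u) = 0 ↔ u ∈ torsion L := by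
  rw [← dirichletUnitTheorem.logEmbedding_eq_zero_iff]
  constructor
  · intro h
    funext w
    rw [← s56d_logFull_restrict, h]
    rfl
  · intro h
    rw [dirichletUnitTheorem.logEmbedding_eq_zero_iff] at h
    funext w
    rw [s56d_logFull_apply, (mem_torsion L).mp h w, Real.log_one, mul_zero]
    rfl

end Action

section General

variable {p : ℕ} [Fact p.Prime] {C : Type} [Group C] [Finite C]
variable {Λ Λ'' : Type} [AddCommGroup Λ] [AddCommGroup Λ'']

/-- a surjective equivariant map with finite kernel does not change `h_N`. -/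
theorem s56d_hN_of_finite_ker (hC : (Nat.card C).Coprime p) (N : Rep.{0, 0, 0} (ZMod p) C)
    [Finite N.V] (ρ : Representation ℤ C Λ) (ρ'' : Representation ℤ C Λ'') (j : Λ →+ Λ'')
    (hj : ∀ c x, j (ρ c x) = ρ'' c (j x)) (hsurj : Surjective j) (hker : Finite j.ker)
    (h'' : s56d_PFin p Λ'') : s56d_hN p N ρ = s56d_hN p N ρ'' := by
  let K : Submodule ℤ Λ := LinearMap.ker j.toIntLinearMap
  have hK : ∀ c, K ≤ K.comap (ρ c) := fun c x hx => by
    change j (ρ c x) = 0
    rw [hj]
    have hx' : j x = 0 := hx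
    rw [hx', map_zero]
  have hfK : Finite ↥K := hker
  have hadd := s56d_hN_add' hC N (ρ.subrepresentation K hK) ρ ρ''
    K.subtype.toAddMonoidHom j (fun c x => rfl) hj K.injective_subtype hsurj
    (fun x => ⟨fun hx => ⟨⟨x, hx⟩, rfl⟩, fun ⟨y, hy⟩ => hy ▸ y.2⟩)
    (s56d_pFin_of_finite p ↥K) h''
  rw [hadd, s56d_hN_finite' hC N (ρ.subrepresentation K hK), zero_add]

/-- the product of a representation with the trivial representation on `ℤ`. -/
def s56d_prodTrivRep (ρ : Representation ℤ C Λ) : Representation ℤ C (Λ × ℤ) where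
  toFun c := (ρ c).prodMap LinearMap.id
  map_one' := by
    apply LinearMap.ext
    rintro ⟨x, n⟩
    simp
  map_mul' c c' := by
    apply LinearMap.ext
    rintro ⟨x, n⟩
    simp

theorem s56d_prodTrivRep_apply (ρ : Representation ℤ C Λ) (c : C) (x : Λ) (n : ℤ) :
    s56d_prodTrivRep ρ c (x, n) = (ρ c x, n) := rfl

/-- the trivial representation on `ℤ`. -/
def s56d_trivZ (C : Type) [Group C] : Representation ℤ C ℤ := 1

/-- `h_N(ℤ) = dim N^C`. -/
theorem s56d_hN_trivZ (hC : (Nat.card C).Coprime p) (N : Rep.{0, 0, 0} (ZMod p) C) [Finite N.V] :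
    s56d_hN p N (s56d_trivZ C) = finrank (ZMod p) ↥N.ρ.invariants := by
  have h := s56d_hN_latticePerm hC N (s56d_trivZ C) (P := Unit) (K := ℚ)
    (Basis.singleton Unit ℤ) ((Pi.constAddMonoidHom Unit ℚ).comp (Int.castAddHom ℚ))
    (fun c x w => rfl) ?_ rfl
  · rw [h, s56d_homDim_permRep_unit]
  · rw [linearIndependent_unique_iff]
    intro h0
    have := congrFun h0 ()
    simp at this

/-- `h_N(Λ × ℤ) = h_N(Λ) + dim N^C`. -/
theorem s56d_hN_prodTriv (hC : (Nat.card C).Coprime p) (N : Rep.{0, 0, 0} (ZMod p) C) [Finite N.V]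
    (ρ : Representation ℤ C Λ) (hΛ : s56d_PFin p Λ) :
    s56d_hN p N (s56d_prodTrivRep ρ) = s56d_hN p N ρ + finrank (ZMod p) ↥N.ρ.invariants := by
  rw [← s56d_hN_trivZ hC N]
  exact s56d_hN_add' hC N ρ (s56d_prodTrivRep ρ) (s56d_trivZ C) (AddMonoidHom.inl Λ ℤ)
    (AddMonoidHom.snd Λ ℤ) (fun c x => rfl) (fun c x => rfl)
    (fun x y hxy => (Prod.ext_iff.mp hxy).1) (fun n => ⟨(0, n), rfl⟩)
    (fun x => ⟨fun hx => ⟨x.1, Prod.ext rfl hx.symm⟩, fun ⟨y, hy⟩ => hy ▸ rfl⟩)
    hΛ (s56d_pFin_lattice p)

end General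

section Quot

variable (L : Type) [Field L] [NumberField L]

/-- the Galois action on the units modulo torsion (additively). -/
def s56d_unitsQuotRep : Representation ℤ (L ≃ₐ[ℚ] L) (Additive ((𝓞 L)ˣ ⧸ torsion L)) where
  toFun σ := (MonoidHom.toAdditive (QuotientGroup.map (torsion L) (torsion L)
    (MulDistribMulAction.toMonoidHom (𝓞 L)ˣ σ)
    (fun _ hu => s56d_smul_mem_torsion σ hu))).toIntLinearMap
  map_one' := by
    apply LinearMap.ext
    intro x
    induction x using Additive.rec with | _ x => ?_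
    induction x using QuotientGroup.induction_on with | _ u => ?_
    change Additive.ofMul (QuotientGroup.mk ((1 : L ≃ₐ[ℚ] L) • u)) = _
    rw [one_smul]
    rfl
  map_mul' σ τ := by
    apply LinearMap.ext
    intro x
    induction x using Additive.rec with | _ x => ?_
    induction x using QuotientGroup.induction_on with | _ u => ?_
    change Additive.ofMul (QuotientGroup.mk ((σ * τ) • u)) = _
    rw [mul_smul]
    rfl

variable {L}

theorem s56d_unitsQuotRep_mk (σ : L ≃ₐ[ℚ] L) (u : (𝓞 L)ˣ) :
    s56d_unitsQuotRep L σ (Additive.ofMul (QuotientGroup.mk u))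
      = Additive.ofMul (QuotientGroup.mk (σ • u)) := rfl

variable (L)

/-- the logarithmic map on units modulo torsion. -/
def s56d_logQuot : Additive ((𝓞 L)ˣ ⧸ torsion L) →+ (InfinitePlace L → ℝ) :=
  MonoidHom.toAdditiveLeft (QuotientGroup.lift (torsion L)
    (AddMonoidHom.toMultiplicativeRight (s56d_logFull L)) (fun u hu => by
      rw [MonoidHom.mem_ker, AddMonoidHom.toMultiplicativeRight_apply_apply, ofAdd_eq_one]
      exact (s56d_logFull_eq_zero_iff u).mpr hu))

variable {L}

theorem s56d_logQuot_mk (u : (𝓞 L)ˣ) :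
    s56d_logQuot L (Additive.ofMul (QuotientGroup.mk u)) = s56d_logFull L (Additive.ofMul u) := rfl

theorem s56d_logQuot_smul (σ : L ≃ₐ[ℚ] L) (x : Additive ((𝓞 L)ˣ ⧸ torsion L))
    (w : InfinitePlace L) :
    s56d_logQuot L (s56d_unitsQuotRep L σ x) w = s56d_logQuot L x (σ⁻¹ • w) := by
  induction x using Additive.rec with | _ x => ?_
  induction x using QuotientGroup.induction_on with | _ u => ?_
  rw [s56d_unitsQuotRep_mk, s56d_logQuot_mk, s56d_logQuot_mk, s56d_logFull_smul]

theorem s56d_sum_logQuot (x : Additive ((𝓞 L)ˣ ⧸ torsion L)) : ∑ w, s56d_logQuot L x w = 0 := by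
  induction x using Additive.rec with | _ x => ?_
  induction x using QuotientGroup.induction_on with | _ u => ?_
  rw [s56d_logQuot_mk]
  exact s56d_sum_logFull _

theorem s56d_logQuot_restrict (x : Additive ((𝓞 L)ˣ ⧸ torsion L))
    (w : {w : InfinitePlace L // w ≠ dirichletUnitTheorem.w₀}) :
    s56d_logQuot L x w.1 = logEmbeddingQuot L x w := by
  induction x using Additive.rec with | _ x => ?_
  induction x using QuotientGroup.induction_on with | _ u => ?_
  rfl

/-- the images of a fundamental system are linearly independent over `ℝ`. -/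
theorem s56d_linearIndependent_logQuot :
    LinearIndependent ℝ (fun i => s56d_logQuot L (basisModTorsion L i)) := by
  classical
  let pr : (InfinitePlace L → ℝ) →ₗ[ℝ] dirichletUnitTheorem.logSpace L := LinearMap.funLeft ℝ ℝ Subtype.val
  apply LinearIndependent.of_comp pr
  have h1 : (pr ∘ fun i => s56d_logQuot L (basisModTorsion L i))
      = fun i => (((basisUnitLattice L).ofZLatticeBasis ℝ (unitLattice L)) i :
        dirichletUnitTheorem.logSpace L) := by
    funext i
    rw [Basis.ofZLatticeBasis_apply]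
    funext w
    change s56d_logQuot L (basisModTorsion L i) w.1 = _
    rw [s56d_logQuot_restrict]
    rfl
  rw [h1]
  exact ((basisUnitLattice L).ofZLatticeBasis ℝ (unitLattice L)).linearIndependent

/-- the lattice map `(units/torsion) × ℤ → ℝ^{InfinitePlace L}`. -/
def s56d_logProd : Additive ((𝓞 L)ˣ ⧸ torsion L) × ℤ →+ (InfinitePlace L → ℝ) :=
  (s56d_logQuot L).coprod ((Pi.constAddMonoidHom (InfinitePlace L) ℝ).comp (Int.castAddHom ℝ))

theorem s56d_logProd_apply (x : Additive ((𝓞 L)ˣ ⧸ torsion L)) (n : ℤ) (w : InfinitePlace L) :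
    s56d_logProd (x, n) w = s56d_logQuot L x w + n := rfl

theorem s56d_linearIndependent_logProd :
    LinearIndependent ℝ (fun i =>
      s56d_logProd (((basisModTorsion L).prod (Basis.singleton Unit ℤ)) i)) := by
  classical
  have h1 : (fun i => s56d_logProd (((basisModTorsion L).prod (Basis.singleton Unit ℤ)) i))
      = Sum.elim (fun i => s56d_logQuot L (basisModTorsion L i))
        (fun _ : Unit => fun _ : InfinitePlace L => (1 : ℝ)) := by
    funext i
    rcases i with i | i
    · funext w
      rw [Basis.prod_apply]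
      simp [s56d_logProd_apply]
    · funext w
      rw [Basis.prod_apply]
      simp [s56d_logProd_apply]
  rw [h1]
  refine LinearIndependent.sum_type s56d_linearIndependent_logQuot ?_ ?_
  · rw [linearIndependent_unique_iff]
    intro h0
    have := congrFun h0 dirichletUnitTheorem.w₀
    simp at this
  · rw [Submodule.disjoint_def]
    intro x hx hx'
    -- `x` has sum zero and is constant
    let sumF : (InfinitePlace L → ℝ) →ₗ[ℝ] ℝ := ∑ w, LinearMap.proj w
    have hsumF : ∀ y, sumF y = ∑ w, y w := fun y => by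
      simp [sumF, LinearMap.sum_apply]
    have h2 : sumF x = 0 := by
      have : Submodule.span ℝ (Set.range fun i => s56d_logQuot L (basisModTorsion L i))
          ≤ LinearMap.ker sumF := by
        rw [Submodule.span_le]
        rintro _ ⟨i, rfl⟩
        rw [SetLike.mem_coe, LinearMap.mem_ker, hsumF]
        exact s56d_sum_logQuot _
      exact this hx
    have h3 : x ∈ Submodule.span ℝ {fun _ : InfinitePlace L => (1 : ℝ)} := by
      have : Set.range (fun _ : Unit => fun _ : InfinitePlace L => (1 : ℝ))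
          = {fun _ : InfinitePlace L => (1 : ℝ)} := Set.range_const
      rwa [this] at hx'
    obtain ⟨a, rfl⟩ := Submodule.mem_span_singleton.mp h3
    rw [hsumF] at h2
    simp only [Pi.smul_apply, smul_eq_mul, mul_one, Finset.sum_const, Finset.card_univ,
      nsmul_eq_mul] at h2
    have hcard : (Fintype.card (InfinitePlace L) : ℝ) ≠ 0 := by
      exact_mod_cast Fintype.card_ne_zero
    rw [(mul_eq_zero.mp h2).resolve_left hcard, zero_smul]

end Quot

section Main

variable {p : ℕ} [Fact p.Prime] {L : Type} [Field L] [NumberField L]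
variable (C : Subgroup (L ≃ₐ[ℚ] L))

/-- **the equivariant Dirichlet unit theorem, `h_N` form.** -/
theorem s56d_hN_units (hC : (Nat.card C).Coprime p) (N : Rep.{0, 0, 0} (ZMod p) ↥C) [Finite N.V] :
    s56d_hNm p (𝓞 L)ˣ N + finrank (ZMod p) ↥N.ρ.invariants
      = finrank (ZMod p) ↥(s56d_eqFun (InfinitePlace L) N) := by
  classical
  -- pass to units modulo torsion
  let ρq : Representation ℤ ↥C (Additive ((𝓞 L)ˣ ⧸ torsion L)) :=
    (s56d_unitsQuotRep L).comp C.subtype
  have h1 : s56d_hNm p (𝓞 L)ˣ N = s56d_hN p N ρq := by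
    refine s56d_hN_of_finite_ker hC N _ ρq
      (MonoidHom.toAdditive (QuotientGroup.mk' (torsion L))) (fun c x => rfl)
      (fun y => ?_) ?_ (s56d_pFin_lattice p)
    · induction y using Additive.rec with | _ y => ?_
      obtain ⟨u, rfl⟩ := QuotientGroup.mk_surjective y
      exact ⟨Additive.ofMul u, rfl⟩
    · have h2 : (MonoidHom.toAdditive (QuotientGroup.mk' (torsion L))).ker
          = (torsion L).toAddSubgroup := by
        rw [MonoidHom.coe_toAdditive_ker, QuotientGroup.ker_mk']
      rw [h2]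
      exact (inferInstance : Finite (torsion L))
  rw [h1, ← s56d_hN_prodTriv hC N ρq (s56d_pFin_lattice p), ← s56d_homDim_permRep]
  refine s56d_hN_latticePerm hC N (s56d_prodTrivRep ρq) (K := ℝ)
    ((basisModTorsion L).prod (Basis.singleton Unit ℤ)) s56d_logProd ?_
    s56d_linearIndependent_logProd ?_
  · rintro c ⟨x, n⟩ w
    rw [s56d_prodTrivRep_apply, s56d_logProd_apply, s56d_logProd_apply]
    congr 1
    exact s56d_logQuot_smul (c : L ≃ₐ[ℚ] L) x w
  · rw [Fintype.card_sum, Fintype.card_fin, Fintype.card_unit, Units.rank]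
    have : 0 < Fintype.card (InfinitePlace L) := Fintype.card_pos
    omega

end Main

end Fermat.Agent.Lib.S56
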