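/-
Programme W (S56), wall [W4], brick (E4), idele half (helper4): **`h_N` of the local units**
`∏_{q ∈ S} U_q(K)` for `p ∈ S`, `p` odd: `h_N(∏_{q ∈ S} U_q) = h_N(𝒪_K)` (`s56b_hNm_prodUnits`).
-/
import Fermat.Agent.Lib.S56.BHNGen
import Fermat.Agent.Lib.S56.BLocMain
import Fermat.Agent.Lib.S56.DUnits
import Fermat.Prelude.Def_ExtEndgame_ProductionDatum

set_option autoImplicit false
set_option linter.unusedSectionVars false
set_option maxSynthPendingDepth 3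

noncomputable section

namespace Fermat.Agent.Lib.S56

open Fermat.Agent.Lib.PT NumberField Module Function

variable {K : Type} [Field K] [NumberField K] {S : Finset Nat.Primes}

variable (K S) in
/-- `∏_{q ∈ S} V_1(q) ⊆ ∏_{q ∈ S} U_q`. -/
def s56b_VP : Subgroup (∀ q : ↥S, ↥(s56b_Uq K q.1)) where
  carrier := {f | ∀ q : ↥S, f q ∈ s56b_Vq K q.1 1}
  one_mem' := fun q => (s56b_Vq K q.1 1).one_mem
  mul_mem' := fun {f g} hf hg q => (s56b_Vq K q.1 1).mul_mem (hf q) (hg q)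
  inv_mem' := fun {f} hf q => (s56b_Vq K q.1 1).inv_mem (hf q)

lemma s56b_mem_VP (f : ∀ q : ↥S, ↥(s56b_Uq K q.1)) :
    f ∈ s56b_VP K S ↔ ∀ q : ↥S, f q ∈ s56b_Vq K q.1 1 := Iff.rfl

instance s56b_VP_finiteIndex : (s56b_VP K S).FiniteIndex := by
  have hfin : ∀ q : ↥S, Finite (↥(s56b_Uq K q.1) ⧸ s56b_Vq K q.1 1) := fun q => by
    have := s56b_Vq_one_finiteIndex (K := K) (q := q.1)
    exact Subgroup.finite_quotient_of_finiteIndex
  let Θ : (∀ q : ↥S, ↥(s56b_Uq K q.1)) → ∀ q : ↥S, (↥(s56b_Uq K q.1) ⧸ s56b_Vq K q.1 1) :=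
    fun f q => QuotientGroup.mk (f q)
  have hΘ : ∀ f g, Θ f = Θ g → f⁻¹ * g ∈ s56b_VP K S := by
    intro f g h q
    exact QuotientGroup.eq.1 (congrFun h q)
  have := (s56b_quot_le (s56b_VP K S) Θ hΘ).1
  exact Subgroup.finiteIndex_of_finite_quotient

variable {Γ : Type*} [Group Γ] [MulSemiringAction Γ K]

lemma s56b_smul_mem_VP (γ : Γ) {f : ∀ q : ↥S, ↥(s56b_Uq K q.1)} (hf : f ∈ s56b_VP K S) :
    γ • f ∈ s56b_VP K S := fun q => s56b_smul_mem_Vq γ (hf q)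


/-! ### The `p`-power map on `V_1(q)`, uniformly in `q` -/

section Uniform

variable {p : ℕ} {q : Nat.Primes}

lemma s56b_pow_inj_V1 (hp : p.Prime) (hp2 : p ≠ 2) {f : ↥(s56b_Uq K q)}
    (hf : f ∈ s56b_Vq K q 1) (h : f ^ p = 1) : f = 1 := by
  by_cases hpq : p = (q : ℕ)
  · subst hpq
    exact (s56b_S4b (K := K) hp2).2.2.1 f hf h
  · exact (s56b_S4a (K := K) hp hpq).2.2.1 f hf h

lemma s56b_pow_surj_V1 (hp : p.Prime) (hpq : p ≠ (q : ℕ)) {g : ↥(s56b_Uq K q)}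
    (hg : g ∈ s56b_Vq K q 1) : ∃ f ∈ s56b_Vq K q 1, f ^ p = g :=
  (s56b_S4a (K := K) hp hpq).2.2.2 g hg

end Uniform

/-! ### The product -/

section Prod

open ExtCitation

variable {p : ℕ} [Fact p.Prime]

/-- the inclusion of `V_1(p)` into `∏_{q ∈ S} V_1(q)`. -/
def s56b_inclVP (hpS : pPrime p ∈ S) : ↥(s56b_Vq K (pPrime p) 1) →* ↥(s56b_VP K S) :=
  ((MonoidHom.mulSingle (fun q : ↥S => ↥(s56b_Uq K q.1)) ⟨pPrime p, hpS⟩).comp
    (s56b_Vq K (pPrime p) 1).subtype).codRestrict (s56b_VP K S) fun x q => by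
      by_cases hq : q = ⟨pPrime p, hpS⟩
      · subst hq
        show Pi.mulSingle (M := fun q : ↥S => ↥(s56b_Uq K q.1)) (⟨pPrime p, hpS⟩ : ↥S)
          (x : ↥(s56b_Uq K (pPrime p))) ⟨pPrime p, hpS⟩ ∈ _
        rw [Pi.mulSingle_eq_same]
        exact x.2
      · show Pi.mulSingle (M := fun q : ↥S => ↥(s56b_Uq K q.1)) (⟨pPrime p, hpS⟩ : ↥S)
          (x : ↥(s56b_Uq K (pPrime p))) q ∈ _
        rw [Pi.mulSingle_eq_of_ne hq]
        exact (s56b_Vq K q.1 1).one_mem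

lemma s56b_inclVP_same (hpS : pPrime p ∈ S) (x : ↥(s56b_Vq K (pPrime p) 1)) :
    (s56b_inclVP hpS x).1 ⟨pPrime p, hpS⟩ = (x : ↥(s56b_Uq K (pPrime p))) :=
  Pi.mulSingle_eq_same (M := fun q : ↥S => ↥(s56b_Uq K q.1)) _ _

lemma s56b_inclVP_of_ne (hpS : pPrime p ∈ S) (x : ↥(s56b_Vq K (pPrime p) 1)) {q : ↥S}
    (hq : q ≠ ⟨pPrime p, hpS⟩) : (s56b_inclVP hpS x).1 q = 1 :=
  Pi.mulSingle_eq_of_ne (M := fun q : ↥S => ↥(s56b_Uq K q.1)) hq _

/-- `V_1(p) / p ≅ (∏_{q ∈ S} V_1(q)) / p`. -/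
theorem s56b_inclVP_modP_bijective (hp2 : p ≠ 2) (hpS : pPrime p ∈ S) :
    Bijective (s56d_ModP.map p (MonoidHom.toAdditive (s56b_inclVP (K := K) hpS))) := by
  have hp : p.Prime := Fact.out
  constructor
  · rw [injective_iff_map_eq_zero]
    intro w hw
    obtain ⟨x, rfl⟩ := s56d_ModP.mk_surjective p w
    rw [s56d_ModP.map_mk, s56d_ModP.mk_eq_zero_iff] at hw
    obtain ⟨g, hg⟩ := hw
    rw [s56d_ModP.mk_eq_zero_iff]
    have hg' : (Additive.toMul g) ^ p = s56b_inclVP hpS (Additive.toMul x) :=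
      congrArg Additive.toMul hg
    refine ⟨Additive.ofMul ⟨(Additive.toMul g).1 ⟨pPrime p, hpS⟩,
      (Additive.toMul g).2 ⟨pPrime p, hpS⟩⟩, ?_⟩
    show Additive.ofMul ((⟨(Additive.toMul g).1 ⟨pPrime p, hpS⟩, _⟩ :
      ↥(s56b_Vq K (pPrime p) 1)) ^ p) = x
    have h1 := congrArg (fun f : ↥(s56b_VP K S) => f.1 ⟨pPrime p, hpS⟩) hg'
    simp only [Subgroup.coe_pow, Pi.pow_apply, s56b_inclVP_same] at h1
    have h2 : (⟨(Additive.toMul g).1 ⟨pPrime p, hpS⟩, (Additive.toMul g).2 ⟨pPrime p, hpS⟩⟩ :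
      ↥(s56b_Vq K (pPrime p) 1)) ^ p = Additive.toMul x := Subtype.ext h1
    rw [h2]
    rfl
  · intro w
    obtain ⟨h, rfl⟩ := s56d_ModP.mk_surjective p w
    set h' : ↥(s56b_VP K S) := Additive.toMul h with hh'
    refine ⟨s56d_ModP.mk p (Additive.ofMul ⟨h'.1 ⟨pPrime p, hpS⟩, h'.2 ⟨pPrime p, hpS⟩⟩), ?_⟩
    rw [s56d_ModP.map_mk, ← sub_eq_zero, ← map_sub, s56d_ModP.mk_eq_zero_iff]
    -- the quotient is a `p`-th power
    set x : ↥(s56b_Vq K (pPrime p) 1) := ⟨h'.1 ⟨pPrime p, hpS⟩, h'.2 ⟨pPrime p, hpS⟩⟩ with hx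
    have hex : ∀ q : ↥S, ∃ g ∈ s56b_Vq K q.1 1, g ^ p = (s56b_inclVP hpS x).1 q / h'.1 q := by
      intro q
      by_cases hq : q = ⟨pPrime p, hpS⟩
      · subst hq
        refine ⟨1, (s56b_Vq K _ 1).one_mem, ?_⟩
        rw [one_pow, s56b_inclVP_same, div_self']
      · have hpq : p ≠ ((q.1 : Nat.Primes) : ℕ) := by
          intro h0
          apply hq
          apply Subtype.ext
          apply Subtype.ext
          exact h0.symm
        rw [s56b_inclVP_of_ne hpS x hq, one_div]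
        exact s56b_pow_surj_V1 hp hpq ((s56b_Vq K q.1 1).inv_mem (h'.2 q))
    choose g hg1 hg2 using hex
    refine ⟨Additive.ofMul ⟨g, hg1⟩, ?_⟩
    show Additive.ofMul ((⟨g, hg1⟩ : ↥(s56b_VP K S)) ^ p) =
      Additive.ofMul (s56b_inclVP hpS x / h')
    congr 1
    apply Subtype.ext
    funext q
    exact hg2 q


/-- `𝒪_K / p ≅ (∏_{q ∈ S} V_1(q)) / p`. -/
def s56b_lamVP (hp2 : p ≠ 2) (hpS : pPrime p ∈ S) :
    s56d_ModP p (𝓞 K) ≃+ s56d_ModP p (Additive ↥(s56b_VP K S)) :=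
  (s56b_lamModP (K := K) (q := pPrime p) hp2).trans
    (AddEquiv.ofBijective (s56d_ModP.map p (MonoidHom.toAdditive (s56b_inclVP (K := K) hpS)))
      (s56b_inclVP_modP_bijective hp2 hpS))

lemma s56b_lamVP_mk (hp2 : p ≠ 2) (hpS : pPrime p ∈ S) (a : 𝓞 K) :
    s56b_lamVP hp2 hpS (s56d_ModP.mk p a) =
      s56d_ModP.mk p (Additive.ofMul (s56b_inclVP (K := K) hpS
        ⟨s56b_lam (pPrime p) a, s56b_lam_mem a⟩)) := rfl

variable (C : Subgroup (K ≃ₐ[ℚ] K))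

/-- **`h_N` of the local units**: `h_N(∏_{q ∈ S} U_q(K)) = h_N(𝒪_K)`. -/
theorem s56b_hNm_prodUnits (hp2 : p ≠ 2) (hpS : pPrime p ∈ S) (hC : (Nat.card C).Coprime p)
    (N : Rep.{0, 0, 0} (ZMod p) ↥C) [Finite N.V] :
    s56d_PFinM p (∀ q : ↥S, ↥(s56b_Uq K q.1)) ∧
      s56d_hNm p (∀ q : ↥S, ↥(s56b_Uq K q.1)) N =
        s56d_hN p N (Representation.ofDistribMulAction ℤ ↥C (𝓞 K)) := by
  have hp : p.Prime := Fact.out
  have hstab : ∀ (c : ↥C) (f : ∀ q : ↥S, ↥(s56b_Uq K q.1)), f ∈ s56b_VP K S →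
      c • f ∈ s56b_VP K S := fun c f hf => s56b_smul_mem_VP (c : K ≃ₐ[ℚ] K) hf
  let _ : MulDistribMulAction ↥C ↥(s56b_VP K S) := s56b_subAction (s56b_VP K S) hstab
  have hX : ∀ x : ↥(s56b_VP K S), x ^ p = 1 → x = 1 := by
    intro x hx
    apply Subtype.ext
    funext q
    have h1 := congrArg (fun f : ↥(s56b_VP K S) => f.1 q) hx
    simp only [Subgroup.coe_pow, Pi.pow_apply] at h1
    exact s56b_pow_inj_V1 hp hp2 (x.2 q) h1
  have hΛ' : ∀ a : 𝓞 K, p • a = 0 → a = 0 := by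
    intro a ha
    rw [nsmul_eq_mul] at ha
    rcases mul_eq_zero.1 ha with h | h
    · exact absurd h (by exact_mod_cast hp.ne_zero)
    · exact h
  have he : ∀ (c : ↥C) (a : 𝓞 K), ∃ x : ↥(s56b_VP K S),
      s56b_lamVP hp2 hpS (s56d_ModP.mk p a) = s56d_ModP.mk p (Additive.ofMul x) ∧
      s56b_lamVP hp2 hpS (s56d_ModP.mk p (Representation.ofDistribMulAction ℤ ↥C (𝓞 K) c a)) =
        s56d_ModP.mk p (Additive.ofMul (c • x)) := by
    intro c a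
    refine ⟨s56b_inclVP (K := K) hpS ⟨s56b_lam (pPrime p) a, s56b_lam_mem a⟩,
      s56b_lamVP_mk hp2 hpS a, ?_⟩
    rw [s56b_lamVP_mk]
    congr 2
    have hsm : ∀ (x : ↥(s56b_VP K S)) (q : ↥S),
        (c • x : ↥(s56b_VP K S)).1 q = (c : K ≃ₐ[ℚ] K) • x.1 q := fun _ _ => rfl
    apply Subtype.ext
    funext q
    rw [hsm]
    by_cases hq : q = ⟨pPrime p, hpS⟩
    · subst hq
      rw [s56b_inclVP_same, s56b_inclVP_same]
      exact s56b_lam_smul (c : K ≃ₐ[ℚ] K) a _ rfl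
    · rw [s56b_inclVP_of_ne hpS _ hq, s56b_inclVP_of_ne hpS _ hq, smul_one]
  obtain ⟨hPV, hV⟩ := s56b_hNm_eq_of_modP_iso (X := ↥(s56b_VP K S)) N
    (Representation.ofDistribMulAction ℤ ↥C (𝓞 K)) hX hΛ' (s56b_lamVP hp2 hpS) he
  obtain ⟨hPP, hP⟩ := s56b_hNm_of_finiteIndex hC N (s56b_VP K S) hstab hPV
  exact ⟨hPP, hP.trans hV⟩

end Prod

end Fermat.Agent.Lib.S56
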