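/-
PROGRAMME W (S56), wall [W4], brick (E4), bridge (helper1, prefix `s56d_`):
**the units of `𝓞 K` are the everywhere-unit principal ideles** of the embedding model of `Lib/PT`:
`s56d_unitsEquivET : (𝓞 K)ˣ ≃* ↥(cfh_ET K ∅)`, equivariant for `Gal(K/ℚ)`.
-/
import Fermat.Agent.Lib.S56.DUnits
import Fermat.Agent.Lib.PT.FirstE
import Fermat.Agent.Lib.PT.PlaceD
import Fermat.Agent.Lib.PT.GModDescent

set_option autoImplicit false
set_option maxSynthPendingDepth 3

noncomputable section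

namespace Fermat.Agent.Lib.S56

open NumberField Fermat.Agent.Lib.PT IsDedekindDomain

variable (K : Type) [Field K] [NumberField K]

/-- a unit of `𝓞 K` as a principal idele which is a unit everywhere. -/
def s56d_unitsToET : (𝓞 K)ˣ →* ↥(cfh_ET K ∅) where
  toFun u := ⟨ptj_diag K (Units.map (algebraMap (𝓞 K) K : 𝓞 K →* K) u), ⟨⟨_, rfl⟩,
    (cfh_diag_mem_JT_iff ∅ _).mpr (cfh_unitsToSUnit K (cfh_primesOver K ∅) u).2⟩⟩
  map_one' := by
    apply Subtype.ext
    simp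
  map_mul' a b := by
    apply Subtype.ext
    simp

theorem s56d_unitsToET_coe (u : (𝓞 K)ˣ) :
    ((s56d_unitsToET K u : ↥(cfh_ET K ∅)) : ptj_J K)
      = ptj_diag K (Units.map (algebraMap (𝓞 K) K : 𝓞 K →* K) u) := rfl

theorem s56d_unitsToET_injective : Function.Injective (s56d_unitsToET K) := by
  intro a b h
  have h1 := congrArg (fun x : ↥(cfh_ET K ∅) => (x : ptj_J K)) h
  simp only [s56d_unitsToET_coe] at h1
  exact Units.map_injective (f := (algebraMap (𝓞 K) K : 𝓞 K →* K))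
    (FaithfulSMul.algebraMap_injective (𝓞 K) K) (ptj_diag_injective h1)

theorem s56d_unitsToET_surjective : Function.Surjective (s56d_unitsToET K) := by
  rintro ⟨x, ⟨⟨y, rfl⟩, hy⟩⟩
  have hy' : y ∈ cfh_SUnit K (cfh_primesOver K ∅) := (cfh_diag_mem_JT_iff ∅ y).mp hy
  obtain ⟨u, hu⟩ := cfh_exists_unit_of_ord_eq_zero K (cfh_primesOver K ∅) ⟨y, hy'⟩ (by
    funext v
    have hv := v.2
    rw [cfh_mem_primesOver] at hv
    obtain ⟨q, hq, -⟩ := hv
    exact absurd hq (Finset.notMem_empty q))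
  refine ⟨u, Subtype.ext ?_⟩
  rw [s56d_unitsToET_coe]
  congr 1
  exact congrArg Subtype.val hu

/-- the equivalence. -/
def s56d_unitsEquivET : (𝓞 K)ˣ ≃* ↥(cfh_ET K ∅) :=
  MulEquiv.ofBijective (s56d_unitsToET K) ⟨s56d_unitsToET_injective K, s56d_unitsToET_surjective K⟩

/-- equivariance (the action on `cfh_ET K ∅ ≤ ptj_J K` is the restriction of that on the ideles). -/
theorem s56d_unitsEquivET_smul (σ : K ≃ₐ[ℚ] K) (u : (𝓞 K)ˣ) :
    ((s56d_unitsEquivET K (σ • u) : ↥(cfh_ET K ∅)) : ptj_J K)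
      = σ • ((s56d_unitsEquivET K u : ↥(cfh_ET K ∅)) : ptj_J K) := by
  change ptj_diag K (Units.map (algebraMap (𝓞 K) K : 𝓞 K →* K) (σ • u))
    = σ • ptj_diag K (Units.map (algebraMap (𝓞 K) K : 𝓞 K →* K) u)
  rw [← ptj_diag_smul]
  congr 1

end Fermat.Agent.Lib.S56
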