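/-
PROGRAMME W (S56, Taylor–Wiles primes), wall [W4] (helper1, prefix `s56d_`):
**Tate's global Euler–Poincaré characteristic formula over `ℚ`** for finite `𝔽_p[G_{ℚ,S}]`-modules
(`p` odd, `p ∈ S`), in the Prelude's `S`-continuous low-degree cohomology (`continuousH1S`, `continuousH2S`):

  `h⁰(G_ℚ, M) − h¹_S(M) + h²_S(M) = dim M^{c} − dim M`   (`c` = complex conjugation).

STATEMENT-ONLY interface (no proofs here): the final contract `s56d_GlobalEulerChar`, and the three bricks
of the planned proof (Tate / Milne ADT I.5.1):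
* `s56d_ChiAdditive`  (E1, consumer of W2/W3: finiteness + right exactness of `H²_S`): `χ_S` is additive;
* `s56d_ModularArtin` (E3, pure algebra): an additive invariant of `𝔽_p[G]`-modules which vanishes on modules
  induced from cyclic subgroups of order prime to `p` vanishes identically (Brauer characters + Brauer–Nesbitt +
  Artin's identity `|G|·1 = Σ_C Ind θ_C` on `p`-regular classes);
* `s56d_CyclicCase`   (E4, arithmetic): the formula for `Ind_D^G N`, `D ≤ Gal(L/ℚ)` cyclic of order prime to `p`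
  (Kummer theory for `H¹(G_S(L), μ_p)`, `H²(G_S(L), μ_p)` from Poitou–Tate, equivariant `S`-unit theorem).
-/
import Mathlib
import Fermat.Prelude.Def_GroupCohomology_ContinuousUnramified

set_option autoImplicit false

noncomputable section

namespace Fermat.Agent.Lib.S56

open CategoryTheory Module groupCohomology ExtCitation

local notation "GQ" => (AlgebraicClosure ℚ ≃ₐ[ℚ] AlgebraicClosure ℚ)

/-- the hypotheses of S55 on a coefficient module: smooth and unramified outside `S`. -/
def s56d_IsSModule {p : ℕ} [Fact p.Prime] (S : Finset Nat.Primes) (M : Rep.{0, 0, 0} (ZMod p) GQ) : Prop :=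
  (∀ m : M, ∃ F : IntermediateField ℚ (AlgebraicClosure ℚ), FiniteDimensional ℚ F ∧
      ∀ s ∈ F.fixingSubgroup, M.ρ s m = m) ∧
  (∀ q : Nat.Primes, q ∉ S → ∀ A : ValuationSubring (AlgebraicClosure ℚ),
      A.LiesOverPrime (q : ℕ) → ∀ g ∈ A.inertiaSubgroupIn ℚ, M.ρ g = 1)

/-- the (partial) Euler characteristic `h⁰ − h¹_S + h²_S` (an integer; junk if not finite). -/
def s56d_chi {p : ℕ} [Fact p.Prime] (S : Finset Nat.Primes) (M : Rep.{0, 0, 0} (ZMod p) GQ) : ℤ :=
  (finrank (ZMod p) M.ρ.invariants : ℤ) - finrank (ZMod p) (continuousH1S S M)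
    + finrank (ZMod p) (continuousH2S S M)

/-- the invariants of complex conjugation. -/
def s56d_realInvariants {p : ℕ} [Fact p.Prime] (M : Rep.{0, 0, 0} (ZMod p) GQ) : Submodule (ZMod p) M :=
  LinearMap.ker (M.ρ complexConjugation - 1)

/-- **[W4] Tate's global Euler characteristic formula over `ℚ`.** -/
def s56d_GlobalEulerChar : Prop :=
  ∀ (p : ℕ) [Fact p.Prime], p ≠ 2 → ∀ (S : Finset Nat.Primes), pPrime p ∈ S →
    ∀ (M : Rep.{0, 0, 0} (ZMod p) GQ) [FiniteDimensional (ZMod p) M], s56d_IsSModule S M →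
      Module.Finite (ZMod p) (continuousH1S S M) ∧ Module.Finite (ZMod p) (continuousH2S S M) ∧
      s56d_chi S M = (finrank (ZMod p) (s56d_realInvariants M) : ℤ) - finrank (ZMod p) M

/-- (E1) additivity of `χ_S` on short exact sequences of `S`-modules (needs finiteness of `H^i_S`, the long
exact sequence and the right exactness of `H²_S`, i.e. `cd_p(G_S) ≤ 2`: inputs from W2/W3). -/
def s56d_ChiAdditive : Prop :=
  ∀ (p : ℕ) [Fact p.Prime], p ≠ 2 → ∀ (S : Finset Nat.Primes), pPrime p ∈ S →
    ∀ (X : ShortComplex (Rep.{0, 0, 0} (ZMod p) GQ)), X.ShortExact →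
      FiniteDimensional (ZMod p) X.X₂ → s56d_IsSModule S X.X₂ →
      s56d_chi S X.X₂ = s56d_chi S X.X₁ + s56d_chi S X.X₃

/-- (E3) the modular Artin induction principle: an isomorphism-invariant additive integer invariant of
finite-dimensional `𝔽_p[G]`-modules (`G` finite) which vanishes on every module induced from a cyclic subgroup
of order prime to `p` is identically zero. -/
def s56d_ModularArtin : Prop :=
  ∀ (p : ℕ) [Fact p.Prime] (G : Type) [Group G] [Finite G]
    (φ : Rep.{0, 0, 0} (ZMod p) G → ℤ),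
    (∀ M N : Rep.{0, 0, 0} (ZMod p) G, Nonempty (M ≅ N) → φ M = φ N) →
    (∀ X : ShortComplex (Rep.{0, 0, 0} (ZMod p) G), X.ShortExact → FiniteDimensional (ZMod p) X.X₂ →
      φ X.X₂ = φ X.X₁ + φ X.X₃) →
    (∀ (C : Subgroup G), IsCyclic C → (Nat.card C).Coprime p →
      ∀ N : Rep.{0, 0, 0} (ZMod p) C, FiniteDimensional (ZMod p) N → φ (Rep.ind C.subtype N) = 0) →
    ∀ M : Rep.{0, 0, 0} (ZMod p) G, FiniteDimensional (ZMod p) M → φ M = 0

/-- the defect of Tate's formula. -/
def s56d_defect {p : ℕ} [Fact p.Prime] (S : Finset Nat.Primes) (M : Rep.{0, 0, 0} (ZMod p) GQ) : ℤ :=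
  s56d_chi S M - ((finrank (ZMod p) (s56d_realInvariants M) : ℤ) - finrank (ZMod p) M)

/-- (E4) the arithmetic core: Tate's formula for the inflation to `G_ℚ` of a module induced from a cyclic
subgroup of order prime to `p` of a finite Galois group `Gal(L/ℚ)`, `L ∋ ζ_p` unramified outside `S`
(`π : G_ℚ → G` the restriction map, surjective, with kernel containing the fixing subgroup of an `S`-level). -/
def s56d_CyclicCase : Prop :=
  ∀ (p : ℕ) [Fact p.Prime], p ≠ 2 → ∀ (S : Finset Nat.Primes), pPrime p ∈ S →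
    ∀ (G : Type) [Group G] [Finite G] (π : GQ →* G), Function.Surjective π →
      (∃ F : IntermediateField ℚ (AlgebraicClosure ℚ), F.IsUnramifiedOutside S ∧
        F.fixingSubgroup ≤ π.ker) →
      ∀ (C : Subgroup G), IsCyclic C → (Nat.card C).Coprime p →
        ∀ N : Rep.{0, 0, 0} (ZMod p) C, FiniteDimensional (ZMod p) N →
          s56d_defect S (Rep.res π (Rep.ind C.subtype N)) = 0

end Fermat.Agent.Lib.S56
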