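/-
PROGRAMME W (S56), wall [W4], brick (E4) "cyclic case": STATEMENT-ONLY interface between the three halves
(helper9: cohomology, helper4: ideles, helper1: units/integers/assembly).

Setting: `p` odd, `p ∈ S`; `F ⊆ ℚ̄` finite Galois over `ℚ`, unramified outside `S`, `ζ_p ∈ F`
(`F.fixingSubgroup ≤ ker χ_cyc`); `Γ = Gal(F/ℚ)`; `A_F = C_S(F) = ptj_CT ↥F S` with its `Γ`-action.

* `s56d_IfaceCohom` (helper9, B1–B5): for `V = G_F ≤ U ≤ G_ℚ`, `p ∤ [U:V]`, `N` a finite `𝔽_p[U]`-module trivial on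
  `V`, `M = Coind_U^{G_ℚ} N`:  `#H¹_S(M) = #Hom_U(A_F, N)`, `#H²_S(M) = #Hom_U(N, A_F)`, `#M^{G_ℚ} = #N^U`.
* `s56d_IfaceIdele` (helper4, (S1)–(S4)): for `C ≤ Γ` of order prime to `p`:
  `A_F[p]`, `A_F/p` finite and `h_N(A_F) = h_N(𝓞 F) − h_N((𝓞 F)ˣ)`.
-/
import Fermat.Agent.Lib.S56.IfaceW4
import Fermat.Agent.Lib.S56.DUnits
import Fermat.Agent.Lib.PT.GModAction
import Fermat.Prelude.Def_ExtCitation_KummerBridge

set_option autoImplicit false
set_option maxSynthPendingDepth 3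

noncomputable section

namespace Fermat.Agent.Lib.S56

open CategoryTheory Module groupCohomology ExtCitation NumberField Fermat.Agent.Lib.PT

local notation "GQ" => (AlgebraicClosure ℚ ≃ₐ[ℚ] AlgebraicClosure ℚ)

/-- (helper9) the cohomological half of the cyclic case. -/
def s56d_IfaceCohom : Prop :=
  ∀ (p : ℕ) [Fact p.Prime], p ≠ 2 → ∀ (S : Finset Nat.Primes), pPrime p ∈ S →
  ∀ (F : IntermediateField ℚ (AlgebraicClosure ℚ)) [NumberField ↥F] [IsGalois ℚ ↥F],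
    F.IsUnramifiedOutside S → F.fixingSubgroup ≤ (cycloChar p).ker →
  ∀ (U : Subgroup GQ), F.fixingSubgroup ≤ U → ¬ p ∣ F.fixingSubgroup.relIndex U →
  ∀ (N : Rep.{0, 0, 0} (ZMod p) ↥U) [Finite N.V],
    (∀ u : ↥U, (u : GQ) ∈ F.fixingSubgroup → N.ρ u = 1) →
    Nat.card ↥(continuousH1S S (Rep.coind U.subtype N))
      = Nat.card {f : Additive (ptj_CT ↥F S) →+ N.V // ∀ (u : ↥U) (a : ptj_CT ↥F S),
          f (Additive.ofMul (AlgEquiv.restrictNormalHom ↥F (u : GQ) • a))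
            = N.ρ u (f (Additive.ofMul a))} ∧
    Nat.card (continuousH2S S (Rep.coind U.subtype N))
      = Nat.card {f : N.V →+ Additive (ptj_CT ↥F S) // ∀ (u : ↥U) (n : N.V),
          f (N.ρ u n) = Additive.ofMul
            (AlgEquiv.restrictNormalHom ↥F (u : GQ) • Additive.toMul (f n))} ∧
    Nat.card ↥(Rep.coind U.subtype N).ρ.invariants = Nat.card ↥N.ρ.invariants

/-- (helper4) the idele half of the cyclic case. -/
def s56d_IfaceIdele : Prop :=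
  ∀ (p : ℕ) [Fact p.Prime], p ≠ 2 → ∀ (S : Finset Nat.Primes), pPrime p ∈ S →
  ∀ (F : IntermediateField ℚ (AlgebraicClosure ℚ)) [NumberField ↥F] [IsGalois ℚ ↥F],
    F.IsUnramifiedOutside S →
  ∀ (C : Subgroup (↥F ≃ₐ[ℚ] ↥F)), (Nat.card C).Coprime p →
  ∀ (N : Rep.{0, 0, 0} (ZMod p) ↥C) [Finite N.V],
    s56d_PFinM p (ptj_CT ↥F S) ∧
    s56d_hNm p (ptj_CT ↥F S) N
      = s56d_hN p N (Representation.ofDistribMulAction ℤ ↥C (𝓞 ↥F)) - s56d_hNm p (𝓞 ↥F)ˣ N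

end Fermat.Agent.Lib.S56
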