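/-
Programme W (S56), wall [W4], brick (E4), idele half (helper4): **`h_N` of the `S`-idele class group**
`C_S(K) = ptj_CT K S` of a number field `K`, for a subgroup `C ≤ Gal(K/ℚ)` of order prime to `p`,
`p` odd, `p ∈ S`:

  `h_N(C_S(K)) = h_N(𝒪_K) − h_N(𝒪_K^×)`,   `C_S(K)[p]`, `C_S(K)/p` finite

(`s56b_hNm_CT`), and the interface contract of helper1's `IfaceE4.lean`:
`s56b_ifaceIdele : s56d_IfaceIdele`.

Proof: the unit-idele presentation `1 → 𝒪_K^× → ∏_{q ∈ S} U_q → C_S(K) → Cl(K) → 1`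
(`BIdeleSeq`, `BIdeleCl`), `h_N(∏ U_q) = h_N(𝒪_K)` (`BIdeleHNLoc`), additivity of `h_N`.
-/
import Fermat.Agent.Lib.S56.IfaceE4
import Fermat.Agent.Lib.S56.DBridgeET
import Fermat.Agent.Lib.S56.BIdeleHNLoc
import Fermat.Agent.Lib.S56.BIdeleCl

set_option autoImplicit false
set_option linter.unusedSectionVars false
set_option maxSynthPendingDepth 3

noncomputable section

namespace Fermat.Agent.Lib.S56

open Fermat.Agent.Lib.PT NumberField Module Function ExtCitation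

variable {K : Type} [Field K] [NumberField K] {S : Finset Nat.Primes}
variable {p : ℕ} [Fact p.Prime] (C : Subgroup (K ≃ₐ[ℚ] K))

/-- **`h_N(C_S(K)) = h_N(𝒪_K) − h_N(𝒪_K^×)`**. -/
theorem s56b_hNm_CT (hp2 : p ≠ 2) (hpS : pPrime p ∈ S) (hC : (Nat.card C).Coprime p)
    (N : Rep.{0, 0, 0} (ZMod p) ↥C) [Finite N.V] :
    s56d_PFinM p (ptj_CT K S) ∧
      s56d_hNm p (ptj_CT K S) N =
        s56d_hN p N (Representation.ofDistribMulAction ℤ ↥C (𝓞 K)) - s56d_hNm p (𝓞 K)ˣ N := by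
  -- the local units
  obtain ⟨hPP, hP⟩ := s56b_hNm_prodUnits (K := K) (S := S) C hp2 hpS hC N
  -- the global units
  have hPU : s56d_PFinM p (𝓞 K)ˣ := s56b_pFin_of_fg p (Additive (𝓞 K)ˣ)
  have he : ∀ (c : ↥C) (x : (𝓞 K)ˣ),
      s56d_unitsEquivET K (c • x) = c • s56d_unitsEquivET K x := fun c x =>
    Subtype.ext (s56d_unitsEquivET_smul K (c : K ≃ₐ[ℚ] K) x)
  have hPE : s56d_PFinM p ↥(cfh_ET K ∅) := hPU.congr (s56d_unitsEquivET K)
  have hE : s56d_hNm p ↥(cfh_ET K ∅) N = s56d_hNm p (𝓞 K)ˣ N :=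
    (s56d_hNm_congr N (s56d_unitsEquivET K) he).symm
  -- the image of the local units in `C_S(K)`
  have hI : ∀ (c : ↥C) (x : ptj_CT K S), x ∈ (s56b_toCS K S).range →
      c • x ∈ (s56b_toCS K S).range := by
    rintro c _ ⟨u, rfl⟩
    exact ⟨(c : K ≃ₐ[ℚ] K) • u, s56b_toCS_smul (c : K ≃ₐ[ℚ] K) u⟩
  let _ : MulDistribMulAction ↥C ↥(s56b_toCS K S).range := s56b_subAction _ hI
  -- first sequence: `1 → E → P → I → 1`
  have hinj₁ := s56b_iotaS_injective (K := K) (S := S) ⟨_, hpS⟩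
  have hsurj₁ := (s56b_toCS K S).rangeRestrict_surjective
  have hex₁ : ∀ u : ∀ q : ↥S, ↥(s56b_Uq K q.1),
      (s56b_toCS K S).rangeRestrict u = 1 ↔ ∃ y, s56b_iotaS K S y = u := by
    intro u
    have h1 : (s56b_toCS K S).rangeRestrict u = 1 ↔ u ∈ (s56b_toCS K S).ker := by
      rw [MonoidHom.mem_ker, ← Subtype.coe_inj]
      rfl
    rw [h1, ← s56b_range_iotaS]
    rfl
  have hPI : s56d_PFinM p ↥(s56b_toCS K S).range :=
    s56d_PFinM.of_left_mid (s56b_iotaS K S) (s56b_toCS K S).rangeRestrict hinj₁ hsurj₁ hex₁ hPE hPP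
  have h1 := s56d_hNm_add hC N (s56b_iotaS K S) (s56b_toCS K S).rangeRestrict
    (fun _ _ => rfl) (fun c u => Subtype.ext (s56b_toCS_smul (c : K ≃ₐ[ℚ] K) u))
    hinj₁ hsurj₁ hex₁ hPE hPI
  -- second sequence: `1 → I → C_S → Cl → 1`
  have hfin : Finite (s56b_Cl K) := s56b_finite_Cl K
  have hPCl := s56d_pFinM_of_finite p (s56b_Cl K)
  have hex₂ : ∀ x : ptj_CT K S,
      s56b_toCl K S x = 1 ↔ ∃ y : ↥(s56b_toCS K S).range, (s56b_toCS K S).range.subtype y = x := by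
    intro x
    rw [← MonoidHom.mem_ker, ← s56b_range_toCS]
    exact ⟨fun h => ⟨⟨x, h⟩, rfl⟩, fun ⟨y, hy⟩ => hy ▸ y.2⟩
  have hPA : s56d_PFinM p (ptj_CT K S) :=
    s56d_PFinM.of_left_right (s56b_toCS K S).range.subtype (s56b_toCl K S)
      (Subgroup.subtype_injective _) s56b_toCl_surjective hex₂ hPI hPCl
  have h2 := s56d_hNm_add hC N (s56b_toCS K S).range.subtype (s56b_toCl K S)
    (fun _ _ => rfl) (fun c x => s56b_toCl_smul (c : K ≃ₐ[ℚ] K) x)
    (Subgroup.subtype_injective _) s56b_toCl_surjective hex₂ hPI hPCl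
  rw [s56d_hNm_finite (X := s56b_Cl K) hC N, add_zero] at h2
  refine ⟨hPA, ?_⟩
  rw [h2, ← hE, ← hP, h1]
  ring

/-- **the idele half of the cyclic case (E4)**: helper1's contract `s56d_IfaceIdele`. -/
theorem s56b_ifaceIdele : s56d_IfaceIdele := by
  intro p _ hp2 S hpS F _ _ _ C hC N _
  exact s56b_hNm_CT C hp2 hpS hC N

end Fermat.Agent.Lib.S56
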