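/-
Programme W (S56), wall [W4], brick B8 (helper4): **`p`-th roots near `1` in `Ω_q`**
(norm form, no completeness: `Ω_q` is algebraically closed).

With `c = ‖p‖` (`= 1` for `q ≠ p`, `= 1/p` for `q = p`):
* `s56b_eq_one_of_pow_eq_one`: `z ^ p = 1`, `‖z - 1‖ ^ (p - 1) < c` ⟹ `z = 1`;
* `s56b_norm_pow_sub_one`: `‖y - 1‖ ^ (p - 1) < c` ⟹ `‖y ^ p - 1‖ = c * ‖y - 1‖`;
* `s56b_exists_root`: `‖a - 1‖ ^ (p - 1) < c ^ p` ⟹ `∃ y, y ^ p = a ∧ ‖y - 1‖ ^ (p - 1) < c`.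
-/
import Fermat.Agent.Lib.PT.GPlaceLocD

set_option autoImplicit false
set_option linter.unusedSectionVars false

noncomputable section

namespace Fermat.Agent.Lib.S56

open Fermat.Agent.Lib.PT

variable {q : Nat.Primes} {p : ℕ}

/-- the ultrametric inequality in `Ω_q`. -/
lemma s56b_norm_sub_le_max (x y : ptj_Om q) : ‖x - y‖ ≤ max ‖x‖ ‖y‖ := by
  have := cfh_norm_add_le_max x (-y)
  rwa [norm_neg, ← sub_eq_add_neg] at this

lemma s56b_norm_add_eq_of_lt {x y : ptj_Om q} (h : ‖y‖ < ‖x‖) : ‖x + y‖ = ‖x‖ := by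
  have h1 : ‖x - (x + y)‖ < ‖x‖ := by
    rw [sub_add_cancel_left, norm_neg]
    exact h
  exact ptk_norm_eq_of_sub_lt h1

lemma s56b_norm_natCast_le_one (n : ℕ) : ‖(n : ptj_Om q)‖ ≤ 1 := by
  have := ptj_norm_intCast_le_one q (n : ℤ)
  simpa using this

lemma s56b_lt_one_of_pow_lt {x c : ℝ} {n : ℕ} (hc : c ≤ 1)
    (h : x ^ n < c) : x < 1 := by
  by_contra hcon
  rw [not_lt] at hcon
  exact absurd (lt_of_le_of_lt (one_le_pow₀ hcon) h) (not_lt.2 hc)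

/-- the binomial identity `(1 + t)^p = 1 + t^p + p t (1 + t s)` with `‖s‖ ≤ 1`. -/
lemma s56b_one_add_pow (hp : p.Prime) {t : ptj_Om q} (ht : ‖t‖ ≤ 1) :
    ∃ s : ptj_Om q, ‖s‖ ≤ 1 ∧
      (1 + t) ^ p = 1 + t ^ p + (p : ptj_Om q) * t * (1 + t * s) := by
  have htO : t ∈ ptl_O (q : ℕ) (ptj_Om q) := ht
  obtain ⟨s, hs⟩ := cfh_one_add_pow_prime (R := ptl_O (q : ℕ) (ptj_Om q)) hp ⟨t, htO⟩
  refine ⟨(s : ptj_Om q), s.2, ?_⟩
  have := congrArg (fun z : ptl_O (q : ℕ) (ptj_Om q) => (z : ptj_Om q)) hs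
  simpa using this

/-- a `p`-th root of unity close to `1` is `1`. -/
theorem s56b_eq_one_of_pow_eq_one (hp : p.Prime) {z : ptj_Om q} (hz : z ^ p = 1)
    (h : ‖z - 1‖ ^ (p - 1) < ‖(p : ptj_Om q)‖) : z = 1 := by
  have hp1 : p - 1 ≠ 0 := by have := hp.two_le; omega
  set t := z - 1 with ht
  have ht1 : ‖t‖ < 1 :=
    s56b_lt_one_of_pow_lt (s56b_norm_natCast_le_one p) h
  obtain ⟨s, hs1, hs⟩ := s56b_one_add_pow (q := q) hp ht1.le
  have hz' : z = 1 + t := by rw [ht]; ring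
  rw [← hz', hz] at hs
  by_contra hne
  have ht0 : t ≠ 0 := fun h0 => hne (by rw [hz', h0, add_zero])
  have h1 : t * (t ^ (p - 1) + (p : ptj_Om q) * (1 + t * s)) = 0 := by
    have h2 : t ^ p = t * t ^ (p - 1) := by
      rw [← pow_succ', Nat.sub_add_cancel hp.one_le]
    have h3 : t ^ p + (p : ptj_Om q) * t * (1 + t * s) = 0 := by linear_combination -hs
    rw [← h3, h2]; ring
  have h4 : t ^ (p - 1) = -((p : ptj_Om q) * (1 + t * s)) :=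
    eq_neg_of_add_eq_zero_left ((mul_eq_zero.1 h1).resolve_left ht0)
  have h5 : ‖1 + t * s‖ = 1 := by
    have : ‖t * s‖ < ‖(1 : ptj_Om q)‖ := by
      rw [norm_one, norm_mul]
      calc ‖t‖ * ‖s‖ ≤ ‖t‖ * 1 := mul_le_mul_of_nonneg_left hs1 (norm_nonneg _)
        _ < 1 := by rw [mul_one]; exact ht1
    rw [s56b_norm_add_eq_of_lt this, norm_one]
  have h6 := congrArg norm h4
  rw [norm_pow, norm_neg, norm_mul, h5, mul_one] at h6
  exact absurd h6 h.ne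

/-- the norm of `y ^ p - 1` for `y` close to `1`. -/
theorem s56b_norm_pow_sub_one (hp : p.Prime) {y : ptj_Om q}
    (h : ‖y - 1‖ ^ (p - 1) < ‖(p : ptj_Om q)‖) :
    ‖y ^ p - 1‖ = ‖(p : ptj_Om q)‖ * ‖y - 1‖ := by
  have hp1 : p - 1 ≠ 0 := by have := hp.two_le; omega
  set t := y - 1 with ht
  have ht1 : ‖t‖ < 1 :=
    s56b_lt_one_of_pow_lt (s56b_norm_natCast_le_one p) h
  obtain ⟨s, hs1, hs⟩ := s56b_one_add_pow (q := q) hp ht1.le
  have hy' : y = 1 + t := by rw [ht]; ring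
  rw [← hy'] at hs
  by_cases ht0 : t = 0
  · rw [ht0, norm_zero, mul_zero, hy', ht0, add_zero, one_pow, sub_self, norm_zero]
  have h5 : ‖1 + t * s‖ = 1 := by
    have : ‖t * s‖ < ‖(1 : ptj_Om q)‖ := by
      rw [norm_one, norm_mul]
      calc ‖t‖ * ‖s‖ ≤ ‖t‖ * 1 := mul_le_mul_of_nonneg_left hs1 (norm_nonneg _)
        _ < 1 := by rw [mul_one]; exact ht1
    rw [s56b_norm_add_eq_of_lt this, norm_one]
  have h1 : y ^ p - 1 = (p : ptj_Om q) * t * (1 + t * s) + t ^ p := by rw [hs]; ring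
  have h2 : ‖(p : ptj_Om q) * t * (1 + t * s)‖ = ‖(p : ptj_Om q)‖ * ‖t‖ := by
    rw [norm_mul, norm_mul, h5, mul_one]
  have h3 : ‖t ^ p‖ < ‖(p : ptj_Om q) * t * (1 + t * s)‖ := by
    rw [h2, norm_pow]
    have h2' : ‖t‖ ^ p = ‖t‖ ^ (p - 1) * ‖t‖ := by
      rw [← pow_succ, Nat.sub_add_cancel hp.one_le]
    rw [h2']
    exact mul_lt_mul_of_pos_right h (norm_pos_iff.2 ht0)
  rw [h1, s56b_norm_add_eq_of_lt h3, h2]

/-- existence of a `p`-th root close to `1`. -/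
theorem s56b_exists_root (hp : p.Prime) {a : ptj_Om q}
    (h : ‖a - 1‖ ^ (p - 1) < ‖(p : ptj_Om q)‖ ^ p) :
    ∃ y : ptj_Om q, y ^ p = a ∧ ‖y - 1‖ ^ (p - 1) < ‖(p : ptj_Om q)‖ := by
  have hp1 : p - 1 ≠ 0 := by have := hp.two_le; omega
  have : NeZero p := ⟨hp.ne_zero⟩
  obtain ⟨y₀, hy₀⟩ := IsAlgClosed.exists_pow_nat_eq a hp.pos
  obtain ⟨ζ, hζ⟩ := HasEnoughRootsOfUnity.exists_primitiveRoot (ptj_Om q) p
  have hprod := congrArg (Polynomial.eval 1) (X_pow_sub_C_eq_prod hζ hp.pos hy₀)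
  simp only [Polynomial.eval_sub, Polynomial.eval_pow, Polynomial.eval_X, one_pow,
    Polynomial.eval_C, Polynomial.eval_prod] at hprod
  by_contra hcon
  have hcon : ∀ y : ptj_Om q, y ^ p = a → ‖(p : ptj_Om q)‖ ≤ ‖y - 1‖ ^ (p - 1) := by
    intro y hy
    by_contra hlt
    exact hcon ⟨y, hy, not_le.1 hlt⟩
  have hall : ∀ i ∈ Finset.range p, ‖(p : ptj_Om q)‖ ≤ ‖1 - ζ ^ i * y₀‖ ^ (p - 1) := by
    intro i _
    have := hcon (ζ ^ i * y₀) (by rw [mul_pow, ← pow_mul, mul_comm i p, pow_mul, hζ.pow_eq_one,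
      one_pow, one_mul, hy₀])
    rwa [← norm_neg (ζ ^ i * y₀ - 1), neg_sub] at this
  have h1 : ‖(p : ptj_Om q)‖ ^ p ≤ ‖a - 1‖ ^ (p - 1) := by
    rw [← norm_neg (a - 1), neg_sub, hprod, norm_prod, ← Finset.prod_pow]
    calc ‖(p : ptj_Om q)‖ ^ p = ∏ _i ∈ Finset.range p, ‖(p : ptj_Om q)‖ := by
          rw [Finset.prod_const, Finset.card_range]
      _ ≤ ∏ i ∈ Finset.range p, ‖1 - ζ ^ i * y₀‖ ^ (p - 1) :=
          Finset.prod_le_prod (fun _ _ => norm_nonneg _) hall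
  exact absurd h (not_lt.2 h1)

lemma s56b_norm_eq_one_of_sub_lt {y : ptj_Om q} (h : ‖y - 1‖ < 1) : ‖y‖ = 1 := by
  have h1 : ‖(1 : ptj_Om q) - y‖ < ‖(1 : ptj_Om q)‖ := by
    rw [norm_one, ← norm_neg, neg_sub]
    exact h
  rw [ptk_norm_eq_of_sub_lt h1, norm_one]

lemma s56b_norm_tau (τ : ptj_Gq q) (x : ptj_Om q) : ‖τ x‖ = ‖x‖ :=
  congrArg NNReal.toReal (nnnorm_padicAlgCl_algEquiv (q : ℕ) τ x)

/-- uniqueness of the `p`-th root close to `1`. -/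
theorem s56b_root_unique (hp : p.Prime) {u w : ptj_Om q} (huw : u ^ p = w ^ p)
    (hu : ‖u - 1‖ ^ (p - 1) < ‖(p : ptj_Om q)‖) (hw : ‖w - 1‖ ^ (p - 1) < ‖(p : ptj_Om q)‖) :
    u = w := by
  have hw1 : ‖w‖ = 1 := s56b_norm_eq_one_of_sub_lt
    (s56b_lt_one_of_pow_lt (s56b_norm_natCast_le_one p) hw)
  have hw0 : w ≠ 0 := by
    intro h
    rw [h, norm_zero] at hw1
    exact zero_ne_one hw1
  have hz : (u * w⁻¹) ^ p = 1 := by
    rw [mul_pow, huw, inv_pow, mul_inv_cancel₀ (pow_ne_zero _ hw0)]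
  have hnorm : ‖u * w⁻¹ - 1‖ ≤ max ‖u - 1‖ ‖w - 1‖ := by
    have h1 : u * w⁻¹ - 1 = w⁻¹ * ((u - 1) - (w - 1)) := by
      field_simp
      ring
    rw [h1, norm_mul, norm_inv, hw1, inv_one, one_mul]
    exact s56b_norm_sub_le_max _ _
  have h2 : ‖u * w⁻¹ - 1‖ ^ (p - 1) < ‖(p : ptj_Om q)‖ := by
    refine lt_of_le_of_lt (pow_le_pow_left₀ (norm_nonneg _) hnorm _) ?_
    rcases le_total ‖u - 1‖ ‖w - 1‖ with h | h
    · rwa [max_eq_right h]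
    · rwa [max_eq_left h]
  have h3 := s56b_eq_one_of_pow_eq_one hp hz h2
  have h4 : u = (u * w⁻¹) * w := by rw [mul_assoc, inv_mul_cancel₀ hw0, mul_one]
  rw [h4, h3, one_mul]

lemma s56b_norm_mul_sub_one_le {a b : ptj_Om q} {ε : ℝ} (ha1 : ‖a‖ = 1) (ha : ‖a - 1‖ ≤ ε)
    (hb : ‖b - 1‖ ≤ ε) : ‖a * b - 1‖ ≤ ε := by
  have : a * b - 1 = a * (b - 1) + (a - 1) := by ring
  rw [this]
  refine (cfh_norm_add_le_max _ _).trans (max_le ?_ ha)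
  rw [norm_mul, ha1, one_mul]
  exact hb

lemma s56b_norm_inv_sub_one {a : ptj_Om q} (ha1 : ‖a‖ = 1) : ‖a⁻¹ - 1‖ = ‖a - 1‖ := by
  have ha0 : a ≠ 0 := by
    intro h
    rw [h, norm_zero] at ha1
    exact zero_ne_one ha1
  have : a⁻¹ - 1 = -(a⁻¹ * (a - 1)) := by
    field_simp
    ring
  rw [this, norm_neg, norm_mul, norm_inv, ha1, inv_one, one_mul]

end Fermat.Agent.Lib.S56
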