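/-
Programme W (S56), wall [W4], brick B8 (helper4): **the higher unit groups `V_n ⊆ U_q(K)`** of the
embedding model and the `p`-power map on them.

`s56b_Vq K q n = {f ∈ U_q(K) | ∀ σ, ‖f σ - 1‖ ≤ q^{-n}}` (`= ∏_{w ∣ q} (1 + q^n O_w)`), stable under
every group acting on `K`.  If `‖p‖_q = q^{-v}` (`v = 0` for `q ≠ p`, `v = 1` for `q = p`) and
`v < n (p - 1)`, then `f ↦ f ^ p` is a bijection `V_n → V_{n+v}`:
`s56b_pow_mem_Vq`, `s56b_eq_one_of_pow_eq_one_Vq`, `s56b_exists_pow_eq_Vq`.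
-/
import Fermat.Agent.Lib.S56.BIdeleSeq
import Fermat.Agent.Lib.S56.BLocRoot

set_option autoImplicit false
set_option linter.unusedSectionVars false

noncomputable section

namespace Fermat.Agent.Lib.S56

open Fermat.Agent.Lib.PT

variable {K : Type*} [Field K] [NumberField K] {q : Nat.Primes}

/-- `1/q`. -/
def s56b_r (q : Nat.Primes) : ℝ := ((q : ℕ) : ℝ)⁻¹

lemma s56b_r_pos (q : Nat.Primes) : 0 < s56b_r q :=
  inv_pos.2 (Nat.cast_pos.2 q.2.pos)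

lemma s56b_r_lt_one (q : Nat.Primes) : s56b_r q < 1 :=
  inv_lt_one_of_one_lt₀ (by exact_mod_cast q.2.one_lt)

lemma s56b_norm_q (q : Nat.Primes) : ‖((q : ℕ) : ptj_Om q)‖ = s56b_r q := cfh_norm_natCast_q q

variable (K) in
/-- the higher unit groups `V_n = {f ∈ U_q | ∀ σ, ‖f σ - 1‖ ≤ q^{-n}}`. -/
def s56b_Vq (q : Nat.Primes) (n : ℕ) : Subgroup ↥(s56b_Uq K q) where
  carrier := {f | ∀ σ, ‖((f.1 σ : (ptj_Om q)ˣ) : ptj_Om q) - 1‖ ≤ s56b_r q ^ n}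
  one_mem' := fun σ => by
    show ‖(((1 : ptj_Emb K q → (ptj_Om q)ˣ) σ : (ptj_Om q)ˣ) : ptj_Om q) - 1‖ ≤ _
    rw [Pi.one_apply, Units.val_one, sub_self, norm_zero]
    exact pow_nonneg (s56b_r_pos q).le _
  mul_mem' := fun {f g} hf hg σ => by
    show ‖(((f.1 * g.1) σ : (ptj_Om q)ˣ) : ptj_Om q) - 1‖ ≤ _
    rw [Pi.mul_apply, Units.val_mul]
    exact s56b_norm_mul_sub_one_le (f.2.2 σ) (hf σ) (hg σ)
  inv_mem' := fun {f} hf σ => by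
    show ‖(((f.1⁻¹) σ : (ptj_Om q)ˣ) : ptj_Om q) - 1‖ ≤ _
    rw [Pi.inv_apply, Units.val_inv_eq_inv_val, s56b_norm_inv_sub_one (f.2.2 σ)]
    exact hf σ

lemma s56b_mem_Vq {n : ℕ} (f : ↥(s56b_Uq K q)) :
    f ∈ s56b_Vq K q n ↔ ∀ σ, ‖((f.1 σ : (ptj_Om q)ˣ) : ptj_Om q) - 1‖ ≤ s56b_r q ^ n := Iff.rfl

lemma s56b_Vq_anti {n m : ℕ} (h : n ≤ m) : s56b_Vq K q m ≤ s56b_Vq K q n := fun _ hf σ =>
  (hf σ).trans (pow_le_pow_of_le_one (s56b_r_pos q).le (s56b_r_lt_one q).le h)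

variable {Γ : Type*} [Group Γ] [MulSemiringAction Γ K]

/-- `V_n` is stable under `Γ`. -/
lemma s56b_smul_mem_Vq {n : ℕ} (γ : Γ) {f : ↥(s56b_Uq K q)} (hf : f ∈ s56b_Vq K q n) :
    γ • f ∈ s56b_Vq K q n := fun σ => hf (ptj_pre γ σ)

instance s56b_VqAction (n : ℕ) : MulDistribMulAction Γ ↥(s56b_Vq K q n) :=
  s56b_subAction _ fun γ _ hf => s56b_smul_mem_Vq γ hf

/-! ### The `p`-power map -/

section Pow

variable {p v n : ℕ}

lemma s56b_pow_lt_of_le (hn : v < n * (p - 1)) {x : ℝ} (hx0 : 0 ≤ x) (hx : x ≤ s56b_r q ^ n) :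
    x ^ (p - 1) < s56b_r q ^ v :=
  calc x ^ (p - 1) ≤ (s56b_r q ^ n) ^ (p - 1) := pow_le_pow_left₀ hx0 hx _
    _ = s56b_r q ^ (n * (p - 1)) := (pow_mul _ _ _).symm
    _ < s56b_r q ^ v := pow_lt_pow_right_of_lt_one₀ (s56b_r_pos q) (s56b_r_lt_one q) hn

lemma s56b_coe_pow (f : ↥(s56b_Uq K q)) (σ : ptj_Emb K q) :
    ((((f ^ p : ↥(s56b_Uq K q)).1 σ : (ptj_Om q)ˣ)) : ptj_Om q) =
      ((f.1 σ : (ptj_Om q)ˣ) : ptj_Om q) ^ p := by
  rw [Subgroup.coe_pow, Pi.pow_apply, Units.val_pow_eq_pow_val]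

/-- the `p`-power map sends `V_n` into `V_{n+v}`. -/
theorem s56b_pow_mem_Vq (hp : p.Prime) (hv : ‖((p : ℕ) : ptj_Om q)‖ = s56b_r q ^ v)
    (hn : v < n * (p - 1)) {f : ↥(s56b_Uq K q)} (hf : f ∈ s56b_Vq K q n) :
    f ^ p ∈ s56b_Vq K q (n + v) := fun σ => by
  rw [s56b_coe_pow, s56b_norm_pow_sub_one hp
    (by rw [hv]; exact s56b_pow_lt_of_le hn (norm_nonneg _) (hf σ)), hv, pow_add, mul_comm]
  exact mul_le_mul_of_nonneg_right (hf σ) (pow_nonneg (s56b_r_pos q).le _)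

/-- the `p`-power map is injective on `V_n`. -/
theorem s56b_eq_one_of_pow_eq_one_Vq (hp : p.Prime)
    (hv : ‖((p : ℕ) : ptj_Om q)‖ = s56b_r q ^ v) (hn : v < n * (p - 1))
    {f : ↥(s56b_Uq K q)} (hf : f ∈ s56b_Vq K q n) (h : f ^ p = 1) : f = 1 := by
  apply Subtype.ext
  funext σ
  apply Units.ext
  have h1 : ((((f ^ p : ↥(s56b_Uq K q)).1 σ : (ptj_Om q)ˣ)) : ptj_Om q) = 1 := by
    rw [h]; rfl
  rw [s56b_coe_pow] at h1
  exact s56b_eq_one_of_pow_eq_one hp h1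
    (by rw [hv]; exact s56b_pow_lt_of_le hn (norm_nonneg _) (hf σ))

/-- the `p`-power map `V_n → V_{n+v}` is surjective. -/
theorem s56b_exists_pow_eq_Vq (hp : p.Prime) (hv : ‖((p : ℕ) : ptj_Om q)‖ = s56b_r q ^ v)
    (hn : v < n * (p - 1)) {g : ↥(s56b_Uq K q)} (hg : g ∈ s56b_Vq K q (n + v)) :
    ∃ f ∈ s56b_Vq K q n, f ^ p = g := by
  have hp1 : 1 ≤ p := hp.one_le
  have hex : ∀ σ : ptj_Emb K q, ∃ y : ptj_Om q,
      y ^ p = ((g.1 σ : (ptj_Om q)ˣ) : ptj_Om q) ∧ ‖y - 1‖ ^ (p - 1) < ‖((p : ℕ) : ptj_Om q)‖ := by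
    intro σ
    apply s56b_exists_root hp
    rw [hv, ← pow_mul]
    have hn' : v * p < (n + v) * (p - 1) := by
      have h1 : v * p = v + v * (p - 1) := by
        conv_lhs => rw [← Nat.sub_add_cancel hp1]
        ring
      rw [h1, add_mul]
      omega
    exact s56b_pow_lt_of_le hn' (norm_nonneg _) (hg σ)
  choose y hy1 hy2 using hex
  have hy3 : ∀ σ, ‖y σ‖ = 1 := fun σ => s56b_norm_eq_one_of_sub_lt
    (s56b_lt_one_of_pow_lt (s56b_norm_natCast_le_one p) (hy2 σ))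
  have hy0 : ∀ σ, y σ ≠ 0 := fun σ h => by
    have := hy3 σ
    rw [h, norm_zero] at this
    exact zero_ne_one this
  have hJ : (fun σ => Units.mk0 (y σ) (hy0 σ)) ∈ ptj_Jq K q := by
    intro τ σ
    apply Units.ext
    rw [ptj_tauU_coe, Units.val_mk0, Units.val_mk0]
    refine s56b_root_unique hp ?_ (hy2 _) ?_
    · rw [hy1, ← map_pow, hy1, g.2.1 τ σ, ptj_tauU_coe]
    · have : τ (y σ) - 1 = τ (y σ - 1) := by rw [map_sub, map_one]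
      rw [this, s56b_norm_tau]
      exact hy2 σ
  refine ⟨⟨fun σ => Units.mk0 (y σ) (hy0 σ), hJ, fun σ => by rw [Units.val_mk0]; exact hy3 σ⟩,
    fun σ => ?_, ?_⟩
  · show ‖y σ - 1‖ ≤ s56b_r q ^ n
    have h1 := s56b_norm_pow_sub_one hp (hy2 σ)
    rw [hy1, hv] at h1
    have h2 := hg σ
    rw [h1, pow_add, mul_comm] at h2
    exact le_of_mul_le_mul_right h2 (pow_pos (s56b_r_pos q) _)
  · apply Subtype.ext
    funext σ
    apply Units.ext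
    rw [s56b_coe_pow]
    exact hy1 σ

end Pow

end Fermat.Agent.Lib.S56
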