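/-
Programme W (S56), wall [W4], brick B8 (helper4): **`V_1` has finite index in `U_q(K)`**
(`s56b_Vq_one_finiteIndex`), via `U_q / V_1 ↪ ∏_σ O_σ / q O_σ`.
-/
import Fermat.Agent.Lib.S56.BLocUnits

set_option autoImplicit false
set_option linter.unusedSectionVars false

noncomputable section

namespace Fermat.Agent.Lib.S56

open Fermat.Agent.Lib.PT

variable {K : Type*} [Field K] [NumberField K] {q : Nat.Primes}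

/-- counting a quotient through a map separating the cosets. -/
lemma s56b_quot_le {G : Type*} [Group G] (H : Subgroup G) {X : Type*} [Finite X] (Θ : G → X)
    (hΘ : ∀ f g, Θ f = Θ g → f⁻¹ * g ∈ H) :
    Finite (G ⧸ H) ∧ Nat.card (G ⧸ H) ≤ Nat.card X := by
  have hinj : Function.Injective fun c : G ⧸ H => Θ (Quotient.out c) := by
    intro c d h
    have h1 := hΘ _ _ h
    rw [← QuotientGroup.eq, QuotientGroup.out_eq', QuotientGroup.out_eq'] at h1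
    exact h1
  exact ⟨Finite.of_injective _ hinj, Nat.card_le_card_of_injective _ hinj⟩

/-- an element of `K_σ` of norm `≤ 1`, as an element of the ring of integers `O_σ`. -/
def s56b_toR (σ : ptj_Emb K q) (x : ptj_Om q) (hx : x ∈ ptj_Kσ σ) (h1 : ‖x‖ ≤ 1) :
    ↥(ptl_O (q : ℕ) ↥(ptj_Kσ σ)) :=
  ⟨⟨x, hx⟩, by rw [ptl_mem_O, ptk_abs_Kσ]; exact h1⟩

@[simp] lemma s56b_toR_coe (σ : ptj_Emb K q) (x : ptj_Om q) (hx : x ∈ ptj_Kσ σ) (h1 : ‖x‖ ≤ 1) :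
    (((s56b_toR σ x hx h1 : ↥(ptl_O (q : ℕ) ↥(ptj_Kσ σ))) : ↥(ptj_Kσ σ)) : ptj_Om q) = x := rfl

/-- `x ∈ q O_σ ↔ ‖x‖ ≤ 1/q`. -/
lemma s56b_mem_span_q_iff (σ : ptj_Emb K q) (x : ↥(ptl_O (q : ℕ) ↥(ptj_Kσ σ))) :
    x ∈ Ideal.span {(((q : ℕ) : ℕ) : ↥(ptl_O (q : ℕ) ↥(ptj_Kσ σ)))} ↔
      ‖((x : ↥(ptj_Kσ σ)) : ptj_Om q)‖ ≤ s56b_r q := by
  have hq0 : (((q : ℕ) : ℕ) : ↥(ptl_O (q : ℕ) ↥(ptj_Kσ σ))) ≠ 0 := by
    exact_mod_cast q.2.ne_zero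
  rw [Ideal.mem_span_singleton, ptl_dvd_iff (q : ℕ) ↥(ptj_Kσ σ) hq0, ptk_abs_Kσ, ptk_abs_Kσ]
  have : ((((((q : ℕ) : ℕ) : ↥(ptl_O (q : ℕ) ↥(ptj_Kσ σ))) : ↥(ptj_Kσ σ)) : ptj_Om q)) =
      ((q : ℕ) : ptj_Om q) := by simp
  rw [this, s56b_norm_q]

lemma s56b_finite_quot_q (σ : ptj_Emb K q) :
    Finite (↥(ptl_O (q : ℕ) ↥(ptj_Kσ σ)) ⧸
      Ideal.span {(((q : ℕ) : ℕ) : ↥(ptl_O (q : ℕ) ↥(ptj_Kσ σ)))}) := by
  apply Nat.finite_of_card_ne_zero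
  rw [ptk_card_quot_q (q : ℕ) ↥(ptj_Kσ σ)]
  exact pow_ne_zero _ q.2.ne_zero

lemma s56b_norm_inv_mul_sub_one {u w : ptj_Om q} (hu : ‖u‖ = 1) : ‖u⁻¹ * w - 1‖ = ‖w - u‖ := by
  have hu0 : u ≠ 0 := by
    intro h
    rw [h, norm_zero] at hu
    exact zero_ne_one hu
  have : u⁻¹ * w - 1 = u⁻¹ * (w - u) := by
    field_simp
  rw [this, norm_mul, norm_inv, hu, inv_one, one_mul]

/-- **`V_1` has finite index in `U_q`**. -/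
theorem s56b_Vq_one_finiteIndex : (s56b_Vq K q 1).FiniteIndex := by
  have hfin : ∀ σ : ptj_Emb K q, Finite (↥(ptl_O (q : ℕ) ↥(ptj_Kσ σ)) ⧸
      Ideal.span {(((q : ℕ) : ℕ) : ↥(ptl_O (q : ℕ) ↥(ptj_Kσ σ)))}) := s56b_finite_quot_q
  let Θ : ↥(s56b_Uq K q) → ∀ σ : ptj_Emb K q, (↥(ptl_O (q : ℕ) ↥(ptj_Kσ σ)) ⧸
      Ideal.span {(((q : ℕ) : ℕ) : ↥(ptl_O (q : ℕ) ↥(ptj_Kσ σ)))}) := fun f σ =>
    Ideal.Quotient.mk _ (s56b_toR σ ((f.1 σ : (ptj_Om q)ˣ) : ptj_Om q)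
      (ptj_mem_Kσ_of_mem_Jq f.2.1 σ) (f.2.2 σ).le)
  have hΘ : ∀ f g, Θ f = Θ g → f⁻¹ * g ∈ s56b_Vq K q 1 := by
    intro f g h σ
    have h1 := congrFun h σ
    rw [Ideal.Quotient.eq, s56b_mem_span_q_iff] at h1
    rw [pow_one]
    show ‖(((f.1⁻¹ * g.1) σ : (ptj_Om q)ˣ) : ptj_Om q) - 1‖ ≤ _
    rw [Pi.mul_apply, Pi.inv_apply, Units.val_mul, Units.val_inv_eq_inv_val,
      s56b_norm_inv_mul_sub_one (f.2.2 σ), ← norm_neg, neg_sub]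
    exact h1
  have := (s56b_quot_le (s56b_Vq K q 1) Θ hΘ).1
  exact Subgroup.finiteIndex_of_finite_quotient

end Fermat.Agent.Lib.S56
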