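/-
Programme W (S56), wall [W2] (helper4), brick (c): **global reciprocity for `H²(G_S, μ_p)`** in the
abstract big model of S55 (`pts_EMod`, `pts_LocData`, the local–global formula (LG)).

* `s56b_recip_mu` : for a global level 2-cocycle `z` with values in `μ_p = ZMod p(χ_cyc)`:
  `Σ_{q ∈ S} inv_q (ζ_q ∘ z|_{G_q}) = 0`.
-/
import Fermat.Agent.Lib.PT.S55Skeleton

set_option autoImplicit false
set_option linter.unusedSectionVars false

namespace Fermat.Agent.Lib.S56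

open CategoryTheory groupCohomology ExtCitation Module Fermat.Agent.Lib.PT

local notation "GQ" => (AlgebraicClosure ℚ ≃ₐ[ℚ] AlgebraicClosure ℚ)

variable {p : ℕ} [Fact p.Prime] {S : Finset Nat.Primes} (𝒢 : pts_EMod p S)

/-- **reciprocity for `μ_p`-valued global 2-cocycles.** -/
theorem s56b_recip_mu
    (invG : ptd_Inv (pta_levelsS S) 𝒢.ρC (ZMod p) p)
    (L : ∀ q : ↥S, pts_LocData 𝒢 q)
    (hLG : ∀ y : GQ × GQ → 𝒢.J, ptd_IsLZ2 (pta_levelsS S) 𝒢.ρJ y → (∀ x, p • y x = 0) →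
      invG (fun x => 𝒢.π (y x)) = ∑ q : ↥S, (L q).inv (fun x =>
        (L q).evΩ (y (primeLocalToGlobal q.1 x.1, primeLocalToGlobal q.1 x.2))))
    (z : GQ × GQ → ZMod p)
    (hz : ptd_IsLZ2 (pta_levelsS S) 𝒢.ρJ (fun x => 𝒢.ζ (z x))) :
    ∑ q : ↥S, (L q).inv (fun x =>
      (L q).ζloc (z (primeLocalToGlobal q.1 x.1, primeLocalToGlobal q.1 x.2))) = 0 := by
  have h1 := hLG _ hz (fun x => 𝒢.ζ_tors (z x))
  have h2 : (fun x => 𝒢.π (𝒢.ζ (z x))) = fun _ => (0 : 𝒢.C) := funext fun x => 𝒢.π_ζ (z x)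
  have h3 : invG (fun _ : GQ × GQ => (0 : 𝒢.C)) = 0 := by
    apply invG.map_b2'
    obtain ⟨N, hN⟩ := (pta_levelsS S).nonempty
    refine ⟨fun _ => 0, ⟨N, hN, fun _ _ _ => rfl⟩, ?_⟩
    funext x
    obtain ⟨g, h⟩ := x
    rw [ptd_d1_apply]
    simp
  rw [h2, h3] at h1
  rw [h1]
  refine Finset.sum_congr rfl fun q _ => ?_
  congr 1
  funext x
  exact ((L q).evΩ_ζ _).symm

end Fermat.Agent.Lib.S56
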