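/-
S56 programme, wall W2: below every level of the local Galois group `G_q` there is a level `V`
fixing `μ_p` which contains a level `N` with `p ∣ [V : N]` (a layer of the local cyclotomic
`ℤ_p`-tower; `p` odd).  This is the hypothesis `hlev` of the local F4(ii) (`ptl_local_F4ii`).
-/
import Mathlib
import Fermat.Agent.Lib.PT.GModCycD
import Fermat.Agent.Lib.PT.BridgeN

set_option autoImplicit false
set_option linter.unusedVariables false
set_option linter.unusedSectionVars false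
set_option linter.style.haveILetI false

noncomputable section

namespace Fermat.Agent.Lib.S56

open IntermediateField ExtCitation Fermat.Agent.Lib.PT

local notation "Qbar" => AlgebraicClosure ℚ
local notation "GQ" => (AlgebraicClosure ℚ ≃ₐ[ℚ] AlgebraicClosure ℚ)

variable {p : ℕ} [Fact p.Prime]

/-- a character `V → ZMod p` vanishing on `N` and not identically zero forces `p ∣ [V : N]` -/
lemma s56t_dvd_relIndex_of_char {G : Type*} [Group G] {V N : Subgroup G}
    (ψ : V → ZMod p) (hψ : ∀ a b : V, ψ (a * b) = ψ a + ψ b)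
    (hN : ∀ v : V, (v : G) ∈ N → ψ v = 0) (τ : V) (hτ : ψ τ ≠ 0) : p ∣ N.relIndex V := by
  have hp : p.Prime := Fact.out
  let f : V →* Multiplicative (ZMod p) :=
    { toFun := fun v => Multiplicative.ofAdd (ψ v)
      map_one' := by
        have h := hψ 1 1
        rw [mul_one] at h
        have h0 : ψ 1 = 0 := by
          have := congrArg (fun x => x - ψ 1) h
          simpa using this.symm
        rw [h0]; rfl
      map_mul' := fun a b => by rw [hψ a b]; rfl }
  have hker : N.subgroupOf V ≤ f.ker := by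
    intro v hv
    rw [MonoidHom.mem_ker]
    show Multiplicative.ofAdd (ψ v) = 1
    rw [hN v (Subgroup.mem_subgroupOf.mp hv)]; rfl
  have h1 : f.ker.index ∣ (N.subgroupOf V).index := Subgroup.index_dvd_of_le hker
  have h2 : f.ker.index = Nat.card f.range := Subgroup.index_ker f
  have hcard : Nat.card (Multiplicative (ZMod p)) = p := by
    rw [Nat.card_congr Multiplicative.toAdd, Nat.card_zmod]
  have h3 : Nat.card f.range ∣ p := by
    have := Subgroup.card_subgroup_dvd_card f.range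
    rwa [hcard] at this
  have h4 : Nat.card f.range ≠ 1 := by
    intro h
    have hbot : f.range = ⊥ := Subgroup.card_eq_one.mp h
    have hmem : f τ ∈ f.range := ⟨τ, rfl⟩
    rw [hbot, Subgroup.mem_bot] at hmem
    exact hτ (Multiplicative.ofAdd.injective hmem)
  have h5 : Nat.card f.range = p := (Nat.dvd_prime hp).mp h3 |>.resolve_left h4
  rw [Subgroup.relIndex]
  rw [h2, h5] at h1
  exact h1

variable (q : Nat.Primes)

set_option maxHeartbeats 800000 in
/-- **the local cyclotomic layer**: below every level `V₀` of `G_q` there is a level `V ≤ V₀`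
fixing `μ_p` and a level `N ≤ V` with `p ∣ [V : N]`. -/
theorem s56t_local_hlev (hp2 : p ≠ 2)
    (V₀ : Subgroup (PadicAlgCl (q : ℕ) ≃ₐ[ℚ_[(q : ℕ)]] PadicAlgCl (q : ℕ)))
    (hV₀ : V₀ ∈ (ptg_levels (q : ℕ)).lev) :
    ∃ V ∈ (ptg_levels (q : ℕ)).lev, V ≤ V₀ ∧ V ≤ ptg_cycloKer (q : ℕ) p ∧
      ∃ N ∈ (ptg_levels (q : ℕ)).lev, N ≤ V ∧ p ∣ N.relIndex V := by
  classical
  have hp : p.Prime := Fact.out
  obtain ⟨F₀, hF₀, hst₀, rfl⟩ := (ptg_mem_levels_iff (q : ℕ) V₀).mp hV₀
  haveI := hF₀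
  -- add `μ_p`
  set F₁ : IntermediateField ℚ Qbar := F₀ ⊔ pta_cycloField p with hF₁
  haveI : FiniteDimensional ℚ F₁ := IntermediateField.finiteDimensional_sup F₀ (pta_cycloField p)
  have hst₁ : ∀ σ : GQ, ∀ x ∈ F₁, σ x ∈ F₁ := pta_stable_sup hst₀ pta_cycloField_stable
  have hζ : ∀ x : Qbar, x ^ p = 1 → x ∈ F₁ := by
    intro x hx
    obtain ⟨ζ, hζ⟩ := pta_exists_primitiveRoot p
    obtain ⟨i, -, rfl⟩ := hζ.eq_pow_of_pow_eq_one hx
    exact pow_mem ((le_sup_right : pta_cycloField p ≤ F₁) (pta_mem_cycloField hζ)) i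
  -- the local bound
  haveI : FiniteDimensional ℚ_[(q : ℕ)] ↥(ptj_Kσ (ptj_resEmb (F := ↥F₁) (pta_iota q))) :=
    pta_finiteDimensional_Kσ _
  obtain ⟨n, hn1, hn⟩ := pta_cyc_local hp2 _ (pta_roots_mem_Kσ hζ q)
  -- the two levels
  set F : IntermediateField ℚ Qbar := F₁ ⊔ pts_cycloPowField p n with hF
  haveI : FiniteDimensional ℚ F := IntermediateField.finiteDimensional_sup F₁ _
  have hFst : ∀ σ : GQ, ∀ x ∈ F, σ x ∈ F := pta_stable_sup hst₁ pts_cycloPowField_stable
  set F' : IntermediateField ℚ Qbar := F ⊔ pts_cycloPowField p (n + 1) with hF'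
  haveI : FiniteDimensional ℚ F' := IntermediateField.finiteDimensional_sup F _
  have hF'st : ∀ σ : GQ, ∀ x ∈ F', σ x ∈ F' := pta_stable_sup hFst pts_cycloPowField_stable
  have hmemV : ∀ g : GQ, g ∈ F.fixingSubgroup ↔
      (∀ x ∈ F₁, g x = x) ∧ g (pts_zetaPow p n) = pts_zetaPow p n := by
    intro g
    rw [hF, IntermediateField.fixingSubgroup_sup, Subgroup.mem_inf,
      pts_mem_fixingSubgroup_cycloPowField_iff, IntermediateField.mem_fixingSubgroup_iff]
  set z : Qbarˣ := pta_zetaPowU p (n + 1) with hz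
  have hzp : ((z : Qbar) ^ p) ^ p ^ n = 1 := by
    rw [← pow_mul, ← pow_succ', hz, pta_zetaPowU_coe]
    exact (pts_zetaPow_spec p (n + 1)).pow_eq_one
  have hVμ : ∀ g ∈ F.fixingSubgroup, ∀ x : Qbar, x ^ p = 1 → g x = x :=
    fun g hg x hx => ((hmemV g).1 hg).1 x (hζ x hx)
  have hVz : ∀ g ∈ F.fixingSubgroup, g ((z : Qbar) ^ p) = (z : Qbar) ^ p :=
    fun g hg => pta_fixes_roots_of_fixes_zetaPow ((hmemV g).1 hg).2 hzp
  have hF₀F : F₀ ≤ F := le_sup_left.trans le_sup_left
  have hcycF : pta_cycloField p ≤ F := le_sup_right.trans le_sup_left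
  refine ⟨ptg_lev (q : ℕ) F, ptg_lev_mem_levels (q : ℕ) hFst, ptg_lev_antitone hF₀F, ?_,
    ptg_lev (q : ℕ) F', ptg_lev_mem_levels (q : ℕ) hF'st, ptg_lev_antitone le_sup_left, ?_⟩
  · -- `V` fixes `μ_p`
    intro τ hτ
    rw [ptg_mem_lev_iff] at hτ
    rw [ptg_mem_cycloKer_iff, ← MonoidHom.mem_ker, ← pta_fixingSubgroup_cycloField]
    exact IntermediateField.fixingSubgroup_antitone hcycF hτ
  · -- the Kummer character of `ζ_{p^(n+1)}`
    have hVmem : ∀ v : ptg_lev (q : ℕ) F,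
        localGaloisToGlobal (q : ℕ) (v : PadicAlgCl (q : ℕ) ≃ₐ[ℚ_[(q : ℕ)]] PadicAlgCl (q : ℕ))
          ∈ F.fixingSubgroup := fun v => ptg_mem_lev_iff.mp v.2
    -- an element of `V` moving `ζ_{p^(n+1)}`
    have hy : IsPrimitiveRoot (pta_iota q (pts_zetaPow p (n + 1))) (p ^ (n + 1)) :=
      (pts_zetaPow_spec p (n + 1)).map_of_injective (pta_iota q).injective
    obtain ⟨τ, hτL, hτμ, hτy⟩ := hn n le_rfl _ hy
    have hcompat : ∀ x : Qbar, pta_iota q (localGaloisToGlobal (q : ℕ) τ x) = τ (pta_iota q x) :=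
      fun x => padicEmbedding_localGaloisToGlobal (q : ℕ) τ x
    have hsV : localGaloisToGlobal (q : ℕ) τ ∈ F.fixingSubgroup := by
      rw [hmemV]
      refine ⟨fun x hx => ?_, ?_⟩
      · apply (pta_iota q).injective
        rw [hcompat]
        exact hτL _ (ptj_apply_mem_Kσ (ptj_resEmb (F := ↥F₁) (pta_iota q)) ⟨x, hx⟩)
      · apply (pta_iota q).injective
        rw [hcompat]
        apply hτμ
        rw [← map_pow, (pts_zetaPow_spec p n).pow_eq_one, map_one]
    have hτV : τ ∈ ptg_lev (q : ℕ) F := ptg_mem_lev_iff.mpr hsV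
    refine s56t_dvd_relIndex_of_char
      (fun v : ptg_lev (q : ℕ) F => pta_kumChar p z (localGaloisToGlobal (q : ℕ) v))
      (fun a b => ?_) (fun v hv => ?_) ⟨τ, hτV⟩ ?_
    · show pta_kumChar p z (localGaloisToGlobal (q : ℕ) ((a * b : ptg_lev (q : ℕ) F) :
        PadicAlgCl (q : ℕ) ≃ₐ[ℚ_[(q : ℕ)]] PadicAlgCl (q : ℕ))) = _
      rw [Subgroup.coe_mul, map_mul]
      exact pta_kumChar_add p (hVμ _ (hVmem a)) (hVz _ (hVmem a)) (hVz _ (hVmem b))
    · have hv' : localGaloisToGlobal (q : ℕ)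
          (v : PadicAlgCl (q : ℕ) ≃ₐ[ℚ_[(q : ℕ)]] PadicAlgCl (q : ℕ)) ∈ F'.fixingSubgroup :=
        ptg_mem_lev_iff.mp hv
      rw [hF', IntermediateField.fixingSubgroup_sup, Subgroup.mem_inf,
        pts_mem_fixingSubgroup_cycloPowField_iff] at hv'
      exact (pta_kumChar_eq_zero_iff p (hVz _ (hVmem v))).2 hv'.2
    · show pta_kumChar p z (localGaloisToGlobal (q : ℕ) τ) ≠ 0
      rw [Ne, pta_kumChar_eq_zero_iff p (hVz _ hsV)]
      intro hfix
      apply hτy
      rw [← hcompat]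
      congr 1

end Fermat.Agent.Lib.S56

end
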