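/-
S56 programme, wall W2 (Greenberg–Wiles), the TAIL of Poitou–Tate:
the kernel of `j : ⊕_v H⁰(ℚ_v, M') → Hom_G(M, C_S)` in the abstract big model `pts_EMod`:
`ker j = H⁰(G_ℚ, M') × H⁰(ℝ, M')` (diagonal at the finite places; the archimedean component is
ignored by `j`).
-/
import Mathlib
import Fermat.Agent.Lib.PT.SeqESha

set_option autoImplicit false
set_option linter.unusedSectionVars false

namespace Fermat.Agent.Lib.S56

open CategoryTheory groupCohomology ExtCitation Module Fermat.Agent.Lib.PT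

local notation "Qbar" => AlgebraicClosure ℚ
local notation "GQ" => (AlgebraicClosure ℚ ≃ₐ[ℚ] AlgebraicClosure ℚ)

section Ker

variable {p : ℕ} [Fact p.Prime] {S : Finset Nat.Primes} (𝒢 : pts_EMod p S)
variable {M : Rep.{0} (ZMod p) GQ}

/-- a global invariant of `M'` is a local invariant at every place -/
lemma s56t_inv_mem_P0 (φ : (M.dualTwist (cycloChar p)).ρ.invariants) (v : extArithIndex S) :
    (φ : (M.dualTwist (cycloChar p)).V) ∈ pts_EMod.P0 S M v := by
  refine (Representation.mem_invariants _ _).2 fun τ => ?_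
  exact (Representation.mem_invariants _ _).1 φ.2 (extArithLoc S v τ)

variable (S M) in
/-- the diagonal map `H⁰(G_ℚ, M') × H⁰(ℝ, M') → ⊕_v H⁰(ℚ_v, M')` -/
noncomputable def s56t_diag :
    ((M.dualTwist (cycloChar p)).ρ.invariants × pts_EMod.P0 S M (Sum.inl ())) →ₗ[ZMod p]
      (∀ v, pts_EMod.P0 S M v) :=
  LinearMap.pi fun v =>
    match v with
    | Sum.inl _ => LinearMap.snd _ _ _
    | Sum.inr q =>
        (Submodule.inclusion (fun φ hφ => s56t_inv_mem_P0 ⟨φ, hφ⟩ (Sum.inr q)) :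
          (M.dualTwist (cycloChar p)).ρ.invariants →ₗ[ZMod p] pts_EMod.P0 S M (Sum.inr q))
          ∘ₗ LinearMap.fst _ _ _

lemma s56t_diag_inl (x : (M.dualTwist (cycloChar p)).ρ.invariants × pts_EMod.P0 S M (Sum.inl ())) :
    s56t_diag S M x (Sum.inl ()) = x.2 := rfl

lemma s56t_diag_inr (x : (M.dualTwist (cycloChar p)).ρ.invariants × pts_EMod.P0 S M (Sum.inl ()))
    (q : ↥S) : ((s56t_diag S M x (Sum.inr q) : pts_EMod.P0 S M (Sum.inr q)) :
      (M.dualTwist (cycloChar p)).V) = x.1.1 := rfl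

lemma s56t_diag_injective (q0 : ↥S) : Function.Injective (s56t_diag S M) := by
  intro x y h
  refine Prod.ext (Subtype.ext ?_) ?_
  · have := congrArg (fun f => ((f (Sum.inr q0) : pts_EMod.P0 S M (Sum.inr q0)) :
      (M.dualTwist (cycloChar p)).V)) h
    exact this
  · have := congrFun h (Sum.inl ())
    exact this

/-- the cocycle of `ζ ∘ φ` vanishes for an invariant `φ` -/
lemma s56t_cocLin_ofDual_inv (φ : (M.dualTwist (cycloChar p)).ρ.invariants) (g : GQ) :
    𝒢.cocLin (𝒢.ofDual (φ.1 : Module.Dual (ZMod p) M.V)) g = 0 := by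
  have h1 := congrFun (𝒢.coc_ofDual (M := M) (φ.1 : Module.Dual (ZMod p) M.V)) g
  rw [pts_EMod.coc_apply, d₀₁_hom_apply] at h1
  rw [h1, (Representation.mem_invariants _ _).1 φ.2 g, sub_self]

lemma s56t_coord_ofDual (φ : Module.Dual (ZMod p) M.V) (q : ↥S) :
    𝒢.coord (𝒢.ofDual φ) q = φ := by
  refine LinearMap.ext fun m => ?_
  rw [pts_EMod.coord_apply, pts_EMod.ofDual_apply, 𝒢.ev_ζ]

/-- **`range diag ≤ ker j`.** -/
lemma s56t_jMap_diag (hM : pts_EMod.TrivOnLevel S M)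
    (x : (M.dualTwist (cycloChar p)).ρ.invariants × pts_EMod.P0 S M (Sum.inl ())) :
    𝒢.jMap hM (s56t_diag S M x) = 0 := by
  have h1 : 𝒢.jLift hM (s56t_diag S M x) = 𝒢.ofDual (x.1.1 : Module.Dual (ZMod p) M.V) := by
    apply 𝒢.QE_ext
    · intro g
      rw [pts_EMod.cocLin_jLift, s56t_cocLin_ofDual_inv]
    · intro q
      rw [pts_EMod.coord_jLift, s56t_coord_ofDual]
      rfl
  rw [pts_EMod.jMap_apply, h1]
  refine Subtype.ext (AddMonoidHom.ext fun m => ?_)
  rw [pts_EMod.toHomC_apply, pts_EMod.ofDual_apply, 𝒢.π_ζ]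
  rfl

/-- **`ker j ≤ range diag`.** -/
lemma s56t_exists_diag_of_jMap_eq_zero (hM : pts_EMod.TrivOnLevel S M)
    (x0 : ∀ v, pts_EMod.P0 S M v) (h : 𝒢.jMap hM x0 = 0) :
    ∃ x, s56t_diag S M x = x0 := by
  rw [pts_EMod.jMap_apply] at h
  obtain ⟨φ, hφ⟩ := 𝒢.exists_ofDual_of_toHomC_eq_zero h
  -- `φ` is invariant
  have hinv : (φ : (M.dualTwist (cycloChar p)).V) ∈ (M.dualTwist (cycloChar p)).ρ.invariants := by
    refine (Representation.mem_invariants _ _).2 fun g => ?_
    have h1 := congrFun (𝒢.coc_ofDual (M := M) φ) g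
    rw [pts_EMod.coc_apply, d₀₁_hom_apply, ← hφ, pts_EMod.cocLin_jLift] at h1
    exact (sub_eq_zero.mp h1.symm)
  refine ⟨(⟨φ, hinv⟩, x0 (Sum.inl ())), ?_⟩
  funext v
  rcases v with u | q
  · rfl
  · apply Subtype.ext
    rw [s56t_diag_inr]
    have h2 := 𝒢.coord_jLift hM x0 q
    rw [hφ, s56t_coord_ofDual] at h2
    exact h2

/-- **The kernel of `j`**: `dim ker j = h⁰(G_ℚ, M') + h⁰(ℝ, M')`. -/
theorem s56t_finrank_ker_jMap (hM : pts_EMod.TrivOnLevel S M) (q0 : ↥S)
    [FiniteDimensional (ZMod p) M.V] :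
    finrank (ZMod p) (LinearMap.ker (𝒢.jMap hM))
      = finrank (ZMod p) (M.dualTwist (cycloChar p)).ρ.invariants
        + finrank (ZMod p) (pts_EMod.P0 S M (Sum.inl ())) := by
  have : FiniteDimensional (ZMod p) (M.dualTwist (cycloChar p)).V :=
    inferInstanceAs (FiniteDimensional (ZMod p) (Module.Dual (ZMod p) M.V))
  have hrange : LinearMap.range (s56t_diag S M) = LinearMap.ker (𝒢.jMap hM) := by
    ext x0
    rw [LinearMap.mem_range, LinearMap.mem_ker]
    constructor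
    · rintro ⟨x, rfl⟩
      exact s56t_jMap_diag 𝒢 hM x
    · exact s56t_exists_diag_of_jMap_eq_zero 𝒢 hM x0
  rw [← hrange, LinearMap.finrank_range_of_inj (s56t_diag_injective q0), Module.finrank_prod]

end Ker

end Fermat.Agent.Lib.S56
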