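/-
S56 programme, wall W2 (Greenberg–Wiles), the TAIL of Poitou–Tate:
pure linear algebra.  From
  (B') `a : X → Dual H2` injective,
  (C)  `b v : P v → Dual (Q v)` surjective (`P v` finite-dimensional),
  (D)  `a (j x0) x = ∑ v, b v (x0 v) (loc x v)`,
we get that every `Q v` is finite-dimensional and
  `dim range loc + dim ker j = ∑ v, dim P v`.
-/
import Mathlib
import Fermat.Agent.Lib.PT.AssemblyTop

set_option autoImplicit false

namespace Fermat.Agent.Lib.S56

open Module Fermat.Agent.Lib.PT

section LinAlg

variable {k : Type*} [Field k] {ι : Type*} [Fintype ι]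
variable {P : ι → Type*} {Q : ι → Type*}
variable [∀ v, AddCommGroup (P v)] [∀ v, Module k (P v)]
variable [∀ v, AddCommGroup (Q v)] [∀ v, Module k (Q v)]

/-- the target of a surjection `P → Dual Q` from a finite-dimensional space has finite-dimensional
predual -/
theorem s56t_finite_of_surjective_dual {P Q : Type*} [AddCommGroup P] [Module k P]
    [AddCommGroup Q] [Module k Q] [FiniteDimensional k P] (b : P →ₗ[k] Dual k Q)
    (hb : Function.Surjective b) : FiniteDimensional k Q := by
  have h1 : Module.Finite k (Dual k Q) := Module.Finite.of_surjective b hb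
  exact (Module.finite_dual_iff k).mp h1

/-- **Tail count, abstract form.** -/
theorem s56t_finrank_range_add_ker [DecidableEq ι] [∀ v, FiniteDimensional k (P v)]
    {X H2 : Type*} [AddCommGroup X] [Module k X] [AddCommGroup H2] [Module k H2]
    (j : (∀ v, P v) →ₗ[k] X) (a : X →ₗ[k] Dual k H2) (loc : H2 →ₗ[k] ∀ v, Q v)
    (b : ∀ v, P v →ₗ[k] Dual k (Q v))
    (ha : ∀ f, a f = 0 → f = 0)
    (hb : ∀ v, Function.Surjective (b v))
    (hD : ∀ (x0 : ∀ v, P v) (x : H2), a (j x0) x = ∑ v, b v (x0 v) (loc x v)) :
    finrank k (LinearMap.range loc) + finrank k (LinearMap.ker j) = ∑ v, finrank k (P v) := by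
  have hQ : ∀ v, FiniteDimensional k (Q v) := fun v => s56t_finite_of_surjective_dual (b v) (hb v)
  set B : (∀ v, P v) →ₗ[k] Dual k (∀ v, Q v) := pts_piDual b with hB
  have hBs : Function.Surjective B := pts_piDual_surjective b hb
  have hcompat : a ∘ₗ j = loc.dualMap ∘ₗ B := by
    refine LinearMap.ext fun x0 => LinearMap.ext fun x => ?_
    rw [LinearMap.comp_apply, hD x0 x, LinearMap.comp_apply, LinearMap.dualMap_apply,
      pts_piDual_apply]
  have hker : LinearMap.ker j = LinearMap.ker (loc.dualMap ∘ₗ B) := by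
    rw [← hcompat]
    ext x0
    simp only [LinearMap.mem_ker, LinearMap.comp_apply]
    exact ⟨fun h => by rw [h, map_zero], fun h => ha _ h⟩
  have hrange : LinearMap.range (loc.dualMap ∘ₗ B) = LinearMap.range loc.dualMap := by
    rw [LinearMap.range_comp, LinearMap.range_eq_top.mpr hBs, Submodule.map_top]
  have h1 := LinearMap.finrank_range_add_finrank_ker (loc.dualMap ∘ₗ B)
  rw [hrange, ← hker, LinearMap.finrank_range_dualMap_eq_finrank_range, Module.finrank_pi_fintype]
    at h1
  exact h1

end LinAlg

end Fermat.Agent.Lib.S56
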