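/-
S56 programme, wall W2 (Greenberg–Wiles), the TAIL of Poitou–Tate from the S55 producers:

  `dim im (H²(G_S, M) → ⊕_v H²(ℚ_v, M)) + h⁰(G_ℚ, M') = ∑_{q ∈ S} h⁰(ℚ_q, M')`,

i.e. `coker (H²(G_S, M) → ⊕_{v ∈ S} H²(ℚ_v, M)) ≅ H⁰(G_ℚ, M')^∨` in dimension-count form
(with local duality `H²(ℚ_q, M)^∨ ≅ H⁰(ℚ_q, M')` built in on the right-hand side).
Inputs: the global big module `𝒢`, the invariant map with (B') (`a` injective), the local big
models with (C) (`b_q` surjective) and the local–global compatibility (LG).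
-/
import Mathlib
import Fermat.Agent.Lib.PT.S55Skeleton
import Fermat.Agent.Lib.S56.TailLin
import Fermat.Agent.Lib.S56.TailKer

set_option autoImplicit false
set_option linter.unusedSectionVars false

namespace Fermat.Agent.Lib.S56

open CategoryTheory groupCohomology ExtCitation Module Fermat.Agent.Lib.PT

local notation "Qbar" => AlgebraicClosure ℚ
local notation "GQ" => (AlgebraicClosure ℚ ≃ₐ[ℚ] AlgebraicClosure ℚ)

attribute [local instance] pts_instGroupInr pts_instGroupInl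

set_option maxHeartbeats 1600000 in
/-- **The tail of Poitou–Tate from the producers' theorems.** -/
theorem s56t_tail_of_producers
    {p : ℕ} [Fact p.Prime] (hp2 : p ≠ 2) (S : Finset Nat.Primes) (hpS : pPrime p ∈ S)
    (M : Rep (ZMod p) (AlgebraicClosure ℚ ≃ₐ[ℚ] AlgebraicClosure ℚ))
    [FiniteDimensional (ZMod p) M]
    (hsm : ∀ m : M, ∃ F : IntermediateField ℚ (AlgebraicClosure ℚ), FiniteDimensional ℚ F ∧
      ∀ s ∈ F.fixingSubgroup, M.ρ s m = m)
    (hMur : ∀ q : Nat.Primes, q ∉ S → ∀ A : ValuationSubring (AlgebraicClosure ℚ),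
      A.LiesOverPrime (q : ℕ) → ∀ g ∈ A.inertiaSubgroupIn ℚ, M.ρ g = 1)
    (𝒢 : pts_EMod p S)
    (invG : ptd_Inv (pta_levelsS S) 𝒢.ρC (ZMod p) p)
    (hBG : ptd_NondegHom (pta_levelsS S) 𝒢.ρC invG M.ρ)
    (L : ∀ q : ↥S, pts_LocData 𝒢 q)
    (hCL : ∀ q : ↥S, ptd_NondegH2 (L q).𝓛 (L q).ρ (L q).inv (pts_LocData.Mq M q).ρ)
    (hLG : ∀ y : GQ × GQ → 𝒢.J, ptd_IsLZ2 (pta_levelsS S) 𝒢.ρJ y → (∀ x, p • y x = 0) →
      invG (fun x => 𝒢.π (y x)) = ∑ q : ↥S, (L q).inv (fun x =>
        (L q).evΩ (y (primeLocalToGlobal q.1 x.1, primeLocalToGlobal q.1 x.2)))) :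
    (∀ v, FiniteDimensional (ZMod p)
      (continuousH2 (extArithLoc S v) (Rep.res (extArithLoc S v) M))) ∧
    finrank (ZMod p) (LinearMap.range (locTotal₂S S M))
        + finrank (ZMod p) (M.dualTwist (cycloChar p)).ρ.invariants
      = ∑ q : ↥S, finrank (ZMod p)
          (Rep.res (extArithLoc S (Sum.inr q)) (M.dualTwist (cycloChar p))).ρ.invariants := by
  classical
  have hlev := pta_isLevel_kerField (S := S) hsm hMur
  have hM : pts_EMod.TrivOnLevel S M := ⟨pta_kerField M, hlev.unram, hlev.triv⟩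
  have hfd : FiniteDimensional (ZMod p) (M.dualTwist (cycloChar p)).V :=
    inferInstanceAs (FiniteDimensional (ZMod p) (Module.Dual (ZMod p) M.V))
  have hfdP : ∀ v, FiniteDimensional (ZMod p) ↥(pts_EMod.P0 S M v) := fun v => inferInstance
  have hb : ∀ v, Function.Surjective (pts_bAll 𝒢 L (M := M) v) := by
    intro v
    rcases v with u | q
    · intro φ
      refine ⟨0, ?_⟩
      have := pta_subsingleton_continuousH2_arch hp2 (Rep.res archimedeanLoc M)
      refine LinearMap.ext fun x => ?_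
      have hx : x = 0 :=
        Subsingleton.elim (α := continuousH2 archimedeanLoc (Rep.res archimedeanLoc M)) _ _
      rw [hx, map_zero, map_zero]
    · exact (L q).bMap_surjective (hCL q)
  refine ⟨fun v => s56t_finite_of_surjective_dual (pts_bAll 𝒢 L (M := M) v) (hb v), ?_⟩
  have h1 := s56t_finrank_range_add_ker (k := ZMod p) (ι := extArithIndex S)
    (P := fun v => ↥(pts_EMod.P0 S M v))
    (Q := fun v => continuousH2 (extArithLoc S v) (Rep.res (extArithLoc S v) M))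
    (𝒢.jMap hM) (𝒢.aMap invG) (locTotal₂S S M) (pts_bAll 𝒢 L)
    (fun f hf => 𝒢.aMap_injective invG hBG f hf) hb (pts_compat_D 𝒢 hM invG L hLG)
  rw [s56t_finrank_ker_jMap 𝒢 hM ⟨pPrime p, hpS⟩] at h1
  have h2 := Fintype.sum_sum_type (fun v : Unit ⊕ ↥S => finrank (ZMod p) ↥(pts_EMod.P0 S M v))
  have h3 : (∑ v : extArithIndex S, finrank (ZMod p) ↥(pts_EMod.P0 S M v))
      = ∑ v : Unit ⊕ ↥S, finrank (ZMod p) ↥(pts_EMod.P0 S M v) := rfl
  rw [h3, h2] at h1
  simp only [Finset.univ_unique, Finset.sum_singleton] at h1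
  have h4 : finrank (ZMod p) ↥(pts_EMod.P0 S M (Sum.inl default))
      = finrank (ZMod p) ↥(pts_EMod.P0 S M (Sum.inl ())) := rfl
  rw [h4] at h1
  have h6 : finrank (ZMod p) (LinearMap.range (locTotal₂S S M))
        + finrank (ZMod p) (M.dualTwist (cycloChar p)).ρ.invariants
        + finrank (ZMod p) ↥(pts_EMod.P0 S M (Sum.inl ()))
      = (∑ q : ↥S, finrank (ZMod p)
          (Rep.res (extArithLoc S (Sum.inr q)) (M.dualTwist (cycloChar p))).ρ.invariants)
        + finrank (ZMod p) ↥(pts_EMod.P0 S M (Sum.inl ())) := by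
    rw [add_assoc, add_comm (∑ q : ↥S, _) _]
    exact h1
  exact Nat.add_right_cancel h6

end Fermat.Agent.Lib.S56
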