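/-
S56 programme, wall W2 (Greenberg–Wiles): **THE S55 PRODUCERS, EXPORTED** for the landed model
(`pta_EMod p hpS`, the class formation `pts_modelAbsP₀`, the local big models `pta_LocPre`, the
local level data `ptl_DL`).  The S55 chain (`pts_S55_of_count → … → pts_S55_of_producers`) only
exposes the frozen conclusion; here the same inputs are assembled into the M-INDEPENDENT package

* `s56t_invG`  : the `ZMod p`-valued global invariant map on `H²(G_S, C_S)[p]`,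
* `s56t_L q`   : the local big model at `q ∈ S` with its `ZMod p`-valued invariant map,
* `s56t_hLG`   : local–global compatibility (reciprocity) for `J_S[p]`-valued level cocycles,
* `s56t_hAG`, `s56t_hBG` : ADT-lite (A), (B') for every finite smooth `M` unramified outside `S`,
* `s56t_hCL`   : local ADT-lite (A) for `M|_{G_q}`,

and the TAIL of Poitou–Tate for the frozen objects (`s56t_tail`).
-/
import Mathlib
import Fermat.Agent.Lib.PT.S55ModelG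
import Fermat.Agent.Lib.PT.BrauerExC
import Fermat.Agent.Lib.S56.TailAbs

set_option autoImplicit false
set_option linter.unusedSectionVars false
set_option linter.unusedVariables false

noncomputable section

namespace Fermat.Agent.Lib.S56

open IntermediateField ExtCitation groupCohomology Module Fermat.Agent.Lib.PT

local notation "Qbar" => AlgebraicClosure ℚ
local notation "GQ" => (AlgebraicClosure ℚ ≃ₐ[ℚ] AlgebraicClosure ℚ)

variable {p : ℕ} [hp : Fact p.Prime] {S : Finset Nat.Primes}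

/-- the class formation of the model -/
def s56t_A (hp2 : p ≠ 2) (hpS : pPrime p ∈ S) :
    ptn_AbsK (pta_levelsS S) (ptj_JSrep S) (pta_EMod p hpS).ρC p :=
  (pts_modelAbsP₀ hp2 hpS).toAbsK

/-- the local level data at the primes of `S` -/
def s56t_DL (hp2 : p ≠ 2) (S : Finset Nat.Primes) (q : ↥S) :
    ptn_LevelData (ptg_levels (q.1 : ℕ)) (ptg_unitsRep (q.1 : ℕ)) p :=
  ptl_DL hp2 q.1

theorem s56t_LGG (hp2 : p ≠ 2) (hpS : pPrime p ∈ S) :
    ptd_GLG (pta_levelsS S) p (pta_EMod p hpS).ρJ (pta_EMod p hpS).ρC (pta_EMod p hpS).π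
      (pta_SLlev S) (pta_SLrep S) (pta_SLr S) (pta_SLev S) (s56t_A hp2 hpS).invG
      (fun q : ↥S => ptn_invG (s56t_DL hp2 S q) (ptg_isDiscrete_units (q.1 : ℕ))) :=
  pts_LGG_modelAbsK hp2 hpS (ptl_DL hp2) (s56t_A hp2 hpS) (fun _ => rfl) (fun _ _ => rfl)
    (fun _ => rfl)

theorem s56t_LGU (hp2 : p ≠ 2) (hpS : pPrime p ∈ S) :
    pts_LGU hpS (fun U hU => (s56t_A hp2 hpS).inv U hU) (s56t_DL hp2 S) :=
  pts_LGU_modelAbsK hp2 hpS (ptl_DL hp2) (s56t_A hp2 hpS) (fun _ => rfl) (fun _ _ => rfl)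
    (fun _ => rfl)

theorem s56t_F3G (hp2 : p ≠ 2) (hpS : pPrime p ∈ S) :
    ∀ (U : Subgroup GQ) (hU : (pta_levelsS S).IsOpen U), U ≤ (cycloChar p).ker →
      ptd_F3 ((pta_levelsS S).sub U hU) (ptd_resRep (pta_EMod p hpS).ρC U)
        ((s56t_A hp2 hpS).inv U hU) :=
  ptj_F3G_of_count hpS (s56t_A hp2 hpS) le_rfl (s56t_DL hp2 S) (s56t_LGU hp2 hpS)
    (pti_F3_count hp2 hpS)

theorem s56t_F3LG (hp2 : p ≠ 2) (hpS : pPrime p ∈ S) :
    ∀ (U : Subgroup GQ) (hU : (pta_levelsS S).IsOpen U), U ≤ (cycloChar p).ker →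
      ∀ χ : U → ZMod p, ptd_IsChar χ → ptd_IsLev₁ ((pta_levelsS S).sub U hU) χ →
        (∀ c : (pta_EMod p hpS).C, (∀ g : U, ptd_resRep (pta_EMod p hpS).ρC U g c = c) →
          (s56t_A hp2 hpS).inv U hU (ptd_bockSmul p χ c) = 0) → χ = 0 :=
  fun U hU hUK χ hχ hlev h => ptd_F3inj (s56t_A hp2 hpS) U hU hUK χ hχ hlev h


/-! ### The `ℚ/ℤ_(p)`-valued ADT-lite facts for the model -/

section TValued

theorem s56t_F1gen (hp2 : p ≠ 2) (hpS : pPrime p ∈ S) :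
    ∀ (U : Subgroup GQ) (hU : (pta_levelsS S).IsOpen U), U ≤ (cycloChar p).ker →
      ∀ θ : U → (pta_EMod p hpS).C,
        ptd_IsLZ1 ((pta_levelsS S).sub U hU) (ptd_resRep (pta_EMod p hpS).ρC U) θ →
        ∃ m : ℕ, ¬ p ∣ m ∧ ptd_IsB1 (ptd_resRep (pta_EMod p hpS).ρC U) (m • θ) :=
  fun U hU _ θ hθ => (s56t_A hp2 hpS).F1_gen U hU hθ

theorem s56t_hinjG (hp2 : p ≠ 2) (hpS : pPrime p ∈ S) :
    ∀ (U : Subgroup GQ) (hU : (pta_levelsS S).IsOpen U), U ≤ (cycloChar p).ker →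
      ∀ y, ptd_IsLZ2p ((pta_levelsS S).sub U hU) (ptd_resRep (pta_EMod p hpS).ρC U) p y →
        (s56t_A hp2 hpS).inv U hU y = 0 →
        ptd_IsB2 ((pta_levelsS S).sub U hU) (ptd_resRep (pta_EMod p hpS).ρC U) y :=
  fun U hU _ y hy h0 => ((s56t_A hp2 hpS).inv_eq_zero_iff_p U hU hy).mp h0

theorem s56t_hcor (hp2 : p ≠ 2) (hpS : pPrime p ∈ S) :
    ∀ (U : Subgroup GQ) (hU : (pta_levelsS S).IsOpen U) [U.FiniteIndex]
      (y : U × U → (pta_EMod p hpS).C),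
      ptd_IsLZ2p ((pta_levelsS S).sub U hU) (ptd_resRep (pta_EMod p hpS).ρC U) p y →
      (s56t_A hp2 hpS).invG (ptd_cor₂ U (pta_EMod p hpS).ρC y) = (s56t_A hp2 hpS).inv U hU y :=
  fun U hU _ y hy => (s56t_A hp2 hpS).hcor U hU y hy

set_option maxHeartbeats 1600000 in
/-- **(A) global, `ℚ/ℤ_(p)`-valued.** -/
theorem s56t_hAG_T (hp2 : p ≠ 2) (hpS : pPrime p ∈ S)
    (M : Rep.{0} (ZMod p) (AlgebraicClosure ℚ ≃ₐ[ℚ] AlgebraicClosure ℚ))
    [FiniteDimensional (ZMod p) M]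
    (hsm : ∀ m : M, ∃ F : IntermediateField ℚ (AlgebraicClosure ℚ), FiniteDimensional ℚ F ∧
      ∀ s ∈ F.fixingSubgroup, M.ρ s m = m)
    (hMur : ∀ q : Nat.Primes, q ∉ S → ∀ A : ValuationSubring (AlgebraicClosure ℚ),
      A.LiesOverPrime (q : ℕ) → ∀ g ∈ A.inertiaSubgroupIn ℚ, M.ρ g = 1) :
    ptd_NondegH2 (pta_levelsS S) (pta_EMod p hpS).ρC (s56t_A hp2 hpS).invG M.ρ := by
  have htrivG : ptd_IsTrivOnLevel (pta_levelsS S) M.ρ :=
    pta_isTrivOnLevel M (pta_isLevel_kerField (S := S) hsm hMur)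
  exact pts_nondegH2_of_invSystem (ptj_isDiscrete_CS S) (s56t_A hp2 hpS).invG
    (fun U hU => (s56t_A hp2 hpS).inv U hU) (s56t_hcor hp2 hpS) (cycloChar p).ker
    (pts_isOpen_cycloKer hpS) (pts_not_dvd_index_ker _) M.ρ
    (fun U hU hUK => pts_F1_of_F1gen (s56t_F1gen hp2 hpS U hU hUK)) (s56t_F3G hp2 hpS)
    (fun U hU hUK => pts_F4i_model hpS (ptj_isDiscrete_CS S)
      (fun U hU => (s56t_A hp2 hpS).inv U hU) (s56t_DL hp2 S) (s56t_LGU hp2 hpS)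
      (s56t_F1gen hp2 hpS) (s56t_F3G hp2 hpS) U hU hUK) htrivG

set_option maxHeartbeats 1600000 in
/-- **(B') global, `ℚ/ℤ_(p)`-valued.** -/
theorem s56t_hBG_T (hp2 : p ≠ 2) (hpS : pPrime p ∈ S)
    (M : Rep.{0} (ZMod p) (AlgebraicClosure ℚ ≃ₐ[ℚ] AlgebraicClosure ℚ))
    [FiniteDimensional (ZMod p) M]
    (hsm : ∀ m : M, ∃ F : IntermediateField ℚ (AlgebraicClosure ℚ), FiniteDimensional ℚ F ∧
      ∀ s ∈ F.fixingSubgroup, M.ρ s m = m)
    (hMur : ∀ q : Nat.Primes, q ∉ S → ∀ A : ValuationSubring (AlgebraicClosure ℚ),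
      A.LiesOverPrime (q : ℕ) → ∀ g ∈ A.inertiaSubgroupIn ℚ, M.ρ g = 1) :
    ptd_NondegHom (pta_levelsS S) (pta_EMod p hpS).ρC (s56t_A hp2 hpS).invG M.ρ := by
  have htrivG : ptd_IsTrivOnLevel (pta_levelsS S) M.ρ :=
    pta_isTrivOnLevel M (pta_isLevel_kerField (S := S) hsm hMur)
  refine pts_nondegHom_of_invSystem_cofinal (s56t_A hp2 hpS).invG
    (fun U hU => (s56t_A hp2 hpS).inv U hU) (s56t_hcor hp2 hpS) (cycloChar p).ker
    (pts_isOpen_cycloKer hpS) M.ρ (fun V₀ hV₀ hV₀K => ?_) htrivG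
  obtain ⟨V, hV, hVV₀, hcyc⟩ := pts_hcycG_model hp2 hpS V₀ hV₀ hV₀K
  exact ⟨V, hV, hVV₀, pts_F4ii_model hpS (ptj_isDiscrete_CS S)
    (fun U hU => (s56t_A hp2 hpS).inv U hU) (s56t_DL hp2 S) (s56t_LGU hp2 hpS)
    (s56t_F1gen hp2 hpS) (s56t_hinjG hp2 hpS) (s56t_F3LG hp2 hpS) V
    ((pta_levelsS S).isOpen_of_mem hV) (hVV₀.trans hV₀K) hcyc⟩

/-- (A) local for an abstract local big model with level data. -/
theorem s56t_hCL_gen {𝒢 : pts_EMod p S} {q : ↥S} (L : pts_LocPre 𝒢 q)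
    (DL : ptn_LevelData L.𝓛 L.ρ p) (hdL : ptd_IsDiscrete L.𝓛 L.ρ)
    (hF3L : ∀ (U : Subgroup (primeLocalGaloisGroup q.1)) (hU : L.𝓛.IsOpen U),
      U ≤ pts_cycloKerLoc p q.1 → ptd_F3 (L.𝓛.sub U hU) (ptd_resRep L.ρ U)
        (ptn_invU DL hdL U hU))
    (hF4L : ∀ (U : Subgroup (primeLocalGaloisGroup q.1)) (hU : L.𝓛.IsOpen U),
      U ≤ pts_cycloKerLoc p q.1 → ptd_NondegH2 (L.𝓛.sub U hU) (ptd_resRep L.ρ U)
        (ptn_invU DL hdL U hU) (Representation.trivial (ZMod p) U (ZMod p)))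
    (M : Rep.{0} (ZMod p) (AlgebraicClosure ℚ ≃ₐ[ℚ] AlgebraicClosure ℚ))
    [FiniteDimensional (ZMod p) M]
    (hsm : ∀ m : M, ∃ F : IntermediateField ℚ (AlgebraicClosure ℚ), FiniteDimensional ℚ F ∧
      ∀ s ∈ F.fixingSubgroup, M.ρ s m = m) :
    ptd_NondegH2 L.𝓛 L.ρ (ptn_invG DL hdL) (pts_LocData.Mq M q).ρ :=
  pts_nondegH2_of_levelData DL hdL (pts_cycloKerLoc p q.1) L.isOpen_K
    (pts_not_dvd_index_cycloKerLoc q.1) (pts_LocData.Mq M q).ρ hF3L hF4L (L.isTrivOnLevel M hsm)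

set_option maxHeartbeats 1600000 in
/-- **(A) local, `ℚ/ℤ_(p)`-valued.** -/
theorem s56t_hCL_T (hp2 : p ≠ 2) (hpS : pPrime p ∈ S)
    (M : Rep.{0} (ZMod p) (AlgebraicClosure ℚ ≃ₐ[ℚ] AlgebraicClosure ℚ))
    [FiniteDimensional (ZMod p) M]
    (hsm : ∀ m : M, ∃ F : IntermediateField ℚ (AlgebraicClosure ℚ), FiniteDimensional ℚ F ∧
      ∀ s ∈ F.fixingSubgroup, M.ρ s m = m) (q : ↥S) :
    ptd_NondegH2 (pta_LocPre p hpS q).𝓛 (pta_LocPre p hpS q).ρ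
      (ptn_invG (s56t_DL hp2 S q) (ptg_isDiscrete_units (q.1 : ℕ)))
      (pts_LocData.Mq M q).ρ :=
  s56t_hCL_gen (pta_LocPre p hpS q) (s56t_DL hp2 S q) (ptg_isDiscrete_units (q.1 : ℕ))
    (fun U hU hUK => ptl_local_F3 (s56t_DL hp2 S q) (ptg_isDiscrete_units (q.1 : ℕ)) U hU hUK
      (fun χ hχ hlev _ τ hτ => ptg_hnormidx (q.1 : ℕ) p hU χ hχ hlev τ hτ))
    (fun U hU hUK => ptl_local_F4i (s56t_DL hp2 S q) (ptg_isDiscrete_units (q.1 : ℕ)) U hU hUK)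
    M hsm

set_option maxHeartbeats 1600000 in
/-- **(LG), `ℚ/ℤ_(p)`-valued**: local–global compatibility on `J_S[p]`-valued level cocycles. -/
theorem s56t_hLG_T (hp2 : p ≠ 2) (hpS : pPrime p ∈ S)
    (y : GQ × GQ → (pta_EMod p hpS).J)
    (hy : ptd_IsLZ2 (pta_levelsS S) (pta_EMod p hpS).ρJ y) (hpy : ∀ x, p • y x = 0) :
    (s56t_A hp2 hpS).invG (fun x => (pta_EMod p hpS).π (y x)) =
      ∑ q : ↥S, ptn_invG (s56t_DL hp2 S q) (ptg_isDiscrete_units (q.1 : ℕ)) (fun x =>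
        (pta_LocPre p hpS q).evΩ (y (primeLocalToGlobal q.1 x.1, primeLocalToGlobal q.1 x.2))) := by
  have hπy : ptd_IsLZ2p (pta_levelsS S) (pta_EMod p hpS).ρC p
      (fun x => (pta_EMod p hpS).π (y x)) := by
    refine ptd_IsLZ2.isLZ2p_of_nsmul_eq_zero ⟨fun g h j => ?_, hy.2.comp (pta_EMod p hpS).π⟩ ?_
    · have := congrArg (pta_EMod p hpS).π (hy.1 g h j)
      simp only [map_add] at this
      rw [this]
      show _ = (pta_EMod p hpS).ρC g ((pta_EMod p hpS).π (y (h, j))) + _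
      rw [← (pta_EMod p hpS).isEquivariant_π g (y (h, j))]
    · funext x
      simp only [Pi.smul_apply, Pi.zero_apply, ← map_nsmul, hpy x, map_zero]
  exact s56t_LGG hp2 hpS y hy hπy

end TValued


/-! ### The `ZMod p`-valued package -/

section Package

attribute [local instance] pts_instGroupInr pts_instGroupInl

/-- **the `ZMod p`-valued global invariant map of the model** -/
def s56t_invG (hp2 : p ≠ 2) (hpS : pPrime p ∈ S) :
    ptd_Inv (pta_levelsS S) (pta_EMod p hpS).ρC (ZMod p) p :=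
  pts_invZ (s56t_A hp2 hpS).invG

/-- **the local big model at `q ∈ S`** with its `ZMod p`-valued invariant map -/
def s56t_L (hp2 : p ≠ 2) (hpS : pPrime p ∈ S) (q : ↥S) : pts_LocData (pta_EMod p hpS) q :=
  (pta_LocPre p hpS q).toLocData
    (pts_invZ (ptn_invG (s56t_DL hp2 S q) (ptg_isDiscrete_units (q.1 : ℕ))))

/-- **(A) global.** -/
theorem s56t_hAG (hp2 : p ≠ 2) (hpS : pPrime p ∈ S)
    (M : Rep.{0} (ZMod p) (AlgebraicClosure ℚ ≃ₐ[ℚ] AlgebraicClosure ℚ))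
    [FiniteDimensional (ZMod p) M]
    (hsm : ∀ m : M, ∃ F : IntermediateField ℚ (AlgebraicClosure ℚ), FiniteDimensional ℚ F ∧
      ∀ s ∈ F.fixingSubgroup, M.ρ s m = m)
    (hMur : ∀ q : Nat.Primes, q ∉ S → ∀ A : ValuationSubring (AlgebraicClosure ℚ),
      A.LiesOverPrime (q : ℕ) → ∀ g ∈ A.inertiaSubgroupIn ℚ, M.ρ g = 1) :
    ptd_NondegH2 (pta_levelsS S) (pta_EMod p hpS).ρC (s56t_invG hp2 hpS) M.ρ :=
  pts_nondegH2_invZ (fun m => ZModModule.char_nsmul_eq_zero p m) (s56t_hAG_T hp2 hpS M hsm hMur)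

/-- **(B') global.** -/
theorem s56t_hBG (hp2 : p ≠ 2) (hpS : pPrime p ∈ S)
    (M : Rep.{0} (ZMod p) (AlgebraicClosure ℚ ≃ₐ[ℚ] AlgebraicClosure ℚ))
    [FiniteDimensional (ZMod p) M]
    (hsm : ∀ m : M, ∃ F : IntermediateField ℚ (AlgebraicClosure ℚ), FiniteDimensional ℚ F ∧
      ∀ s ∈ F.fixingSubgroup, M.ρ s m = m)
    (hMur : ∀ q : Nat.Primes, q ∉ S → ∀ A : ValuationSubring (AlgebraicClosure ℚ),
      A.LiesOverPrime (q : ℕ) → ∀ g ∈ A.inertiaSubgroupIn ℚ, M.ρ g = 1) :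
    ptd_NondegHom (pta_levelsS S) (pta_EMod p hpS).ρC (s56t_invG hp2 hpS) M.ρ :=
  pts_nondegHom_invZ (fun m => ZModModule.char_nsmul_eq_zero p m) (s56t_hBG_T hp2 hpS M hsm hMur)

/-- **(A) local.** -/
theorem s56t_hCL (hp2 : p ≠ 2) (hpS : pPrime p ∈ S)
    (M : Rep.{0} (ZMod p) (AlgebraicClosure ℚ ≃ₐ[ℚ] AlgebraicClosure ℚ))
    [FiniteDimensional (ZMod p) M]
    (hsm : ∀ m : M, ∃ F : IntermediateField ℚ (AlgebraicClosure ℚ), FiniteDimensional ℚ F ∧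
      ∀ s ∈ F.fixingSubgroup, M.ρ s m = m) (q : ↥S) :
    ptd_NondegH2 (s56t_L hp2 hpS q).𝓛 (s56t_L hp2 hpS q).ρ (s56t_L hp2 hpS q).inv
      (pts_LocData.Mq M q).ρ :=
  pts_nondegH2_invZ (fun m => ZModModule.char_nsmul_eq_zero p m) (s56t_hCL_T hp2 hpS M hsm q)

set_option maxHeartbeats 1600000 in
/-- **(LG)**: local–global compatibility (reciprocity) of the `ZMod p`-valued invariant maps on
`J_S[p]`-valued level 2-cocycles. -/
theorem s56t_hLG (hp2 : p ≠ 2) (hpS : pPrime p ∈ S)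
    (y : GQ × GQ → (pta_EMod p hpS).J)
    (hy : ptd_IsLZ2 (pta_levelsS S) (pta_EMod p hpS).ρJ y) (hyp : ∀ x, p • y x = 0) :
    s56t_invG hp2 hpS (fun x => (pta_EMod p hpS).π (y x)) =
      ∑ q : ↥S, (s56t_L hp2 hpS q).inv (fun x =>
        (s56t_L hp2 hpS q).evΩ (y (primeLocalToGlobal q.1 x.1, primeLocalToGlobal q.1 x.2))) := by
  change pts_theta p ((s56t_A hp2 hpS).invG (fun x => (pta_EMod p hpS).π (y x)))
    = ∑ q : ↥S, pts_theta p (ptn_invG (s56t_DL hp2 S q) (ptg_isDiscrete_units (q.1 : ℕ))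
        (fun x => (pta_LocPre p hpS q).evΩ
          (y (primeLocalToGlobal q.1 x.1, primeLocalToGlobal q.1 x.2))))
  rw [s56t_hLG_T hp2 hpS y hy hyp, pts_theta_sum]
  exact fun q _ => pts_inv_tors _ ((pta_LocPre p hpS q).isLZ2p_evΩ hy hyp)

set_option maxHeartbeats 1600000 in
/-- **THE TAIL OF POITOU–TATE** for the frozen objects: for `p` odd, `p ∈ S`, `M` a finite smooth
`𝔽_p[G_ℚ]`-module unramified outside `S`, `M' = M.dualTwist (cycloChar p)`: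
every local `H²(ℚ_v, M)` is finite-dimensional and
`dim im (H²(G_S, M) → ∏_v H²(ℚ_v, M)) + h⁰(G_ℚ, M') = ∑_{q ∈ S} h⁰(ℚ_q, M')`. -/
theorem s56t_tail (hp2 : p ≠ 2) (hpS : pPrime p ∈ S)
    (M : Rep (ZMod p) (AlgebraicClosure ℚ ≃ₐ[ℚ] AlgebraicClosure ℚ))
    [FiniteDimensional (ZMod p) M]
    (hsm : ∀ m : M, ∃ F : IntermediateField ℚ (AlgebraicClosure ℚ), FiniteDimensional ℚ F ∧
      ∀ s ∈ F.fixingSubgroup, M.ρ s m = m)
    (hMur : ∀ q : Nat.Primes, q ∉ S → ∀ A : ValuationSubring (AlgebraicClosure ℚ),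
      A.LiesOverPrime (q : ℕ) → ∀ g ∈ A.inertiaSubgroupIn ℚ, M.ρ g = 1) :
    (∀ v, FiniteDimensional (ZMod p)
      (continuousH2 (extArithLoc S v) (Rep.res (extArithLoc S v) M))) ∧
    finrank (ZMod p) (LinearMap.range (locTotal₂S S M))
        + finrank (ZMod p) (M.dualTwist (cycloChar p)).ρ.invariants
      = ∑ q : ↥S, finrank (ZMod p)
          (Rep.res (extArithLoc S (Sum.inr q)) (M.dualTwist (cycloChar p))).ρ.invariants :=
  s56t_tail_of_producers hp2 S hpS M hsm hMur (pta_EMod p hpS) (s56t_invG hp2 hpS)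
    (s56t_hBG hp2 hpS M hsm hMur) (s56t_L hp2 hpS) (s56t_hCL hp2 hpS M hsm)
    (s56t_hLG hp2 hpS)

end Package

end Fermat.Agent.Lib.S56

end
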