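/-
S56 programme, wall W2: LOCAL ADT-lite (B') for the landed model — the map
`b_q : H⁰(ℚ_q, M') → H²(ℚ_q, M)^∨` is INJECTIVE (hence bijective), and the local count
`h²(ℚ_q, M) = h⁰(ℚ_q, M')` for `q ∈ S`, `M` a finite smooth `𝔽_p[G_ℚ]`-module.
-/
import Mathlib
import Fermat.Agent.Lib.S56.TailLocLev
import Fermat.Agent.Lib.S56.TailModel

set_option autoImplicit false
set_option linter.unusedSectionVars false
set_option linter.unusedVariables false

noncomputable section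

namespace Fermat.Agent.Lib.S56

open IntermediateField ExtCitation groupCohomology Module Fermat.Agent.Lib.PT

local notation "Qbar" => AlgebraicClosure ℚ
local notation "GQ" => (AlgebraicClosure ℚ ≃ₐ[ℚ] AlgebraicClosure ℚ)

variable {p : ℕ} [hp : Fact p.Prime] {S : Finset Nat.Primes}

/-- **local F4(ii), cofinal form**: below every level of `G_q` fixing `μ_p` there is a level over
which left nondegeneracy with trivial coefficients holds. -/
theorem s56t_local_F4ii_cofinal (hp2 : p ≠ 2) (q : Nat.Primes)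
    (D : ptn_LevelData (ptg_levels (q : ℕ)) (ptg_unitsRep (q : ℕ)) p)
    (V₀ : Subgroup (PadicAlgCl (q : ℕ) ≃ₐ[ℚ_[(q : ℕ)]] PadicAlgCl (q : ℕ)))
    (hV₀ : V₀ ∈ (ptg_levels (q : ℕ)).lev) :
    ∃ (V : Subgroup (PadicAlgCl (q : ℕ) ≃ₐ[ℚ_[(q : ℕ)]] PadicAlgCl (q : ℕ)))
      (hV : V ∈ (ptg_levels (q : ℕ)).lev), V ≤ V₀ ∧
      ptd_NondegHom ((ptg_levels (q : ℕ)).sub V ((ptg_levels (q : ℕ)).isOpen_of_mem hV))
        (ptd_resRep (ptg_unitsRep (q : ℕ)) V)
        (ptn_invU D (ptg_isDiscrete_units (q : ℕ)) V ((ptg_levels (q : ℕ)).isOpen_of_mem hV))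
        (Representation.trivial (ZMod p) V (ZMod p)) := by
  obtain ⟨V, hV, hVV₀, hVK, N, hN, hNV, hdvd⟩ := s56t_local_hlev q hp2 V₀ hV₀
  exact ⟨V, hV, hVV₀, ptl_local_F4ii D (ptg_isDiscrete_units (q : ℕ)) V
    ((ptg_levels (q : ℕ)).isOpen_of_mem hV) hVK ⟨N, hN, hNV, hdvd⟩⟩

/-- (B') local for an abstract local big model with level data. -/
theorem s56t_hBL_gen {𝒢 : pts_EMod p S} {q : ↥S} (L : pts_LocPre 𝒢 q)
    (DL : ptn_LevelData L.𝓛 L.ρ p) (hdL : ptd_IsDiscrete L.𝓛 L.ρ)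
    (hF4L' : ∀ (V₀ : Subgroup (primeLocalGaloisGroup q.1)), V₀ ∈ L.𝓛.lev →
      V₀ ≤ pts_cycloKerLoc p q.1 → ∃ (V : Subgroup (primeLocalGaloisGroup q.1))
        (hV : V ∈ L.𝓛.lev), V ≤ V₀ ∧
        ptd_NondegHom (L.𝓛.sub V (L.𝓛.isOpen_of_mem hV)) (ptd_resRep L.ρ V)
          (ptn_invU DL hdL V (L.𝓛.isOpen_of_mem hV))
          (Representation.trivial (ZMod p) V (ZMod p)))
    (M : Rep.{0} (ZMod p) (AlgebraicClosure ℚ ≃ₐ[ℚ] AlgebraicClosure ℚ))
    [FiniteDimensional (ZMod p) M]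
    (hsm : ∀ m : M, ∃ F : IntermediateField ℚ (AlgebraicClosure ℚ), FiniteDimensional ℚ F ∧
      ∀ s ∈ F.fixingSubgroup, M.ρ s m = m) :
    ptd_NondegHom L.𝓛 L.ρ (ptn_invG DL hdL) (pts_LocData.Mq M q).ρ :=
  pts_nondegHom_of_invSystem_cofinal (ptn_invG DL hdL) (fun U hU => ptn_invU DL hdL U hU)
    (fun U hU _ y hy => ptn_hcor DL hdL U hU y hy) (pts_cycloKerLoc p q.1) L.isOpen_K
    (pts_LocData.Mq M q).ρ hF4L' (L.isTrivOnLevel M hsm)

/-- **(B') local, `ℚ/ℤ_(p)`-valued.** -/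
theorem s56t_hBL_T (hp2 : p ≠ 2) (hpS : pPrime p ∈ S)
    (M : Rep.{0} (ZMod p) (AlgebraicClosure ℚ ≃ₐ[ℚ] AlgebraicClosure ℚ))
    [FiniteDimensional (ZMod p) M]
    (hsm : ∀ m : M, ∃ F : IntermediateField ℚ (AlgebraicClosure ℚ), FiniteDimensional ℚ F ∧
      ∀ s ∈ F.fixingSubgroup, M.ρ s m = m) (q : ↥S) :
    ptd_NondegHom (pta_LocPre p hpS q).𝓛 (pta_LocPre p hpS q).ρ
      (ptn_invG (s56t_DL hp2 S q) (ptg_isDiscrete_units (q.1 : ℕ)))
      (pts_LocData.Mq M q).ρ :=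
  s56t_hBL_gen (pta_LocPre p hpS q) (s56t_DL hp2 S q) (ptg_isDiscrete_units (q.1 : ℕ))
    (fun V₀ hV₀ _ => s56t_local_F4ii_cofinal hp2 q.1 (s56t_DL hp2 S q) V₀ hV₀) M hsm

/-- **(B') local.** -/
theorem s56t_hBL (hp2 : p ≠ 2) (hpS : pPrime p ∈ S)
    (M : Rep.{0} (ZMod p) (AlgebraicClosure ℚ ≃ₐ[ℚ] AlgebraicClosure ℚ))
    [FiniteDimensional (ZMod p) M]
    (hsm : ∀ m : M, ∃ F : IntermediateField ℚ (AlgebraicClosure ℚ), FiniteDimensional ℚ F ∧
      ∀ s ∈ F.fixingSubgroup, M.ρ s m = m) (q : ↥S) :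
    ptd_NondegHom (s56t_L hp2 hpS q).𝓛 (s56t_L hp2 hpS q).ρ (s56t_L hp2 hpS q).inv
      (pts_LocData.Mq M q).ρ :=
  pts_nondegHom_invZ (fun m => ZModModule.char_nsmul_eq_zero p m) (s56t_hBL_T hp2 hpS M hsm q)


/-! ### `b_q` is bijective; the local count -/

/-- (C'): `b_q` is injective, from the local `ptd_NondegHom`. -/
theorem s56t_bMap_injective {𝒢 : pts_EMod p S} {q : ↥S} (L : pts_LocData 𝒢 q)
    {M : Rep.{0} (ZMod p) GQ}
    (hB : ptd_NondegHom L.𝓛 L.ρ L.inv (pts_LocData.Mq M q).ρ) :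
    Function.Injective (L.bMap (M := M)) := by
  rw [← LinearMap.ker_eq_bot, LinearMap.ker_eq_bot']
  intro φ hφ
  have hf := hB (L.ζloc.comp (φ.1 : Module.Dual (ZMod p) M.V).toAddMonoidHom)
    (L.isEquivariant_ζloc_comp φ.2) (fun z hz => by
      have h1 := LinearMap.congr_fun hφ
        (continuousH2π (primeLocalToGlobal q.1) (pts_LocData.Mq M q)
          ⟨z, (L.isLZ2_iff (pts_LocData.Mq M q) _).1 hz⟩)
      rw [pts_LocData.bMap_mk] at h1
      exact h1)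
  apply Subtype.ext
  refine LinearMap.ext fun m => ?_
  have h2 : L.ζloc ((φ.1 : Module.Dual (ZMod p) M.V) m) = 0 := DFunLike.congr_fun hf m
  apply L.ζloc_inj
  rw [h2]
  exact (map_zero L.ζloc).symm

/-- the local count from bijectivity of `b_q`. -/
theorem s56t_finrank_H2_of_bMap {𝒢 : pts_EMod p S} {q : ↥S} (L : pts_LocData 𝒢 q)
    {M : Rep.{0} (ZMod p) GQ} [FiniteDimensional (ZMod p) M.V]
    (hC : ptd_NondegH2 L.𝓛 L.ρ L.inv (pts_LocData.Mq M q).ρ)
    (hB : ptd_NondegHom L.𝓛 L.ρ L.inv (pts_LocData.Mq M q).ρ) :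
    finrank (ZMod p) (continuousH2 (primeLocalToGlobal q.1) (pts_LocData.Mq M q))
      = finrank (ZMod p) ↥(pts_EMod.P0 S M (Sum.inr q : extArithIndex S)) := by
  have hfd : FiniteDimensional (ZMod p) (M.dualTwist (cycloChar p)).V :=
    inferInstanceAs (FiniteDimensional (ZMod p) (Module.Dual (ZMod p) M.V))
  have hsurj := L.bMap_surjective (M := M) hC
  have hinj := s56t_bMap_injective L hB
  have hQ : FiniteDimensional (ZMod p)
      (continuousH2 (primeLocalToGlobal q.1) (pts_LocData.Mq M q)) :=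
    s56t_finite_of_surjective_dual (L.bMap (M := M)) hsurj
  have e := LinearEquiv.ofBijective (L.bMap (M := M)) ⟨hinj, hsurj⟩
  rw [e.finrank_eq, Subspace.dual_finrank_eq]

attribute [local instance] pts_instGroupInr pts_instGroupInl

/-- **LOCAL (0,2)-DUALITY COUNT** for the frozen objects: `h²(ℚ_q, M) = h⁰(ℚ_q, M')`, `q ∈ S`. -/
theorem s56t_finrank_H2_local (hp2 : p ≠ 2) (hpS : pPrime p ∈ S)
    (M : Rep (ZMod p) (AlgebraicClosure ℚ ≃ₐ[ℚ] AlgebraicClosure ℚ))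
    [FiniteDimensional (ZMod p) M]
    (hsm : ∀ m : M, ∃ F : IntermediateField ℚ (AlgebraicClosure ℚ), FiniteDimensional ℚ F ∧
      ∀ s ∈ F.fixingSubgroup, M.ρ s m = m) (q : ↥S) :
    finrank (ZMod p) (continuousH2 (primeLocalToGlobal q.1) (Rep.res (primeLocalToGlobal q.1) M))
      = finrank (ZMod p)
          (Rep.res (primeLocalToGlobal q.1) (M.dualTwist (cycloChar p))).ρ.invariants :=
  s56t_finrank_H2_of_bMap (s56t_L hp2 hpS q) (s56t_hCL hp2 hpS M hsm q)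
    (s56t_hBL hp2 hpS M hsm q)


/-- rank–nullity for maps into a product, stated for arbitrary instances -/
lemma s56t_rank_nullity {k V : Type*} [Field k] [AddCommGroup V] [Module k V]
    {ι : Type*} {Q : ι → Type*} [∀ v, AddCommGroup (Q v)] [∀ v, Module k (Q v)]
    [FiniteDimensional k V] (f : V →ₗ[k] ∀ v, Q v) :
    finrank k (LinearMap.range f) + finrank k (LinearMap.ker f) = finrank k V :=
  LinearMap.finrank_range_add_finrank_ker f

set_option maxHeartbeats 800000 in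
/-- **THE TAIL CONTRACT** (the shape of helper4's `s56b_Tail S M (M.dualTwist (cycloChar p))`):
`h²(G_S, M) + h⁰(G_ℚ, M') = dim Ш²(M) + ∑_{q ∈ S} h²(ℚ_q, M)`, as soon as `H²(G_S, M)` is
finite-dimensional. -/
theorem s56t_tail_contract (hp2 : p ≠ 2) (hpS : pPrime p ∈ S)
    (M : Rep (ZMod p) (AlgebraicClosure ℚ ≃ₐ[ℚ] AlgebraicClosure ℚ))
    [FiniteDimensional (ZMod p) M]
    (hsm : ∀ m : M, ∃ F : IntermediateField ℚ (AlgebraicClosure ℚ), FiniteDimensional ℚ F ∧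
      ∀ s ∈ F.fixingSubgroup, M.ρ s m = m)
    (hMur : ∀ q : Nat.Primes, q ∉ S → ∀ A : ValuationSubring (AlgebraicClosure ℚ),
      A.LiesOverPrime (q : ℕ) → ∀ g ∈ A.inertiaSubgroupIn ℚ, M.ρ g = 1)
    [FiniteDimensional (ZMod p) (continuousH2S S M)] :
    finrank (ZMod p) (continuousH2S S M)
        + finrank (ZMod p) (M.dualTwist (cycloChar p)).ρ.invariants
      = finrank (ZMod p) (sha₂ S M)
        + ∑ q : ↥S, finrank (ZMod p)
            (continuousH2 (primeLocalToGlobal q.1) (Rep.res (primeLocalToGlobal q.1) M)) := by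
  have h1 := (s56t_tail hp2 hpS M hsm hMur).2
  have h2 := s56t_rank_nullity (k := ZMod p) (V := continuousH2S S M) (ι := extArithIndex S)
    (Q := fun v => continuousH2 (extArithLoc S v) (Rep.res (extArithLoc S v) M))
    (locTotal₂S S M)
  have h3 : ∀ q : ↥S, finrank (ZMod p)
      (Rep.res (extArithLoc S (Sum.inr q)) (M.dualTwist (cycloChar p))).ρ.invariants
      = finrank (ZMod p)
          (continuousH2 (primeLocalToGlobal q.1) (Rep.res (primeLocalToGlobal q.1) M)) :=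
    fun q => (s56t_finrank_H2_local hp2 hpS M hsm q).symm
  rw [Finset.sum_congr rfl (fun q _ => h3 q)] at h1
  have h4 : finrank (ZMod p) (sha₂ S M) = finrank (ZMod p) (LinearMap.ker (locTotal₂S S M)) := rfl
  rw [h4, ← h1, ← h2]
  ring

end Fermat.Agent.Lib.S56

end
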