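/-
S56, PROGRAMME W, wall [W3] (helper3, prefix `s56c_`): the LOCAL FORMATION at a prime `q ∈ S` of
the landed S55 model (`s56t_L hp2 hpS q`, helper9's export) is an abstract local formation
(`s56c_Formation`): `(0,2)`-duality, both sides, for EVERY finite `𝔽_p[G_q]`-module trivial on a
level (not only restrictions of global modules).  Consequently the `(1,1)`-pairing of
`CDual11.lean` is nondegenerate on both sides for every local Tate pair.
-/
import Mathlib
import Fermat.Agent.Lib.S56.CDual11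
import Fermat.Agent.Lib.S56.TailLocHom

set_option autoImplicit false
set_option linter.unusedSectionVars false

noncomputable section

namespace Fermat.Agent.Lib.S56

open IntermediateField ExtCitation groupCohomology Module Fermat.Agent.Lib.PT

variable {p : ℕ} [hp : Fact p.Prime] {S : Finset Nat.Primes}

/-- (A) local for an abstract local big model with level data, every finite level-trivial module -/
theorem s56c_hCL_gen {𝒢 : pts_EMod p S} {q : ↥S} (L : pts_LocPre 𝒢 q)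
    (DL : ptn_LevelData L.𝓛 L.ρ p) (hdL : ptd_IsDiscrete L.𝓛 L.ρ)
    (hF3L : ∀ (U : Subgroup (primeLocalGaloisGroup q.1)) (hU : L.𝓛.IsOpen U),
      U ≤ pts_cycloKerLoc p q.1 → ptd_F3 (L.𝓛.sub U hU) (ptd_resRep L.ρ U)
        (ptn_invU DL hdL U hU))
    (hF4L : ∀ (U : Subgroup (primeLocalGaloisGroup q.1)) (hU : L.𝓛.IsOpen U),
      U ≤ pts_cycloKerLoc p q.1 → ptd_NondegH2 (L.𝓛.sub U hU) (ptd_resRep L.ρ U)
        (ptn_invU DL hdL U hU) (Representation.trivial (ZMod p) U (ZMod p)))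
    (X : Type) [AddCommGroup X] [Module (ZMod p) X] [Module.Finite (ZMod p) X]
    (ρX : Representation (ZMod p) (primeLocalGaloisGroup q.1) X)
    (hX : ptd_IsTrivOnLevel L.𝓛 ρX) :
    ptd_NondegH2 L.𝓛 L.ρ (ptn_invG DL hdL) ρX :=
  pts_nondegH2_of_levelData DL hdL (pts_cycloKerLoc p q.1) L.isOpen_K
    (pts_not_dvd_index_cycloKerLoc q.1) ρX hF3L hF4L hX

/-- (B') local for an abstract local big model with level data, every level-trivial module -/
theorem s56c_hBL_gen {𝒢 : pts_EMod p S} {q : ↥S} (L : pts_LocPre 𝒢 q)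
    (DL : ptn_LevelData L.𝓛 L.ρ p) (hdL : ptd_IsDiscrete L.𝓛 L.ρ)
    (hF4L' : ∀ (V₀ : Subgroup (primeLocalGaloisGroup q.1)), V₀ ∈ L.𝓛.lev →
      V₀ ≤ pts_cycloKerLoc p q.1 → ∃ (V : Subgroup (primeLocalGaloisGroup q.1))
        (hV : V ∈ L.𝓛.lev), V ≤ V₀ ∧
        ptd_NondegHom (L.𝓛.sub V (L.𝓛.isOpen_of_mem hV)) (ptd_resRep L.ρ V)
          (ptn_invU DL hdL V (L.𝓛.isOpen_of_mem hV))
          (Representation.trivial (ZMod p) V (ZMod p)))
    (X : Type) [AddCommGroup X] [Module (ZMod p) X]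
    (ρX : Representation (ZMod p) (primeLocalGaloisGroup q.1) X)
    (hX : ptd_IsTrivOnLevel L.𝓛 ρX) :
    ptd_NondegHom L.𝓛 L.ρ (ptn_invG DL hdL) ρX :=
  pts_nondegHom_of_invSystem_cofinal (ptn_invG DL hdL) (fun U hU => ptn_invU DL hdL U hU)
    (fun U hU _ y hy => ptn_hcor DL hdL U hU y hy) (pts_cycloKerLoc p q.1) L.isOpen_K
    ρX hF4L' hX

/-- local (A) for every finite module trivial on a level -/
theorem s56c_local_nondegH2 (hp2 : p ≠ 2) (hpS : pPrime p ∈ S) (q : ↥S)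
    (X : Type) [AddCommGroup X] [Module (ZMod p) X] [Module.Finite (ZMod p) X]
    (ρX : Representation (ZMod p) (primeLocalGaloisGroup q.1) X)
    (hX : ptd_IsTrivOnLevel (s56t_L hp2 hpS q).𝓛 ρX) :
    ptd_NondegH2 (s56t_L hp2 hpS q).𝓛 (s56t_L hp2 hpS q).ρ (s56t_L hp2 hpS q).inv ρX :=
  pts_nondegH2_invZ (fun m => ZModModule.char_nsmul_eq_zero p m)
    (s56c_hCL_gen (pta_LocPre p hpS q) (s56t_DL hp2 S q) (ptg_isDiscrete_units (q.1 : ℕ))
      (fun U hU hUK => ptl_local_F3 (s56t_DL hp2 S q) (ptg_isDiscrete_units (q.1 : ℕ)) U hU hUK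
        (fun χ hχ hlev _ τ hτ => ptg_hnormidx (q.1 : ℕ) p hU χ hχ hlev τ hτ))
      (fun U hU hUK => ptl_local_F4i (s56t_DL hp2 S q) (ptg_isDiscrete_units (q.1 : ℕ)) U hU hUK)
      X ρX hX)

/-- local (B') for every module trivial on a level -/
theorem s56c_local_nondegHom (hp2 : p ≠ 2) (hpS : pPrime p ∈ S) (q : ↥S)
    (X : Type) [AddCommGroup X] [Module (ZMod p) X]
    (ρX : Representation (ZMod p) (primeLocalGaloisGroup q.1) X)
    (hX : ptd_IsTrivOnLevel (s56t_L hp2 hpS q).𝓛 ρX) :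
    ptd_NondegHom (s56t_L hp2 hpS q).𝓛 (s56t_L hp2 hpS q).ρ (s56t_L hp2 hpS q).inv ρX :=
  pts_nondegHom_invZ (fun m => ZModModule.char_nsmul_eq_zero p m)
    (s56c_hBL_gen (pta_LocPre p hpS q) (s56t_DL hp2 S q) (ptg_isDiscrete_units (q.1 : ℕ))
      (fun V₀ hV₀ _ => s56t_local_F4ii_cofinal hp2 q.1 (s56t_DL hp2 S q) V₀ hV₀) X ρX hX)

/-- **the local formation at `q ∈ S`** -/
theorem s56c_formation_local (hp2 : p ≠ 2) (hpS : pPrime p ∈ S) (q : ↥S) :
    s56c_Formation (s56t_L hp2 hpS q).inv (s56t_L hp2 hpS q).ζloc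
      ((cycloChar p).comp (primeLocalToGlobal q.1)) where
  ζ_inj := (s56t_L hp2 hpS q).ζloc_inj
  ζ_tors := (s56t_L hp2 hpS q).tors
  ζ_eqv := fun τ c => (s56t_L hp2 hpS q).ρ_ζloc τ c
  nondegH2 := fun X _ _ _ ρX hX => s56c_local_nondegH2 hp2 hpS q X ρX hX
  nondegHom := fun X _ _ _ ρX hX => s56c_local_nondegHom hp2 hpS q X ρX hX

end Fermat.Agent.Lib.S56
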