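/-
S56 (Taylor–Wiles primes), PROGRAMME W, wall [W3] (helper3, prefix `s56c_`):
STATEMENT-ONLY INTERFACE for LOCAL TATE DUALITY, the LOCAL EULER CHARACTERISTIC and the
UNRAMIFIED ANNIHILATOR, in the Prelude vocabulary (`continuousH1`, `continuousH2` of the local
group `primeLocalGaloisGroup q` with respect to `primeLocalToGlobal q`).

Conventions.
* `k` a finite field of characteristic `p` (an `Algebra (ZMod p) k`), `q : Nat.Primes` a place,
  `G_q = primeLocalGaloisGroup q`, `r_q = primeLocalToGlobal q`, `χ_q = s56c_locChar p k q` the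
  mod `p` cyclotomic character of `G_q` with values in `kˣ`.
* Coefficients: a *Tate pair* `(A, A', β)`: two finite-dimensional smooth `k[G_q]`-modules with a
  perfect pairing `β : A × A' → k(χ_q)`, `β (g a) (g a') = χ_q g * β a a'`
  (`s56c_IsTatePairing`).  Both `(Rep.res r_q M, Rep.res r_q (M.dualTwist χ))` (global `M`) and
  `(A, A.dualTwist χ_q)` are Tate pairs for the evaluation pairing; the roles are symmetric
  (`β.flip`).
* The invariant map is a PARAMETER: any injective `k`-linear `ι : H²(G_q, k(χ_q)) → k`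
  (`H²(G_q, k(χ_q))` is one-dimensional, so two choices differ by a unit and all statements below
  are independent of the choice).  The consumer of global reciprocity ([W2]) picks the `ι_q`
  coming from the local invariant maps of the S55 library (`pts_LocData.inv`).
* Cup products on cochains: `s56c_cup₁₁ β x y (g, h) = β (x g) (g • y h)` (degree `(1,1)`),
  `β a ∘ z` (degree `(0,2)`, `a` invariant).

The statements (all `def … : Prop`, to be proved in `Lib/S56/W3*.lean`):
* `s56c_Duality02`  : `H⁰(G_q, A) × H²(G_q, A') → k` is perfect;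
* `s56c_Duality11`  : `H¹(G_q, A) × H¹(G_q, A') → k` is perfect (bilinear map `B` with the cup
  product formula on representatives);
* `s56c_Finiteness` : `H¹`, `H²` are finite-dimensional;
* `s56c_EulerChar`  : `h¹ = h⁰ + h² + [q = p] · dim A`;
* `s56c_LocalTerm`  : `h¹(A) = h⁰(A) + h⁰(A') + [q = p] · dim A` (the form used in Greenberg–Wiles);
* `s56c_UnramifiedAnnihilator` (`q ≠ p`): `H¹_ur(A)^⊥ = H¹_ur(A')`, `dim H¹_ur(A) = h⁰(A)`.
-/
import Mathlib
import Fermat.Prelude.Def_GroupCohomology_ContinuousUnramified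
import Fermat.Prelude.Def_DualSelmer_ExtConditions

set_option autoImplicit false

namespace Fermat.Agent.Lib.S56

open CategoryTheory groupCohomology ExtCitation Module

local notation "Qbar" => AlgebraicClosure ℚ
local notation "GQ" => (AlgebraicClosure ℚ ≃ₐ[ℚ] AlgebraicClosure ℚ)

/-! ### Generalities over a group with a map to `G_ℚ` -/

section General

variable {k G : Type} [Field k] [Group G] (r : G →* GQ) (χ : G →* kˣ)

/-- every vector of `A` is fixed by a level subgroup of `G` (discrete action) -/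
def s56c_IsSmooth (A : Rep.{0} k G) : Prop :=
  ∀ a : A, ∃ F : IntermediateField ℚ Qbar, FiniteDimensional ℚ F ∧
    ∀ s : G, r s ∈ F.fixingSubgroup → A.ρ s a = a

/-- `β : A × A' → k(χ)` is a perfect `G`-equivariant pairing -/
structure s56c_IsTatePairing (A A' : Rep.{0} k G) (β : A →ₗ[k] A' →ₗ[k] k) : Prop where
  equivariant : ∀ (g : G) (a : A) (a' : A'), β (A.ρ g a) (A'.ρ g a') = (χ g : k) * β a a'
  nondeg_left : ∀ a : A, (∀ a' : A', β a a' = 0) → a = 0
  nondeg_right : ∀ a' : A', (∀ a : A, β a a' = 0) → a' = 0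

/-- the evaluation pairing `A × A.dualTwist χ → k(χ)` -/
def s56c_evalPairing (A : Rep.{0} k G) : A →ₗ[k] (A.dualTwist χ) →ₗ[k] k :=
  (LinearMap.id : Module.Dual k A →ₗ[k] Module.Dual k A).flip

lemma s56c_evalPairing_apply (A : Rep.{0} k G) (a : A) (f : A.dualTwist χ) :
    s56c_evalPairing χ A a f = (f : Module.Dual k A) a := rfl

/-- The evaluation pairing between the restrictions of a global `M` and of its twisted dual is a
Tate pairing for the restricted character (this is how the consumers instantiate the package). -/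
lemma s56c_isTatePairing_res {Γ : Type} [Group Γ] (f : G →* Γ) (ψ : Γ →* kˣ) (M : Rep.{0} k Γ) :
    s56c_IsTatePairing (ψ.comp f) (Rep.res f M) (Rep.res f (M.dualTwist ψ))
      (s56c_evalPairing ψ M) where
  equivariant g a a' := by
    change ((M.dualTwist ψ).ρ (f g) a') (M.ρ (f g) a) = (ψ (f g) : k) * a' a
    rw [Rep.dualTwist_ρ_apply]
    change (ψ (f g) : k) • (a' (M.ρ (f g)⁻¹ (M.ρ (f g) a))) = _
    rw [← Module.End.mul_apply, ← map_mul, inv_mul_cancel, map_one, Module.End.one_apply,
      smul_eq_mul]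
  nondeg_left a h := (Module.forall_dual_apply_eq_zero_iff k a).mp h
  nondeg_right a' h := LinearMap.ext h

/-- the cup product of two `1`-cochains, `(x ∪ y)(g, h) = β (x g) (g • y h)` -/
def s56c_cup₁₁ {A A' : Rep.{0} k G} (β : A →ₗ[k] A' →ₗ[k] k) (x : G → A) (y : G → A') :
    G × G → (ofChar χ : Rep k G) :=
  fun gh => β (x gh.1) (A'.ρ gh.1 (y gh.2))

/-- the cup product of an element of `A` with a `2`-cochain of `A'`, `(a ∪ z)(g, h) = β a (z (g, h))` -/
def s56c_cup₀₂ {A A' : Rep.{0} k G} (β : A →ₗ[k] A' →ₗ[k] k) (a : A) (z : G × G → A') :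
    G × G → (ofChar χ : Rep k G) :=
  fun gh => β a (z gh)

end General

/-! ### The local situation -/

section Local

variable (p : ℕ) [Fact p.Prime] (k : Type) [Field k] [Algebra (ZMod p) k]

/-- the mod `p` cyclotomic character of `G_ℚ` with values in `kˣ` -/
noncomputable def s56c_cyclo : GQ →* kˣ :=
  (Units.map ((algebraMap (ZMod p) k : ZMod p →+* k) : ZMod p →* k)).comp (cycloChar p)

variable (q : Nat.Primes)

/-- the mod `p` cyclotomic character of `G_q` with values in `kˣ` -/
noncomputable def s56c_locChar : primeLocalGaloisGroup q →* kˣ :=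
  (s56c_cyclo p k).comp (primeLocalToGlobal q)

/-- the inertia subgroup of `G_q` (pulled back from the inertia group of the base place) -/
noncomputable def s56c_inertia : Subgroup (primeLocalGaloisGroup q) :=
  ((primeLocalPlace q).inertiaSubgroupIn ℚ).comap (primeLocalToGlobal q)

variable {k}

/-- the unramified classes: represented by a level cocycle vanishing on inertia -/
def s56c_unramifiedH1 (A : Rep.{0} k (primeLocalGaloisGroup q)) : Submodule k (H1 A) where
  carrier := {x | ∃ c : cocycles₁ A, IsLevelConstant₁ (primeLocalToGlobal q) c ∧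
    (∀ i ∈ s56c_inertia q, c.val i = 0) ∧ (H1π A).hom c = x}
  add_mem' := by
    rintro _ _ ⟨c, hc, hc0, rfl⟩ ⟨c', hc', hc0', rfl⟩
    refine ⟨c + c', hc.add hc', fun i hi => ?_, map_add _ _ _⟩
    show c.val i + c'.val i = 0
    rw [hc0 i hi, hc0' i hi, add_zero]
  zero_mem' := ⟨0, isLevelConstant₁_const _ (0 : A), fun _ _ => rfl, map_zero _⟩
  smul_mem' := by
    rintro a _ ⟨c, hc, hc0, rfl⟩
    refine ⟨a • c, hc.comp (a • ·), fun i hi => ?_, map_smul _ _ _⟩
    show a • c.val i = 0
    rw [hc0 i hi, smul_zero]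

lemma s56c_unramifiedH1_le (A : Rep.{0} k (primeLocalGaloisGroup q)) :
    s56c_unramifiedH1 q A ≤ continuousH1 (primeLocalToGlobal q) A := by
  rintro _ ⟨c, hc, -, rfl⟩
  exact H1π_mem_continuousH1 _ A hc

/-- Hypotheses on a coefficient pair: finite-dimensional, smooth, perfectly paired into `k(χ_q)`. -/
structure s56c_IsLocalTatePair (A A' : Rep.{0} k (primeLocalGaloisGroup q))
    (β : A →ₗ[k] A' →ₗ[k] k) : Prop where
  finite : FiniteDimensional k A
  smooth : s56c_IsSmooth (primeLocalToGlobal q) A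
  smooth' : s56c_IsSmooth (primeLocalToGlobal q) A'
  pairing : s56c_IsTatePairing (s56c_locChar p k q) A A' β

/-- **Local duality in degrees `(0,2)`**: `H⁰(G_q, A) × H²(G_q, A') → H²(G_q, k(χ_q)) → k` is
perfect (both one-sided nondegeneracies, on cochains; `a ∪ z` is always a level cocycle, the
membership hypothesis `hz` is only there to form its class). -/
def s56c_Duality02 : Prop :=
  ∀ (A A' : Rep.{0} k (primeLocalGaloisGroup q)) (β : A →ₗ[k] A' →ₗ[k] k),
    s56c_IsLocalTatePair p q A A' β →
  ∀ ι : continuousH2 (primeLocalToGlobal q) (ofChar (s56c_locChar p k q)) →ₗ[k] k,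
    Function.Injective ι →
    (∀ a ∈ A.ρ.invariants,
      (∀ z ∈ levelCocycles₂ (primeLocalToGlobal q) A',
        ∀ hz : s56c_cup₀₂ (s56c_locChar p k q) β a z
            ∈ levelCocycles₂ (primeLocalToGlobal q) (ofChar (s56c_locChar p k q)),
          ι (continuousH2π (primeLocalToGlobal q) (ofChar (s56c_locChar p k q)) ⟨_, hz⟩) = 0) →
      a = 0) ∧
    (∀ z ∈ levelCocycles₂ (primeLocalToGlobal q) A',
      (∀ a ∈ A.ρ.invariants,
        ∀ hz : s56c_cup₀₂ (s56c_locChar p k q) β a z
            ∈ levelCocycles₂ (primeLocalToGlobal q) (ofChar (s56c_locChar p k q)),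
          ι (continuousH2π (primeLocalToGlobal q) (ofChar (s56c_locChar p k q)) ⟨_, hz⟩) = 0) →
      z ∈ levelCoboundaries₂ (primeLocalToGlobal q) A')

/-- `B` is the cup-product pairing `H¹(G_q, A) × H¹(G_q, A') → H²(G_q, k(χ_q)) → k` attached to
`β` and `ι` (formula on level cocycle representatives; `x ∪ y` is always a level cocycle). -/
def s56c_IsCupPairing {A A' : Rep.{0} k (primeLocalGaloisGroup q)} (β : A →ₗ[k] A' →ₗ[k] k)
    (ι : continuousH2 (primeLocalToGlobal q) (ofChar (s56c_locChar p k q)) →ₗ[k] k)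
    (B : ↥(continuousH1 (primeLocalToGlobal q) A) →ₗ[k]
      ↥(continuousH1 (primeLocalToGlobal q) A') →ₗ[k] k) : Prop :=
  ∀ (x : cocycles₁ A) (y : cocycles₁ A')
    (hx : IsLevelConstant₁ (primeLocalToGlobal q) x)
    (hy : IsLevelConstant₁ (primeLocalToGlobal q) y)
    (hz : s56c_cup₁₁ (s56c_locChar p k q) β x y
      ∈ levelCocycles₂ (primeLocalToGlobal q) (ofChar (s56c_locChar p k q))),
    B ⟨(H1π A).hom x, H1π_mem_continuousH1 _ A hx⟩ ⟨(H1π A').hom y, H1π_mem_continuousH1 _ A' hy⟩
      = ι (continuousH2π (primeLocalToGlobal q) (ofChar (s56c_locChar p k q)) ⟨_, hz⟩)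

/-- **Local duality in degrees `(1,1)`**: the cup-product pairing exists and is perfect. -/
def s56c_Duality11 : Prop :=
  ∀ (A A' : Rep.{0} k (primeLocalGaloisGroup q)) (β : A →ₗ[k] A' →ₗ[k] k),
    s56c_IsLocalTatePair p q A A' β →
  ∀ ι : continuousH2 (primeLocalToGlobal q) (ofChar (s56c_locChar p k q)) →ₗ[k] k,
    Function.Injective ι →
    ∃ B : ↥(continuousH1 (primeLocalToGlobal q) A) →ₗ[k]
        ↥(continuousH1 (primeLocalToGlobal q) A') →ₗ[k] k,
      s56c_IsCupPairing p q β ι B ∧
      (∀ x, (∀ y, B x y = 0) → x = 0) ∧ (∀ y, (∀ x, B x y = 0) → y = 0)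

/-- **Finiteness** of `H¹` and `H²` of a finite smooth module. -/
def s56c_Finiteness : Prop :=
  ∀ (A : Rep.{0} k (primeLocalGaloisGroup q)), FiniteDimensional k A →
    s56c_IsSmooth (primeLocalToGlobal q) A →
    FiniteDimensional k ↥(continuousH1 (primeLocalToGlobal q) A) ∧
      FiniteDimensional k (continuousH2 (primeLocalToGlobal q) A)

/-- **Local Euler characteristic**: `h¹ = h⁰ + h² + [q = p] · dim A`. -/
def s56c_EulerChar : Prop :=
  ∀ (A : Rep.{0} k (primeLocalGaloisGroup q)), FiniteDimensional k A →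
    s56c_IsSmooth (primeLocalToGlobal q) A →
    finrank k ↥(continuousH1 (primeLocalToGlobal q) A)
      = finrank k ↥A.ρ.invariants + finrank k (continuousH2 (primeLocalToGlobal q) A)
        + (if (q : ℕ) = p then finrank k A else 0)

/-- **The local term of Greenberg–Wiles**: `h¹(A) = h⁰(A) + h⁰(A') + [q = p] · dim A`
(Euler characteristic + `(0,2)`-duality). -/
def s56c_LocalTerm : Prop :=
  ∀ (A A' : Rep.{0} k (primeLocalGaloisGroup q)) (β : A →ₗ[k] A' →ₗ[k] k),
    s56c_IsLocalTatePair p q A A' β →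
    finrank k ↥(continuousH1 (primeLocalToGlobal q) A)
      = finrank k ↥A.ρ.invariants + finrank k ↥A'.ρ.invariants
        + (if (q : ℕ) = p then finrank k A else 0)

/-- **Unramified classes are exact annihilators** (`q ≠ p`), and `dim H¹_ur(A) = h⁰(A)`. -/
def s56c_UnramifiedAnnihilator : Prop :=
  (q : ℕ) ≠ p →
  ∀ (A A' : Rep.{0} k (primeLocalGaloisGroup q)) (β : A →ₗ[k] A' →ₗ[k] k),
    s56c_IsLocalTatePair p q A A' β →
  ∀ ι : continuousH2 (primeLocalToGlobal q) (ofChar (s56c_locChar p k q)) →ₗ[k] k,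
    Function.Injective ι →
  ∀ B : ↥(continuousH1 (primeLocalToGlobal q) A) →ₗ[k]
      ↥(continuousH1 (primeLocalToGlobal q) A') →ₗ[k] k,
    s56c_IsCupPairing p q β ι B →
    (∀ y : ↥(continuousH1 (primeLocalToGlobal q) A'),
      (∀ x : ↥(continuousH1 (primeLocalToGlobal q) A),
        (x : H1 A) ∈ s56c_unramifiedH1 q A → B x y = 0) ↔
      (y : H1 A') ∈ s56c_unramifiedH1 q A') ∧
    finrank k ↥(s56c_unramifiedH1 q A) = finrank k ↥A.ρ.invariants

/-- an invariant map exists: `H²(G_q, k(χ_q))` is one-dimensional -/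
def s56c_ExistsInv : Prop :=
  ∃ ι : continuousH2 (primeLocalToGlobal q) (ofChar (s56c_locChar p k q)) →ₗ[k] k,
    Function.Injective ι ∧ Function.Surjective ι

/-- **The whole wall [W3] at the place `q`.** -/
structure s56c_LocalTatePackage : Prop where
  duality02 : s56c_Duality02 (k := k) p q
  duality11 : s56c_Duality11 (k := k) p q
  finiteness : s56c_Finiteness (k := k) q
  eulerChar : s56c_EulerChar (k := k) p q
  localTerm : s56c_LocalTerm (k := k) p q
  unramified : s56c_UnramifiedAnnihilator (k := k) p q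
  existsInv : s56c_ExistsInv (k := k) p q

end Local

/-- **TARGET of [W3]**: for every odd prime `p`, finite field `k` of characteristic `p` and every
prime `q`, the local Tate package holds. -/
def s56c_Target : Prop :=
  ∀ (p : ℕ) [Fact p.Prime], p ≠ 2 → ∀ (k : Type) [Field k] [Finite k] [Algebra (ZMod p) k] (q : Nat.Primes),
    s56c_LocalTatePackage (k := k) p q

end Fermat.Agent.Lib.S56
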