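/-
S56, PROGRAMME W, wall [W3] (helper3, prefix `s56c_`): LOCAL TATE DUALITY IN DEGREES `(1,1)` IN
THE PRELUDE'S VOCABULARY, coefficients `ZMod p`, at a prime `q ∈ S` of the landed S55 model.

* dictionary `ptd_IsLZ1 / ptd_IsB1` ↔ `cocycles₁ / IsLevelConstant₁ / coboundaries₁`;
* `s56c_invL L : H²(G_q, 𝔽_p(χ)) → 𝔽_p`, `[z] ↦ inv_q (ζ_q ∘ z)`, injective; every linear functional
  on `H²(G_q, 𝔽_p(χ))` is a multiple of it;
* the cup-product pairing `B : H¹(G_q, A) × H¹(G_q, A') → 𝔽_p` (`continuousH1`), for any invariant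
  map `ι`, with the formula on representatives, nondegenerate on both sides
  (`s56c_duality11`).
-/
import Mathlib
import Fermat.Agent.Lib.S56.CLocal
import Fermat.Agent.Lib.S56.IfaceW3

set_option autoImplicit false
set_option linter.unusedSectionVars false

noncomputable section

namespace Fermat.Agent.Lib.S56

open CategoryTheory IntermediateField ExtCitation groupCohomology Module Fermat.Agent.Lib.PT

local notation "Qbar" => AlgebraicClosure ℚ
local notation "GQ" => (AlgebraicClosure ℚ ≃ₐ[ℚ] AlgebraicClosure ℚ)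

section Descend

variable {k : Type*} [Field k] {V V' W W' : Type*}
variable [AddCommGroup V] [Module k V] [AddCommGroup V'] [Module k V']
variable [AddCommGroup W] [Module k W] [AddCommGroup W'] [Module k W']

/-- descent of a bilinear form along two surjections -/
lemma s56c_descend₂ (π : V →ₗ[k] W) (π' : V' →ₗ[k] W') (hπ : Function.Surjective π)
    (hπ' : Function.Surjective π') (B₀ : V →ₗ[k] V' →ₗ[k] k)
    (h1 : ∀ x, π x = 0 → ∀ y, B₀ x y = 0) (h2 : ∀ y, π' y = 0 → ∀ x, B₀ x y = 0) :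
    ∃ B : W →ₗ[k] W' →ₗ[k] k, ∀ x y, B (π x) (π' y) = B₀ x y := by
  have hk1 : LinearMap.ker π ≤ LinearMap.ker B₀ := fun x hx =>
    LinearMap.mem_ker.2 (LinearMap.ext fun y => h1 x (LinearMap.mem_ker.1 hx) y)
  let e := LinearMap.quotKerEquivOfSurjective π hπ
  let B₁ : W →ₗ[k] V' →ₗ[k] k := (Submodule.liftQ (LinearMap.ker π) B₀ hk1) ∘ₗ e.symm.toLinearMap
  have hB₁ : ∀ x y, B₁ (π x) y = B₀ x y := by
    intro x y
    have : e.symm (π x) = Submodule.Quotient.mk x := by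
      rw [LinearEquiv.symm_apply_eq]
      rfl
    show (Submodule.liftQ (LinearMap.ker π) B₀ hk1) (e.symm (π x)) y = B₀ x y
    rw [this, Submodule.liftQ_apply]
  have hk2 : LinearMap.ker π' ≤ LinearMap.ker B₁.flip := fun y hy => by
    rw [LinearMap.mem_ker]
    refine LinearMap.ext fun w => ?_
    obtain ⟨x, rfl⟩ := hπ w
    rw [LinearMap.flip_apply, hB₁, LinearMap.zero_apply]
    exact h2 y (LinearMap.mem_ker.1 hy) x
  let e' := LinearMap.quotKerEquivOfSurjective π' hπ'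
  let B₂ : W' →ₗ[k] W →ₗ[k] k :=
    (Submodule.liftQ (LinearMap.ker π') B₁.flip hk2) ∘ₗ e'.symm.toLinearMap
  refine ⟨B₂.flip, fun x y => ?_⟩
  have : e'.symm (π' y) = Submodule.Quotient.mk y := by
    rw [LinearEquiv.symm_apply_eq]
    rfl
  show (Submodule.liftQ (LinearMap.ker π') B₁.flip hk2) (e'.symm (π' y)) (π x) = B₀ x y
  rw [this, Submodule.liftQ_apply, LinearMap.flip_apply, hB₁]

end Descend

section Dict

variable {k G : Type} [CommRing k] [Group G] (A : Rep.{0} k G)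

lemma s56c_isZ1_iff (φ : G → A.V) : ptd_IsZ1 A.ρ φ ↔ φ ∈ cocycles₁ A :=
  (mem_cocycles₁_iff φ).symm

lemma s56c_isB1_iff (φ : G → A.V) : ptd_IsB1 A.ρ φ ↔ φ ∈ coboundaries₁ A := by
  constructor
  · rintro ⟨a, rfl⟩
    exact ⟨a, by funext g; rw [d₀₁_hom_apply]; rfl⟩
  · rintro ⟨a, rfl⟩
    exact ⟨a, by funext g; rw [d₀₁_hom_apply]; rfl⟩

end Dict

section OneDim

variable {k : Type*} [Field k] {H : Type*} [AddCommGroup H] [Module k H]

/-- two injective functionals on a space differ by a unit -/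
lemma s56c_exists_smul_of_injective (ι₀ ι : H →ₗ[k] k) (h₀ : Function.Injective ι₀)
    (h : Function.Injective ι) : ∃ c : k, c ≠ 0 ∧ ∀ x, ι x = c * ι₀ x := by
  by_cases hH : ∀ x : H, x = 0
  · exact ⟨1, one_ne_zero, fun x => by rw [hH x, map_zero, map_zero, mul_zero]⟩
  · push_neg at hH
    obtain ⟨x₀, hx₀⟩ := hH
    have h1 : ι₀ x₀ ≠ 0 := fun h' => hx₀ (h₀ (by rw [h', map_zero]))
    have h2 : ι x₀ ≠ 0 := fun h' => hx₀ (h (by rw [h', map_zero]))
    refine ⟨ι x₀ / ι₀ x₀, div_ne_zero h2 h1, fun x => ?_⟩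
    have hx : x = (ι₀ x / ι₀ x₀) • x₀ := by
      apply h₀
      rw [map_smul, smul_eq_mul, div_mul_cancel₀ _ h1]
    conv_lhs => rw [hx]
    rw [map_smul, smul_eq_mul]
    field_simp

end OneDim

section Local

variable {p : ℕ} [hp : Fact p.Prime] {S : Finset Nat.Primes} {𝒢 : pts_EMod p S} {q : ↥S}
variable (L : pts_LocData 𝒢 q)

/-- the mod `p` cyclotomic character of `G_q` -/
abbrev s56c_chiq (p : ℕ) [Fact p.Prime] (q : Nat.Primes) :
    primeLocalGaloisGroup q →* (ZMod p)ˣ :=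
  (cycloChar p).comp (primeLocalToGlobal q)

lemma s56c_ofChar_ρ_apply (τ : primeLocalGaloisGroup q.1) (c : ZMod p) :
    (ofChar (s56c_chiq p q.1)).ρ τ c = ((cycloChar p (primeLocalToGlobal q.1 τ) : (ZMod p)ˣ) : ZMod p) * c :=
  s56c_chiRep_apply (s56c_chiq p q.1) τ c

/-- `ζ_q : 𝔽_p(χ) → Ω_q^×` is equivariant -/
lemma s56c_isEquivariant_ζloc :
    ptd_IsEquivariant L.ρ (ofChar (s56c_chiq p q.1)).ρ L.ζloc := fun τ c => by
  rw [s56c_ofChar_ρ_apply, L.ρ_ζloc]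

/-- `𝔽_p(χ)` is trivial on a level -/
lemma s56c_isTrivOnLevel_ofChar : ptd_IsTrivOnLevel L.𝓛 (ofChar (s56c_chiq p q.1)).ρ := by
  have h : IsLevelConstant₁ (primeLocalToGlobal q.1)
      (fun τ : primeLocalGaloisGroup q.1 => cycloChar p (primeLocalToGlobal q.1 τ)) := by
    refine ⟨pta_cycloField p, inferInstance, fun g s hs => ?_⟩
    rw [pta_fixingSubgroup_cycloField, MonoidHom.mem_ker] at hs
    show cycloChar p (primeLocalToGlobal q.1 (g * s)) = cycloChar p (primeLocalToGlobal q.1 g)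
    rw [map_mul, map_mul, hs, mul_one]
  obtain ⟨N, hN, hNc⟩ := (L.lev₁_iff _).2 h
  refine ⟨N, hN, fun n hn => ?_⟩
  have := hNc 1 n hn
  simp only [one_mul, map_one] at this
  ext c
  rw [s56c_ofChar_ρ_apply, this]
  simp

/-- the functional `z ↦ inv_q (ζ_q ∘ z)` on level cocycles of `𝔽_p(χ)` -/
def s56c_invLCoc : ↥(levelCocycles₂ (primeLocalToGlobal q.1) (ofChar (s56c_chiq p q.1))) →+ ZMod p :=
  AddMonoidHom.mk' (fun z => L.inv (fun x => L.ζloc
      ((z : primeLocalGaloisGroup q.1 × primeLocalGaloisGroup q.1 → ZMod p) x)))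
    (fun z z' => pts_inv_map_add L.𝓛 L.inv (fun m => ZModModule.char_nsmul_eq_zero p m)
      (s56c_isEquivariant_ζloc L) ((L.isLZ2_iff (ofChar (s56c_chiq p q.1)) _).2 z.2)
      ((L.isLZ2_iff (ofChar (s56c_chiq p q.1)) _).2 z'.2))

/-- **the invariant map `H²(G_q, 𝔽_p(χ)) → 𝔽_p`** of the local big model -/
def s56c_invL : continuousH2 (primeLocalToGlobal q.1) (ofChar (s56c_chiq p q.1)) →ₗ[ZMod p] ZMod p :=
  Submodule.liftQ _ (pts_zmodLin (s56c_invLCoc L)) (fun z hz => by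
    rw [LinearMap.mem_ker, pts_zmodLin_apply]
    exact pts_inv_map_b2 L.𝓛 L.inv (s56c_isEquivariant_ζloc L)
      ((L.isB2_iff (ofChar (s56c_chiq p q.1)) _).2 hz))

lemma s56c_invL_mk (z : ↥(levelCocycles₂ (primeLocalToGlobal q.1) (ofChar (s56c_chiq p q.1)))) :
    s56c_invL L (continuousH2π (primeLocalToGlobal q.1) (ofChar (s56c_chiq p q.1)) z)
      = L.inv (fun x => L.ζloc
        ((z : primeLocalGaloisGroup q.1 × primeLocalGaloisGroup q.1 → ZMod p) x)) := rfl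

/-- `s56c_invL` is injective (from `(0,2)`-duality for `𝔽_p(χ)`) -/
theorem s56c_invL_injective (F : s56c_Formation L.inv L.ζloc (s56c_chiq p q.1)) :
    Function.Injective (s56c_invL L) := by
  rw [← LinearMap.ker_eq_bot, LinearMap.ker_eq_bot']
  intro h hh
  obtain ⟨z, rfl⟩ := Submodule.mkQ_surjective _ h
  change continuousH2π _ _ z = 0
  rw [continuousH2π_eq_zero_iff, ← L.isB2_iff (ofChar (s56c_chiq p q.1))]
  refine F.nondegH2 (ZMod p) (ofChar (s56c_chiq p q.1)).ρ (s56c_isTrivOnLevel_ofChar L) _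
    ((L.isLZ2_iff (ofChar (s56c_chiq p q.1)) _).2 z.2) fun f hf => ?_
  obtain ⟨a, ha⟩ := L.tors (f 1) (by
    rw [← map_nsmul, ZModModule.char_nsmul_eq_zero p (1 : ZMod p), map_zero])
  have hfa : ∀ c : ZMod p, f c = L.ζloc (a * c) := by
    intro c
    obtain ⟨n, rfl⟩ : ∃ n : ℕ, (n : ZMod p) = c := ⟨c.val, ZMod.natCast_zmod_val c⟩
    have h1 : ((n : ℕ) : ZMod p) = n • (1 : ZMod p) := by simp
    rw [h1, map_nsmul, ← ha, ← map_nsmul]
    congr 1
    simp [mul_comm]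
  have h2 : (fun x => f ((z : primeLocalGaloisGroup q.1 × primeLocalGaloisGroup q.1 → ZMod p) x))
      = fun x => L.ζloc (((a • z : ↥(levelCocycles₂ (primeLocalToGlobal q.1)
          (ofChar (s56c_chiq p q.1)))) :
          primeLocalGaloisGroup q.1 × primeLocalGaloisGroup q.1 → ZMod p) x) := by
    funext x
    rw [hfa]
    rfl
  rw [h2, ← s56c_invL_mk, map_smul, map_smul]
  change a • s56c_invL L (continuousH2π _ _ z) = 0
  have : s56c_invL L (continuousH2π _ _ z) = 0 := hh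
  rw [this, smul_zero]

/-- a finite-dimensional smooth module is trivial on a level -/
lemma s56c_isTrivOnLevel_of_smooth (A : Rep.{0} (ZMod p) (primeLocalGaloisGroup q.1))
    [Module.Finite (ZMod p) A] (hA : s56c_IsSmooth (primeLocalToGlobal q.1) A) :
    ptd_IsTrivOnLevel L.𝓛 A.ρ := by
  have hd : ptd_IsDiscrete L.𝓛 A.ρ := by
    intro a
    obtain ⟨F, hF, hfix⟩ := hA a
    have h : IsLevelConstant₁ (primeLocalToGlobal q.1)
        (fun τ : primeLocalGaloisGroup q.1 => A.ρ τ a) :=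
      ⟨F, hF, fun g s hs => by
        show A.ρ (g * s) a = A.ρ g a
        rw [map_mul, Module.End.mul_apply, hfix s hs]⟩
    obtain ⟨N, hN, hNc⟩ := (L.lev₁_iff _).2 h
    refine ⟨N, hN, fun n hn => ?_⟩
    have := hNc 1 n hn
    simpa using this
  obtain ⟨s, hs⟩ := (Module.Finite.fg_top : (⊤ : Submodule (ZMod p) A.V).FG)
  obtain ⟨N, hN, hfix⟩ := hd.exists_level_of_finite s.finite_toSet
  refine ⟨N, hN, fun n hn => ?_⟩
  apply LinearMap.ext_on_range (v := fun i : s => (i : A.V)) ?_ ?_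
  · rw [Subtype.range_coe_subtype]
    exact hs
  · intro i
    rw [hfix i i.2 n hn]
    rfl

variable {A A' : Rep.{0} (ZMod p) (primeLocalGaloisGroup q.1)}
variable {β : A →ₗ[ZMod p] A' →ₗ[ZMod p] ZMod p}

lemma s56c_isLZ1_of_mem {x : cocycles₁ A} (hx : IsLevelConstant₁ (primeLocalToGlobal q.1) x) :
    ptd_IsLZ1 L.𝓛 A.ρ (x : primeLocalGaloisGroup q.1 → A.V) :=
  ⟨(s56c_isZ1_iff A _).2 x.2, (L.lev₁_iff _).2 hx⟩

/-- `x ∪ y` is a level 2-cocycle of `𝔽_p(χ)` -/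
lemma s56c_cup₁₁_mem (hβ : s56c_IsTatePairing (s56c_chiq p q.1) A A' β)
    (hA' : ptd_IsDiscrete L.𝓛 A'.ρ) {x : cocycles₁ A} {y : cocycles₁ A'}
    (hx : IsLevelConstant₁ (primeLocalToGlobal q.1) x)
    (hy : IsLevelConstant₁ (primeLocalToGlobal q.1) y) :
    s56c_cup₁₁ (s56c_chiq p q.1) β x y
      ∈ levelCocycles₂ (primeLocalToGlobal q.1) (ofChar (s56c_chiq p q.1)) :=
  (L.isLZ2_iff (ofChar (s56c_chiq p q.1)) _).1
    (s56c_isLZ2_cupW (fun g m m' => hβ.equivariant g m m') hA' (s56c_isLZ1_of_mem L hx)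
      (s56c_isLZ1_of_mem L hy))

/-- the cup product as a bilinear map on level cocycles -/
def s56c_cupL (hβ : s56c_IsTatePairing (s56c_chiq p q.1) A A' β)
    (hA' : ptd_IsDiscrete L.𝓛 A'.ρ) :
    ↥(levelCocycles₁ (primeLocalToGlobal q.1) A) →ₗ[ZMod p]
      ↥(levelCocycles₁ (primeLocalToGlobal q.1) A') →ₗ[ZMod p]
        ↥(levelCocycles₂ (primeLocalToGlobal q.1) (ofChar (s56c_chiq p q.1))) :=
  LinearMap.mk₂ (ZMod p)
    (fun x y => ⟨s56c_cup₁₁ (s56c_chiq p q.1) β x.1 y.1, s56c_cup₁₁_mem L hβ hA' x.2 y.2⟩)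
    (fun x x' y => Subtype.ext (s56c_cupW_add_left (ρM' := A'.ρ) (β := β) _ _ _))
    (fun c x y => Subtype.ext (s56c_cupW_smul_left (ρM' := A'.ρ) (β := β) c _ _))
    (fun x y y' => Subtype.ext (s56c_cupW_add_right (ρM' := A'.ρ) (β := β) _ _ _))
    (fun c x y => Subtype.ext (s56c_cupW_smul_right (ρM' := A'.ρ) (β := β) c _ _))

lemma s56c_cupL_coe (hβ : s56c_IsTatePairing (s56c_chiq p q.1) A A' β)
    (hA' : ptd_IsDiscrete L.𝓛 A'.ρ) (x : ↥(levelCocycles₁ (primeLocalToGlobal q.1) A))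
    (y : ↥(levelCocycles₁ (primeLocalToGlobal q.1) A')) :
    ((s56c_cupL L hβ hA' x y : ↥(levelCocycles₂ (primeLocalToGlobal q.1)
      (ofChar (s56c_chiq p q.1)))) : primeLocalGaloisGroup q.1 × primeLocalGaloisGroup q.1 → ZMod p)
      = s56c_cupW A'.ρ β x.1 y.1 := rfl

/-- the projection of level cocycles onto `continuousH1` -/
def s56c_toH1 (A : Rep.{0} (ZMod p) (primeLocalGaloisGroup q.1)) :
    ↥(levelCocycles₁ (primeLocalToGlobal q.1) A) →ₗ[ZMod p]
      ↥(continuousH1 (primeLocalToGlobal q.1) A) :=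
  LinearMap.codRestrict (continuousH1 (primeLocalToGlobal q.1) A)
    ((H1π A).hom ∘ₗ (levelCocycles₁ (primeLocalToGlobal q.1) A).subtype)
    (fun x => H1π_mem_continuousH1 _ A x.2)

lemma s56c_toH1_surjective (A : Rep.{0} (ZMod p) (primeLocalGaloisGroup q.1)) :
    Function.Surjective (s56c_toH1 (q := q) A) := by
  rintro ⟨X, hX⟩
  obtain ⟨c, hc, rfl⟩ := (mem_continuousH1_iff _ A X).1 hX
  exact ⟨⟨c, hc⟩, rfl⟩

lemma s56c_toH1_eq_zero_iff (A : Rep.{0} (ZMod p) (primeLocalGaloisGroup q.1))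
    (x : ↥(levelCocycles₁ (primeLocalToGlobal q.1) A)) :
    s56c_toH1 (q := q) A x = 0 ↔ ptd_IsB1 A.ρ ((x.1 : cocycles₁ A) : primeLocalGaloisGroup q.1 → A.V) := by
  rw [s56c_isB1_iff, ← H1π_eq_zero_iff, ← Subtype.coe_inj]
  rfl

/-- `B` is the cup-product pairing attached to `β` and `ι` (formula on level cocycle
representatives) -/
def s56c_IsCupPairingZ (β : A →ₗ[ZMod p] A' →ₗ[ZMod p] ZMod p)
    (ι : continuousH2 (primeLocalToGlobal q.1) (ofChar (s56c_chiq p q.1)) →ₗ[ZMod p] ZMod p)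
    (B : ↥(continuousH1 (primeLocalToGlobal q.1) A) →ₗ[ZMod p]
      ↥(continuousH1 (primeLocalToGlobal q.1) A') →ₗ[ZMod p] ZMod p) : Prop :=
  ∀ (x : cocycles₁ A) (y : cocycles₁ A')
    (hx : IsLevelConstant₁ (primeLocalToGlobal q.1) x)
    (hy : IsLevelConstant₁ (primeLocalToGlobal q.1) y)
    (hz : s56c_cup₁₁ (s56c_chiq p q.1) β x y
      ∈ levelCocycles₂ (primeLocalToGlobal q.1) (ofChar (s56c_chiq p q.1))),
    B ⟨(H1π A).hom x, H1π_mem_continuousH1 _ A hx⟩ ⟨(H1π A').hom y, H1π_mem_continuousH1 _ A' hy⟩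
      = ι (continuousH2π (primeLocalToGlobal q.1) (ofChar (s56c_chiq p q.1)) ⟨_, hz⟩)

/-- **LOCAL TATE DUALITY IN DEGREES `(1,1)`** (Prelude vocabulary, `ZMod p`-coefficients, any
invariant map `ι`): the cup-product pairing exists and is nondegenerate on both sides. -/
theorem s56c_duality11_model (F : s56c_Formation L.inv L.ζloc (s56c_chiq p q.1))
    [Module.Finite (ZMod p) A] [Module.Finite (ZMod p) A']
    (hβ : s56c_IsTatePairing (s56c_chiq p q.1) A A' β)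
    (hA : s56c_IsSmooth (primeLocalToGlobal q.1) A)
    (hA' : s56c_IsSmooth (primeLocalToGlobal q.1) A')
    (ι : continuousH2 (primeLocalToGlobal q.1) (ofChar (s56c_chiq p q.1)) →ₗ[ZMod p] ZMod p)
    (hι : Function.Injective ι) :
    ∃ B : ↥(continuousH1 (primeLocalToGlobal q.1) A) →ₗ[ZMod p]
        ↥(continuousH1 (primeLocalToGlobal q.1) A') →ₗ[ZMod p] ZMod p,
      s56c_IsCupPairingZ β ι B ∧
      (∀ x, (∀ y, B x y = 0) → x = 0) ∧ (∀ y, (∀ x, B x y = 0) → y = 0) := by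
  have hAt := s56c_isTrivOnLevel_of_smooth L A hA
  have hA't := s56c_isTrivOnLevel_of_smooth L A' hA'
  have hβe : s56c_IsEqvPairing (s56c_chiq p q.1) A.ρ A'.ρ β := fun g m m' => hβ.equivariant g m m'
  obtain ⟨c, hc0, hc⟩ := s56c_exists_smul_of_injective (s56c_invL L) ι (s56c_invL_injective L F) hι
  -- the pairing on level cocycles
  let B₀ : ↥(levelCocycles₁ (primeLocalToGlobal q.1) A) →ₗ[ZMod p]
      ↥(levelCocycles₁ (primeLocalToGlobal q.1) A') →ₗ[ZMod p] ZMod p :=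
    (s56c_cupL L hβ hA't.isDiscrete).compr₂
      (ι ∘ₗ continuousH2π (primeLocalToGlobal q.1) (ofChar (s56c_chiq p q.1)))
  have hB₀ : ∀ x y, B₀ x y = c * s56c_pair L.inv L.ζloc A'.ρ β x.1 y.1 := by
    intro x y
    show ι (continuousH2π _ _ (s56c_cupL L hβ hA't.isDiscrete x y)) = _
    rw [hc, s56c_invL_mk]
    rfl
  have hx1 : ∀ x : ↥(levelCocycles₁ (primeLocalToGlobal q.1) A),
      ptd_IsLZ1 L.𝓛 A.ρ ((x.1 : cocycles₁ A) : primeLocalGaloisGroup q.1 → A.V) :=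
    fun x => s56c_isLZ1_of_mem L x.2
  have hy1 : ∀ y : ↥(levelCocycles₁ (primeLocalToGlobal q.1) A'),
      ptd_IsLZ1 L.𝓛 A'.ρ ((y.1 : cocycles₁ A') : primeLocalGaloisGroup q.1 → A'.V) :=
    fun y => s56c_isLZ1_of_mem L y.2
  obtain ⟨B, hB⟩ := s56c_descend₂ (s56c_toH1 (q := q) A) (s56c_toH1 (q := q) A')
    (s56c_toH1_surjective A) (s56c_toH1_surjective A') B₀
    (fun x hx y => by
      rw [s56c_toH1_eq_zero_iff] at hx
      obtain ⟨a, ha⟩ := hx
      rw [hB₀, ha, s56c_pair_d0_left F hβe a (hy1 y), mul_zero])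
    (fun y hy x => by
      rw [s56c_toH1_eq_zero_iff] at hy
      obtain ⟨a', ha'⟩ := hy
      rw [hB₀, ha', s56c_pair_d0_right F hβe hA't.isDiscrete (hx1 x) a', mul_zero])
  refine ⟨B, ?_, ?_, ?_⟩
  · intro x y hx hy hz
    have := hB ⟨x, hx⟩ ⟨y, hy⟩
    exact this
  · intro X hX
    obtain ⟨x, rfl⟩ := s56c_toH1_surjective A X
    rw [s56c_toH1_eq_zero_iff]
    refine s56c_isB1_of_pair_left F hβe hβ.nondeg_left hβ.nondeg_right hA't (hx1 x) fun y hy => ?_
    have hy' : (⟨y, (s56c_isZ1_iff A' y).1 hy.1⟩ : cocycles₁ A')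
        ∈ levelCocycles₁ (primeLocalToGlobal q.1) A' := (L.lev₁_iff y).1 hy.2
    have h1 := hX (s56c_toH1 (q := q) A' ⟨_, hy'⟩)
    rw [hB, hB₀] at h1
    exact (mul_eq_zero.mp h1).resolve_left hc0
  · intro Y hY
    obtain ⟨y, rfl⟩ := s56c_toH1_surjective A' Y
    rw [s56c_toH1_eq_zero_iff]
    refine s56c_isB1_of_pair_right F hβe hβ.nondeg_left hβ.nondeg_right hAt hA't (hy1 y)
      fun x hx => ?_
    have hx' : (⟨x, (s56c_isZ1_iff A x).1 hx.1⟩ : cocycles₁ A)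
        ∈ levelCocycles₁ (primeLocalToGlobal q.1) A := (L.lev₁_iff x).1 hx.2
    have h1 := hY (s56c_toH1 (q := q) A ⟨_, hx'⟩)
    rw [hB, hB₀] at h1
    exact (mul_eq_zero.mp h1).resolve_left hc0

end Local

end Fermat.Agent.Lib.S56
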