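/-
S56, PROGRAMME W, wall [W3] (helper3, prefix `s56c_`): **LOCAL TATE DUALITY `(1,1)`, FINAL FORM**
for the landed S55 model: for `p` odd, `pPrime p ∈ S`, `q ∈ S`, every Tate pair `(A, A', β)` of
finite smooth `𝔽_p[G_q]`-modules and every injective `ι : H²(G_q, 𝔽_p(χ)) → 𝔽_p` — in particular
`ι = s56c_invL (s56t_L hp2 hpS q)`, the invariant map for which global reciprocity
(`s56t_hLG`) holds.
-/
import Mathlib
import Fermat.Agent.Lib.S56.CTate

set_option autoImplicit false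

noncomputable section

namespace Fermat.Agent.Lib.S56

open CategoryTheory IntermediateField ExtCitation groupCohomology Module Fermat.Agent.Lib.PT

variable {p : ℕ} [hp : Fact p.Prime] {S : Finset Nat.Primes}

/-- **the invariant map of the model at `q ∈ S`** -/
def s56c_invModel (hp2 : p ≠ 2) (hpS : pPrime p ∈ S) (q : ↥S) :
    continuousH2 (primeLocalToGlobal q.1) (ofChar (s56c_chiq p q.1)) →ₗ[ZMod p] ZMod p :=
  s56c_invL (s56t_L hp2 hpS q)

theorem s56c_invModel_injective (hp2 : p ≠ 2) (hpS : pPrime p ∈ S) (q : ↥S) :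
    Function.Injective (s56c_invModel hp2 hpS q) :=
  s56c_invL_injective _ (s56c_formation_local hp2 hpS q)

/-- **LOCAL TATE DUALITY IN DEGREES `(1,1)`** at `q ∈ S`. -/
theorem s56c_duality11 (hp2 : p ≠ 2) (hpS : pPrime p ∈ S) (q : ↥S)
    {A A' : Rep.{0} (ZMod p) (primeLocalGaloisGroup q.1)}
    {β : A →ₗ[ZMod p] A' →ₗ[ZMod p] ZMod p}
    [Module.Finite (ZMod p) A] [Module.Finite (ZMod p) A']
    (hβ : s56c_IsTatePairing (s56c_chiq p q.1) A A' β)
    (hA : s56c_IsSmooth (primeLocalToGlobal q.1) A)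
    (hA' : s56c_IsSmooth (primeLocalToGlobal q.1) A')
    (ι : continuousH2 (primeLocalToGlobal q.1) (ofChar (s56c_chiq p q.1)) →ₗ[ZMod p] ZMod p)
    (hι : Function.Injective ι) :
    ∃ B : ↥(continuousH1 (primeLocalToGlobal q.1) A) →ₗ[ZMod p]
        ↥(continuousH1 (primeLocalToGlobal q.1) A') →ₗ[ZMod p] ZMod p,
      s56c_IsCupPairingZ β ι B ∧
      (∀ x, (∀ y, B x y = 0) → x = 0) ∧ (∀ y, (∀ x, B x y = 0) → y = 0) :=
  s56c_duality11_model (s56t_L hp2 hpS q) (s56c_formation_local hp2 hpS q) hβ hA hA' ι hι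

end Fermat.Agent.Lib.S56
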