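/-
Programme W (S56), wall [W2] (helper4): **global reciprocity for the local cup-product pairings**.

If, for every `q ∈ S`, `B q` is the cup-product pairing `B_q[x][y] = ι_q[x ∪ y]` on
`H¹(G_q,M) × H¹(G_q,M')` (helper3's `s56c_IsCupPairingZ`) for the evaluation pairing and the
invariant map `ι_q = s56c_invModel hp2 hpS q` of the landed S55 model, then the images of the
global classes are orthogonal: `Σ_{q ∈ S} B_q(loc_q x, loc_q y) = 0` (`s56b_Reciprocity B`).
-/
import Fermat.Agent.Lib.S56.BRecip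
import Fermat.Agent.Lib.S56.IfaceW2
import Fermat.Agent.Lib.S56.CTateFinal
import Fermat.Agent.Lib.PT.GLevelTwist

set_option autoImplicit false
set_option linter.unusedSectionVars false

noncomputable section

namespace Fermat.Agent.Lib.S56

open CategoryTheory groupCohomology ExtCitation Module Fermat.Agent.Lib.PT

local notation "Qbar" => AlgebraicClosure ℚ
local notation "GQ" => (AlgebraicClosure ℚ ≃ₐ[ℚ] AlgebraicClosure ℚ)

variable {p : ℕ} [Fact p.Prime] {S : Finset Nat.Primes}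

/-- `ζ : μ_p = 𝔽_p(χ_cyc) → J` is equivariant. -/
lemma s56b_isEquivariant_ζ (𝒢 : pts_EMod p S) :
    ptd_IsEquivariant 𝒢.ρJ (s56c_chiRep (cycloChar p)) 𝒢.ζ := fun g a => by
  rw [s56c_chiRep_apply]
  exact (𝒢.smul_ζ g a).symm

variable (M : Rep.{0} (ZMod p) GQ)

/-- the evaluation pairing `M × M' → 𝔽_p(χ_cyc)` is equivariant (global form). -/
lemma s56b_isEqvPairing_eval :
    s56c_IsEqvPairing (cycloChar p) M.ρ (s56b_dual M).ρ (s56c_evalPairing (cycloChar p) M) :=
  fun g m m' =>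
    (s56c_isTatePairing_res (MonoidHom.id GQ) (cycloChar p) M).equivariant g m m'

/-- the restriction to `G_q` of an `S`-level cocycle is a level cocycle, and its class is the
localisation of the global class. -/
lemma s56b_loc_eq_mk (x : s56b_H1 S M) (c : cocycles₁ M) (hc : IsLevelConstantS₁ S c)
    (hcx : (H1π M).hom c = (x : H1 M)) (q : ↥S) :
    ∃ hlev : IsLevelConstant₁ (primeLocalToGlobal q.1)
        (mapCocycles₁ (primeLocalToGlobal q.1) (𝟙 (Rep.res (primeLocalToGlobal q.1) M)) c),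
      s56b_loc S M x q =
        ⟨(H1π (s56b_Mq S M q)).hom
          (mapCocycles₁ (primeLocalToGlobal q.1) (𝟙 (Rep.res (primeLocalToGlobal q.1) M)) c),
          H1π_mem_continuousH1 _ _ hlev⟩ := by
  have hlev : IsLevelConstant₁ (primeLocalToGlobal q.1)
      (mapCocycles₁ (primeLocalToGlobal q.1) (𝟙 (Rep.res (primeLocalToGlobal q.1) M)) c) := by
    obtain ⟨F, hF, h⟩ := hc
    refine ⟨F, hF.1, fun g s hs => ?_⟩
    rw [coe_mapCocycles₁]
    show c.1 (primeLocalToGlobal q.1 (g * s)) = c.1 (primeLocalToGlobal q.1 g)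
    rw [map_mul]
    exact h _ _ hs
  refine ⟨hlev, Subtype.ext ?_⟩
  rw [s56b_loc_coe, ← hcx]
  exact H1π_comp_map_apply (primeLocalToGlobal q.1) (𝟙 (Rep.res (primeLocalToGlobal q.1) M)) c

/-- smoothness of the restriction of a smooth global module. -/
lemma s56b_isSmooth_res {N : Rep.{0} (ZMod p) GQ}
    (hsm : ∀ m : N, ∃ F : IntermediateField ℚ Qbar, FiniteDimensional ℚ F ∧
      ∀ s ∈ F.fixingSubgroup, N.ρ s m = m) (q : Nat.Primes) :
    s56c_IsSmooth (primeLocalToGlobal q) (Rep.res (primeLocalToGlobal q) N) := fun a => by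
  obtain ⟨F, hF, h⟩ := hsm a
  exact ⟨F, hF, fun s hs => h _ hs⟩

set_option maxHeartbeats 1600000 in
/-- **Global reciprocity for cup-product pairings.** -/
theorem s56b_recip_of_cup (hp2 : p ≠ 2) (hpS : pPrime p ∈ S) [FiniteDimensional (ZMod p) M]
    (hsm : ∀ m : M, ∃ F : IntermediateField ℚ Qbar, FiniteDimensional ℚ F ∧
      ∀ s ∈ F.fixingSubgroup, M.ρ s m = m)
    (hMur : ∀ q : Nat.Primes, q ∉ S → ∀ A : ValuationSubring Qbar,
      A.LiesOverPrime (q : ℕ) → ∀ g ∈ A.inertiaSubgroupIn ℚ, M.ρ g = 1)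
    (B : s56b_Pairings S M)
    (hB : ∀ q : ↥S, s56c_IsCupPairingZ (q := q) (A := s56b_Mq S M q)
      (A' := s56b_Mq S (s56b_dual M) q) (s56c_evalPairing (cycloChar p) M)
      (s56c_invModel hp2 hpS q) (B q)) :
    s56b_Reciprocity B := by
  intro x y
  obtain ⟨c, hc, hcx⟩ := (pta_mem_continuousH1S_iff (S := S) M x.1).1 x.2
  obtain ⟨c', hc', hcy⟩ := (pta_mem_continuousH1S_iff (S := S) (s56b_dual M) y.1).1 y.2
  have hsm' := pta_hsm_dualTwist (M := M) hsm
  have hMur' := pta_hMur_dualTwist (M := M) hpS hMur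
  have hfd' : FiniteDimensional (ZMod p) (s56b_dual M).V :=
    inferInstanceAs (FiniteDimensional (ZMod p) (Module.Dual (ZMod p) M.V))
  have hd' : ptd_IsDiscrete (pta_levelsS S) (s56b_dual M).ρ :=
    (pta_isTrivOnLevel (s56b_dual M) (pta_isLevel_kerField (S := S) hsm' hMur')).isDiscrete
  -- the global cup product
  have hz : ptd_IsLZ2 (pta_levelsS S) (s56c_chiRep (cycloChar p))
      (s56c_cupW (s56b_dual M).ρ (s56c_evalPairing (cycloChar p) M) c c') :=
    s56c_isLZ2_cupW (s56b_isEqvPairing_eval M) hd' hc hc'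
  have hzJ := pts_isLZ2_map (pta_levelsS S) (s56b_isEquivariant_ζ (pta_EMod p hpS)) hz
  have key := s56b_recip_mu (pta_EMod p hpS) (s56t_invG hp2 hpS) (s56t_L hp2 hpS)
    (s56t_hLG hp2 hpS) _ hzJ
  rw [← key]
  refine Finset.sum_congr rfl fun q _ => ?_
  -- the local terms
  obtain ⟨hlev, hx⟩ := s56b_loc_eq_mk M x c ((pta_isLev₁_iff _).1 hc.2) hcx q
  obtain ⟨hlev', hy⟩ := s56b_loc_eq_mk (s56b_dual M) y c' ((pta_isLev₁_iff _).1 hc'.2) hcy q
  have hβq := s56c_isTatePairing_res (primeLocalToGlobal q.1) (cycloChar p) M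
  have hfdq' : Module.Finite (ZMod p) (s56b_Mq S (s56b_dual M) q) := hfd'
  have hdq' : ptd_IsDiscrete (s56t_L hp2 hpS q).𝓛 (s56b_Mq S (s56b_dual M) q).ρ :=
    (s56c_isTrivOnLevel_of_smooth (s56t_L hp2 hpS q) (s56b_Mq S (s56b_dual M) q)
      (s56b_isSmooth_res hsm' q.1)).isDiscrete
  have hzq := s56c_cup₁₁_mem (s56t_L hp2 hpS q) hβq hdq' hlev hlev'
  rw [hx, hy, hB q _ _ hlev hlev' hzq]
  rfl

end Fermat.Agent.Lib.S56
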