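/-
S56 programme, wall W2: the double Tate dual.  `M ≅ (M')'` equivariantly (`M' = M.dualTwist χ`), so
`h⁰(G, (M')') = h⁰(G, M)`; the tail contract for the pair `(M', M)`.
-/
import Mathlib
import Fermat.Agent.Lib.PT.GLevelTwist
import Fermat.Agent.Lib.S56.TailLocHom

set_option autoImplicit false
set_option linter.unusedSectionVars false
set_option linter.unusedVariables false

noncomputable section

namespace Fermat.Agent.Lib.S56

open IntermediateField ExtCitation groupCohomology Module Fermat.Agent.Lib.PT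

local notation "Qbar" => AlgebraicClosure ℚ
local notation "GQ" => (AlgebraicClosure ℚ ≃ₐ[ℚ] AlgebraicClosure ℚ)

section DD

variable {k : Type} [Field k] {G : Type} [Group G] (M : Rep.{0} k G) (χ : G →* kˣ)

/-- the evaluation map `M → (M')'` is equivariant -/
lemma s56t_dd_equivariant (g : G) (m : M.V) :
    ((M.dualTwist χ).dualTwist χ).ρ g (Module.Dual.eval k M.V m)
      = Module.Dual.eval k M.V (M.ρ g m) := by
  refine LinearMap.ext fun φ => ?_
  rw [Rep.dualTwist_ρ_apply]
  simp only [LinearMap.smul_apply, LinearMap.comp_apply, Module.Dual.eval_apply, smul_eq_mul]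
  have h1 : (M.dualTwist χ).ρ g⁻¹ φ = ((χ g⁻¹ : kˣ) : k) • (φ ∘ₗ M.ρ (g⁻¹)⁻¹) :=
    Rep.dualTwist_ρ_apply M χ g⁻¹ φ
  rw [h1]
  simp only [LinearMap.smul_apply, LinearMap.comp_apply, smul_eq_mul, inv_inv]
  rw [← mul_assoc, ← Units.val_mul, ← map_mul, mul_inv_cancel, map_one, Units.val_one, one_mul]

/-- `h⁰(G, (M')') = h⁰(G, M)` -/
theorem s56t_finrank_invariants_dd [FiniteDimensional k M.V] :
    finrank k ((M.dualTwist χ).dualTwist χ).ρ.invariants = finrank k M.ρ.invariants := by
  let e : M.V ≃ₗ[k] Module.Dual k (Module.Dual k M.V) := Module.evalEquiv k M.V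
  have he : ∀ m, e m = Module.Dual.eval k M.V m := fun m => rfl
  have hmap : ((M.dualTwist χ).dualTwist χ).ρ.invariants
      = (M.ρ.invariants).map (e : M.V →ₗ[k] Module.Dual k (Module.Dual k M.V)) := by
    ext Φ
    rw [Submodule.mem_map]
    constructor
    · intro hΦ
      obtain ⟨m, rfl⟩ := e.surjective Φ
      refine ⟨m, ?_, rfl⟩
      refine (Representation.mem_invariants _ _).2 fun g => ?_
      have h1 := (Representation.mem_invariants _ _).1 hΦ g
      rw [he, s56t_dd_equivariant, ← he, ← he] at h1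
      exact e.injective h1
    · rintro ⟨m, hm, rfl⟩
      refine (Representation.mem_invariants _ _).2 fun g => ?_
      show ((M.dualTwist χ).dualTwist χ).ρ g (e m) = e m
      rw [he, s56t_dd_equivariant, (Representation.mem_invariants _ _).1 hm g]
  rw [hmap]
  exact LinearEquiv.finrank_map_eq e _

end DD

section Tail'

variable {p : ℕ} [hp : Fact p.Prime] {S : Finset Nat.Primes}

set_option maxHeartbeats 800000 in
/-- **THE TAIL CONTRACT FOR `(M', M)`** (the shape of helper4's `s56b_Tail S (s56b_dual M) M`):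
`h²(G_S, M') + h⁰(G_ℚ, M) = dim Ш²(M') + ∑_{q ∈ S} h²(ℚ_q, M')`. -/
theorem s56t_tail_contract' (hp2 : p ≠ 2) (hpS : pPrime p ∈ S)
    (M : Rep (ZMod p) (AlgebraicClosure ℚ ≃ₐ[ℚ] AlgebraicClosure ℚ))
    [FiniteDimensional (ZMod p) M]
    (hsm : ∀ m : M, ∃ F : IntermediateField ℚ (AlgebraicClosure ℚ), FiniteDimensional ℚ F ∧
      ∀ s ∈ F.fixingSubgroup, M.ρ s m = m)
    (hMur : ∀ q : Nat.Primes, q ∉ S → ∀ A : ValuationSubring (AlgebraicClosure ℚ),
      A.LiesOverPrime (q : ℕ) → ∀ g ∈ A.inertiaSubgroupIn ℚ, M.ρ g = 1)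
    [FiniteDimensional (ZMod p) (continuousH2S S (M.dualTwist (cycloChar p)))] :
    finrank (ZMod p) (continuousH2S S (M.dualTwist (cycloChar p)))
        + finrank (ZMod p) M.ρ.invariants
      = finrank (ZMod p) (sha₂ S (M.dualTwist (cycloChar p)))
        + ∑ q : ↥S, finrank (ZMod p)
            (continuousH2 (primeLocalToGlobal q.1)
              (Rep.res (primeLocalToGlobal q.1) (M.dualTwist (cycloChar p)))) := by
  have hfd : FiniteDimensional (ZMod p) (M.dualTwist (cycloChar p)) :=
    inferInstanceAs (FiniteDimensional (ZMod p) (Module.Dual (ZMod p) M.V))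
  have h1 := s56t_tail_contract hp2 hpS (M.dualTwist (cycloChar p))
    (pta_hsm_dualTwist M hsm) (pta_hMur_dualTwist M hpS hMur)
  rw [s56t_finrank_invariants_dd M (cycloChar p)] at h1
  exact h1

end Tail'

end Fermat.Agent.Lib.S56

end
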