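/-
S56 programme, wall W2: FINITENESS of `H¹(G_S, M)` (and then `H²(G_S, M)`).
Step 1: the level characters `U → ZMod p` of an open `U ≤ ker χ_cyc` are finitely many
(first inequality `s56t_F3LG` + finiteness of `C_S^U / p`, from the Kummer/idele count).
Step 2 (abstract): finitely many level characters on a level acting trivially on a finite `M`
⇒ finitely many level 1-cocycles `G → M`.
-/
import Mathlib
import Fermat.Agent.Lib.S56.TailModel

set_option autoImplicit false
set_option linter.unusedSectionVars false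
set_option linter.unusedVariables false

noncomputable section

namespace Fermat.Agent.Lib.S56

open IntermediateField ExtCitation groupCohomology Module Fermat.Agent.Lib.PT

local notation "Qbar" => AlgebraicClosure ℚ
local notation "GQ" => (AlgebraicClosure ℚ ≃ₐ[ℚ] AlgebraicClosure ℚ)

section Chars

variable {p : ℕ} [hp : Fact p.Prime] {S : Finset Nat.Primes}

set_option maxHeartbeats 1600000 in
/-- `C_S^U / p` is finite for every open `U ≤ ker χ_cyc`. -/
theorem s56t_pInv_index_ne_zero (hp2 : p ≠ 2) (hpS : pPrime p ∈ S)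
    (U : Subgroup GQ) (hU : (pta_levelsS S).IsOpen U) (hUK : U ≤ (cycloChar p).ker) :
    (ptl_pInv (ptd_resRep (pta_EMod p hpS).ρC U) p).index ≠ 0 := by
  classical
  have hS : S.Nonempty := ⟨_, hpS⟩
  obtain ⟨E, hE, rfl⟩ : ∃ E : IntermediateField ℚ Qbar, E.IsUnramifiedOutside S ∧
      E.fixingSubgroup = U :=
    ⟨_, ptj_fixedField_isUnramifiedOutside hU, ptj_fixingSubgroup_fixedField hU⟩
  obtain ⟨X₀, n, hX₀, hfinX, hne1, hne3, hle1, heq3⟩ := pti_F3_count hp2 hpS E hE hU hUK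
  have hdvd1 : (ptl_pInv (ptd_resRep (pta_EMod p hpS).ρC E.fixingSubgroup) p).index ∣
      (ptj_princUT ↥E S ⊔ (powMonoidHom p : ptj_J ↥E →* ptj_J ↥E).range).index :=
    ptj_pInv_index_dvd E hE p hS
  exact fun h => hne1 (by rw [h] at hdvd1; exact zero_dvd_iff.1 hdvd1)

set_option maxHeartbeats 1600000 in
/-- **the `S`-level characters `U → ZMod p` are finitely many** (`U ≤ ker χ_cyc` open). -/
theorem s56t_finite_levelChars (hp2 : p ≠ 2) (hpS : pPrime p ∈ S)
    (U : Subgroup GQ) (hU : (pta_levelsS S).IsOpen U) (hUK : U ≤ (cycloChar p).ker) :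
    {χ : U → ZMod p | ptd_IsChar χ ∧ ptd_IsLev₁ ((pta_levelsS S).sub U hU) χ}.Finite := by
  obtain ⟨t₀, ht₀, -, ht⟩ := ptn_T_tors_cyclic (p := p)
  have h := ptd_card_le_index_of_vanish (ptd_IsDiscrete.resRep U hU (ptj_isDiscrete_CS S))
    ((s56t_A hp2 hpS).inv U hU) ⟨t₀, ht₀, ht⟩
    (fun χ hχ hlev h0 => s56t_F3LG hp2 hpS U hU hUK χ hχ hlev (fun c hc => h0 ⟨c, hc⟩))
    (ptl_pInv (ptd_resRep (pta_EMod p hpS).ρC U) p) (fun c => ⟨c, rfl⟩)
    (s56t_pInv_index_ne_zero hp2 hpS U hU hUK)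
    {χ : U → ZMod p | ptd_IsChar χ ∧ ptd_IsLev₁ ((pta_levelsS S).sub U hU) χ}
    (fun χ hχ => ⟨hχ.1, hχ.2, fun c hc => by
      obtain ⟨d, rfl⟩ := hc
      have h1 := ptl_nsmul_symb ((s56t_A hp2 hpS).inv U hU) hχ.1 hχ.2 d
      rw [← map_nsmul] at h1
      exact h1⟩)
  exact h.1

end Chars

section AbstractFin

variable {G : Type*} [Group G] (𝓛 : ptd_Levels G)
variable {p : ℕ} [hp : Fact p.Prime]
variable {M : Type*} [AddCommGroup M] [Module (ZMod p) M] [Finite M]
variable (ρM : Representation (ZMod p) G M)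

/-- finitely many level characters on a level acting trivially on a finite `M`
⇒ finitely many level 1-cocycles `G → M`. -/
theorem s56t_finite_LZ1 (N : Subgroup G) (hN : N ∈ 𝓛.lev) (htriv : ∀ n ∈ N, ρM n = 1)
    (hfin : {χ : N → ZMod p | ptd_IsChar χ ∧
      ptd_IsLev₁ (𝓛.sub N (𝓛.isOpen_of_mem hN)) χ}.Finite) :
    {c : G → M | ptd_IsLZ1 𝓛 ρM c}.Finite := by
  classical
  have hNn := 𝓛.normal N hN
  have hNf := 𝓛.finiteIndex N hN
  have : Finite (G ⧸ N) := Subgroup.finite_quotient_of_finiteIndex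
  have : Finite (Module.Dual (ZMod p) M) :=
    Finite.of_injective (fun φ : Module.Dual (ZMod p) M => (φ : M → ZMod p))
      DFunLike.coe_injective
  let X : Set (N → ZMod p) := {χ | ptd_IsChar χ ∧ ptd_IsLev₁ (𝓛.sub N (𝓛.isOpen_of_mem hN)) χ}
  let f : (G → M) → (G ⧸ N → M) × (Module.Dual (ZMod p) M → (N → ZMod p)) :=
    fun c => (fun q => c q.out, fun φ n => φ (c n))
  have ht : ((Set.univ : Set (G ⧸ N → M)) ×ˢ
      (Set.pi Set.univ (fun _ : Module.Dual (ZMod p) M => X))).Finite :=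
    Set.finite_univ.prod (Set.Finite.pi (fun _ => hfin))
  refine Set.Finite.of_injOn (f := f) ?_ ?_ ht
  · intro c hc
    refine ⟨Set.mem_univ _, fun φ _ => ⟨?_, ?_⟩⟩
    · intro a b
      show φ (c ((a * b : N) : G)) = φ (c a) + φ (c b)
      rw [Subgroup.coe_mul, hc.1 a b, htriv a a.2, Module.End.one_apply, map_add, add_comm]
    · exact (hc.2.res N (𝓛.isOpen_of_mem hN)).comp φ
  · intro c hc c' hc' hcc'
    have h1 : ∀ q : G ⧸ N, c q.out = c' q.out := fun q => congrFun (congrArg Prod.fst hcc') q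
    have h2 : ∀ n : N, c n = c' n := by
      intro n
      have h3 : ∀ φ : Module.Dual (ZMod p) M, φ (c n - c' n) = 0 := by
        intro φ
        have := congrFun (congrFun (congrArg Prod.snd hcc') φ) n
        rw [map_sub, sub_eq_zero]
        exact this
      exact sub_eq_zero.1 ((Module.forall_dual_apply_eq_zero_iff (ZMod p) _).1 h3)
    funext g
    have hg : (QuotientGroup.mk g : G ⧸ N).out⁻¹ * g ∈ N := by
      have h : (QuotientGroup.mk ((QuotientGroup.mk g : G ⧸ N).out) : G ⧸ N)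
          = QuotientGroup.mk g := Quotient.out_eq _
      exact QuotientGroup.eq.mp h
    have hdec : g = (QuotientGroup.mk g : G ⧸ N).out * ((QuotientGroup.mk g : G ⧸ N).out⁻¹ * g) := by
      group
    rw [hdec, hc.1, hc'.1, h1, h2 ⟨_, hg⟩]

end AbstractFin

section H1

variable {p : ℕ} [hp : Fact p.Prime] {S : Finset Nat.Primes}

set_option maxHeartbeats 800000 in
/-- the `S`-level 1-cocycles of a finite `M` are finitely many -/
theorem s56t_finite_levelCocyclesS₁ (hp2 : p ≠ 2) (hpS : pPrime p ∈ S)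
    (M : Rep.{0} (ZMod p) GQ) [FiniteDimensional (ZMod p) M]
    (hsm : ∀ m : M, ∃ F : IntermediateField ℚ Qbar, FiniteDimensional ℚ F ∧
      ∀ s ∈ F.fixingSubgroup, M.ρ s m = m)
    (hMur : ∀ q : Nat.Primes, q ∉ S → ∀ A : ValuationSubring Qbar,
      A.LiesOverPrime (q : ℕ) → ∀ g ∈ A.inertiaSubgroupIn ℚ, M.ρ g = 1) :
    {c : GQ → M.V | ptd_IsLZ1 (pta_levelsS S) M.ρ c}.Finite := by
  have : Finite M.V := Module.finite_of_finite (ZMod p)
  obtain ⟨F, hF, -, hζ⟩ := pta_exists_common_level M hpS hsm hMur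
  have hN : F.fixingSubgroup ∈ (pta_levelsS S).lev := hF.mem_levelsS
  have hNK : F.fixingSubgroup ≤ (cycloChar p).ker := by
    rw [← pta_fixingSubgroup_cycloField]
    exact IntermediateField.fixingSubgroup_antitone hζ
  exact s56t_finite_LZ1 (pta_levelsS S) M.ρ F.fixingSubgroup hN
    (fun n hn => MonoidHom.mem_ker.mp (hF.triv hn))
    (s56t_finite_levelChars hp2 hpS F.fixingSubgroup ((pta_levelsS S).isOpen_of_mem hN) hNK)

set_option maxHeartbeats 800000 in
/-- **`H¹(G_S, M)` is finite** (`p` odd, `p ∈ S`, `M` a finite `𝔽_p[G_ℚ]`-module unramified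
outside `S`). -/
theorem s56t_finite_continuousH1S (hp2 : p ≠ 2) (hpS : pPrime p ∈ S)
    (M : Rep.{0} (ZMod p) GQ) [FiniteDimensional (ZMod p) M]
    (hsm : ∀ m : M, ∃ F : IntermediateField ℚ Qbar, FiniteDimensional ℚ F ∧
      ∀ s ∈ F.fixingSubgroup, M.ρ s m = m)
    (hMur : ∀ q : Nat.Primes, q ∉ S → ∀ A : ValuationSubring Qbar,
      A.LiesOverPrime (q : ℕ) → ∀ g ∈ A.inertiaSubgroupIn ℚ, M.ρ g = 1) :
    Module.Finite (ZMod p) ↥(continuousH1S S M) := by
  have hfin := s56t_finite_levelCocyclesS₁ hp2 hpS M hsm hMur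
  have : Finite ↥(levelCocyclesS₁ S M) := by
    have : Finite ↥{c : GQ → M.V | ptd_IsLZ1 (pta_levelsS S) M.ρ c} := hfin.to_subtype
    refine Finite.of_injective
      (fun c : ↥(levelCocyclesS₁ S M) =>
        (⟨((c : cocycles₁ M) : GQ → M.V), ⟨(pta_isZ1_iff M _).2 (c : cocycles₁ M).2,
          (pta_isLev₁_iff _).2 c.2⟩⟩ : ↥{c : GQ → M.V | ptd_IsLZ1 (pta_levelsS S) M.ρ c})) ?_
    intro c c' h
    have h2 := Subtype.ext_iff.1 h
    have h' : ((c : cocycles₁ M) : GQ → M.V) = ((c' : cocycles₁ M) : GQ → M.V) := h2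
    exact Subtype.ext (DFunLike.coe_injective h')
  have : Module.Finite (ZMod p) ↥(levelCocyclesS₁ S M) := Module.Finite.of_finite
  unfold continuousH1S
  exact Module.Finite.map _ _

end H1

end Fermat.Agent.Lib.S56

end
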