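/-
S56 programme, wall W2: FINITENESS of `Ш²(G_S, M)` and of `H²(G_S, M)`, the Ш-duality in numerical
form, and the UNCONDITIONAL tail contracts.
`Ш²(M)` embeds into the dual of `Ш¹(M') ⊆ H¹(G_S, M')` (finite, `TailFin.lean`) by the landed S55
pairing; the image of `H²(G_S, M)` in `∏_v H²(ℚ_v, M)` is finite-dimensional (`s56t_tail`).
-/
import Mathlib
import Fermat.Agent.Lib.S56.TailFin
import Fermat.Agent.Lib.S56.TailDD

set_option autoImplicit false
set_option linter.unusedSectionVars false
set_option linter.unusedVariables false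

noncomputable section

namespace Fermat.Agent.Lib.S56

open IntermediateField ExtCitation groupCohomology Module Fermat.Agent.Lib.PT

local notation "Qbar" => AlgebraicClosure ℚ
local notation "GQ" => (AlgebraicClosure ℚ ≃ₐ[ℚ] AlgebraicClosure ℚ)

section Lin

variable {k : Type*} [Field k] {V W : Type*} [AddCommGroup V] [Module k V]
  [AddCommGroup W] [Module k W]

/-- a pairing `V × W → k` nondegenerate on the right, `V` finite-dimensional ⇒ `W`
finite-dimensional -/
theorem s56t_finite_of_nondeg_right [FiniteDimensional k V] (B : V →ₗ[k] W →ₗ[k] k)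
    (hB : ∀ x, (∀ y, B y x = 0) → x = 0) : FiniteDimensional k W := by
  refine FiniteDimensional.of_injective B.flip ?_
  refine (injective_iff_map_eq_zero _).2 fun x hx => hB x fun y => ?_
  have := LinearMap.congr_fun hx y
  simpa using this

/-- a perfect pairing of finite-dimensional spaces: equal dimensions -/
theorem s56t_finrank_eq_of_nondeg [FiniteDimensional k V] (B : V →ₗ[k] W →ₗ[k] k)
    (hB₁ : ∀ y, (∀ x, B y x = 0) → y = 0) (hB₂ : ∀ x, (∀ y, B y x = 0) → x = 0) :
    finrank k W = finrank k V := by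
  have hW := s56t_finite_of_nondeg_right B hB₂
  have h1 : finrank k W ≤ finrank k V := by
    have hinj : Function.Injective B.flip :=
      (injective_iff_map_eq_zero _).2 fun x hx => hB₂ x fun y => by
        have := LinearMap.congr_fun hx y
        simpa using this
    have := LinearMap.finrank_le_finrank_of_injective hinj
    rwa [Subspace.dual_finrank_eq] at this
  have h2 : finrank k V ≤ finrank k W := by
    have hinj : Function.Injective B :=
      (injective_iff_map_eq_zero _).2 fun y hy => hB₁ y fun x => by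
        have := LinearMap.congr_fun hy x
        simpa using this
    have := LinearMap.finrank_le_finrank_of_injective hinj
    rwa [Subspace.dual_finrank_eq] at this
  exact le_antisymm h1 h2

/-- a map into a finite product of finite-dimensional spaces with finite-dimensional kernel has
finite-dimensional source (stated for arbitrary instances) -/
theorem s56t_finite_of_ker_pi {ι : Type*} [Finite ι] {Q : ι → Type*} [∀ v, AddCommGroup (Q v)]
    [∀ v, Module k (Q v)] (f : V →ₗ[k] ∀ v, Q v) (hQ : ∀ v, FiniteDimensional k (Q v))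
    (hker : FiniteDimensional k ↥(LinearMap.ker f)) : FiniteDimensional k V := by
  have hpi : FiniteDimensional k (∀ v, Q v) := Module.Finite.pi
  have hrange : FiniteDimensional k ↥(LinearMap.range f) :=
    FiniteDimensional.finiteDimensional_submodule _
  have hquot : FiniteDimensional k (V ⧸ LinearMap.ker f) :=
    Module.Finite.equiv f.quotKerEquivRange.symm
  exact Module.Finite.of_submodule_quotient (LinearMap.ker f)

end Lin

section H2

variable {p : ℕ} [hp : Fact p.Prime] {S : Finset Nat.Primes}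

/-- the Tate dual of a finite module is finite -/
theorem s56t_finite_dualTwist (M : Rep.{0} (ZMod p) GQ) [FiniteDimensional (ZMod p) M] :
    FiniteDimensional (ZMod p) (M.dualTwist (cycloChar p)) :=
  inferInstanceAs (FiniteDimensional (ZMod p) (Module.Dual (ZMod p) M.V))

set_option maxHeartbeats 800000 in
/-- `Ш¹(G_S, M)` is finite-dimensional -/
theorem s56t_finite_sha₁ (hp2 : p ≠ 2) (hpS : pPrime p ∈ S)
    (M : Rep.{0} (ZMod p) GQ) [FiniteDimensional (ZMod p) M]
    (hsm : ∀ m : M, ∃ F : IntermediateField ℚ Qbar, FiniteDimensional ℚ F ∧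
      ∀ s ∈ F.fixingSubgroup, M.ρ s m = m)
    (hMur : ∀ q : Nat.Primes, q ∉ S → ∀ A : ValuationSubring Qbar,
      A.LiesOverPrime (q : ℕ) → ∀ g ∈ A.inertiaSubgroupIn ℚ, M.ρ g = 1) :
    FiniteDimensional (ZMod p) ↥(sha₁ S M) := by
  have := s56t_finite_continuousH1S hp2 hpS M hsm hMur
  exact FiniteDimensional.of_injective
    (Submodule.inclusion (inf_le_left : sha₁ S M ≤ continuousH1S S M))
    (Submodule.inclusion_injective _)

set_option maxHeartbeats 800000 in
/-- **`Ш²(G_S, M)` is finite-dimensional** -/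
theorem s56t_finite_sha₂ (hp2 : p ≠ 2) (hpS : pPrime p ∈ S)
    (M : Rep.{0} (ZMod p) GQ) [FiniteDimensional (ZMod p) M]
    (hsm : ∀ m : M, ∃ F : IntermediateField ℚ Qbar, FiniteDimensional ℚ F ∧
      ∀ s ∈ F.fixingSubgroup, M.ρ s m = m)
    (hMur : ∀ q : Nat.Primes, q ∉ S → ∀ A : ValuationSubring Qbar,
      A.LiesOverPrime (q : ℕ) → ∀ g ∈ A.inertiaSubgroupIn ℚ, M.ρ g = 1) :
    FiniteDimensional (ZMod p) ↥(sha₂ S M) := by
  have := s56t_finite_dualTwist M
  have := s56t_finite_sha₁ hp2 hpS (M.dualTwist (cycloChar p))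
    (pta_hsm_dualTwist M hsm) (pta_hMur_dualTwist M hpS hMur)
  obtain ⟨B, -, hB₂⟩ := pts_S55_of_count hp2 hpS M hsm hMur (pti_F3_count hp2 hpS)
  exact s56t_finite_of_nondeg_right B hB₂

set_option maxHeartbeats 800000 in
/-- **Ш-duality, numerical form** (the shape of helper4's `s56b_ShaDuality S M (s56b_dual M)`):
`dim Ш²(M) = dim Ш¹(M')`. -/
theorem s56t_shaDuality (hp2 : p ≠ 2) (hpS : pPrime p ∈ S)
    (M : Rep.{0} (ZMod p) GQ) [FiniteDimensional (ZMod p) M]
    (hsm : ∀ m : M, ∃ F : IntermediateField ℚ Qbar, FiniteDimensional ℚ F ∧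
      ∀ s ∈ F.fixingSubgroup, M.ρ s m = m)
    (hMur : ∀ q : Nat.Primes, q ∉ S → ∀ A : ValuationSubring Qbar,
      A.LiesOverPrime (q : ℕ) → ∀ g ∈ A.inertiaSubgroupIn ℚ, M.ρ g = 1) :
    finrank (ZMod p) ↥(sha₂ S M) = finrank (ZMod p) ↥(sha₁ S (M.dualTwist (cycloChar p))) := by
  have := s56t_finite_dualTwist M
  have := s56t_finite_sha₁ hp2 hpS (M.dualTwist (cycloChar p))
    (pta_hsm_dualTwist M hsm) (pta_hMur_dualTwist M hpS hMur)
  obtain ⟨B, hB₁, hB₂⟩ := pts_S55_of_count hp2 hpS M hsm hMur (pti_F3_count hp2 hpS)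
  exact s56t_finrank_eq_of_nondeg B hB₁ hB₂

set_option maxHeartbeats 800000 in
/-- **`H²(G_S, M)` is finite-dimensional** -/
theorem s56t_finite_continuousH2S (hp2 : p ≠ 2) (hpS : pPrime p ∈ S)
    (M : Rep.{0} (ZMod p) GQ) [FiniteDimensional (ZMod p) M]
    (hsm : ∀ m : M, ∃ F : IntermediateField ℚ Qbar, FiniteDimensional ℚ F ∧
      ∀ s ∈ F.fixingSubgroup, M.ρ s m = m)
    (hMur : ∀ q : Nat.Primes, q ∉ S → ∀ A : ValuationSubring Qbar,
      A.LiesOverPrime (q : ℕ) → ∀ g ∈ A.inertiaSubgroupIn ℚ, M.ρ g = 1) :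
    FiniteDimensional (ZMod p) (continuousH2S S M) := by
  have hloc := (s56t_tail hp2 hpS M hsm hMur).1
  have hker : FiniteDimensional (ZMod p) ↥(LinearMap.ker (locTotal₂S S M)) :=
    s56t_finite_sha₂ hp2 hpS M hsm hMur
  exact s56t_finite_of_ker_pi (k := ZMod p) (V := continuousH2S S M) (ι := extArithIndex S)
    (Q := fun v => continuousH2 (extArithLoc S v) (Rep.res (extArithLoc S v) M))
    (locTotal₂S S M) hloc hker

set_option maxHeartbeats 800000 in
/-- **THE TAIL CONTRACT, UNCONDITIONAL** (= helper4's `s56b_Tail S M (s56b_dual M)`). -/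
theorem s56t_tail_contract_uncond (hp2 : p ≠ 2) (hpS : pPrime p ∈ S)
    (M : Rep.{0} (ZMod p) GQ) [FiniteDimensional (ZMod p) M]
    (hsm : ∀ m : M, ∃ F : IntermediateField ℚ Qbar, FiniteDimensional ℚ F ∧
      ∀ s ∈ F.fixingSubgroup, M.ρ s m = m)
    (hMur : ∀ q : Nat.Primes, q ∉ S → ∀ A : ValuationSubring Qbar,
      A.LiesOverPrime (q : ℕ) → ∀ g ∈ A.inertiaSubgroupIn ℚ, M.ρ g = 1) :
    finrank (ZMod p) (continuousH2S S M)
        + finrank (ZMod p) (M.dualTwist (cycloChar p)).ρ.invariants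
      = finrank (ZMod p) (sha₂ S M)
        + ∑ q : ↥S, finrank (ZMod p)
            (continuousH2 (primeLocalToGlobal q.1) (Rep.res (primeLocalToGlobal q.1) M)) := by
  have := s56t_finite_continuousH2S hp2 hpS M hsm hMur
  exact s56t_tail_contract hp2 hpS M hsm hMur

set_option maxHeartbeats 800000 in
/-- **THE TAIL CONTRACT FOR `(M', M)`, UNCONDITIONAL** (= helper4's
`s56b_Tail S (s56b_dual M) M`). -/
theorem s56t_tail_contract'_uncond (hp2 : p ≠ 2) (hpS : pPrime p ∈ S)
    (M : Rep.{0} (ZMod p) GQ) [FiniteDimensional (ZMod p) M]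
    (hsm : ∀ m : M, ∃ F : IntermediateField ℚ Qbar, FiniteDimensional ℚ F ∧
      ∀ s ∈ F.fixingSubgroup, M.ρ s m = m)
    (hMur : ∀ q : Nat.Primes, q ∉ S → ∀ A : ValuationSubring Qbar,
      A.LiesOverPrime (q : ℕ) → ∀ g ∈ A.inertiaSubgroupIn ℚ, M.ρ g = 1) :
    finrank (ZMod p) (continuousH2S S (M.dualTwist (cycloChar p)))
        + finrank (ZMod p) M.ρ.invariants
      = finrank (ZMod p) (sha₂ S (M.dualTwist (cycloChar p)))
        + ∑ q : ↥S, finrank (ZMod p)
            (continuousH2 (primeLocalToGlobal q.1)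
              (Rep.res (primeLocalToGlobal q.1) (M.dualTwist (cycloChar p)))) := by
  have := s56t_finite_dualTwist M
  have := s56t_finite_continuousH2S hp2 hpS (M.dualTwist (cycloChar p))
    (pta_hsm_dualTwist M hsm) (pta_hMur_dualTwist M hpS hMur)
  exact s56t_tail_contract' hp2 hpS M hsm hMur

end H2

end Fermat.Agent.Lib.S56

end
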