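/-
Programme W (S56), wall [W2] (helper4): **transport of `Ш¹` along an isomorphism of coefficient
modules**, and the `Ш`-duality contract for the pair `(M', M)`:
`dim Ш²(M') = dim Ш¹(M)` (`s56b_ShaDuality S (s56b_dual M) M`), from helper9's
`s56t_shaDuality` (landed S55 + finiteness) applied to `M'` and `M ≅ (M')'`.
-/
import Fermat.Agent.Lib.S56.IfaceW2
import Fermat.Agent.Lib.S56.TailFinH2
import Fermat.Agent.Lib.S56.TailDD

set_option autoImplicit false
set_option linter.unusedSectionVars false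

noncomputable section

namespace Fermat.Agent.Lib.S56

open CategoryTheory groupCohomology ExtCitation Module Fermat.Agent.Lib.PT

local notation "Qbar" => AlgebraicClosure ℚ
local notation "GQ" => (AlgebraicClosure ℚ ≃ₐ[ℚ] AlgebraicClosure ℚ)

section Iso

variable {K : Type} [Field K] {G : Type} [Group G] {A B C : Rep.{0} K G}

/-- the map on `H¹` induced by a morphism of coefficient modules. -/
def s56b_H1map (φ : A ⟶ B) : H1 A →ₗ[K] H1 B :=
  (groupCohomology.map (MonoidHom.id G) φ 1).hom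

lemma s56b_H1map_π (φ : A ⟶ B) (c : cocycles₁ A) :
    s56b_H1map φ ((H1π A).hom c) = (H1π B).hom (mapCocycles₁ (MonoidHom.id G) φ c) :=
  H1π_comp_map_apply (MonoidHom.id G) φ c

lemma s56b_H1map_id (x : H1 A) : s56b_H1map (𝟙 A) x = x := by
  unfold s56b_H1map
  rw [groupCohomology.map_id]
  rfl

lemma s56b_H1map_comp (φ : A ⟶ B) (ψ : B ⟶ C) (x : H1 A) :
    s56b_H1map (φ ≫ ψ) x = s56b_H1map ψ (s56b_H1map φ x) := by
  unfold s56b_H1map
  rw [groupCohomology.map_id_comp]
  rfl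

/-- an isomorphism of coefficient modules induces a linear equivalence on `H¹`. -/
def s56b_H1equiv (e : A ≅ B) : H1 A ≃ₗ[K] H1 B :=
  { s56b_H1map e.hom with
    invFun := s56b_H1map e.inv
    left_inv := fun x => by
      show s56b_H1map e.inv (s56b_H1map e.hom x) = x
      rw [← s56b_H1map_comp, e.hom_inv_id, s56b_H1map_id]
    right_inv := fun x => by
      show s56b_H1map e.hom (s56b_H1map e.inv x) = x
      rw [← s56b_H1map_comp, e.inv_hom_id, s56b_H1map_id] }

lemma s56b_H1equiv_apply (e : A ≅ B) (x : H1 A) : s56b_H1equiv e x = s56b_H1map e.hom x := rfl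

lemma s56b_H1equiv_symm_apply (e : A ≅ B) (x : H1 B) :
    (s56b_H1equiv e).symm x = s56b_H1map e.inv x := rfl

/-- compatibility with restriction along `f : H →* G`. -/
lemma s56b_H1map_res {H : Type} [Group H] (f : H →* G) (φ : A ⟶ B) (x : H1 A) :
    (groupCohomology.map f (𝟙 (Rep.res f B)) 1).hom (s56b_H1map φ x) =
      s56b_H1map ((Rep.resFunctor f).map φ)
        ((groupCohomology.map f (𝟙 (Rep.res f A)) 1).hom x) := by
  induction x using H1_induction_on with
  | h c =>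
    rw [s56b_H1map_π, H1π_comp_map_apply, H1π_comp_map_apply, s56b_H1map_π]
    congr 1

end Iso

section Sha

variable {K : Type} [Field K] (S : Finset Nat.Primes) {A B : Rep.{0} K GQ}

lemma s56b_H1map_mem_continuousH1S (φ : A ⟶ B) {x : H1 A} (hx : x ∈ continuousH1S S A) :
    s56b_H1map φ x ∈ continuousH1S S B := by
  obtain ⟨c, hc, rfl⟩ := (mem_continuousH1S_iff S A x).1 hx
  rw [s56b_H1map_π]
  refine (mem_continuousH1S_iff S B _).2 ⟨_, ?_, rfl⟩
  rw [coe_mapCocycles₁]
  exact hc.comp (fun a => φ.hom a)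

lemma s56b_H1map_mem_sha₁ (φ : A ⟶ B) {x : H1 A} (hx : x ∈ sha₁ S A) :
    s56b_H1map φ x ∈ sha₁ S B := by
  refine ⟨s56b_H1map_mem_continuousH1S S φ hx.1, ?_⟩
  have h2 : locTotal (extArithLoc S) A x = 0 := hx.2
  rw [SetLike.mem_coe, LinearMap.mem_ker]
  funext v
  have h3 : (locRes (extArithLoc S) A v).hom x = 0 := by
    have := congrFun h2 v
    rwa [locTotal_apply] at this
  rw [locTotal_apply]
  show (groupCohomology.map (extArithLoc S v) (𝟙 (Rep.res (extArithLoc S v) B)) 1).hom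
    (s56b_H1map φ x) = 0
  rw [s56b_H1map_res (extArithLoc S v) φ x]
  have h4 : (groupCohomology.map (extArithLoc S v) (𝟙 (Rep.res (extArithLoc S v) A)) 1).hom x = 0 :=
    h3
  rw [h4, map_zero]

/-- **`Ш¹` is invariant under isomorphisms of the coefficient module.** -/
def s56b_sha₁Equiv (e : A ≅ B) : ↥(sha₁ S A) ≃ₗ[K] ↥(sha₁ S B) where
  toFun x := ⟨s56b_H1map e.hom x.1, s56b_H1map_mem_sha₁ S e.hom x.2⟩
  map_add' x y := Subtype.ext (map_add (s56b_H1map e.hom) x.1 y.1)
  map_smul' a x := Subtype.ext (map_smul (s56b_H1map e.hom) a x.1)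
  invFun y := ⟨s56b_H1map e.inv y.1, s56b_H1map_mem_sha₁ S e.inv y.2⟩
  left_inv x := Subtype.ext ((s56b_H1equiv e).left_inv x.1)
  right_inv y := Subtype.ext ((s56b_H1equiv e).right_inv y.1)

theorem s56b_finrank_sha₁_of_iso (e : A ≅ B) :
    finrank K ↥(sha₁ S A) = finrank K ↥(sha₁ S B) :=
  (s56b_sha₁Equiv S e).finrank_eq

end Sha

section DD

variable {k : Type} [Field k] {G : Type} [Group G] (M : Rep.{0} k G) (χ : G →* kˣ)

/-- the evaluation isomorphism `M ≅ (M')'` of representations. -/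
def s56b_ddIso [FiniteDimensional k M.V] : M ≅ (M.dualTwist χ).dualTwist χ :=
  Rep.mkIso (ρ := M.ρ) (σ := ((M.dualTwist χ).dualTwist χ).ρ)
    (Representation.Equiv.mk (Module.evalEquiv k M.V) (fun g => LinearMap.ext fun m =>
      (s56t_dd_equivariant M χ g m).symm))

end DD

section ShaDual

variable {p : ℕ} [Fact p.Prime] {S : Finset Nat.Primes}

/-- **the `Ш`-duality contract for the pair `(M', M)`**: `dim Ш²(M') = dim Ш¹(M)`. -/
theorem s56b_shaDuality' (hp2 : p ≠ 2) (hpS : pPrime p ∈ S)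
    (M : Rep.{0} (ZMod p) GQ) [FiniteDimensional (ZMod p) M]
    (hsm : ∀ m : M, ∃ F : IntermediateField ℚ Qbar, FiniteDimensional ℚ F ∧
      ∀ s ∈ F.fixingSubgroup, M.ρ s m = m)
    (hMur : ∀ q : Nat.Primes, q ∉ S → ∀ A : ValuationSubring Qbar,
      A.LiesOverPrime (q : ℕ) → ∀ g ∈ A.inertiaSubgroupIn ℚ, M.ρ g = 1) :
    s56b_ShaDuality S (s56b_dual M) M := by
  have hfd : FiniteDimensional (ZMod p) (s56b_dual M) :=
    inferInstanceAs (FiniteDimensional (ZMod p) (Module.Dual (ZMod p) M.V))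
  have h1 := s56t_shaDuality hp2 hpS (s56b_dual M) (pta_hsm_dualTwist M hsm)
    (pta_hMur_dualTwist M hpS hMur)
  have h2 := s56b_finrank_sha₁_of_iso S (s56b_ddIso M (cycloChar p))
  unfold s56b_ShaDuality
  rw [h1, h2]

/-- the `Ш`-duality contract for the pair `(M, M')` (helper9's `s56t_shaDuality`). -/
theorem s56b_shaDuality (hp2 : p ≠ 2) (hpS : pPrime p ∈ S)
    (M : Rep.{0} (ZMod p) GQ) [FiniteDimensional (ZMod p) M]
    (hsm : ∀ m : M, ∃ F : IntermediateField ℚ Qbar, FiniteDimensional ℚ F ∧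
      ∀ s ∈ F.fixingSubgroup, M.ρ s m = m)
    (hMur : ∀ q : Nat.Primes, q ∉ S → ∀ A : ValuationSubring Qbar,
      A.LiesOverPrime (q : ℕ) → ∀ g ∈ A.inertiaSubgroupIn ℚ, M.ρ g = 1) :
    s56b_ShaDuality S M (s56b_dual M) :=
  s56t_shaDuality hp2 hpS M hsm hMur

end ShaDual

end Fermat.Agent.Lib.S56
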