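/-
Programme W (S56), walls [W2]/[W3] (helper3): **the UPPER-BOUND half of the Greenberg–Wiles
formula needs NO local Euler characteristic, NO global Euler characteristic of `M`, and NO
Poitou–Tate middle exactness.**

Setting as in helper4's `BGW.lean`: `B : P × P' → k` perfect (sum of the local Tate pairings),
`loc : H → P`, `loc' : H' → P'` with `im loc ⟂ im loc'` (reciprocity).  Then for every `L ⊆ P`

  `dim loc⁻¹(L) + dim H' ≤ dim loc'⁻¹(L^⊥) + dim L + dim ker loc`      (`s56c_gw_le_abstract`).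

`dim P` cancels.  Numerical form (`s56c_gw_le_of_inputs`): with `dim ker loc = dim Ш¹(M) = dim Ш²(M')`
(S55 for `M'`), the tail for `M'` (`h²(G_S,M') + h⁰(M) = dim Ш²(M') + Σ_v h²(G_v,M')`), local
`(0,2)`-duality `h²(G_v,M') = h⁰(G_v,M)` and the LOWER bound
`h⁰(M') + h²(G_S,M') + dim M ≤ h¹(G_S,M') + dim (M')^{c=1}` (one half of Tate's global Euler
characteristic, for `M'` only):

  `h¹_L(M) + h⁰(M') + Σ_v h⁰(G_v,M) + dim M^{c=1} ≤ h¹_{L^⊥}(M') + h⁰(M) + Σ_v dim L_v`.
-/
import Fermat.Agent.Lib.S56.BGWPi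

set_option autoImplicit false
set_option linter.unusedSectionVars false

namespace Fermat.Agent.Lib.S56

open Module

section Core

variable {k : Type*} [Field k] {H H' P P' : Type*}
  [AddCommGroup H] [Module k H] [AddCommGroup H'] [Module k H']
  [AddCommGroup P] [Module k P] [AddCommGroup P'] [Module k P']
  [FiniteDimensional k H] [FiniteDimensional k H'] [FiniteDimensional k P] [FiniteDimensional k P']

lemma s56c_perfect_flip {B : P →ₗ[k] P' →ₗ[k] k} (hB : s56b_Perfect B) : s56b_Perfect B.flip :=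
  ⟨fun y hy => hB.right y fun x => by simpa using hy x,
    fun x hx => hB.left x fun y => by simpa using hx y⟩

/-- **the abstract upper-bound half of Greenberg–Wiles** (no count of `dim P`, no middle
exactness): `dim loc⁻¹(L) + dim H' ≤ dim loc'⁻¹(L^⊥) + dim L + dim ker loc`. -/
theorem s56c_gw_le_abstract {B : P →ₗ[k] P' →ₗ[k] k} (hB : s56b_Perfect B)
    (loc : H →ₗ[k] P) (loc' : H' →ₗ[k] P')
    (horth : ∀ x y, B (loc x) (loc' y) = 0) (L : Submodule k P) :
    finrank k (L.comap loc) + finrank k H' ≤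
      finrank k ((s56b_orth B L).comap loc') + finrank k L + finrank k (LinearMap.ker loc) := by
  have h1 := s56b_finrank_comap loc L
  have h2 := s56b_finrank_comap loc' (s56b_orth B L)
  have h5 := LinearMap.finrank_range_add_finrank_ker loc'
  -- `im loc ∩ L ⊆ (im loc' + L^⊥)^⊥` (left orthogonal)
  have hle : LinearMap.range loc ⊓ L ≤
      s56b_orth B.flip (LinearMap.range loc' ⊔ s56b_orth B L) := by
    rintro x ⟨⟨a, rfl⟩, hxL⟩
    rw [s56b_mem_orth]
    intro y hy
    obtain ⟨y1, ⟨b, rfl⟩, y2, hy2, rfl⟩ := Submodule.mem_sup.1 hy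
    rw [LinearMap.flip_apply, map_add, horth a b, (s56b_mem_orth B L y2).1 hy2 _ hxL, add_zero]
  have h3 := Submodule.finrank_mono hle
  have h4 := s56b_finrank_orth (s56c_perfect_flip hB) (LinearMap.range loc' ⊔ s56b_orth B L)
  have h6 := Submodule.finrank_sup_add_finrank_inf_eq (LinearMap.range loc') (s56b_orth B L)
  have h7 := s56b_finrank_orth hB L
  have h8 := hB.finrank_eq
  omega

end Core

section GW

variable {k : Type*} [Field k] {ι : Type*} [Fintype ι] [DecidableEq ι]
  {P P' : ι → Type*} [∀ v, AddCommGroup (P v)] [∀ v, Module k (P v)]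
  [∀ v, AddCommGroup (P' v)] [∀ v, Module k (P' v)]
  [∀ v, FiniteDimensional k (P v)] [∀ v, FiniteDimensional k (P' v)]
  {H H' : Type*} [AddCommGroup H] [Module k H] [AddCommGroup H'] [Module k H']
  [FiniteDimensional k H] [FiniteDimensional k H']

/-- **Greenberg–Wiles, upper bound, from its inputs.**  `h0 = h⁰(G_S,M)`, `h0' = h⁰(G_S,M')`,
`h2' = h²(G_S,M')`, `s1 = dim Ш¹(M)`, `s2' = dim Ш²(M')`, `l0 v = h⁰(G_v,M)`, `l2' v = h²(G_v,M')`,
`d = dim M`, `dp = dim M^{c=1}`, `dm = dim (M')^{c=1}`.  Only `M'`-side global inputs. -/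
theorem s56c_gw_le_of_inputs {B : ∀ v, P v →ₗ[k] P' v →ₗ[k] k} (hB : ∀ v, s56b_Perfect (B v))
    (loc : H →ₗ[k] ∀ v, P v) (loc' : H' →ₗ[k] ∀ v, P' v)
    (horth : ∀ x y, ∑ v, B v (loc x v) (loc' y v) = 0)
    {h0 h0' h2' s1 s2' d dp dm : ℕ} {l0 l2' : ι → ℕ}
    (hs1 : finrank k (LinearMap.ker loc) = s1)
    (hS55' : s2' = s1)
    (htail' : h2' + h0 = s2' + ∑ v, l2' v)
    (heul' : h0' + h2' + d ≤ finrank k H' + dm)
    (hpm : dp + dm = d)
    (hdual : ∀ v, l2' v = l0 v)
    (L : ∀ v, Submodule k (P v)) :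
    finrank k (s56b_selmer loc L) + h0' + ∑ v, l0 v + dp ≤
      finrank k (s56b_selmer loc' fun v => s56b_orth (B v) (L v)) + h0 + ∑ v, finrank k (L v) := by
  have hBt := s56b_piPairing_perfect hB
  have horth' : ∀ x y, s56b_piPairing B (loc x) (loc' y) = 0 := fun x y => by
    rw [s56b_piPairing_apply]; exact horth x y
  have hl : ∑ v, l2' v = ∑ v, l0 v := Finset.sum_congr rfl fun v _ => hdual v
  have key := s56c_gw_le_abstract hBt loc loc' horth' (Submodule.pi Set.univ L)
  rw [s56b_orth_pi, s56b_finrank_pi] at key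
  show finrank k ↥((Submodule.pi Set.univ L).comap loc) + h0' + ∑ v, l0 v + dp ≤
    finrank k ↥((Submodule.pi Set.univ fun v => s56b_orth (B v) (L v)).comap loc') + h0 +
      ∑ v, finrank k (L v)
  omega

end GW

end Fermat.Agent.Lib.S56
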