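/-
Programme W (S56), walls [W2]/[W3] (helper3): **the upper-bound half of Greenberg–Wiles from
a REDUCED list of input contracts** (vocabulary of helper4's `IfaceW2.lean`).

Compared with `s56b_Contracts` the following are NOT needed: the local Euler characteristic
(`s56b_LocalEuler`, only finiteness of the local `H¹` and the `(0,2)`-count for `M'` remain), the
global Euler characteristic of `M` (only finiteness of `H¹(G_S,M)`), the tail and `Ш`-duality for
`M` (only those for `M'`), `shaKer'`; and of Tate's global Euler characteristic for `M'` only the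
inequality `h⁰(M') + h²(G_S,M') + dim M ≤ h¹(G_S,M') + dim (M')^{c=1}` is used.
-/
import Fermat.Agent.Lib.S56.CGWle
import Fermat.Agent.Lib.S56.BGWConc

set_option autoImplicit false
set_option linter.unusedSectionVars false

noncomputable section

namespace Fermat.Agent.Lib.S56

open CategoryTheory groupCohomology ExtCitation Module

local notation "GQ" => (AlgebraicClosure ℚ ≃ₐ[ℚ] AlgebraicClosure ℚ)

variable {p : ℕ} [Fact p.Prime] {S : Finset Nat.Primes} {M : Rep.{0} (ZMod p) GQ}

/-- **OUTPUT: the Greenberg–Wiles upper bound** for every family of local conditions: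
`h¹_L(M) + h⁰(M') + Σ_q h⁰(G_q,M) + dim M^{c=1} ≤ h¹_{L^⊥}(M') + h⁰(M) + Σ_q dim L_q`. -/
def s56c_GWle (B : s56b_Pairings S M) : Prop :=
  ∀ L : ∀ q : ↥S, Submodule (ZMod p) (s56b_H1q S M q),
    finrank (ZMod p) (s56b_selmer (s56b_loc S M) L) +
        finrank (ZMod p) (s56b_dual M).ρ.invariants +
        ∑ q : ↥S, finrank (ZMod p) (s56b_Mq S M q).ρ.invariants +
        finrank (ZMod p) (Rep.res archimedeanLoc M).ρ.invariants ≤
      finrank (ZMod p) (s56b_selmer (s56b_loc S (s56b_dual M)) fun q => s56b_orth (B q) (L q)) +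
        finrank (ZMod p) M.ρ.invariants +
        ∑ q : ↥S, finrank (ZMod p) (L q)

/-- **the reduced package of input contracts.** -/
structure s56c_ContractsLe (B : s56b_Pairings S M) : Prop where
  dual : s56b_LocalDuality B
  recip : s56b_Reciprocity B
  locFin : ∀ q : ↥S, FiniteDimensional (ZMod p) (s56b_H1q S M q)
  locFin' : ∀ q : ↥S, FiniteDimensional (ZMod p) (s56b_H1q S (s56b_dual M) q)
  glFin : FiniteDimensional (ZMod p) (s56b_H1 S M)
  glFin' : FiniteDimensional (ZMod p) (s56b_H1 S (s56b_dual M))
  /-- one half of Tate's global Euler characteristic, for `M'` only. -/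
  euler' : finrank (ZMod p) (s56b_dual M).ρ.invariants +
      finrank (ZMod p) (continuousH2S S (s56b_dual M)) + finrank (ZMod p) M ≤
    finrank (ZMod p) (s56b_H1 S (s56b_dual M)) +
      finrank (ZMod p) (Rep.res archimedeanLoc (s56b_dual M)).ρ.invariants
  tail' : s56b_Tail S (s56b_dual M) M
  sha' : s56b_ShaDuality S (s56b_dual M) M
  shaKer : s56b_ShaKer S M
  arch : s56b_ArchSplit M (s56b_dual M)
  /-- local duality in degrees `(0,2)`: `h²(G_q, M') = h⁰(G_q, M)`. -/
  locDual02 : ∀ q : ↥S,
    finrank (ZMod p) (continuousH2 (primeLocalToGlobal q.1) (s56b_Mq S (s56b_dual M) q)) =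
      finrank (ZMod p) (s56b_Mq S M q).ρ.invariants

/-- **Greenberg–Wiles upper bound from the reduced contracts.** -/
theorem s56c_gw_le_of_contracts {B : s56b_Pairings S M} (h : s56c_ContractsLe B) :
    s56c_GWle B := by
  classical
  intro L
  have i1 : ∀ q : ↥S, FiniteDimensional (ZMod p) (s56b_H1q S M q) := h.locFin
  have i2 : ∀ q : ↥S, FiniteDimensional (ZMod p) (s56b_H1q S (s56b_dual M) q) := h.locFin'
  have i3 : FiniteDimensional (ZMod p) (s56b_H1 S M) := h.glFin
  have i4 : FiniteDimensional (ZMod p) (s56b_H1 S (s56b_dual M)) := h.glFin'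
  exact s56c_gw_le_of_inputs (B := B) h.dual (s56b_loc S M) (s56b_loc S (s56b_dual M)) h.recip
    (h0 := finrank (ZMod p) M.ρ.invariants) (h0' := finrank (ZMod p) (s56b_dual M).ρ.invariants)
    (h2' := finrank (ZMod p) (continuousH2S S (s56b_dual M)))
    (s1 := finrank (ZMod p) (sha₁ S M))
    (s2' := finrank (ZMod p) (sha₂ S (s56b_dual M)))
    (d := finrank (ZMod p) M)
    (dp := finrank (ZMod p) (Rep.res archimedeanLoc M).ρ.invariants)
    (dm := finrank (ZMod p) (Rep.res archimedeanLoc (s56b_dual M)).ρ.invariants)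
    (l0 := fun q => finrank (ZMod p) (s56b_Mq S M q).ρ.invariants)
    (l2' := fun q => finrank (ZMod p)
      (continuousH2 (primeLocalToGlobal q.1) (s56b_Mq S (s56b_dual M) q)))
    (s56b_finrank_ker_loc h.shaKer) h.sha' h.tail' h.euler' h.arch h.locDual02 L

end Fermat.Agent.Lib.S56
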