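/-
S56 programme, wall W2/W3: LOCAL FINITENESS.  For every prime `q` and every finite smooth
`𝔽_p[G_q]`-module `A` (`p` odd), `H¹(ℚ_q, A)` (= `continuousH1 (primeLocalToGlobal q) A`) is finite.
The level characters `U → ZMod p` of an open `U ≤ G_q` are finitely many (local first inequality
`pts_local_F3L` + finiteness of `K_U^× / p`), then the abstract `s56t_finite_LZ1`.
-/
import Mathlib
import Fermat.Agent.Lib.S56.TailFin

set_option autoImplicit false
set_option linter.unusedSectionVars false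
set_option linter.unusedVariables false

noncomputable section

namespace Fermat.Agent.Lib.S56

open IntermediateField ExtCitation groupCohomology Module Fermat.Agent.Lib.PT

local notation "Qbar" => AlgebraicClosure ℚ
local notation "GQ" => (AlgebraicClosure ℚ ≃ₐ[ℚ] AlgebraicClosure ℚ)

section LocChars

variable {p : ℕ} [hp : Fact p.Prime]

set_option maxHeartbeats 1600000 in
/-- **the level characters `U → ZMod p` of an open `U ≤ G_q` are finitely many.** -/
theorem s56t_local_finite_levelChars (hp2 : p ≠ 2) (q : Nat.Primes)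
    (U : Subgroup (PadicAlgCl (q : ℕ) ≃ₐ[ℚ_[(q : ℕ)]] PadicAlgCl (q : ℕ)))
    (hU : (ptg_levels (q : ℕ)).IsOpen U) :
    {χ : U → ZMod p | ptd_IsChar χ ∧ ptd_IsLev₁ ((ptg_levels (q : ℕ)).sub U hU) χ}.Finite := by
  obtain ⟨t₀, ht₀, -, ht⟩ := ptn_T_tors_cyclic (p := p)
  have h := ptd_card_le_index_of_vanish
    (ptd_IsDiscrete.resRep U hU (ptg_isDiscrete_units (q : ℕ)))
    (ptn_invU (ptl_DL hp2 q) (ptg_isDiscrete_units (q : ℕ)) U hU) ⟨t₀, ht₀, ht⟩
    (fun χ hχ hlev h0 => pts_local_F3L (q : ℕ) (ptl_DL hp2 q) U hU χ hχ hlev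
      (fun a ha => h0 ⟨a, ha⟩))
    (ptl_pInv (ptd_resRep (ptg_unitsRep (q : ℕ)) U) p) (fun c => ⟨c, rfl⟩)
    (ptl_hfin_units (q : ℕ) hp.out hU)
    {χ : U → ZMod p | ptd_IsChar χ ∧ ptd_IsLev₁ ((ptg_levels (q : ℕ)).sub U hU) χ}
    (fun χ hχ => ⟨hχ.1, hχ.2, fun c hc => by
      obtain ⟨d, rfl⟩ := hc
      have h1 := ptl_nsmul_symb (ptn_invU (ptl_DL hp2 q) (ptg_isDiscrete_units (q : ℕ)) U hU)
        hχ.1 hχ.2 d
      rw [← map_nsmul] at h1
      exact h1⟩)
  exact h.1

end LocChars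

section LocH1

variable {p : ℕ} [hp : Fact p.Prime]

set_option maxHeartbeats 800000 in
/-- the level 1-cocycles of a finite level-trivial `𝔽_p[G_q]`-module are finitely many -/
theorem s56t_local_finite_LZ1 (hp2 : p ≠ 2) (q : Nat.Primes)
    {A : Type*} [AddCommGroup A] [Module (ZMod p) A] [Finite A]
    (ρA : Representation (ZMod p) (PadicAlgCl (q : ℕ) ≃ₐ[ℚ_[(q : ℕ)]] PadicAlgCl (q : ℕ)) A)
    (htriv : ptd_IsTrivOnLevel (ptg_levels (q : ℕ)) ρA) :
    {c : (PadicAlgCl (q : ℕ) ≃ₐ[ℚ_[(q : ℕ)]] PadicAlgCl (q : ℕ)) → A |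
      ptd_IsLZ1 (ptg_levels (q : ℕ)) ρA c}.Finite := by
  obtain ⟨N, hN, hNt⟩ := htriv
  exact s56t_finite_LZ1 (ptg_levels (q : ℕ)) ρA N hN hNt
    (s56t_local_finite_levelChars hp2 q N ((ptg_levels (q : ℕ)).isOpen_of_mem hN))

set_option maxHeartbeats 800000 in
/-- **`H¹(ℚ_q, A)` is finite** for every finite smooth `𝔽_p[G_q]`-module `A` (`p` odd, `q` any
prime; smoothness in the shape of helper3's `s56c_IsSmooth (primeLocalToGlobal q) A`). -/
theorem s56t_local_finite_continuousH1 (hp2 : p ≠ 2) (q : Nat.Primes)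
    (A : Rep.{0} (ZMod p) (primeLocalGaloisGroup q)) [Module.Finite (ZMod p) A]
    (hA : ∀ a : A, ∃ F : IntermediateField ℚ Qbar, FiniteDimensional ℚ F ∧
      ∀ s : primeLocalGaloisGroup q, primeLocalToGlobal q s ∈ F.fixingSubgroup → A.ρ s a = a) :
    Module.Finite (ZMod p) ↥(continuousH1 (primeLocalToGlobal q) A) := by
  have : Finite A.V := Module.finite_of_finite (ZMod p)
  -- `A` is trivial on a level
  have htriv : ptd_IsTrivOnLevel (ptg_levelsOf (primeLocalToGlobal q)) A.ρ := by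
    have hd : ptd_IsDiscrete (ptg_levelsOf (primeLocalToGlobal q)) A.ρ := by
      intro a
      obtain ⟨F, hF, hfix⟩ := hA a
      have h : IsLevelConstant₁ (primeLocalToGlobal q)
          (fun τ : primeLocalGaloisGroup q => A.ρ τ a) :=
        ⟨F, hF, fun g s hs => by
          show A.ρ (g * s) a = A.ρ g a
          rw [map_mul, Module.End.mul_apply, hfix s hs]⟩
      obtain ⟨N, hN, hNc⟩ := (ptg_isLev₁_iff (primeLocalToGlobal q) _).2 h
      refine ⟨N, hN, fun n hn => ?_⟩
      have := hNc 1 n hn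
      simpa using this
    obtain ⟨s, hs⟩ := (Module.Finite.fg_top : (⊤ : Submodule (ZMod p) A.V).FG)
    obtain ⟨N, hN, hfix⟩ := hd.exists_level_of_finite s.finite_toSet
    refine ⟨N, hN, fun n hn => ?_⟩
    apply LinearMap.ext_on_range (v := fun i : s => (i : A.V)) ?_ ?_
    · rw [Subtype.range_coe_subtype]
      exact hs
    · intro i
      rw [hfix i i.2 n hn]
      rfl
  have hfin : {c : primeLocalGaloisGroup q → A.V |
      ptd_IsLZ1 (ptg_levelsOf (primeLocalToGlobal q)) A.ρ c}.Finite :=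
    s56t_local_finite_LZ1 hp2 q A.ρ htriv
  have : Finite ↥(levelCocycles₁ (primeLocalToGlobal q) A) := by
    have : Finite ↥{c : primeLocalGaloisGroup q → A.V |
        ptd_IsLZ1 (ptg_levelsOf (primeLocalToGlobal q)) A.ρ c} := hfin.to_subtype
    refine Finite.of_injective
      (fun c : ↥(levelCocycles₁ (primeLocalToGlobal q) A) =>
        (⟨((c : cocycles₁ A) : primeLocalGaloisGroup q → A.V),
          (ptg_isLZ1_iff (primeLocalToGlobal q) A _).2 ⟨(c : cocycles₁ A).2, c.2⟩⟩ :
          ↥{c : primeLocalGaloisGroup q → A.V |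
            ptd_IsLZ1 (ptg_levelsOf (primeLocalToGlobal q)) A.ρ c})) ?_
    intro c c' h
    have h2 := Subtype.ext_iff.1 h
    have h' : ((c : cocycles₁ A) : primeLocalGaloisGroup q → A.V)
        = ((c' : cocycles₁ A) : primeLocalGaloisGroup q → A.V) := h2
    exact Subtype.ext (DFunLike.coe_injective h')
  have : Module.Finite (ZMod p) ↥(levelCocycles₁ (primeLocalToGlobal q) A) :=
    Module.Finite.of_finite
  unfold continuousH1
  exact Module.Finite.map _ _

set_option maxHeartbeats 800000 in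
/-- **`H¹(ℚ_q, M)` is finite** for the restriction of a finite smooth `𝔽_p[G_ℚ]`-module
(= helper4's `s56b_H1q S M q`). -/
theorem s56t_local_finite_continuousH1_res (hp2 : p ≠ 2) (q : Nat.Primes)
    (M : Rep.{0} (ZMod p) GQ) [FiniteDimensional (ZMod p) M]
    (hsm : ∀ m : M, ∃ F : IntermediateField ℚ Qbar, FiniteDimensional ℚ F ∧
      ∀ s ∈ F.fixingSubgroup, M.ρ s m = m) :
    Module.Finite (ZMod p)
      ↥(continuousH1 (primeLocalToGlobal q) (Rep.res (primeLocalToGlobal q) M)) := by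
  have : Module.Finite (ZMod p) (Rep.res (primeLocalToGlobal q) M) :=
    inferInstanceAs (Module.Finite (ZMod p) M.V)
  refine s56t_local_finite_continuousH1 hp2 q (Rep.res (primeLocalToGlobal q) M) (fun m => ?_)
  obtain ⟨F, hF, h⟩ := hsm m
  exact ⟨F, hF, fun s hs => h _ hs⟩

end LocH1

end Fermat.Agent.Lib.S56

end
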