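/-
Programme W (S56), wall [W2] (helper4): **ASSEMBLY of the Greenberg–Wiles upper bound**.

For `p` odd, `p ∈ S`, `M` a finite smooth `𝔽_p[G_ℚ]`-module unramified outside `S`, and ONE
numerical hypothesis from [W4] (one half of Tate's global Euler characteristic for `M'`):
there is a family of perfect local pairings `B` (the cup-product pairings of local Tate duality)
satisfying the Greenberg–Wiles upper bound `s56c_GWle B` for every family of local conditions.

All other contracts are discharged here from helper9's `Tail*` files (tail, finiteness,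
local `(0,2)`-count, `Ш`-duality), helper3's `C*` files (local duality `(1,1)`) and the W2 files
(`BRecipCup`: reciprocity; `BShaDD`: double-dual transport; `BEasy`: `Ш¹ = ker loc`, the
archimedean split).
-/
import Fermat.Agent.Lib.S56.BRecipCup
import Fermat.Agent.Lib.S56.BShaDD
import Fermat.Agent.Lib.S56.BEasy
import Fermat.Agent.Lib.S56.CGWleConc
import Fermat.Agent.Lib.S56.TailLocFin

set_option autoImplicit false
set_option linter.unusedSectionVars false

noncomputable section

namespace Fermat.Agent.Lib.S56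

open CategoryTheory groupCohomology ExtCitation Module Fermat.Agent.Lib.PT

local notation "Qbar" => AlgebraicClosure ℚ
local notation "GQ" => (AlgebraicClosure ℚ ≃ₐ[ℚ] AlgebraicClosure ℚ)

section Inv

variable {K : Type} [Field K] {G : Type} [Group G] {A B : Rep.{0} K G}

/-- isomorphic representations have invariants of the same dimension. -/
theorem s56b_finrank_invariants_of_iso (e : A ≅ B) :
    finrank K A.ρ.invariants = finrank K B.ρ.invariants := by
  let f : A.ρ.invariants →ₗ[K] B.ρ.invariants :=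
    (e.hom.hom.toLinearMap.comp A.ρ.invariants.subtype).codRestrict B.ρ.invariants (fun x => by
      refine (Representation.mem_invariants _ _).2 fun g => ?_
      show B.ρ g (e.hom.hom x.1) = e.hom.hom x.1
      rw [← Rep.hom_comm_apply, (Representation.mem_invariants _ _).1 x.2 g])
  let f' : B.ρ.invariants →ₗ[K] A.ρ.invariants :=
    (e.inv.hom.toLinearMap.comp B.ρ.invariants.subtype).codRestrict A.ρ.invariants (fun x => by
      refine (Representation.mem_invariants _ _).2 fun g => ?_
      show A.ρ g (e.inv.hom x.1) = e.inv.hom x.1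
      rw [← Rep.hom_comm_apply, (Representation.mem_invariants _ _).1 x.2 g])
  exact (LinearEquiv.ofLinearMap f f'
    (LinearMap.ext fun x => Subtype.ext (Rep.hom_inv_apply A B e x.1))
    (LinearMap.ext fun x => Subtype.ext (Rep.inv_hom_apply A B e x.1))).finrank_eq

end Inv

variable {p : ℕ} [Fact p.Prime] {S : Finset Nat.Primes}

/-- local `(0,2)`-count for `M'`: `h²(G_q, M') = h⁰(G_q, M)`. -/
theorem s56b_locDual02 (hp2 : p ≠ 2) (hpS : pPrime p ∈ S)
    (M : Rep.{0} (ZMod p) GQ) [FiniteDimensional (ZMod p) M]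
    (hsm : ∀ m : M, ∃ F : IntermediateField ℚ Qbar, FiniteDimensional ℚ F ∧
      ∀ s ∈ F.fixingSubgroup, M.ρ s m = m) (q : ↥S) :
    finrank (ZMod p) (continuousH2 (primeLocalToGlobal q.1) (s56b_Mq S (s56b_dual M) q)) =
      finrank (ZMod p) (s56b_Mq S M q).ρ.invariants := by
  have hfd : FiniteDimensional (ZMod p) (s56b_dual M) :=
    inferInstanceAs (FiniteDimensional (ZMod p) (Module.Dual (ZMod p) M.V))
  have h1 := s56t_finrank_H2_local hp2 hpS (s56b_dual M) (pta_hsm_dualTwist M hsm) q
  have h2 := s56b_finrank_invariants_of_iso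
    ((Rep.resFunctor (primeLocalToGlobal q.1)).mapIso (s56b_ddIso M (cycloChar p)))
  rw [h1]
  exact h2.symm

set_option maxHeartbeats 1600000 in
/-- **the reduced contracts for the cup-product pairings**, with the single input `euler'` from
[W4]. -/
theorem s56b_contractsLe (hp2 : p ≠ 2) (hpS : pPrime p ∈ S)
    (M : Rep.{0} (ZMod p) GQ) [FiniteDimensional (ZMod p) M]
    (hsm : ∀ m : M, ∃ F : IntermediateField ℚ Qbar, FiniteDimensional ℚ F ∧
      ∀ s ∈ F.fixingSubgroup, M.ρ s m = m)
    (hMur : ∀ q : Nat.Primes, q ∉ S → ∀ A : ValuationSubring Qbar,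
      A.LiesOverPrime (q : ℕ) → ∀ g ∈ A.inertiaSubgroupIn ℚ, M.ρ g = 1)
    (heuler' : finrank (ZMod p) (s56b_dual M).ρ.invariants +
        finrank (ZMod p) (continuousH2S S (s56b_dual M)) + finrank (ZMod p) M ≤
      finrank (ZMod p) (s56b_H1 S (s56b_dual M)) +
        finrank (ZMod p) (Rep.res archimedeanLoc (s56b_dual M)).ρ.invariants) :
    ∃ B : s56b_Pairings S M, s56c_ContractsLe B := by
  have hfd' : FiniteDimensional (ZMod p) (s56b_dual M) :=
    inferInstanceAs (FiniteDimensional (ZMod p) (Module.Dual (ZMod p) M.V))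
  have hsm' := pta_hsm_dualTwist M hsm
  have hMur' := pta_hMur_dualTwist M hpS hMur
  -- the local pairings from helper3's duality theorem
  have hex : ∀ q : ↥S, ∃ Bq : s56b_H1q S M q →ₗ[ZMod p] s56b_H1q S (s56b_dual M) q →ₗ[ZMod p] ZMod p,
      s56c_IsCupPairingZ (q := q) (A := s56b_Mq S M q) (A' := s56b_Mq S (s56b_dual M) q)
        (s56c_evalPairing (cycloChar p) M) (s56c_invModel hp2 hpS q) Bq ∧
      (∀ x, (∀ y, Bq x y = 0) → x = 0) ∧ (∀ y, (∀ x, Bq x y = 0) → y = 0) := by
    intro q
    have i1 : Module.Finite (ZMod p) (s56b_Mq S M q) := inferInstanceAs (Module.Finite (ZMod p) M.V)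
    have i2 : Module.Finite (ZMod p) (s56b_Mq S (s56b_dual M) q) := hfd'
    exact s56c_duality11 hp2 hpS q
      (s56c_isTatePairing_res (primeLocalToGlobal q.1) (cycloChar p) M)
      (s56b_isSmooth_res hsm q.1) (s56b_isSmooth_res hsm' q.1)
      (s56c_invModel hp2 hpS q) (s56c_invModel_injective hp2 hpS q)
  choose B hB using hex
  refine ⟨B, ?_⟩
  exact
    { dual := fun q => ⟨(hB q).2.1, (hB q).2.2⟩
      recip := s56b_recip_of_cup M hp2 hpS hsm hMur B (fun q => (hB q).1)
      locFin := fun q => s56t_local_finite_continuousH1_res hp2 q.1 M hsm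
      locFin' := fun q => s56t_local_finite_continuousH1_res hp2 q.1 (s56b_dual M) hsm'
      glFin := s56t_finite_continuousH1S hp2 hpS M hsm hMur
      glFin' := s56t_finite_continuousH1S hp2 hpS (s56b_dual M) hsm' hMur'
      euler' := heuler'
      tail' := s56t_tail_contract'_uncond hp2 hpS M hsm hMur
      sha' := s56b_shaDuality' hp2 hpS M hsm hMur
      shaKer := s56b_shaKer S M hp2
      arch := s56b_archSplit M hp2
      locDual02 := s56b_locDual02 hp2 hpS M hsm }

/-- **(T1), upper-bound form.** Perfect local pairings with the Greenberg–Wiles upper bound. -/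
theorem s56b_gwle (hp2 : p ≠ 2) (hpS : pPrime p ∈ S)
    (M : Rep.{0} (ZMod p) GQ) [FiniteDimensional (ZMod p) M]
    (hsm : ∀ m : M, ∃ F : IntermediateField ℚ Qbar, FiniteDimensional ℚ F ∧
      ∀ s ∈ F.fixingSubgroup, M.ρ s m = m)
    (hMur : ∀ q : Nat.Primes, q ∉ S → ∀ A : ValuationSubring Qbar,
      A.LiesOverPrime (q : ℕ) → ∀ g ∈ A.inertiaSubgroupIn ℚ, M.ρ g = 1)
    (heuler' : finrank (ZMod p) (s56b_dual M).ρ.invariants +
        finrank (ZMod p) (continuousH2S S (s56b_dual M)) + finrank (ZMod p) M ≤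
      finrank (ZMod p) (s56b_H1 S (s56b_dual M)) +
        finrank (ZMod p) (Rep.res archimedeanLoc (s56b_dual M)).ρ.invariants) :
    ∃ B : s56b_Pairings S M, s56b_LocalDuality B ∧ s56c_GWle B := by
  obtain ⟨B, hB⟩ := s56b_contractsLe hp2 hpS M hsm hMur heuler'
  exact ⟨B, hB.dual, s56c_gw_le_of_contracts hB⟩

end Fermat.Agent.Lib.S56
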