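/-
S56 (Taylor–Wiles primes), PROGRAMME W, wall [W3] (helper3, prefix `s56c_`): cup products of
1-cochains in the big-group model (`Lib/PT/AdtLevels`), for a `χ`-equivariant pairing
`β : M × M' → k(χ)`:
`(x ∪ y)(g, h) = β (x g) (g • y h)`; cocycle property, level-constancy, coboundaries in either
variable, graded commutativity.
-/
import Mathlib
import Fermat.Prelude.Def_GroupCohomology_Selmer
import Fermat.Agent.Lib.PT.SeqDPush
import Fermat.Agent.Lib.PT.AdtFull

set_option autoImplicit false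
set_option linter.unusedSectionVars false

namespace Fermat.Agent.Lib.S56

open Fermat.Agent.Lib.PT

section Cup

variable {G : Type*} [Group G] {k : Type*} [CommRing k]
variable {M M' : Type*} [AddCommGroup M] [Module k M] [AddCommGroup M'] [Module k M']
variable (χ : G →* kˣ) (ρM : Representation k G M) (ρM' : Representation k G M')
variable (β : M →ₗ[k] M' →ₗ[k] k)

/-- the representation `k(χ)` (the same as the Prelude's `ofChar χ`) -/
abbrev s56c_chiRep : Representation k G k := (Representation.trivial k G k).twist χ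

@[simp] lemma s56c_chiRep_apply (g : G) (c : k) : s56c_chiRep χ g c = (χ g : k) * c := by
  rw [Representation.twist_apply_apply, Representation.trivial_apply, smul_eq_mul]

/-- `β (g m) (g m') = χ g * β m m'` -/
def s56c_IsEqvPairing : Prop := ∀ g m m', β (ρM g m) (ρM' g m') = (χ g : k) * β m m'

/-- the cup product of two 1-cochains with values in `k(χ)` -/
def s56c_cupW (x : G → M) (y : G → M') : G × G → k :=
  fun gh => β (x gh.1) (ρM' gh.1 (y gh.2))

@[simp] lemma s56c_cupW_apply (x : G → M) (y : G → M') (g h : G) :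
    s56c_cupW ρM' β x y (g, h) = β (x g) (ρM' g (y h)) := rfl

variable {χ ρM ρM' β}

lemma s56c_IsEqvPairing.flip (hβ : s56c_IsEqvPairing χ ρM ρM' β) :
    s56c_IsEqvPairing χ ρM' ρM β.flip := fun g m' m => hβ g m m'

/-- `β (g m) m' = χ g * β m (g⁻¹ m')` -/
lemma s56c_IsEqvPairing.apply_left (hβ : s56c_IsEqvPairing χ ρM ρM' β) (g : G) (m : M) (m' : M') :
    β (ρM g m) m' = (χ g : k) * β m (ρM' g⁻¹ m') := by
  rw [← hβ g m (ρM' g⁻¹ m'), ← Module.End.mul_apply, ← map_mul, mul_inv_cancel, map_one,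
    Module.End.one_apply]

/-- `β m (g m') = χ g * β (g⁻¹ m) m'` -/
lemma s56c_IsEqvPairing.apply_right (hβ : s56c_IsEqvPairing χ ρM ρM' β) (g : G) (m : M) (m' : M') :
    β m (ρM' g m') = (χ g : k) * β (ρM g⁻¹ m) m' := by
  rw [← hβ g (ρM g⁻¹ m) m', ← Module.End.mul_apply, ← map_mul, mul_inv_cancel, map_one,
    Module.End.one_apply]

lemma s56c_isZ2_cupW (hβ : s56c_IsEqvPairing χ ρM ρM' β) {x : G → M} {y : G → M'}
    (hx : ptd_IsZ1 ρM x) (hy : ptd_IsZ1 ρM' y) :
    ptd_IsZ2 (s56c_chiRep χ) (s56c_cupW ρM' β x y) := by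
  intro g h j
  simp only [s56c_cupW_apply, s56c_chiRep_apply]
  rw [hx g h, hy h j, map_add, map_add, LinearMap.add_apply, map_mul, Module.End.mul_apply,
    hβ g (x h) (ρM' h (y j)), map_add]
  ring

lemma s56c_cupW_add_left (x x' : G → M) (y : G → M') :
    s56c_cupW ρM' β (x + x') y = s56c_cupW ρM' β x y + s56c_cupW ρM' β x' y := by
  funext ⟨g, h⟩
  simp only [s56c_cupW_apply, Pi.add_apply, map_add, LinearMap.add_apply]

lemma s56c_cupW_add_right (x : G → M) (y y' : G → M') :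
    s56c_cupW ρM' β x (y + y') = s56c_cupW ρM' β x y + s56c_cupW ρM' β x y' := by
  funext ⟨g, h⟩
  simp only [s56c_cupW_apply, Pi.add_apply, map_add]

lemma s56c_cupW_smul_left (c : k) (x : G → M) (y : G → M') :
    s56c_cupW ρM' β (c • x) y = c • s56c_cupW ρM' β x y := by
  funext ⟨g, h⟩
  simp only [s56c_cupW_apply, Pi.smul_apply, map_smul, LinearMap.smul_apply]

lemma s56c_cupW_smul_right (c : k) (x : G → M) (y : G → M') :
    s56c_cupW ρM' β x (c • y) = c • s56c_cupW ρM' β x y := by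
  funext ⟨g, h⟩
  simp only [s56c_cupW_apply, Pi.smul_apply, map_smul]

/-- `da ∪ y = d (h ↦ β a (y h))` -/
lemma s56c_cupW_d0_left (hβ : s56c_IsEqvPairing χ ρM ρM' β) (a : M) {y : G → M'}
    (hy : ptd_IsZ1 ρM' y) :
    s56c_cupW ρM' β (ptd_d0 ρM a) y = ptd_d1 (s56c_chiRep χ) (fun h => β a (y h)) := by
  funext ⟨g, h⟩
  simp only [s56c_cupW_apply, ptd_d0_apply, ptd_d1_apply, s56c_chiRep_apply, map_sub,
    LinearMap.sub_apply]
  rw [hy g h, map_add, hβ g a (y h)]
  ring

/-- `x ∪ da' = - d (g ↦ β (x g) (g a'))` -/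
lemma s56c_cupW_d0_right (hβ : s56c_IsEqvPairing χ ρM ρM' β) {x : G → M} (hx : ptd_IsZ1 ρM x)
    (a' : M') :
    s56c_cupW ρM' β x (ptd_d0 ρM' a') = - ptd_d1 (s56c_chiRep χ) (fun g => β (x g) (ρM' g a')) := by
  funext ⟨g, h⟩
  simp only [s56c_cupW_apply, ptd_d0_apply, ptd_d1_apply, s56c_chiRep_apply, map_sub,
    Pi.neg_apply]
  rw [hx g h, map_add, LinearMap.add_apply, map_mul, Module.End.mul_apply,
    hβ g (x h) (ρM' h a')]
  ring

/-- graded commutativity: `x ∪ y + y ∪ x = - d (g ↦ β (x g) (y g))` -/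
lemma s56c_cupW_comm (hβ : s56c_IsEqvPairing χ ρM ρM' β) {x : G → M} {y : G → M'}
    (hx : ptd_IsZ1 ρM x) (hy : ptd_IsZ1 ρM' y) :
    s56c_cupW ρM' β x y + s56c_cupW ρM β.flip y x
      = - ptd_d1 (s56c_chiRep χ) (fun g => β (x g) (y g)) := by
  funext ⟨g, h⟩
  simp only [Pi.add_apply, s56c_cupW_apply, LinearMap.flip_apply, ptd_d1_apply, s56c_chiRep_apply,
    Pi.neg_apply]
  rw [hx g h, hy g h, map_add, map_add, LinearMap.add_apply, LinearMap.add_apply,
    hβ g (x h) (y h)]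
  ring

end Cup

section Level

variable {G : Type*} [Group G] {𝓛 : ptd_Levels G} {k : Type*} [CommRing k]
variable {M M' : Type*} [AddCommGroup M] [Module k M] [AddCommGroup M'] [Module k M']
variable {ρM' : Representation k G M'} {β : M →ₗ[k] M' →ₗ[k] k}

/-- the cup product of level-constant cochains is level-constant (second module discrete) -/
lemma s56c_isLev₂_cupW (hd : ptd_IsDiscrete 𝓛 ρM') {x : G → M} {y : G → M'}
    (hx : ptd_IsLev₁ 𝓛 x) (hy : ptd_IsLev₁ 𝓛 y) : ptd_IsLev₂ 𝓛 (s56c_cupW ρM' β x y) := by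
  obtain ⟨N₁, hN₁, hfix⟩ := hd.exists_level_of_finite hy.finite_range
  have h1 : ptd_IsLev₂ 𝓛 (fun gh : G × G => ρM' gh.1 (y gh.2)) := by
    obtain ⟨N, hN, h⟩ := hy
    obtain ⟨N', hN', hle⟩ := 𝓛.directed N hN N₁ hN₁
    refine ⟨N', hN', fun g g' n hn n' hn' => ?_⟩
    simp only
    rw [h g' n' (hle hn').1, map_mul, Module.End.mul_apply, hfix (y g') ⟨g', rfl⟩ n (hle hn).2]
  exact hx.fst.map₂ h1 (fun m m' => β m m')

end Level

end Fermat.Agent.Lib.S56
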