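/-
S56, PROGRAMME W, wall [W3] (helper3, prefix `s56c_`): the coinduced module `Map(G/N, A)` for a
normal subgroup `N` of finite index, with the constant embedding, the sum map, the section at the
unit coset, the kernel of the sum map as a subrepresentation, and the induced pairing
`β_B (f, f') = ∑_t β (f t) (f' t)`.
-/
import Mathlib
import Fermat.Agent.Lib.S56.CCup

set_option autoImplicit false
set_option linter.unusedSectionVars false

namespace Fermat.Agent.Lib.S56

open Fermat.Agent.Lib.PT

section Coind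

variable {G : Type*} [Group G] (N : Subgroup G) [N.Normal]
variable {k : Type*} [CommRing k] {A : Type*} [AddCommGroup A] [Module k A]
variable (ρ : Representation k G A)

/-- the action of `G` on `Map(G/N, A)`: `(g f)(t) = g (f (g⁻¹ t))` -/
def s56c_coindRep : Representation k G ((G ⧸ N) → A) where
  toFun g :=
    { toFun := fun f t => ρ g (f ((g : G ⧸ N)⁻¹ * t))
      map_add' := fun f f' => by funext t; simp
      map_smul' := fun c f => by funext t; simp }
  map_one' := by
    ext f t
    simp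
  map_mul' g h := by
    ext f t
    simp [mul_assoc]

@[simp] lemma s56c_coindRep_apply (g : G) (f : (G ⧸ N) → A) (t : G ⧸ N) :
    s56c_coindRep N ρ g f t = ρ g (f ((g : G ⧸ N)⁻¹ * t)) := rfl

variable (k) in
/-- constant functions -/
def s56c_const : A →ₗ[k] ((G ⧸ N) → A) where
  toFun a := fun _ => a
  map_add' _ _ := rfl
  map_smul' _ _ := rfl

@[simp] lemma s56c_const_apply (a : A) (t : G ⧸ N) : s56c_const N k a t = a := rfl

lemma s56c_coindRep_const (g : G) (a : A) :
    s56c_coindRep N ρ g (s56c_const N k a) = s56c_const N k (ρ g a) := rfl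

variable [N.FiniteIndex]

/-- `Fintype (G ⧸ N)` -/
noncomputable instance s56c_fintypeQuot : Fintype (G ⧸ N) :=
  Subgroup.fintypeQuotientOfFiniteIndex

variable (k) in
/-- the sum map `Map(G/N, A) → A` -/
noncomputable def s56c_sumMap : ((G ⧸ N) → A) →ₗ[k] A where
  toFun f := ∑ t, f t
  map_add' f f' := by simp [Finset.sum_add_distrib]
  map_smul' c f := by simp [Finset.smul_sum]

lemma s56c_sumMap_apply (f : (G ⧸ N) → A) : s56c_sumMap N k f = ∑ t, f t := rfl

lemma s56c_sumMap_coindRep (g : G) (f : (G ⧸ N) → A) :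
    s56c_sumMap N k (s56c_coindRep N ρ g f) = ρ g (s56c_sumMap N k f) := by
  simp only [s56c_sumMap_apply, s56c_coindRep_apply, map_sum]
  exact Fintype.sum_equiv (Equiv.mulLeft ((g : G ⧸ N)⁻¹)) _ _ (fun t => rfl)

variable (k) in
open Classical in
/-- the section at the unit coset -/
noncomputable def s56c_sec : A →ₗ[k] ((G ⧸ N) → A) :=
  LinearMap.single k (fun _ : G ⧸ N => A) 1

open Classical in
lemma s56c_sec_apply (a : A) (t : G ⧸ N) :
    s56c_sec N k a t = if t = 1 then a else 0 := by
  simp only [s56c_sec, LinearMap.single_apply, Pi.single_apply]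

lemma s56c_sec_one (a : A) : s56c_sec N k a 1 = a := by
  classical
  rw [s56c_sec_apply, if_pos rfl]

lemma s56c_sec_of_ne (a : A) {t : G ⧸ N} (ht : t ≠ 1) : s56c_sec N k a t = 0 := by
  classical
  rw [s56c_sec_apply, if_neg ht]

lemma s56c_sumMap_sec (a : A) : s56c_sumMap N k (s56c_sec N k a) = a := by
  classical
  rw [s56c_sumMap_apply, Finset.sum_eq_single (1 : G ⧸ N)]
  · exact s56c_sec_one N a
  · intro t _ ht
    exact s56c_sec_of_ne N a ht
  · intro h
    exact absurd (Finset.mem_univ _) h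

variable (k) in
/-- the kernel of the sum map -/
noncomputable def s56c_sumKer : Submodule k ((G ⧸ N) → A) := LinearMap.ker (s56c_sumMap N k)

lemma s56c_mem_sumKer (f : (G ⧸ N) → A) : f ∈ s56c_sumKer N k ↔ ∑ t, f t = 0 := by
  rw [s56c_sumKer, LinearMap.mem_ker, s56c_sumMap_apply]

lemma s56c_sumKer_le_comap (g : G) :
    s56c_sumKer N k ≤ (s56c_sumKer N k).comap (s56c_coindRep N ρ g) := by
  intro f hf
  rw [Submodule.mem_comap, s56c_sumKer, LinearMap.mem_ker, s56c_sumMap_coindRep]
  rw [s56c_sumKer, LinearMap.mem_ker] at hf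
  rw [hf, map_zero]

/-- the representation on the kernel of the sum map -/
noncomputable def s56c_sumKerRep : Representation k G ↥(s56c_sumKer N k (A := A)) :=
  (s56c_coindRep N ρ).subrepresentation (s56c_sumKer N k) (s56c_sumKer_le_comap N ρ)

@[simp] lemma s56c_sumKerRep_coe (g : G) (f : ↥(s56c_sumKer N k (A := A))) :
    ((s56c_sumKerRep N ρ g f : ↥(s56c_sumKer N k (A := A))) : (G ⧸ N) → A)
      = s56c_coindRep N ρ g (f : (G ⧸ N) → A) := rfl

end Coind

section Triv

variable {G : Type*} [Group G] {𝓛 : ptd_Levels G} (N : Subgroup G) [N.Normal]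
variable {k : Type*} [CommRing k] {A : Type*} [AddCommGroup A] [Module k A]
variable {ρ : Representation k G A}

/-- if `ρ` is trivial on a level contained in `N`, so is `Map(G/N, A)` -/
lemma s56c_coindRep_eq_one {n : G} (hn : n ∈ N) (hρ : ρ n = 1) : s56c_coindRep N ρ n = 1 := by
  ext f t
  have : ((n : G) : G ⧸ N) = 1 := (QuotientGroup.eq_one_iff n).2 hn
  simp [this, hρ]

lemma s56c_isTrivOnLevel_coindRep {N' : Subgroup G} (hN' : N' ∈ 𝓛.lev) (hle : N' ≤ N)
    (hρ : ∀ n ∈ N', ρ n = 1) : ptd_IsTrivOnLevel 𝓛 (s56c_coindRep N ρ) :=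
  ⟨N', hN', fun n hn => s56c_coindRep_eq_one N (hle hn) (hρ n hn)⟩

lemma s56c_isTrivOnLevel_sumKerRep [N.FiniteIndex] {N' : Subgroup G} (hN' : N' ∈ 𝓛.lev)
    (hle : N' ≤ N) (hρ : ∀ n ∈ N', ρ n = 1) : ptd_IsTrivOnLevel 𝓛 (s56c_sumKerRep N ρ) := by
  refine ⟨N', hN', fun n hn => ?_⟩
  ext f : 2
  rw [s56c_sumKerRep_coe, s56c_coindRep_eq_one N (hle hn) (hρ n hn)]
  rfl

end Triv

section Pairing

variable {G : Type*} [Group G] (N : Subgroup G) [N.Normal] [N.FiniteIndex]
variable {k : Type*} [CommRing k]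
variable {M M' : Type*} [AddCommGroup M] [Module k M] [AddCommGroup M'] [Module k M']
variable (χ : G →* kˣ) (ρM : Representation k G M) (ρM' : Representation k G M')
variable (β : M →ₗ[k] M' →ₗ[k] k)

/-- the pairing `β_B (f, f') = ∑_t β (f t) (f' t)` on `Map(G/N, M) × Map(G/N, M')` -/
noncomputable def s56c_coindPairing : ((G ⧸ N) → M) →ₗ[k] ((G ⧸ N) → M') →ₗ[k] k :=
  LinearMap.mk₂ k (fun f f' => ∑ t, β (f t) (f' t))
    (fun f₁ f₂ f' => by simp [Finset.sum_add_distrib])
    (fun c f f' => by simp [Finset.mul_sum])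
    (fun f f₁ f₂ => by simp [Finset.sum_add_distrib])
    (fun c f f' => by simp [Finset.mul_sum])

lemma s56c_coindPairing_apply (f : (G ⧸ N) → M) (f' : (G ⧸ N) → M') :
    s56c_coindPairing N β f f' = ∑ t, β (f t) (f' t) := rfl

variable {χ ρM ρM' β}

lemma s56c_isEqvPairing_coind (hβ : s56c_IsEqvPairing χ ρM ρM' β) :
    s56c_IsEqvPairing χ (s56c_coindRep N ρM) (s56c_coindRep N ρM') (s56c_coindPairing N β) := by
  intro g f f'
  rw [s56c_coindPairing_apply, s56c_coindPairing_apply, Finset.mul_sum]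
  refine Fintype.sum_equiv (Equiv.mulLeft ((g : G ⧸ N)⁻¹)) _ _ (fun t => ?_)
  rw [s56c_coindRep_apply, s56c_coindRep_apply, hβ]
  rfl

lemma s56c_coindPairing_const (m : M) (f' : (G ⧸ N) → M') :
    s56c_coindPairing N β (s56c_const N k m) f' = β m (s56c_sumMap N k f') := by
  simp only [s56c_coindPairing_apply, s56c_const_apply, s56c_sumMap_apply, map_sum]

lemma s56c_coindPairing_sec (f : (G ⧸ N) → M) (m' : M') :
    s56c_coindPairing N β f (s56c_sec N k m') = β (f 1) m' := by
  classical
  rw [s56c_coindPairing_apply, Finset.sum_eq_single (1 : G ⧸ N)]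
  · rw [s56c_sec_one]
  · intro t _ ht
    rw [s56c_sec_of_ne N m' ht, map_zero]
  · intro h
    exact absurd (Finset.mem_univ _) h

lemma s56c_coindPairing_single_right [DecidableEq (G ⧸ N)] (f : (G ⧸ N) → M) (t : G ⧸ N)
    (m' : M') : s56c_coindPairing N β f (Pi.single t m') = β (f t) m' := by
  rw [s56c_coindPairing_apply, Finset.sum_eq_single t]
  · rw [Pi.single_eq_same]
  · intro s _ hs
    rw [Pi.single_eq_of_ne hs, map_zero]
  · intro h
    exact absurd (Finset.mem_univ _) h

lemma s56c_coindPairing_single_left [DecidableEq (G ⧸ N)] (t : G ⧸ N) (m : M)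
    (f' : (G ⧸ N) → M') : s56c_coindPairing N β (Pi.single t m) f' = β m (f' t) := by
  rw [s56c_coindPairing_apply, Finset.sum_eq_single t]
  · rw [Pi.single_eq_same]
  · intro s _ hs
    rw [Pi.single_eq_of_ne hs, map_zero, LinearMap.zero_apply]
  · intro h
    exact absurd (Finset.mem_univ _) h

lemma s56c_coindPairing_nondeg_left (hβl : ∀ m : M, (∀ m' : M', β m m' = 0) → m = 0)
    (b : (G ⧸ N) → M) (hb : ∀ b' : (G ⧸ N) → M', s56c_coindPairing N β b b' = 0) : b = 0 := by
  classical
  funext t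
  apply hβl
  intro m'
  rw [← s56c_coindPairing_single_right N b t m']
  exact hb _

lemma s56c_coindPairing_nondeg_right (hβr : ∀ m' : M', (∀ m : M, β m m' = 0) → m' = 0)
    (b' : (G ⧸ N) → M') (hb : ∀ b : (G ⧸ N) → M, s56c_coindPairing N β b b' = 0) : b' = 0 := by
  classical
  funext t
  apply hβr
  intro m
  rw [← s56c_coindPairing_single_left N t m b']
  exact hb _

/-- `β_B (f, g • sec m') = β (f ḡ) (g m')` -/
lemma s56c_coindPairing_coindRep_sec (f : (G ⧸ N) → M) (g : G) (m' : M') :
    s56c_coindPairing N β f (s56c_coindRep N ρM' g (s56c_sec N k m'))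
      = β (f (g : G ⧸ N)) (ρM' g m') := by
  classical
  rw [s56c_coindPairing_apply, Finset.sum_eq_single ((g : G ⧸ N))]
  · rw [s56c_coindRep_apply, inv_mul_cancel, s56c_sec_one]
  · intro t _ ht
    rw [s56c_coindRep_apply, s56c_sec_of_ne N m', map_zero, map_zero]
    intro h
    apply ht
    rw [← mul_right_inj ((g : G ⧸ N)⁻¹), h, inv_mul_cancel]
  · intro h
    exact absurd (Finset.mem_univ _) h

/-- if `β` is left-nondegenerate, a function orthogonal to the kernel of the sum map is
constant -/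
lemma s56c_eq_const_of_orth (hβl : ∀ m : M, (∀ m' : M', β m m' = 0) → m = 0)
    (b : (G ⧸ N) → M)
    (hb : ∀ f' ∈ s56c_sumKer N k (A := M'), s56c_coindPairing N β b f' = 0) :
    b = s56c_const N k (b 1) := by
  classical
  funext t
  rw [s56c_const_apply, ← sub_eq_zero]
  apply hβl
  intro m'
  by_cases ht : t = 1
  · rw [ht, sub_self, map_zero, LinearMap.zero_apply]
  have hmem : (Pi.single t m' - Pi.single 1 m' : (G ⧸ N) → M') ∈ s56c_sumKer N k := by
    rw [s56c_mem_sumKer]
    simp only [Pi.sub_apply, Finset.sum_sub_distrib, Finset.sum_pi_single', Finset.mem_univ,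
      if_true, sub_self]
  have h := hb _ hmem
  rw [s56c_coindPairing_apply] at h
  simp only [Pi.sub_apply, map_sub, Finset.sum_sub_distrib] at h
  rw [Finset.sum_eq_single t, Finset.sum_eq_single (1 : G ⧸ N)] at h
  · simpa using h
  · intro s _ hs
    rw [Pi.single_eq_of_ne hs, map_zero]
  · intro h'
    exact absurd (Finset.mem_univ _) h'
  · intro s _ hs
    rw [Pi.single_eq_of_ne hs, map_zero]
  · intro h'
    exact absurd (Finset.mem_univ _) h'

end Pairing

end Fermat.Agent.Lib.S56
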