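/-
S56, PROGRAMME W, wall [W3] (helper3, prefix `s56c_`): the abstract local formation
(`s56c_Formation`: `μ_p = ζ (ZMod p) ⊂ C` with character `χ`, `(0,2)`-duality for all finite
level-trivial modules), the spaces `LZ²`, `B²`, `H²` as `ZMod p`-vector spaces, the map
`a : (M)^G → Dual H²(M')` for a `χ`-pairing `β : M × M' → ZMod p`, the dictionary
`Hom_G(M', C) = {ζ ∘ β m | m ∈ M^G}` and the surjectivity of `a`.
-/
import Mathlib
import Fermat.Agent.Lib.S56.CCoind
import Fermat.Agent.Lib.PT.AssemblyTop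

set_option autoImplicit false
set_option linter.unusedSectionVars false

namespace Fermat.Agent.Lib.S56

open Fermat.Agent.Lib.PT Module

section Spaces

variable {G : Type*} [Group G] (𝓛 : ptd_Levels G) {k : Type*} [CommRing k]
variable {X : Type*} [AddCommGroup X] [Module k X] (ρX : Representation k G X)

lemma s56c_isZ2_smul (c : k) {z : G × G → X} (hz : ptd_IsZ2 ρX z) : ptd_IsZ2 ρX (c • z) := by
  intro g h j
  simp only [Pi.smul_apply, map_smul]
  rw [← smul_add, hz g h j, smul_add]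

lemma s56c_d1_smul (c : k) (φ : G → X) : ptd_d1 ρX (c • φ) = c • ptd_d1 ρX φ := by
  funext ⟨g, h⟩
  simp only [ptd_d1_apply, Pi.smul_apply, map_smul, smul_add, smul_sub]

/-- level 2-cocycles as a submodule -/
def s56c_LZ2 : Submodule k (G × G → X) where
  carrier := {z | ptd_IsLZ2 𝓛 ρX z}
  add_mem' h h' := h.add h'
  zero_mem' := ptd_isLZ2_zero
  smul_mem' c _ h := ⟨s56c_isZ2_smul ρX c h.1, h.2.comp (c • ·)⟩

/-- level 2-coboundaries as a submodule -/
def s56c_B2 : Submodule k (G × G → X) where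
  carrier := {z | ptd_IsB2 𝓛 ρX z}
  add_mem' h h' := h.add h'
  zero_mem' := ptd_isB2_zero
  smul_mem' c _ h := by
    obtain ⟨φ, hφ, rfl⟩ := h
    exact ⟨c • φ, hφ.comp (c • ·), (s56c_d1_smul ρX c φ).symm⟩

lemma s56c_mem_LZ2 (z : G × G → X) : z ∈ s56c_LZ2 𝓛 ρX ↔ ptd_IsLZ2 𝓛 ρX z := Iff.rfl

lemma s56c_mem_B2 (z : G × G → X) : z ∈ s56c_B2 𝓛 ρX ↔ ptd_IsB2 𝓛 ρX z := Iff.rfl

/-- `H² = LZ² / B²` -/
abbrev s56c_H2 : Type _ := ↥(s56c_LZ2 𝓛 ρX) ⧸ (s56c_B2 𝓛 ρX).comap (s56c_LZ2 𝓛 ρX).subtype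

end Spaces

section Formation

variable {G : Type} [Group G] {𝓛 : ptd_Levels G} {C : Type*} [AddCommGroup C]
variable {ρC : Representation ℤ G C} {p : ℕ} [Fact p.Prime]

/-- The abstract local formation: an invariant map, `μ_p ⊂ C` with its character, and
`(0,2)`-duality for every finite module trivial on a level. -/
structure s56c_Formation (inv : ptd_Inv 𝓛 ρC (ZMod p) p) (ζ : ZMod p →+ C)
    (χ : G →* (ZMod p)ˣ) : Prop where
  ζ_inj : Function.Injective ζ
  ζ_tors : ∀ c : C, p • c = 0 → ∃ a, ζ a = c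
  ζ_eqv : ∀ g a, ρC g (ζ a) = ζ ((χ g : ZMod p) * a)
  nondegH2 : ∀ (X : Type) [AddCommGroup X] [Module (ZMod p) X] [Module.Finite (ZMod p) X]
    (ρX : Representation (ZMod p) G X), ptd_IsTrivOnLevel 𝓛 ρX → ptd_NondegH2 𝓛 ρC inv ρX
  nondegHom : ∀ (X : Type) [AddCommGroup X] [Module (ZMod p) X] [Module.Finite (ZMod p) X]
    (ρX : Representation (ZMod p) G X), ptd_IsTrivOnLevel 𝓛 ρX → ptd_NondegHom 𝓛 ρC inv ρX

variable {inv : ptd_Inv 𝓛 ρC (ZMod p) p} {ζ : ZMod p →+ C} {χ : G →* (ZMod p)ˣ}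

lemma s56c_Formation.isEquivariant_ζ (F : s56c_Formation inv ζ χ) :
    ptd_IsEquivariant ρC (s56c_chiRep χ) ζ := fun g a => by
  rw [s56c_chiRep_apply, F.ζ_eqv]

variable {M M' : Type} [AddCommGroup M] [Module (ZMod p) M] [AddCommGroup M']
  [Module (ZMod p) M']
variable {ρM : Representation (ZMod p) G M} {ρM' : Representation (ZMod p) G M'}
variable {β : M →ₗ[ZMod p] M' →ₗ[ZMod p] ZMod p}

/-- the additive map `ζ ∘ β m : M' → C` -/
def s56c_homOf (ζ : ZMod p →+ C) (β : M →ₗ[ZMod p] M' →ₗ[ZMod p] ZMod p) (m : M) : M' →+ C :=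
  ζ.comp (β m).toAddMonoidHom

@[simp] lemma s56c_homOf_apply (m : M) (m' : M') : s56c_homOf ζ β m m' = ζ (β m m') := rfl

/-- `ζ ∘ β m` is equivariant for invariant `m` -/
lemma s56c_Formation.isEquivariant_homOf (F : s56c_Formation inv ζ χ)
    (hβ : s56c_IsEqvPairing χ ρM ρM' β) {m : M} (hm : ∀ g, ρM g m = m) :
    ptd_IsEquivariant ρC ρM' (s56c_homOf ζ β m) := by
  intro g m'
  rw [s56c_homOf_apply, s56c_homOf_apply, F.ζ_eqv, ← hβ g m m', hm g]

/-- **dictionary**: every equivariant additive map `M' → C` is `ζ ∘ β m` for an invariant `m` -/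
lemma s56c_Formation.exists_of_isEquivariant (F : s56c_Formation inv ζ χ)
    [Module.Finite (ZMod p) M] [Module.Finite (ZMod p) M']
    (hβ : s56c_IsEqvPairing χ ρM ρM' β)
    (hβl : ∀ m : M, (∀ m' : M', β m m' = 0) → m = 0)
    (hβr : ∀ m' : M', (∀ m : M, β m m' = 0) → m' = 0)
    {f : M' →+ C} (hf : ptd_IsEquivariant ρC ρM' f) :
    ∃ m : M, (∀ g, ρM g m = m) ∧ ∀ m', f m' = ζ (β m m') := by
  have hex : ∀ m', ∃ c, ζ c = f m' := fun m' => F.ζ_tors _ (by
    rw [← map_nsmul, ZModModule.char_nsmul_eq_zero p m', map_zero])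
  choose φ hφ using hex
  have hadd : ∀ a b, φ (a + b) = φ a + φ b := fun a b => by
    apply F.ζ_inj
    rw [map_add, hφ, hφ, hφ, map_add]
  let φl : Module.Dual (ZMod p) M' := (AddMonoidHom.mk' φ hadd).toZModLinearMap p
  -- `β : M → Dual M'` is bijective
  have hinj : Function.Injective β := by
    rw [← LinearMap.ker_eq_bot, LinearMap.ker_eq_bot']
    intro m hm
    exact hβl m fun m' => by rw [hm]; rfl
  have hinj' : Function.Injective β.flip := by
    rw [← LinearMap.ker_eq_bot, LinearMap.ker_eq_bot']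
    intro m' hm'
    exact hβr m' fun m => by
      have := LinearMap.congr_fun hm' m
      simpa using this
  have hdim : finrank (ZMod p) M = finrank (ZMod p) (Module.Dual (ZMod p) M') := by
    apply le_antisymm (LinearMap.finrank_le_finrank_of_injective hinj)
    rw [Subspace.dual_finrank_eq]
    have := LinearMap.finrank_le_finrank_of_injective hinj'
    rwa [Subspace.dual_finrank_eq] at this
  have hsurj : Function.Surjective β :=
    (LinearMap.injective_iff_surjective_of_finrank_eq_finrank hdim).1 hinj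
  obtain ⟨m, hm⟩ := hsurj φl
  have hmφ : ∀ m', β m m' = φ m' := fun m' => LinearMap.congr_fun hm m'
  refine ⟨m, fun g => ?_, fun m' => by rw [hmφ, hφ]⟩
  rw [← sub_eq_zero]
  apply hβl
  intro m'
  rw [map_sub, LinearMap.sub_apply, sub_eq_zero]
  apply F.ζ_inj
  rw [hβ.apply_left g m m', ← F.ζ_eqv, hmφ, hmφ, hφ, hφ, ← hf g (ρM' g⁻¹ m'),
    ← Module.End.mul_apply, ← map_mul, mul_inv_cancel, map_one, Module.End.one_apply]

end Formation

end Fermat.Agent.Lib.S56
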