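/-
S56, PROGRAMME W, wall [W3] (helper3, prefix `s56c_`): the `(0,2)`-pairing map
`a : M^G → Dual H²(M')`, `a m [z] = inv (ζ ∘ β m ∘ z)`, its right-nondegeneracy and surjectivity
from the formation, and the linear-algebra extension lemma used in the dimension shifting.
-/
import Mathlib
import Fermat.Agent.Lib.S56.CForm

set_option autoImplicit false
set_option linter.unusedSectionVars false

namespace Fermat.Agent.Lib.S56

open Fermat.Agent.Lib.PT Module

section Ext

variable {k : Type*} [Field k] {E V V' : Type*}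
variable [AddCommGroup E] [Module k E] [AddCommGroup V] [Module k V] [AddCommGroup V'] [Module k V']

/-- If `a : E → Dual V'` is right-nondegenerate with `E` finite-dimensional, every functional on
`V` killing `ker i` (`i : V → V'`) is of the form `v ↦ a e (i v)`. -/
lemma s56c_exists_of_ker_le [FiniteDimensional k E] (a : E →ₗ[k] Dual k V')
    (ha : ∀ x : V', (∀ e : E, a e x = 0) → x = 0) (i : V →ₗ[k] V') (Φ : Dual k V)
    (h : LinearMap.ker i ≤ LinearMap.ker Φ) : ∃ e : E, ∀ v, a e (i v) = Φ v := by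
  have hΦ : Φ ∈ (LinearMap.ker i).dualAnnihilator := by
    rw [Submodule.mem_dualAnnihilator]
    intro v hv
    exact h hv
  rw [← LinearMap.range_dualMap_eq_dualAnnihilator_ker] at hΦ
  obtain ⟨Ψ, hΨ⟩ := hΦ
  obtain ⟨e, he⟩ := pts_surjective_of_right_nondeg a ha Ψ
  refine ⟨e, fun v => ?_⟩
  rw [he, ← hΨ]
  rfl

end Ext

section A02

variable {G : Type} [Group G] {𝓛 : ptd_Levels G} {C : Type*} [AddCommGroup C]
variable {ρC : Representation ℤ G C} {p : ℕ} [Fact p.Prime]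
variable {inv : ptd_Inv 𝓛 ρC (ZMod p) p} {ζ : ZMod p →+ C} {χ : G →* (ZMod p)ˣ}
variable {M M' : Type} [AddCommGroup M] [Module (ZMod p) M] [AddCommGroup M']
  [Module (ZMod p) M']
variable {ρM : Representation (ZMod p) G M} {ρM' : Representation (ZMod p) G M'}
variable {β : M →ₗ[ZMod p] M' →ₗ[ZMod p] ZMod p}
variable (F : s56c_Formation inv ζ χ) (hβ : s56c_IsEqvPairing χ ρM ρM' β)

lemma s56c_nsmul_eq_zero (m' : M') : p • m' = 0 := ZModModule.char_nsmul_eq_zero p m'

/-- the functional `z ↦ inv (ζ ∘ β m ∘ z)` on level cocycles of `M'`, for invariant `m` -/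
noncomputable def s56c_a02Fun (m : ↥ρM.invariants) : ↥(s56c_LZ2 𝓛 ρM') →+ ZMod p :=
  AddMonoidHom.mk' (fun z => inv (fun x => s56c_homOf ζ β m.1 ((z : G × G → M') x)))
    (fun z z' => pts_inv_map_add 𝓛 inv s56c_nsmul_eq_zero (F.isEquivariant_homOf hβ m.2)
      z.2 z'.2)

lemma s56c_a02Fun_apply (m : ↥ρM.invariants) (z : ↥(s56c_LZ2 𝓛 ρM')) :
    s56c_a02Fun F hβ m z = inv (fun x => ζ (β m.1 ((z : G × G → M') x))) := rfl

/-- `a m : H²(M') → ZMod p` -/
noncomputable def s56c_a02Lin (m : ↥ρM.invariants) : Dual (ZMod p) (s56c_H2 𝓛 ρM') :=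
  Submodule.liftQ _ ((s56c_a02Fun F hβ m).toZModLinearMap p) (fun z hz => by
    rw [LinearMap.mem_ker, AddMonoidHom.coe_toZModLinearMap]
    exact pts_inv_map_b2 𝓛 inv (F.isEquivariant_homOf hβ m.2) hz)

lemma s56c_a02Lin_mk (m : ↥ρM.invariants) (z : ↥(s56c_LZ2 𝓛 ρM')) :
    s56c_a02Lin F hβ m (Submodule.Quotient.mk z)
      = inv (fun x => ζ (β m.1 ((z : G × G → M') x))) := rfl

/-- **the map `a : M^G → Dual H²(M')`** -/
noncomputable def s56c_a02 : ↥ρM.invariants →ₗ[ZMod p] Dual (ZMod p) (s56c_H2 𝓛 ρM') :=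
  (AddMonoidHom.mk' (fun m => s56c_a02Lin F hβ m) (fun m m' => by
    refine LinearMap.ext fun h => ?_
    obtain ⟨z, rfl⟩ := Submodule.mkQ_surjective _ h
    rw [LinearMap.add_apply]
    change s56c_a02Lin F hβ (m + m') (Submodule.Quotient.mk z)
      = s56c_a02Lin F hβ m (Submodule.Quotient.mk z)
        + s56c_a02Lin F hβ m' (Submodule.Quotient.mk z)
    rw [s56c_a02Lin_mk, s56c_a02Lin_mk, s56c_a02Lin_mk]
    have := pts_inv_add_map 𝓛 inv s56c_nsmul_eq_zero (F.isEquivariant_homOf hβ m.2)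
      (F.isEquivariant_homOf hβ m'.2) z.2
    refine Eq.trans ?_ this
    congr 1
    funext x
    rw [AddMonoidHom.add_apply, s56c_homOf_apply, s56c_homOf_apply, ← map_add,
      Submodule.coe_add, map_add, LinearMap.add_apply])).toZModLinearMap p

lemma s56c_a02_mk (m : ↥ρM.invariants) (z : ↥(s56c_LZ2 𝓛 ρM')) :
    s56c_a02 F hβ m (Submodule.Quotient.mk z)
      = inv (fun x => ζ (β m.1 ((z : G × G → M') x))) := rfl

/-- right-nondegeneracy of `a` from `ptd_NondegH2` and the dictionary -/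
theorem s56c_a02_right_nondeg [Module.Finite (ZMod p) M] [Module.Finite (ZMod p) M']
    (hβl : ∀ m : M, (∀ m' : M', β m m' = 0) → m = 0)
    (hβr : ∀ m' : M', (∀ m : M, β m m' = 0) → m' = 0)
    (hM' : ptd_IsTrivOnLevel 𝓛 ρM') (h : s56c_H2 𝓛 ρM')
    (h0 : ∀ m : ↥ρM.invariants, s56c_a02 F hβ m h = 0) : h = 0 := by
  obtain ⟨z, rfl⟩ := Submodule.mkQ_surjective _ h
  change Submodule.Quotient.mk z = 0
  rw [Submodule.Quotient.mk_eq_zero, Submodule.mem_comap, Submodule.subtype_apply, s56c_mem_B2]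
  refine F.nondegH2 M' ρM' hM' _ z.2 fun f hf => ?_
  obtain ⟨m, hm, hfm⟩ := F.exists_of_isEquivariant hβ hβl hβr hf
  have := h0 ⟨m, hm⟩
  change s56c_a02 F hβ ⟨m, hm⟩ (Submodule.Quotient.mk z) = 0 at this
  rw [s56c_a02_mk] at this
  rw [← this]
  congr 1
  funext x
  exact hfm _

end A02

end Fermat.Agent.Lib.S56
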