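/-
S56, PROGRAMME W, wall [W3] (helper3, prefix `s56c_`): **local Tate duality in degrees `(1,1)` for
an abstract local formation**, by dimension shifting along `M ↪ Map(G/N, M)`.

`s56c_pair inv ζ ρM' β x y = inv (ζ ∘ (x ∪ y))`; biadditivity on level cocycles, vanishing on
coboundaries, graded commutativity; `s56c_isB1_of_pair_left`: a level 1-cocycle `x` of `M`
orthogonal to all level 1-cocycles of `M'` is a coboundary; `s56c_isB1_of_pair_right`: the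
symmetric statement.
-/
import Mathlib
import Fermat.Agent.Lib.S56.CPair
import Fermat.Agent.Lib.PT.SylH1

set_option autoImplicit false
set_option linter.unusedSectionVars false

namespace Fermat.Agent.Lib.S56

open Fermat.Agent.Lib.PT Module

section Pair

variable {G : Type} [Group G] {𝓛 : ptd_Levels G} {C : Type*} [AddCommGroup C]
variable {ρC : Representation ℤ G C} {p : ℕ} [Fact p.Prime]
variable {inv : ptd_Inv 𝓛 ρC (ZMod p) p} {ζ : ZMod p →+ C} {χ : G →* (ZMod p)ˣ}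
variable {M M' : Type} [AddCommGroup M] [Module (ZMod p) M] [AddCommGroup M']
  [Module (ZMod p) M']
variable {ρM : Representation (ZMod p) G M} {ρM' : Representation (ZMod p) G M'}
variable {β : M →ₗ[ZMod p] M' →ₗ[ZMod p] ZMod p}

/-- the `(1,1)`-pairing on cochains: `inv (ζ ∘ (x ∪ y))` -/
noncomputable def s56c_pair (inv : ptd_Inv 𝓛 ρC (ZMod p) p) (ζ : ZMod p →+ C)
    (ρM' : Representation (ZMod p) G M') (β : M →ₗ[ZMod p] M' →ₗ[ZMod p] ZMod p)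
    (x : G → M) (y : G → M') : ZMod p :=
  inv (fun gh => ζ (s56c_cupW ρM' β x y gh))

variable (F : s56c_Formation inv ζ χ) (hβ : s56c_IsEqvPairing χ ρM ρM' β)

include hβ in
lemma s56c_isLZ2_cupW (hd : ptd_IsDiscrete 𝓛 ρM') {x : G → M} {y : G → M'}
    (hx : ptd_IsLZ1 𝓛 ρM x) (hy : ptd_IsLZ1 𝓛 ρM' y) :
    ptd_IsLZ2 𝓛 (s56c_chiRep χ) (s56c_cupW ρM' β x y) :=
  ⟨s56c_isZ2_cupW hβ hx.1 hy.1, s56c_isLev₂_cupW hd hx.2 hy.2⟩

lemma s56c_isLZ1_add {x x' : G → M} (hx : ptd_IsLZ1 𝓛 ρM x) (hx' : ptd_IsLZ1 𝓛 ρM x') :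
    ptd_IsLZ1 𝓛 ρM (x + x') := by
  refine ⟨fun g h => ?_, hx.2.add hx'.2⟩
  simp only [Pi.add_apply, hx.1 g h, hx'.1 g h, map_add]
  abel

include F hβ in
lemma s56c_pair_add_left (hd : ptd_IsDiscrete 𝓛 ρM') {x x' : G → M} {y : G → M'}
    (hx : ptd_IsLZ1 𝓛 ρM x) (hx' : ptd_IsLZ1 𝓛 ρM x') (hy : ptd_IsLZ1 𝓛 ρM' y) :
    s56c_pair inv ζ ρM' β (x + x') y
      = s56c_pair inv ζ ρM' β x y + s56c_pair inv ζ ρM' β x' y := by
  unfold s56c_pair
  rw [s56c_cupW_add_left]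
  exact pts_inv_map_add 𝓛 inv (fun m => ZModModule.char_nsmul_eq_zero p m) F.isEquivariant_ζ
    (s56c_isLZ2_cupW hβ hd hx hy) (s56c_isLZ2_cupW hβ hd hx' hy)

include F hβ in
lemma s56c_pair_add_right (hd : ptd_IsDiscrete 𝓛 ρM') {x : G → M} {y y' : G → M'}
    (hx : ptd_IsLZ1 𝓛 ρM x) (hy : ptd_IsLZ1 𝓛 ρM' y) (hy' : ptd_IsLZ1 𝓛 ρM' y') :
    s56c_pair inv ζ ρM' β x (y + y')
      = s56c_pair inv ζ ρM' β x y + s56c_pair inv ζ ρM' β x y' := by
  unfold s56c_pair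
  rw [s56c_cupW_add_right]
  exact pts_inv_map_add 𝓛 inv (fun m => ZModModule.char_nsmul_eq_zero p m) F.isEquivariant_ζ
    (s56c_isLZ2_cupW hβ hd hx hy) (s56c_isLZ2_cupW hβ hd hx hy')

include F hβ in
/-- `da ∪ y` pairs to zero -/
lemma s56c_pair_d0_left (a : M) {y : G → M'} (hy : ptd_IsLZ1 𝓛 ρM' y) :
    s56c_pair inv ζ ρM' β (ptd_d0 ρM a) y = 0 := by
  unfold s56c_pair
  rw [s56c_cupW_d0_left hβ a hy.1]
  exact pts_inv_map_b2 𝓛 inv F.isEquivariant_ζ ⟨_, hy.2.comp (fun m' => β a m'), rfl⟩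

include F hβ in
/-- `x ∪ da'` pairs to zero -/
lemma s56c_pair_d0_right (hd : ptd_IsDiscrete 𝓛 ρM') {x : G → M} (hx : ptd_IsLZ1 𝓛 ρM x)
    (a' : M') : s56c_pair inv ζ ρM' β x (ptd_d0 ρM' a') = 0 := by
  unfold s56c_pair
  rw [s56c_cupW_d0_right hβ hx.1 a']
  refine pts_inv_map_b2 𝓛 inv F.isEquivariant_ζ (ptd_IsB2.neg ⟨_, ?_, rfl⟩)
  obtain ⟨N₁, hN₁, hfix⟩ := hd a'
  have h1 : ptd_IsLev₁ 𝓛 (fun g : G => ρM' g a') := by
    refine ⟨N₁, hN₁, fun g n hn => ?_⟩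
    simp only
    rw [map_mul, Module.End.mul_apply, hfix n hn]
  exact hx.2.map₂ h1 (fun m m' => β m m')

include F hβ in
/-- graded commutativity of the pairing -/
lemma s56c_pair_comm (hd : ptd_IsDiscrete 𝓛 ρM) (hd' : ptd_IsDiscrete 𝓛 ρM') {x : G → M}
    {y : G → M'} (hx : ptd_IsLZ1 𝓛 ρM x) (hy : ptd_IsLZ1 𝓛 ρM' y) :
    s56c_pair inv ζ ρM' β x y + s56c_pair inv ζ ρM β.flip y x = 0 := by
  unfold s56c_pair
  rw [← pts_inv_map_add 𝓛 inv (fun m => ZModModule.char_nsmul_eq_zero p m) F.isEquivariant_ζ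
    (s56c_isLZ2_cupW hβ hd' hx hy) (s56c_isLZ2_cupW hβ.flip hd hy hx), s56c_cupW_comm hβ hx.1 hy.1]
  exact pts_inv_map_b2 𝓛 inv F.isEquivariant_ζ
    (ptd_IsB2.neg ⟨_, hx.2.map₂ hy.2 (fun m m' => β m m'), rfl⟩)

end Pair

section Shift

variable {G : Type} [Group G] {𝓛 : ptd_Levels G} {C : Type*} [AddCommGroup C]
variable {ρC : Representation ℤ G C} {p : ℕ} [Fact p.Prime]
variable {inv : ptd_Inv 𝓛 ρC (ZMod p) p} {ζ : ZMod p →+ C} {χ : G →* (ZMod p)ˣ}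
variable {M M' : Type} [AddCommGroup M] [Module (ZMod p) M] [AddCommGroup M']
  [Module (ZMod p) M']
variable {ρM : Representation (ZMod p) G M} {ρM' : Representation (ZMod p) G M'}
variable {β : M →ₗ[ZMod p] M' →ₗ[ZMod p] ZMod p}
variable (N : Subgroup G) [N.Normal] [N.FiniteIndex]

/-- the restriction to `ker Σ` of `ζ ∘ β_B b` -/
noncomputable def s56c_kerHom (ζ : ZMod p →+ C) (β : M →ₗ[ZMod p] M' →ₗ[ZMod p] ZMod p)
    (b : (G ⧸ N) → M) : ↥(s56c_sumKer N (ZMod p) (A := M')) →+ C :=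
  (s56c_homOf ζ (s56c_coindPairing N β) b).comp
    (s56c_sumKer N (ZMod p) (A := M')).subtype.toAddMonoidHom

lemma s56c_kerHom_apply (b : (G ⧸ N) → M) (f' : ↥(s56c_sumKer N (ZMod p) (A := M'))) :
    s56c_kerHom N ζ β b f' = ζ (s56c_coindPairing N β b (f' : (G ⧸ N) → M')) := rfl

variable (F : s56c_Formation inv ζ χ) (hβ : s56c_IsEqvPairing χ ρM ρM' β)

include F hβ in
/-- if `b` is invariant modulo constants, `ζ ∘ β_B b` is equivariant on `ker Σ` -/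
lemma s56c_isEquivariant_kerHom {b : (G ⧸ N) → M}
    (hb : ∀ g, ∃ m, s56c_coindRep N ρM g b = b + s56c_const N (ZMod p) m) :
    ptd_IsEquivariant ρC (s56c_sumKerRep N ρM') (s56c_kerHom N ζ β b) := by
  intro g f'
  rw [s56c_kerHom_apply, s56c_kerHom_apply, s56c_sumKerRep_coe,
    (s56c_isEqvPairing_coind N hβ).apply_right g b (f' : (G ⧸ N) → M'), F.ζ_eqv]
  obtain ⟨m, hm⟩ := hb g⁻¹
  rw [hm, map_add, LinearMap.add_apply, s56c_coindPairing_const]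
  have : s56c_sumMap N (ZMod p) (f' : (G ⧸ N) → M') = 0 := f'.2
  rw [this, map_zero, add_zero]

/-- the 2-cocycle `d (sec ∘ y)` of `ker Σ ⊆ Map(G/N, M')` attached to a 1-cocycle `y` of `M'`
(the connecting map of `0 → ker Σ → Map(G/N, M') → M' → 0`) -/
noncomputable def s56c_liftCoc (y : G → M') (hy : ptd_IsZ1 ρM' y) :
    G × G → ↥(s56c_sumKer N (ZMod p) (A := M')) :=
  fun gh => ⟨ptd_d1 (s56c_coindRep N ρM') (fun g => s56c_sec N (ZMod p) (y g)) gh, by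
    obtain ⟨g, h⟩ := gh
    rw [s56c_sumKer, LinearMap.mem_ker, ptd_d1_apply, map_add, map_sub, s56c_sumMap_coindRep,
      s56c_sumMap_sec, s56c_sumMap_sec, s56c_sumMap_sec, hy g h]
    abel⟩

lemma s56c_liftCoc_coe (y : G → M') (hy : ptd_IsZ1 ρM' y) (gh : G × G) :
    ((s56c_liftCoc N y hy gh : ↥(s56c_sumKer N (ZMod p) (A := M'))) : (G ⧸ N) → M')
      = ptd_d1 (s56c_coindRep N ρM') (fun g => s56c_sec N (ZMod p) (y g)) gh := rfl

lemma s56c_isLZ2_liftCoc (hB' : ptd_IsDiscrete 𝓛 (s56c_coindRep N ρM')) {y : G → M'}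
    (hy : ptd_IsLZ1 𝓛 ρM' y) :
    ptd_IsLZ2 𝓛 (s56c_sumKerRep N ρM') (s56c_liftCoc N y hy.1) := by
  constructor
  · intro g h j
    apply Subtype.ext
    simp only [Submodule.coe_add, s56c_sumKerRep_coe, s56c_liftCoc_coe]
    exact ptd_isZ2_d1 _ g h j
  · obtain ⟨N', hN', h⟩ := ptd_isLev₂_d1 hB'
      (hy.2.comp (fun m' => s56c_sec N (ZMod p) m') :
        ptd_IsLev₁ 𝓛 (fun g => s56c_sec N (ZMod p) (y g)))
    exact ⟨N', hN', fun g g' n hn n' hn' => Subtype.ext (h g g' n hn n' hn')⟩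

/-- the key identity: `ζ ∘ β_B x̄ ∘ d (sec ∘ y) = ζ ∘ (x ∪ y)` -/
lemma s56c_kerHom_liftCoc {x : G → M} (hx : ptd_IsZ1 ρM x) {xb : (G ⧸ N) → M}
    (hxb : ∀ g : G, xb (g : G ⧸ N) = x g) {y : G → M'} (hy : ptd_IsZ1 ρM' y) (gh : G × G) :
    s56c_kerHom N ζ β xb (s56c_liftCoc N y hy gh) = ζ (s56c_cupW ρM' β x y gh) := by
  obtain ⟨g, h⟩ := gh
  have h1 : xb 1 = 0 := by
    have := hxb 1
    rw [ptn_isZ1_one ρM hx] at this
    exact this
  rw [s56c_kerHom_apply, s56c_liftCoc_coe, ptd_d1_apply, map_add, map_sub,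
    s56c_coindPairing_coindRep_sec, s56c_coindPairing_sec, s56c_coindPairing_sec, h1, hxb,
    map_zero, LinearMap.zero_apply, LinearMap.zero_apply, sub_zero, add_zero, s56c_cupW_apply]

include F hβ in
/-- a level 2-cocycle of `ker Σ` which becomes a level coboundary in `Map(G/N, M')` is, modulo
level coboundaries of `ker Σ`, the connecting cocycle of a level 1-cocycle of `M'`; hence
`inv (ζ ∘ β_B b ∘ z) = 0` as soon as this holds for the connecting cocycles. -/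
lemma s56c_inv_kerHom_of_isB2 (hB' : ptd_IsDiscrete 𝓛 (s56c_coindRep N ρM'))
    (hQ' : ptd_IsDiscrete 𝓛 (s56c_sumKerRep N ρM'))
    {b : (G ⧸ N) → M} (hb : ∀ g, ∃ m, s56c_coindRep N ρM g b = b + s56c_const N (ZMod p) m)
    (h0 : ∀ (y : G → M') (hy : ptd_IsLZ1 𝓛 ρM' y),
      inv (fun gh => s56c_kerHom N ζ β b (s56c_liftCoc N y hy.1 gh)) = 0)
    {z : G × G → ↥(s56c_sumKer N (ZMod p) (A := M'))}
    (hzB : ptd_IsB2 𝓛 (s56c_coindRep N ρM') (fun gh => (z gh : (G ⧸ N) → M'))) :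
    inv (fun gh => s56c_kerHom N ζ β b (z gh)) = 0 := by
  obtain ⟨φ, hφ, hzφ⟩ := hzB
  -- the 1-cocycle `y = Σ ∘ φ`
  obtain ⟨y, hyφ, hy⟩ : ∃ y : G → M', (∀ g, y g = s56c_sumMap N (ZMod p) (φ g)) ∧
      ptd_IsLZ1 𝓛 ρM' y := by
    refine ⟨fun g => s56c_sumMap N (ZMod p) (φ g), fun g => rfl, fun g h => ?_, hφ.comp _⟩
    have h1 : s56c_sumMap N (ZMod p) ((z (g, h) : (G ⧸ N) → M')) = 0 := (z (g, h)).2
    have h2 : ((z (g, h) : (G ⧸ N) → M')) = ptd_d1 (s56c_coindRep N ρM') φ (g, h) :=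
      congrFun hzφ (g, h)
    rw [h2, ptd_d1_apply, map_add, map_sub, s56c_sumMap_coindRep] at h1
    have h3 : ρM' g (s56c_sumMap N (ZMod p) (φ h)) + s56c_sumMap N (ZMod p) (φ g)
        - s56c_sumMap N (ZMod p) (φ (g * h)) = 0 := by
      rw [← h1]; abel
    exact (eq_of_sub_eq_zero h3).symm
  -- the level 1-cochain `φ - sec ∘ y` of `ker Σ`
  let φQ : G → ↥(s56c_sumKer N (ZMod p) (A := M')) := fun g =>
    ⟨φ g - s56c_sec N (ZMod p) (y g), by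
      rw [s56c_sumKer, LinearMap.mem_ker, map_sub, s56c_sumMap_sec, hyφ, sub_self]⟩
  have hφQ : ptd_IsLev₁ 𝓛 φQ := by
    obtain ⟨N', hN', h⟩ := hφ.sub (hy.2.comp (fun m' => s56c_sec N (ZMod p) m') :
      ptd_IsLev₁ 𝓛 (fun g => s56c_sec N (ZMod p) (y g)))
    exact ⟨N', hN', fun g n hn => Subtype.ext (h g n hn)⟩
  have hdec : z = s56c_liftCoc N y hy.1 + ptd_d1 (s56c_sumKerRep N ρM') φQ := by
    funext gh
    obtain ⟨g, h⟩ := gh
    apply Subtype.ext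
    have h2 : ((z (g, h) : (G ⧸ N) → M')) = ptd_d1 (s56c_coindRep N ρM') φ (g, h) :=
      congrFun hzφ (g, h)
    rw [h2, Pi.add_apply, Submodule.coe_add, s56c_liftCoc_coe, ptd_d1_apply, ptd_d1_apply,
      ptd_d1_apply]
    simp only [Submodule.coe_add, Submodule.coe_sub, s56c_sumKerRep_coe, φQ, map_sub]
    abel
  have heq := s56c_isEquivariant_kerHom N F hβ hb
  have hadd := pts_inv_map_add 𝓛 inv (fun m => ZModModule.char_nsmul_eq_zero p m) heq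
    (s56c_isLZ2_liftCoc N hB' hy) (ptd_IsB2.isLZ2 hQ' ⟨φQ, hφQ, rfl⟩)
  rw [hdec, hadd, h0 y hy, pts_inv_map_b2 𝓛 inv heq ⟨φQ, hφQ, rfl⟩, add_zero]

lemma s56c_isLZ2_coe {z : G × G → ↥(s56c_sumKer N (ZMod p) (A := M'))}
    (hz : ptd_IsLZ2 𝓛 (s56c_sumKerRep N ρM') z) :
    ptd_IsLZ2 𝓛 (s56c_coindRep N ρM') (fun gh => (z gh : (G ⧸ N) → M')) := by
  refine ⟨fun g h j => ?_, hz.2.comp _⟩
  have := congrArg (fun f : ↥(s56c_sumKer N (ZMod p) (A := M')) => (f : (G ⧸ N) → M')) (hz.1 g h j)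
  simpa only [Submodule.coe_add, s56c_sumKerRep_coe] using this

/-- `LZ²(ker Σ) → H²(Map(G/N, M'))` -/
noncomputable def s56c_inclH2 (𝓛 : ptd_Levels G) (ρM' : Representation (ZMod p) G M') :
    ↥(s56c_LZ2 𝓛 (s56c_sumKerRep N ρM')) →ₗ[ZMod p] s56c_H2 𝓛 (s56c_coindRep N ρM') :=
  (Submodule.mkQ _) ∘ₗ
    ((((s56c_sumKer N (ZMod p) (A := M')).subtype.compLeft (G × G)).domRestrict
      (s56c_LZ2 𝓛 (s56c_sumKerRep N ρM'))).codRestrict (s56c_LZ2 𝓛 (s56c_coindRep N ρM'))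
      (fun z => s56c_isLZ2_coe N z.2))

lemma s56c_inclH2_eq_zero_iff (z : ↥(s56c_LZ2 𝓛 (s56c_sumKerRep N ρM'))) :
    s56c_inclH2 N 𝓛 ρM' z = 0 ↔
      ptd_IsB2 𝓛 (s56c_coindRep N ρM')
        (fun gh => ((z : G × G → ↥(s56c_sumKer N (ZMod p) (A := M'))) gh : (G ⧸ N) → M')) := by
  rw [s56c_inclH2, LinearMap.comp_apply, Submodule.mkQ_apply, Submodule.Quotient.mk_eq_zero,
    Submodule.mem_comap, s56c_mem_B2]
  rfl

end Shift

section Main

variable {G : Type} [Group G] {𝓛 : ptd_Levels G} {C : Type*} [AddCommGroup C]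
variable {ρC : Representation ℤ G C} {p : ℕ} [Fact p.Prime]
variable {inv : ptd_Inv 𝓛 ρC (ZMod p) p} {ζ : ZMod p →+ C} {χ : G →* (ZMod p)ˣ}
variable {M M' : Type} [AddCommGroup M] [Module (ZMod p) M] [AddCommGroup M']
  [Module (ZMod p) M']
variable {ρM : Representation (ZMod p) G M} {ρM' : Representation (ZMod p) G M'}
variable {β : M →ₗ[ZMod p] M' →ₗ[ZMod p] ZMod p}

/-- **LEFT NONDEGENERACY of the `(1,1)`-pairing**: a level 1-cocycle `x` of `M` with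
`inv (ζ ∘ (x ∪ y)) = 0` for all level 1-cocycles `y` of `M'` is a coboundary. -/
theorem s56c_isB1_of_pair_left (F : s56c_Formation inv ζ χ)
    [Module.Finite (ZMod p) M] [Module.Finite (ZMod p) M']
    (hβ : s56c_IsEqvPairing χ ρM ρM' β)
    (hβl : ∀ m : M, (∀ m' : M', β m m' = 0) → m = 0)
    (hβr : ∀ m' : M', (∀ m : M, β m m' = 0) → m' = 0)
    (hM' : ptd_IsTrivOnLevel 𝓛 ρM')
    {x : G → M} (hx : ptd_IsLZ1 𝓛 ρM x)
    (h0 : ∀ y, ptd_IsLZ1 𝓛 ρM' y → s56c_pair inv ζ ρM' β x y = 0) : ptd_IsB1 ρM x := by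
  obtain ⟨hxz, N₁, hN₁, hxN⟩ := hx
  obtain ⟨N₂, hN₂, hM'N⟩ := hM'
  obtain ⟨N, hN, hle⟩ := 𝓛.directed N₁ hN₁ N₂ hN₂
  haveI := 𝓛.normal N hN
  haveI := 𝓛.finiteIndex N hN
  have hxN' : ∀ g, ∀ n ∈ N, x (g * n) = x g := fun g n hn => hxN g n (hle hn).1
  have hρN : ∀ n ∈ N, ρM' n = 1 := fun n hn => hM'N n (hle hn).2
  -- the descent of `x` to `G ⧸ N`
  let xb : G ⧸ N → M := Quotient.lift x (fun a b hab => by
    have hab' : a⁻¹ * b ∈ N := QuotientGroup.leftRel_apply.mp hab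
    have : b = a * (a⁻¹ * b) := by group
    rw [this]
    exact (hxN' a _ hab').symm)
  have hxb : ∀ g : G, xb (g : G ⧸ N) = x g := fun g => rfl
  -- `g • x̄ = x̄ - const (x g)`
  have hK : ∀ g : G, s56c_coindRep N ρM g xb = xb + s56c_const N (ZMod p) (- x g) := by
    intro g
    funext t
    induction t using QuotientGroup.induction_on with
    | H s =>
      rw [s56c_coindRep_apply, Pi.add_apply, s56c_const_apply, ← QuotientGroup.mk_inv,
        ← QuotientGroup.mk_mul, hxb, hxb]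
      have := hxz g (g⁻¹ * s)
      rw [mul_inv_cancel_left] at this
      rw [this]
      abel
  have hB'triv : ptd_IsTrivOnLevel 𝓛 (s56c_coindRep N ρM') :=
    s56c_isTrivOnLevel_coindRep N hN le_rfl hρN
  have hQ'triv : ptd_IsTrivOnLevel 𝓛 (s56c_sumKerRep N ρM') :=
    s56c_isTrivOnLevel_sumKerRep N hN le_rfl hρN
  have hβB := s56c_isEqvPairing_coind N hβ
  -- the functional on `LZ²(ker Σ)`
  have heq0 := s56c_isEquivariant_kerHom N F hβ (b := xb) (fun g => ⟨_, hK g⟩)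
  let Φ : Dual (ZMod p) ↥(s56c_LZ2 𝓛 (s56c_sumKerRep N ρM')) :=
    (AddMonoidHom.mk' (fun z : ↥(s56c_LZ2 𝓛 (s56c_sumKerRep N ρM')) =>
        inv (fun gh => s56c_kerHom N ζ β xb
        ((z : G × G → ↥(s56c_sumKer N (ZMod p) (A := M'))) gh)))
      (fun z z' => pts_inv_map_add 𝓛 inv (fun m => ZModModule.char_nsmul_eq_zero p m) heq0
        z.2 z'.2)).toZModLinearMap p
  have hΦ : ∀ z, Φ z = inv (fun gh => s56c_kerHom N ζ β xb
      ((z : G × G → ↥(s56c_sumKer N (ZMod p) (A := M'))) gh)) := fun z => rfl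
  -- the hypothesis, in terms of connecting cocycles
  have h0' : ∀ (y : G → M') (hy : ptd_IsLZ1 𝓛 ρM' y),
      inv (fun gh => s56c_kerHom N ζ β xb (s56c_liftCoc N y hy.1 gh)) = 0 := by
    intro y hy
    have := h0 y hy
    unfold s56c_pair at this
    rw [← this]
    congr 1
    funext gh
    exact s56c_kerHom_liftCoc N hxz hxb hy.1 gh
  have hker : LinearMap.ker (s56c_inclH2 N 𝓛 ρM') ≤ LinearMap.ker Φ := by
    intro z hz
    rw [LinearMap.mem_ker, s56c_inclH2_eq_zero_iff] at hz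
    rw [LinearMap.mem_ker, hΦ]
    exact s56c_inv_kerHom_of_isB2 N F hβ hB'triv.isDiscrete hQ'triv.isDiscrete
      (fun g => ⟨_, hK g⟩) h0' hz
  -- extend: an invariant `b₁` of `Map(G/N, M)` inducing `Φ`
  obtain ⟨b₁, hb₁⟩ := s56c_exists_of_ker_le (s56c_a02 F hβB)
    (s56c_a02_right_nondeg F hβB (s56c_coindPairing_nondeg_left N hβl)
      (s56c_coindPairing_nondeg_right N hβr) hB'triv)
    (s56c_inclH2 N 𝓛 ρM') Φ hker
  -- `ζ ∘ β_B (b₁ - x̄)` vanishes on `ker Σ`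
  have hb₁inv : ∀ g, s56c_coindRep N ρM g b₁.1 = b₁.1 := b₁.2
  have hdiff : ∀ g, ∃ m, s56c_coindRep N ρM g (b₁.1 - xb) = (b₁.1 - xb) + s56c_const N (ZMod p) m := by
    intro g
    refine ⟨x g, ?_⟩
    rw [map_sub, hb₁inv, hK, map_neg]
    abel
  have heq1 := s56c_isEquivariant_kerHom N F hβ hdiff
  have hzero : s56c_kerHom N ζ β (b₁.1 - xb) = 0 := by
    apply F.nondegHom _ (s56c_sumKerRep N ρM') hQ'triv _ heq1
    intro z hz
    have h1 := hb₁ ⟨z, hz⟩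
    rw [hΦ] at h1
    have h2 : s56c_a02 F hβB b₁ (s56c_inclH2 N 𝓛 ρM' ⟨z, hz⟩)
        = inv (fun gh => s56c_kerHom N ζ β b₁.1 (z gh)) := rfl
    rw [h2] at h1
    have heqb : ptd_IsEquivariant ρC (s56c_sumKerRep N ρM') (s56c_kerHom N ζ β b₁.1) :=
      s56c_isEquivariant_kerHom N F hβ (fun g => ⟨0, by rw [hb₁inv, map_zero, add_zero]⟩)
    have h3 := pts_inv_add_map 𝓛 inv (fun m => ZModModule.char_nsmul_eq_zero p m) heq1 heq0 hz
    have h4 : (fun gh => (s56c_kerHom N ζ β (b₁.1 - xb) + s56c_kerHom N ζ β xb) (z gh))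
        = fun gh => s56c_kerHom N ζ β b₁.1 (z gh) := by
      funext gh
      rw [AddMonoidHom.add_apply, s56c_kerHom_apply, s56c_kerHom_apply, s56c_kerHom_apply,
        ← map_add, ← LinearMap.add_apply, ← map_add, sub_add_cancel]
    rw [h4, h1] at h3
    exact (add_eq_right.mp h3.symm)
  -- hence `b₁ - x̄` is constant
  have hconst := s56c_eq_const_of_orth N hβl (b₁.1 - xb) (fun f' hf' => by
    have := DFunLike.congr_fun hzero ⟨f', hf'⟩
    rw [s56c_kerHom_apply] at this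
    exact F.ζ_inj (by rw [this]; exact (map_zero ζ).symm))
  -- conclusion
  refine ⟨(b₁.1 - xb) 1, ?_⟩
  set m := (b₁.1 - xb) 1 with hm
  funext g
  have hxbeq : xb = b₁.1 - s56c_const N (ZMod p) m := by
    rw [← hconst]; abel
  have h5 := congrFun (hK g) (g : G ⧸ N)
  rw [ptd_d0_apply]
  have h6 : s56c_coindRep N ρM g xb = b₁.1 - s56c_const N (ZMod p) (ρM g m) := by
    rw [hxbeq, map_sub, hb₁inv, s56c_coindRep_const]
  have h7 := congrFun (h6.symm.trans (hK g)) (g : G ⧸ N)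
  rw [Pi.sub_apply, Pi.add_apply, s56c_const_apply, s56c_const_apply] at h7
  have h8 := congrFun hxbeq (g : G ⧸ N)
  rw [Pi.sub_apply, s56c_const_apply] at h8
  rw [h8] at h7
  have : x g = ρM g m - m := by
    have h9 : -x g = (b₁.1 (g : G ⧸ N) - ρM g m) - (b₁.1 (g : G ⧸ N) - m) := by
      rw [h7]; abel
    have h10 : x g = -((b₁.1 (g : G ⧸ N) - ρM g m) - (b₁.1 (g : G ⧸ N) - m)) := by
      rw [← h9, neg_neg]
    rw [h10]; abel
  exact this

/-- **RIGHT NONDEGENERACY of the `(1,1)`-pairing**: a level 1-cocycle `y` of `M'` with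
`inv (ζ ∘ (x ∪ y)) = 0` for all level 1-cocycles `x` of `M` is a coboundary. -/
theorem s56c_isB1_of_pair_right (F : s56c_Formation inv ζ χ)
    [Module.Finite (ZMod p) M] [Module.Finite (ZMod p) M']
    (hβ : s56c_IsEqvPairing χ ρM ρM' β)
    (hβl : ∀ m : M, (∀ m' : M', β m m' = 0) → m = 0)
    (hβr : ∀ m' : M', (∀ m : M, β m m' = 0) → m' = 0)
    (hM : ptd_IsTrivOnLevel 𝓛 ρM) (hM' : ptd_IsTrivOnLevel 𝓛 ρM')
    {y : G → M'} (hy : ptd_IsLZ1 𝓛 ρM' y)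
    (h0 : ∀ x, ptd_IsLZ1 𝓛 ρM x → s56c_pair inv ζ ρM' β x y = 0) : ptd_IsB1 ρM' y := by
  refine s56c_isB1_of_pair_left F hβ.flip (fun m' h => hβr m' h) (fun m h => hβl m h) hM hy
    (fun x hx => ?_)
  have h1 := s56c_pair_comm F hβ hM.isDiscrete hM'.isDiscrete hx hy
  rw [h0 x hx, zero_add] at h1
  exact h1

end Main

end Fermat.Agent.Lib.S56
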