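/-
S56 (Taylor–Wiles primes), PROGRAMME W, wall [W3] (helper3, prefix `s56c_`): **Kummer theory for
twisted coefficients in the big-group model** — the bound `#H¹(G, k(χ)) ≤ [C^G : p C^G]^{[k:𝔽_p]}`.

Setting: `G` with levels `𝓛`, a `G`-module `C` (the local multiplicative group `Ω^×`), an injection
`ζ : 𝔽_p → C` onto `C[p]` on which `G` acts through `χ : G → 𝔽_p^×` (`μ_p`), and Hilbert 90 for level
1-cocycles `G → C`.  For a finite field `k ⊇ 𝔽_p` and `χ_k = χ` viewed in `k^×`: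

* `s56c_Kum.exists_alpha` : a level 1-cocycle `c : G → 𝔽_p(χ)` gives `α ∈ C` with `ζ ∘ c = dα`;
* `s56c_Kum.isB1_of_smul_eq` : if moreover `p α ∈ p C^G` then `c` is a coboundary;
* `s56c_Kum.exists_kummerMap` : a map `Ψ` from the level 1-cocycles `G → k(χ_k)` to
  `(C^G / p C^G)^{[k:𝔽_p]}` such that `Ψ c = Ψ c'` forces `c - c'` to be a coboundary.
-/
import Mathlib
import Fermat.Agent.Lib.S56.CCup
import Fermat.Agent.Lib.PT.ClsKummer

set_option autoImplicit false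
set_option linter.unusedSectionVars false

namespace Fermat.Agent.Lib.S56

open Fermat.Agent.Lib.PT Module

section Abstract

variable {p : ℕ} [hp : Fact p.Prime] {G : Type} [Group G] {𝓛 : ptd_Levels G}
variable {C : Type} [AddCommGroup C] {ρC : Representation ℤ G C}
variable {ζ : ZMod p →+ C} {χ : G →* (ZMod p)ˣ}

/-- the Kummer package: `ζ : 𝔽_p ≅ C[p]`, `G` acts on it through `χ`, Hilbert 90 for `C`. -/
structure s56c_Kum (𝓛 : ptd_Levels G) (ρC : Representation ℤ G C) (ζ : ZMod p →+ C)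
    (χ : G →* (ZMod p)ˣ) : Prop where
  ζ_inj : Function.Injective ζ
  ζ_tors : ∀ c : C, p • c = 0 → ∃ a, ζ a = c
  ζ_eqv : ∀ g a, ρC g (ζ a) = ζ ((χ g : ZMod p) * a)
  h90 : ∀ φ : G → C, ptd_IsLZ1 𝓛 ρC φ → ptd_IsB1 ρC φ

namespace s56c_Kum

variable (K : s56c_Kum 𝓛 ρC ζ χ)
include K

/-- a level 1-cocycle with values in `𝔽_p(χ)` becomes a coboundary in `C` -/
lemma exists_alpha {c : G → ZMod p} (hc : ptd_IsLZ1 𝓛 (s56c_chiRep χ) c) :
    ∃ α : C, ∀ g, ζ (c g) = ρC g α - α := by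
  have h1 : ptd_IsLZ1 𝓛 ρC (fun g => ζ (c g)) := by
    refine ⟨fun g h => ?_, ?_⟩
    · show ζ (c (g * h)) = ρC g (ζ (c h)) + ζ (c g)
      rw [hc.1 g h, map_add, s56c_chiRep_apply, K.ζ_eqv]
    · obtain ⟨N, hN, h⟩ := hc.2
      exact ⟨N, hN, fun g n hn => by show ζ (c (g * n)) = ζ (c g); rw [h g n hn]⟩
  obtain ⟨α, hα⟩ := K.h90 _ h1
  exact ⟨α, fun g => by
    have := congrFun hα g
    simpa using this⟩

/-- `p • α` is `G`-invariant when `dα` has values in `ζ(𝔽_p)` -/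
lemma smul_invariant {c : G → ZMod p} {α : C} (hα : ∀ g, ζ (c g) = ρC g α - α) (g : G) :
    ρC g (p • α) = p • α := by
  have h : p • (ρC g α - α) = 0 := by
    rw [← hα g, ← map_nsmul, ZModModule.char_nsmul_eq_zero p (c g), map_zero]
  rw [smul_sub, sub_eq_zero] at h
  rw [map_nsmul, h]

/-- if `ζ ∘ c = dα` and `p α ∈ p C^G`, then `c` is a coboundary -/
lemma isB1_of_smul_eq {c : G → ZMod p} {α β : C} (hα : ∀ g, ζ (c g) = ρC g α - α)
    (hβ : ∀ g, ρC g β = β) (h : p • α = p • β) :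
    ∃ x : ZMod p, ∀ g, c g = (χ g : ZMod p) * x - x := by
  have h0 : p • (α - β) = 0 := by rw [smul_sub, h, sub_self]
  obtain ⟨x, hx⟩ := K.ζ_tors _ h0
  refine ⟨x, fun g => K.ζ_inj ?_⟩
  have hαx : α = β + ζ x := by rw [hx]; abel
  rw [hα g, hαx, map_add, hβ g, K.ζ_eqv, map_sub]
  abel

end s56c_Kum

variable (k : Type) [Field k] [Algebra (ZMod p) k] [Module.Finite (ZMod p) k]

/-- composing a `k(χ_k)`-valued level cocycle with an `𝔽_p`-linear functional -/
lemma s56c_isLZ1_functional {χk : G →* kˣ}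
    (hχk : ∀ g, (χk g : k) = algebraMap (ZMod p) k (χ g : ZMod p))
    {c : G → k} (hc : ptd_IsLZ1 𝓛 (s56c_chiRep χk) c) (l : k →ₗ[ZMod p] ZMod p) :
    ptd_IsLZ1 𝓛 (s56c_chiRep χ) (fun g => l (c g)) := by
  refine ⟨fun g h => ?_, ?_⟩
  · show l (c (g * h)) = s56c_chiRep χ g (l (c h)) + l (c g)
    rw [hc.1 g h, map_add, s56c_chiRep_apply, s56c_chiRep_apply, hχk, ← Algebra.smul_def,
      map_smul, smul_eq_mul]
  · obtain ⟨N, hN, h⟩ := hc.2
    exact ⟨N, hN, fun g n hn => by show l (c (g * n)) = l (c g); rw [h g n hn]⟩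

/-- **the Kummer map with coefficients in `k(χ_k)`**: a map `Ψ` from the level 1-cocycles to
`(C^G / p C^G)^{[k:𝔽_p]}`, injective modulo coboundaries. -/
theorem s56c_Kum.exists_kummerMap (K : s56c_Kum 𝓛 ρC ζ χ) {χk : G →* kˣ}
    (hχk : ∀ g, (χk g : k) = algebraMap (ZMod p) k (χ g : ZMod p)) :
    ∃ Ψ : {c : G → k // ptd_IsLZ1 𝓛 (s56c_chiRep χk) c} →
        (Fin (finrank (ZMod p) k) → ρC.invariants ⧸ ptl_pInv ρC p),
      ∀ c c', Ψ c = Ψ c' → ptd_IsB1 (s56c_chiRep χk) (c.1 - c'.1) := by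
  classical
  set b : Basis (Fin (finrank (ZMod p) k)) (ZMod p) k := Module.finBasis (ZMod p) k with hb
  have hex : ∀ (c : {c : G → k // ptd_IsLZ1 𝓛 (s56c_chiRep χk) c})
      (i : Fin (finrank (ZMod p) k)), ∃ α : C, ∀ g, ζ (b.coord i (c.1 g)) = ρC g α - α :=
    fun c i => K.exists_alpha (s56c_isLZ1_functional k hχk c.2 (b.coord i))
  choose α hα using hex
  refine ⟨fun c i => QuotientAddGroup.mk ⟨p • α c i, fun g => K.smul_invariant (hα c i) g⟩, ?_⟩
  intro c c' h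
  -- the coordinates of `c - c'` are coboundaries
  have hx : ∀ i, ∃ x : ZMod p, ∀ g,
      b.coord i (c.1 g) - b.coord i (c'.1 g) = (χ g : ZMod p) * x - x := by
    intro i
    have hi := congrFun h i
    rw [QuotientAddGroup.eq] at hi
    obtain ⟨d, hd⟩ := hi
    have hd' : p • (d : C) = - (p • α c i) + p • α c' i := by
      have := congrArg (fun z : ρC.invariants => (z : C)) hd
      simpa using this
    refine K.isB1_of_smul_eq (c := fun g => b.coord i (c.1 g) - b.coord i (c'.1 g))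
      (α := α c i - α c' i) (β := - (d : C)) (fun g => ?_) (fun g => ?_) ?_
    · rw [map_sub, hα c i g, hα c' i g, map_sub]
      abel
    · rw [map_neg, d.2 g]
    · rw [smul_sub, smul_neg, hd']
      abel
  choose x hx using hx
  refine ⟨∑ i, x i • b i, ?_⟩
  funext g
  show c.1 g - c'.1 g = s56c_chiRep χk g (∑ i, x i • b i) - ∑ i, x i • b i
  rw [s56c_chiRep_apply, hχk, ← Algebra.smul_def, Finset.smul_sum, ← Finset.sum_sub_distrib]
  have h1 : c.1 g - c'.1 g = ∑ i, (b.coord i (c.1 g) - b.coord i (c'.1 g)) • b i := by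
    conv_lhs => rw [← b.sum_repr (c.1 g), ← b.sum_repr (c'.1 g), ← Finset.sum_sub_distrib]
    refine Finset.sum_congr rfl fun i _ => ?_
    rw [sub_smul]
    rfl
  rw [h1]
  refine Finset.sum_congr rfl fun i _ => ?_
  rw [hx i g, sub_smul, mul_smul]

end Abstract

end Fermat.Agent.Lib.S56
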