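/-
S56 (Taylor–Wiles primes), PROGRAMME W, wall [W3] (helper3, prefix `s56c_`): **the arithmetic input
of `h¹(ℚ_p, μ_p) = 2`**: for `p` odd,
* `s56c_eq_one_of_pow_eq_one_Qp` : `ℤ_p` contains no non-trivial `p`-th root of unity;
* `s56c_index_pow_Qp` : `[ℚ_p^× : (ℚ_p^×)^p] = p²`;
* `s56c_index_pInv_dvd` : `[(Ω_p^×)^{G_p} : p (Ω_p^×)^{G_p}]` divides `p²`.
-/
import Mathlib
import Fermat.Agent.Lib.PT.GPlaceLocB
import Fermat.Agent.Lib.PT.LocComplete
import Fermat.Agent.Lib.PT.ClsHfin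

set_option autoImplicit false
set_option linter.unusedSectionVars false

namespace Fermat.Agent.Lib.S56

open Fermat.Agent.Lib.PT IsLocalRing

variable (p : ℕ) [hp : Fact p.Prime]

/-- for `p` odd, `ℤ_p` (the unit ball of `ℚ_p`) contains no non-trivial `p`-th root of unity -/
theorem s56c_eq_one_of_pow_eq_one_Qp (hp2 : p ≠ 2) (a : ptl_O p ℚ_[p]) (ha : a ^ p = 1) :
    a = 1 := by
  have hpp : p.Prime := hp.out
  have hp3 : 3 ≤ p := by
    have := hpp.two_le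
    omega
  obtain ⟨s, hs⟩ := cfh_one_add_pow_prime hpp (a - 1)
  rw [add_sub_cancel, ha] at hs
  -- `(a-1)^p + p (a-1) (1 + (a-1) s) = 0`
  have h0 : (a - 1) ^ p + (p : ptl_O p ℚ_[p]) * (a - 1) * (1 + (a - 1) * s) = 0 := by
    have : (1 : ptl_O p ℚ_[p]) + ((a - 1) ^ p + (p : ptl_O p ℚ_[p]) * (a - 1) * (1 + (a - 1) * s))
        = 1 + 0 := by
      rw [add_zero, ← add_assoc]
      exact hs.symm
    exact add_left_cancel this
  have hpm : (p : ptl_O p ℚ_[p]) ∈ maximalIdeal (ptl_O p ℚ_[p]) := by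
    rw [ptk_maximalIdeal_Qq]
    exact Ideal.mem_span_singleton_self _
  -- `a - 1 ∈ 𝔪`
  have h1 : a - 1 ∈ maximalIdeal (ptl_O p ℚ_[p]) := by
    have h2 : (a - 1) ^ p ∈ maximalIdeal (ptl_O p ℚ_[p]) := by
      have : (a - 1) ^ p = - ((p : ptl_O p ℚ_[p]) * ((a - 1) * (1 + (a - 1) * s))) := by
        rw [eq_neg_iff_add_eq_zero, ← h0]
        ring
      rw [this]
      exact neg_mem (Ideal.mul_mem_right _ _ hpm)
    exact (IsLocalRing.maximalIdeal.isMaximal _).isPrime.mem_of_pow_mem p h2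
  by_contra hne
  have hz : a - 1 ≠ 0 := sub_ne_zero.mpr hne
  obtain ⟨t, ht⟩ : ∃ t, a - 1 = (p : ptl_O p ℚ_[p]) * t := by
    rw [ptk_maximalIdeal_Qq, Ideal.mem_span_singleton] at h1
    exact h1
  have hp0 : (p : ptl_O p ℚ_[p]) ≠ 0 := by
    exact_mod_cast hpp.ne_zero
  -- cancel `(a - 1)` and then `p`
  have h3 : (a - 1) ^ (p - 1) + (p : ptl_O p ℚ_[p]) * (1 + (a - 1) * s) = 0 := by
    have : (a - 1) * ((a - 1) ^ (p - 1) + (p : ptl_O p ℚ_[p]) * (1 + (a - 1) * s)) = 0 := by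
      rw [← h0]
      have hpow : (a - 1) ^ p = (a - 1) * (a - 1) ^ (p - 1) := by
        rw [← pow_succ', Nat.sub_add_cancel (by omega : 1 ≤ p)]
      rw [hpow]
      ring
    exact (mul_eq_zero.mp this).resolve_left hz
  have h4 : (p : ptl_O p ℚ_[p]) ^ (p - 2) * t ^ (p - 1) + (1 + (a - 1) * s) = 0 := by
    have : (p : ptl_O p ℚ_[p]) * ((p : ptl_O p ℚ_[p]) ^ (p - 2) * t ^ (p - 1) + (1 + (a - 1) * s))
        = 0 := by
      rw [← h3, ht, mul_pow]
      have hpow : (p : ptl_O p ℚ_[p]) ^ (p - 1) = (p : ptl_O p ℚ_[p]) * (p : ptl_O p ℚ_[p]) ^ (p - 2) := by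
        rw [← pow_succ', show p - 2 + 1 = p - 1 by omega]
      rw [hpow]
      ring
    exact (mul_eq_zero.mp this).resolve_left hp0
  -- `1 ∈ 𝔪`
  have h5 : (1 : ptl_O p ℚ_[p]) ∈ maximalIdeal (ptl_O p ℚ_[p]) := by
    have : (1 : ptl_O p ℚ_[p]) =
        - ((p : ptl_O p ℚ_[p]) ^ (p - 2) * t ^ (p - 1) + (a - 1) * s) := by
      rw [eq_neg_iff_add_eq_zero, ← h4]
      ring
    rw [this]
    refine neg_mem (add_mem (Ideal.mul_mem_right _ _ ?_) (Ideal.mul_mem_right _ _ h1))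
    exact Ideal.pow_mem_of_mem _ hpm _ (by omega)
  exact (Ideal.ne_top_iff_one _).mp (IsLocalRing.maximalIdeal.isMaximal _).ne_top h5

/-- `μ_p(ℤ_p) = 1` for `p` odd -/
theorem s56c_card_rootsOfUnity_Qp (hp2 : p ≠ 2) :
    Nat.card (rootsOfUnity p (ptl_O p ℚ_[p])) = 1 := by
  have : Subsingleton (rootsOfUnity p (ptl_O p ℚ_[p])) := by
    refine ⟨fun u v => ?_⟩
    have h : ∀ w : rootsOfUnity p (ptl_O p ℚ_[p]), w = 1 := by
      intro w
      apply Subtype.ext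
      apply Units.ext
      have hw := (mem_rootsOfUnity p w.1).mp w.2
      have hw' : ((w.1 : (ptl_O p ℚ_[p])ˣ) : ptl_O p ℚ_[p]) ^ p = 1 := by
        rw [← Units.val_pow_eq_pow_val, hw, Units.val_one]
      exact s56c_eq_one_of_pow_eq_one_Qp p hp2 _ hw'
    rw [h u, h v]
  exact Nat.card_unique

/-- **`[ℚ_p^× : (ℚ_p^×)^p] = p²`** for `p` odd -/
theorem s56c_index_pow_Qp (hp2 : p ≠ 2) :
    (powMonoidHom p : ℚ_[p]ˣ →* ℚ_[p]ˣ).range.index = p ^ 2 := by
  rw [ptl_index_pow p ℚ_[p] hp.out, s56c_card_rootsOfUnity_Qp p hp2, ptk_card_quot_q p ℚ_[p],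
    Module.finrank_self]
  ring

end Fermat.Agent.Lib.S56

namespace Fermat.Agent.Lib.S56

open Fermat.Agent.Lib.PT IsLocalRing

variable (p : ℕ) [hp : Fact p.Prime]

/-- the map `ℚ_p^× → (Ω_p^×)^{G_p}` (additively written) -/
noncomputable def s56c_baseUnits :
    Additive ℚ_[p]ˣ →+ (ptg_unitsRep p).invariants where
  toFun a := ⟨Additive.ofMul (Units.map (algebraMap ℚ_[p] (PadicAlgCl p) : ℚ_[p] →* PadicAlgCl p)
      (Additive.toMul a)), fun g => by
    rw [Representation.ofMulDistribMulAction_apply_apply]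
    apply congrArg Additive.ofMul
    apply Units.ext
    rw [AlgEquiv.smul_units_def, Units.coe_map]
    exact g.commutes _⟩
  map_zero' := by
    apply Subtype.ext
    simp
  map_add' a b := by
    apply Subtype.ext
    simp

lemma s56c_baseUnits_surjective : Function.Surjective (s56c_baseUnits p) := by
  rintro ⟨c, hc⟩
  have h : ∀ g : PadicAlgCl p ≃ₐ[ℚ_[p]] PadicAlgCl p,
      g ((Additive.toMul c : (PadicAlgCl p)ˣ) : PadicAlgCl p) = (Additive.toMul c : (PadicAlgCl p)ˣ) := by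
    intro g
    have h1 := hc g
    rw [Representation.ofMulDistribMulAction_apply_apply] at h1
    have h2 := congrArg (fun w : Additive (PadicAlgCl p)ˣ => ((Additive.toMul w : (PadicAlgCl p)ˣ) : PadicAlgCl p)) h1
    simpa [AlgEquiv.smul_units_def] using h2
  obtain ⟨x, hx⟩ := (InfiniteGalois.mem_range_algebraMap_iff_fixed
    (k := ℚ_[p]) (K := PadicAlgCl p) _).mpr h
  have hx0 : x ≠ 0 := by
    rintro rfl
    rw [map_zero] at hx
    exact (Additive.toMul c : (PadicAlgCl p)ˣ).ne_zero hx.symm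
  refine ⟨Additive.ofMul (Units.mk0 x hx0), Subtype.ext ?_⟩
  show Additive.ofMul (Units.map (algebraMap ℚ_[p] (PadicAlgCl p) : ℚ_[p] →* PadicAlgCl p)
      (Units.mk0 x hx0)) = c
  apply Additive.toMul.injective
  apply Units.ext
  rw [toMul_ofMul, Units.coe_map, Units.val_mk0]
  exact hx

/-- **`[(Ω_p^×)^{G_p} : p (Ω_p^×)^{G_p}]` divides `p²`** (`p` odd) -/
theorem s56c_index_pInv_dvd (hp2 : p ≠ 2) : (ptl_pInv (ptg_unitsRep p) p).index ∣ p ^ 2 := by
  set H : AddSubgroup (Additive ℚ_[p]ˣ) :=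
    Subgroup.toAddSubgroup (powMonoidHom p : ℚ_[p]ˣ →* ℚ_[p]ˣ).range with hH
  have hHi : H.index = p ^ 2 := by
    rw [hH, Subgroup.index_toAddSubgroup]
    exact s56c_index_pow_Qp p hp2
  have hmap : H.map (s56c_baseUnits p) ≤ ptl_pInv (ptg_unitsRep p) p := by
    rintro _ ⟨a, ⟨b, hb⟩, rfl⟩
    refine ⟨s56c_baseUnits p (Additive.ofMul b), ?_⟩
    rw [nsmulAddMonoidHom_apply, ← map_nsmul]
    congr 1
  have h1 := AddSubgroup.index_map_dvd H (s56c_baseUnits_surjective p)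
  have h2 := AddSubgroup.index_dvd_of_le hmap
  rw [← hHi]
  exact h2.trans h1

end Fermat.Agent.Lib.S56
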