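/-
S56 (Taylor–Wiles primes), PROGRAMME W, wall [W3] (helper3, prefix `s56c_`): **`h¹(ℚ_p, k(χ̄_cyc)) ≤ 2`**
(`p` odd, `k` a finite field of characteristic `p`), the local input of W5 (`s56o_finrank_Lp_ordLine`).

* `s56c_h90_top` : Hilbert 90 for level 1-cocycles of the full local Galois group `G_q → Ω_q^×`;
* `s56c_kum_local` : the Kummer package of the local big model at `q ∈ S`;
* `s56c_card_continuousH1_le` : `#H¹(ℚ_q, k(χ̄_cyc)) ≤ [ℚ_q^× : (ℚ_q^×)^p]^{[k:𝔽_p]}` (in the form of the index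
  of `p C^G` in `C^G`, `C = Ω_q^×`);
* **`s56c_finrank_H1_cyclo_le`** : `Module.Finite k H¹(ℚ_p, k(χ̄_cyc)) ∧ finrank_k H¹(ℚ_p, k(χ̄_cyc)) ≤ 2`.
-/
import Mathlib
import Fermat.Agent.Lib.S56.CKummer
import Fermat.Agent.Lib.S56.CKummerQp
import Fermat.Agent.Lib.S56.CTate
import Fermat.Agent.Lib.S56.IfaceW3

set_option autoImplicit false
set_option linter.unusedSectionVars false

noncomputable section

namespace Fermat.Agent.Lib.S56

open IntermediateField ExtCitation groupCohomology Module Fermat.Agent.Lib.PT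

/-- Hilbert 90 for the full local Galois group in the big model -/
theorem s56c_h90_top (q : ℕ) [Fact q.Prime]
    (φ : (PadicAlgCl q ≃ₐ[ℚ_[q]] PadicAlgCl q) → Additive (PadicAlgCl q)ˣ)
    (hφ : ptd_IsLZ1 (ptg_levels q) (ptg_unitsRep q) φ) : ptd_IsB1 (ptg_unitsRep q) φ := by
  have hU : (ptg_levels q).IsOpen ⊤ := (ptg_levels q).isOpen_top
  have h1 : ptd_IsLZ1 ((ptg_levels q).sub ⊤ hU) (ptd_resRep (ptg_unitsRep q) ⊤)
      (ptd_res₁ ⊤ φ) :=
    ⟨fun g h => hφ.1 g h, hφ.2.res ⊤ hU⟩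
  obtain ⟨a, ha⟩ := ptg_isB1_of_isLZ1_units q hU _ h1
  refine ⟨a, ?_⟩
  funext g
  have := congrFun ha ⟨g, Subgroup.mem_top g⟩
  exact this

variable {p : ℕ} [hp : Fact p.Prime] {S : Finset Nat.Primes}

/-- the Kummer package of the local big model at `q ∈ S` -/
theorem s56c_kum_local (hp2 : p ≠ 2) (hpS : pPrime p ∈ S) (q : ↥S) :
    s56c_Kum (s56t_L hp2 hpS q).𝓛 (s56t_L hp2 hpS q).ρ (s56t_L hp2 hpS q).ζloc
      ((cycloChar p).comp (primeLocalToGlobal q.1)) where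
  ζ_inj := (s56t_L hp2 hpS q).ζloc_inj
  ζ_tors := (s56t_L hp2 hpS q).tors
  ζ_eqv := fun τ c => (s56t_L hp2 hpS q).ρ_ζloc τ c
  h90 := fun φ hφ => s56c_h90_top (q.1 : ℕ) φ hφ

section Count

variable {𝒢 : pts_EMod p S} {q : ↥S} (L : pts_LocData 𝒢 q)
variable (k : Type) [Field k] [Algebra (ZMod p) k] [Module.Finite (ZMod p) k]

/-- **the Kummer bound**: `#H¹(ℚ_q, k(χ_k)) ≤ [C^G : p C^G]^{[k:𝔽_p]}`. -/
theorem s56c_card_continuousH1_le {χ : primeLocalGaloisGroup q.1 →* (ZMod p)ˣ}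
    (K : s56c_Kum L.𝓛 L.ρ L.ζloc χ) {χk : primeLocalGaloisGroup q.1 →* kˣ}
    (hχk : ∀ g, (χk g : k) = algebraMap (ZMod p) k (χ g : ZMod p))
    [Finite (L.ρ.invariants ⧸ ptl_pInv L.ρ p)] :
    Finite ↥(continuousH1 (primeLocalToGlobal q.1) (ofChar χk)) ∧
      Nat.card ↥(continuousH1 (primeLocalToGlobal q.1) (ofChar χk)) ≤
        Nat.card (L.ρ.invariants ⧸ ptl_pInv L.ρ p) ^ finrank (ZMod p) k := by
  classical
  obtain ⟨Ψ, hΨ⟩ := K.exists_kummerMap k hχk
  set A : Rep.{0} k (primeLocalGaloisGroup q.1) := ofChar χk with hA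
  -- representatives
  have hrep : ∀ t : ↥(continuousH1 (primeLocalToGlobal q.1) A),
      ∃ c : cocycles₁ A, IsLevelConstant₁ (primeLocalToGlobal q.1) c ∧ (H1π A).hom c = t.1 :=
    fun t => (mem_continuousH1_iff _ A t.1).1 t.2
  choose c hc1 hc2 using hrep
  have hlz : ∀ t, ptd_IsLZ1 L.𝓛 (s56c_chiRep χk)
      ((c t : cocycles₁ A) : primeLocalGaloisGroup q.1 → k) :=
    fun t => ⟨(s56c_isZ1_iff A _).2 (c t).2, (L.lev₁_iff _).2 (hc1 t)⟩
  set f : ↥(continuousH1 (primeLocalToGlobal q.1) A) →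
      (Fin (finrank (ZMod p) k) → L.ρ.invariants ⧸ ptl_pInv L.ρ p) :=
    fun t => Ψ ⟨_, hlz t⟩ with hf
  have hinj : Function.Injective f := by
    intro t t' h
    have hB := hΨ _ _ h
    have hB' : ((c t - c t' : cocycles₁ A) : primeLocalGaloisGroup q.1 → k) ∈ coboundaries₁ A :=
      (s56c_isB1_iff A _).1 hB
    have h0 : (H1π A).hom (c t - c t') = 0 := (H1π_eq_zero_iff _).2 hB'
    rw [map_sub, sub_eq_zero, hc2, hc2] at h0
    exact Subtype.ext h0
  refine ⟨Finite.of_injective f hinj, ?_⟩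
  have := Nat.card_le_card_of_injective f hinj
  rwa [Nat.card_fun, Nat.card_fin] at this

end Count

/-- **`h¹(ℚ_p, k(χ̄_cyc)) ≤ 2`** for `p` odd and a finite field `k` of characteristic `p`. -/
theorem s56c_finrank_H1_cyclo_le (hp2 : p ≠ 2) (k : Type) [Field k] [Algebra (ZMod p) k]
    [Finite k] :
    Module.Finite k ↥(continuousH1 (primeLocalToGlobal (pPrime p))
        (ofChar (s56c_locChar p k (pPrime p)))) ∧
      finrank k ↥(continuousH1 (primeLocalToGlobal (pPrime p))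
        (ofChar (s56c_locChar p k (pPrime p)))) ≤ 2 := by
  classical
  have hpp : p.Prime := hp.out
  have hpS : pPrime p ∈ ({pPrime p} : Finset Nat.Primes) := Finset.mem_singleton_self _
  set q : ↥({pPrime p} : Finset Nat.Primes) := ⟨pPrime p, hpS⟩ with hq
  haveI : Module.Finite (ZMod p) k := Module.Finite.of_finite
  have hdvd : (ptl_pInv (s56t_L hp2 hpS q).ρ p).index ∣ p ^ 2 := s56c_index_pInv_dvd p hp2
  have hidx0 : (ptl_pInv (s56t_L hp2 hpS q).ρ p).index ≠ 0 := by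
    intro h0
    rw [h0] at hdvd
    exact (pow_ne_zero 2 hpp.ne_zero) (Nat.eq_zero_of_zero_dvd hdvd)
  have hFI : (ptl_pInv (s56t_L hp2 hpS q).ρ p).FiniteIndex := ⟨hidx0⟩
  have : Finite ((s56t_L hp2 hpS q).ρ.invariants ⧸ ptl_pInv (s56t_L hp2 hpS q).ρ p) :=
    AddSubgroup.finite_quotient_of_finiteIndex
  have hχk : ∀ g : primeLocalGaloisGroup q.1, ((s56c_locChar p k q.1 g : kˣ) : k) =
      algebraMap (ZMod p) k
        (((cycloChar p).comp (primeLocalToGlobal q.1) g : (ZMod p)ˣ) : ZMod p) := fun g => rfl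
  obtain ⟨hfin, hcard⟩ := s56c_card_continuousH1_le (s56t_L hp2 hpS q) k
    (s56c_kum_local hp2 hpS q) hχk
  have := hfin
  have hMF : Module.Finite k ↥(continuousH1 (primeLocalToGlobal q.1)
      (ofChar (s56c_locChar p k q.1))) := Module.Finite.of_finite
  refine ⟨hMF, ?_⟩
  -- cardinalities
  have hQ : Nat.card ((s56t_L hp2 hpS q).ρ.invariants ⧸ ptl_pInv (s56t_L hp2 hpS q).ρ p) ≤ p ^ 2 := by
    rw [← AddSubgroup.index_eq_card]
    exact Nat.le_of_dvd (pow_pos hpp.pos 2) hdvd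
  have hk : Nat.card k = p ^ finrank (ZMod p) k := by
    rw [Module.natCard_eq_pow_finrank (K := ZMod p) (V := k), Nat.card_zmod]
  have hT := Module.natCard_eq_pow_finrank (K := k)
    (V := ↥(continuousH1 (primeLocalToGlobal q.1) (ofChar (s56c_locChar p k q.1))))
  have h1 : Nat.card k ^ finrank k ↥(continuousH1 (primeLocalToGlobal q.1)
      (ofChar (s56c_locChar p k q.1))) ≤ Nat.card k ^ 2 := by
    rw [← hT]
    refine hcard.trans ((Nat.pow_le_pow_left hQ _).trans (le_of_eq ?_))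
    rw [hk, ← pow_mul, ← pow_mul, mul_comm]
  have hk1 : 1 < Nat.card k := Finite.one_lt_card
  exact (Nat.pow_le_pow_iff_right hk1).1 h1

/-- a character of `G_p` with the exponent property of W5 (`s56o_finrank_Lp_ordLine`) is the mod `p`
cyclotomic character `s56c_locChar` -/
theorem s56c_eq_locChar_of_spec (k : Type) [Field k] [Algebra (ZMod p) k]
    (χ : primeLocalGaloisGroup (pPrime p) →* kˣ)
    (hχ : ∀ (g : primeLocalGaloisGroup (pPrime p)) (a : ℕ),
      (∀ μ : AlgebraicClosure ℚ, μ ^ p = 1 → primeLocalToGlobal (pPrime p) g μ = μ ^ a) →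
        (χ g : k) = (a : k)) :
    χ = s56c_locChar p k (pPrime p) := by
  haveI : NeZero p := ⟨hp.out.ne_zero⟩
  ext g
  rw [hχ g _ (fun μ hμ => ptg_cycloChar_spec p (primeLocalToGlobal (pPrime p) g) hμ)]
  show _ = algebraMap (ZMod p) k
    ((cycloChar p (primeLocalToGlobal (pPrime p) g) : (ZMod p)ˣ) : ZMod p)
  rw [← map_natCast (algebraMap (ZMod p) k), ZMod.natCast_zmod_val]

/-- **`h¹(ℚ_p, k(χ)) ≤ 2`** in the shape consumed by W5: `χ` any character of `G_p` with the exponent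
property of the cyclotomic character. -/
theorem s56c_finrank_H1_of_spec (hp2 : p ≠ 2) (k : Type) [Field k] [Algebra (ZMod p) k] [Finite k]
    (χ : primeLocalGaloisGroup (pPrime p) →* kˣ)
    (hχ : ∀ (g : primeLocalGaloisGroup (pPrime p)) (a : ℕ),
      (∀ μ : AlgebraicClosure ℚ, μ ^ p = 1 → primeLocalToGlobal (pPrime p) g μ = μ ^ a) →
        (χ g : k) = (a : k)) :
    Module.Finite k ↥(continuousH1 (primeLocalToGlobal (pPrime p)) (ofChar χ)) ∧
      finrank k ↥(continuousH1 (primeLocalToGlobal (pPrime p)) (ofChar χ)) ≤ 2 := by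
  rw [s56c_eq_locChar_of_spec k χ hχ]
  exact s56c_finrank_H1_cyclo_le hp2 k

end Fermat.Agent.Lib.S56
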