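/-
PROGRAMME W (S56), wall [W4], brick (E3) "modular Artin induction" (helper1, prefix `s56d_`):
**characteristic polynomials of "monomial" endomorphisms.**

For a finite set `X` with a permutation `σ` and an endomorphism `f` of a finite-dimensional space `V`,
`s56d_permEnd σ f` is the endomorphism `F ↦ (x ↦ f (F (σ⁻¹ x)))` of `X → V`.  Its characteristic polynomial is
the product over the cycles of `σ` (fixed points included) of a polynomial `s56d_R n f` depending only on the
length `n + 1` of the cycle (`s56d_charpoly_permEnd`).  Consequently a weighted identity between fixed point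
counts of all powers gives an identity between products of characteristic polynomials
(`s56d_prod_charpoly_permEnd_eq`).
-/
import Mathlib

set_option autoImplicit false

noncomputable section

namespace Fermat.Agent.Lib.S56

open Module Polynomial Function

section Defs

variable {k V : Type*} [Field k] [AddCommGroup V] [Module k V]

/-- the endomorphism `F ↦ (x ↦ f (F (σ⁻¹ x)))` of `X → V`. -/
def s56d_permEnd {X : Type*} (σ : Equiv.Perm X) (f : Module.End k V) : Module.End k (X → V) where
  toFun F x := f (F (σ.symm x))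
  map_add' F F' := by
    funext x
    simp
  map_smul' c F := by
    funext x
    simp

@[simp] theorem s56d_permEnd_apply {X : Type*} (σ : Equiv.Perm X) (f : Module.End k V) (F : X → V)
    (x : X) : s56d_permEnd σ f F x = f (F (σ.symm x)) := rfl

variable [FiniteDimensional k V]

/-- conjugation invariance. -/
theorem s56d_charpoly_permEnd_conj {X Y : Type*} [Finite X] [Finite Y] (e : X ≃ Y)
    (σ : Equiv.Perm X) (τ : Equiv.Perm Y) (h : ∀ x, τ (e x) = e (σ x)) (f : Module.End k V) :
    (s56d_permEnd τ f).charpoly = (s56d_permEnd σ f).charpoly := by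
  have h' : ∀ y, σ.symm (e.symm y) = e.symm (τ.symm y) := by
    intro y
    apply σ.injective
    apply e.injective
    rw [σ.apply_symm_apply, e.apply_symm_apply, ← h, e.apply_symm_apply, τ.apply_symm_apply]
  rw [← LinearEquiv.charpoly_conj (LinearEquiv.funCongrLeft k V e.symm) (s56d_permEnd σ f)]
  congr 1
  ext F y
  simp [LinearEquiv.conj_apply, LinearEquiv.funCongrLeft, h']

/-- disjoint unions. -/
theorem s56d_charpoly_permEnd_sum {X Y : Type*} [Finite X] [Finite Y]
    (σ : Equiv.Perm X) (τ : Equiv.Perm Y) (f : Module.End k V) :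
    (s56d_permEnd (Equiv.sumCongr σ τ) f).charpoly
      = (s56d_permEnd σ f).charpoly * (s56d_permEnd τ f).charpoly := by
  rw [← LinearMap.charpoly_prodMap,
    ← LinearEquiv.charpoly_conj (LinearEquiv.sumArrowLequivProdArrow X Y k V)
      (s56d_permEnd (Equiv.sumCongr σ τ) f)]
  congr 1

/-- decomposition along an invariant predicate. -/
theorem s56d_charpoly_permEnd_subtype {X : Type*} [Finite X] (σ : Equiv.Perm X) (p : X → Prop)
    [DecidablePred p] (hp : ∀ x, p (σ x) ↔ p x) (f : Module.End k V) :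
    (s56d_permEnd σ f).charpoly
      = (s56d_permEnd (σ.subtypePerm (p := p) hp) f).charpoly
        * (s56d_permEnd (σ.subtypePerm (p := fun x => ¬ p x) (fun x => not_congr (hp x))) f).charpoly := by
  rw [← s56d_charpoly_permEnd_sum]
  refine s56d_charpoly_permEnd_conj (Equiv.sumCompl p) _ σ ?_ f
  rintro (x | x) <;> simp

end Defs

section Transitive

variable {k V : Type*} [Field k] [AddCommGroup V] [Module k V] [FiniteDimensional k V]

/-- the characteristic polynomial attached to a cycle of length `n + 1`. -/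
def s56d_R (n : ℕ) (f : Module.End k V) : k[X] :=
  (s56d_permEnd (Equiv.addRight (1 : ZMod (n + 1))) f).charpoly

theorem s56d_R_monic (n : ℕ) (f : Module.End k V) : (s56d_R n f).Monic :=
  LinearMap.charpoly_monic _

/-- a transitive permutation of a set with `n + 1` elements. -/
theorem s56d_charpoly_permEnd_transitive {X : Type*} [Fintype X] (σ : Equiv.Perm X) (n : ℕ)
    (hcard : Fintype.card X = n + 1) (htr : ∀ x y : X, ∃ i : ℤ, (σ ^ i) x = y)
    (f : Module.End k V) : (s56d_permEnd σ f).charpoly = s56d_R n f := by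
  classical
  have hne : Nonempty X := by
    rw [← Fintype.card_pos_iff, hcard]; omega
  obtain ⟨x₀⟩ := hne
  have horb : ∀ y : X, y ∈ MulAction.orbit (Subgroup.zpowers σ) x₀ := by
    intro y
    obtain ⟨i, hi⟩ := htr x₀ y
    exact ⟨⟨σ ^ i, Subgroup.zpow_mem_zpowers σ i⟩, hi⟩
  let e₀ : MulAction.orbit (Subgroup.zpowers σ) x₀ ≃ X :=
    ⟨fun y => y.1, fun y => ⟨y, horb y⟩, fun _ => rfl, fun _ => rfl⟩
  have hm : minimalPeriod (σ • ·) x₀ = n + 1 := by
    rw [MulAction.minimalPeriod_eq_card, ← hcard]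
    exact Fintype.card_congr e₀
  let e : X ≃ ZMod (n + 1) :=
    e₀.symm.trans ((MulAction.orbitZPowersEquiv σ x₀).trans (ZMod.ringEquivCongr hm).toEquiv)
  have he : ∀ i : ℤ, e ((σ ^ i) x₀) = (i : ZMod (n + 1)) := by
    intro i
    have h1 : (MulAction.orbitZPowersEquiv σ x₀) (e₀.symm ((σ ^ i) x₀))
        = (i : ZMod (minimalPeriod (σ • ·) x₀)) := by
      rw [← Equiv.eq_symm_apply, MulAction.orbitZPowersEquiv_symm_apply']
      rfl
    change (ZMod.ringEquivCongr hm) ((MulAction.orbitZPowersEquiv σ x₀) (e₀.symm ((σ ^ i) x₀))) = _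
    rw [h1, map_intCast]
  refine (s56d_charpoly_permEnd_conj e σ (Equiv.addRight (1 : ZMod (n + 1))) ?_ f).symm
  intro x
  obtain ⟨i, rfl⟩ := htr x₀ x
  have h2 : σ ((σ ^ i) x₀) = (σ ^ (i + 1)) x₀ := by
    rw [add_comm, zpow_add, zpow_one]; rfl
  rw [h2, he, he, Equiv.coe_addRight]
  push_cast
  rfl

end Transitive

section Count

variable {X : Type*} [Fintype X]

open Classical in
/-- the number of points of exact period `ℓ`. -/
def s56d_eCount (σ : Equiv.Perm X) (ℓ : ℕ) : ℕ :=
  ∑ x : X, if minimalPeriod σ x = ℓ then 1 else 0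

open Classical in
/-- the number of fixed points of `σ ^ j`. -/
def s56d_fixCount (σ : Equiv.Perm X) (j : ℕ) : ℕ :=
  ∑ x : X, if (σ ^ j) x = x then 1 else 0

theorem s56d_fixCount_eq_sum (σ : Equiv.Perm X) {j : ℕ} (hj : j ≠ 0) :
    s56d_fixCount σ j = ∑ ℓ ∈ j.divisors, s56d_eCount σ ℓ := by
  classical
  unfold s56d_fixCount s56d_eCount
  rw [Finset.sum_comm]
  refine Finset.sum_congr rfl fun x _ => ?_
  rw [Finset.sum_ite_eq]
  have h1 : (σ ^ j) x = x ↔ minimalPeriod σ x ∈ j.divisors := by
    rw [Nat.mem_divisors, ← isPeriodicPt_iff_minimalPeriod_dvd, IsPeriodicPt, IsFixedPt,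
      Equiv.Perm.iterate_eq_pow]
    exact ⟨fun h => ⟨h, hj⟩, fun h => h.1⟩
  by_cases h : (σ ^ j) x = x
  · rw [if_pos h, if_pos (h1.mp h)]
  · rw [if_neg h, if_neg (fun h' => h (h1.mpr h'))]

theorem s56d_minimalPeriod_subtypePerm (σ : Equiv.Perm X) (p : X → Prop)
    (hp : ∀ x, p (σ x) ↔ p x) (y : {x // p x}) :
    minimalPeriod (σ.subtypePerm hp) y = minimalPeriod σ y.1 := by
  rw [minimalPeriod_eq_minimalPeriod_iff]
  intro n
  rw [IsPeriodicPt, IsPeriodicPt, IsFixedPt, IsFixedPt, Equiv.Perm.iterate_eq_pow,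
    Equiv.Perm.iterate_eq_pow, Equiv.Perm.subtypePerm_pow, Subtype.ext_iff]
  rfl

theorem s56d_eCount_subtype (σ : Equiv.Perm X) (p : X → Prop) [DecidablePred p]
    (hp : ∀ x, p (σ x) ↔ p x) (ℓ : ℕ) :
    s56d_eCount σ ℓ = s56d_eCount (σ.subtypePerm (p := p) hp) ℓ
      + s56d_eCount (σ.subtypePerm (p := fun x => ¬ p x) (fun x => not_congr (hp x))) ℓ := by
  classical
  unfold s56d_eCount
  simp only [s56d_minimalPeriod_subtypePerm]
  exact (Fintype.sum_subtype_add_sum_subtype p
    (fun x => if minimalPeriod σ x = ℓ then 1 else 0)).symm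

/-- for a transitive permutation every point has exact period the cardinality. -/
theorem s56d_eCount_transitive (σ : Equiv.Perm X) (htr : ∀ x y : X, ∃ i : ℤ, (σ ^ i) x = y)
    (ℓ : ℕ) : s56d_eCount σ ℓ = if ℓ = Fintype.card X then Fintype.card X else 0 := by
  classical
  have hmp : ∀ x : X, minimalPeriod σ x = Fintype.card X := by
    intro x₀
    have horb : ∀ y : X, y ∈ MulAction.orbit (Subgroup.zpowers σ) x₀ := by
      intro y
      obtain ⟨i, hi⟩ := htr x₀ y
      exact ⟨⟨σ ^ i, Subgroup.zpow_mem_zpowers σ i⟩, hi⟩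
    let e₀ : MulAction.orbit (Subgroup.zpowers σ) x₀ ≃ X :=
      ⟨fun y => y.1, fun y => ⟨y, horb y⟩, fun _ => rfl, fun _ => rfl⟩
    have := MulAction.minimalPeriod_eq_card σ x₀
    rw [Fintype.card_congr e₀] at this
    exact this
  unfold s56d_eCount
  simp only [hmp]
  by_cases h : ℓ = Fintype.card X
  · rw [if_pos h]
    simp [h.symm]
  · rw [if_neg h]
    simp [Ne.symm h]

end Count

section Main

universe u

variable {k V : Type*} [Field k] [AddCommGroup V] [Module k V] [FiniteDimensional k V]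

/-- **the characteristic polynomial of a monomial endomorphism** is the product over the cycles. -/
theorem s56d_charpoly_permEnd (f : Module.End k V) : ∀ (N : ℕ) (X : Type u) [Fintype X]
    (σ : Equiv.Perm X), Fintype.card X ≤ N → ∀ M : ℕ, Fintype.card X ≤ M →
      (s56d_permEnd σ f).charpoly
        = ∏ n ∈ Finset.range M, s56d_R n f ^ (s56d_eCount σ (n + 1) / (n + 1)) ∧
      ∀ n : ℕ, (n + 1) ∣ s56d_eCount σ (n + 1) := by
  classical
  intro N
  induction N with
  | zero =>
    intro X _ σ hX M _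
    have hemp : IsEmpty X := Fintype.card_eq_zero_iff.mp (Nat.le_zero.mp hX)
    have he : ∀ ℓ, s56d_eCount σ ℓ = 0 := fun ℓ => by
      unfold s56d_eCount
      exact Finset.sum_eq_zero fun x _ => (hemp.false x).elim
    refine ⟨?_, fun n => by rw [he]; exact dvd_zero _⟩
    have h1 : (s56d_permEnd σ f).charpoly.natDegree = 0 := by
      rw [LinearMap.charpoly_natDegree, Module.finrank_zero_of_subsingleton]
    rw [(LinearMap.charpoly_monic _).natDegree_eq_zero.mp h1]
    simp [he]
  | succ N ih =>
    intro X _ σ hX M hM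
    by_cases hemp : IsEmpty X
    · have he : ∀ ℓ, s56d_eCount σ ℓ = 0 := fun ℓ => by
        unfold s56d_eCount
        exact Finset.sum_eq_zero fun x _ => (hemp.false x).elim
      refine ⟨?_, fun n => by rw [he]; exact dvd_zero _⟩
      have h1 : (s56d_permEnd σ f).charpoly.natDegree = 0 := by
        rw [LinearMap.charpoly_natDegree, Module.finrank_zero_of_subsingleton]
      rw [(LinearMap.charpoly_monic _).natDegree_eq_zero.mp h1]
      simp [he]
    · rw [not_isEmpty_iff] at hemp
      obtain ⟨x₀⟩ := hemp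
      let p : X → Prop := fun x => σ.SameCycle x₀ x
      have hp : ∀ x, p (σ x) ↔ p x := fun x => Equiv.Perm.sameCycle_apply_right
      set σ₁ := σ.subtypePerm (p := p) hp with hσ₁
      set σ₂ := σ.subtypePerm (p := fun x => ¬ p x) (fun x => not_congr (hp x)) with hσ₂
      -- the orbit
      have hx₀ : p x₀ := Equiv.Perm.SameCycle.refl σ x₀
      have hcard1 : 0 < Fintype.card {x // p x} := Fintype.card_pos_iff.mpr ⟨⟨x₀, hx₀⟩⟩
      obtain ⟨n₀, hn₀⟩ : ∃ n₀, Fintype.card {x // p x} = n₀ + 1 :=
        ⟨Fintype.card {x // p x} - 1, by omega⟩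
      have htr : ∀ x y : {x // p x}, ∃ i : ℤ, (σ₁ ^ i) x = y := by
        intro x y
        obtain ⟨i, hi⟩ := (Equiv.Perm.SameCycle.symm x.2).trans y.2
        refine ⟨i, Subtype.ext ?_⟩
        rw [hσ₁, Equiv.Perm.subtypePerm_zpow]
        exact hi
      have hsum : Fintype.card {x // p x} + Fintype.card {x // ¬ p x} = Fintype.card X :=
        Fintype.card_subtype_compl p ▸ by
          have := Fintype.card_subtype_le p
          omega
      have hcard2 : Fintype.card {x // ¬ p x} ≤ N := by omega
      have hM2 : Fintype.card {x // ¬ p x} ≤ M := by omega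
      obtain ⟨ih1, ih2⟩ := ih {x // ¬ p x} σ₂ hcard2 M hM2
      have he : ∀ ℓ, s56d_eCount σ ℓ = (if ℓ = n₀ + 1 then n₀ + 1 else 0) + s56d_eCount σ₂ ℓ := by
        intro ℓ
        rw [s56d_eCount_subtype σ p hp ℓ, s56d_eCount_transitive σ₁ htr ℓ, hn₀]
      have hc : ∀ n, s56d_eCount σ (n + 1) / (n + 1)
          = (if n = n₀ then 1 else 0) + s56d_eCount σ₂ (n + 1) / (n + 1) := by
        intro n
        rw [he]
        by_cases hn : n = n₀
        · subst hn
          rw [if_pos rfl, if_pos rfl]
          have h1 := Nat.add_div_left (s56d_eCount σ₂ (n + 1)) (Nat.succ_pos n)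
          simp only [Nat.succ_eq_add_one] at h1
          rw [h1]
          omega
        · rw [if_neg hn, if_neg (fun h => hn (Nat.succ_injective h)), zero_add, zero_add]
      refine ⟨?_, fun n => ?_⟩
      · rw [s56d_charpoly_permEnd_subtype σ p hp f,
          s56d_charpoly_permEnd_transitive σ₁ n₀ hn₀ htr f, ih1]
        simp only [hc, pow_add, pow_ite, pow_one, pow_zero]
        rw [Finset.prod_mul_distrib, Finset.prod_ite_eq' (Finset.range M) n₀, if_pos]
        rw [Finset.mem_range]
        omega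
      · rw [he]
        by_cases hn : n = n₀
        · subst hn
          rw [if_pos rfl]
          exact dvd_add (dvd_refl _) (ih2 n)
        · rw [if_neg (fun h => hn (Nat.succ_injective h)), zero_add]
          exact ih2 n

end Main

section Perm

universe u

variable {k V : Type*} [Field k] [AddCommGroup V] [Module k V] [FiniteDimensional k V]

/-- weighted fixed point identities give weighted exact-period identities. -/
theorem s56d_eCount_of_fixCount {J : Type*} [Fintype J] (X : J → Type u) [∀ j, Fintype (X j)]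
    (σ : ∀ j, Equiv.Perm (X j)) (wp wm : J → ℕ)
    (h : ∀ i : ℕ, i ≠ 0 → ∑ j, wp j * s56d_fixCount (σ j) i = ∑ j, wm j * s56d_fixCount (σ j) i) :
    ∀ ℓ : ℕ, ℓ ≠ 0 → ∑ j, wp j * s56d_eCount (σ j) ℓ = ∑ j, wm j * s56d_eCount (σ j) ℓ := by
  intro ℓ
  induction ℓ using Nat.strong_induction_on with
  | _ ℓ ih =>
    intro hℓ
    have key : ∀ w : J → ℕ, ∑ j, w j * s56d_fixCount (σ j) ℓ
        = ∑ j, w j * s56d_eCount (σ j) ℓ
          + ∑ d ∈ ℓ.properDivisors, ∑ j, w j * s56d_eCount (σ j) d := by
      intro w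
      rw [Finset.sum_comm, ← Finset.sum_add_distrib]
      refine Finset.sum_congr rfl fun j _ => ?_
      rw [s56d_fixCount_eq_sum (σ j) hℓ, ← Nat.cons_self_properDivisors hℓ, Finset.sum_cons,
        mul_add, Finset.mul_sum]
    have h1 := h ℓ hℓ
    rw [key wp, key wm] at h1
    have h2 : ∑ d ∈ ℓ.properDivisors, ∑ j, wp j * s56d_eCount (σ j) d
        = ∑ d ∈ ℓ.properDivisors, ∑ j, wm j * s56d_eCount (σ j) d := by
      refine Finset.sum_congr rfl fun d hd => ?_
      rw [Nat.mem_properDivisors] at hd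
      refine ih d hd.2 ?_
      rintro rfl
      exact hℓ (Nat.eq_zero_of_zero_dvd hd.1)
    rw [h2] at h1
    exact Nat.add_right_cancel h1

/-- **Lemma PERM**: weighted fixed point identities give identities between products of characteristic
polynomials of monomial endomorphisms. -/
theorem s56d_prod_charpoly_permEnd_eq (f : Module.End k V) {J : Type*} [Fintype J] (X : J → Type u)
    [∀ j, Fintype (X j)] (σ : ∀ j, Equiv.Perm (X j)) (wp wm : J → ℕ)
    (h : ∀ i : ℕ, i ≠ 0 → ∑ j, wp j * s56d_fixCount (σ j) i = ∑ j, wm j * s56d_fixCount (σ j) i) :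
    ∏ j, (s56d_permEnd (σ j) f).charpoly ^ wp j = ∏ j, (s56d_permEnd (σ j) f).charpoly ^ wm j := by
  classical
  have he := s56d_eCount_of_fixCount X σ wp wm h
  set M : ℕ := ∑ j, Fintype.card (X j) with hM
  have hle : ∀ j, Fintype.card (X j) ≤ M := fun j =>
    Finset.single_le_sum (f := fun j => Fintype.card (X j)) (fun _ _ => Nat.zero_le _)
      (Finset.mem_univ j)
  have hcp : ∀ j, (s56d_permEnd (σ j) f).charpoly
      = ∏ n ∈ Finset.range M, s56d_R n f ^ (s56d_eCount (σ j) (n + 1) / (n + 1)) := fun j =>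
    (s56d_charpoly_permEnd f _ (X j) (σ j) le_rfl M (hle j)).1
  have hdvd : ∀ j n, (n + 1) ∣ s56d_eCount (σ j) (n + 1) := fun j n =>
    (s56d_charpoly_permEnd f _ (X j) (σ j) le_rfl M (hle j)).2 n
  have key : ∀ w : J → ℕ, ∏ j, (s56d_permEnd (σ j) f).charpoly ^ w j
      = ∏ n ∈ Finset.range M, s56d_R n f ^ (∑ j, w j * (s56d_eCount (σ j) (n + 1) / (n + 1))) := by
    intro w
    simp only [hcp, ← Finset.prod_pow, ← pow_mul]
    rw [Finset.prod_comm]
    refine Finset.prod_congr rfl fun n _ => ?_
    rw [Finset.prod_pow_eq_pow_sum]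
    congr 1
    exact Finset.sum_congr rfl fun j _ => mul_comm _ _
  rw [key wp, key wm]
  refine Finset.prod_congr rfl fun n _ => ?_
  congr 1
  have h3 : ∀ w : J → ℕ, (n + 1) * ∑ j, w j * (s56d_eCount (σ j) (n + 1) / (n + 1))
      = ∑ j, w j * s56d_eCount (σ j) (n + 1) := by
    intro w
    rw [Finset.mul_sum]
    refine Finset.sum_congr rfl fun j _ => ?_
    rw [mul_left_comm, Nat.mul_div_cancel' (hdvd j n)]
  have h4 := he (n + 1) (Nat.succ_ne_zero n)
  rw [← h3 wp, ← h3 wm] at h4
  exact Nat.eq_of_mul_eq_mul_left (Nat.succ_pos n) h4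

end Perm

end Fermat.Agent.Lib.S56
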