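/-
PROGRAMME W (S56), wall [W4], brick (E3) "modular Artin induction" (helper1, prefix `s56d_`):
**the group-theoretic identity of marks.**

For a finite group `G` and a natural number `p`, let `𝒞′ = s56d_CycP G p` be the set of cyclic subgroups of
order prime to `p`.  There are integers `b_C` (`C ∈ 𝒞′`; a Möbius inversion on the poset `𝒞′`) such that for every
`h ∈ G` of order prime to `p`
  `∑_C b_C · #{x ∈ G | x⁻¹ h x ∈ C} = #G`            (`s56d_exists_artin_coeff`),
and `#C · #Fix(g ^ i on G ⧸ C) = #{x ∈ G | x⁻¹ g ^ i x ∈ C}`     (`s56d_card_mul_fixCount`).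
-/
import Fermat.Agent.Lib.S56.DPerm

set_option autoImplicit false

noncomputable section

namespace Fermat.Agent.Lib.S56

open Function

section Mobius

open Classical in
/-- Möbius inversion on a finite poset, in the existential form: every function is an "upper sum". -/
theorem s56d_exists_mobius {α : Type*} [Fintype α] [PartialOrder α] (t : α → ℤ) :
    ∃ b : α → ℤ, ∀ x, (∑ y : α, if x ≤ y then b y else 0) = t x := by
  classical
  have wf : WellFounded ((· > ·) : α → α → Prop) := wellFounded_gt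
  let F : ∀ x : α, (∀ y : α, y > x → ℤ) → ℤ := fun x ih =>
    t x - ∑ y : α, if h : x < y then ih y h else 0
  refine ⟨wf.fix F, fun x => ?_⟩
  have h1 : wf.fix F x = t x - ∑ y : α, if x < y then wf.fix F y else 0 := by
    rw [wf.fix_eq]
    simp only [F, dite_eq_ite]
  have h2 : (∑ y : α, if x ≤ y then wf.fix F y else 0)
      = wf.fix F x + ∑ y : α, if x < y then wf.fix F y else 0 := by
    rw [← Finset.add_sum_erase Finset.univ _ (Finset.mem_univ x), if_pos le_rfl]
    congr 1
    rw [← Finset.add_sum_erase Finset.univ (fun y => if x < y then wf.fix F y else 0)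
      (Finset.mem_univ x), if_neg (lt_irrefl x), zero_add]
    refine Finset.sum_congr rfl fun y hy => ?_
    have hne : y ≠ x := Finset.ne_of_mem_erase hy
    by_cases hxy : x ≤ y
    · rw [if_pos hxy, if_pos (lt_of_le_of_ne hxy (Ne.symm hne))]
    · rw [if_neg hxy, if_neg (fun h => hxy h.le)]
  rw [h2, h1]
  ring

end Mobius

section Group

variable (G : Type*) [Group G] (p : ℕ)

/-- the cyclic subgroups of order prime to `p`. -/
def s56d_CycP : Type _ :=
  {C : Subgroup G // IsCyclic C ∧ (Nat.card C).Coprime p}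

instance : PartialOrder (s56d_CycP G p) := Subtype.partialOrder _

instance [Finite G] : Finite (s56d_CycP G p) := Subtype.finite

instance [Finite G] : Fintype (s56d_CycP G p) := Fintype.ofFinite _

variable {G p}

theorem s56d_CycP_le_iff (C D : s56d_CycP G p) : C ≤ D ↔ C.1 ≤ D.1 := Iff.rfl

/-- the cyclic subgroup generated by an element of order prime to `p`. -/
def s56d_CycP.zpowers (h : G) (hh : (orderOf h).Coprime p) : s56d_CycP G p :=
  ⟨Subgroup.zpowers h, inferInstance, by rwa [Nat.card_zpowers]⟩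

/-- **the coefficients of Artin's induction theorem** (`p`-regular form). -/
theorem s56d_exists_artin_coeff (G : Type*) [Group G] [Finite G] (p : ℕ) :
    ∃ b : s56d_CycP G p → ℤ, ∀ h : G, (orderOf h).Coprime p →
      (∑ C : s56d_CycP G p, b C * (Nat.card {x : G // x⁻¹ * h * x ∈ C.1} : ℤ)) = Nat.card G := by
  classical
  have : Fintype G := Fintype.ofFinite G
  obtain ⟨b, hb⟩ := s56d_exists_mobius (α := s56d_CycP G p) (fun _ => 1)
  refine ⟨b, fun h hh => ?_⟩
  have hconj : ∀ x : G, (orderOf (x⁻¹ * h * x)).Coprime p := by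
    intro x
    have hs : SemiconjBy x⁻¹ h (x⁻¹ * h * x) := by
      unfold SemiconjBy
      group
    rw [← hs.orderOf_eq]
    exact hh
  have h1 : ∀ C : s56d_CycP G p, (Nat.card {x : G // x⁻¹ * h * x ∈ C.1} : ℤ)
      = ∑ x : G, if s56d_CycP.zpowers (x⁻¹ * h * x) (hconj x) ≤ C then (1 : ℤ) else 0 := by
    intro C
    rw [Nat.card_eq_fintype_card, Fintype.card_subtype, Finset.card_filter]
    push_cast
    refine Finset.sum_congr rfl fun x _ => ?_
    have : s56d_CycP.zpowers (x⁻¹ * h * x) (hconj x) ≤ C ↔ x⁻¹ * h * x ∈ C.1 := by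
      rw [s56d_CycP_le_iff]
      exact Subgroup.zpowers_le
    simp only [this]
  simp only [h1, Finset.mul_sum]
  rw [Finset.sum_comm]
  have h2 : ∀ x : G, (∑ C : s56d_CycP G p,
      b C * if s56d_CycP.zpowers (x⁻¹ * h * x) (hconj x) ≤ C then (1 : ℤ) else 0) = 1 := by
    intro x
    refine (Finset.sum_congr rfl fun C _ => ?_).trans
      (hb (s56d_CycP.zpowers (x⁻¹ * h * x) (hconj x)))
    simp only [mul_ite, mul_one, mul_zero]
  rw [Finset.sum_congr rfl fun x _ => h2 x]
  simp [Nat.card_eq_fintype_card]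

/-- fixed points of `g ^ i` on `G ⧸ C`. -/
theorem s56d_card_mul_fixCount (C : Subgroup G) [Fintype (G ⧸ C)] (g : G) (i : ℕ) :
    Nat.card C * s56d_fixCount (MulAction.toPerm g : Equiv.Perm (G ⧸ C)) i
      = Nat.card {x : G // x⁻¹ * g ^ i * x ∈ C} := by
  classical
  have h1 : s56d_fixCount (MulAction.toPerm g : Equiv.Perm (G ⧸ C)) i
      = Nat.card ({y : G ⧸ C | (g ^ i) • y = y} : Set (G ⧸ C)) := by
    unfold s56d_fixCount
    change _ = Nat.card {y : G ⧸ C // (g ^ i) • y = y}
    rw [Nat.card_eq_fintype_card, Fintype.card_subtype, Finset.card_filter]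
    refine Finset.sum_congr rfl fun y _ => ?_
    have hpow : (MulAction.toPerm g : Equiv.Perm (G ⧸ C)) ^ i = MulAction.toPerm (g ^ i) :=
      (map_pow (MulAction.toPermHom G (G ⧸ C)) g i).symm
    rw [hpow]
    simp only [MulAction.toPerm_apply]
  rw [h1, ← QuotientGroup.card_preimage_mk]
  refine Nat.card_congr (Equiv.subtypeEquivRight fun x => ?_)
  simp only [Set.mem_preimage, Set.mem_ofPred_eq]
  change ((QuotientGroup.mk (g ^ i * x) : G ⧸ C) = QuotientGroup.mk x) ↔ _
  rw [QuotientGroup.eq, ← inv_mem_iff (x := x⁻¹ * g ^ i * x)]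
  have : (x⁻¹ * g ^ i * x)⁻¹ = (g ^ i * x)⁻¹ * x := by group
  rw [this]

end Group

end Fermat.Agent.Lib.S56
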