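/-
PROGRAMME W (S56), wall [W4], brick (E3) "modular Artin induction" (helper1, prefix `s56d_`):
**separating elements for simple modules over a finite algebra.**

For a finite family `N j` of finite, pairwise non-isomorphic simple modules over a `k`-algebra `R`
(`k` a finite field) and an index `i`, there is `a : R` acting on `N i` with non-zero `k`-trace and acting
as zero on every `N j`, `j ≠ i` (`s56d_exists_separating`).  Proof: Jacobson density for the semisimple
module `Π j, N j`, Wedderburn's little theorem (`End_R (N i)` is a finite field `D`), and a `D`-linear map of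
rank one whose `k`-trace is `Tr_{D/k}(d) ≠ 0` (separability).
-/
import Mathlib

set_option autoImplicit false
set_option linter.style.haveILetI false

noncomputable section

namespace Fermat.Agent.Lib.S56

open Module

/-- a rank-one `F`-linear endomorphism with non-zero `k`-trace (`F/k` finite separable). -/
theorem s56d_exists_trace_ne_zero (k F N : Type*) [Field k] [Field F] [Algebra k F]
    [FiniteDimensional k F] [Algebra.IsSeparable k F] [AddCommGroup N] [Module k N] [Module F N]
    [IsScalarTower k F N] [FiniteDimensional k N] [Nontrivial N] :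
    ∃ u : N →ₗ[F] N, LinearMap.trace k N (u.restrictScalars k) ≠ 0 := by
  obtain ⟨v₀, hv₀⟩ := exists_ne (0 : N)
  obtain ⟨l, hl⟩ := Module.Projective.exists_dual_eq_one F hv₀
  obtain ⟨d, hd⟩ : ∃ d : F, Algebra.trace k F d ≠ 0 := by
    by_contra h
    push Not at h
    exact Algebra.trace_ne_zero k F (LinearMap.ext h)
  let u : N →ₗ[F] N := (d • l).smulRight v₀
  refine ⟨u, ?_⟩
  let h : N →ₗ[k] F := (d • l).restrictScalars k
  let g : F →ₗ[k] N := (LinearMap.toSpanSingleton F N v₀).restrictScalars k
  have h1 : u.restrictScalars k = g ∘ₗ h := by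
    ext y
    simp [u, g, h]
  have h2 : h ∘ₗ g = Algebra.lmul k F d := by
    ext t
    simp [g, h, hl]
  rw [h1, LinearMap.trace_comp_comm', h2]
  exact hd

/-- on a finite simple module over a `k`-algebra (`k` a finite field) there is a `k`-linear endomorphism
commuting with all module endomorphisms and of non-zero trace. -/
theorem s56d_simple_trace (k R N : Type*) [Field k] [Finite k] [Ring R] [Algebra k R] [AddCommGroup N]
    [Module k N] [Module R N] [IsScalarTower k R N] [Finite N] [IsSimpleModule R N] :
    ∃ u : N →ₗ[k] N, (∀ (d : Module.End R N) (y : N), u (d y) = d (u y)) ∧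
      LinearMap.trace k N u ≠ 0 := by
  classical
  letI : DivisionRing (Module.End R N) := Module.End.instDivisionRing
  haveI : Finite (Module.End R N) := Finite.of_injective (fun f => (f : N → N)) DFunLike.coe_injective
  letI : Field (Module.End R N) := littleWedderburn _
  haveI : Nontrivial N := IsSimpleModule.nontrivial R N
  haveI : IsScalarTower k (Module.End R N) N := ⟨fun c d y => rfl⟩
  obtain ⟨u, hu⟩ := s56d_exists_trace_ne_zero k (Module.End R N) N
  refine ⟨u.restrictScalars k, fun d y => ?_, hu⟩
  exact u.map_smul d y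

section Density

variable {R : Type*} [Ring R] {I : Type*} [Fintype I] [DecidableEq I] (N : I → Type*)
  [∀ j, AddCommGroup (N j)] [∀ j, Module R (N j)] [∀ j, IsSimpleModule R (N j)]

/-- endomorphisms of a product of pairwise non-isomorphic simple modules are diagonal. -/
theorem s56d_end_pi_offdiag (hN : ∀ j l, j ≠ l → IsEmpty (N j ≃ₗ[R] N l))
    (e : Module.End R (∀ j, N j)) {j l : I} (hjl : j ≠ l) (y : N j) : e (Pi.single j y) l = 0 := by
  let c : N j →ₗ[R] N l := (LinearMap.proj l).comp (e.comp (LinearMap.single R N j))
  have hc : c = 0 := by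
    rcases LinearMap.bijective_or_eq_zero c with hb | h0
    · exact ((hN j l hjl).false (LinearEquiv.ofBijective c hb)).elim
    · exact h0
  have := congrArg (fun f : N j →ₗ[R] N l => f y) hc
  simpa [c] using this

theorem s56d_end_pi_apply (hN : ∀ j l, j ≠ l → IsEmpty (N j ≃ₗ[R] N l))
    (e : Module.End R (∀ j, N j)) (t : ∀ j, N j) (l : I) :
    e t l = e (Pi.single l (t l)) l := by
  conv_lhs => rw [← Finset.univ_sum_single t]
  rw [map_sum, Finset.sum_apply]
  rw [Finset.sum_eq_single l]
  · intro j _ hj
    exact s56d_end_pi_offdiag N hN e hj (t j)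
  · intro h
    exact (h (Finset.mem_univ l)).elim

/-- **separating elements** (Jacobson density). -/
theorem s56d_exists_separating_aux [Finite (∀ j, N j)]
    (hN : ∀ j l, j ≠ l → IsEmpty (N j ≃ₗ[R] N l)) (i : I)
    (u : N i →+ N i) (hu : ∀ (d : Module.End R (N i)) (y : N i), u (d y) = d (u y)) :
    ∃ a : R, (∀ y : N i, a • y = u y) ∧ ∀ j, j ≠ i → ∀ y : N j, a • y = 0 := by
  classical
  have hfin : Fintype (∀ j, N j) := Fintype.ofFinite _
  -- the `End_R(T)`-linear endomorphism `t ↦ single i (u (t i))`
  let f : Module.End (Module.End R (∀ j, N j)) (∀ j, N j) :=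
    { toFun := fun t => Pi.single i (u (t i))
      map_add' := fun t t' => by
        rw [Pi.add_apply, map_add, Pi.single_add]
      map_smul' := fun e t => by
        rw [RingHom.id_apply]
        change Pi.single i (u (e t i)) = e (Pi.single i (u (t i)))
        funext l
        by_cases hl : l = i
        · subst hl
          rw [Pi.single_eq_same, s56d_end_pi_apply N hN e t l]
          let d : Module.End R (N l) :=
            (LinearMap.proj l).comp (e.comp (LinearMap.single R N l))
          exact hu d (t l)
        · rw [Pi.single_eq_of_ne hl]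
          exact (s56d_end_pi_offdiag N hN e (Ne.symm hl) _).symm }
  obtain ⟨a, ha⟩ := jacobson_density (R := R) f (Finset.univ : Finset (∀ j, N j))
  refine ⟨a, fun y => ?_, fun j hj y => ?_⟩
  · have h1 := ha (Pi.single i y) (Finset.mem_univ _)
    have h2 := congrFun h1 i
    change Pi.single i (u ((Pi.single i y : ∀ j, N j) i)) i = a • (Pi.single i y : ∀ j, N j) i at h2
    rw [Pi.single_eq_same, Pi.single_eq_same] at h2
    exact h2.symm
  · have h1 := ha (Pi.single j y) (Finset.mem_univ _)
    have h2 := congrFun h1 j
    change Pi.single i (u ((Pi.single j y : ∀ j, N j) i)) j = a • (Pi.single j y : ∀ j, N j) j at h2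
    rw [Pi.single_eq_same, Pi.single_eq_of_ne hj] at h2
    exact h2.symm

end Density

/-- **separating elements with non-zero trace.** -/
theorem s56d_exists_separating {k R : Type*} [Field k] [Finite k] [Ring R] [Algebra k R]
    {I : Type*} [Fintype I] (N : I → Type*)
    [∀ j, AddCommGroup (N j)] [∀ j, Module k (N j)] [∀ j, Module R (N j)]
    [∀ j, IsScalarTower k R (N j)] [∀ j, Finite (N j)] [∀ j, IsSimpleModule R (N j)]
    (hN : ∀ j l, j ≠ l → IsEmpty (N j ≃ₗ[R] N l)) (i : I) :
    ∃ a : R, LinearMap.trace k (N i) (Algebra.lsmul k k (N i) a) ≠ 0 ∧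
      ∀ j, j ≠ i → ∀ y : N j, a • y = 0 := by
  classical
  obtain ⟨u, hu, htr⟩ := s56d_simple_trace k R (N i)
  obtain ⟨a, ha, ha'⟩ := s56d_exists_separating_aux N hN i u.toAddMonoidHom hu
  refine ⟨a, ?_, ha'⟩
  have : Algebra.lsmul k k (N i) a = u := by
    ext y
    exact ha y
  rw [this]
  exact htr

end Fermat.Agent.Lib.S56
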