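/-
PROGRAMME W (S56), wall [W4], brick (E3) "modular Artin induction" (helper1, prefix `s56d_`):
separating elements of the group algebra for the family `s56d_irrRep` of simple representations
(`s56d_irr_separating`): `a : k[G]` with non-zero trace on `S_i` and acting as zero on `S_j`, `j ≠ i`.
-/
import Mathlib
import Fermat.Agent.Lib.S56.DIrr
import Fermat.Agent.Lib.S56.DDensity

set_option autoImplicit false

noncomputable section

namespace Fermat.Agent.Lib.S56

open CategoryTheory Polynomial

variable {k : Type} [Field k] {G : Type} [Group G]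

theorem s56d_Simple.isIrreducible {M : Rep.{0, 0, 0} k G} (hM : s56d_Simple M) :
    M.ρ.IsIrreducible := by
  obtain ⟨hnt, hM⟩ := hM
  have key : ∀ σ : Subrepresentation M.ρ, σ = ⊥ ∨ σ = ⊤ := by
    intro σ
    have hW : ∀ g, σ.toSubmodule ≤ σ.toSubmodule.comap (M.ρ g) := fun g x hx =>
      σ.apply_mem_toSubmodule g hx
    rcases hM σ.toSubmodule hW with h | h
    · left
      exact Subrepresentation.toSubmodule_injective h
    · right
      exact Subrepresentation.toSubmodule_injective h
  refine { exists_pair_ne := ⟨⊥, ⊤, ?_⟩, eq_bot_or_eq_top := key }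
  intro h
  have h1 : (⊥ : Submodule k M.V) = ⊤ := congrArg Subrepresentation.toSubmodule h
  exact bot_ne_top h1

instance s56d_asModule_finite (M : Rep.{0, 0, 0} k G) [Finite M.V] : Finite M.ρ.asModule :=
  inferInstanceAs (Finite M.V)

/-- a `k[G]`-linear equivalence of the associated modules gives an isomorphism of representations. -/
theorem s56d_repIso_of_linearEquiv {M N : Rep.{0, 0, 0} k G}
    (e : M.ρ.asModule ≃ₗ[MonoidAlgebra k G] N.ρ.asModule) : s56d_RepIso M N := by
  refine ⟨(e.restrictScalars k : M.ρ.asModule ≃ₗ[k] N.ρ.asModule), fun g x => ?_⟩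
  have h1 : ∀ (P : Rep.{0, 0, 0} k G) (y : P.V),
      P.ρ g y = (MonoidAlgebra.of k G g • (show P.ρ.asModule from y) : P.ρ.asModule) := by
    intro P y
    have := Representation.asModuleEquiv_symm_map_rho P.ρ g y
    exact this
  have h2 := e.map_smul (MonoidAlgebra.of k G g) (show M.ρ.asModule from x)
  rw [h1 M x, h1 N]
  exact h2

/-- **separating elements for the simple representations.** -/
theorem s56d_irr_separating [Finite k] [Finite G] (i : s56d_Irr k G) :
    ∃ a : MonoidAlgebra k G,
      LinearMap.trace k (s56d_irrRep i).V ((s56d_irrRep i).ρ.asAlgebraHom a) ≠ 0 ∧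
      ∀ j, j ≠ i → (s56d_irrRep j).ρ.asAlgebraHom a = 0 := by
  classical
  have : Fintype (s56d_Irr k G) := Fintype.ofFinite _
  have hsimple : ∀ j : s56d_Irr k G,
      IsSimpleModule (MonoidAlgebra k G) (s56d_irrRep j).ρ.asModule := fun j => by
    have := (s56d_irrRep_simple j).isIrreducible
    exact (Representation.irreducible_iff_isSimpleModule_asModule _).mp this
  have hN : ∀ j l : s56d_Irr k G, j ≠ l →
      IsEmpty ((s56d_irrRep j).ρ.asModule ≃ₗ[MonoidAlgebra k G] (s56d_irrRep l).ρ.asModule) :=
    fun j l hjl => ⟨fun e => hjl (s56d_irrRep_injective (s56d_repIso_of_linearEquiv e))⟩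
  obtain ⟨a, ha, ha'⟩ := s56d_exists_separating (k := k) (R := MonoidAlgebra k G)
    (fun j : s56d_Irr k G => (s56d_irrRep j).ρ.asModule) hN i
  refine ⟨a, ha, fun j hj => ?_⟩
  ext y
  exact ha' j hj y

end Fermat.Agent.Lib.S56
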