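/-
PROGRAMME W (S56), wall [W4], brick (E3) "modular Artin induction" (helper1, prefix `s56d_`):
**a Brauer–Nesbitt theorem in characteristic `p` without lifting.**

`s56d_brauer_nesbitt`: for finite representations `M j` of a finite group over a finite field of
characteristic `p` with integer weights `w⁺ j`, `w⁻ j`: if the characteristic polynomials of all `p`-regular
group elements satisfy `∏ χ_{M j}(g)^{w⁺ j} = ∏ χ_{M j}(g)^{w⁻ j}`, then `∑ w⁺ j φ(M j) = ∑ w⁻ j φ(M j)` for
every additive invariant `φ`.

Proof: Jordan–Hölder multiplicities (`DInv`), the traces of the simple modules are linearly independent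
(`DIrrSep`), hence an identity between products of characteristic polynomials of simple modules forces the
multiplicities to agree modulo `p`; then divide by `p` and extract a `p`-th root (Frobenius is injective on
`k[X]`), induction.
-/
import Mathlib
import Fermat.Agent.Lib.S56.DIrrSep

set_option autoImplicit false

noncomputable section

namespace Fermat.Agent.Lib.S56

open CategoryTheory Polynomial

variable {k : Type} [Field k] {G : Type} [Group G]

/-! ### the `p`-regular part of a group element -/

/-- `g = g^u * g^v` with `g^u` of order prime to `p` and `g^v` of `p`-power order. -/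
theorem s56d_exists_pRegular_pow (p : ℕ) [hp : Fact p.Prime] [Finite G] (g : G) :
    ∃ u v a : ℕ, (orderOf (g ^ u)).Coprime p ∧ g ^ u * g ^ v = g ∧ (g ^ v) ^ (p ^ a) = 1 := by
  have hn : orderOf g ≠ 0 := (orderOf_pos g).ne'
  obtain ⟨a, m, hm, hnm⟩ := Nat.exists_eq_pow_mul_and_not_dvd hn p hp.out.ne_one
  have hco : (p ^ a).Coprime m := Nat.Coprime.pow_left a ((Nat.Prime.coprime_iff_not_dvd hp.out).mpr hm)
  obtain ⟨u, hu1, hu2⟩ := Nat.chineseRemainder hco 0 1
  obtain ⟨v, hv1, hv2⟩ := Nat.chineseRemainder hco 1 0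
  refine ⟨u, v, a, ?_, ?_, ?_⟩
  · have h1 : (g ^ u) ^ m = 1 := by
      rw [← pow_mul, ← orderOf_dvd_iff_pow_eq_one, hnm]
      exact Nat.mul_dvd_mul_right ((Nat.modEq_zero_iff_dvd).mp hu1) m
    have h2 : orderOf (g ^ u) ∣ m := orderOf_dvd_of_pow_eq_one h1
    exact Nat.Coprime.coprime_dvd_left h2
      ((Nat.Prime.coprime_iff_not_dvd hp.out).mpr hm).symm
  · rw [← pow_add]
    have h1 : u + v ≡ 1 [MOD p ^ a] := by
      have := Nat.ModEq.add hu1 hv1
      simpa using this
    have h2 : u + v ≡ 1 [MOD m] := by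
      have := Nat.ModEq.add hu2 hv2
      simpa using this
    have h3 : u + v ≡ 1 [MOD orderOf g] := by
      rw [hnm]
      exact (Nat.modEq_and_modEq_iff_modEq_mul hco).mp ⟨h1, h2⟩
    have := (pow_eq_pow_iff_modEq (x := g)).mpr h3
    rwa [pow_one] at this
  · rw [← pow_mul, ← orderOf_dvd_iff_pow_eq_one, hnm]
    rw [mul_comm v]
    exact Nat.mul_dvd_mul_left _ ((Nat.modEq_zero_iff_dvd).mp hv2)

/-- the characteristic polynomial of `g` equals that of its `p`-regular part. -/
theorem s56d_charpoly_pRegular (p : ℕ) [hp : Fact p.Prime] [CharP k p] {V : Type*} [AddCommGroup V]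
    [Module k V] [FiniteDimensional k V] (ρ : Representation k G V) {x y : G} (hxy : Commute x y)
    {a : ℕ} (hy : y ^ (p ^ a) = 1) : (ρ (x * y)).charpoly = (ρ x).charpoly := by
  have h1 : ρ (x * y) = ρ x + ρ x * (ρ y - 1) := by
    rw [map_mul, mul_sub, mul_one]
    abel
  have hc : Commute (ρ x) (ρ y) := by
    change ρ x * ρ y = ρ y * ρ x
    rw [← map_mul, ← map_mul, hxy.eq]
  have hnil : IsNilpotent (ρ y - 1) := by
    refine ⟨p ^ a, ?_⟩
    have h2 : ((X : k[X]) - 1) ^ (p ^ a) = X ^ (p ^ a) - 1 := by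
      rw [sub_pow_char_pow, one_pow]
    have h3 := congrArg (aeval (ρ y)) h2
    simp only [map_pow, map_sub, aeval_X, map_one] at h3
    rw [h3, ← map_pow, hy, map_one, sub_self]
  have hc2 : Commute (ρ x) (ρ x * (ρ y - 1)) :=
    (Commute.refl _).mul_right (hc.sub_right (Commute.one_right _))
  have hnil2 : IsNilpotent (ρ x * (ρ y - 1)) :=
    Commute.isNilpotent_mul_left (hc.sub_right (Commute.one_right _)) hnil
  rw [h1]
  exact s56d_charpoly_add_nilpotent k _ _ hc2 hnil2

/-! ### traces and next coefficients -/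

theorem s56d_nextCoeff_charpoly {V : Type*} [AddCommGroup V] [Module k V] [FiniteDimensional k V]
    (f : Module.End k V) : f.charpoly.nextCoeff = - LinearMap.trace k V f := by
  rw [LinearMap.charpoly_def, LinearMap.trace_eq_matrix_trace k (Module.Free.chooseBasis k V) f,
    Matrix.trace_eq_neg_charpoly_nextCoeff, neg_neg]

/-! ### the combinatorial core -/

section Core

variable [Finite k] [Finite G]

/-- the characteristic polynomial of the group element `g` on the simple representation `S_i`. -/
abbrev s56d_P (i : s56d_Irr k G) (g : G) : k[X] :=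
  s56d_cp (s56d_irrRep i) (MonoidAlgebra.of k G g)

/-- the trace of `a : k[G]` on the simple representation `S_i`. -/
abbrev s56d_T (i : s56d_Irr k G) (a : MonoidAlgebra k G) : k :=
  LinearMap.trace k (s56d_irrRep i).V ((s56d_irrRep i).ρ.asAlgebraHom a)

theorem s56d_P_monic (i : s56d_Irr k G) (g : G) : (s56d_P i g).Monic := s56d_cp_monic _ _

theorem s56d_nextCoeff_P (i : s56d_Irr k G) (g : G) :
    (s56d_P i g).nextCoeff = - s56d_T i (MonoidAlgebra.of k G g) :=
  s56d_nextCoeff_charpoly _

theorem s56d_trace_identity [Fintype (s56d_Irr k G)] (m n : s56d_Irr k G → ℕ)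
    (h : ∀ g : G, ∏ i, s56d_P i g ^ m i = ∏ i, s56d_P i g ^ n i) (a : MonoidAlgebra k G) :
    ∑ i, (m i : k) * s56d_T i a = ∑ i, (n i : k) * s56d_T i a := by
  induction a using MonoidAlgebra.induction_on with
  | of g =>
    have h1 := congrArg Polynomial.nextCoeff (h g)
    rw [Polynomial.Monic.nextCoeff_prod _ _ (fun i _ => (s56d_P_monic i g).pow _),
      Polynomial.Monic.nextCoeff_prod _ _ (fun i _ => (s56d_P_monic i g).pow _)] at h1
    simp only [Polynomial.Monic.nextCoeff_pow (s56d_P_monic _ g), s56d_nextCoeff_P, nsmul_eq_mul, mul_neg,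
      Finset.sum_neg_distrib, neg_inj] at h1
    exact h1
  | add a b ha hb =>
    simp only [s56d_T, map_add, mul_add, Finset.sum_add_distrib] at ha hb ⊢
    rw [ha, hb]
  | smul r a ha =>
    simp only [s56d_T, map_smul, smul_eq_mul] at ha ⊢
    have : ∀ (c : s56d_Irr k G → ℕ), ∑ i, (c i : k) * (r * LinearMap.trace k (s56d_irrRep i).V
        ((s56d_irrRep i).ρ.asAlgebraHom a)) = r * ∑ i, (c i : k) * LinearMap.trace k (s56d_irrRep i).V
        ((s56d_irrRep i).ρ.asAlgebraHom a) := by
      intro c
      rw [Finset.mul_sum]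
      exact Finset.sum_congr rfl fun i _ => by ring
    rw [this, this, ha]

theorem s56d_dvd_of_disjoint (p : ℕ) [Fact p.Prime] [CharP k p] [Fintype (s56d_Irr k G)]
    (m n : s56d_Irr k G → ℕ)
    (h : ∀ g : G, ∏ i, s56d_P i g ^ m i = ∏ i, s56d_P i g ^ n i)
    (hdisj : ∀ i, m i = 0 ∨ n i = 0) (i : s56d_Irr k G) : p ∣ m i ∧ p ∣ n i := by
  classical
  obtain ⟨a, ha, ha'⟩ := s56d_irr_separating i
  have h1 := s56d_trace_identity m n h a
  have hz : ∀ j, j ≠ i → s56d_T j a = 0 := fun j hj => by
    unfold s56d_T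
    rw [ha' j hj, map_zero]
  rw [Finset.sum_eq_single i (fun j _ hj => by rw [hz j hj, mul_zero])
      (fun hi => (hi (Finset.mem_univ i)).elim),
    Finset.sum_eq_single i (fun j _ hj => by rw [hz j hj, mul_zero])
      (fun hi => (hi (Finset.mem_univ i)).elim)] at h1
  have h2 : (m i : k) = (n i : k) := mul_right_cancel₀ ha h1
  rcases hdisj i with h0 | h0
  · rw [h0, Nat.cast_zero] at h2
    exact ⟨h0 ▸ dvd_zero p, (CharP.cast_eq_zero_iff k p (n i)).mp h2.symm⟩
  · rw [h0, Nat.cast_zero] at h2
    exact ⟨(CharP.cast_eq_zero_iff k p (m i)).mp h2, h0 ▸ dvd_zero p⟩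

/-- **uniqueness of multiplicities**: the characteristic polynomials of the group elements determine the
multiplicity vector. -/
theorem s56d_mult_unique (p : ℕ) [hp : Fact p.Prime] [CharP k p] [Fintype (s56d_Irr k G)] :
    ∀ (N : ℕ) (m n : s56d_Irr k G → ℕ), ∑ i, (m i + n i) ≤ N →
      (∀ g : G, ∏ i, s56d_P i g ^ m i = ∏ i, s56d_P i g ^ n i) → m = n := by
  classical
  intro N
  induction N with
  | zero =>
    intro m n hN _
    have h0 : ∀ i, m i + n i = 0 := by
      have : ∑ i, (m i + n i) = 0 := Nat.le_zero.mp hN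
      intro i
      exact (Finset.sum_eq_zero_iff.mp this) i (Finset.mem_univ i)
    funext i
    have := h0 i
    omega
  | succ N ih =>
    intro m n hN h
    by_cases hcommon : ∃ i, 0 < m i ∧ 0 < n i
    · obtain ⟨i, hmi, hni⟩ := hcommon
      set m' : s56d_Irr k G → ℕ := fun j => m j - (if j = i then 1 else 0) with hm'
      set n' : s56d_Irr k G → ℕ := fun j => n j - (if j = i then 1 else 0) with hn'
      have hm : ∀ j, m j = m' j + (if j = i then 1 else 0) := fun j => by
        simp only [hm']
        by_cases hj : j = i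
        · subst hj; simp only [if_true]; omega
        · simp [hj]
      have hn : ∀ j, n j = n' j + (if j = i then 1 else 0) := fun j => by
        simp only [hn']
        by_cases hj : j = i
        · subst hj; simp only [if_true]; omega
        · simp [hj]
      have hprod : ∀ (c c' : s56d_Irr k G → ℕ), (∀ j, c j = c' j + (if j = i then 1 else 0)) →
          ∀ g : G, ∏ j, s56d_P j g ^ c j = (∏ j, s56d_P j g ^ c' j) * s56d_P i g := by
        intro c c' hc g
        simp only [hc, pow_add, pow_ite, pow_one, pow_zero]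
        rw [Finset.prod_mul_distrib, Finset.prod_ite_eq' Finset.univ i]
        simp
      have hsum : ∑ j, (m' j + n' j) ≤ N := by
        have h1 : ∑ j, (m j + n j) = ∑ j, (m' j + n' j) + 2 := by
          have : ∀ j, m j + n j = (m' j + n' j) + (if j = i then 2 else 0) := fun j => by
            rw [hm j, hn j]
            by_cases hj : j = i
            · simp only [hj, if_true]; omega
            · simp only [hj, if_false]; omega
          simp only [this]
          rw [Finset.sum_add_distrib, Finset.sum_ite_eq' Finset.univ i]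
          simp
        omega
      have h' : ∀ g : G, ∏ j, s56d_P j g ^ m' j = ∏ j, s56d_P j g ^ n' j := fun g => by
        have := h g
        rw [hprod m m' hm g, hprod n n' hn g] at this
        exact mul_right_cancel₀ (s56d_P_monic i g).ne_zero this
      have := ih m' n' hsum h'
      funext j
      rw [hm j, hn j, this]
    · push Not at hcommon
      have hdisj : ∀ i, m i = 0 ∨ n i = 0 := fun i => by
        by_cases h0 : m i = 0
        · exact Or.inl h0
        · exact Or.inr (Nat.le_zero.mp (hcommon i (Nat.pos_of_ne_zero h0)))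
      have hdvd := s56d_dvd_of_disjoint p m n h hdisj
      by_cases hzero : ∑ i, (m i + n i) = 0
      · have h0 : ∀ i, m i + n i = 0 := fun i =>
          (Finset.sum_eq_zero_iff.mp hzero) i (Finset.mem_univ i)
        funext i
        have := h0 i
        omega
      · set m' : s56d_Irr k G → ℕ := fun j => m j / p with hm'
        set n' : s56d_Irr k G → ℕ := fun j => n j / p with hn'
        have hm : ∀ j, m j = p * m' j := fun j => (Nat.mul_div_cancel' (hdvd j).1).symm
        have hn : ∀ j, n j = p * n' j := fun j => (Nat.mul_div_cancel' (hdvd j).2).symm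
        have hsum : ∑ j, (m' j + n' j) ≤ N := by
          have h1 : ∑ j, (m j + n j) = p * ∑ j, (m' j + n' j) := by
            rw [Finset.mul_sum]
            exact Finset.sum_congr rfl fun j _ => by rw [hm j, hn j, mul_add]
          have h2 : 2 * ∑ j, (m' j + n' j) ≤ p * ∑ j, (m' j + n' j) :=
            Nat.mul_le_mul_right _ hp.out.two_le
          have h3 : 0 < ∑ j, (m' j + n' j) := by
            rcases Nat.eq_zero_or_pos (∑ j, (m' j + n' j)) with h0 | h0
            · rw [h0, mul_zero] at h1
              exact (hzero h1).elim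
            · exact h0
          omega
        have hpow : ∀ (c c' : s56d_Irr k G → ℕ), (∀ j, c j = p * c' j) → ∀ g : G,
            ∏ j, s56d_P j g ^ c j = (∏ j, s56d_P j g ^ c' j) ^ p := by
          intro c c' hc g
          rw [← Finset.prod_pow]
          exact Finset.prod_congr rfl fun j _ => by rw [hc j, mul_comm, pow_mul]
        have h' : ∀ g : G, ∏ j, s56d_P j g ^ m' j = ∏ j, s56d_P j g ^ n' j := fun g => by
          have := h g
          rw [hpow m m' hm g, hpow n n' hn g] at this
          exact frobenius_inj k[X] p this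
        have := ih m' n' hsum h'
        funext j
        rw [hm j, hn j, this]

end Core

/-! ### the Brauer–Nesbitt theorem -/

theorem s56d_cp_of (M : Rep.{0, 0, 0} k G) [Module.Finite k M.V] (g : G) :
    s56d_cp M (MonoidAlgebra.of k G g) = (M.ρ g).charpoly := by
  unfold s56d_cp
  rw [Representation.asAlgebraHom_of]

/-- the characteristic polynomial of `g` is that of a `p`-regular power of `g`. -/
theorem s56d_exists_pRegular_cp (p : ℕ) [Fact p.Prime] [CharP k p] [Finite G] (g : G) :
    ∃ u : ℕ, (orderOf (g ^ u)).Coprime p ∧ ∀ (M : Rep.{0, 0, 0} k G) [Module.Finite k M.V],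
      s56d_cp M (MonoidAlgebra.of k G g) = s56d_cp M (MonoidAlgebra.of k G (g ^ u)) := by
  obtain ⟨u, v, a, h1, h2, h3⟩ := s56d_exists_pRegular_pow p g
  refine ⟨u, h1, fun M _ => ?_⟩
  rw [s56d_cp_of, s56d_cp_of]
  conv_lhs => rw [← h2]
  exact s56d_charpoly_pRegular p M.ρ ((Commute.refl g).pow_pow u v) h3

/-- **Brauer–Nesbitt** (virtual form, `p`-regular elements only). -/
theorem s56d_brauer_nesbitt (p : ℕ) [Fact p.Prime] [CharP k p] [Finite k] [Finite G]
    {J : Type} [Fintype J] (M : J → Rep.{0, 0, 0} k G) [∀ j, Finite (M j).V] (wp wm : J → ℕ)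
    (h : ∀ g : G, (orderOf g).Coprime p →
      ∏ j, s56d_cp (M j) (MonoidAlgebra.of k G g) ^ wp j
        = ∏ j, s56d_cp (M j) (MonoidAlgebra.of k G g) ^ wm j)
    (φ : Rep.{0, 0, 0} k G → ℤ) (hφ : s56d_AddInv φ) :
    ∑ j, (wp j : ℤ) * φ (M j) = ∑ j, (wm j : ℤ) * φ (M j) := by
  classical
  have : Fintype (s56d_Irr k G) := Fintype.ofFinite _
  have hmult : ∀ j, ∃ μ : s56d_Irr k G → ℕ,
      (∀ φ : Rep.{0, 0, 0} k G → ℤ, s56d_AddInv φ → φ (M j) = ∑ i, (μ i : ℤ) * φ (s56d_irrRep i)) ∧
      (∀ a : MonoidAlgebra k G, s56d_cp (M j) a = ∏ i, s56d_cp (s56d_irrRep i) a ^ μ i) := fun j =>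
    s56d_exists_mult s56d_irrRep (fun N _ hs => s56d_irrRep_exhaustive N hs) _ (M j) le_rfl
  choose μ hμ1 hμ2 using hmult
  -- the identity for all group elements
  have h' : ∀ g : G, ∏ j, s56d_cp (M j) (MonoidAlgebra.of k G g) ^ wp j
      = ∏ j, s56d_cp (M j) (MonoidAlgebra.of k G g) ^ wm j := by
    intro g
    obtain ⟨u, hu, hcp⟩ := s56d_exists_pRegular_cp (k := k) p g
    simp only [hcp]
    exact h _ hu
  have hprod : ∀ (w : J → ℕ) (g : G), ∏ i, s56d_P i g ^ (∑ j, w j * μ j i)
      = ∏ j, s56d_cp (M j) (MonoidAlgebra.of k G g) ^ w j := by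
    intro w g
    simp only [← Finset.prod_pow_eq_pow_sum]
    rw [Finset.prod_comm]
    refine Finset.prod_congr rfl fun j _ => ?_
    rw [hμ2 j, ← Finset.prod_pow]
    exact Finset.prod_congr rfl fun i _ => by rw [mul_comm, pow_mul]
  have hmn : (fun i => ∑ j, wp j * μ j i) = fun i => ∑ j, wm j * μ j i :=
    s56d_mult_unique p _ _ _ le_rfl (fun g => by rw [hprod wp g, hprod wm g, h' g])
  have hsum : ∀ (w : J → ℕ), ∑ j, (w j : ℤ) * φ (M j)
      = ∑ i, ((∑ j, w j * μ j i : ℕ) : ℤ) * φ (s56d_irrRep i) := by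
    intro w
    simp only [hμ1 _ φ hφ, Finset.mul_sum, Nat.cast_sum, Nat.cast_mul, Finset.sum_mul]
    rw [Finset.sum_comm]
    exact Finset.sum_congr rfl fun i _ => Finset.sum_congr rfl fun j _ => by ring
  rw [hsum wp, hsum wm]
  exact Finset.sum_congr rfl fun i _ => by rw [congrFun hmn i]

end Fermat.Agent.Lib.S56
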