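/-
PROGRAMME W (S56), wall [W4], brick (E3) "modular Artin induction" (helper1, prefix `s56d_`):
**the characteristic polynomial of a group element on `Ind_C^G Res_C M`.**

For `M : Rep k G` and a subgroup `C ≤ G` (`G` finite), the coinduced module `Coind_C^G Res_C M` is identified,
`k`-linearly, with `G ⧸ C → M` (`f ↦ (xC ↦ x • f x⁻¹)`), and `g ∈ G` acts as the monomial endomorphism
`s56d_permEnd (left translation by g on G ⧸ C) (M.ρ g)`.  With `Rep.indCoindIso` this computes the
characteristic polynomials of the elements of `G` on `Ind_C^G Res_C M` (`s56d_cp_ind_res`).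
-/
import Fermat.Agent.Lib.S56.DPerm
import Fermat.Agent.Lib.S56.DBN

set_option autoImplicit false

noncomputable section

namespace Fermat.Agent.Lib.S56

open Module Polynomial Function

variable {k : Type} [Field k] {G : Type} [Group G]

section Coind

variable (C : Subgroup G) (M : Rep.{0, 0, 0} k G)

/-- `f ↦ (xC ↦ x • f x⁻¹)`, computed on the chosen representatives. -/
def s56d_coindToFun :
    (Rep.coind C.subtype (Rep.res C.subtype M)).V →ₗ[k] (G ⧸ C → M.V) where
  toFun f q := M.ρ q.out (f.1 q.out⁻¹)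
  map_add' f f' := by
    funext q
    simp
  map_smul' c f := by
    funext q
    simp

theorem s56d_coindToFun_mk (f : (Rep.coind C.subtype (Rep.res C.subtype M)).V) (x : G) :
    s56d_coindToFun C M f (QuotientGroup.mk x) = M.ρ x (f.1 x⁻¹) := by
  change M.ρ (QuotientGroup.mk x : G ⧸ C).out (f.1 (QuotientGroup.mk x : G ⧸ C).out⁻¹) = _
  obtain ⟨c, hc⟩ : ∃ c : C, (QuotientGroup.mk x : G ⧸ C).out = x * c := by
    have h1 : (QuotientGroup.mk ((QuotientGroup.mk x : G ⧸ C).out) : G ⧸ C) = QuotientGroup.mk x :=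
      QuotientGroup.out_eq' _
    rw [QuotientGroup.eq] at h1
    refine ⟨⟨x⁻¹ * (QuotientGroup.mk x : G ⧸ C).out, ?_⟩, ?_⟩
    · have := inv_mem h1
      rwa [mul_inv_rev, inv_inv] at this
    · simp
  rw [hc, mul_inv_rev]
  have h2 := f.2 c⁻¹ x⁻¹
  simp only [Subgroup.coe_subtype, Subgroup.coe_inv] at h2
  rw [h2, map_mul]
  change M.ρ x (M.ρ c (M.ρ (c⁻¹ : C) (f.1 x⁻¹))) = _
  rw [← Module.End.mul_apply, ← map_mul]
  simp

/-- the inverse: `F ↦ (y ↦ y • F (y⁻¹ C))`. -/
def s56d_funToCoind :
    (G ⧸ C → M.V) →ₗ[k] (Rep.coind C.subtype (Rep.res C.subtype M)).V where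
  toFun F := ⟨fun y => M.ρ y (F (QuotientGroup.mk y⁻¹)), by
    intro c y
    simp only [Subgroup.coe_subtype, mul_inv_rev, map_mul]
    have : (QuotientGroup.mk (y⁻¹ * (c : G)⁻¹) : G ⧸ C) = QuotientGroup.mk y⁻¹ := by
      rw [QuotientGroup.eq]
      simp
    rw [this]
    rfl⟩
  map_add' F F' := by
    apply Subtype.ext
    funext y
    simp
  map_smul' c F := by
    apply Subtype.ext
    funext y
    simp

/-- the linear equivalence `Coind_C^G Res_C M ≃ (G ⧸ C → M)`. -/
def s56d_coindEquiv :
    (Rep.coind C.subtype (Rep.res C.subtype M)).V ≃ₗ[k] (G ⧸ C → M.V) :=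
  LinearEquiv.ofLinearMap (s56d_coindToFun C M) (s56d_funToCoind C M)
    (by
      apply LinearMap.ext
      intro F
      funext q
      induction q using QuotientGroup.induction_on with
      | H x =>
        rw [LinearMap.comp_apply, s56d_coindToFun_mk]
        change M.ρ x (M.ρ x⁻¹ (F (QuotientGroup.mk x⁻¹⁻¹))) = F _
        rw [inv_inv, ← Module.End.mul_apply, ← map_mul]
        simp)
    (by
      apply LinearMap.ext
      intro f
      apply Subtype.ext
      funext y
      change M.ρ y (s56d_coindToFun C M f (QuotientGroup.mk y⁻¹)) = f.1 y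
      rw [s56d_coindToFun_mk, inv_inv, ← Module.End.mul_apply, ← map_mul]
      simp)

/-- `g` acts on `Coind_C^G Res_C M ≃ (G ⧸ C → M)` as a monomial endomorphism. -/
theorem s56d_coindEquiv_ρ (g : G) (f : (Rep.coind C.subtype (Rep.res C.subtype M)).V) :
    s56d_coindEquiv C M ((Rep.coind C.subtype (Rep.res C.subtype M)).ρ g f)
      = s56d_permEnd (MulAction.toPerm g : Equiv.Perm (G ⧸ C)) (M.ρ g) (s56d_coindEquiv C M f) := by
  funext q
  induction q using QuotientGroup.induction_on with
  | H x =>
    change s56d_coindToFun C M _ (QuotientGroup.mk x)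
      = M.ρ g (s56d_coindToFun C M f ((MulAction.toPerm g : Equiv.Perm (G ⧸ C)).symm
          (QuotientGroup.mk x)))
    have h1 : (MulAction.toPerm g : Equiv.Perm (G ⧸ C)).symm (QuotientGroup.mk x)
        = QuotientGroup.mk (g⁻¹ * x) := rfl
    rw [h1, s56d_coindToFun_mk, s56d_coindToFun_mk, mul_inv_rev, inv_inv]
    change M.ρ x (f.1 (x⁻¹ * g)) = _
    rw [← Module.End.mul_apply, ← map_mul]
    simp

/-- finiteness of the coinduced module. -/
theorem s56d_finite_coind [Finite G] (N : Rep.{0, 0, 0} k C) [Module.Finite k N.V] :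
    Module.Finite k (Rep.coind C.subtype N).V := by
  change Module.Finite k ↥(Representation.coindV C.subtype N.ρ)
  infer_instance

/-- finiteness of the induced module. -/
theorem s56d_finite_ind [Finite G] (N : Rep.{0, 0, 0} k C) [Module.Finite k N.V] :
    Module.Finite k (Rep.ind C.subtype N).V := by
  classical
  have := s56d_finite_coind C N
  have : C.FiniteIndex := Subgroup.finiteIndex_of_finite_quotient
  obtain ⟨e, -⟩ := s56d_RepIso.of_iso (Rep.indCoindIso N)
  exact Module.Finite.equiv e.symm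

/-- **the characteristic polynomial of `g` on `Ind_C^G Res_C M`.** -/
theorem s56d_charpoly_ind_res [Finite G] [Module.Finite k M.V] (g : G)
    [Module.Finite k (Rep.ind C.subtype (Rep.res C.subtype M)).V] :
    ((Rep.ind C.subtype (Rep.res C.subtype M)).ρ g).charpoly
      = (s56d_permEnd (MulAction.toPerm g : Equiv.Perm (G ⧸ C)) (M.ρ g)).charpoly := by
  classical
  have : Module.Finite k (Rep.res C.subtype M).V := ‹Module.Finite k M.V›
  have := s56d_finite_coind C (Rep.res C.subtype M)
  have : C.FiniteIndex := Subgroup.finiteIndex_of_finite_quotient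
  have h1 := s56d_cp_congr (s56d_RepIso.of_iso (Rep.indCoindIso (Rep.res C.subtype M)))
    (MonoidAlgebra.of k G g)
  rw [s56d_cp_of, s56d_cp_of] at h1
  rw [h1, ← LinearEquiv.charpoly_conj (s56d_coindEquiv C M)]
  congr 1
  apply LinearMap.ext
  intro F
  rw [LinearEquiv.conj_apply_apply, s56d_coindEquiv_ρ, LinearEquiv.apply_symm_apply]

end Coind

end Fermat.Agent.Lib.S56
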