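/-
PROGRAMME W (S56), wall [W4], brick (E4), arithmetic (helper1, prefix `s56d_`):
**`h_N` of the ring of integers** of a finite Galois extension `L/ℚ` with group `Γ`: for `C ≤ Γ` of order prime to
`p`, `h_N(𝓞 L) = dim Hom_C(𝔽_p[Γ], N)` (`s56d_hN_integers`).  Proof: the normal basis theorem makes `𝓞 L` a lattice in
`ℚ[Γ]`; then `s56d_hN_latticePerm`.
-/
import Fermat.Agent.Lib.S56.DEqFun

set_option autoImplicit false
set_option linter.unusedSectionVars false
set_option maxSynthPendingDepth 3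

noncomputable section

namespace Fermat.Agent.Lib.S56

open Module Function NumberField

section NormalBasis

variable {L : Type} [Field L] [NumberField L] [IsGalois ℚ L]

/-- the coordinates in a normal basis are permuted by the Galois group. -/
theorem s56d_normalBasis_repr_apply (σ τ : L ≃ₐ[ℚ] L) (y : L) :
    (IsGalois.normalBasis ℚ L).repr (σ y) τ = (IsGalois.normalBasis ℚ L).repr y (σ⁻¹ * τ) := by
  classical
  set nb := IsGalois.normalBasis ℚ L with hnb
  have : Fintype (L ≃ₐ[ℚ] L) := Fintype.ofFinite _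
  have h1 : σ y = ∑ τ' : L ≃ₐ[ℚ] L, (nb.repr y (σ⁻¹ * τ')) • nb τ' := by
    conv_lhs => rw [← nb.sum_repr y]
    rw [map_sum]
    refine Fintype.sum_equiv (Equiv.mulLeft σ) _ _ fun τ' => ?_
    change σ (nb.repr y τ' • nb τ') = nb.repr y (σ⁻¹ * (σ * τ')) • nb (σ * τ')
    rw [inv_mul_cancel_left, hnb, IsGalois.normalBasis_apply, IsGalois.normalBasis_apply (σ * τ')]
    exact σ.toLinearEquiv.map_smul _ _
  rw [h1, Basis.repr_sum_self]

end NormalBasis

section Main

variable {p : ℕ} [Fact p.Prime] {L : Type} [Field L] [NumberField L] [IsGalois ℚ L]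
variable (C : Subgroup (L ≃ₐ[ℚ] L))

/-- **`h_N` of the ring of integers.** -/
theorem s56d_hN_integers (hC : (Nat.card C).Coprime p) (N : Rep.{0, 0, 0} (ZMod p) ↥C) [Finite N.V] :
    s56d_hN p N (Representation.ofDistribMulAction ℤ ↥C (𝓞 L))
      = finrank (ZMod p) ↥(s56d_eqFun (L ≃ₐ[ℚ] L) N) := by
  classical
  have : Fintype (L ≃ₐ[ℚ] L) := Fintype.ofFinite _
  rw [← s56d_homDim_permRep]
  set nb := IsGalois.normalBasis ℚ L with hnb
  let j : 𝓞 L →+ ((L ≃ₐ[ℚ] L) → ℚ) :=
    (nb.equivFun.toLinearMap.toAddMonoidHom).comp (algebraMap (𝓞 L) L).toAddMonoidHom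
  have hj : ∀ (x : 𝓞 L) (τ : L ≃ₐ[ℚ] L), j x τ = nb.repr (x : L) τ := fun x τ => rfl
  refine s56d_hN_latticePerm hC N _ (K := ℚ) (RingOfIntegers.basis L) j ?_ ?_ ?_
  · intro c x w
    rw [hj, hj]
    change nb.repr ((c : L ≃ₐ[ℚ] L) (x : L)) w = nb.repr (x : L) ((c : L ≃ₐ[ℚ] L)⁻¹ * w)
    exact s56d_normalBasis_repr_apply _ _ _
  · have h1 : (fun i => j (RingOfIntegers.basis L i))
        = fun i => nb.equivFun.toLinearMap (integralBasis L i) := by
      funext i
      rw [integralBasis_apply]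
      rfl
    rw [h1]
    exact (integralBasis L).linearIndependent.map' nb.equivFun.toLinearMap (LinearEquiv.ker _)
  · rw [← Module.finrank_eq_card_chooseBasisIndex, RingOfIntegers.rank,
      ← IsGalois.card_aut_eq_finrank, Nat.card_eq_fintype_card]

end Main

end Fermat.Agent.Lib.S56
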