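/-
PROGRAMME W (S56), wall [W4], brick (E4), arithmetic (helper1, prefix `s56d_`):
**the infinite places of a finite Galois subextension `F ⊆ ℚ̄`** as a `Gal(F/ℚ)`-set: the action is transitive and
the stabiliser of the place induced by the fixed complex embedding of `ℚ̄` is generated by the restriction of
complex conjugation.
-/
import Mathlib
import Fermat.Prelude.Def_GaloisRep_ComplexConjugation

set_option autoImplicit false
set_option maxSynthPendingDepth 3

noncomputable section

namespace Fermat.Agent.Lib.S56

open NumberField NumberField.InfinitePlace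

local notation "GQ" => (AlgebraicClosure ℚ ≃ₐ[ℚ] AlgebraicClosure ℚ)

variable (F : IntermediateField ℚ (AlgebraicClosure ℚ)) [NumberField ↥F] [IsGalois ℚ ↥F]

/-- the fixed complex embedding of `F`. -/
def s56d_emb0 : ↥F →+* ℂ :=
  (complexEmbedding : AlgebraicClosure ℚ →+* ℂ).comp (algebraMap ↥F (AlgebraicClosure ℚ))

/-- the distinguished infinite place of `F`. -/
def s56d_w0 : InfinitePlace ↥F := InfinitePlace.mk (s56d_emb0 F)

/-- the Galois group acts transitively on the infinite places. -/
theorem s56d_places_transitive (w : InfinitePlace ↥F) :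
    ∃ γ : ↥F ≃ₐ[ℚ] ↥F, γ • s56d_w0 F = w :=
  exists_smul_eq_of_comap_eq (k := ℚ) (Subsingleton.elim _ _)

/-- the restriction of complex conjugation is the conjugation of the fixed embedding. -/
theorem s56d_isConj_restrict :
    ComplexEmbedding.IsConj (s56d_emb0 F) (AlgEquiv.restrictNormalHom ↥F complexConjugation) := by
  unfold ComplexEmbedding.IsConj
  apply RingHom.ext
  intro x
  change starRingEnd ℂ (complexEmbedding (x : AlgebraicClosure ℚ))
    = complexEmbedding ((AlgEquiv.restrictNormalHom ↥F complexConjugation x : ↥F) :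
        AlgebraicClosure ℚ)
  rw [← complexEmbedding_complexConjugation]
  congr 1
  exact (AlgEquiv.restrictNormal_commutes complexConjugation ↥F x).symm

/-- the stabiliser of the distinguished place. -/
theorem s56d_stab_w0 (γ : ↥F ≃ₐ[ℚ] ↥F) :
    γ • s56d_w0 F = s56d_w0 F ↔
      γ ∈ (Subgroup.zpowers complexConjugation).map (AlgEquiv.restrictNormalHom ↥F) := by
  have h1 : γ • s56d_w0 F = s56d_w0 F ↔
      γ = 1 ∨ ComplexEmbedding.IsConj (s56d_emb0 F) γ := by
    rw [← MulAction.mem_stabilizer_iff]
    exact mem_stabilizer_mk_iff (k := ℚ) (s56d_emb0 F) γ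
  rw [h1]
  constructor
  · rintro (rfl | h)
    · exact Subgroup.one_mem _
    · exact ⟨complexConjugation, Subgroup.mem_zpowers _,
        ComplexEmbedding.IsConj.ext (s56d_isConj_restrict F) h⟩
  · rintro ⟨g, hg, rfl⟩
    obtain ⟨n, rfl⟩ := Subgroup.mem_zpowers_iff.mp hg
    rcases Int.even_or_odd n with ⟨m, rfl⟩ | ⟨m, rfl⟩
    · left
      rw [← two_mul, zpow_mul, zpow_ofNat, complexConjugation_sq, one_zpow, map_one]
    · right
      rw [zpow_add, zpow_mul, zpow_ofNat, complexConjugation_sq, one_zpow, one_mul, zpow_one]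
      exact s56d_isConj_restrict F

end Fermat.Agent.Lib.S56
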