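/-
PROGRAMME W (S56), wall [W4], brick (E4) ASSEMBLY (helper1, prefix `s56d_`):
**Tate's formula for `Coind_U^{G_ℚ} N`**, `U = π⁻¹(C)`, `C ≤ Gal(F/ℚ)` of order prime to `p`, from the two interface
contracts of `IfaceE4.lean` (cohomological half, idele half), the equivariant unit theorem `s56d_hN_units`, the
normal basis computation `s56d_hN_integers` and the bookkeeping of `DEqFun`/`DPlaces`.
-/
import Fermat.Agent.Lib.S56.IfaceE4
import Fermat.Agent.Lib.S56.DInt
import Fermat.Agent.Lib.S56.DPlaces

set_option autoImplicit false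
set_option linter.unusedSectionVars false
set_option maxSynthPendingDepth 3

noncomputable section

namespace Fermat.Agent.Lib.S56

open CategoryTheory Module Function groupCohomology ExtCitation NumberField Fermat.Agent.Lib.PT

local notation "GQ" => (AlgebraicClosure ℚ ≃ₐ[ℚ] AlgebraicClosure ℚ)

local instance s56d_isAlgebraicQbar : Algebra.IsAlgebraic ℚ (AlgebraicClosure ℚ) :=
  AlgebraicClosure.isAlgebraic ℚ
local instance s56d_isAlgClosureQbar : IsAlgClosure ℚ (AlgebraicClosure ℚ) :=
  ⟨inferInstance, inferInstance⟩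
local instance s56d_normalQbar : Normal ℚ (AlgebraicClosure ℚ) :=
  IsAlgClosure.normal ℚ (AlgebraicClosure ℚ)

section Card

variable {p : ℕ} [Fact p.Prime]

/-- a `𝔽_p`-vector space with `p ^ a` elements is finite-dimensional of dimension `a`. -/
theorem s56d_finrank_of_card {V : Type*} [AddCommGroup V] [Module (ZMod p) V] {a : ℕ}
    (h : Nat.card V = p ^ a) : Module.Finite (ZMod p) V ∧ finrank (ZMod p) V = a := by
  have hp := (Fact.out : p.Prime)
  have hfin : Finite V := Nat.finite_of_card_ne_zero (by rw [h]; exact pow_ne_zero _ hp.ne_zero)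
  have hmf : Module.Finite (ZMod p) V := Module.Finite.of_finite
  refine ⟨hmf, ?_⟩
  have h1 := Module.natCard_eq_pow_finrank (K := ZMod p) (V := V)
  rw [Nat.card_zmod, h] at h1
  exact (Nat.pow_right_injective hp.two_le h1).symm

end Card

/-- the cyclic case, coinduced form. -/
def s56d_CyclicCase' : Prop :=
  ∀ (p : ℕ) [Fact p.Prime], p ≠ 2 → ∀ (S : Finset Nat.Primes), pPrime p ∈ S →
  ∀ (F : IntermediateField ℚ (AlgebraicClosure ℚ)) [NumberField ↥F] [IsGalois ℚ ↥F],
    F.IsUnramifiedOutside S → F.fixingSubgroup ≤ (cycloChar p).ker →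
  ∀ (C : Subgroup (↥F ≃ₐ[ℚ] ↥F)), (Nat.card C).Coprime p →
  ∀ (N : Rep.{0, 0, 0} (ZMod p) ↥C) [Finite N.V],
    Module.Finite (ZMod p) (continuousH1S S (Rep.coind (C.comap (AlgEquiv.restrictNormalHom ↥F)).subtype
      (Rep.res ((AlgEquiv.restrictNormalHom ↥F).subgroupComap C) N))) ∧
    Module.Finite (ZMod p) (continuousH2S S (Rep.coind (C.comap (AlgEquiv.restrictNormalHom ↥F)).subtype
      (Rep.res ((AlgEquiv.restrictNormalHom ↥F).subgroupComap C) N))) ∧
    s56d_defect S (Rep.coind (C.comap (AlgEquiv.restrictNormalHom ↥F)).subtype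
      (Rep.res ((AlgEquiv.restrictNormalHom ↥F).subgroupComap C) N)) = 0

section Assembly

variable {p : ℕ} [Fact p.Prime]
variable (F : IntermediateField ℚ (AlgebraicClosure ℚ)) [NumberField ↥F] [IsGalois ℚ ↥F]
variable (C : Subgroup (↥F ≃ₐ[ℚ] ↥F)) (N : Rep.{0, 0, 0} (ZMod p) ↥C)

/-- the restriction map `π : G_ℚ → Gal(F/ℚ)`. -/
abbrev s56d_π : GQ →* (↥F ≃ₐ[ℚ] ↥F) := AlgEquiv.restrictNormalHom ↥F

theorem s56d_π_surjective : Surjective (s56d_π F) := AlgEquiv.restrictNormalHom_surjective _

theorem s56d_ker_π : (s56d_π F).ker = F.fixingSubgroup := by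
  ext σ
  rw [MonoidHom.mem_ker, IntermediateField.mem_fixingSubgroup_iff]
  constructor
  · intro h x hx
    have h1 := AlgEquiv.restrictNormal_commutes σ ↥F ⟨x, hx⟩
    have h2 : σ.restrictNormal ↥F = 1 := h
    rw [h2] at h1
    exact h1.symm
  · intro h
    apply AlgEquiv.ext
    intro x
    apply Subtype.ext
    have h1 := AlgEquiv.restrictNormal_commutes σ ↥F x
    exact h1.trans (h x.1 x.2)

theorem s56d_φ_surjective : Surjective ((s56d_π F).subgroupComap C) := by
  rintro ⟨c, hc⟩
  obtain ⟨g, rfl⟩ := s56d_π_surjective F c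
  exact ⟨⟨g, hc⟩, rfl⟩

/-- the coinduced module. -/
abbrev s56d_M : Rep.{0, 0, 0} (ZMod p) GQ :=
  Rep.coind (C.comap (s56d_π F)).subtype (Rep.res ((s56d_π F).subgroupComap C) N)

theorem s56d_fix_le : F.fixingSubgroup ≤ C.comap (s56d_π F) := by
  intro x hx
  rw [← s56d_ker_π F, MonoidHom.mem_ker] at hx
  rw [Subgroup.mem_comap, hx]
  exact C.one_mem

theorem s56d_relIndex_eq : F.fixingSubgroup.relIndex (C.comap (s56d_π F)) = Nat.card C := by
  have h1 : F.fixingSubgroup.subgroupOf (C.comap (s56d_π F))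
      = ((s56d_π F).subgroupComap C).ker := by
    ext u
    rw [Subgroup.mem_subgroupOf, MonoidHom.mem_ker, ← s56d_ker_π F,
      MonoidHom.mem_ker]
    exact ⟨fun h => Subtype.ext h, fun h => congrArg Subtype.val h⟩
  rw [Subgroup.relIndex, h1, Subgroup.index_ker,
    MonoidHom.range_eq_top.mpr (s56d_φ_surjective F C)]
  exact Nat.card_congr Subgroup.topEquiv.toEquiv

/-- `M^{G_ℚ}`-side: the invariants of `Res N` are those of `N`. -/
theorem s56d_invariants_res :
    (Rep.res ((s56d_π F).subgroupComap C) N).ρ.invariants = N.ρ.invariants := by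
  ext v
  constructor
  · intro h c
    obtain ⟨u, rfl⟩ := s56d_φ_surjective F C c
    exact h u
  · intro h u
    exact h _

/-- dimension of the coinduced module. -/
theorem s56d_finrank_M :
    finrank (ZMod p) (s56d_M F C N).V = finrank (ZMod p) ↥(s56d_eqFun (↥F ≃ₐ[ℚ] ↥F) N) := by
  obtain ⟨e⟩ := s56d_eqFunCoindEquiv C N (s56d_π_surjective F) (1 : ↥F ≃ₐ[ℚ] ↥F)
    (fun w => ⟨w, mul_one w⟩) ⊥ (fun γ => by
      rw [Subgroup.map_bot, Subgroup.mem_bot]
      exact ⟨fun h => by rwa [smul_eq_mul, mul_one] at h, fun h => by rw [h, one_smul]⟩)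
  rw [LinearEquiv.finrank_eq e]
  have htop : s56d_coindInv (s56d_π F) C N ⊥ = ⊤ := by
    rw [eq_top_iff]
    intro f _ h hh g
    rw [Subgroup.mem_bot.mp hh, mul_one]
  rw [htop, finrank_top]

/-- dimension of the invariants of complex conjugation. -/
theorem s56d_finrank_real :
    finrank (ZMod p) ↥(s56d_realInvariants (s56d_M F C N))
      = finrank (ZMod p) ↥(s56d_eqFun (InfinitePlace ↥F) N) := by
  obtain ⟨e⟩ := s56d_eqFunCoindEquiv C N (s56d_π_surjective F) (s56d_w0 F)
    (s56d_places_transitive F) (Subgroup.zpowers complexConjugation) (s56d_stab_w0 F)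
  rw [LinearEquiv.finrank_eq e]
  have heq : s56d_realInvariants (s56d_M F C N)
      = s56d_coindInv (s56d_π F) C N (Subgroup.zpowers complexConjugation) := by
    ext f
    unfold s56d_realInvariants
    rw [LinearMap.mem_ker, LinearMap.sub_apply, sub_eq_zero]
    constructor
    · intro h
      have h1 : ∀ g, f.1 (g * complexConjugation) = f.1 g := fun g =>
        congrFun (congrArg Subtype.val h) g
      -- the set of `h` with `f (g h) = f g` is a subgroup
      let T : Subgroup GQ :=
        { carrier := {h | ∀ g, f.1 (g * h) = f.1 g}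
          mul_mem' := fun {a b} ha hb g => by rw [← mul_assoc, hb, ha]
          one_mem' := fun g => by rw [mul_one]
          inv_mem' := fun {a} ha g => by
            have := ha (g * a⁻¹)
            rw [inv_mul_cancel_right] at this
            exact this.symm }
      have hT : Subgroup.zpowers complexConjugation ≤ T := by
        rw [Subgroup.zpowers_le]
        exact h1
      exact fun h hh g => hT hh g
    · intro h
      apply Subtype.ext
      funext g
      exact h _ (Subgroup.mem_zpowers _) g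
  rw [heq]

variable {F C N}

/-- **the cyclic case from the two interface contracts.** -/
theorem s56d_cyclicCase'_of_iface (hCoh : s56d_IfaceCohom) (hId : s56d_IfaceIdele) :
    s56d_CyclicCase' := by
  intro p _ hp2 S hpS F _ _ hFS hζ C hC N _
  have hpr := (Fact.out : p.Prime)
  have hNfd : Module.Finite (ZMod p) N.V := Module.Finite.of_finite
  -- the hypotheses of the cohomological half
  have hidx : ¬ p ∣ F.fixingSubgroup.relIndex (C.comap (s56d_π F)) := by
    rw [s56d_relIndex_eq]
    intro hdvd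
    have := Nat.dvd_gcd hdvd dvd_rfl
    rw [hC] at this
    exact hpr.one_lt.ne' (Nat.dvd_one.mp this)
  have hN'fin : Finite (Rep.res ((s56d_π F).subgroupComap C) N).V := inferInstanceAs (Finite N.V)
  have htriv : ∀ u : ↥(C.comap (s56d_π F)), (u : GQ) ∈ F.fixingSubgroup →
      (Rep.res ((s56d_π F).subgroupComap C) N).ρ u = 1 := by
    intro u hu
    rw [← s56d_ker_π F, MonoidHom.mem_ker] at hu
    have h1 : ((s56d_π F).subgroupComap C) u = 1 := Subtype.ext hu
    change N.ρ (((s56d_π F).subgroupComap C) u) = 1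
    rw [h1, map_one]
  obtain ⟨hI, hII, hIII⟩ := hCoh p hp2 S hpS F hFS hζ (C.comap (s56d_π F)) (s56d_fix_le F C) hidx
    (Rep.res ((s56d_π F).subgroupComap C) N) htriv
  -- the idele half
  obtain ⟨hPF, hIdele⟩ := hId p hp2 S hpS F hFS C hC N
  have hfT : Finite (s56d_TorP p (Additive (ptj_CT ↥F S))) := hPF.1
  have hfM : Finite (s56d_ModP p (Additive (ptj_CT ↥F S))) := hPF.2
  set ρA : Representation ℤ ↥C (Additive (ptj_CT ↥F S)) :=
    Representation.ofMulDistribMulAction ↥C (ptj_CT ↥F S) with hρA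
  -- `H¹`
  have hI' : Nat.card ↥(continuousH1S S (s56d_M F C N)) = p ^ s56d_homDim (s56d_modP p ρA) N := by
    rw [← s56d_card_hom_modP N ρA]
    refine hI.trans (Nat.card_congr (Equiv.subtypeEquivRight fun f => ?_))
    constructor
    · intro h c a
      obtain ⟨u, rfl⟩ := s56d_φ_surjective F C c
      exact h u (Additive.toMul a)
    · intro h u a
      exact h (((s56d_π F).subgroupComap C) u) (Additive.ofMul a)
  -- `H²`
  have hII' : Nat.card (continuousH2S S (s56d_M F C N)) = p ^ s56d_homDim N (s56d_torP p ρA) := by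
    rw [← s56d_card_hom_torP N ρA]
    refine hII.trans (Nat.card_congr (Equiv.subtypeEquivRight fun f => ?_))
    constructor
    · intro h c n
      obtain ⟨u, rfl⟩ := s56d_φ_surjective F C c
      exact h u n
    · intro h u n
      exact h (((s56d_π F).subgroupComap C) u) n
  -- `H⁰`
  have hIII' : Nat.card ↥(s56d_M F C N).ρ.invariants
      = p ^ finrank (ZMod p) ↥N.ρ.invariants := by
    rw [hIII, s56d_invariants_res, Module.natCard_eq_pow_finrank (K := ZMod p), Nat.card_zmod]
  obtain ⟨hf1, hr1⟩ := s56d_finrank_of_card hI'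
  obtain ⟨hf2, hr2⟩ := s56d_finrank_of_card hII'
  obtain ⟨hf0, hr0⟩ := s56d_finrank_of_card hIII'
  refine ⟨hf1, hf2, ?_⟩
  -- the count
  have hU := s56d_hN_units C hC N
  have hO := s56d_hN_integers C hC N
  have hA : s56d_hNm p (ptj_CT ↥F S) N
      = (s56d_homDim (s56d_modP p ρA) N : ℤ) - s56d_homDim N (s56d_torP p ρA) := rfl
  unfold s56d_defect s56d_chi
  rw [hr1, hr2, hr0, s56d_finrank_M, s56d_finrank_real]
  linarith

end Assembly

end Fermat.Agent.Lib.S56
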