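/-
PROGRAMME W (S56), wall [W4] → [W2] ADAPTER (helper1, prefix `s56d_`):
the single numerical input `euler'` of helper4's `s56b_gwle` (the Greenberg–Wiles upper bound) from Tate's global
Euler characteristic formula `s56d_GlobalEulerChar`, applied to `M' = M^∨(1)`.
-/
import Fermat.Agent.Lib.S56.IfaceW4
import Fermat.Agent.Lib.PT.GLevelTwist

set_option autoImplicit false
set_option linter.unusedSectionVars false

noncomputable section

namespace Fermat.Agent.Lib.S56

open CategoryTheory Module Function groupCohomology ExtCitation Fermat.Agent.Lib.PT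

local notation "Qbar" => AlgebraicClosure ℚ
local notation "GQ" => (AlgebraicClosure ℚ ≃ₐ[ℚ] AlgebraicClosure ℚ)

variable {p : ℕ} [Fact p.Prime] {S : Finset Nat.Primes}

/-- the invariants of the archimedean decomposition group are the fixed vectors of complex conjugation. -/
theorem s56d_archInvariants_eq (X : Rep.{0, 0, 0} (ZMod p) GQ) :
    (Rep.res archimedeanLoc X).ρ.invariants = s56d_realInvariants X := by
  ext x
  unfold s56d_realInvariants
  rw [LinearMap.mem_ker, LinearMap.sub_apply, Module.End.one_apply, sub_eq_zero]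
  constructor
  · intro h
    exact h archimedeanGen
  · intro h g
    obtain ⟨g, hg⟩ := g
    obtain ⟨n, rfl⟩ := Subgroup.mem_zpowers_iff.mp hg
    change X.ρ (complexConjugation ^ n) x = x
    rcases Int.even_or_odd n with ⟨m, rfl⟩ | ⟨m, rfl⟩
    · rw [← two_mul, zpow_mul, zpow_ofNat, complexConjugation_sq, one_zpow, map_one]
      rfl
    · rw [zpow_add, zpow_mul, zpow_ofNat, complexConjugation_sq, one_zpow, one_mul, zpow_one]
      exact h

/-- **`euler'`** (the [W4] input of the Greenberg–Wiles upper bound). -/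
theorem s56d_euler'_of (hT : s56d_GlobalEulerChar) (hp2 : p ≠ 2) (hpS : pPrime p ∈ S)
    (M : Rep.{0} (ZMod p) GQ) [FiniteDimensional (ZMod p) M]
    (hsm : ∀ m : M, ∃ F : IntermediateField ℚ Qbar, FiniteDimensional ℚ F ∧
      ∀ s ∈ F.fixingSubgroup, M.ρ s m = m)
    (hMur : ∀ q : Nat.Primes, q ∉ S → ∀ A : ValuationSubring Qbar,
      A.LiesOverPrime (q : ℕ) → ∀ g ∈ A.inertiaSubgroupIn ℚ, M.ρ g = 1) :
    finrank (ZMod p) (M.dualTwist (cycloChar p)).ρ.invariants +
        finrank (ZMod p) (continuousH2S S (M.dualTwist (cycloChar p))) + finrank (ZMod p) M ≤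
      finrank (ZMod p) ↥(continuousH1S S (M.dualTwist (cycloChar p))) +
        finrank (ZMod p) (Rep.res archimedeanLoc (M.dualTwist (cycloChar p))).ρ.invariants := by
  have hfd' : FiniteDimensional (ZMod p) (M.dualTwist (cycloChar p)) :=
    inferInstanceAs (FiniteDimensional (ZMod p) (Module.Dual (ZMod p) M.V))
  obtain ⟨-, -, h⟩ := hT p hp2 S hpS (M.dualTwist (cycloChar p))
    ⟨pta_hsm_dualTwist M hsm, pta_hMur_dualTwist M hpS hMur⟩
  unfold s56d_chi at h
  have hd : finrank (ZMod p) (M.dualTwist (cycloChar p)).V = finrank (ZMod p) M.V :=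
    Rep.finrank_dualTwist (ZMod p) M (cycloChar p)
  have hr : finrank (ZMod p) ↥(Rep.res archimedeanLoc (M.dualTwist (cycloChar p))).ρ.invariants
      = finrank (ZMod p) ↥(s56d_realInvariants (M.dualTwist (cycloChar p))) := by
    rw [s56d_archInvariants_eq]
  rw [hr, ← hd]
  zify
  linarith

end Fermat.Agent.Lib.S56
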