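/-
PROGRAMME W (S56), wall [W4], FINAL ASSEMBLY (helper1, prefix `s56d_`):
**Tate's global Euler characteristic formula** `s56d_GlobalEulerChar` from
* (E1) additivity of `χ_S` (`s56d_ChiAdditiveLin`, helper9's `s56t_chi_additive` verbatim) and finiteness
  (`s56d_FinCoh`),
* (E3) the modular Artin induction principle `s56d_modularArtin` (proved),
* (E4) the cyclic case `s56d_CyclicCase'` (`DCyclic.lean`).
-/
import Fermat.Agent.Lib.S56.DCyclic
import Fermat.Agent.Lib.S56.DModularArtin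
import Fermat.Agent.Lib.PT.GLevelTwist

set_option autoImplicit false
set_option linter.unusedSectionVars false
set_option maxSynthPendingDepth 3

noncomputable section

namespace Fermat.Agent.Lib.S56

open CategoryTheory Module Function groupCohomology ExtCitation NumberField Fermat.Agent.Lib.PT

local notation "GQ" => (AlgebraicClosure ℚ ≃ₐ[ℚ] AlgebraicClosure ℚ)

local instance s56d_isAlgebraicQbar' : Algebra.IsAlgebraic ℚ (AlgebraicClosure ℚ) :=
  AlgebraicClosure.isAlgebraic ℚ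
local instance s56d_isAlgClosureQbar' : IsAlgClosure ℚ (AlgebraicClosure ℚ) :=
  ⟨inferInstance, inferInstance⟩
local instance s56d_normalQbar' : Normal ℚ (AlgebraicClosure ℚ) :=
  IsAlgClosure.normal ℚ (AlgebraicClosure ℚ)

/-- (E1), linear form: helper9's `s56t_chi_additive`. -/
def s56d_ChiAdditiveLin : Prop :=
  ∀ (p : ℕ) [Fact p.Prime], p ≠ 2 → ∀ (S : Finset Nat.Primes), pPrime p ∈ S →
  ∀ (M' M M'' : Rep.{0, 0, 0} (ZMod p) GQ) [FiniteDimensional (ZMod p) M], s56d_IsSModule S M →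
  ∀ (f : M'.V →ₗ[ZMod p] M.V) (g : M.V →ₗ[ZMod p] M''.V),
    (∀ σ m, f (M'.ρ σ m) = M.ρ σ (f m)) → (∀ σ m, g (M.ρ σ m) = M''.ρ σ (g m)) →
    Injective f → Surjective g → LinearMap.range f = LinearMap.ker g →
    s56d_chi S M = s56d_chi S M' + s56d_chi S M''

/-- finiteness of `H¹_S`, `H²_S`. -/
def s56d_FinCoh : Prop :=
  ∀ (p : ℕ) [Fact p.Prime], p ≠ 2 → ∀ (S : Finset Nat.Primes), pPrime p ∈ S →
  ∀ (M : Rep.{0, 0, 0} (ZMod p) GQ) [FiniteDimensional (ZMod p) M], s56d_IsSModule S M →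
    Module.Finite (ZMod p) (continuousH1S S M) ∧ Module.Finite (ZMod p) (continuousH2S S M)

section INV

variable {k : Type*} [Field k] {V₁ V₂ V₃ : Type*} [AddCommGroup V₁] [Module k V₁]
  [AddCommGroup V₂] [Module k V₂] [AddCommGroup V₃] [Module k V₃]

theorem s56d_mem_ker_sub_one {V : Type*} [AddCommGroup V] [Module k V] (c : V →ₗ[k] V) (v : V) :
    v ∈ LinearMap.ker (c - 1) ↔ c v = v := by
  rw [LinearMap.mem_ker, LinearMap.sub_apply, Module.End.one_apply, sub_eq_zero]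

/-- the fixed spaces of an involution are exact (`2` invertible). -/
theorem s56d_finrank_fixed_add (h2 : (2 : k) ≠ 0) [FiniteDimensional k V₂]
    (c₁ : V₁ →ₗ[k] V₁) (c₂ : V₂ →ₗ[k] V₂) (c₃ : V₃ →ₗ[k] V₃) (hc₂ : ∀ v, c₂ (c₂ v) = v)
    (f : V₁ →ₗ[k] V₂) (g : V₂ →ₗ[k] V₃) (hf : ∀ v, f (c₁ v) = c₂ (f v))
    (hg : ∀ v, g (c₂ v) = c₃ (g v)) (hinj : Injective f) (hsurj : Surjective g)
    (hex : LinearMap.range f = LinearMap.ker g) :
    finrank k (LinearMap.ker (c₂ - 1))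
      = finrank k (LinearMap.ker (c₁ - 1)) + finrank k (LinearMap.ker (c₃ - 1)) := by
  have hmap : ∀ v ∈ LinearMap.ker (c₂ - 1), g v ∈ LinearMap.ker (c₃ - 1) := fun v hv => by
    rw [s56d_mem_ker_sub_one] at hv ⊢
    rw [← hg, hv]
  let g' : ↥(LinearMap.ker (c₂ - 1)) →ₗ[k] ↥(LinearMap.ker (c₃ - 1)) := g.restrict hmap
  have hmap1 : ∀ v ∈ LinearMap.ker (c₁ - 1), f v ∈ LinearMap.ker (c₂ - 1) := fun v hv => by
    rw [s56d_mem_ker_sub_one] at hv ⊢
    rw [← hf, hv]
  let f' : ↥(LinearMap.ker (c₁ - 1)) →ₗ[k] ↥(LinearMap.ker (c₂ - 1)) := f.restrict hmap1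
  have hf'inj : Injective f' := fun a b hab => Subtype.ext (hinj (congrArg Subtype.val hab))
  have hrange : LinearMap.range g' = ⊤ := by
    rw [LinearMap.range_eq_top]
    rintro ⟨w, hw⟩
    rw [s56d_mem_ker_sub_one] at hw
    obtain ⟨v, rfl⟩ := hsurj w
    have hv' : (2 : k)⁻¹ • (v + c₂ v) ∈ LinearMap.ker (c₂ - 1) := by
      rw [s56d_mem_ker_sub_one, map_smul, map_add, hc₂, add_comm]
    refine ⟨⟨_, hv'⟩, Subtype.ext ?_⟩
    change g ((2 : k)⁻¹ • (v + c₂ v)) = g v
    rw [map_smul, map_add, hg, hw, ← two_smul k (g v), smul_smul, inv_mul_cancel₀ h2, one_smul]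
  have hker : LinearMap.ker g' = LinearMap.range f' := by
    ext ⟨v, hv⟩
    constructor
    · intro h
      have h1 : g v = 0 := congrArg Subtype.val (LinearMap.mem_ker.mp h)
      have h2' : v ∈ LinearMap.range f := by rw [hex]; exact h1
      obtain ⟨u, rfl⟩ := h2'
      have hu : u ∈ LinearMap.ker (c₁ - 1) := by
        rw [s56d_mem_ker_sub_one] at hv ⊢
        apply hinj
        rw [hf, hv]
      exact ⟨⟨u, hu⟩, rfl⟩
    · rintro ⟨u, hu⟩
      rw [LinearMap.mem_ker]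
      apply Subtype.ext
      have h1 : f u.1 = v := congrArg Subtype.val hu
      change g v = 0
      rw [← h1]
      have : f u.1 ∈ LinearMap.ker g := by rw [← hex]; exact ⟨_, rfl⟩
      exact this
  have h1 := LinearMap.finrank_range_add_finrank_ker g'
  rw [hrange, finrank_top, hker, LinearMap.finrank_range_of_inj hf'inj] at h1
  omega

end INV

section Iso

variable {p : ℕ} [Fact p.Prime] {S : Finset Nat.Primes}

/-- the zero module. -/
def s56d_zeroRep (p : ℕ) [Fact p.Prime] : Rep.{0, 0, 0} (ZMod p) GQ :=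
  Rep.of (1 : Representation (ZMod p) GQ PUnit)

instance (p : ℕ) [Fact p.Prime] : Subsingleton (s56d_zeroRep p).V := inferInstanceAs (Subsingleton PUnit)

theorem s56d_isSModule_zero : s56d_IsSModule S (s56d_zeroRep p) :=
  ⟨fun m => ⟨⊥, inferInstance, fun s _ => Subsingleton.elim _ _⟩,
    fun q _ A _ g _ => by
      apply LinearMap.ext
      intro x
      exact Subsingleton.elim _ _⟩

theorem s56d_chi_zero (hE1 : s56d_ChiAdditiveLin) (hp2 : p ≠ 2) (hpS : pPrime p ∈ S) :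
    s56d_chi S (s56d_zeroRep p) = 0 := by
  have : FiniteDimensional (ZMod p) (s56d_zeroRep p).V := Module.Finite.of_finite
  have h := hE1 p hp2 S hpS (s56d_zeroRep p) (s56d_zeroRep p) (s56d_zeroRep p)
    s56d_isSModule_zero 0 0 (fun σ m => Subsingleton.elim _ _) (fun σ m => Subsingleton.elim _ _)
    (fun a b _ => Subsingleton.elim _ _) (fun b => ⟨0, Subsingleton.elim _ _⟩)
    (Subsingleton.elim _ _)
  linarith

/-- `χ_S` is invariant under isomorphisms. -/
theorem s56d_chi_congr (hE1 : s56d_ChiAdditiveLin) (hp2 : p ≠ 2) (hpS : pPrime p ∈ S)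
    {X Y : Rep.{0, 0, 0} (ZMod p) GQ} [FiniteDimensional (ZMod p) Y] (hY : s56d_IsSModule S Y)
    (h : s56d_RepIso X Y) : s56d_chi S X = s56d_chi S Y := by
  obtain ⟨e, he⟩ := h
  have h1 := hE1 p hp2 S hpS X Y (s56d_zeroRep p) hY e.toLinearMap 0 he
    (fun σ m => Subsingleton.elim _ _) e.injective (fun b => ⟨0, Subsingleton.elim _ _⟩)
    (by rw [LinearMap.ker_zero, LinearMap.range_eq_top]; exact e.surjective)
  rw [h1, s56d_chi_zero hE1 hp2 hpS, add_zero]

theorem s56d_two_ne_zero (hp2 : p ≠ 2) : (2 : ZMod p) ≠ 0 := by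
  intro h
  have h1 : ((2 : ℕ) : ZMod p) = 0 := by exact_mod_cast h
  rw [ZMod.natCast_eq_zero_iff] at h1
  exact hp2 ((Nat.prime_dvd_prime_iff_eq (Fact.out : p.Prime) Nat.prime_two).mp h1)

theorem s56d_cc_invol (X : Rep.{0, 0, 0} (ZMod p) GQ) (v : X.V) :
    X.ρ complexConjugation (X.ρ complexConjugation v) = v := by
  rw [← Module.End.mul_apply, ← map_mul, complexConjugation_mul_self, map_one, Module.End.one_apply]

/-- the defect is invariant under isomorphisms. -/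
theorem s56d_defect_congr (hE1 : s56d_ChiAdditiveLin) (hp2 : p ≠ 2) (hpS : pPrime p ∈ S)
    {X Y : Rep.{0, 0, 0} (ZMod p) GQ} [FiniteDimensional (ZMod p) Y] (hY : s56d_IsSModule S Y)
    (h : s56d_RepIso X Y) : s56d_defect S X = s56d_defect S Y := by
  unfold s56d_defect
  rw [s56d_chi_congr hE1 hp2 hpS hY h]
  obtain ⟨e, he⟩ := h
  have h1 : finrank (ZMod p) X.V = finrank (ZMod p) Y.V := e.finrank_eq
  have h2 := s56d_finrank_fixed_add (s56d_two_ne_zero hp2) (X.ρ complexConjugation)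
    (Y.ρ complexConjugation) ((s56d_zeroRep p).ρ complexConjugation) (s56d_cc_invol Y)
    e.toLinearMap (0 : Y.V →ₗ[ZMod p] (s56d_zeroRep p).V) (he _) (fun v => Subsingleton.elim _ _)
    e.injective (fun b => ⟨0, Subsingleton.elim _ _⟩)
    (by rw [LinearMap.ker_zero, LinearMap.range_eq_top]; exact e.surjective)
  rw [finrank_zero_of_subsingleton (M := ↥(LinearMap.ker
    ((s56d_zeroRep p).ρ complexConjugation - 1))), add_zero] at h2
  unfold s56d_realInvariants
  rw [h2, h1]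

end Iso

section Descent

variable {p : ℕ} [Fact p.Prime] {S : Finset Nat.Primes}
variable (F : IntermediateField ℚ (AlgebraicClosure ℚ)) [NumberField ↥F] [IsGalois ℚ ↥F]

/-- the restriction to `G_ℚ` of a `Gal(F/ℚ)`-module is an `S`-module (`F` unramified outside `S`). -/
theorem s56d_isSModule_res (hFS : F.IsUnramifiedOutside S)
    (X : Rep.{0, 0, 0} (ZMod p) (↥F ≃ₐ[ℚ] ↥F)) : s56d_IsSModule S (Rep.res (s56d_π F) X) := by
  have hker : ∀ s ∈ F.fixingSubgroup, (Rep.res (s56d_π F) X).ρ s = 1 := fun s hs => by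
    rw [← s56d_ker_π F, MonoidHom.mem_ker] at hs
    change X.ρ (s56d_π F s) = 1
    rw [hs, map_one]
  refine ⟨fun m => ⟨F, hFS.1, fun s hs => ?_⟩, fun q hq A hA g hg => hker g (hFS.2 q hq A hA hg)⟩
  rw [hker s hs]
  rfl

theorem s56d_ρ_eq_of_π_eq (M : Rep.{0, 0, 0} (ZMod p) GQ) (h : F.fixingSubgroup ≤ M.ρ.ker)
    {g g' : GQ} (hgg : s56d_π F g = s56d_π F g') : M.ρ g = M.ρ g' := by
  have h1 : g⁻¹ * g' ∈ (s56d_π F).ker := by
    rw [MonoidHom.mem_ker, map_mul, map_inv, hgg, inv_mul_cancel]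
  rw [s56d_ker_π F] at h1
  have h2 : M.ρ (g⁻¹ * g') = 1 := MonoidHom.mem_ker.mp (h h1)
  have h3 : M.ρ g' = M.ρ g * M.ρ (g⁻¹ * g') := by rw [← map_mul, mul_inv_cancel_left]
  rw [h3, h2, mul_one]

/-- descent of a `G_ℚ`-module trivial on `G_F` to `Gal(F/ℚ)`: the representation. -/
def s56d_descendRep (M : Rep.{0, 0, 0} (ZMod p) GQ) (h : F.fixingSubgroup ≤ M.ρ.ker) :
    Representation (ZMod p) (↥F ≃ₐ[ℚ] ↥F) M.V where
  toFun γ := M.ρ (Function.surjInv (s56d_π_surjective F) γ)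
  map_one' := by
    rw [← map_one M.ρ]
    apply s56d_ρ_eq_of_π_eq F M h
    rw [Function.surjInv_eq (s56d_π_surjective F), map_one]
  map_mul' γ γ' := by
    rw [← map_mul]
    apply s56d_ρ_eq_of_π_eq F M h
    rw [Function.surjInv_eq (s56d_π_surjective F), map_mul,
      Function.surjInv_eq (s56d_π_surjective F), Function.surjInv_eq (s56d_π_surjective F)]

theorem s56d_descendRep_apply (M : Rep.{0, 0, 0} (ZMod p) GQ) (h : F.fixingSubgroup ≤ M.ρ.ker)
    (g : GQ) : s56d_descendRep F M h (s56d_π F g) = M.ρ g := by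
  change M.ρ (Function.surjInv (s56d_π_surjective F) (s56d_π F g)) = M.ρ g
  apply s56d_ρ_eq_of_π_eq F M h
  rw [Function.surjInv_eq (s56d_π_surjective F)]

/-- descent of a `G_ℚ`-module trivial on `G_F` to `Gal(F/ℚ)`. -/
def s56d_descend (M : Rep.{0, 0, 0} (ZMod p) GQ) (h : F.fixingSubgroup ≤ M.ρ.ker) :
    Rep.{0, 0, 0} (ZMod p) (↥F ≃ₐ[ℚ] ↥F) :=
  Rep.of (s56d_descendRep F M h)

theorem s56d_descend_ρ (M : Rep.{0, 0, 0} (ZMod p) GQ) (h : F.fixingSubgroup ≤ M.ρ.ker) (g : GQ) :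
    (s56d_descend F M h).ρ (s56d_π F g) = M.ρ g :=
  s56d_descendRep_apply F M h g

theorem s56d_res_descend (M : Rep.{0, 0, 0} (ZMod p) GQ) (h : F.fixingSubgroup ≤ M.ρ.ker) :
    s56d_RepIso (Rep.res (s56d_π F) (s56d_descend F M h)) M :=
  ⟨LinearEquiv.refl (ZMod p) M.V, fun g x => by
    change (s56d_descend F M h).ρ (s56d_π F g) x = M.ρ g x
    rw [s56d_descend_ρ]
    rfl⟩

/-- restriction of an isomorphism. -/
theorem s56d_RepIso.res {X Y : Rep.{0, 0, 0} (ZMod p) (↥F ≃ₐ[ℚ] ↥F)} (h : s56d_RepIso X Y) :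
    s56d_RepIso (Rep.res (s56d_π F) X) (Rep.res (s56d_π F) Y) := by
  obtain ⟨e, he⟩ := h
  exact ⟨e, fun g x => he (s56d_π F g) x⟩

variable (C : Subgroup (↥F ≃ₐ[ℚ] ↥F)) (N : Rep.{0, 0, 0} (ZMod p) ↥C)

/-- `Res_π Coind_C^Γ N ≅ Coind_{π⁻¹C}^{G_ℚ} Res N`. -/
theorem s56d_res_coind_iso :
    s56d_RepIso (Rep.res (s56d_π F) (Rep.coind C.subtype N)) (s56d_M F C N) := by
  have hπ := s56d_π_surjective F
  -- the kernel of `π` acts trivially
  have hker : ∀ (f : (s56d_M F C N).V) (g v : GQ), s56d_π F v = 1 → f.1 (g * v) = f.1 g := by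
    intro f g v hv
    have hu : g * v * g⁻¹ ∈ C.comap (s56d_π F) := by
      rw [Subgroup.mem_comap, map_mul, map_mul, hv, mul_one, ← map_mul, mul_inv_cancel, map_one]
      exact C.one_mem
    have h1 := f.2 ⟨g * v * g⁻¹, hu⟩ g
    have h2 : ((s56d_π F).subgroupComap C) ⟨g * v * g⁻¹, hu⟩ = 1 := by
      apply Subtype.ext
      change s56d_π F (g * v * g⁻¹) = 1
      rw [map_mul, map_mul, hv, mul_one, ← map_mul, mul_inv_cancel, map_one]
    change f.1 (g * v * g⁻¹ * g) = N.ρ (((s56d_π F).subgroupComap C) ⟨g * v * g⁻¹, hu⟩) (f.1 g) at h1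
    rw [h2, map_one, inv_mul_cancel_right] at h1
    exact h1
  have hwd : ∀ (f : (s56d_M F C N).V) (g g' : GQ), s56d_π F g = s56d_π F g' → f.1 g = f.1 g' := by
    intro f g g' hgg
    have h1 : s56d_π F (g⁻¹ * g') = 1 := by rw [map_mul, map_inv, hgg, inv_mul_cancel]
    have h2 := hker f g (g⁻¹ * g') h1
    rw [mul_inv_cancel_left] at h2
    exact h2.symm
  choose s hs using hπ
  let T : (Rep.res (s56d_π F) (Rep.coind C.subtype N)).V →ₗ[ZMod p] (s56d_M F C N).V :=
    { toFun := fun f => ⟨fun g => f.1 (s56d_π F g), fun u g => by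
        change f.1 (s56d_π F (↑u * g)) = N.ρ (((s56d_π F).subgroupComap C) u) (f.1 (s56d_π F g))
        rw [map_mul]
        exact f.2 (((s56d_π F).subgroupComap C) u) (s56d_π F g)⟩
      map_add' := fun a b => rfl
      map_smul' := fun r a => rfl }
  have hTbij : Bijective T := by
    constructor
    · intro a b hab
      apply Subtype.ext
      funext γ
      have := congrFun (congrArg Subtype.val hab) (s γ)
      change a.1 (s56d_π F (s γ)) = b.1 (s56d_π F (s γ)) at this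
      rwa [hs] at this
    · intro f
      refine ⟨⟨fun γ => f.1 (s γ), fun c γ => ?_⟩, ?_⟩
      · have hu : s (c : ↥F ≃ₐ[ℚ] ↥F) ∈ C.comap (s56d_π F) := by
          rw [Subgroup.mem_comap, hs]
          exact c.2
        have h1 : f.1 (s (C.subtype c * γ)) = f.1 (s (c : ↥F ≃ₐ[ℚ] ↥F) * s γ) := by
          apply hwd
          rw [hs, map_mul, hs, hs]
          rfl
        change f.1 (s (C.subtype c * γ)) = N.ρ c (f.1 (s γ))
        rw [h1]
        have h2 := f.2 ⟨s (c : ↥F ≃ₐ[ℚ] ↥F), hu⟩ (s γ)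
        change f.1 (s (c : ↥F ≃ₐ[ℚ] ↥F) * s γ)
          = N.ρ (((s56d_π F).subgroupComap C) ⟨s (c : ↥F ≃ₐ[ℚ] ↥F), hu⟩) (f.1 (s γ)) at h2
        rw [h2]
        congr 2
        exact Subtype.ext (hs _)
      · apply Subtype.ext
        funext g
        change f.1 (s (s56d_π F g)) = f.1 g
        apply hwd
        rw [hs]
  refine ⟨LinearEquiv.ofBijective T hTbij, fun g f => ?_⟩
  apply Subtype.ext
  funext x
  change ((Rep.coind C.subtype N).ρ (s56d_π F g) f).1 (s56d_π F x) = f.1 (s56d_π F (x * g))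
  rw [map_mul]
  rfl

/-- `Res_π Ind_C^Γ N ≅ Coind_{π⁻¹C}^{G_ℚ} Res N`. -/
theorem s56d_res_ind_iso :
    s56d_RepIso (Rep.res (s56d_π F) (Rep.ind C.subtype N)) (s56d_M F C N) := by
  classical
  have : C.FiniteIndex := Subgroup.finiteIndex_of_finite_quotient
  exact (s56d_RepIso.res F (s56d_RepIso.of_iso (Rep.indCoindIso N))).trans
    (s56d_res_coind_iso F C N)

end Descent

section Final

variable {p : ℕ} [Fact p.Prime] (S : Finset Nat.Primes)
variable (F : IntermediateField ℚ (AlgebraicClosure ℚ)) [NumberField ↥F] [IsGalois ℚ ↥F]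

open Classical in
/-- the invariant to which modular Artin induction is applied. -/
def s56d_phi (X : Rep.{0, 0, 0} (ZMod p) (↥F ≃ₐ[ℚ] ↥F)) : ℤ :=
  if FiniteDimensional (ZMod p) X.V then s56d_defect S (Rep.res (s56d_π F) X) else 0

variable {S}

/-- `φ` is invariant under isomorphisms. -/
theorem s56d_phi_iso (hE1 : s56d_ChiAdditiveLin) (hp2 : p ≠ 2) (hpS : pPrime p ∈ S)
    (hFS : F.IsUnramifiedOutside S) (X Y : Rep.{0, 0, 0} (ZMod p) (↥F ≃ₐ[ℚ] ↥F))
    (h : Nonempty (X ≅ Y)) : s56d_phi S F X = s56d_phi S F Y := by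
  obtain ⟨i⟩ := h
  have hiso := s56d_RepIso.of_iso i
  obtain ⟨e, he⟩ := hiso
  unfold s56d_phi
  by_cases hX : FiniteDimensional (ZMod p) X.V
  · have hY : FiniteDimensional (ZMod p) Y.V := Module.Finite.equiv e
    rw [if_pos hX, if_pos hY]
    have hY' : FiniteDimensional (ZMod p) (Rep.res (s56d_π F) Y).V := hY
    exact s56d_defect_congr hE1 hp2 hpS (s56d_isSModule_res F hFS Y)
      (s56d_RepIso.res F ⟨e, he⟩)
  · have hY : ¬ FiniteDimensional (ZMod p) Y.V := fun hY => hX (Module.Finite.equiv e.symm)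
    rw [if_neg hX, if_neg hY]

/-- `φ` is additive. -/
theorem s56d_phi_add (hE1 : s56d_ChiAdditiveLin) (hp2 : p ≠ 2) (hpS : pPrime p ∈ S)
    (hFS : F.IsUnramifiedOutside S) (X : ShortComplex (Rep.{0, 0, 0} (ZMod p) (↥F ≃ₐ[ℚ] ↥F)))
    (hX : X.ShortExact) (hfd : FiniteDimensional (ZMod p) X.X₂) :
    s56d_phi S F X.X₂ = s56d_phi S F X.X₁ + s56d_phi S F X.X₃ := by
  let f : X.X₁.V →ₗ[ZMod p] X.X₂.V := X.f.hom.toLinearMap
  let g : X.X₂.V →ₗ[ZMod p] X.X₃.V := X.g.hom.toLinearMap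
  have hf : ∀ γ m, f (X.X₁.ρ γ m) = X.X₂.ρ γ (f m) := fun γ m => Rep.hom_comm_apply X.f γ m
  have hg : ∀ γ m, g (X.X₂.ρ γ m) = X.X₃.ρ γ (g m) := fun γ m => Rep.hom_comm_apply X.g γ m
  have hinj : Injective f := (Rep.mono_iff_injective X.f).1 hX.mono_f
  have hsurj : Surjective g := (Rep.epi_iff_surjective X.g).1 hX.epi_g
  have hex : LinearMap.range f = LinearMap.ker g :=
    (hX.exact.map (forget₂ (Rep (ZMod p) (↥F ≃ₐ[ℚ] ↥F))
      (ModuleCat (ZMod p)))).moduleCat_range_eq_ker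
  have hfd1 : FiniteDimensional (ZMod p) X.X₁.V := FiniteDimensional.of_injective f hinj
  have hfd3 : FiniteDimensional (ZMod p) X.X₃.V := Module.Finite.of_surjective g hsurj
  unfold s56d_phi
  rw [if_pos hfd, if_pos hfd1, if_pos hfd3]
  have hfd' : FiniteDimensional (ZMod p) (Rep.res (s56d_π F) X.X₂).V := hfd
  have hchi := hE1 p hp2 S hpS (Rep.res (s56d_π F) X.X₁) (Rep.res (s56d_π F) X.X₂)
    (Rep.res (s56d_π F) X.X₃) (s56d_isSModule_res F hFS X.X₂) f g (fun σ m => hf _ m)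
    (fun σ m => hg _ m) hinj hsurj hex
  have hdim : finrank (ZMod p) X.X₂.V = finrank (ZMod p) X.X₁.V + finrank (ZMod p) X.X₃.V := by
    have h1 := LinearMap.finrank_range_add_finrank_ker g
    rw [LinearMap.range_eq_top.mpr hsurj, finrank_top, ← hex,
      LinearMap.finrank_range_of_inj hinj] at h1
    omega
  have hreal := s56d_finrank_fixed_add (s56d_two_ne_zero hp2)
    ((Rep.res (s56d_π F) X.X₁).ρ complexConjugation)
    ((Rep.res (s56d_π F) X.X₂).ρ complexConjugation)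
    ((Rep.res (s56d_π F) X.X₃).ρ complexConjugation)
    (s56d_cc_invol (Rep.res (s56d_π F) X.X₂)) f g (fun m => hf _ m) (fun m => hg _ m)
    hinj hsurj hex
  unfold s56d_defect s56d_realInvariants
  rw [hchi]
  have hdim' : finrank (ZMod p) (Rep.res (s56d_π F) X.X₂).V
      = finrank (ZMod p) (Rep.res (s56d_π F) X.X₁).V
        + finrank (ZMod p) (Rep.res (s56d_π F) X.X₃).V := hdim
  rw [hreal, hdim']
  push_cast
  ring

/-- **Tate's global Euler characteristic formula**, from (E1), finiteness and the cyclic case. -/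
theorem s56d_globalEulerChar_of (hE1 : s56d_ChiAdditiveLin) (hFin : s56d_FinCoh)
    (hCyc : s56d_CyclicCase') : s56d_GlobalEulerChar := by
  intro p _ hp2 S hpS M _ hSM
  obtain ⟨hf1, hf2⟩ := hFin p hp2 S hpS M hSM
  refine ⟨hf1, hf2, ?_⟩
  -- a common level of `M` and `μ_p`
  obtain ⟨F, hF1, -, hζ⟩ := pta_exists_common_level (M := M) hpS hSM.1 hSM.2
  haveI : NumberField ↥F := { to_charZero := inferInstance, to_finiteDimensional := hF1.unram.1 }
  haveI : Normal ℚ ↥F := (IntermediateField.normal_iff_forall_map_le' (K := F)).mpr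
    (fun σ x hx => by
      obtain ⟨y, hy, rfl⟩ := hx
      exact hF1.stable σ y hy)
  haveI : IsGalois ℚ ↥F := ⟨⟩
  have hζ' : F.fixingSubgroup ≤ (cycloChar p).ker := by
    rw [← pta_fixingSubgroup_cycloField]
    exact IntermediateField.fixingSubgroup_antitone hζ
  have hFS : F.IsUnramifiedOutside S := hF1.unram
  -- modular Artin induction
  have hφ := s56d_modularArtin p (↥F ≃ₐ[ℚ] ↥F) (s56d_phi S F)
    (s56d_phi_iso F hE1 hp2 hpS hFS) (s56d_phi_add F hE1 hp2 hpS hFS)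
    (fun C _ hC N hN => by
      have hNfin : Finite N.V := Module.finite_of_finite (ZMod p)
      have hind : FiniteDimensional (ZMod p) (Rep.ind C.subtype N).V := s56d_finite_ind C N
      unfold s56d_phi
      rw [if_pos hind]
      obtain ⟨-, -, h0⟩ := hCyc p hp2 S hpS F hFS hζ' C hC N
      have hind' : FiniteDimensional (ZMod p) (Rep.res (s56d_π F) (Rep.ind C.subtype N)).V := hind
      rw [← s56d_defect_congr hE1 hp2 hpS
        (s56d_isSModule_res F hFS (Rep.ind C.subtype N)) (s56d_res_ind_iso F C N).symm]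
      exact h0)
    (s56d_descend F M hF1.triv) (inferInstanceAs (FiniteDimensional (ZMod p) M.V))
  unfold s56d_phi at hφ
  rw [if_pos (inferInstanceAs (FiniteDimensional (ZMod p) M.V))] at hφ
  have h1 := s56d_defect_congr hE1 hp2 hpS hSM (s56d_res_descend F M hF1.triv)
  rw [hφ] at h1
  unfold s56d_defect at h1
  linarith

end Final

end Fermat.Agent.Lib.S56
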