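/-
PROGRAMME W (S56), wall [W4], brick (E3) (helper1, prefix `s56d_`):
**the modular Artin induction principle** `s56d_ModularArtin` (statement in `IfaceW4.lean`).

An isomorphism-invariant additive integer invariant of finite-dimensional `𝔽_p[G]`-modules (`G` finite) which
vanishes on every module induced from a cyclic subgroup of order prime to `p` is identically zero.

Proof: with the Möbius coefficients `b_C` of `DArtin.lean`, for every `p`-regular `g` the characteristic
polynomials satisfy `charpoly(g | M)^{#G} · ∏_C charpoly(g | Ind_C Res_C M)^{(b_C #C)⁻} =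
∏_C charpoly(g | Ind_C Res_C M)^{(b_C #C)⁺}` (`DCoind.lean` + `DPerm.lean`), so the Brauer–Nesbitt theorem
(`DBN.lean`) gives `#G · φ(M) = ∑_C b_C #C · φ(Ind_C Res_C M) = 0`.
-/
import Fermat.Agent.Lib.S56.IfaceW4
import Fermat.Agent.Lib.S56.DArtin
import Fermat.Agent.Lib.S56.DCoind

set_option autoImplicit false

noncomputable section

namespace Fermat.Agent.Lib.S56

open Module Polynomial Function

section Unique

variable {k V : Type*} [Field k] [AddCommGroup V] [Module k V] [FiniteDimensional k V]

theorem s56d_charpoly_permEnd_unique {X : Type*} [Unique X] (σ : Equiv.Perm X)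
    (f : Module.End k V) : (s56d_permEnd σ f).charpoly = f.charpoly := by
  rw [← LinearEquiv.charpoly_conj (LinearEquiv.funUnique X k V) (s56d_permEnd σ f)]
  congr 1

theorem s56d_fixCount_unique {X : Type*} [Fintype X] [Unique X] (σ : Equiv.Perm X) (i : ℕ) :
    s56d_fixCount σ i = 1 := by
  classical
  unfold s56d_fixCount
  rw [Fintype.sum_unique, if_pos (Subsingleton.elim _ _)]

end Unique

section Assembly

variable {k : Type} [Field k] {G : Type} [Group G]

/-- the subgroups entering Artin's identity: `⊤` (for the module itself) and the cyclic `p′`-subgroups. -/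
def s56d_artD (p : ℕ) : Option (s56d_CycP G p) → Subgroup G
  | none => ⊤
  | some C => C.1

/-- the family of modules entering Artin's identity. -/
def s56d_artM (p : ℕ) (M : Rep.{0, 0, 0} k G) : Option (s56d_CycP G p) → Rep.{0, 0, 0} k G
  | none => M
  | some C => Rep.ind C.1.subtype (Rep.res C.1.subtype M)

instance s56d_fintype_artQ [Finite G] (p : ℕ) (j : Option (s56d_CycP G p)) :
    Fintype (G ⧸ s56d_artD p j) := Fintype.ofFinite _

/-- the marks identity, in the natural-number form needed for `s56d_prod_charpoly_permEnd_eq`. -/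
theorem s56d_marks [Finite G] (p : ℕ) (b : s56d_CycP G p → ℤ)
    (hb : ∀ h : G, (orderOf h).Coprime p →
      (∑ C : s56d_CycP G p, b C * (Nat.card {x : G // x⁻¹ * h * x ∈ C.1} : ℤ)) = Nat.card G)
    (wp wm : Option (s56d_CycP G p) → ℕ)
    (hnone : wp none = 0 ∧ wm none = Nat.card G)
    (hsome : ∀ C : s56d_CycP G p, (wp (some C) : ℤ) - wm (some C) = b C * Nat.card C.1)
    (g : G) (hg : (orderOf g).Coprime p) (i : ℕ) :
    ∑ j, wp j * s56d_fixCount (MulAction.toPerm g : Equiv.Perm (G ⧸ s56d_artD p j)) i
      = ∑ j, wm j * s56d_fixCount (MulAction.toPerm g : Equiv.Perm (G ⧸ s56d_artD p j)) i := by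
  classical
  have hgi : (orderOf (g ^ i)).Coprime p :=
    Nat.Coprime.coprime_dvd_left (orderOf_pow_dvd i) hg
  have h1 := hb (g ^ i) hgi
  have : Unique (G ⧸ s56d_artD p (none : Option (s56d_CycP G p))) :=
    @Unique.mk' _ ⟨QuotientGroup.mk 1⟩ QuotientGroup.subsingleton_quotient_top
  rw [Fintype.sum_option, Fintype.sum_option, hnone.1, hnone.2, s56d_fixCount_unique, zero_mul,
    zero_add, mul_one]
  have h2 : ∀ C : s56d_CycP G p, (Nat.card {x : G // x⁻¹ * g ^ i * x ∈ C.1} : ℤ)
      = (Nat.card C.1 : ℤ)
        * (s56d_fixCount (MulAction.toPerm g : Equiv.Perm (G ⧸ s56d_artD p (some C))) i : ℤ) := by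
    intro C
    rw [← Nat.cast_mul]
    congr 1
    exact (@s56d_card_mul_fixCount G _ C.1 (s56d_fintype_artQ p (some C)) g i).symm
  simp only [h2] at h1
  have h3 : (∑ C : s56d_CycP G p, ((wp (some C) : ℤ) - wm (some C))
      * (s56d_fixCount (MulAction.toPerm g : Equiv.Perm (G ⧸ s56d_artD p (some C))) i : ℤ))
      = Nat.card G := by
    rw [← h1]
    refine Finset.sum_congr rfl fun C _ => ?_
    rw [hsome C, mul_assoc]
  simp only [sub_mul, Finset.sum_sub_distrib] at h3
  have h4 : ((∑ C : s56d_CycP G p, wp (some C)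
      * s56d_fixCount (MulAction.toPerm g : Equiv.Perm (G ⧸ s56d_artD p (some C))) i : ℕ) : ℤ)
      = ((Nat.card G + ∑ C : s56d_CycP G p, wm (some C)
      * s56d_fixCount (MulAction.toPerm g : Equiv.Perm (G ⧸ s56d_artD p (some C))) i : ℕ) : ℤ) := by
    push_cast
    linarith
  exact_mod_cast h4

end Assembly

section Final

open CategoryTheory

/-- **(E3) the modular Artin induction principle.** -/
theorem s56d_modularArtin : s56d_ModularArtin := by
  intro p _ G _ _ φ hiso hadd hind M hM
  classical
  have hφ : s56d_AddInv φ := s56d_addInv_of_cat φ hiso hadd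
  obtain ⟨b, hb⟩ := s56d_exists_artin_coeff G p
  -- the weights
  let w : s56d_CycP G p → ℤ := fun C => b C * Nat.card C.1
  let wp : Option (s56d_CycP G p) → ℕ := fun j => j.elim 0 (fun C => (w C).toNat)
  let wm : Option (s56d_CycP G p) → ℕ := fun j => j.elim (Nat.card G) (fun C => (- w C).toNat)
  have hnone : wp none = 0 ∧ wm none = Nat.card G := ⟨rfl, rfl⟩
  have hsome : ∀ C : s56d_CycP G p, (wp (some C) : ℤ) - wm (some C) = b C * Nat.card C.1 :=
    fun C => Int.toNat_sub_toNat_neg (w C)
  -- finiteness
  have hfinM : Finite M.V := Module.finite_of_finite (ZMod p)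
  have hfin : ∀ j, Finite (s56d_artM p M j).V := by
    intro j
    cases j with
    | none => exact hfinM
    | some C =>
      have h1 : Module.Finite (ZMod p) (Rep.res C.1.subtype M).V := hM
      have h2 := s56d_finite_ind C.1 (Rep.res C.1.subtype M)
      change Finite (Rep.ind C.1.subtype (Rep.res C.1.subtype M)).V
      exact Module.finite_of_finite (ZMod p)
  -- the hypothesis of Brauer–Nesbitt
  have hBN : ∀ g : G, (orderOf g).Coprime p →
      ∏ j, s56d_cp (s56d_artM p M j) (MonoidAlgebra.of (ZMod p) G g) ^ wp j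
        = ∏ j, s56d_cp (s56d_artM p M j) (MonoidAlgebra.of (ZMod p) G g) ^ wm j := by
    intro g hg
    have hcp : ∀ j, s56d_cp (s56d_artM p M j) (MonoidAlgebra.of (ZMod p) G g)
        = (s56d_permEnd (MulAction.toPerm g : Equiv.Perm (G ⧸ s56d_artD p j)) (M.ρ g)).charpoly := by
      intro j
      cases j with
      | none =>
        have : Unique (G ⧸ s56d_artD p (none : Option (s56d_CycP G p))) :=
          @Unique.mk' _ ⟨QuotientGroup.mk 1⟩ QuotientGroup.subsingleton_quotient_top
        rw [s56d_cp_of]
        exact (s56d_charpoly_permEnd_unique _ _).symm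
      | some C =>
        rw [s56d_cp_of]
        exact s56d_charpoly_ind_res C.1 M g
    simp only [hcp]
    exact s56d_prod_charpoly_permEnd_eq (M.ρ g) (fun j => G ⧸ s56d_artD p j)
      (fun j => MulAction.toPerm g) wp wm
      (fun i _ => s56d_marks p b hb wp wm hnone hsome g hg i)
  have key := s56d_brauer_nesbitt p (s56d_artM p M) wp wm hBN φ hφ
  rw [Fintype.sum_option, Fintype.sum_option] at key
  have hz : ∀ C : s56d_CycP G p, φ (s56d_artM p M (some C)) = 0 := fun C =>
    hind C.1 C.2.1 C.2.2 _ hM
  simp only [hz, mul_zero, Finset.sum_const_zero, add_zero] at key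
  rw [hnone.1, hnone.2] at key
  have hG : (Nat.card G : ℤ) ≠ 0 := by
    exact_mod_cast Nat.card_pos.ne'
  change _ = (Nat.card G : ℤ) * φ M at key
  simp only [Nat.cast_zero, zero_mul] at key
  exact (mul_eq_zero.mp key.symm).resolve_left hG

end Final

end Fermat.Agent.Lib.S56
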