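/-
Programme W (S56), wall [W7], finite-group lemma G1 — part (A): generic facts on 1-cocycles of a
group `G` acting linearly on a `k`-vector space `V` (`π : Representation k G V`).

* `s56e_cob_of_central`: a central element acting by a scalar `c ≠ 1` kills `H¹`;
* `s56e_cob_of_card`: `|G|` invertible in `k` kills `H¹`;
* `s56e_cob_of_subgroup`: if `[G : H]` is invertible in `k`, restriction `H¹(G) → H¹(H)` is injective.
-/
import Mathlib

set_option autoImplicit false

namespace Fermat.Agent.Lib.S56

variable {k : Type*} [Field k] {G : Type*} [Group G] {V : Type*} [AddCommGroup V] [Module k V]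

/-- `φ` is a 1-cocycle for the representation `π`. -/
def s56e_IsCocycle (π : Representation k G V) (φ : G → V) : Prop :=
  ∀ g h, φ (g * h) = φ g + π g (φ h)

/-- `φ` is the coboundary of `v`. -/
def s56e_IsCobOf (π : Representation k G V) (φ : G → V) (v : V) : Prop :=
  ∀ g, φ g = π g v - v

/-- `φ` is a 1-coboundary. -/
def s56e_IsCob (π : Representation k G V) (φ : G → V) : Prop :=
  ∃ v, s56e_IsCobOf π φ v

theorem s56e_cocycle_one {π : Representation k G V} {φ : G → V} (h : s56e_IsCocycle π φ) :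
    φ 1 = 0 := by
  have := h 1 1
  rw [mul_one, map_one, Module.End.one_apply] at this
  exact left_eq_add.mp this

theorem s56e_cocycle_sub_cob {π : Representation k G V} {φ : G → V} (h : s56e_IsCocycle π φ)
    (v : V) : s56e_IsCocycle π (fun g => φ g - (π g v - v)) := by
  intro g g'
  simp only [h g g', map_mul, Module.End.mul_apply, map_sub]
  abel

theorem s56e_cob_of_sub_cob {π : Representation k G V} {φ : G → V} (v : V)
    (h : s56e_IsCob π (fun g => φ g - (π g v - v))) : s56e_IsCob π φ := by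
  obtain ⟨w, hw⟩ := h
  refine ⟨w + v, fun g => ?_⟩
  have := hw g
  simp only at this
  rw [map_add]
  rw [sub_eq_iff_eq_add] at this
  rw [this]; abel

/-- A central element acting on `V` by a scalar `c ≠ 1` kills `H¹`. -/
theorem s56e_cob_of_central {π : Representation k G V} {φ : G → V} (h : s56e_IsCocycle π φ)
    (z : G) (hz : ∀ g, z * g = g * z) (c : k) (hc : c ≠ 1) (hπ : ∀ v, π z v = c • v) :
    s56e_IsCob π φ := by
  have hc' : c - 1 ≠ 0 := sub_ne_zero.mpr hc
  refine ⟨(c - 1)⁻¹ • φ z, fun g => ?_⟩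
  have h1 := h z g
  have h2 := h g z
  rw [hz g, h2, hπ] at h1
  -- φ g + π g (φ z) = φ z + c • φ g
  have h3 : (c - 1) • φ g = π g (φ z) - φ z := by
    rw [sub_smul, one_smul]
    have : c • φ g = φ g + π g (φ z) - φ z := by rw [h1]; abel
    rw [this]; abel
  rw [map_smul, ← smul_sub, ← h3, smul_smul, inv_mul_cancel₀ hc', one_smul]

/-- If `|G|` is invertible in `k`, every cocycle is a coboundary. -/
theorem s56e_cob_of_card [Fintype G] {π : Representation k G V} {φ : G → V}
    (h : s56e_IsCocycle π φ) (hG : (Fintype.card G : k) ≠ 0) : s56e_IsCob π φ := by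
  classical
  refine ⟨-((Fintype.card G : k)⁻¹ • ∑ x, φ x), fun g => ?_⟩
  have h1 : ∑ x, φ (g * x) = ∑ x, φ x :=
    Fintype.sum_equiv (Equiv.mulLeft g) _ _ (fun _ => rfl)
  have h2 : ∑ x, φ (g * x) = (Fintype.card G : k) • φ g + π g (∑ x, φ x) := by
    simp only [h g, Finset.sum_add_distrib, Finset.sum_const, Finset.card_univ, map_sum]
    rw [Nat.cast_smul_eq_nsmul]
  rw [h1] at h2
  have h3 : φ g = (Fintype.card G : k)⁻¹ • (∑ x, φ x - π g (∑ x, φ x)) := by
    rw [eq_inv_smul_iff₀ hG]
    rw [eq_sub_iff_add_eq]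
    exact h2.symm
  rw [h3, map_neg, map_smul, smul_sub]
  abel

/-- If `φ` vanishes on a subgroup `H`, it is constant on left cosets of `H`. -/
theorem s56e_cocycle_mul_of_zero {π : Representation k G V} {φ : G → V}
    (h : s56e_IsCocycle π φ) (H : Subgroup G) (h0 : ∀ x ∈ H, φ x = 0) (g : G) {x : G}
    (hx : x ∈ H) : φ (g * x) = φ g := by
  rw [h g x, h0 x hx, map_zero, add_zero]

/-- If the index `[G : H]` is invertible in `k` and `φ|_H` is a coboundary, then `φ` is a
coboundary (injectivity of restriction to a subgroup of index prime to the characteristic). -/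
theorem s56e_cob_of_subgroup [Finite G] {π : Representation k G V} {φ : G → V}
    (h : s56e_IsCocycle π φ) (H : Subgroup G) (hH : (H.index : k) ≠ 0)
    (v : V) (hv : ∀ x ∈ H, φ x = π x v - v) : s56e_IsCob π φ := by
  classical
  apply s56e_cob_of_sub_cob v
  set ψ : G → V := fun g => φ g - (π g v - v) with hψ
  have hψc : s56e_IsCocycle π ψ := s56e_cocycle_sub_cob h v
  have hψ0 : ∀ x ∈ H, ψ x = 0 := fun x hx => by simp only [hψ, hv x hx, sub_self]
  haveI : Fintype (G ⧸ H) := Fintype.ofFinite _
  -- ψ descends to G ⧸ H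
  let ψbar : G ⧸ H → V := Quotient.lift ψ (by
    intro a b hab
    have hab' : a⁻¹ * b ∈ H := QuotientGroup.leftRel_apply.mp hab
    have : b = a * (a⁻¹ * b) := by group
    rw [this, s56e_cocycle_mul_of_zero hψc H hψ0 a hab'])
  have hψbar : ∀ g : G, ψbar (QuotientGroup.mk g) = ψ g := fun g => rfl
  set S : V := ∑ c : G ⧸ H, ψbar c with hS
  have hcard : (Fintype.card (G ⧸ H) : k) = (H.index : k) := by
    rw [Subgroup.index_eq_card, Nat.card_eq_fintype_card]
  refine ⟨-((H.index : k)⁻¹ • S), fun g => ?_⟩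
  have h1 : ∑ c : G ⧸ H, ψbar (g • c) = S :=
    Fintype.sum_equiv (MulAction.toPerm g) _ _ (fun _ => rfl)
  have h2 : ∀ c : G ⧸ H, ψbar (g • c) = ψ g + π g (ψbar c) := by
    intro c
    induction c using QuotientGroup.induction_on with
    | H x =>
      change ψbar (QuotientGroup.mk (g * x)) = _
      rw [hψbar, hψbar, hψc g x]
  have h3' : ∑ c : G ⧸ H, ψbar (g • c) = (H.index : k) • ψ g + π g S := by
    simp only [h2, Finset.sum_add_distrib, Finset.sum_const, Finset.card_univ]
    rw [hS, map_sum, ← hcard, Nat.cast_smul_eq_nsmul]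
  have h3 : S = (H.index : k) • ψ g + π g S := h1.symm.trans h3'
  have h4 : ψ g = (H.index : k)⁻¹ • (S - π g S) := by
    rw [eq_inv_smul_iff₀ hH, eq_sub_iff_add_eq]
    exact h3.symm
  rw [h4, map_neg, map_smul, smul_sub]
  abel

end Fermat.Agent.Lib.S56
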