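/-
Programme W (S56), wall [W7], finite-group lemma G1 — part (B1): fixed points of elements of
`GL₂(k)` on `ℙ¹(k) = OnePoint k`.  A non-scalar element whose characteristic polynomial splits over
`k` has exactly one fixed point (equal eigenvalues) or exactly two (distinct eigenvalues).
-/
import Mathlib

set_option autoImplicit false

namespace Fermat.Agent.Lib.S56

open Matrix OnePoint Matrix.GeneralLinearGroup Polynomial

variable {k : Type*} [Field k] [DecidableEq k]

/-- `M` is a scalar matrix (entrywise form). -/
def s56e_IsScal (M : GL (Fin 2) k) : Prop := M 0 1 = 0 ∧ M 1 0 = 0 ∧ M 0 0 = M 1 1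

instance s56e_IsScal_dec (M : GL (Fin 2) k) : Decidable (s56e_IsScal M) := by
  unfold s56e_IsScal; infer_instance

theorem s56e_isScal_iff (M : GL (Fin 2) k) :
    s56e_IsScal M ↔ M.val ∈ Set.range (Matrix.scalar (Fin 2)) := by
  constructor
  · rintro ⟨h1, h2, h3⟩
    refine ⟨M 0 0, ?_⟩
    ext i j
    fin_cases i <;> fin_cases j <;> simp [h1, h2, h3]
  · rintro ⟨a, ha⟩
    have h := fun i j => congrFun (congrFun ha i) j
    refine ⟨?_, ?_, ?_⟩
    · rw [← h 0 1]; simp
    · rw [← h 1 0]; simp
    · rw [← h 0 0, ← h 1 1]; simp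

/-- Fixed points of a non-scalar element with two distinct eigenvalues in `k`. -/
theorem s56e_fix_two [NeZero (2 : k)] (M : GL (Fin 2) k) (α β : k)
    (htr : M.val.trace = α + β) (hdet : M.val.det = α * β) (hne : α ≠ β) :
    ∃ x y : OnePoint k, x ≠ y ∧ ∀ z : OnePoint k, M • z = z ↔ z = x ∨ z = y := by
  have h2 : (2 : k) ≠ 0 := NeZero.ne 2
  rw [trace_fin_two] at htr
  rw [det_fin_two] at hdet
  by_cases hc : M 1 0 = 0
  · -- upper triangular
    have hdet' : M 0 0 * M 1 1 = α * β := by rw [← hdet, hc]; ring
    have had : M 1 1 - M 0 0 ≠ 0 := by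
      intro h
      have h' : M 1 1 = M 0 0 := sub_eq_zero.mp h
      apply hne
      have : (α - β) ^ 2 = 0 := by
        have : (α - β) ^ 2 = (α + β) ^ 2 - 4 * (α * β) := by ring
        rw [this, ← htr, ← hdet', h']; ring
      exact sub_eq_zero.mp (pow_eq_zero_iff (two_ne_zero) |>.mp this)
    refine ⟨∞, ((M 0 1 / (M 1 1 - M 0 0) : k) : OnePoint k), infty_ne_coe _, fun z => ?_⟩
    cases z with
    | infty => simp [smul_infty_eq_self_iff, hc]
    | coe t =>
      rw [← fixpointPolynomial_aeval_eq_zero_iff]
      simp only [fixpointPolynomial, hc, map_zero, zero_mul, zero_add, map_sub, map_mul,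
        aeval_C, aeval_X, Algebra.algebraMap_self_apply, coe_ne_infty, false_or, coe_eq_coe]
      rw [eq_div_iff had]
      constructor
      · intro h; linear_combination h
      · intro h; linear_combination h
  · -- `c ≠ 0`
    have hdisc : discrim (M 1 0) (M 1 1 - M 0 0) (-M 0 1) = (α - β) * (α - β) := by
      rw [discrim]
      have : (α - β) * (α - β) = (α + β) ^ 2 - 4 * (α * β) := by ring
      rw [this, ← htr, ← hdet]; ring
    have hab : α - β ≠ 0 := sub_ne_zero.mpr hne
    refine ⟨((( -(M 1 1 - M 0 0) + (α - β)) / (2 * M 1 0) : k) : OnePoint k),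
      (((-(M 1 1 - M 0 0) - (α - β)) / (2 * M 1 0) : k) : OnePoint k), ?_, fun z => ?_⟩
    · rw [Ne, coe_eq_coe, div_left_inj' (mul_ne_zero h2 hc)]
      intro h
      apply hab
      have : 2 * (α - β) = 0 := by linear_combination h
      exact (mul_eq_zero.mp this).resolve_left h2
    · cases z with
      | infty => simp [smul_infty_eq_self_iff, hc]
      | coe t =>
        rw [← fixpointPolynomial_aeval_eq_zero_iff]
        simp only [fixpointPolynomial, map_sub, map_mul, map_add, aeval_C, aeval_X, aeval_X_pow,
          Algebra.algebraMap_self_apply, coe_eq_coe]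
        rw [← quadratic_eq_zero_iff hc hdisc t]
        constructor
        · intro h; linear_combination h
        · intro h; linear_combination h

/-- A non-scalar element with a double eigenvalue in `k` is parabolic. -/
theorem s56e_isParabolic_of_double (M : GL (Fin 2) k) (α : k) (hs : ¬ s56e_IsScal M)
    (htr : M.val.trace = α + α) (hdet : M.val.det = α * α) : M.IsParabolic := by
  refine ⟨fun h => hs ((s56e_isScal_iff M).mpr h), ?_⟩
  rw [discr_fin_two, htr, hdet]; ring

/-- Fixed points of a parabolic element: exactly one. -/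
theorem s56e_fix_one [NeZero (2 : k)] (M : GL (Fin 2) k) (hM : M.IsParabolic) :
    ∃ x : OnePoint k, ∀ z : OnePoint k, M • z = z ↔ z = x :=
  ⟨parabolicFixedPoint M, fun _ => hM.smul_eq_self_iff⟩

/-- A scalar element fixes every point. -/
theorem s56e_scal_smul (M : GL (Fin 2) k) (hs : s56e_IsScal M) (z : OnePoint k) : M • z = z := by
  obtain ⟨h1, h2, h3⟩ := hs
  have hd : M 1 1 ≠ 0 := by
    intro h
    apply M.det_ne_zero
    rw [det_fin_two, h1, h2, h]; ring
  cases z with
  | infty => simp [smul_infty_eq_self_iff, h2]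
  | coe t =>
    rw [smul_some_eq_ite, h2, h1, h3]
    simp only [zero_mul, zero_add, add_zero, hd, if_false, coe_eq_coe]
    field_simp

end Fermat.Agent.Lib.S56
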