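/-
Programme W (S56), wall [W7], finite-group lemma G1 — part (B2): the Klein counting identity for
a finite group `Γ` acting on `ℙ¹(k)` through `ρ : Γ →* GL₂(k)` all of whose elements have their
eigenvalues in `k`:  `∑_x C(x) + 2 |Z| = 2 |Γ|`, where `C(x)` counts the non-scalar elements fixing
`x`, the parabolic ones twice.
-/
import Fermat.Agent.Lib.S56.EGrpFix

set_option autoImplicit false
set_option linter.unusedSectionVars false

namespace Fermat.Agent.Lib.S56

open Matrix OnePoint Matrix.GeneralLinearGroup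

variable {k : Type*} [Field k] [DecidableEq k]

instance s56e_decEqOnePoint : DecidableEq (OnePoint k) :=
  inferInstanceAs (DecidableEq (Option k))

/-- Decidable form of "parabolic": non-scalar with discriminant zero. -/
def s56e_IsPar (M : GL (Fin 2) k) : Prop := ¬ s56e_IsScal M ∧ M.val.trace ^ 2 = 4 * M.val.det

instance s56e_IsPar_dec (M : GL (Fin 2) k) : Decidable (s56e_IsPar M) := by
  unfold s56e_IsPar; infer_instance

theorem s56e_isPar_iff (M : GL (Fin 2) k) : s56e_IsPar M ↔ M.IsParabolic := by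
  unfold s56e_IsPar GeneralLinearGroup.IsParabolic Matrix.IsParabolic
  rw [s56e_isScal_iff, discr_fin_two, sub_eq_zero]

theorem s56e_isScal_conj (c M : GL (Fin 2) k) : s56e_IsScal (c * M * c⁻¹) ↔ s56e_IsScal M := by
  rw [s56e_isScal_iff, s56e_isScal_iff, ← mem_center_iff_val_mem_range_scalar,
    ← mem_center_iff_val_mem_range_scalar]
  constructor
  · intro h
    have := (Subgroup.center (GL (Fin 2) k)).normal_of_characteristic.conj_mem _ h c⁻¹
    simpa [mul_assoc] using this
  · intro h
    exact (Subgroup.center (GL (Fin 2) k)).normal_of_characteristic.conj_mem _ h c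

theorem s56e_isPar_conj (c M : GL (Fin 2) k) : s56e_IsPar (c * M * c⁻¹) ↔ s56e_IsPar M := by
  rw [s56e_isPar_iff, s56e_isPar_iff, GeneralLinearGroup.isParabolic_conj_iff]

variable {Γ : Type*} [Group Γ]

/-- The stabiliser in `Γ` of a point of `ℙ¹(k)`. -/
def s56e_St (ρ : Γ →* GL (Fin 2) k) (x : OnePoint k) : Subgroup Γ :=
  (MulAction.stabilizer (GL (Fin 2) k) x).comap ρ

theorem s56e_mem_St {ρ : Γ →* GL (Fin 2) k} {x : OnePoint k} {g : Γ} :
    g ∈ s56e_St ρ x ↔ ρ g • x = x := Iff.rfl

/-- The elements of `Γ` acting by scalar matrices. -/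
def s56e_Zs (ρ : Γ →* GL (Fin 2) k) : Subgroup Γ :=
  (Subgroup.center (GL (Fin 2) k)).comap ρ

theorem s56e_mem_Zs {ρ : Γ →* GL (Fin 2) k} {g : Γ} :
    g ∈ s56e_Zs ρ ↔ s56e_IsScal (ρ g) := by
  rw [s56e_isScal_iff, ← mem_center_iff_val_mem_range_scalar]; rfl

theorem s56e_Zs_le_St (ρ : Γ →* GL (Fin 2) k) (x : OnePoint k) : s56e_Zs ρ ≤ s56e_St ρ x :=
  fun _ hg => s56e_mem_St.mpr (s56e_scal_smul _ (s56e_mem_Zs.mp hg) x)

variable [Fintype Γ]

theorem s56e_card_sub (S : Subgroup Γ) [DecidablePred (· ∈ S)] :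
    Nat.card S = (Finset.univ.filter (· ∈ S)).card := by
  rw [Nat.card_eq_fintype_card, Fintype.card_subtype]

/-- Number of parabolic elements fixing `x`. -/
def s56e_parN (ρ : Γ →* GL (Fin 2) k) (x : OnePoint k) : ℕ :=
  (Finset.univ.filter (fun g : Γ => ρ g • x = x ∧ s56e_IsPar (ρ g))).card

/-- Number of non-scalar elements fixing `x`, the parabolic ones counted twice. -/
def s56e_C (ρ : Γ →* GL (Fin 2) k) (x : OnePoint k) : ℕ :=
  (Finset.univ.filter (fun g : Γ => ρ g • x = x ∧ ¬ s56e_IsScal (ρ g))).card + s56e_parN ρ x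

theorem s56e_C_add (ρ : Γ →* GL (Fin 2) k) (x : OnePoint k) :
    s56e_C ρ x + Nat.card (s56e_Zs ρ) = Nat.card (s56e_St ρ x) + s56e_parN ρ x := by
  classical
  rw [s56e_card_sub, s56e_card_sub, s56e_C]
  have h1 : (Finset.univ.filter (fun g : Γ => g ∈ s56e_St ρ x)).card =
      (Finset.univ.filter (fun g : Γ => ρ g • x = x ∧ ¬ s56e_IsScal (ρ g))).card +
      (Finset.univ.filter (fun g : Γ => g ∈ s56e_Zs ρ)).card := by
    rw [← Finset.card_union_of_disjoint]
    · congr 1
      ext g
      simp only [Finset.mem_filter, Finset.mem_univ, true_and, Finset.mem_union, s56e_mem_St,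
        s56e_mem_Zs]
      constructor
      · intro h
        by_cases hs : s56e_IsScal (ρ g)
        · exact Or.inr hs
        · exact Or.inl ⟨h, hs⟩
      · rintro (h | h)
        · exact h.1
        · exact s56e_scal_smul _ h x
    · rw [Finset.disjoint_filter]
      intro g _ h1 h2
      exact h1.2 (s56e_mem_Zs.mp h2)
  rw [h1]; ring

theorem s56e_parN_ge (ρ : Γ →* GL (Fin 2) k) (x : OnePoint k) (h : s56e_parN ρ x ≠ 0) :
    Nat.card (s56e_Zs ρ) ≤ s56e_parN ρ x := by
  classical
  rw [s56e_parN, Finset.card_ne_zero] at h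
  obtain ⟨g₁, hg₁⟩ := h
  simp only [Finset.mem_filter, Finset.mem_univ, true_and] at hg₁
  rw [s56e_card_sub, s56e_parN]
  apply Finset.card_le_card_of_injOn (fun z => z * g₁)
  · intro z hz
    simp only [Finset.coe_filter, Finset.mem_univ, true_and, Set.mem_ofPred_eq] at hz ⊢
    have hz' := s56e_mem_Zs.mp hz
    refine ⟨?_, ?_⟩
    · rw [map_mul, mul_smul, hg₁.1, s56e_scal_smul _ hz']
    · -- scalar times parabolic is parabolic
      have hpar := (s56e_isPar_iff _).mp hg₁.2
      rw [s56e_isPar_iff]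
      rw [s56e_isScal_iff] at hz'
      obtain ⟨a, ha⟩ := hz'
      have hmul : (ρ (z * g₁)).val = a • (ρ g₁).val := by
        rw [map_mul, Units.val_mul, ← ha]
        simp [Matrix.scalar_apply, ← Matrix.smul_eq_diagonal_mul]
      have ha0 : a ≠ 0 := by
        rintro rfl
        apply (ρ z).det_ne_zero
        rw [← ha]; simp
      refine ⟨?_, ?_⟩
      · rintro ⟨b, hb⟩
        apply hpar.1
        refine ⟨a⁻¹ * b, ?_⟩
        rw [hmul] at hb
        have : (ρ g₁).val = a⁻¹ • (a • (ρ g₁).val) := by rw [smul_smul, inv_mul_cancel₀ ha0, one_smul]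
        rw [this, ← hb]
        ext i j
        fin_cases i <;> fin_cases j <;> simp
      · have h2 := hpar.2
        rw [discr_fin_two] at h2 ⊢
        rw [hmul, trace_smul, det_smul]
        simp only [Fintype.card_fin, smul_eq_mul]
        linear_combination a ^ 2 * h2
  · intro z _ z' _ hzz'
    exact mul_right_cancel hzz'

theorem s56e_C_smul (ρ : Γ →* GL (Fin 2) k) (h : Γ) (x : OnePoint k) :
    s56e_C ρ (ρ h • x) = s56e_C ρ x := by
  classical
  have key : ∀ g : Γ, (ρ (h * g * h⁻¹) • (ρ h • x) = ρ h • x) ↔ ρ g • x = x := by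
    intro g
    rw [← mul_smul, ← map_mul, inv_mul_cancel_right, map_mul, mul_smul]
    exact ⟨fun hh => MulAction.injective (ρ h) hh, fun hh => by rw [hh]⟩
  have hconj : ∀ g : Γ, ρ (h * g * h⁻¹) = ρ h * ρ g * (ρ h)⁻¹ := by
    intro g; rw [map_mul, map_mul, map_inv]
  unfold s56e_C s56e_parN
  congr 1
  · symm
    apply Finset.card_bij (fun g _ => h * g * h⁻¹)
    · intro g hg
      simp only [Finset.mem_filter, Finset.mem_univ, true_and] at hg ⊢
      rw [key, hconj, s56e_isScal_conj]; exact hg
    · intro g _ g' _ hgg'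
      exact mul_left_cancel (mul_right_cancel hgg')
    · intro g hg
      simp only [Finset.mem_filter, Finset.mem_univ, true_and] at hg ⊢
      refine ⟨h⁻¹ * g * h, ?_, by group⟩
      have : g = h * (h⁻¹ * g * h) * h⁻¹ := by group
      rw [this, key, hconj, s56e_isScal_conj] at hg
      exact hg
  · symm
    apply Finset.card_bij (fun g _ => h * g * h⁻¹)
    · intro g hg
      simp only [Finset.mem_filter, Finset.mem_univ, true_and] at hg ⊢
      rw [key, hconj, s56e_isPar_conj]; exact hg
    · intro g _ g' _ hgg'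
      exact mul_left_cancel (mul_right_cancel hgg')
    · intro g hg
      simp only [Finset.mem_filter, Finset.mem_univ, true_and] at hg ⊢
      refine ⟨h⁻¹ * g * h, ?_, by group⟩
      have : g = h * (h⁻¹ * g * h) * h⁻¹ := by group
      rw [this, key, hconj, s56e_isPar_conj] at hg
      exact hg

variable [Fintype k]

/-- **Klein's counting identity.** -/
theorem s56e_count [NeZero (2 : k)] (ρ : Γ →* GL (Fin 2) k)
    (hsplit : ∀ g, ∃ α β : k, (ρ g).val.trace = α + β ∧ (ρ g).val.det = α * β) :
    ∑ x : OnePoint k, s56e_C ρ x + 2 * Nat.card (s56e_Zs ρ) = 2 * Fintype.card Γ := by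
  classical
  have hC : ∀ x : OnePoint k, s56e_C ρ x =
      ∑ g : Γ, ((if ρ g • x = x ∧ ¬ s56e_IsScal (ρ g) then 1 else 0) +
        (if ρ g • x = x ∧ s56e_IsPar (ρ g) then 1 else 0)) := by
    intro x
    rw [s56e_C, s56e_parN, Finset.card_filter, Finset.card_filter, Finset.sum_add_distrib]
  simp_rw [hC]
  rw [Finset.sum_comm]
  have hg : ∀ g : Γ, ∑ x : OnePoint k, ((if ρ g • x = x ∧ ¬ s56e_IsScal (ρ g) then 1 else 0) +
        (if ρ g • x = x ∧ s56e_IsPar (ρ g) then 1 else 0)) =
        if s56e_IsScal (ρ g) then 0 else 2 := by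
    intro g
    by_cases hs : s56e_IsScal (ρ g)
    · have hp : ¬ s56e_IsPar (ρ g) := fun h => h.1 hs
      simp [hs, hp]
    · rw [if_neg hs]
      obtain ⟨α, β, htr, hdet⟩ := hsplit g
      by_cases hab : α = β
      · subst hab
        have hp : s56e_IsPar (ρ g) :=
          (s56e_isPar_iff _).mpr (s56e_isParabolic_of_double _ α hs htr hdet)
        obtain ⟨x₀, hx₀⟩ := s56e_fix_one (ρ g) ((s56e_isPar_iff _).mp hp)
        simp only [hs, hp, not_false_eq_true, and_true, hx₀]
        rw [Finset.sum_add_distrib]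
        simp
      · have hp : ¬ s56e_IsPar (ρ g) := by
          intro hp
          apply hab
          have h2 := hp.2
          rw [htr, hdet] at h2
          have : (α - β) ^ 2 = 0 := by linear_combination h2
          exact sub_eq_zero.mp (pow_eq_zero_iff two_ne_zero |>.mp this)
        obtain ⟨x, y, hxy, hfix⟩ := s56e_fix_two (ρ g) α β htr hdet hab
        simp only [hs, hp, not_false_eq_true, and_true, and_false, if_false, add_zero, hfix]
        rw [← Finset.card_filter]
        have : Finset.univ.filter (fun z : OnePoint k => z = x ∨ z = y) = {x, y} := by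
          ext z; simp
        rw [this, Finset.card_pair hxy]
  simp_rw [hg]
  rw [Finset.sum_ite, Finset.sum_const_zero, zero_add, Finset.sum_const, smul_eq_mul, s56e_card_sub]
  have := Finset.card_filter_add_card_filter_not (s := (Finset.univ : Finset Γ))
    (fun g : Γ => s56e_IsScal (ρ g))
  rw [Finset.card_univ] at this
  have h2 : (Finset.univ.filter (fun g : Γ => g ∈ s56e_Zs ρ)) =
      Finset.univ.filter (fun g : Γ => s56e_IsScal (ρ g)) := by
    ext g; simp [s56e_mem_Zs]
  rw [h2]
  omega

end Fermat.Agent.Lib.S56
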