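/-
Programme W (S56), wall [W7], finite-group lemma G1 — part (B3): structure of the stabiliser of
`∞ ∈ ℙ¹(k)` in a finite group `Γ` acting through `ρ : Γ →* GL₂(k)`:
`Z ≤ K ≤ Bor`, `|K| = |Z| q`, `|Bor| = |K| e`, `|Γ| = |Bor| ω`.
-/
import Fermat.Agent.Lib.S56.EGrpCount

set_option autoImplicit false
set_option linter.unusedSectionVars false

namespace Fermat.Agent.Lib.S56

open Matrix OnePoint Matrix.GeneralLinearGroup

variable {k : Type*} [Field k] [DecidableEq k]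

theorem s56e_mul_apply (M N : GL (Fin 2) k) (i j : Fin 2) :
    (M * N) i j = M i 0 * N 0 j + M i 1 * N 1 j := by
  rw [Units.val_mul, Matrix.mul_apply, Fin.sum_univ_two]

theorem s56e_inv_val (M : GL (Fin 2) k) :
    (M⁻¹).val = (M.val.det)⁻¹ • !![M 1 1, -M 0 1; -M 1 0, M 0 0] := by
  rw [Matrix.coe_units_inv, Matrix.inv_def, Ring.inverse_eq_inv', Matrix.adjugate_fin_two]

theorem s56e_one_apply (i j : Fin 2) : (1 : GL (Fin 2) k) i j = if i = j then 1 else 0 := by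
  rw [Units.val_one, Matrix.one_apply]

theorem s56e_inv_00 (M : GL (Fin 2) k) : (M⁻¹) 0 0 = (M.val.det)⁻¹ * M 1 1 := by
  rw [show ((M⁻¹ : GL (Fin 2) k) : Matrix (Fin 2) (Fin 2) k) = _ from s56e_inv_val M]; simp
theorem s56e_inv_01 (M : GL (Fin 2) k) : (M⁻¹) 0 1 = (M.val.det)⁻¹ * (-M 0 1) := by
  rw [show ((M⁻¹ : GL (Fin 2) k) : Matrix (Fin 2) (Fin 2) k) = _ from s56e_inv_val M]; simp
theorem s56e_inv_10 (M : GL (Fin 2) k) : (M⁻¹) 1 0 = (M.val.det)⁻¹ * (-M 1 0) := by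
  rw [show ((M⁻¹ : GL (Fin 2) k) : Matrix (Fin 2) (Fin 2) k) = _ from s56e_inv_val M]; simp
theorem s56e_inv_11 (M : GL (Fin 2) k) : (M⁻¹) 1 1 = (M.val.det)⁻¹ * M 0 0 := by
  rw [show ((M⁻¹ : GL (Fin 2) k) : Matrix (Fin 2) (Fin 2) k) = _ from s56e_inv_val M]; simp

/-- For an upper triangular invertible matrix the diagonal entries are non-zero. -/
theorem s56e_diag_ne (M : GL (Fin 2) k) (h : M 1 0 = 0) : M 0 0 ≠ 0 ∧ M 1 1 ≠ 0 := by
  have hd := M.det_ne_zero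
  rw [det_fin_two, h, mul_zero, sub_zero] at hd
  exact ⟨left_ne_zero_of_mul hd, right_ne_zero_of_mul hd⟩

theorem s56e_det_upper (M : GL (Fin 2) k) (h : M 1 0 = 0) : M.val.det = M 0 0 * M 1 1 := by
  rw [det_fin_two, h, mul_zero, sub_zero]

variable {Γ : Type*} [Group Γ]

/-- The stabiliser of `∞`. -/
def s56e_Bor (ρ : Γ →* GL (Fin 2) k) : Subgroup Γ := s56e_St ρ ∞

theorem s56e_mem_Bor {ρ : Γ →* GL (Fin 2) k} {g : Γ} : g ∈ s56e_Bor ρ ↔ ρ g 1 0 = 0 :=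
  smul_infty_eq_self_iff

/-- Elements acting as `λ · (1, b; 0, 1)`. -/
def s56e_K (ρ : Γ →* GL (Fin 2) k) : Subgroup Γ where
  carrier := {g | ρ g 1 0 = 0 ∧ ρ g 0 0 = ρ g 1 1}
  one_mem' := by simp [map_one, s56e_one_apply]
  mul_mem' := by
    rintro g h ⟨hg1, hg2⟩ ⟨hh1, hh2⟩
    simp only [Set.mem_ofPred_eq] at *
    rw [map_mul]
    simp [s56e_mul_apply, hg1, hh1, hg2, hh2]
  inv_mem' := by
    rintro g ⟨hg1, hg2⟩
    simp only [Set.mem_ofPred_eq] at *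
    rw [map_inv]
    simp [s56e_inv_00, s56e_inv_10, s56e_inv_11, hg1, hg2]

theorem s56e_mem_K {ρ : Γ →* GL (Fin 2) k} {g : Γ} :
    g ∈ s56e_K ρ ↔ ρ g 1 0 = 0 ∧ ρ g 0 0 = ρ g 1 1 := Iff.rfl

theorem s56e_K_le_Bor (ρ : Γ →* GL (Fin 2) k) : s56e_K ρ ≤ s56e_Bor ρ :=
  fun _ hg => s56e_mem_Bor.mpr hg.1

theorem s56e_Zs_le_K (ρ : Γ →* GL (Fin 2) k) : s56e_Zs ρ ≤ s56e_K ρ := by
  intro g hg
  obtain ⟨_, h2, h3⟩ := s56e_mem_Zs.mp hg
  exact ⟨h2, h3⟩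

/-- The additive group of translation parts of elements of `K`. -/
def s56e_Bp (ρ : Γ →* GL (Fin 2) k) : AddSubgroup k where
  carrier := {b | ∃ g ∈ s56e_K ρ, ρ g 0 1 = b * ρ g 0 0}
  zero_mem' := ⟨1, one_mem _, by simp [map_one, s56e_one_apply]⟩
  add_mem' := by
    rintro b c ⟨g, hg, hgb⟩ ⟨h, hh, hhc⟩
    refine ⟨g * h, mul_mem hg hh, ?_⟩
    obtain ⟨hg1, hg2⟩ := hg
    obtain ⟨hh1, hh2⟩ := hh
    rw [map_mul, s56e_mul_apply, s56e_mul_apply, hgb, hhc, hh1, ← hh2]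
    ring
  neg_mem' := by
    rintro b ⟨g, hg, hgb⟩
    refine ⟨g⁻¹, inv_mem hg, ?_⟩
    obtain ⟨hg1, hg2⟩ := hg
    rw [map_inv, s56e_inv_01, s56e_inv_00, hgb, ← hg2]
    ring

theorem s56e_mem_Bp {ρ : Γ →* GL (Fin 2) k} {b : k} :
    b ∈ s56e_Bp ρ ↔ ∃ g ∈ s56e_K ρ, ρ g 0 1 = b * ρ g 0 0 := Iff.rfl

/-- `B'` is stable under multiplication by the ratios `a(t) = t₀₀ / t₁₁`, `t ∈ Bor`. -/
theorem s56e_Bp_smul {ρ : Γ →* GL (Fin 2) k} {t : Γ} (ht : t ∈ s56e_Bor ρ) {b : k}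
    (hb : b ∈ s56e_Bp ρ) : ρ t 0 0 / ρ t 1 1 * b ∈ s56e_Bp ρ := by
  obtain ⟨g, hg, hgb⟩ := hb
  have ht0 := s56e_mem_Bor.mp ht
  obtain ⟨hα, hβ⟩ := s56e_diag_ne _ ht0
  obtain ⟨hg1, hg2⟩ := hg
  obtain ⟨hl, _⟩ := s56e_diag_ne _ hg1
  have hdet : (ρ t).val.det ≠ 0 := (ρ t).det_ne_zero
  have hdet' := s56e_det_upper _ ht0
  refine ⟨t * g * t⁻¹, ⟨?_, ?_⟩, ?_⟩
  · rw [map_mul, map_mul, map_inv]
    simp [s56e_mul_apply, s56e_inv_00, s56e_inv_10, ht0, hg1]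
  · rw [map_mul, map_mul, map_inv]
    simp only [s56e_mul_apply, s56e_inv_00, s56e_inv_10, s56e_inv_11, s56e_inv_01, ht0, hg1,
      hdet', ← hg2]
    field_simp
    ring
  · rw [map_mul, map_mul, map_inv]
    simp only [s56e_mul_apply, s56e_inv_00, s56e_inv_10, s56e_inv_11, s56e_inv_01, ht0, hg1,
      hdet', ← hg2, hgb]
    field_simp
    ring

/-- **Fibre count**: if `f` restricted to the subgroup `S` has the cosets of `N ≤ S` as fibres, then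
`|S| = |N| · |f(S)|`. -/
theorem s56e_card_fib {G T : Type*} [Group G] [Finite G] (S N : Subgroup G) (hNS : N ≤ S)
    (f : G → T) (hf : ∀ g ∈ S, ∀ h ∈ S, f g = f h ↔ g⁻¹ * h ∈ N) :
    Nat.card S = Nat.card N * (f '' (S : Set G)).ncard := by
  classical
  rw [Subgroup.card_eq_card_quotient_mul_card_subgroup (N.subgroupOf S),
    Nat.card_congr (Subgroup.subgroupOfEquivOfLe hNS).toEquiv, mul_comm]
  congr 1
  rw [← _root_.Nat.card_coe_set_eq]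
  let F : (↥S ⧸ N.subgroupOf S) → ↥(f '' (S : Set G)) :=
    Quotient.lift (fun g : ↥S => (⟨f g, ⟨g, g.2, rfl⟩⟩ : ↥(f '' (S : Set G)))) (by
      intro a b hab
      have hab' : a⁻¹ * b ∈ N.subgroupOf S := QuotientGroup.leftRel_apply.mp hab
      rw [Subgroup.mem_subgroupOf] at hab'
      apply Subtype.ext
      exact (hf a a.2 b b.2).mpr hab')
  apply Nat.card_eq_of_bijective F
  constructor
  · intro x y hxy
    induction x using QuotientGroup.induction_on with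
    | H a =>
      induction y using QuotientGroup.induction_on with
      | H b =>
        have h1 : f a = f b := congrArg Subtype.val hxy
        apply QuotientGroup.eq.mpr
        rw [Subgroup.mem_subgroupOf]
        exact (hf a a.2 b b.2).mp h1
  · rintro ⟨t, g, hg, rfl⟩
    exact ⟨QuotientGroup.mk ⟨g, hg⟩, rfl⟩

/-- The orbit of `x` under `Γ`. -/
def s56e_Orb (ρ : Γ →* GL (Fin 2) k) (x : OnePoint k) : Set (OnePoint k) :=
  Set.range (fun g : Γ => ρ g • x)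

/-- Orbit–stabiliser. -/
theorem s56e_card_orb [Finite Γ] (ρ : Γ →* GL (Fin 2) k) (x : OnePoint k) :
    Nat.card Γ = Nat.card (s56e_St ρ x) * (s56e_Orb ρ x).ncard := by
  have h := s56e_card_fib (⊤ : Subgroup Γ) (s56e_St ρ x) le_top (fun g => ρ g • x) (by
    intro g _ h _
    rw [s56e_mem_St, map_mul, map_inv, mul_smul, inv_smul_eq_iff, eq_comm])
  rw [Subgroup.card_top] at h
  rw [h, s56e_Orb, Subgroup.coe_top, Set.image_univ]

/-- The ratio `a(g) = g₀₀ / g₁₁`. -/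
def s56e_aF (ρ : Γ →* GL (Fin 2) k) (g : Γ) : k := ρ g 0 0 / ρ g 1 1

/-- The translation part `b(g) = g₀₁ / g₀₀`. -/
def s56e_bF (ρ : Γ →* GL (Fin 2) k) (g : Γ) : k := ρ g 0 1 / ρ g 0 0

theorem s56e_card_Bor [Finite Γ] (ρ : Γ →* GL (Fin 2) k) :
    Nat.card (s56e_Bor ρ) = Nat.card (s56e_K ρ) * (s56e_aF ρ '' (s56e_Bor ρ : Set Γ)).ncard := by
  apply s56e_card_fib _ _ (s56e_K_le_Bor ρ)
  intro g hg h hh
  have hg0 := s56e_mem_Bor.mp hg
  have hh0 := s56e_mem_Bor.mp hh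
  obtain ⟨hg00, hg11⟩ := s56e_diag_ne _ hg0
  obtain ⟨hh00, hh11⟩ := s56e_diag_ne _ hh0
  have hdet := s56e_det_upper _ hg0
  rw [s56e_mem_K, map_mul, map_inv]
  simp only [s56e_aF, s56e_mul_apply, s56e_inv_00, s56e_inv_10, s56e_inv_11, s56e_inv_01, hg0, hh0,
    hdet]
  constructor
  · intro h1
    refine ⟨by simp, ?_⟩
    rw [div_eq_div_iff hg11 hh11] at h1
    field_simp
    linear_combination -h1
  · rintro ⟨_, h1⟩
    rw [div_eq_div_iff hg11 hh11]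
    field_simp at h1
    linear_combination -h1

theorem s56e_bF_image (ρ : Γ →* GL (Fin 2) k) :
    s56e_bF ρ '' (s56e_K ρ : Set Γ) = (s56e_Bp ρ : Set k) := by
  ext b
  constructor
  · rintro ⟨g, hg, rfl⟩
    refine ⟨g, hg, ?_⟩
    obtain ⟨h00, _⟩ := s56e_diag_ne _ hg.1
    rw [s56e_bF, div_mul_cancel₀ _ h00]
  · rintro ⟨g, hg, hgb⟩
    refine ⟨g, hg, ?_⟩
    obtain ⟨h00, _⟩ := s56e_diag_ne _ hg.1
    rw [s56e_bF, hgb, mul_div_cancel_right₀ _ h00]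

theorem s56e_card_K [Finite Γ] (ρ : Γ →* GL (Fin 2) k) :
    Nat.card (s56e_K ρ) = Nat.card (s56e_Zs ρ) * Nat.card (s56e_Bp ρ) := by
  have h := s56e_card_fib (s56e_K ρ) (s56e_Zs ρ) (s56e_Zs_le_K ρ) (s56e_bF ρ) (by
    intro g hg h hh
    obtain ⟨hg0, hg2⟩ := hg
    obtain ⟨hh0, hh2⟩ := hh
    obtain ⟨hg00, hg11⟩ := s56e_diag_ne _ hg0
    obtain ⟨hh00, hh11⟩ := s56e_diag_ne _ hh0
    have hdet := s56e_det_upper _ hg0
    rw [s56e_mem_Zs, s56e_IsScal, map_mul, map_inv]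
    simp only [s56e_bF, s56e_mul_apply, s56e_inv_00, s56e_inv_10, s56e_inv_11, s56e_inv_01, hg0,
      hh0, hdet, ← hg2, ← hh2]
    constructor
    · intro h1
      rw [div_eq_div_iff hg00 hh00] at h1
      refine ⟨?_, by simp, by ring⟩
      field_simp
      linear_combination -h1
    · rintro ⟨h1, _, _⟩
      rw [div_eq_div_iff hg00 hh00]
      field_simp at h1
      linear_combination -h1)
  rw [h, s56e_bF_image, ← _root_.Nat.card_coe_set_eq]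
  rfl

/-- A finite set stable under translation by a subgroup is a union of cosets. -/
theorem s56e_card_cosets {A : Type*} [AddCommGroup A] [Finite A] (B : AddSubgroup A) (S : Set A)
    (hS : ∀ z ∈ S, ∀ b ∈ B, z + b ∈ S) :
    S.ncard = ((QuotientAddGroup.mk : A → A ⧸ B) '' S).ncard * Nat.card B := by
  classical
  have := Fintype.ofFinite A
  rw [Set.ncard_eq_toFinset_card' S, Set.ncard_eq_toFinset_card']
  rw [Finset.card_eq_sum_card_fiberwise (f := (QuotientAddGroup.mk : A → A ⧸ B))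
    (s := S.toFinset) (t := ((QuotientAddGroup.mk : A → A ⧸ B) '' S).toFinset)]
  · rw [Finset.sum_const_nat]
    intro t ht
    rw [Set.mem_toFinset] at ht
    obtain ⟨z₀, hz₀, rfl⟩ := ht
    rw [Nat.card_eq_fintype_card, ← Finset.card_univ]
    rw [← Finset.card_image_of_injective (Finset.univ : Finset B) (f := fun b : B => z₀ + (b : A))
      (fun b c h => Subtype.ext (add_left_cancel h))]
    congr 1
    ext z
    simp only [Finset.mem_filter, Set.mem_toFinset, Finset.mem_image, Finset.mem_univ, true_and]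
    constructor
    · rintro ⟨hz, hzz⟩
      have : -z₀ + z ∈ B := QuotientAddGroup.eq.mp hzz.symm
      exact ⟨⟨-z₀ + z, this⟩, by simp⟩
    · rintro ⟨b, rfl⟩
      refine ⟨hS z₀ hz₀ b b.2, ?_⟩
      apply QuotientAddGroup.eq.mpr
      simp
  · intro z hz
    rw [Finset.mem_coe, Set.mem_toFinset] at hz
    rw [Finset.mem_coe, Set.mem_toFinset]
    exact ⟨z, hz, rfl⟩

/-- The affine part of the orbit of `∞`. -/
def s56e_Aff (ρ : Γ →* GL (Fin 2) k) : Set k := {z | ((z : k) : OnePoint k) ∈ s56e_Orb ρ ∞}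

/-- The action of an element of `K` on an affine point is a translation. -/
theorem s56e_K_smul {ρ : Γ →* GL (Fin 2) k} {u : Γ} (hu : u ∈ s56e_K ρ) {b : k}
    (hb : ρ u 0 1 = b * ρ u 0 0) (z : k) : ρ u • (z : OnePoint k) = ((z + b : k) : OnePoint k) := by
  obtain ⟨h1, h2⟩ := hu
  obtain ⟨h00, h11⟩ := s56e_diag_ne _ h1
  rw [smul_some_eq_ite, h1, zero_mul, zero_add, if_neg h11, coe_eq_coe, hb, ← h2]
  field_simp

theorem s56e_Aff_add {ρ : Γ →* GL (Fin 2) k} {z b : k} (hz : z ∈ s56e_Aff ρ)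
    (hb : b ∈ s56e_Bp ρ) : z + b ∈ s56e_Aff ρ := by
  obtain ⟨g, hg⟩ := hz
  obtain ⟨u, hu, hub⟩ := hb
  refine ⟨u * g, ?_⟩
  simp only at hg ⊢
  rw [map_mul, mul_smul, hg, s56e_K_smul hu hub]

theorem s56e_Orb_eq (ρ : Γ →* GL (Fin 2) k) :
    s56e_Orb ρ ∞ = insert ∞ ((fun z : k => (z : OnePoint k)) '' s56e_Aff ρ) := by
  ext x
  cases x with
  | infty =>
    simp only [Set.mem_insert_iff, true_or, iff_true]
    exact ⟨1, by simp⟩
  | coe z =>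
    simp only [Set.mem_insert_iff, coe_ne_infty, false_or, Set.mem_image, coe_eq_coe,
      exists_eq_right]
    rfl

theorem s56e_Orb_ncard [Finite k] (ρ : Γ →* GL (Fin 2) k) :
    (s56e_Orb ρ ∞).ncard = 1 + (s56e_Aff ρ).ncard := by
  rw [s56e_Orb_eq, Set.ncard_insert_of_notMem, Set.ncard_image_of_injective _ coe_injective,
    add_comm]
  · simp

/-- The number of `B'`-cosets in the affine part of the orbit of `∞`. -/
noncomputable def s56e_mN (ρ : Γ →* GL (Fin 2) k) : ℕ :=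
  ((QuotientAddGroup.mk : k → k ⧸ s56e_Bp ρ) '' s56e_Aff ρ).ncard

theorem s56e_Aff_ncard [Finite k] (ρ : Γ →* GL (Fin 2) k) :
    (s56e_Aff ρ).ncard = s56e_mN ρ * Nat.card (s56e_Bp ρ) :=
  s56e_card_cosets (s56e_Bp ρ) (s56e_Aff ρ) (fun _ hz _ hb => s56e_Aff_add hz hb)

theorem s56e_mem_Aff_of {ρ : Γ →* GL (Fin 2) k} {g : Γ} (hg : ρ g 1 0 ≠ 0) :
    ρ g 0 0 / ρ g 1 0 ∈ s56e_Aff ρ := by
  refine ⟨g, ?_⟩
  simp only
  rw [smul_infty_eq_ite, if_neg hg]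

theorem s56e_mN_pos [Finite k] {ρ : Γ →* GL (Fin 2) k} {g : Γ} (hg : ρ g 1 0 ≠ 0) :
    1 ≤ s56e_mN ρ := by
  rw [s56e_mN, Nat.one_le_iff_ne_zero, Ne, Set.ncard_eq_zero (Set.toFinite _)]
  exact (Set.Nonempty.image _ ⟨_, s56e_mem_Aff_of hg⟩).ne_empty

theorem s56e_mN_one [Finite k] {ρ : Γ →* GL (Fin 2) k} (h : s56e_mN ρ = 1) {z z' : k}
    (hz : z ∈ s56e_Aff ρ) (hz' : z' ∈ s56e_Aff ρ) : z' - z ∈ s56e_Bp ρ := by
  rw [s56e_mN, Set.ncard_eq_one] at h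
  obtain ⟨t, ht⟩ := h
  have h1 : (QuotientAddGroup.mk z : k ⧸ s56e_Bp ρ) = t := by
    have : (QuotientAddGroup.mk z : k ⧸ s56e_Bp ρ) ∈ ({t} : Set _) := ht ▸ ⟨z, hz, rfl⟩
    exact this
  have h2 : (QuotientAddGroup.mk z' : k ⧸ s56e_Bp ρ) = t := by
    have : (QuotientAddGroup.mk z' : k ⧸ s56e_Bp ρ) ∈ ({t} : Set _) := ht ▸ ⟨z', hz', rfl⟩
    exact this
  have := QuotientAddGroup.eq.mp (h1.trans h2.symm)
  rwa [neg_add_eq_sub] at this

/-- For an upper triangular element, parabolic means non-scalar with equal diagonal entries. -/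
theorem s56e_isPar_upper (M : GL (Fin 2) k) (h : M 1 0 = 0) :
    s56e_IsPar M ↔ ¬ s56e_IsScal M ∧ M 0 0 = M 1 1 := by
  unfold s56e_IsPar
  rw [trace_fin_two, s56e_det_upper M h]
  constructor
  · rintro ⟨h1, h2⟩
    refine ⟨h1, ?_⟩
    have : (M 0 0 - M 1 1) ^ 2 = 0 := by linear_combination h2
    exact sub_eq_zero.mp (pow_eq_zero_iff two_ne_zero |>.mp this)
  · rintro ⟨h1, h2⟩
    refine ⟨h1, ?_⟩
    rw [h2]; ring

theorem s56e_parN_infty [Fintype Γ] (ρ : Γ →* GL (Fin 2) k) :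
    s56e_parN ρ ∞ + Nat.card (s56e_Zs ρ) = Nat.card (s56e_K ρ) := by
  classical
  rw [s56e_card_sub, s56e_card_sub, s56e_parN, ← Finset.card_union_of_disjoint]
  · congr 1
    ext g
    simp only [Finset.mem_union, Finset.mem_filter, Finset.mem_univ, true_and,
      smul_infty_eq_self_iff]
    constructor
    · rintro (⟨h1, h2⟩ | h)
      · exact ⟨h1, ((s56e_isPar_upper _ h1).mp h2).2⟩
      · exact s56e_Zs_le_K ρ h
    · rintro ⟨h1, h2⟩
      by_cases hs : s56e_IsScal (ρ g)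
      · exact Or.inr (s56e_mem_Zs.mpr hs)
      · exact Or.inl ⟨h1, (s56e_isPar_upper _ h1).mpr ⟨hs, h2⟩⟩
  · rw [Finset.disjoint_filter]
    intro g _ h1 h2
    exact h1.2.1 (s56e_mem_Zs.mp h2)

/-- `C(∞) + 2 |Z| = |Bor| + |K|`. -/
theorem s56e_C_infty [Fintype Γ] (ρ : Γ →* GL (Fin 2) k) :
    s56e_C ρ ∞ + 2 * Nat.card (s56e_Zs ρ) = Nat.card (s56e_Bor ρ) + Nat.card (s56e_K ρ) := by
  have h1 := s56e_C_add ρ ∞
  have h2 := s56e_parN_infty ρ
  unfold s56e_Bor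
  omega

/-- The number `e` of ratios `a(t)`, `t ∈ Bor`. -/
noncomputable def s56e_eN (ρ : Γ →* GL (Fin 2) k) : ℕ := (s56e_aF ρ '' (s56e_Bor ρ : Set Γ)).ncard

theorem s56e_eN_pos [Finite Γ] (ρ : Γ →* GL (Fin 2) k) : 1 ≤ s56e_eN ρ := by
  rw [s56e_eN, Nat.one_le_iff_ne_zero, Ne, Set.ncard_eq_zero (Set.toFinite _)]
  exact (Set.Nonempty.image _ ⟨1, one_mem _⟩).ne_empty

theorem s56e_eN_lt [Finite Γ] [Finite k] (ρ : Γ →* GL (Fin 2) k) {b₀ : k} (hb₀ : b₀ ∈ s56e_Bp ρ)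
    (hne : b₀ ≠ 0) : s56e_eN ρ + 1 ≤ Nat.card (s56e_Bp ρ) := by
  have h1 : s56e_eN ρ ≤ ((s56e_Bp ρ : Set k) \ {0}).ncard := by
    apply Set.ncard_le_ncard_of_injOn (fun a => a * b₀)
    · rintro _ ⟨t, ht, rfl⟩
      refine ⟨s56e_Bp_smul ht hb₀, ?_⟩
      obtain ⟨h00, h11⟩ := s56e_diag_ne _ (s56e_mem_Bor.mp ht)
      simp only [Set.mem_singleton_iff, s56e_aF]
      exact mul_ne_zero (div_ne_zero h00 h11) hne
    · intro a _ a' _ haa'
      exact mul_right_cancel₀ hne haa'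
  rw [Set.ncard_sdiff_singleton_of_mem (zero_mem (s56e_Bp ρ))] at h1
  have h2 : 0 < (s56e_Bp ρ : Set k).ncard := by
    rw [Set.ncard_pos (Set.toFinite _)]
    exact ⟨0, zero_mem _⟩
  rw [← _root_.Nat.card_coe_set_eq] at h1 h2
  change s56e_eN ρ ≤ Nat.card (s56e_Bp ρ) - 1 at h1
  change 0 < Nat.card (s56e_Bp ρ) at h2
  omega

end Fermat.Agent.Lib.S56
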