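/-
Programme W (S56), wall [W7], finite-group lemma G1 — part (B4): the Klein count.  Abstract orbit
bookkeeping, the arithmetic lemma, and the resulting constraints `m = 1`, `(q - 1) ∣ 2 e`.
-/
import Fermat.Agent.Lib.S56.EGrpStruct

set_option autoImplicit false
set_option linter.unusedSectionVars false

namespace Fermat.Agent.Lib.S56

open Matrix OnePoint Matrix.GeneralLinearGroup

/-- Abstract orbit bookkeeping behind the Klein count. -/
theorem s56e_orbit_count {X : Type*} [Fintype X] [DecidableEq X] (C s par : X → ℕ)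
    (O : X → Finset X) (Ω : Finset X) (G ζ T : ℕ) (hT : 0 < T)
    (hO1 : ∀ x, x ∈ O x) (hO2 : ∀ x y, y ∈ O x → O y = O x) (hΩ : ∀ x ∈ Ω, O x = Ω)
    (hC : ∀ x y, y ∈ O x → C y = C x)
    (hs : ∀ x, (O x).card * s x = G) (hdvd : ∀ x, ζ ∣ s x)
    (hCs : ∀ x, C x + ζ = s x + par x) (hpar : ∀ x, par x ≠ 0 → ζ ≤ par x)
    (hpar2 : ∀ x, par x + ζ ≤ s x)
    (hR : ∑ x ∈ Ωᶜ, C x + T = G) : T ∣ G := by
  classical
  by_cases hall : ∀ x ∈ Ωᶜ, s x = ζ
  · have h0 : ∑ x ∈ Ωᶜ, C x = 0 := Finset.sum_eq_zero (fun x hx => by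
      have h1 := hCs x
      have h2 := hpar2 x
      have h3 := hall x hx
      omega)
    rw [h0, zero_add] at hR
    exact hR ▸ dvd_rfl
  · push Not at hall
    obtain ⟨x₁, hx₁, hsx₁⟩ := hall
    have hGpos : 0 < G := by omega
    have hsub : ∀ x ∈ Ωᶜ, O x ⊆ Ωᶜ := by
      intro x hx y hy
      rw [Finset.mem_compl] at hx ⊢
      intro hyΩ
      apply hx
      have h1 := hΩ y hyΩ
      rw [hO2 x y hy] at h1
      rw [← h1]; exact hO1 x
    have hsum : ∀ x, ∑ y ∈ O x, C y = (O x).card * C x := by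
      intro x
      rw [Finset.sum_const_nat (fun y hy => hC x y hy)]
    have key : ∀ x, s x ≠ ζ → (O x).card * C x < G →
        (O x).card * C x + (O x).card * ζ = G ∧ 2 * ((O x).card * ζ) ≤ G ∧ par x = 0 := by
      intro x hsx hlt
      obtain ⟨f, hf⟩ := hdvd x
      have hspos : 0 < s x := by
        rcases Nat.eq_zero_or_pos (s x) with h | h
        · have := hs x; rw [h, mul_zero] at this; omega
        · exact h
      have hf2 : 2 ≤ f := by
        rcases f with _ | _ | f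
        · rw [mul_zero] at hf; omega
        · rw [zero_add, mul_one] at hf; exact absurd hf hsx
        · omega
      have hpar0 : par x = 0 := by
        by_contra hne
        have h0 := hpar x hne
        have h1 := hCs x
        have h2 : s x ≤ C x := by omega
        have h3 := Nat.mul_le_mul_left (O x).card h2
        rw [hs x] at h3; omega
      have h1 := hCs x
      have hCx : C x + ζ = s x := by omega
      refine ⟨?_, ?_, hpar0⟩
      · rw [← Nat.mul_add, hCx, hs x]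
      · calc 2 * ((O x).card * ζ) = (O x).card * (ζ * 2) := by ring
          _ ≤ (O x).card * (ζ * f) :=
              Nat.mul_le_mul_left _ (Nat.mul_le_mul_left _ hf2)
          _ = G := by rw [← hf, hs x]
    have hle₁ : (O x₁).card * C x₁ ≤ ∑ x ∈ Ωᶜ, C x := by
      rw [← hsum]
      exact Finset.sum_le_sum_of_subset (hsub x₁ hx₁)
    obtain ⟨hk1, hk2, _⟩ := key x₁ hsx₁ (by omega)
    -- every other point outside `Ω` and `O x₁` is free
    have hrest : ∀ x ∈ Ωᶜ \ O x₁, s x = ζ := by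
      intro x₂ hx₂
      by_contra hsx₂
      rw [Finset.mem_sdiff] at hx₂
      have hsub₂ : O x₂ ⊆ Ωᶜ \ O x₁ := by
        intro y hy
        rw [Finset.mem_sdiff]
        refine ⟨hsub x₂ hx₂.1 hy, fun hy₁ => hx₂.2 ?_⟩
        have h1 := hO2 x₁ y hy₁
        have h2 := hO2 x₂ y hy
        rw [← h1, h2]; exact hO1 x₂
      have hsplit := Finset.sum_sdiff (f := C) (hsub x₁ hx₁)
      have hle₂ : (O x₂).card * C x₂ ≤ ∑ x ∈ Ωᶜ \ O x₁, C x := by
        rw [← hsum]
        exact Finset.sum_le_sum_of_subset hsub₂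
      rw [hsum] at hsplit
      obtain ⟨hk1', hk2', _⟩ := key x₂ hsx₂ (by omega)
      omega
    have h0 : ∑ x ∈ Ωᶜ \ O x₁, C x = 0 := Finset.sum_eq_zero (fun x hx => by
      have h1 := hCs x
      have h2 := hpar2 x
      have h3 := hrest x hx
      omega)
    have hsplit := Finset.sum_sdiff (f := C) (hsub x₁ hx₁)
    rw [hsum, h0, zero_add] at hsplit
    have hTeq : T = (O x₁).card * ζ := by omega
    obtain ⟨f, hf⟩ := hdvd x₁
    refine ⟨f, ?_⟩
    rw [hTeq, mul_assoc, ← hf, hs x₁]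

/-- The arithmetic lemma behind the Klein count. -/
theorem s56e_dioph (q e m : ℕ) (hq : 5 ≤ q) (he : 1 ≤ e) (heq : e + 1 ≤ q) (hm : 1 ≤ m)
    (h : (1 + m * (q - 2)) ∣ e * (1 + m * q)) : m = 1 ∧ (q - 1) ∣ 2 * e := by
  obtain ⟨t, rfl⟩ : ∃ t, q = t + 2 := ⟨q - 2, by omega⟩
  simp only [Nat.add_sub_cancel] at h
  have ht : 3 ≤ t := by omega
  have h1 : e * (1 + m * (t + 2)) = e * (1 + m * t) + 2 * e * m := by ring
  rw [h1] at h
  have h2 : (1 + m * t) ∣ 2 * e * m := (Nat.dvd_add_right (dvd_mul_left _ _)).mp h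
  have hcop : Nat.Coprime (1 + m * t) m := by
    rw [Nat.coprime_add_mul_left_left]
    exact Nat.coprime_one_left m
  have h3 : (1 + m * t) ∣ 2 * e := hcop.dvd_of_dvd_mul_right h2
  have hle : 1 + m * t ≤ 2 * e := Nat.le_of_dvd (by omega) h3
  have hm2 : m ≤ 2 := by
    by_contra hm3
    have : 3 * t ≤ m * t := Nat.mul_le_mul_right t (by omega)
    omega
  have hm1 : m = 1 := by
    by_contra hne
    have hm2' : m = 2 := by omega
    subst hm2'
    have hcop2 : Nat.Coprime (1 + 2 * t) 2 := by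
      rw [Nat.coprime_add_mul_left_left]
      exact Nat.coprime_one_left 2
    have h4 : (1 + 2 * t) ∣ e := by
      have h3' : (1 + 2 * t) ∣ e * 2 := by rw [mul_comm e 2]; exact h3
      exact hcop2.dvd_of_dvd_mul_right h3'
    have := Nat.le_of_dvd (by omega) h4
    omega
  refine ⟨hm1, ?_⟩
  subst hm1
  have : t + 2 - 1 = 1 + 1 * t := by omega
  rw [this]; exact h3

variable {k : Type*} [Field k] [DecidableEq k] {Γ : Type*} [Group Γ]

theorem s56e_mem_Orb_self (ρ : Γ →* GL (Fin 2) k) (x : OnePoint k) : x ∈ s56e_Orb ρ x :=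
  ⟨1, by simp⟩

theorem s56e_Orb_eq_of_mem {ρ : Γ →* GL (Fin 2) k} {x y : OnePoint k} (h : y ∈ s56e_Orb ρ x) :
    s56e_Orb ρ y = s56e_Orb ρ x := by
  obtain ⟨g, rfl⟩ := h
  ext z
  constructor
  · rintro ⟨h, rfl⟩
    exact ⟨h * g, by simp [mul_smul]⟩
  · rintro ⟨h, rfl⟩
    exact ⟨h * g⁻¹, by simp [mul_smul]⟩

theorem s56e_parN_add_le [Fintype Γ] (ρ : Γ →* GL (Fin 2) k) (x : OnePoint k) :
    s56e_parN ρ x + Nat.card (s56e_Zs ρ) ≤ Nat.card (s56e_St ρ x) := by
  classical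
  rw [s56e_card_sub, s56e_card_sub, s56e_parN, ← Finset.card_union_of_disjoint]
  · apply Finset.card_le_card
    intro g hg
    simp only [Finset.mem_union, Finset.mem_filter, Finset.mem_univ, true_and] at hg ⊢
    rcases hg with h | h
    · exact h.1
    · exact s56e_Zs_le_St ρ x h
  · rw [Finset.disjoint_filter]
    intro g _ h1 h2
    exact h1.2.1 (s56e_mem_Zs.mp h2)

/-- **Klein count**: `|K| · (1 + m (q - 2))` divides `|Γ|`. -/
theorem s56e_klein_dvd [Fintype Γ] [Fintype k] [NeZero (2 : k)] (ρ : Γ →* GL (Fin 2) k)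
    (hsplit : ∀ g, ∃ α β : k, (ρ g).val.trace = α + β ∧ (ρ g).val.det = α * β)
    (t : ℕ) (hq : Nat.card (s56e_Bp ρ) = t + 2) :
    Nat.card (s56e_K ρ) * (1 + s56e_mN ρ * t) ∣ Nat.card Γ := by
  classical
  have hOcard : ∀ x, ((s56e_Orb ρ x).toFinset).card = (s56e_Orb ρ x).ncard := fun x =>
    (Set.ncard_eq_toFinset_card' _).symm
  have hC : ∀ x y, y ∈ (s56e_Orb ρ x).toFinset → s56e_C ρ y = s56e_C ρ x := by
    intro x y hy
    rw [Set.mem_toFinset] at hy
    obtain ⟨g, rfl⟩ := hy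
    exact s56e_C_smul ρ g x
  apply s56e_orbit_count (s56e_C ρ) (fun x => Nat.card (s56e_St ρ x)) (s56e_parN ρ)
    (fun x => (s56e_Orb ρ x).toFinset) ((s56e_Orb ρ ∞).toFinset) (Nat.card Γ)
    (Nat.card (s56e_Zs ρ)) _
  · exact Nat.mul_pos Nat.card_pos (by omega)
  · intro x; rw [Set.mem_toFinset]; exact s56e_mem_Orb_self ρ x
  · intro x y hy
    rw [Set.mem_toFinset] at hy
    simp only [s56e_Orb_eq_of_mem hy]
  · intro x hx
    rw [Set.mem_toFinset] at hx
    simp only [s56e_Orb_eq_of_mem hx]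
  · exact hC
  · intro x
    rw [hOcard, mul_comm]
    exact (s56e_card_orb ρ x).symm
  · intro x
    exact Subgroup.card_dvd_of_le (s56e_Zs_le_St ρ x)
  · intro x; exact s56e_C_add ρ x
  · intro x; exact s56e_parN_ge ρ x
  · intro x; exact s56e_parN_add_le ρ x
  · -- the numerology
    have h1 := s56e_count ρ hsplit
    rw [← Finset.sum_add_sum_compl ((s56e_Orb ρ ∞).toFinset) (s56e_C ρ),
      Finset.sum_const_nat (fun y hy => hC ∞ y hy), hOcard, ← Nat.card_eq_fintype_card] at h1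
    have h2 := s56e_C_infty ρ
    have h3 := s56e_card_K ρ
    have h4 := s56e_card_Bor ρ
    have h5 := s56e_card_orb ρ ∞
    have h6 := s56e_Orb_ncard ρ
    have h7 := s56e_Aff_ncard ρ
    rw [hq] at h3 h7
    rw [h7] at h6
    rw [h6] at h1 h5
    change Nat.card Γ = Nat.card (s56e_Bor ρ) * _ at h5
    set R := ∑ x ∈ ((s56e_Orb ρ ∞).toFinset)ᶜ, s56e_C ρ x
    set ζ := Nat.card (s56e_Zs ρ)
    set κ := Nat.card (s56e_K ρ)
    set β := Nat.card (s56e_Bor ρ)
    set G := Nat.card Γ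
    set m := s56e_mN ρ
    set Cinf := s56e_C ρ ∞
    set e := (s56e_aF ρ '' (s56e_Bor ρ : Set Γ)).ncard
    zify at h1 h2 h3 h4 h5 ⊢
    rw [h5, h4, h3]
    rw [h5, h4, h3] at h1
    rw [h4, h3] at h2
    linear_combination h1 - (1 + (m : ℤ) * (t + 2)) * h2

/-- **Klein count, main output**: if `q = |B'| ≥ 5`, then the orbit of `∞` has `q + 1` points
(`m = 1`) and `(q - 1) ∣ 2 e`. -/
theorem s56e_klein_main [Fintype Γ] [Fintype k] [NeZero (2 : k)] (ρ : Γ →* GL (Fin 2) k)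
    (hsplit : ∀ g, ∃ α β : k, (ρ g).val.trace = α + β ∧ (ρ g).val.det = α * β)
    {b₀ : k} (hb₀ : b₀ ∈ s56e_Bp ρ) (hne : b₀ ≠ 0) {g₁ : Γ} (hg₁ : ρ g₁ 1 0 ≠ 0)
    (hq : 5 ≤ Nat.card (s56e_Bp ρ)) :
    s56e_mN ρ = 1 ∧ (Nat.card (s56e_Bp ρ) - 1) ∣ 2 * s56e_eN ρ := by
  obtain ⟨t, ht⟩ : ∃ t, Nat.card (s56e_Bp ρ) = t + 2 := ⟨Nat.card (s56e_Bp ρ) - 2, by omega⟩
  have h1 := s56e_klein_dvd ρ hsplit t ht
  have h5 := s56e_card_orb ρ ∞
  rw [s56e_Orb_ncard, s56e_Aff_ncard] at h5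
  change Nat.card Γ = Nat.card (s56e_Bor ρ) * _ at h5
  rw [s56e_card_Bor ρ] at h5
  change Nat.card Γ = Nat.card (s56e_K ρ) * s56e_eN ρ * _ at h5
  rw [h5, mul_assoc] at h1
  have h2 := Nat.dvd_of_mul_dvd_mul_left Nat.card_pos h1
  apply s56e_dioph _ _ _ hq (s56e_eN_pos ρ) (s56e_eN_lt ρ hb₀ hne) (s56e_mN_pos hg₁)
  rw [ht, Nat.add_sub_cancel]
  rw [ht] at h2
  exact h2

/-- If `m = 1`, `K` acts transitively on the affine part of the orbit of `∞`. -/
theorem s56e_K_trans [Finite k] {ρ : Γ →* GL (Fin 2) k} (hm : s56e_mN ρ = 1) {g h : Γ}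
    (hg : ρ g 1 0 ≠ 0) (hh : ρ h 1 0 ≠ 0) :
    ∃ u ∈ s56e_K ρ, ρ (u * g) • (∞ : OnePoint k) = ρ h • ∞ := by
  have h1 := s56e_mN_one hm (s56e_mem_Aff_of hg) (s56e_mem_Aff_of hh)
  obtain ⟨u, hu, hub⟩ := h1
  refine ⟨u, hu, ?_⟩
  rw [map_mul, mul_smul, smul_infty_eq_ite, if_neg hg, s56e_K_smul hu hub, smul_infty_eq_ite,
    if_neg hh]
  congr 1
  ring

/-- `B'` is a line over the additive group generated by the ratios `a(t)`, `t ∈ Bor`. -/
theorem s56e_Bp_span [Fintype Γ] [Fintype k] [NeZero (2 : k)] (ρ : Γ →* GL (Fin 2) k)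
    (hsplit : ∀ g, ∃ α β : k, (ρ g).val.trace = α + β ∧ (ρ g).val.det = α * β)
    {b₀ : k} (hb₀ : b₀ ∈ s56e_Bp ρ) (hne : b₀ ≠ 0) {g₁ : Γ} (hg₁ : ρ g₁ 1 0 ≠ 0) :
    ∀ b ∈ s56e_Bp ρ,
      ∃ c ∈ AddSubgroup.closure (s56e_aF ρ '' (s56e_Bor ρ : Set Γ)), b = c * b₀ := by
  classical
  set F := AddSubgroup.closure (s56e_aF ρ '' (s56e_Bor ρ : Set Γ)) with hF
  set Fb := F.map (AddMonoidHom.mulRight b₀) with hFb
  have hle : Fb ≤ s56e_Bp ρ := by
    rw [hFb, AddSubgroup.map_le_iff_le_comap, hF, AddSubgroup.closure_le]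
    rintro _ ⟨t, ht, rfl⟩
    exact s56e_Bp_smul ht hb₀
  have hinj : Function.Injective (AddMonoidHom.mulRight b₀) := fun x y hxy =>
    mul_right_cancel₀ hne hxy
  have hcardFb : Nat.card Fb = Nat.card F :=
    Nat.card_congr (F.equivMapOfInjective _ hinj).symm.toEquiv
  have h1mem : (1 : k) ∈ s56e_aF ρ '' (s56e_Bor ρ : Set Γ) :=
    ⟨1, one_mem _, by simp [s56e_aF, map_one, s56e_one_apply]⟩
  -- lower bound for `|F|`
  have hFge1 : s56e_eN ρ + 1 ≤ Nat.card F := by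
    have h0 : (0 : k) ∉ s56e_aF ρ '' (s56e_Bor ρ : Set Γ) := by
      rintro ⟨t, ht, h0⟩
      obtain ⟨h00, h11⟩ := s56e_diag_ne _ (s56e_mem_Bor.mp ht)
      exact div_ne_zero h00 h11 h0
    have hsub : insert (0 : k) (s56e_aF ρ '' (s56e_Bor ρ : Set Γ)) ⊆ (F : Set k) := by
      intro x hx
      rcases hx with rfl | hx
      · exact zero_mem F
      · exact AddSubgroup.subset_closure hx
    have := Set.ncard_le_ncard hsub (Set.toFinite _)
    rw [Set.ncard_insert_of_notMem h0 (Set.toFinite _)] at this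
    exact this
  have hFge3 : 3 ≤ Nat.card F := by
    have h2 : (2 : k) ≠ 0 := NeZero.ne 2
    have h1F : (1 : k) ∈ F := AddSubgroup.subset_closure h1mem
    have hsub : ({0, 1, 2} : Set k) ⊆ (F : Set k) := by
      intro x hx
      rcases hx with rfl | rfl | rfl
      · exact zero_mem F
      · exact h1F
      · have : (2 : k) = 1 + 1 := by norm_num
        rw [this]; exact add_mem h1F h1F
    have h3 : ({0, 1, 2} : Set k).ncard = 3 := by
      rw [Set.ncard_eq_three]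
      refine ⟨0, 1, 2, zero_ne_one, h2.symm, ?_, rfl⟩
      intro h12
      apply h2
      have : (2 : k) = 1 + 1 := by norm_num
      rw [this] at h12 ⊢
      have := add_left_cancel (a := (1 : k)) (b := 0) (c := 1) (by rw [add_zero]; exact h12)
      exact absurd this zero_ne_one
    have := Set.ncard_le_ncard hsub (Set.toFinite _)
    rw [h3] at this
    exact this
  have hdvd : Nat.card Fb ∣ Nat.card (s56e_Bp ρ) := AddSubgroup.card_dvd_of_le hle
  have hbig : Nat.card (s56e_Bp ρ) < 2 * Nat.card Fb := by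
    rw [hcardFb]
    by_cases hq : 5 ≤ Nat.card (s56e_Bp ρ)
    · obtain ⟨_, h2⟩ := s56e_klein_main ρ hsplit hb₀ hne hg₁ hq
      have := Nat.le_of_dvd (by have := s56e_eN_pos ρ; omega) h2
      omega
    · omega
  have heq : Nat.card Fb = Nat.card (s56e_Bp ρ) := by
    obtain ⟨c, hc⟩ := hdvd
    have hpos : 0 < Nat.card Fb := Nat.card_pos
    rcases c with _ | _ | c
    · rw [mul_zero] at hc; have : 0 < Nat.card (s56e_Bp ρ) := Nat.card_pos; omega
    · rw [zero_add, mul_one] at hc; exact hc.symm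
    · rw [hc] at hbig
      have : Nat.card Fb * 2 ≤ Nat.card Fb * (c + 1 + 1) := Nat.mul_le_mul_left _ (by omega)
      omega
  have hFbeq : Fb = s56e_Bp ρ := AddSubgroup.eq_of_le_of_card_ge hle (le_of_eq heq.symm)
  intro b hb
  rw [← hFbeq, hFb, AddSubgroup.mem_map] at hb
  obtain ⟨c, hc, rfl⟩ := hb
  exact ⟨c, hc, rfl⟩

end Fermat.Agent.Lib.S56
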