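/-
Programme W (S56), wall [W7], finite-group lemma G1 — part (C): for `p ≥ 5`, a finite group
`Γ ⊂ GL₂(k)` with split elements, containing a non-trivial unipotent element and not fixing its
fixed point, and containing an element whose determinant has non-trivial square, contains a scalar
with non-trivial square.
-/
import Fermat.Agent.Lib.S56.EGrpKlein

set_option autoImplicit false
set_option linter.unusedSectionVars false

namespace Fermat.Agent.Lib.S56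

open Matrix OnePoint Matrix.GeneralLinearGroup

variable {k : Type*} [Field k] [DecidableEq k] {Γ : Type*} [Group Γ]

theorem s56e_det_conj (c M : GL (Fin 2) k) : (c * M * c⁻¹).val.det = M.val.det := by
  rw [← val_det_apply, ← val_det_apply, map_mul, map_mul, map_inv, mul_right_comm,
    mul_inv_cancel, one_mul]

theorem s56e_det_conj' (c M : GL (Fin 2) k) : (c⁻¹ * M * c).val.det = M.val.det := by
  rw [← val_det_apply, ← val_det_apply, map_mul, map_mul, map_inv, mul_right_comm,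
    inv_mul_cancel, one_mul]

theorem s56e_det_mul (M N : GL (Fin 2) k) : (M * N).val.det = M.val.det * N.val.det := by
  rw [Units.val_mul, det_mul]

theorem s56e_det_inv (M : GL (Fin 2) k) : (M⁻¹).val.det = (M.val.det)⁻¹ := by
  rw [← val_det_apply, map_inv, Units.val_inv_eq_inv_val, val_det_apply]

/-- Powers of an element of `K`. -/
theorem s56e_K_pow {ρ : Γ →* GL (Fin 2) k} {u : Γ} (hu : u ∈ s56e_K ρ) (n : ℕ) :
    ρ (u ^ n) 1 0 = 0 ∧ ρ (u ^ n) 0 0 = (ρ u 0 0) ^ n ∧ ρ (u ^ n) 1 1 = (ρ u 0 0) ^ n ∧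
      ρ (u ^ n) 0 1 * ρ u 0 0 = n * (ρ u 0 0) ^ n * ρ u 0 1 := by
  obtain ⟨h1, h2⟩ := hu
  induction n with
  | zero => simp [map_one, s56e_one_apply]
  | succ n ih =>
    obtain ⟨i1, i2, i3, i4⟩ := ih
    rw [pow_succ, map_mul]
    refine ⟨?_, ?_, ?_, ?_⟩
    · rw [s56e_mul_apply, i1, h1]; ring
    · rw [s56e_mul_apply, i2, h1]; ring
    · rw [s56e_mul_apply, i1, i3, ← h2]; ring
    · rw [s56e_mul_apply, i2, ← h2, add_mul]
      have : ρ (u ^ n) 0 1 * ρ u 0 0 * ρ u 0 0 = (n * (ρ u 0 0) ^ n * ρ u 0 1) * ρ u 0 0 := by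
        rw [i4]
      push_cast
      linear_combination this

theorem s56e_K_pow_char (p : ℕ) [CharP k p] {ρ : Γ →* GL (Fin 2) k} {u : Γ}
    (hu : u ∈ s56e_K ρ) : s56e_IsScal (ρ (u ^ p)) ∧ ρ (u ^ p) 0 0 = (ρ u 0 0) ^ p := by
  obtain ⟨i1, i2, i3, i4⟩ := s56e_K_pow hu p
  obtain ⟨h00, _⟩ := s56e_diag_ne _ hu.1
  refine ⟨⟨?_, i1, by rw [i2, i3]⟩, i2⟩
  rw [CharP.cast_eq_zero, zero_mul, zero_mul] at i4
  exact (mul_eq_zero.mp i4).resolve_right h00

theorem s56e_K_sq_one (p : ℕ) [Fact p.Prime] [CharP k p] {ρ : Γ →* GL (Fin 2) k}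
    (hZ : ∀ g, s56e_IsScal (ρ g) → (ρ g 0 0) ^ 2 = 1) {u : Γ} (hu : u ∈ s56e_K ρ) :
    (ρ u 0 0) ^ 2 = 1 := by
  obtain ⟨h1, h2⟩ := s56e_K_pow_char p hu
  have h3 := hZ _ h1
  rw [h2, ← pow_mul, mul_comm, pow_mul] at h3
  apply frobenius_inj k p
  rw [frobenius_def, frobenius_def, one_pow]
  exact h3

/-- **The `p ≥ 5` step.** -/
theorem s56e_P5 [Fintype Γ] [Fintype k] (p : ℕ) [Fact p.Prime] [CharP k p] (hp5 : 5 ≤ p)
    (ρ : Γ →* GL (Fin 2) k)
    (hsplit : ∀ g, ∃ α β : k, (ρ g).val.trace = α + β ∧ (ρ g).val.det = α * β)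
    {g₀ : Γ} {b₀ : k} (hb₀ne : b₀ ≠ 0) (h10 : ρ g₀ 1 0 = 0) (h00 : ρ g₀ 0 0 = 1)
    (h11 : ρ g₀ 1 1 = 1) (h01 : ρ g₀ 0 1 = b₀)
    {g₁ : Γ} (hg₁ : ρ g₁ 1 0 ≠ 0) {t₀ : Γ} (ht₀ : (ρ t₀).val.det ^ 2 ≠ 1) :
    ∃ g : Γ, s56e_IsScal (ρ g) ∧ (ρ g 0 0) ^ 2 ≠ 1 := by
  classical
  by_contra hcon
  push Not at hcon
  have hp2 : (2 : k) ≠ 0 := by
    intro h
    have : ((2 : ℕ) : k) = 0 := by exact_mod_cast h
    rw [CharP.cast_eq_zero_iff k p] at this
    have := Nat.le_of_dvd (by norm_num) this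
    omega
  have : NeZero (2 : k) := ⟨hp2⟩
  have hKsq : ∀ u ∈ s56e_K ρ, (ρ u 0 0) ^ 2 = 1 := fun u hu => s56e_K_sq_one p hcon hu
  have hKdet : ∀ u ∈ s56e_K ρ, (ρ u).val.det = 1 := by
    intro u hu
    rw [s56e_det_upper _ hu.1, ← hu.2, ← sq]
    exact hKsq u hu
  -- `g₀ ∈ K`, `b₀ ∈ B'`
  have hg₀K : g₀ ∈ s56e_K ρ := ⟨h10, by rw [h00, h11]⟩
  have hb₀ : b₀ ∈ s56e_Bp ρ := ⟨g₀, hg₀K, by rw [h01, h00, mul_one]⟩
  -- `q ≥ 5`
  have hq : 5 ≤ Nat.card (s56e_Bp ρ) := by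
    have h1 : addOrderOf (⟨b₀, hb₀⟩ : s56e_Bp ρ) ∣ Nat.card (s56e_Bp ρ) := addOrderOf_dvd_natCard _
    have h2 : addOrderOf (⟨b₀, hb₀⟩ : s56e_Bp ρ) = p := by
      have h3 : addOrderOf (⟨b₀, hb₀⟩ : s56e_Bp ρ) ∣ p := by
        apply addOrderOf_dvd_of_nsmul_eq_zero
        apply Subtype.ext
        simp [nsmul_eq_mul, CharP.cast_eq_zero]
      rcases (Nat.dvd_prime (Fact.out : p.Prime)).mp h3 with h | h
      · rw [AddMonoid.addOrderOf_eq_one_iff] at h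
        exact absurd (congrArg Subtype.val h) hb₀ne
      · exact h
    rw [h2] at h1
    have := Nat.le_of_dvd Nat.card_pos h1
    omega
  obtain ⟨hm, _⟩ := s56e_klein_main ρ hsplit hb₀ hb₀ne hg₁ hq
  -- an element of determinant one moving `∞`
  set g' := g₁ * g₀ * g₁⁻¹ with hg'
  have hdet₁ : (ρ g₁).val.det ≠ 0 := (ρ g₁).det_ne_zero
  have hg'10 : ρ g' 1 0 ≠ 0 := by
    rw [hg', map_mul, map_mul, map_inv]
    simp only [s56e_mul_apply, s56e_inv_00, s56e_inv_10, h10, h00, h11, h01]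
    have : (ρ g₁ 1 0 * 1 + ρ g₁ 1 1 * 0) * ((ρ g₁).val.det⁻¹ * ρ g₁ 1 1) +
        (ρ g₁ 1 0 * b₀ + ρ g₁ 1 1 * 1) * ((ρ g₁).val.det⁻¹ * -ρ g₁ 1 0) =
        -(b₀ * (ρ g₁ 1 0) ^ 2 * (ρ g₁).val.det⁻¹) := by ring
    rw [this, neg_ne_zero]
    exact mul_ne_zero (mul_ne_zero hb₀ne (pow_ne_zero 2 hg₁)) (inv_ne_zero hdet₁)
  have hg'det : (ρ g').val.det = 1 := by
    rw [hg', map_mul, map_mul, map_inv, s56e_det_conj, s56e_det_upper _ h10, h00, h11, mul_one]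
  -- an element `t ∈ Bor` with `det t = det t₀`
  obtain ⟨t, htB, htdet⟩ : ∃ t ∈ s56e_Bor ρ, (ρ t).val.det = (ρ t₀).val.det := by
    by_cases ht₀B : ρ t₀ 1 0 = 0
    · exact ⟨t₀, s56e_mem_Bor.mpr ht₀B, rfl⟩
    · obtain ⟨u, hu, hug⟩ := s56e_K_trans hm hg'10 ht₀B
      refine ⟨(u * g')⁻¹ * t₀, ?_, ?_⟩
      · change ρ ((u * g')⁻¹ * t₀) • (∞ : OnePoint k) = ∞
        rw [map_mul, mul_smul, ← hug, ← mul_smul, ← map_mul, inv_mul_cancel, map_one, one_smul]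
      · rw [map_mul, map_inv, map_mul, s56e_det_mul, s56e_det_inv, s56e_det_mul, hKdet u hu,
          hg'det]
        simp
  have ht0 := s56e_mem_Bor.mp htB
  obtain ⟨hα, hβ⟩ := s56e_diag_ne _ ht0
  have hdett := s56e_det_upper _ ht0
  by_cases hab : ρ t 0 0 = ρ t 1 1
  · -- `t ∈ K`, so `det t = 1`
    have : (ρ t).val.det = 1 := hKdet t ⟨ht0, hab⟩
    rw [← htdet, this] at ht₀
    exact ht₀ (one_pow 2)
  · -- the second fixed point of `t` lies in the orbit of `∞`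
    set a := ρ t 0 0 / ρ t 1 1 with ha
    have ha1 : 1 - a ≠ 0 := by
      rw [ha, sub_ne_zero]
      intro h
      apply hab
      rw [eq_comm, div_eq_one_iff_eq hβ] at h
      exact h
    set z₁ := ρ g' 0 0 / ρ g' 1 0 with hz₁
    have hz₁A : z₁ ∈ s56e_Aff ρ := s56e_mem_Aff_of hg'10
    -- `t z₁ ∈ Aff`
    have htz : a * z₁ + ρ t 0 1 / ρ t 1 1 ∈ s56e_Aff ρ := by
      obtain ⟨g, hg⟩ := hz₁A
      refine ⟨t * g, ?_⟩
      simp only at hg ⊢
      rw [map_mul, mul_smul, hg, smul_some_eq_ite, ht0, zero_mul, zero_add, if_neg hβ, coe_eq_coe]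
      rw [ha]; field_simp
    have hb₁ := s56e_mN_one hm hz₁A htz
    -- solve `(1 - a) b = b₁` in `B'`
    have hsurj : ∃ b ∈ s56e_Bp ρ, (1 - a) * b = a * z₁ + ρ t 0 1 / ρ t 1 1 - z₁ := by
      let φ : s56e_Bp ρ → s56e_Bp ρ := fun b => ⟨(1 - a) * b, by
        have h1 := s56e_Bp_smul htB b.2
        have : (1 - a) * (b : k) = b - ρ t 0 0 / ρ t 1 1 * b := by rw [ha]; ring
        rw [this]
        exact sub_mem b.2 h1⟩
      have hφinj : Function.Injective φ := by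
        intro b c hbc
        apply Subtype.ext
        have := congrArg Subtype.val hbc
        exact mul_left_cancel₀ ha1 this
      obtain ⟨b, hb⟩ := (Finite.injective_iff_surjective.mp hφinj) ⟨_, hb₁⟩
      exact ⟨b, b.2, congrArg Subtype.val hb⟩
    obtain ⟨b, hbB, hb⟩ := hsurj
    have hzt : z₁ + b ∈ s56e_Aff ρ := s56e_Aff_add hz₁A hbB
    obtain ⟨g, hg⟩ := hzt
    simp only at hg
    -- `t` fixes `z₁ + b`
    have htfix : ρ t • ((z₁ + b : k) : OnePoint k) = ((z₁ + b : k) : OnePoint k) := by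
      rw [smul_some_eq_ite, ht0, zero_mul, zero_add, if_neg hβ, coe_eq_coe]
      have : (ρ t 0 0 * (z₁ + b) + ρ t 0 1) / ρ t 1 1 =
          (a * z₁ + ρ t 0 1 / ρ t 1 1 - z₁) + z₁ + a * b := by
        rw [ha]; field_simp; ring
      rw [this, ← hb]; ring
    have hg10 : ρ g 1 0 ≠ 0 := by
      intro h
      rw [smul_infty_eq_ite, if_pos h] at hg
      exact infty_ne_coe _ hg
    -- `s = g⁻¹ t g`
    set s := g⁻¹ * t * g with hs
    have hsB : ρ s 1 0 = 0 := by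
      rw [← smul_infty_eq_self_iff, hs, map_mul, map_mul, mul_smul, mul_smul, hg, htfix, ← hg,
        ← mul_smul, ← map_mul, inv_mul_cancel, map_one, one_smul]
    have hcomm : ρ t * ρ g = ρ g * ρ s := by
      rw [hs, map_mul, map_mul, map_inv]; group
    have hs00 : ρ s 0 0 = ρ t 1 1 := by
      have h1 := congrArg (fun M : GL (Fin 2) k => M 1 0) hcomm
      simp only [s56e_mul_apply, ht0, hsB, zero_mul, zero_add, mul_zero, add_zero] at h1
      have : ρ g 1 0 * (ρ s 0 0 - ρ t 1 1) = 0 := by linear_combination -h1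
      exact sub_eq_zero.mp ((mul_eq_zero.mp this).resolve_left hg10)
    have hsdet : (ρ s).val.det = (ρ t).val.det := by
      rw [hs, map_mul, map_mul, map_inv, s56e_det_conj']
    have hs11 : ρ s 1 1 = ρ t 0 0 := by
      rw [s56e_det_upper _ hsB, hdett, hs00] at hsdet
      have : ρ t 1 1 * (ρ s 1 1 - ρ t 0 0) = 0 := by linear_combination hsdet
      exact sub_eq_zero.mp ((mul_eq_zero.mp this).resolve_left hβ)
    -- `t s ∈ K` with scalar part `det t`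
    have hwK : t * s ∈ s56e_K ρ := by
      refine ⟨?_, ?_⟩
      · rw [map_mul, s56e_mul_apply, ht0, hsB]; ring
      · rw [map_mul, s56e_mul_apply, s56e_mul_apply, ht0, hsB, hs00, hs11]; ring
    have hw := hKsq _ hwK
    rw [map_mul, s56e_mul_apply, hsB, hs00, mul_zero, add_zero, ← hdett, htdet] at hw
    exact ht₀ hw

end Fermat.Agent.Lib.S56
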