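/-
Programme W (S56), wall [W7], helper8's half: the FINITE-GROUP LEMMAS behind the choice of
Taylor–Wiles primes (DDT Lemma 2.48 / Wiles Lemma 1.10–1.12).  STATEMENT-ONLY interface
(every `def … : Prop` below is a target; nothing here is proved yet).

Setting.  `k` a finite field of odd characteristic `p`; `Γ` a finite group (think
`Γ = Gal(F_n/ℚ)`, `F_n = ℚ(ρ̄, ζ_{p^(n+1)})`), `ρ : Γ →* GL₂(k)`, `χ : Γ →* (ZMod p)ˣ` the mod-`p`
cyclotomic character, `det ρ = χ`, `χ` surjective, `ρ` injective.  `M* = ad⁰ρ ⊗ χ` is realised on trace-zero `2 × 2` matrices with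
`g • X = χ(g) · ρ(g) X ρ(g)⁻¹`.
-/
import Mathlib

set_option autoImplicit false

namespace Fermat.Agent.Lib.S56

open Matrix

/-- The twisted adjoint action `X ↦ c • (g X g⁻¹)` on `2 × 2` matrices. -/
def s56e_adTw {k : Type*} [Field k] (g : GL (Fin 2) k) (c : k)
    (X : Matrix (Fin 2) (Fin 2) k) : Matrix (Fin 2) (Fin 2) k :=
  c • ((g : Matrix (Fin 2) (Fin 2) k) * X * ((g⁻¹ : GL (Fin 2) k) : Matrix (Fin 2) (Fin 2) k))

/-- `ρ|_S` is absolutely irreducible: no line of `k̄²` is stable under `ρ(S)`. -/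
def s56e_AbsIrr {k : Type*} [Field k] {Γ : Type*} [Group Γ] (ρ : Γ →* GL (Fin 2) k)
    (S : Subgroup Γ) : Prop :=
  ∀ v : Fin 2 → AlgebraicClosure k, v ≠ 0 →
    ∃ g ∈ S, ∀ c : AlgebraicClosure k,
      ((ρ g : Matrix (Fin 2) (Fin 2) k).map (algebraMap k (AlgebraicClosure k))) *ᵥ v ≠ c • v

/-- **[W7-G1] `H¹(Γ, ad⁰ρ(1)) = 0`** (DDT Lemma 2.48), in cocycle form: every 1-cocycle of `Γ`
with values in trace-zero matrices, for the action `g • X = χ(g) · ρ(g) X ρ(g)⁻¹`, is a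
coboundary. Hypotheses: `p` odd, `det ρ = χ` surjective onto `(ℤ/p)ˣ`, `ρ` injective (apply it to
`Γ = Γℚ ⧸ ker ρ̄`), every `ρ(g)` has its eigenvalues in `k` (`hsplit` of S56, in trace/det form),
`ρ` absolutely irreducible on `Γ` and on every subgroup of index `2`. -/
def s56e_GroupLemma : Prop :=
  ∀ (p : ℕ) [Fact p.Prime], p ≠ 2 →
  ∀ (k : Type) [Field k] [Finite k] [CharP k p] (Γ : Type) [Group Γ] [Finite Γ]
    (ρ : Γ →* GL (Fin 2) k) (χ : Γ →* (ZMod p)ˣ),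
    (∀ g, (ρ g : Matrix (Fin 2) (Fin 2) k).det = ZMod.castHom (dvd_refl p) k (χ g : ZMod p)) →
    Function.Surjective χ →
    Function.Injective ρ →
    (∀ g, ∃ α β : k, (ρ g : Matrix (Fin 2) (Fin 2) k).trace = α + β ∧
      (ρ g : Matrix (Fin 2) (Fin 2) k).det = α * β) →
    s56e_AbsIrr ρ ⊤ →
    (∀ S : Subgroup Γ, S.index = 2 → s56e_AbsIrr ρ S) →
    ∀ φ : Γ → Matrix (Fin 2) (Fin 2) k, (∀ g, (φ g).trace = 0) →
      (∀ g h, φ (g * h) =
        φ g + s56e_adTw (ρ g) (ZMod.castHom (dvd_refl p) k (χ g : ZMod p)) (φ h)) →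
      ∃ X : Matrix (Fin 2) (Fin 2) k, X.trace = 0 ∧
        ∀ g, φ g = s56e_adTw (ρ g) (ZMod.castHom (dvd_refl p) k (χ g : ZMod p)) X - X

/-- **[W7-G2] a regular semisimple element in a normal subgroup with cyclic quotient**
(think `Δ = Gal(F_n/ℚ(ζ_{p^(n+1)}))`): if `ρ` is absolutely irreducible on `Γ`, `Δ ⊴ Γ` and
`Γ/Δ` is cyclic, then some `g ∈ Δ` has `ρ(g)` with two DISTINCT eigenvalues (discriminant of the
characteristic polynomial `tr² − 4 det ≠ 0`). -/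
def s56e_RegularElt : Prop :=
  ∀ (p : ℕ) [Fact p.Prime], p ≠ 2 →
  ∀ (k : Type) [Field k] [Finite k] [CharP k p] (Γ : Type) [Group Γ] [Finite Γ]
    (ρ : Γ →* GL (Fin 2) k) (Δ : Subgroup Γ) [Δ.Normal], IsCyclic (Γ ⧸ Δ) →
    s56e_AbsIrr ρ ⊤ →
    ∃ g ∈ Δ, (ρ g : Matrix (Fin 2) (Fin 2) k).trace ^ 2 -
      4 * (ρ g : Matrix (Fin 2) (Fin 2) k).det ≠ 0

/-- **[W7-G3] `ad⁰ρ` is absolutely irreducible** (used to see that the `k`-span of the image of a
non-zero `Γ`-equivariant homomorphism `G_{F_n} → ad⁰ρ(1)` is everything): if `ρ` is absolutely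
irreducible on `Γ` and on every index-2 subgroup, no non-zero proper subspace of trace-zero
matrices over `k̄` is stable under conjugation by `ρ(Γ)`; in particular for every trace-zero
`X ≠ 0` and every proper subspace `W` there is `g` with `ρ(g) X ρ(g)⁻¹ ∉ W`. Stated here in the
form needed by the assembly: a `k`-subspace `W` of trace-zero matrices stable under all
`X ↦ ρ(g) X ρ(g)⁻¹` is `⊥` or everything. -/
def s56e_AdIrr : Prop :=
  ∀ (p : ℕ) [Fact p.Prime], p ≠ 2 →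
  ∀ (k : Type) [Field k] [Finite k] [CharP k p] (Γ : Type) [Group Γ] [Finite Γ]
    (ρ : Γ →* GL (Fin 2) k),
    s56e_AbsIrr ρ ⊤ →
    (∀ S : Subgroup Γ, S.index = 2 → s56e_AbsIrr ρ S) →
    ∀ W : Submodule k (Matrix (Fin 2) (Fin 2) k), (∀ X ∈ W, X.trace = 0) →
      (∀ g, ∀ X ∈ W, s56e_adTw (ρ g) 1 X ∈ W) →
      W = ⊥ ∨ ∀ X : Matrix (Fin 2) (Fin 2) k, X.trace = 0 → X ∈ W

end Fermat.Agent.Lib.S56
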