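/-
Programme W (S56), wall [W7], finite-group lemma G1 — the twisted adjoint representation
`g ↦ (X ↦ χ(g) · ρ(g) X ρ(g)⁻¹)` on `2 × 2` matrices, and the explicit conjugation formula for an
upper triangular matrix of determinant one.
-/
import Fermat.Agent.Lib.S56.EGrpCoh
import Fermat.Agent.Lib.S56.EGrpP5
import Fermat.Agent.Lib.S56.IfaceW7Grp

set_option autoImplicit false
set_option linter.unusedSectionVars false

namespace Fermat.Agent.Lib.S56

open Matrix

variable {k : Type*} [Field k] [DecidableEq k]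

/-- `X ↦ c · M X M⁻¹` as a linear map. -/
def s56e_AdLin (M : GL (Fin 2) k) (c : k) :
    Matrix (Fin 2) (Fin 2) k →ₗ[k] Matrix (Fin 2) (Fin 2) k where
  toFun X := s56e_adTw M c X
  map_add' X Y := by simp [s56e_adTw, mul_add, add_mul]
  map_smul' a X := by simp [s56e_adTw, smul_smul, mul_comm]

@[simp] theorem s56e_AdLin_apply (M : GL (Fin 2) k) (c : k) (X : Matrix (Fin 2) (Fin 2) k) :
    s56e_AdLin M c X = s56e_adTw M c X := rfl

variable {Γ : Type*} [Group Γ]

/-- The twisted adjoint representation. -/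
def s56e_AdRep (ρ : Γ →* GL (Fin 2) k) (χ : Γ →* kˣ) :
    Representation k Γ (Matrix (Fin 2) (Fin 2) k) where
  toFun g := s56e_AdLin (ρ g) (χ g : k)
  map_one' := by
    ext X : 1
    simp [s56e_adTw]
  map_mul' g h := by
    ext X : 1
    simp only [s56e_AdLin_apply, Module.End.mul_apply, s56e_adTw, map_mul, _root_.mul_inv_rev,
      Units.val_mul, Matrix.mul_smul, Matrix.smul_mul, smul_smul, Matrix.mul_assoc]

theorem s56e_AdRep_apply (ρ : Γ →* GL (Fin 2) k) (χ : Γ →* kˣ) (g : Γ)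
    (X : Matrix (Fin 2) (Fin 2) k) :
    s56e_AdRep ρ χ g X = s56e_adTw (ρ g) (χ g : k) X := rfl

/-- Conjugation by an upper triangular matrix of determinant one, entrywise. -/
theorem s56e_conj_upper (M : GL (Fin 2) k) (h10 : M 1 0 = 0) (hdet : M.val.det = 1)
    (X : Matrix (Fin 2) (Fin 2) k) :
    M.val * X * (M⁻¹).val =
      !![X 0 0 + M 0 1 * M 1 1 * X 1 0,
         M 0 0 ^ 2 * X 0 1 + M 0 0 * M 0 1 * (X 1 1 - X 0 0) - M 0 1 ^ 2 * X 1 0;
         M 1 1 ^ 2 * X 1 0, X 1 1 - M 0 1 * M 1 1 * X 1 0] := by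
  have hsw : M 0 0 * M 1 1 = 1 := by
    rw [det_fin_two, h10, mul_zero, sub_zero] at hdet; exact hdet
  rw [s56e_inv_val, hdet, inv_one, one_smul]
  ext i j
  fin_cases i <;> fin_cases j <;>
    simp [Matrix.mul_apply, Fin.sum_univ_two, h10]
  · linear_combination (X 0 0) * hsw
  · ring
  · ring
  · linear_combination (X 1 1) * hsw

end Fermat.Agent.Lib.S56
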