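/-
Programme W (S56), wall [W7], finite-group lemma G1 — part (D): characteristic `3`.
For a finite group `Γ ⊂ SL₂(k)` (`char k = 3`) with split elements, containing a non-trivial
unipotent element whose fixed point is not fixed by `Γ`, every trace-zero 1-cocycle for the adjoint
action is a coboundary.
-/
import Fermat.Agent.Lib.S56.EGrpAd

set_option autoImplicit false
set_option linter.unusedSectionVars false

namespace Fermat.Agent.Lib.S56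

open Matrix OnePoint Matrix.GeneralLinearGroup

variable {k : Type*} [Field k] [DecidableEq k] {Γ : Type*} [Group Γ]

theorem s56e_gl_ext {M N : GL (Fin 2) k} (h00 : M 0 0 = N 0 0) (h01 : M 0 1 = N 0 1)
    (h10 : M 1 0 = N 1 0) (h11 : M 1 1 = N 1 1) : M = N := by
  apply Units.ext
  ext i j
  fin_cases i <;> fin_cases j <;> assumption

/-- The elements acting as `(1, b; 0, 1)`. -/
def s56e_Uni (ρ : Γ →* GL (Fin 2) k) : Subgroup Γ where
  carrier := {g | ρ g 1 0 = 0 ∧ ρ g 0 0 = 1 ∧ ρ g 1 1 = 1}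
  one_mem' := by simp [map_one, s56e_one_apply]
  mul_mem' := by
    rintro g h ⟨hg1, hg2, hg3⟩ ⟨hh1, hh2, hh3⟩
    simp only [Set.mem_ofPred_eq] at *
    rw [map_mul]
    simp [s56e_mul_apply, hg1, hh1, hg2, hh2, hg3, hh3]
  inv_mem' := by
    rintro g ⟨hg1, hg2, hg3⟩
    simp only [Set.mem_ofPred_eq] at *
    rw [map_inv]
    have hd : (ρ g).val.det = 1 := by rw [s56e_det_upper _ hg1, hg2, hg3, mul_one]
    simp [s56e_inv_00, s56e_inv_10, s56e_inv_11, hg1, hg2, hg3, hd]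

theorem s56e_mem_Uni {ρ : Γ →* GL (Fin 2) k} {g : Γ} :
    g ∈ s56e_Uni ρ ↔ ρ g 1 0 = 0 ∧ ρ g 0 0 = 1 ∧ ρ g 1 1 = 1 := Iff.rfl

theorem s56e_Uni_le_K (ρ : Γ →* GL (Fin 2) k) : s56e_Uni ρ ≤ s56e_K ρ :=
  fun _ hg => ⟨hg.1, by rw [hg.2.1, hg.2.2]⟩

theorem s56e_Uni_b_mul {ρ : Γ →* GL (Fin 2) k} {g h : Γ} (hg : g ∈ s56e_Uni ρ)
    (hh : h ∈ s56e_Uni ρ) : ρ (g * h) 0 1 = ρ g 0 1 + ρ h 0 1 := by
  rw [map_mul, s56e_mul_apply, hg.2.1, hh.2.2]; ring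

theorem s56e_Uni_b_mem {ρ : Γ →* GL (Fin 2) k} {g : Γ} (hg : g ∈ s56e_Uni ρ) :
    ρ g 0 1 ∈ s56e_Bp ρ := ⟨g, s56e_Uni_le_K ρ hg, by rw [hg.2.1, mul_one]⟩

theorem s56e_Uni_ext {ρ : Γ →* GL (Fin 2) k} (hinj : Function.Injective ρ) {g h : Γ}
    (hg : g ∈ s56e_Uni ρ) (hh : h ∈ s56e_Uni ρ) (hb : ρ g 0 1 = ρ h 0 1) : g = h :=
  hinj (s56e_gl_ext (by rw [hg.2.1, hh.2.1]) hb (by rw [hg.1, hh.1]) (by rw [hg.2.2, hh.2.2]))

theorem s56e_Uni_comm {ρ : Γ →* GL (Fin 2) k} (hinj : Function.Injective ρ) {g h : Γ}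
    (hg : g ∈ s56e_Uni ρ) (hh : h ∈ s56e_Uni ρ) : g * h = h * g :=
  s56e_Uni_ext hinj (mul_mem hg hh) (mul_mem hh hg)
    (by rw [s56e_Uni_b_mul hg hh, s56e_Uni_b_mul hh hg, add_comm])

section cocycle

variable {ρ : Γ →* GL (Fin 2) k} {φ : Γ → Matrix (Fin 2) (Fin 2) k}

/-- The cocycle relation at an upper triangular element of determinant one, entrywise. -/
theorem s56e_coc_upper (hcoc : s56e_IsCocycle (s56e_AdRep ρ 1) φ) {g : Γ} (h10 : ρ g 1 0 = 0)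
    (hdet : (ρ g).val.det = 1) (h : Γ) :
    φ (g * h) = φ g +
      !![φ h 0 0 + ρ g 0 1 * ρ g 1 1 * φ h 1 0,
         ρ g 0 0 ^ 2 * φ h 0 1 + ρ g 0 0 * ρ g 0 1 * (φ h 1 1 - φ h 0 0) - ρ g 0 1 ^ 2 * φ h 1 0;
         ρ g 1 1 ^ 2 * φ h 1 0, φ h 1 1 - ρ g 0 1 * ρ g 1 1 * φ h 1 0] := by
  rw [hcoc g h, s56e_AdRep_apply, s56e_adTw, MonoidHom.one_apply, Units.val_one, one_smul,
    s56e_conj_upper _ h10 hdet]

theorem s56e_coc_10 (hcoc : s56e_IsCocycle (s56e_AdRep ρ 1) φ) {g : Γ} (h10 : ρ g 1 0 = 0)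
    (hdet : (ρ g).val.det = 1) (h : Γ) :
    φ (g * h) 1 0 = φ g 1 0 + ρ g 1 1 ^ 2 * φ h 1 0 := by
  rw [s56e_coc_upper hcoc h10 hdet]; simp

theorem s56e_coc_00 (hcoc : s56e_IsCocycle (s56e_AdRep ρ 1) φ) {g : Γ} (h10 : ρ g 1 0 = 0)
    (hdet : (ρ g).val.det = 1) (h : Γ) :
    φ (g * h) 0 0 = φ g 0 0 + (φ h 0 0 + ρ g 0 1 * ρ g 1 1 * φ h 1 0) := by
  rw [s56e_coc_upper hcoc h10 hdet]; simp

theorem s56e_coc_01 (hcoc : s56e_IsCocycle (s56e_AdRep ρ 1) φ) {g : Γ} (h10 : ρ g 1 0 = 0)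
    (hdet : (ρ g).val.det = 1) (h : Γ) :
    φ (g * h) 0 1 = φ g 0 1 + (ρ g 0 0 ^ 2 * φ h 0 1 +
      ρ g 0 0 * ρ g 0 1 * (φ h 1 1 - φ h 0 0) - ρ g 0 1 ^ 2 * φ h 1 0) := by
  rw [s56e_coc_upper hcoc h10 hdet]; simp

theorem s56e_tr_11 (htr : ∀ g, (φ g).trace = 0) (g : Γ) : φ g 1 1 = -φ g 0 0 := by
  have := htr g
  rw [trace_fin_two] at this
  linear_combination this

end cocycle

omit [DecidableEq k] in
theorem s56e_cast_card_sub_one [Fintype k] : ((Fintype.card k - 1 : ℕ) : k) = -1 := by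
  have h1 : 1 ≤ Fintype.card k := Fintype.card_pos
  rw [Nat.cast_sub h1, FiniteField.cast_card_eq_zero, Nat.cast_one, zero_sub]

section char3

variable [CharP k 3] {ρ : Γ →* GL (Fin 2) k} {φ : Γ → Matrix (Fin 2) (Fin 2) k}

theorem s56e_three_eq_zero : (3 : k) = 0 := by
  have : ((3 : ℕ) : k) = 0 := CharP.cast_eq_zero k 3
  exact_mod_cast this

theorem s56e_two_ne_zero3 : (2 : k) ≠ 0 := by
  intro h
  have h3 : (3 : k) = 0 := s56e_three_eq_zero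
  have : (1 : k) = 0 := by linear_combination h3 - h
  exact one_ne_zero this

theorem s56e_Uni_det {g : Γ} (hg : g ∈ s56e_Uni ρ) : (ρ g).val.det = 1 := by
  rw [s56e_det_upper _ hg.1, hg.2.1, hg.2.2, mul_one]

/-- The lower left entry of a trace-zero cocycle vanishes on the unipotent subgroup (char. 3). -/
theorem s56e_uni_z (hinj : Function.Injective ρ) (hcoc : s56e_IsCocycle (s56e_AdRep ρ 1) φ)
    (htr : ∀ g, (φ g).trace = 0) {g : Γ} (hg : g ∈ s56e_Uni ρ) : φ g 1 0 = 0 := by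
  have h3 : (3 : k) = 0 := s56e_three_eq_zero
  have hd := s56e_Uni_det hg
  obtain ⟨h10, h00, h11⟩ := hg
  by_cases hb : ρ g 0 1 = 0
  · have : g = 1 := s56e_Uni_ext hinj ⟨h10, h00, h11⟩ (one_mem _)
      (by rw [hb, map_one, s56e_one_apply]; simp)
    rw [this, s56e_cocycle_one hcoc]; rfl
  · have hggg : g * (g * g) = 1 := by
      apply s56e_Uni_ext hinj (mul_mem ⟨h10, h00, h11⟩ (mul_mem ⟨h10, h00, h11⟩ ⟨h10, h00, h11⟩))
        (one_mem _)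
      rw [s56e_Uni_b_mul ⟨h10, h00, h11⟩ (mul_mem ⟨h10, h00, h11⟩ ⟨h10, h00, h11⟩),
        s56e_Uni_b_mul ⟨h10, h00, h11⟩ ⟨h10, h00, h11⟩, map_one, s56e_one_apply]
      simp only [Fin.isValue, zero_ne_one, if_false]
      linear_combination (ρ g 0 1) * h3
    have e1 := s56e_coc_10 hcoc h10 hd g
    have e2 := s56e_coc_00 hcoc h10 hd g
    have e3 := s56e_coc_01 hcoc h10 hd g
    have e4 := s56e_coc_01 hcoc h10 hd (g * g)
    have t1 := s56e_tr_11 htr g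
    have t2 := s56e_tr_11 htr (g * g)
    rw [hggg, s56e_cocycle_one hcoc] at e4
    simp only [Matrix.zero_apply] at e4
    rw [t2, e1, e2, e3, t1, h00, h11] at e4
    have : ρ g 0 1 ^ 2 * φ g 1 0 = 0 := by
      linear_combination (-1 : k) * e4 +
        (2 * ρ g 0 1 ^ 2 * φ g 1 0 - φ g 0 1 + 2 * ρ g 0 1 * φ g 0 0) * h3
    exact (mul_eq_zero.mp this).resolve_left (pow_ne_zero 2 hb)

/-- The diagonal entry of a trace-zero cocycle is proportional to the translation part on the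
unipotent subgroup. -/
theorem s56e_uni_x (hinj : Function.Injective ρ) (hcoc : s56e_IsCocycle (s56e_AdRep ρ 1) φ)
    (htr : ∀ g, (φ g).trace = 0) {g h : Γ} (hg : g ∈ s56e_Uni ρ) (hh : h ∈ s56e_Uni ρ) :
    ρ g 0 1 * φ h 0 0 = ρ h 0 1 * φ g 0 0 := by
  have h2 : (2 : k) ≠ 0 := s56e_two_ne_zero3
  have e1 := s56e_coc_01 hcoc hg.1 (s56e_Uni_det hg) h
  have e2 := s56e_coc_01 hcoc hh.1 (s56e_Uni_det hh) g
  rw [s56e_Uni_comm hinj hg hh, e2] at e1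
  rw [s56e_tr_11 htr g, s56e_tr_11 htr h, s56e_uni_z hinj hcoc htr hg,
    s56e_uni_z hinj hcoc htr hh, hg.2.1, hh.2.1] at e1
  have : 2 * (ρ g 0 1 * φ h 0 0 - ρ h 0 1 * φ g 0 0) = 0 := by linear_combination e1
  exact sub_eq_zero.mp ((mul_eq_zero.mp this).resolve_left h2)

/-- Conjugating a unipotent element by an upper triangular element of determinant one. -/
theorem s56e_Uni_conj {n g : Γ} (hn : ρ n 1 0 = 0) (hnd : (ρ n).val.det = 1)
    (hg : g ∈ s56e_Uni ρ) :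
    n * g * n⁻¹ ∈ s56e_Uni ρ ∧ ρ (n * g * n⁻¹) 0 1 = ρ n 0 0 ^ 2 * ρ g 0 1 := by
  obtain ⟨h10, h00, h11⟩ := hg
  have hsw : ρ n 0 0 * ρ n 1 1 = 1 := by rw [← s56e_det_upper _ hn]; exact hnd
  refine ⟨⟨?_, ?_, ?_⟩, ?_⟩
  · rw [map_mul, map_mul, map_inv]
    simp [s56e_mul_apply, s56e_inv_00, s56e_inv_10, hn, h10]
  · rw [map_mul, map_mul, map_inv]
    simp only [s56e_mul_apply, s56e_inv_00, s56e_inv_10, hn, h10, hnd, h00]
    linear_combination hsw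
  · rw [map_mul, map_mul, map_inv]
    simp only [s56e_mul_apply, s56e_inv_01, s56e_inv_11, hn, h10, hnd, h11]
    linear_combination hsw
  · rw [map_mul, map_mul, map_inv]
    simp only [s56e_mul_apply, s56e_inv_01, s56e_inv_11, h10, hnd, h00, h11]
    ring

/-- The relation between the values of a normalised cocycle at `g` and `n g n⁻¹`. -/
theorem s56e_conj_rel (hinj : Function.Injective ρ) (hcoc : s56e_IsCocycle (s56e_AdRep ρ 1) φ)
    (htr : ∀ g, (φ g).trace = 0) (hU : ∀ h ∈ s56e_Uni ρ, φ h 0 0 = 0)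
    {n g : Γ} (hn : ρ n 1 0 = 0) (hnd : (ρ n).val.det = 1) (hg : g ∈ s56e_Uni ρ) :
    ρ n 0 0 ^ 2 * ρ g 0 1 * φ n 1 0 = 0 ∧
      φ (n * g * n⁻¹) 0 1 = ρ n 0 0 ^ 2 * φ g 0 1 + 2 * (ρ n 0 0 ^ 2 * ρ g 0 1) * φ n 0 0 +
        (ρ n 0 0 ^ 2 * ρ g 0 1) ^ 2 * φ n 1 0 := by
  obtain ⟨hg', hb'⟩ := s56e_Uni_conj hn hnd hg
  have hmul : n * g * n⁻¹ * n = n * g := by group
  have a00 := s56e_coc_00 hcoc hn hnd g
  have a01 := s56e_coc_01 hcoc hn hnd g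
  have b00 := s56e_coc_00 hcoc hg'.1 (s56e_Uni_det hg') n
  have b01 := s56e_coc_01 hcoc hg'.1 (s56e_Uni_det hg') n
  rw [hmul] at b00 b01
  rw [a00, hU g hg, s56e_uni_z hinj hcoc htr hg, hU _ hg', hb', hg'.2.2] at b00
  rw [a01, s56e_tr_11 htr g, hU g hg, s56e_uni_z hinj hcoc htr hg, s56e_tr_11 htr n, hb',
    hg'.2.1] at b01
  constructor
  · linear_combination -b00
  · linear_combination -b01

/-- A normalised cocycle vanishes in the entries `(1,0)` and `(0,0)` on `Bor`. -/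
theorem s56e_bor_x [Fintype k] (hinj : Function.Injective ρ)
    (hcoc : s56e_IsCocycle (s56e_AdRep ρ 1) φ)
    (htr : ∀ g, (φ g).trace = 0) (hU : ∀ h ∈ s56e_Uni ρ, φ h 0 0 = 0)
    {g₀ : Γ} (hg₀ : g₀ ∈ s56e_Uni ρ) (hb₀ : ρ g₀ 0 1 ≠ 0)
    {n : Γ} (hn : ρ n 1 0 = 0) (hnd : (ρ n).val.det = 1) : φ n 1 0 = 0 ∧ φ n 0 0 = 0 := by
  have h2 : (2 : k) ≠ 0 := s56e_two_ne_zero3
  obtain ⟨hn00, _⟩ := s56e_diag_ne _ hn
  have hz : φ n 1 0 = 0 := by
    have := (s56e_conj_rel hinj hcoc htr hU hn hnd hg₀).1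
    exact (mul_eq_zero.mp this).resolve_left (mul_ne_zero (pow_ne_zero 2 hn00) hb₀)
  refine ⟨hz, ?_⟩
  set a := ρ n 0 0 ^ 2 with ha
  have ha0 : a ≠ 0 := pow_ne_zero 2 hn00
  have key : ∀ j : ℕ, n ^ j * g₀ * (n ^ j)⁻¹ ∈ s56e_Uni ρ ∧
      ρ (n ^ j * g₀ * (n ^ j)⁻¹) 0 1 = a ^ j * ρ g₀ 0 1 ∧
      φ (n ^ j * g₀ * (n ^ j)⁻¹) 0 1 =
        a ^ j * φ g₀ 0 1 + j * (2 * φ n 0 0) * a ^ j * ρ g₀ 0 1 := by
    intro j
    induction j with
    | zero => simp [hg₀]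
    | succ j ih =>
      obtain ⟨i1, i2, i3⟩ := ih
      have hstep : n ^ (j + 1) * g₀ * (n ^ (j + 1))⁻¹ = n * (n ^ j * g₀ * (n ^ j)⁻¹) * n⁻¹ := by
        rw [pow_succ']; group
      obtain ⟨c1, c2⟩ := s56e_Uni_conj hn hnd i1
      obtain ⟨_, c3⟩ := s56e_conj_rel hinj hcoc htr hU hn hnd i1
      rw [hstep]
      refine ⟨c1, ?_, ?_⟩
      · rw [c2, i2, ← ha]; ring
      · rw [c3, i2, i3, hz, ← ha]; push_cast; ring
  obtain ⟨k1, k2, k3⟩ := key (Fintype.card k - 1)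
  have haN : a ^ (Fintype.card k - 1) = 1 := FiniteField.pow_card_sub_one_eq_one a ha0
  rw [haN, one_mul] at k2 k3
  have heq : n ^ (Fintype.card k - 1) * g₀ * (n ^ (Fintype.card k - 1))⁻¹ = g₀ :=
    s56e_Uni_ext hinj k1 hg₀ k2
  rw [heq, s56e_cast_card_sub_one] at k3
  have : 2 * φ n 0 0 * ρ g₀ 0 1 = 0 := by linear_combination k3
  have := (mul_eq_zero.mp this).resolve_right hb₀
  exact (mul_eq_zero.mp this).resolve_left h2

/-- On the unipotent subgroup a normalised cocycle is additive in the entry `(0,1)`. -/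
theorem s56e_uni_y_add (hinj : Function.Injective ρ) (hcoc : s56e_IsCocycle (s56e_AdRep ρ 1) φ)
    (htr : ∀ g, (φ g).trace = 0) (hU : ∀ h ∈ s56e_Uni ρ, φ h 0 0 = 0) {g h : Γ}
    (hg : g ∈ s56e_Uni ρ) (hh : h ∈ s56e_Uni ρ) : φ (g * h) 0 1 = φ g 0 1 + φ h 0 1 := by
  rw [s56e_coc_01 hcoc hg.1 (s56e_Uni_det hg) h, s56e_tr_11 htr h, hU h hh,
    s56e_uni_z hinj hcoc htr hh, hg.2.1]
  ring

/-- A normalised cocycle is linear over the additive group generated by the ratios `a(n)`. -/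
theorem s56e_uni_lin [Fintype k] (hdet : ∀ g, (ρ g).val.det = 1) (hinj : Function.Injective ρ)
    (hcoc : s56e_IsCocycle (s56e_AdRep ρ 1) φ)
    (htr : ∀ g, (φ g).trace = 0) (hU : ∀ h ∈ s56e_Uni ρ, φ h 0 0 = 0)
    {g₀ : Γ} (hg₀ : g₀ ∈ s56e_Uni ρ) (hb₀ : ρ g₀ 0 1 ≠ 0) (c : k)
    (hc : c ∈ AddSubgroup.closure (s56e_aF ρ '' (s56e_Bor ρ : Set Γ))) :
    ∀ g ∈ s56e_Uni ρ, ∃ h ∈ s56e_Uni ρ, ρ h 0 1 = c * ρ g 0 1 ∧ φ h 0 1 = c * φ g 0 1 := by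
  induction hc using AddSubgroup.closure_induction with
  | mem c hc =>
    obtain ⟨n, hn, rfl⟩ := hc
    intro g hg
    have hn0 := s56e_mem_Bor.mp hn
    obtain ⟨hn00, hn11⟩ := s56e_diag_ne _ hn0
    have hsw : ρ n 0 0 * ρ n 1 1 = 1 := by rw [← s56e_det_upper _ hn0]; exact hdet n
    have ha : s56e_aF ρ n = ρ n 0 0 ^ 2 := by
      rw [s56e_aF, div_eq_iff hn11]; linear_combination (-(ρ n 0 0)) * hsw
    obtain ⟨c1, c2⟩ := s56e_Uni_conj hn0 (hdet n) hg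
    obtain ⟨_, c3⟩ := s56e_conj_rel hinj hcoc htr hU hn0 (hdet n) hg
    obtain ⟨z1, z2⟩ := s56e_bor_x hinj hcoc htr hU hg₀ hb₀ hn0 (hdet n)
    refine ⟨n * g * n⁻¹, c1, ?_, ?_⟩
    · rw [c2, ha]
    · rw [c3, z1, z2, ha]; ring
  | zero =>
    intro g _
    refine ⟨1, one_mem _, ?_, ?_⟩
    · rw [map_one, s56e_one_apply]; simp
    · rw [s56e_cocycle_one hcoc]; simp
  | add c₁ c₂ _ _ ih₁ ih₂ =>
    intro g hg
    obtain ⟨h₁, m₁, b₁, y₁⟩ := ih₁ g hg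
    obtain ⟨h₂, m₂, b₂, y₂⟩ := ih₂ g hg
    refine ⟨h₁ * h₂, mul_mem m₁ m₂, ?_, ?_⟩
    · rw [s56e_Uni_b_mul m₁ m₂, b₁, b₂]; ring
    · rw [s56e_uni_y_add hinj hcoc htr hU m₁ m₂, y₁, y₂]; ring
  | neg c _ ih =>
    intro g hg
    obtain ⟨h, m, b, y⟩ := ih g hg
    have e1 := s56e_Uni_b_mul m (inv_mem m)
    have e2 := s56e_uni_y_add hinj hcoc htr hU m (inv_mem m)
    rw [mul_inv_cancel] at e1 e2
    rw [map_one, s56e_one_apply] at e1
    rw [s56e_cocycle_one hcoc] at e2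
    simp only [Fin.isValue, zero_ne_one, if_false, Matrix.zero_apply] at e1 e2
    refine ⟨h⁻¹, inv_mem m, ?_, ?_⟩
    · linear_combination -e1 - b
    · linear_combination -e2 - y

end char3

/-- The diagonal character of the stabiliser of `∞`. -/
noncomputable def s56e_d0 (ρ : Γ →* GL (Fin 2) k) : ↥(s56e_Bor ρ) →* kˣ :=
  MonoidHom.mk'
    (fun n => Units.mk0 (ρ (n : Γ) 0 0) (s56e_diag_ne _ (s56e_mem_Bor.mp n.2)).1)
    (by
      intro a b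
      apply Units.ext
      simp only [Units.val_mul, Units.val_mk0, Subgroup.coe_mul, map_mul, s56e_mul_apply,
        s56e_mem_Bor.mp b.2, mul_zero, add_zero])

theorem s56e_d0_ker {ρ : Γ →* GL (Fin 2) k} (hdet : ∀ g, (ρ g).val.det = 1) :
    (s56e_d0 ρ).ker = (s56e_Uni ρ).subgroupOf (s56e_Bor ρ) := by
  ext n
  rw [MonoidHom.mem_ker, Subgroup.mem_subgroupOf, s56e_mem_Uni]
  have hn0 := s56e_mem_Bor.mp n.2
  have hsw : ρ (n : Γ) 0 0 * ρ (n : Γ) 1 1 = 1 := by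
    rw [← s56e_det_upper _ hn0]; exact hdet _
  constructor
  · intro h
    have h1 : ρ (n : Γ) 0 0 = 1 := by
      have := congrArg Units.val h
      simpa [s56e_d0] using this
    refine ⟨hn0, h1, ?_⟩
    rw [h1, one_mul] at hsw; exact hsw
  · rintro ⟨_, h1, _⟩
    apply Units.ext
    simpa [s56e_d0] using h1

theorem s56e_p_dvd_card_Bp (p : ℕ) [Fact p.Prime] [CharP k p] {ρ : Γ →* GL (Fin 2) k} [Finite k]
    {b₀ : k} (hb₀ : b₀ ∈ s56e_Bp ρ) (hne : b₀ ≠ 0) : p ∣ Nat.card (s56e_Bp ρ) := by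
  have h1 : addOrderOf (⟨b₀, hb₀⟩ : s56e_Bp ρ) ∣ Nat.card (s56e_Bp ρ) := addOrderOf_dvd_natCard _
  have h2 : addOrderOf (⟨b₀, hb₀⟩ : s56e_Bp ρ) = p := by
    have h3 : addOrderOf (⟨b₀, hb₀⟩ : s56e_Bp ρ) ∣ p := by
      apply addOrderOf_dvd_of_nsmul_eq_zero
      apply Subtype.ext
      simp [nsmul_eq_mul, CharP.cast_eq_zero]
    rcases (Nat.dvd_prime (Fact.out : p.Prime)).mp h3 with h | h
    · rw [AddMonoid.addOrderOf_eq_one_iff] at h
      exact absurd (congrArg Subtype.val h) hne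
    · exact h
  rw [h2] at h1
  exact h1

/-- The index of the unipotent subgroup is prime to the characteristic. -/
theorem s56e_Uni_index (p : ℕ) [Fact p.Prime] [CharP k p] [Fintype Γ] [Fintype k]
    {ρ : Γ →* GL (Fin 2) k} (hdet : ∀ g, (ρ g).val.det = 1)
    {b₀ : k} (hb₀ : b₀ ∈ s56e_Bp ρ) (hne : b₀ ≠ 0) : ((s56e_Uni ρ).index : k) ≠ 0 := by
  have hle : s56e_Uni ρ ≤ s56e_Bor ρ := (s56e_Uni_le_K ρ).trans (s56e_K_le_Bor ρ)
  rw [← Subgroup.relIndex_mul_index hle, Nat.cast_mul]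
  apply mul_ne_zero
  · -- the relative index divides `|k| - 1`
    have h1 : (s56e_Uni ρ).relIndex (s56e_Bor ρ) = Nat.card (s56e_d0 ρ).range := by
      rw [Subgroup.relIndex, ← s56e_d0_ker hdet, Subgroup.index_ker]
    have h2 : Nat.card (s56e_d0 ρ).range ∣ Nat.card kˣ := Subgroup.card_subgroup_dvd_card _
    have h2' : Nat.card kˣ = Fintype.card k - 1 := by
      rw [Nat.card_eq_fintype_card, Fintype.card_units]
    rw [h2'] at h2
    rw [h1]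
    intro h0
    rw [CharP.cast_eq_zero_iff k p] at h0
    have h3 : p ∣ Fintype.card k - 1 := h0.trans h2
    have h4 : ((Fintype.card k - 1 : ℕ) : k) = 0 := (CharP.cast_eq_zero_iff k p _).mpr h3
    rw [s56e_cast_card_sub_one] at h4
    exact one_ne_zero (neg_eq_zero.mp h4)
  · -- the index of `Bor` is `1 + m q`
    have h1 := Subgroup.card_mul_index (s56e_Bor ρ)
    have h2 := s56e_card_orb ρ ∞
    rw [s56e_Orb_ncard, s56e_Aff_ncard] at h2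
    change Nat.card Γ = Nat.card (s56e_Bor ρ) * _ at h2
    rw [h2] at h1
    have h3 := Nat.eq_of_mul_eq_mul_left Nat.card_pos h1
    rw [h3]
    obtain ⟨c, hc⟩ := s56e_p_dvd_card_Bp p hb₀ hne
    rw [hc]
    push_cast
    rw [CharP.cast_eq_zero k p]
    simp

/-- **The characteristic-3 step.** -/
theorem s56e_P3 [Fintype Γ] [Fintype k] [CharP k 3] (ρ : Γ →* GL (Fin 2) k)
    (hdet : ∀ g, (ρ g).val.det = 1) (hinj : Function.Injective ρ)
    (hsplit : ∀ g, ∃ α β : k, (ρ g).val.trace = α + β ∧ (ρ g).val.det = α * β)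
    {g₀ : Γ} (hg₀ : g₀ ∈ s56e_Uni ρ) (hb₀ne : ρ g₀ 0 1 ≠ 0)
    {g₁ : Γ} (hg₁ : ρ g₁ 1 0 ≠ 0)
    (φ : Γ → Matrix (Fin 2) (Fin 2) k) (hcoc : s56e_IsCocycle (s56e_AdRep ρ 1) φ)
    (htr : ∀ g, (φ g).trace = 0) : s56e_IsCob (s56e_AdRep ρ 1) φ := by
  classical
  have : Fact (Nat.Prime 3) := ⟨Nat.prime_three⟩
  have h2 : (2 : k) ≠ 0 := s56e_two_ne_zero3
  have : NeZero (2 : k) := ⟨h2⟩
  set b₀ := ρ g₀ 0 1 with hb₀def
  have hb₀B : b₀ ∈ s56e_Bp ρ := s56e_Uni_b_mem hg₀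
  -- first normalisation: kill the diagonal on the unipotent subgroup
  set d := φ g₀ 0 0 / b₀ with hd
  set X₀ : Matrix (Fin 2) (Fin 2) k := !![0, 0; d, 0] with hX₀
  apply s56e_cob_of_sub_cob X₀
  set φ₁ : Γ → Matrix (Fin 2) (Fin 2) k := fun g => φ g - (s56e_AdRep ρ 1 g X₀ - X₀) with hφ₁
  have hcoc₁ : s56e_IsCocycle (s56e_AdRep ρ 1) φ₁ := s56e_cocycle_sub_cob hcoc X₀
  have htr₁ : ∀ g, (φ₁ g).trace = 0 := by
    intro g
    simp only [hφ₁, s56e_AdRep_apply, s56e_adTw, MonoidHom.one_apply, Units.val_one, one_smul,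
      trace_sub, htr g, trace_units_conj, sub_self]
  have hU : ∀ h ∈ s56e_Uni ρ, φ₁ h 0 0 = 0 := by
    intro h hh
    have e1 := s56e_uni_x hinj hcoc₁ htr₁ hg₀ hh
    have e2 : φ₁ g₀ 0 0 = 0 := by
      simp only [hφ₁, s56e_AdRep_apply, s56e_adTw, MonoidHom.one_apply, Units.val_one, one_smul,
        s56e_conj_upper _ hg₀.1 (s56e_Uni_det hg₀), hX₀, hg₀.2.2]
      simp only [Matrix.sub_apply, Matrix.of_apply, Matrix.cons_val', Matrix.cons_val_zero,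
        Matrix.cons_val_one, Matrix.cons_val_fin_one]
      rw [hd, ← hb₀def]
      field_simp
      ring
    rw [e2, mul_zero] at e1
    exact (mul_eq_zero.mp e1).resolve_left hb₀ne
  -- linearity
  set μ := φ₁ g₀ 0 1 / b₀ with hμ
  have hlin : ∀ g ∈ s56e_Uni ρ, φ₁ g 0 1 = μ * ρ g 0 1 := by
    intro g hg
    obtain ⟨c, hc, hcb⟩ := s56e_Bp_span ρ hsplit hb₀B hb₀ne hg₁ _ (s56e_Uni_b_mem hg)
    obtain ⟨h, hh, hb, hy⟩ := s56e_uni_lin hdet hinj hcoc₁ htr₁ hU hg₀ hb₀ne c hc g₀ hg₀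
    have : h = g := s56e_Uni_ext hinj hh hg (by rw [hb, hcb])
    rw [← this, hy, hb, hμ, ← hb₀def]
    field_simp
  -- second normalisation
  set X₁ : Matrix (Fin 2) (Fin 2) k := !![-(μ / 2), 0; 0, μ / 2] with hX₁
  apply s56e_cob_of_subgroup hcoc₁ (s56e_Uni ρ) (s56e_Uni_index 3 hdet hb₀B hb₀ne) X₁
  intro g hg
  simp only [s56e_AdRep_apply, s56e_adTw, MonoidHom.one_apply, Units.val_one, one_smul,
    s56e_conj_upper _ hg.1 (s56e_Uni_det hg), hX₁, hg.2.1, hg.2.2]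
  ext i j
  fin_cases i <;> fin_cases j
  · simp only [Fin.zero_eta, Fin.isValue, Matrix.sub_apply, Matrix.of_apply, Matrix.cons_val',
      Matrix.cons_val_zero, Matrix.cons_val_fin_one, Matrix.cons_val_one]
    rw [hU g hg]; ring
  · simp only [Fin.zero_eta, Fin.isValue, Fin.mk_one, Matrix.sub_apply, Matrix.of_apply,
      Matrix.cons_val', Matrix.cons_val_zero, Matrix.cons_val_fin_one, Matrix.cons_val_one]
    rw [hlin g hg]; field_simp; ring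
  · simp only [Fin.zero_eta, Fin.isValue, Fin.mk_one, Matrix.sub_apply, Matrix.of_apply,
      Matrix.cons_val', Matrix.cons_val_zero, Matrix.cons_val_fin_one, Matrix.cons_val_one]
    rw [s56e_uni_z hinj hcoc₁ htr₁ hg]; ring
  · simp only [Fin.isValue, Fin.mk_one, Matrix.sub_apply, Matrix.of_apply,
      Matrix.cons_val', Matrix.cons_val_zero, Matrix.cons_val_fin_one, Matrix.cons_val_one]
    rw [s56e_tr_11 htr₁ g, hU g hg]; ring

end Fermat.Agent.Lib.S56
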