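/-
Programme W (S56), wall [W7], finite-group lemma G1 — part (E): assembly.
`s56e_GroupLemma_holds : s56e_GroupLemma`  (`H¹(Γ, ad⁰ρ(1)) = 0`, DDT Lemma 2.48).
-/
import Fermat.Agent.Lib.S56.EGrpP3

set_option autoImplicit false
set_option linter.unusedSectionVars false

namespace Fermat.Agent.Lib.S56

open Matrix OnePoint Matrix.GeneralLinearGroup

variable {k : Type*} [Field k] [DecidableEq k] {Γ : Type*} [Group Γ]

/-- The conjugate of `ρ` by `c`. -/
def s56e_conjRep (c : GL (Fin 2) k) (ρ : Γ →* GL (Fin 2) k) : Γ →* GL (Fin 2) k :=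
  (MulAut.conj c).toMonoidHom.comp ρ

theorem s56e_conjRep_apply (c : GL (Fin 2) k) (ρ : Γ →* GL (Fin 2) k) (g : Γ) :
    s56e_conjRep c ρ g = c * ρ g * c⁻¹ := rfl

theorem s56e_adTw_conj (c M : GL (Fin 2) k) (a : k) (X : Matrix (Fin 2) (Fin 2) k) :
    s56e_adTw (c * M * c⁻¹) a (c.val * X * (c⁻¹).val) =
      c.val * s56e_adTw M a X * (c⁻¹).val := by
  simp only [s56e_adTw, _root_.mul_inv_rev, inv_inv, Units.val_mul, Matrix.mul_smul,
    Matrix.smul_mul, Matrix.mul_assoc, Units.inv_mul_cancel_left]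

theorem s56e_cocycle_conj (c : GL (Fin 2) k) {ρ : Γ →* GL (Fin 2) k} {χ : Γ →* kˣ}
    {φ : Γ → Matrix (Fin 2) (Fin 2) k} (h : s56e_IsCocycle (s56e_AdRep ρ χ) φ) :
    s56e_IsCocycle (s56e_AdRep (s56e_conjRep c ρ) χ) (fun g => c.val * φ g * (c⁻¹).val) := by
  intro g g'
  simp only [s56e_AdRep_apply, s56e_conjRep_apply, s56e_adTw_conj]
  have := h g g'
  rw [s56e_AdRep_apply] at this
  rw [this, Matrix.mul_add, Matrix.add_mul]

theorem s56e_cob_conj (c : GL (Fin 2) k) {ρ : Γ →* GL (Fin 2) k} {χ : Γ →* kˣ}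
    {φ : Γ → Matrix (Fin 2) (Fin 2) k}
    (h : s56e_IsCob (s56e_AdRep (s56e_conjRep c ρ) χ) (fun g => c.val * φ g * (c⁻¹).val)) :
    s56e_IsCob (s56e_AdRep ρ χ) φ := by
  obtain ⟨X', hX'⟩ := h
  refine ⟨(c⁻¹).val * X' * c.val, fun g => ?_⟩
  have h1 := hX' g
  simp only [s56e_AdRep_apply, s56e_conjRep_apply] at h1 ⊢
  have hX : X' = c.val * ((c⁻¹).val * X' * c.val) * (c⁻¹).val := by
    simp only [Matrix.mul_assoc, Units.mul_inv, Matrix.mul_one, Units.mul_inv_cancel_left]
  rw [hX, s56e_adTw_conj, ← Matrix.sub_mul, ← Matrix.mul_sub] at h1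
  have h2 := congrArg (fun Y => (c⁻¹).val * Y * c.val) h1
  simp only [Matrix.mul_assoc, Units.inv_mul, Matrix.mul_one, Units.inv_mul_cancel_left] at h2
  rw [h2]
  simp only [Matrix.mul_assoc]

/-- `ρ(S)` fixes no point of `ℙ¹(k)`. -/
def s56e_NoFix (ρ : Γ →* GL (Fin 2) k) (S : Subgroup Γ) : Prop :=
  ∀ x : OnePoint k, ∃ g ∈ S, ρ g • x ≠ x

theorem s56e_noFix_of_absIrr {ρ : Γ →* GL (Fin 2) k} {S : Subgroup Γ} (h : s56e_AbsIrr ρ S) :
    s56e_NoFix ρ S := by
  intro x
  cases x with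
  | infty =>
    obtain ⟨g, hg, hne⟩ := h ![1, 0] (by
      intro h0
      have := congrFun h0 0
      simp at this)
    refine ⟨g, hg, fun hfix => ?_⟩
    rw [smul_infty_eq_self_iff] at hfix
    apply hne (algebraMap k (AlgebraicClosure k) (ρ g 0 0))
    ext i
    fin_cases i <;> simp [Matrix.mulVec, dotProduct, Fin.sum_univ_two, hfix]
  | coe z =>
    obtain ⟨g, hg, hne⟩ := h ![algebraMap k (AlgebraicClosure k) z, 1] (by
      intro h0
      have := congrFun h0 1
      simp at this)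
    refine ⟨g, hg, fun hfix => ?_⟩
    rw [smul_some_eq_ite] at hfix
    split_ifs at hfix with hden
    · exact infty_ne_coe _ hfix
    · rw [coe_eq_coe, div_eq_iff hden] at hfix
      apply hne (algebraMap k (AlgebraicClosure k) (ρ g 1 0 * z + ρ g 1 1))
      ext i
      fin_cases i
      · simp only [Matrix.mulVec, dotProduct, Fin.sum_univ_two, Matrix.map_apply, Fin.zero_eta,
          Fin.isValue, Matrix.cons_val_zero, Matrix.cons_val_one, mul_one, Pi.smul_apply,
          smul_eq_mul, Matrix.cons_val_fin_one]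
        rw [← map_mul, ← map_mul, ← map_add, hfix, mul_comm]
      · simp only [Matrix.mulVec, dotProduct, Fin.sum_univ_two, Matrix.map_apply, Fin.mk_one,
          Fin.isValue, Matrix.cons_val_zero, Matrix.cons_val_one, mul_one, Pi.smul_apply,
          smul_eq_mul, Matrix.cons_val_fin_one]
        rw [← map_mul, ← map_add]

theorem s56e_noFix_conj (c : GL (Fin 2) k) {ρ : Γ →* GL (Fin 2) k} {S : Subgroup Γ}
    (h : s56e_NoFix ρ S) : s56e_NoFix (s56e_conjRep c ρ) S := by
  intro x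
  obtain ⟨g, hg, hne⟩ := h (c⁻¹ • x)
  refine ⟨g, hg, fun hfix => hne ?_⟩
  rw [s56e_conjRep_apply, mul_smul, mul_smul] at hfix
  have := congrArg (fun y => c⁻¹ • y) hfix
  simpa using this

/-- `GL₂(k)` moves any point of `ℙ¹(k)` to `∞`. -/
theorem s56e_exists_to_infty (x : OnePoint k) : ∃ c : GL (Fin 2) k, c • x = ∞ := by
  cases x with
  | infty => exact ⟨1, one_smul _ _⟩
  | coe z =>
    refine ⟨⟨!![0, 1; 1, -z], !![z, 1; 1, 0], ?_, ?_⟩, ?_⟩
    · ext i j
      fin_cases i <;> fin_cases j <;> simp [Matrix.mul_apply, Fin.sum_univ_two]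
    · ext i j
      fin_cases i <;> fin_cases j <;> simp [Matrix.mul_apply, Fin.sum_univ_two]
    · rw [smul_some_eq_ite]
      simp

/-- The mod-`p` cyclotomic character with values in `kˣ`. -/
def s56e_chiK (p : ℕ) [Fact p.Prime] (k : Type*) [Field k] [CharP k p] (χ : Γ →* (ZMod p)ˣ) :
    Γ →* kˣ :=
  (Units.map ((ZMod.castHom (dvd_refl p) k : ZMod p →+* k) : ZMod p →* k)).comp χ

theorem s56e_chiK_apply (p : ℕ) [Fact p.Prime] [CharP k p] (χ : Γ →* (ZMod p)ˣ) (g : Γ) :
    ((s56e_chiK p k χ g : kˣ) : k) = ZMod.castHom (dvd_refl p) k (χ g : ZMod p) := rfl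

/-- The normalised case: `ρ(g₀) = (1, b₀; 0, 1)` with `b₀ ≠ 0`, and all scalars in `ρ(Γ)` have
square one. -/
theorem s56e_norm_case (p : ℕ) [Fact p.Prime] (hp2 : p ≠ 2) [Fintype k] [CharP k p] [Fintype Γ]
    (ρ : Γ →* GL (Fin 2) k) (χ : Γ →* (ZMod p)ˣ)
    (hdet : ∀ g, (ρ g).val.det = ZMod.castHom (dvd_refl p) k (χ g : ZMod p))
    (hχ : Function.Surjective χ) (hinj : Function.Injective ρ)
    (hsplit : ∀ g, ∃ α β : k, (ρ g).val.trace = α + β ∧ (ρ g).val.det = α * β)
    (hfix : s56e_NoFix ρ ⊤) (hfix2 : ∀ S : Subgroup Γ, S.index = 2 → s56e_NoFix ρ S)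
    (hZ : ∀ g, s56e_IsScal (ρ g) → (ρ g 0 0) ^ 2 = 1)
    {g₀ : Γ} (hg₀ : g₀ ∈ s56e_Uni ρ) (hb₀ : ρ g₀ 0 1 ≠ 0)
    (φ : Γ → Matrix (Fin 2) (Fin 2) k)
    (hcoc : s56e_IsCocycle (s56e_AdRep ρ (s56e_chiK p k χ)) φ) (htr : ∀ g, (φ g).trace = 0) :
    s56e_IsCob (s56e_AdRep ρ (s56e_chiK p k χ)) φ := by
  classical
  have hp : p.Prime := Fact.out
  have hp3 : 3 ≤ p := by
    have := hp.two_le
    omega
  obtain ⟨g₁, -, hg₁⟩ := hfix ∞
  rw [Ne, smul_infty_eq_self_iff] at hg₁
  by_cases hp5 : 5 ≤ p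
  · -- `p ≥ 5`: contradiction
    exfalso
    have hcop : Nat.Coprime 2 p := (Nat.coprime_primes Nat.prime_two hp).mpr (Ne.symm hp2)
    obtain ⟨t₀, ht₀⟩ := hχ (ZMod.unitOfCoprime 2 hcop)
    have hdt : (ρ t₀).val.det = 2 := by
      rw [hdet, ht₀, ZMod.coe_unitOfCoprime, map_natCast]; norm_num
    have h3 : (3 : k) ≠ 0 := by
      intro h
      have : ((3 : ℕ) : k) = 0 := by exact_mod_cast h
      rw [CharP.cast_eq_zero_iff k p] at this
      have := Nat.le_of_dvd (by norm_num) this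
      omega
    have hne : (ρ t₀).val.det ^ 2 ≠ 1 := by
      rw [hdt]
      intro h
      apply h3
      linear_combination h
    obtain ⟨g, hg1, hg2⟩ := s56e_P5 p hp5 ρ hsplit hb₀ hg₀.1 hg₀.2.1 hg₀.2.2 rfl hg₁ hne
    exact hg2 (hZ g hg1)
  · -- `p = 3`
    have hp3' : p = 3 := by
      have : p ≠ 4 := by
        rintro rfl
        exact absurd hp (by decide)
      omega
    subst hp3'
    have h2 : (2 : k) ≠ 0 := s56e_two_ne_zero3
    set S : Subgroup Γ := χ.ker with hS
    have hidx : S.index = 2 := by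
      rw [hS, Subgroup.index_ker, MonoidHom.range_eq_top.mpr hχ, Subgroup.card_top,
        Nat.card_eq_fintype_card, ZMod.card_units_eq_totient]
      decide
    obtain ⟨g₁', hg₁'S, hg₁'⟩ := hfix2 S hidx ∞
    rw [Ne, smul_infty_eq_self_iff] at hg₁'
    have hcast1 : ∀ g ∈ S, ZMod.castHom (dvd_refl 3) k (χ g : ZMod 3) = 1 := by
      intro g hg
      rw [hS, MonoidHom.mem_ker] at hg
      rw [hg, Units.val_one, map_one]
    have hg₀S : g₀ ∈ S := by
      rw [hS, MonoidHom.mem_ker]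
      have h1 : (ρ g₀).val.det = 1 := s56e_Uni_det hg₀
      rw [hdet] at h1
      apply Units.ext
      rw [Units.val_one]
      apply (ZMod.castHom (dvd_refl 3) k).injective
      rw [h1, map_one]
    -- restrict to `S`
    set ρ' : ↥S →* GL (Fin 2) k := ρ.comp S.subtype with hρ'
    have hdet' : ∀ g : ↥S, (ρ' g).val.det = 1 := by
      intro g
      rw [hρ', MonoidHom.comp_apply, Subgroup.coe_subtype, hdet, hcast1 g g.2]
    have hinj' : Function.Injective ρ' := by
      intro a b hab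
      exact Subtype.ext (hinj hab)
    have hcoc' : s56e_IsCocycle (s56e_AdRep ρ' 1) (fun g : ↥S => φ g) := by
      intro a b
      have := hcoc a b
      rw [s56e_AdRep_apply, s56e_chiK_apply, hcast1 a a.2] at this
      rw [s56e_AdRep_apply, MonoidHom.one_apply, Units.val_one]
      exact this
    obtain ⟨X, hX⟩ := s56e_P3 ρ' hdet' hinj' (fun g => hsplit g)
      (g₀ := ⟨g₀, hg₀S⟩) hg₀ hb₀ (g₁ := ⟨g₁', hg₁'S⟩) hg₁' (fun g : ↥S => φ g) hcoc'
      (fun g => htr g)
    apply s56e_cob_of_subgroup hcoc S (by rw [hidx]; exact_mod_cast h2) X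
    intro x hx
    have := hX ⟨x, hx⟩
    rw [s56e_AdRep_apply, MonoidHom.one_apply, Units.val_one] at this
    rw [s56e_AdRep_apply, s56e_chiK_apply, hcast1 x hx]
    exact this

/-- An element of `p`-power order in characteristic `p` has trace `2` and determinant `1`. -/
theorem s56e_unipotent_of_pow (p : ℕ) [Fact p.Prime] [CharP k p] (M : GL (Fin 2) k)
    (h : M ^ p = 1) : M.val.trace = 2 ∧ M.val.det = 1 := by
  have hMp : M.val ^ p = 1 := by
    rw [← Units.val_pow_eq_pow_val, h, Units.val_one]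
  set N : Matrix (Fin 2) (Fin 2) k := M.val - 1 with hN
  have hNp : N ^ p = 0 := by
    rw [hN, sub_pow_char_of_commute (p := p) (Commute.one_right _), hMp, one_pow, sub_self]
  have hp0 : p ≠ 0 := (Fact.out : p.Prime).ne_zero
  have htr : N.trace = 0 := (Matrix.isNilpotent_trace_of_isNilpotent ⟨p, hNp⟩).eq_zero
  have hdet : N.det = 0 := by
    have : N.det ^ p = 0 := by rw [← det_pow, hNp, det_zero]
    exact pow_eq_zero_iff hp0 |>.mp this
  have hM : M.val = 1 + N := by rw [hN]; abel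
  rw [trace_fin_two] at htr
  rw [det_fin_two] at hdet
  constructor
  · rw [hM, trace_fin_two]
    simp only [Matrix.add_apply, Matrix.one_apply_eq]
    linear_combination htr
  · rw [hM, det_fin_two]
    simp only [Matrix.add_apply, Matrix.one_apply_eq, Matrix.one_apply_ne (show (0 : Fin 2) ≠ 1 by decide),
      Matrix.one_apply_ne (show (1 : Fin 2) ≠ 0 by decide), zero_add]
    linear_combination htr + hdet

/-- A non-trivial element of trace `2` and determinant `1` is conjugate to `(1, b; 0, 1)`,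
`b ≠ 0`. -/
theorem s56e_normalize [NeZero (2 : k)] (M : GL (Fin 2) k) (hM1 : M ≠ 1) (htr : M.val.trace = 2)
    (hdet : M.val.det = 1) :
    ∃ c : GL (Fin 2) k, (c * M * c⁻¹) 1 0 = 0 ∧ (c * M * c⁻¹) 0 0 = 1 ∧ (c * M * c⁻¹) 1 1 = 1 ∧
      (c * M * c⁻¹) 0 1 ≠ 0 := by
  have h2 : (2 : k) ≠ 0 := NeZero.ne 2
  have hns : ¬ s56e_IsScal M := by
    rintro ⟨h01, h10, h00⟩
    apply hM1
    rw [trace_fin_two, h00] at htr
    have h11 : M 1 1 = 1 := by
      have : 2 * (M 1 1 - 1) = 0 := by linear_combination htr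
      exact sub_eq_zero.mp ((mul_eq_zero.mp this).resolve_left h2)
    apply s56e_gl_ext
    · rw [h00, h11]; simp
    · rw [h01]; simp
    · rw [h10]; simp
    · rw [h11]; simp
  have hpar : M.IsParabolic :=
    s56e_isParabolic_of_double M 1 hns (by rw [htr]; norm_num) (by rw [hdet]; norm_num)
  obtain ⟨x₀, hx₀⟩ := s56e_fix_one M hpar
  obtain ⟨c, hc⟩ := s56e_exists_to_infty x₀
  refine ⟨c, ?_⟩
  set M' := c * M * c⁻¹ with hM'
  have h10 : M' 1 0 = 0 := by
    rw [← smul_infty_eq_self_iff, hM', mul_smul, mul_smul, ← hc, inv_smul_smul,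
      (hx₀ x₀).mpr rfl]
  have htr' : M'.val.trace = 2 := by
    rw [hM', Units.val_mul, Units.val_mul, trace_units_conj, htr]
  have hdet' : M'.val.det = 1 := by rw [hM', s56e_det_conj, hdet]
  rw [trace_fin_two] at htr'
  rw [s56e_det_upper _ h10] at hdet'
  have h00 : M' 0 0 = 1 := by
    have : (M' 0 0 - 1) ^ 2 = 0 := by linear_combination (M' 0 0) * htr' - hdet'
    exact sub_eq_zero.mp (pow_eq_zero_iff two_ne_zero |>.mp this)
  have h11 : M' 1 1 = 1 := by rw [h00] at htr'; linear_combination htr'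
  refine ⟨h10, h00, h11, fun h01 => hM1 ?_⟩
  have hM'1 : M' = 1 := by
    apply s56e_gl_ext
    · rw [h00]; simp
    · rw [h01]; simp
    · rw [h10]; simp
    · rw [h11]; simp
  rw [hM'] at hM'1
  have : M = c⁻¹ * (c * M * c⁻¹) * c := by group
  rw [this, hM'1]; group

theorem s56e_adTw_smul_one (M : GL (Fin 2) k) (c a : k) :
    s56e_adTw M c (a • (1 : Matrix (Fin 2) (Fin 2) k)) = (c * a) • 1 := by
  simp only [s56e_adTw, Matrix.mul_smul, Matrix.smul_mul, Matrix.mul_one, Units.mul_inv, smul_smul]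

theorem s56e_adTw_sub (M : GL (Fin 2) k) (c : k) (X Y : Matrix (Fin 2) (Fin 2) k) :
    s56e_adTw M c (X - Y) = s56e_adTw M c X - s56e_adTw M c Y := by
  simp only [s56e_adTw, Matrix.mul_sub, Matrix.sub_mul, smul_sub]

theorem s56e_adTw_trace (M : GL (Fin 2) k) (c : k) (X : Matrix (Fin 2) (Fin 2) k) :
    (s56e_adTw M c X).trace = c * X.trace := by
  rw [s56e_adTw, trace_smul, trace_units_conj, smul_eq_mul]

/-- **[W7-G1]** `H¹(Γ, ad⁰ρ(1)) = 0`. -/
theorem s56e_GroupLemma_holds : s56e_GroupLemma := by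
  intro p _ hp2 k _ _ _ Γ _ _ ρ χ hdet hχ hinj hsplit hirr hirr2 φ htr hcoc
  classical
  have : Fintype k := Fintype.ofFinite k
  have : Fintype Γ := Fintype.ofFinite Γ
  have hp : p.Prime := Fact.out
  have h2 : (2 : k) ≠ 0 := by
    intro h
    have : ((2 : ℕ) : k) = 0 := by exact_mod_cast h
    rw [CharP.cast_eq_zero_iff k p] at this
    exact hp2 ((Nat.prime_dvd_prime_iff_eq hp Nat.prime_two).mp this)
  have : NeZero (2 : k) := ⟨h2⟩
  have hcoc' : s56e_IsCocycle (s56e_AdRep ρ (s56e_chiK p k χ)) φ := fun g h => hcoc g h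
  suffices hcob : s56e_IsCob (s56e_AdRep ρ (s56e_chiK p k χ)) φ by
    obtain ⟨X, hX⟩ := hcob
    refine ⟨X - (X.trace / 2) • 1, ?_, fun g => ?_⟩
    · rw [trace_sub, trace_smul, trace_one, Fintype.card_fin, smul_eq_mul]
      push_cast
      field_simp
      ring
    · have h1 := hX g
      rw [s56e_AdRep_apply, s56e_chiK_apply] at h1
      have h3 : (ZMod.castHom (dvd_refl p) k (χ g : ZMod p) - 1) * X.trace = 0 := by
        have := congrArg Matrix.trace h1
        rw [htr g, trace_sub, s56e_adTw_trace] at this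
        linear_combination -this
      rw [s56e_adTw_sub, s56e_adTw_smul_one, h1]
      have h4 : (ZMod.castHom (dvd_refl p) k (χ g : ZMod p) * (X.trace / 2)) •
          (1 : Matrix (Fin 2) (Fin 2) k) = (X.trace / 2) • 1 := by
        congr 1
        field_simp
        linear_combination h3
      rw [h4]
      abel
  by_cases h1 : ∃ g, s56e_IsScal (ρ g) ∧ (ρ g 0 0) ^ 2 ≠ 1
  · -- a central element acting by a non-trivial scalar
    obtain ⟨z, hs, hne⟩ := h1
    have hval : (ρ z).val = (ρ z 0 0) • (1 : Matrix (Fin 2) (Fin 2) k) := by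
      obtain ⟨h01, h10, h00⟩ := hs
      ext i j
      fin_cases i <;> fin_cases j <;> simp [h01, h10, h00]
    apply s56e_cob_of_central hcoc' z _ ((ρ z 0 0) ^ 2) hne
    · intro X
      rw [s56e_AdRep_apply, s56e_chiK_apply, ← hdet, s56e_adTw]
      have hcomm : (ρ z).val * X = X * (ρ z).val := by
        rw [hval, Matrix.smul_mul, Matrix.mul_smul, Matrix.one_mul, Matrix.mul_one]
      have hdetz : (ρ z).val.det = (ρ z 0 0) ^ 2 := by
        rw [det_fin_two, hs.1, hs.2.1, ← hs.2.2]; ring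
      rw [hcomm, Matrix.mul_assoc, Units.mul_inv, Matrix.mul_one, hdetz]
    · intro g
      apply hinj
      rw [map_mul, map_mul]
      have := (s56e_mem_Zs (ρ := ρ)).mpr hs
      exact (Subgroup.mem_center_iff.mp this (ρ g)).symm
  · push Not at h1
    by_cases hdvd : p ∣ Fintype.card Γ
    · -- the main case
      obtain ⟨g₀, hg₀⟩ := exists_prime_orderOf_dvd_card p hdvd
      have hg₀1 : g₀ ≠ 1 := by
        intro h
        rw [h, orderOf_one] at hg₀
        exact hp.one_lt.ne hg₀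
      have hMp : ρ g₀ ^ p = 1 := by rw [← map_pow, ← hg₀, pow_orderOf_eq_one, map_one]
      have hM1 : ρ g₀ ≠ 1 := fun h => hg₀1 (hinj (h.trans (map_one ρ).symm))
      obtain ⟨ht, hd⟩ := s56e_unipotent_of_pow p (ρ g₀) hMp
      obtain ⟨c, c10, c00, c11, c01⟩ := s56e_normalize (ρ g₀) hM1 ht hd
      apply s56e_cob_conj c
      apply s56e_norm_case p hp2 (s56e_conjRep c ρ) χ _ hχ _ _ _ _ _ (g₀ := g₀)
        ⟨c10, c00, c11⟩ c01 _ (s56e_cocycle_conj c hcoc')
      · intro g
        rw [trace_units_conj, htr g]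
      · intro g
        rw [s56e_conjRep_apply, s56e_det_conj, hdet]
      · intro a b hab
        apply hinj
        rw [s56e_conjRep_apply, s56e_conjRep_apply] at hab
        exact mul_left_cancel (mul_right_cancel hab)
      · intro g
        obtain ⟨α, β, h1, h2⟩ := hsplit g
        refine ⟨α, β, ?_, ?_⟩
        · rw [s56e_conjRep_apply, Units.val_mul, Units.val_mul, trace_units_conj, h1]
        · rw [s56e_conjRep_apply, s56e_det_conj, h2]
      · exact s56e_noFix_conj c (s56e_noFix_of_absIrr hirr)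
      · intro S hS
        exact s56e_noFix_conj c (s56e_noFix_of_absIrr (hirr2 S hS))
      · intro g hs
        rw [s56e_conjRep_apply] at hs ⊢
        have hs' := (s56e_isScal_conj c (ρ g)).mp hs
        have hcen := (s56e_mem_Zs (ρ := ρ)).mpr hs'
        have hcomm : c * ρ g * c⁻¹ = ρ g := by
          rw [(Subgroup.mem_center_iff.mp hcen c), mul_inv_cancel_right]
        rw [hcomm]
        exact h1 g hs'
    · exact s56e_cob_of_card hcoc' (by rwa [Ne, CharP.cast_eq_zero_iff k p])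

end Fermat.Agent.Lib.S56
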