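/-
PROGRAMME W (S56), wall [W8-F3] §A "pure algebra" (helper8 for helper3, prefix `s56f_`):
`s56f_ifaceHit`, `s56f_ifaceArith1/2/3`, `s56f_ifaceCount`.
-/
import Mathlib
import Fermat.Agent.Lib.S56.IfaceF3

set_option autoImplicit false

noncomputable section

namespace Fermat.Agent.Lib.S56

open Polynomial Module

/-! ### (Hit) -/

/-- an additive map between `𝔽_p`-algebras which is `e ↦ cτ`-semilinear is semilinear for all
polynomials over `𝔽_p`. -/
lemma s56f_alg_semilinear (p : ℕ) [Fact p.Prime] {k κ : Type*} [Field k] [Algebra (ZMod p) k]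
    [Field κ] [Algebra (ZMod p) κ] (e : k) (cτ : κ) (A : k →+ κ)
    (hA : ∀ x, A (e * x) = cτ * A x) (Q : Polynomial (ZMod p)) (x : k) :
    A (aeval e Q * x) = aeval cτ Q * A x := by
  have hpow : ∀ (n : ℕ) (x : k), A (e ^ n * x) = cτ ^ n * A x := by
    intro n
    induction n with
    | zero => intro x; simp
    | succ n ih => intro x; rw [pow_succ, mul_assoc, ih, hA, pow_succ, mul_assoc]
  induction Q using Polynomial.induction_on' with
  | add P Q hP hQ => rw [map_add, add_mul, map_add, hP, hQ, map_add, add_mul]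
  | monomial n a =>
    rw [aeval_monomial, aeval_monomial, ← Algebra.smul_def, ← Algebra.smul_def, smul_mul_assoc,
      ZMod.map_smul, hpow, smul_mul_assoc]

theorem s56f_ifaceHit : s56f_IfaceHit := by
  intro p _ k κ _ _ _ _ e cτ A hA hA0 Q hQ
  obtain ⟨x, hx⟩ : ∃ x, A x ≠ 0 := by
    by_contra hcon
    apply hA0
    ext x
    by_contra hx
    exact hcon ⟨x, hx⟩
  have h := s56f_alg_semilinear p e cτ A hA Q x
  rw [hQ, zero_mul, map_zero] at h
  rcases mul_eq_zero.mp h.symm with h1 | h1
  · exact h1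
  · exact absurd h1 hx

/-! ### (Arith) -/

lemma s56f_alg_ne_zero {κ : Type*} [Field κ] {t : κ} {n : ℕ} (hn : 0 < n) (ht : orderOf t = n) :
    t ≠ 0 := by
  rintro rfl
  have h1 : (0 : κ) ^ n = 1 := by rw [← ht]; exact pow_orderOf_eq_one _
  rw [zero_pow hn.ne'] at h1
  exact zero_ne_one h1

theorem s56f_ifaceArith1 : s56f_IfaceArith1 := by
  intro p hp κ _ _ t ht j hj1 hj2 hpow
  have hp2 : 2 ≤ p := hp.out.two_le
  obtain ⟨s, rfl⟩ : ∃ s, p = s + 2 := ⟨p - 2, by omega⟩
  have h2 : (s + 2) ^ 2 - 1 = (s + 1) * (s + 3) := by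
    have : (s + 2) ^ 2 = (s + 1) * (s + 3) + 1 := by ring
    omega
  rw [h2] at ht hj1 ⊢
  have ht0 : t ≠ 0 := s56f_alg_ne_zero (by positivity) ht
  rw [← pow_mul] at hpow
  have h0 : j * (s + 2) = (s + 1) * j + j := by ring
  rw [h0, pow_add] at hpow
  have h1 : t ^ ((s + 1) * j) = 1 :=
    mul_right_cancel₀ (pow_ne_zero j ht0) (by rw [hpow, one_mul])
  have h3 : (s + 1) * (s + 3) ∣ (s + 1) * j := by
    rw [← ht]; exact orderOf_dvd_of_pow_eq_one h1
  have h5 : (s + 3) ∣ j := Nat.dvd_of_mul_dvd_mul_left (by omega) h3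
  obtain ⟨q, rfl⟩ := h5
  have h6 : s + 1 ≤ q := by
    by_contra hcon
    have : q ≤ s := by omega
    nlinarith
  have h7 : q < s + 2 := by
    by_contra hcon
    have : s + 2 ≤ q := by omega
    nlinarith
  have : q = s + 1 := by omega
  subst this
  ring

theorem s56f_ifaceArith2 : s56f_IfaceArith2 := by
  intro p hp κ _ _ t ht hp5 j hj1 hj2 hpow
  obtain ⟨s, rfl⟩ : ∃ s, p = s + 5 := ⟨p - 5, by omega⟩
  have h2 : (s + 5) ^ 2 - 1 = (s + 6) * (s + 4) := by
    have : (s + 5) ^ 2 = (s + 6) * (s + 4) + 1 := by ring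
    omega
  rw [h2] at ht hj1
  have ht0 : t ≠ 0 := s56f_alg_ne_zero (by positivity) ht
  have hj2' : 2 ≤ j := by nlinarith
  obtain ⟨i, rfl⟩ : ∃ i, j = i + 2 := ⟨j - 2, by omega⟩
  rw [← pow_mul] at hpow
  have h0 : (i + 2) * (s + 5 + 1) = (s + 6) * i + 2 * (s + 5 + 1) := by ring
  rw [h0, pow_add] at hpow
  have h1 : t ^ ((s + 6) * i) = 1 :=
    mul_right_cancel₀ (pow_ne_zero (2 * (s + 5 + 1)) ht0) (by rw [hpow, one_mul])
  have h3 : (s + 6) * (s + 4) ∣ (s + 6) * i := by
    rw [← ht]; exact orderOf_dvd_of_pow_eq_one h1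
  have h5 : (s + 4) ∣ i := Nat.dvd_of_mul_dvd_mul_left (by omega) h3
  obtain ⟨q, rfl⟩ := h5
  have h6 : s + 6 ≤ q := by
    by_contra hcon
    have : q ≤ s + 5 := by omega
    nlinarith
  have h7 : q < s + 7 := by
    by_contra hcon
    have : s + 7 ≤ q := by omega
    nlinarith
  have : q = s + 6 := by omega
  subst this
  ring

theorem s56f_ifaceArith3 : s56f_IfaceArith3 := by
  intro p hp κ _ _ t ht hp5 hcon
  obtain ⟨s, rfl⟩ : ∃ s, p = s + 5 := ⟨p - 5, by omega⟩
  rw [← pow_mul] at hcon
  have h1 : orderOf t ∣ (s + 5 + 1) * 2 := orderOf_dvd_of_pow_eq_one hcon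
  rw [ht] at h1
  have h2 : (s + 5) ^ 2 - 1 = (s + 6) * (s + 4) := by
    have : (s + 5) ^ 2 = (s + 6) * (s + 4) + 1 := by ring
    omega
  rw [h2] at h1
  have h3 : (s + 4) ∣ 2 := Nat.dvd_of_mul_dvd_mul_left (by omega : 0 < s + 6) h1
  have := Nat.le_of_dvd (by norm_num) h3
  omega

/-! ### (Count) -/

section Count

variable (p : ℕ) [Fact p.Prime] {k κ : Type} [Field k] [Field κ] [CharP κ p]

/-- the fixed field of the `p^f`-power Frobenius -/
def s56f_alg_fixField (κ : Type) [Field κ] [CharP κ p] (f : ℕ) : Subfield κ :=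
  RingHom.eqLocusField (iterateFrobenius κ p f) (RingHom.id κ)

lemma s56f_alg_mem_fixField {f : ℕ} {c : κ} : c ∈ s56f_alg_fixField p κ f ↔ c ^ p ^ f = c := by
  show iterateFrobenius κ p f c = RingHom.id κ c ↔ _
  rw [iterateFrobenius_def, RingHom.id_apply]

lemma s56f_alg_fixField_card (f : ℕ) (hf : 0 < f) :
    Finite ↥(s56f_alg_fixField p κ f) ∧ Nat.card ↥(s56f_alg_fixField p κ f) ≤ p ^ f := by
  classical
  have hp1 : 1 < p := (Fact.out : p.Prime).one_lt
  set P : κ[X] := X ^ p ^ f - X with hP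
  have hP0 : P ≠ 0 := FiniteField.X_pow_card_pow_sub_X_ne_zero κ hf.ne' hp1
  have hdeg : P.natDegree = p ^ f := FiniteField.X_pow_card_pow_sub_X_natDegree_eq κ hf.ne' hp1
  have hsub : ∀ x : ↥(s56f_alg_fixField p κ f), (x : κ) ∈ P.roots.toFinset := by
    intro x
    rw [Multiset.mem_toFinset, mem_roots hP0, IsRoot.def, hP, eval_sub, eval_pow, eval_X,
      sub_eq_zero]
    exact (s56f_alg_mem_fixField p).mp x.2
  let g : ↥(s56f_alg_fixField p κ f) → ↥P.roots.toFinset := fun x => ⟨x, hsub x⟩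
  have hg : Function.Injective g := by
    intro x y h
    apply Subtype.ext
    exact congrArg (fun z : ↥P.roots.toFinset => (z : κ)) h
  have : Finite ↥(s56f_alg_fixField p κ f) := Finite.of_injective g hg
  refine ⟨inferInstance, ?_⟩
  calc Nat.card ↥(s56f_alg_fixField p κ f) ≤ Nat.card ↥P.roots.toFinset :=
        Nat.card_le_card_of_injective g hg
    _ = P.roots.toFinset.card := by rw [Nat.card_eq_fintype_card, Fintype.card_coe]
    _ ≤ Multiset.card P.roots := Multiset.toFinset_card_le _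
    _ ≤ P.natDegree := card_roots' P
    _ = p ^ f := hdeg

variable (e u : k) (cτ cφ : κ) (f : ℕ)

/-- additive `e ↦ cτ`-semilinear functions -/
def s56f_alg_W : Submodule κ (k → κ) where
  carrier := {g | (∀ x y, g (x + y) = g x + g y) ∧ ∀ x, g (e * x) = cτ * g x}
  add_mem' := by
    rintro g h ⟨hg1, hg2⟩ ⟨hh1, hh2⟩
    refine ⟨fun x y => ?_, fun x => ?_⟩
    · simp only [Pi.add_apply, hg1, hh1]; ring
    · simp only [Pi.add_apply, hg2, hh2]; ring
  zero_mem' := ⟨fun x y => by simp, fun x => by simp⟩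
  smul_mem' := by
    rintro c g ⟨hg1, hg2⟩
    refine ⟨fun x y => ?_, fun x => ?_⟩
    · simp only [Pi.smul_apply, smul_eq_mul, hg1]; ring
    · simp only [Pi.smul_apply, smul_eq_mul, hg2]; ring

/-- the solutions of both functional equations: a vector space over the fixed field of the
`p^f`-Frobenius -/
def s56f_alg_S : Submodule ↥(s56f_alg_fixField p κ f) (k → κ) where
  carrier := {g | (∀ x y, g (x + y) = g x + g y) ∧ (∀ x, g (e * x) = cτ * g x) ∧
    ∀ x, g (u * x) = cφ * g x ^ p ^ f}
  add_mem' := by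
    rintro g h ⟨hg1, hg2, hg3⟩ ⟨hh1, hh2, hh3⟩
    refine ⟨fun x y => ?_, fun x => ?_, fun x => ?_⟩
    · simp only [Pi.add_apply, hg1, hh1]; ring
    · simp only [Pi.add_apply, hg2, hh2]; ring
    · simp only [Pi.add_apply, hg3, hh3, add_pow_char_pow]; ring
  zero_mem' := by
    refine ⟨fun x y => by simp, fun x => by simp, fun x => ?_⟩
    simp only [Pi.zero_apply]
    rw [zero_pow (pow_pos (Fact.out : p.Prime).pos f).ne', mul_zero]
  smul_mem' := by
    rintro c g ⟨hg1, hg2, hg3⟩
    have hc : (c : κ) ^ p ^ f = c := (s56f_alg_mem_fixField p).mp c.2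
    refine ⟨fun x y => ?_, fun x => ?_, fun x => ?_⟩
    · simp only [Pi.smul_apply, Subfield.smul_def, smul_eq_mul, hg1]; ring
    · simp only [Pi.smul_apply, Subfield.smul_def, smul_eq_mul, hg2]; ring
    · simp only [Pi.smul_apply, Subfield.smul_def, smul_eq_mul, hg3, mul_pow, hc]; ring

variable {p e u cτ cφ f}

lemma s56f_alg_S_add (g : ↥(s56f_alg_S p e u cτ cφ f)) (x y : k) :
    (g : k → κ) (x + y) = (g : k → κ) x + (g : k → κ) y := g.2.1 x y

lemma s56f_alg_S_e (g : ↥(s56f_alg_S p e u cτ cφ f)) (x : k) :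
    (g : k → κ) (e * x) = cτ * (g : k → κ) x := g.2.2.1 x

lemma s56f_alg_S_u (g : ↥(s56f_alg_S p e u cτ cφ f)) (x : k) :
    (g : k → κ) (u * x) = cφ * (g : k → κ) x ^ p ^ f := g.2.2.2 x

/-- **Descent of linear independence**: solutions which are independent over the fixed field of
Frobenius are independent over `κ`. -/
lemma s56f_alg_IL (hu : u ≠ 0) {ι : Type*} (v : ι → ↥(s56f_alg_S p e u cτ cφ f))
    (hv : LinearIndependent ↥(s56f_alg_fixField p κ f) v) :
    LinearIndependent κ (fun i => ((v i : k → κ))) := by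
  classical
  rw [linearIndependent_iff']
  intro s
  induction s using Finset.induction_on with
  | empty => intro g _ i hi; exact absurd hi (Finset.notMem_empty i)
  | insert a s has ih =>
    intro g hg i hi
    by_cases hga : g a = 0
    · rw [Finset.sum_insert has, hga, zero_smul, zero_add] at hg
      rcases Finset.mem_insert.mp hi with rfl | his
      · exact hga
      · exact ih g hg i his
    · exfalso
      set g' : ι → κ := fun i => g i / g a with hg'
      have hrel : ∀ x, (v a : k → κ) x + ∑ i ∈ s, g' i * (v i : k → κ) x = 0 := by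
        intro x
        have h1 := congrFun hg x
        rw [Finset.sum_insert has] at h1
        simp only [Pi.add_apply, Pi.smul_apply, smul_eq_mul, Finset.sum_apply,
          Pi.zero_apply] at h1
        have h2 : g a * ((v a : k → κ) x + ∑ i ∈ s, g' i * (v i : k → κ) x) = 0 := by
          rw [mul_add, Finset.mul_sum, ← h1]
          congr 1
          refine Finset.sum_congr rfl fun i _ => ?_
          rw [hg']
          field_simp
        exact (mul_eq_zero.mp h2).resolve_left hga
      have hrel2 : ∀ x, (v a : k → κ) (u * x) +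
          ∑ i ∈ s, g' i ^ p ^ f * (v i : k → κ) (u * x) = 0 := by
        intro x
        have h1 := hrel x
        have h2 : cφ * ((v a : k → κ) x + ∑ i ∈ s, g' i * (v i : k → κ) x) ^ p ^ f = 0 := by
          rw [h1, zero_pow (pow_pos (Fact.out : p.Prime).pos f).ne', mul_zero]
        rw [add_pow_char_pow, sum_pow_char_pow, mul_add, Finset.mul_sum] at h2
        rw [← h2]
        congr 1
        · exact s56f_alg_S_u (v a) x
        · refine Finset.sum_congr rfl fun i _ => ?_
          rw [s56f_alg_S_u (v i) x, mul_pow]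
          ring
      have hrel3 : ∑ i ∈ s, (g' i ^ p ^ f - g' i) • (v i : k → κ) = 0 := by
        ext y
        obtain ⟨x, rfl⟩ : ∃ x, y = u * x := ⟨u⁻¹ * y, by field_simp⟩
        have h1 := hrel (u * x)
        have h2 := hrel2 x
        simp only [Finset.sum_apply, Pi.smul_apply, smul_eq_mul, Pi.zero_apply]
        have h3 : ∑ i ∈ s, (g' i ^ p ^ f - g' i) * (v i : k → κ) (u * x) =
            (∑ i ∈ s, g' i ^ p ^ f * (v i : k → κ) (u * x)) -
              ∑ i ∈ s, g' i * (v i : k → κ) (u * x) := by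
          rw [← Finset.sum_sub_distrib]
          exact Finset.sum_congr rfl fun i _ => by ring
        rw [h3]
        linear_combination h2 - h1
      have hfix : ∀ i ∈ s, g' i ^ p ^ f = g' i := fun i hi => sub_eq_zero.mp (ih _ hrel3 i hi)
      let c : ι → ↥(s56f_alg_fixField p κ f) := fun i =>
        if h : i ∈ s then ⟨g' i, (s56f_alg_mem_fixField p).mpr (hfix i h)⟩ else 1
      have hca : c a = 1 := dif_neg has
      have hcs : ∀ i (h : i ∈ s), c i = ⟨g' i, (s56f_alg_mem_fixField p).mpr (hfix i h)⟩ :=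
        fun i h => dif_pos h
      have hc : ∑ i ∈ insert a s, c i • v i = 0 := by
        apply Subtype.ext
        ext x
        rw [Finset.sum_insert has, hca, one_smul, Submodule.coe_add, Submodule.coe_sum,
          Pi.add_apply, Finset.sum_apply, Submodule.coe_zero, Pi.zero_apply, ← hrel x]
        congr 1
        refine Finset.sum_congr rfl fun i hi => ?_
        rw [hcs i hi, Submodule.coe_smul, Pi.smul_apply, Subfield.smul_def, smul_eq_mul]
      have h0 := linearIndependent_iff'.mp hv (insert a s) c hc a (Finset.mem_insert_self a s)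
      rw [hca] at h0
      exact one_ne_zero h0

/-- elements of `𝔽_p(e)` are polynomials in `e` -/
lemma s56f_alg_exists_poly [Finite k] [Algebra (ZMod p) k]
    (a : ↥(IntermediateField.adjoin (ZMod p) {e})) :
    ∃ Q : (ZMod p)[X], aeval e Q = (a : k) := by
  have halg : IsAlgebraic (ZMod p) e := IsAlgebraic.of_finite (ZMod p) e
  have h1 := IntermediateField.adjoin_simple_toSubalgebra_of_isAlgebraic halg
  have h2 : (a : k) ∈ (IntermediateField.adjoin (ZMod p) {e}).toSubalgebra := a.2
  rw [h1, Algebra.adjoin_singleton_eq_range_aeval] at h2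
  exact h2

omit [CharP κ p] in
/-- the space of `e ↦ cτ`-semilinear additive maps has dimension at most `[k : 𝔽_p(e)]` -/
lemma s56f_alg_W_finrank [Finite k] [Algebra (ZMod p) k] [Algebra (ZMod p) κ] :
    Module.Finite κ ↥(s56f_alg_W e cτ) ∧
      finrank κ ↥(s56f_alg_W e cτ) ≤ finrank ↥(IntermediateField.adjoin (ZMod p) {e}) k := by
  let b := Module.finBasis ↥(IntermediateField.adjoin (ZMod p) {e}) k
  let ev : ↥(s56f_alg_W e cτ) →ₗ[κ]
      (Fin (finrank ↥(IntermediateField.adjoin (ZMod p) {e}) k) → κ) :=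
    (LinearMap.funLeft κ κ (fun i => b i)).comp (s56f_alg_W e cτ).subtype
  have hev : Function.Injective ev := by
    rw [← LinearMap.ker_eq_bot, LinearMap.ker_eq_bot']
    intro g hg
    apply Subtype.ext
    ext x
    have hgb : ∀ i, (g : k → κ) (b i) = 0 := fun i => congrFun hg i
    let G : k →+ κ := AddMonoidHom.mk' (g : k → κ) g.2.1
    have hx : x = ∑ i, (b.repr x i : k) * b i := by
      conv_lhs => rw [← b.sum_repr x]
      refine Finset.sum_congr rfl fun i _ => ?_
      rw [IntermediateField.smul_def, smul_eq_mul]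
    have hG : G x = 0 := by
      rw [hx, map_sum]
      refine Finset.sum_eq_zero fun i _ => ?_
      obtain ⟨Q, hQ⟩ := s56f_alg_exists_poly (b.repr x i)
      rw [← hQ, s56f_alg_semilinear p e cτ G g.2.2 Q (b i)]
      show _ * (g : k → κ) (b i) = 0
      rw [hgb i, mul_zero]
    exact hG
  have hfin : Module.Finite κ ↥(s56f_alg_W e cτ) := Module.Finite.of_injective ev hev
  refine ⟨hfin, ?_⟩
  have h := LinearMap.finrank_le_finrank_of_injective hev
  rwa [Module.finrank_fin_fun] at h

end Count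

theorem s56f_ifaceCount : s56f_IfaceCount := by
  intro p _ k κ _ _ _ _ _ f e u cτ cφ hf hu he A B hA1 hA2 hB1 hB2 hA0
  let _ : Algebra (ZMod p) k := ZMod.algebra k p
  let _ : Algebra (ZMod p) κ := ZMod.algebra κ p
  obtain ⟨hκ₀fin, hκ₀card⟩ := s56f_alg_fixField_card p (κ := κ) f hf
  obtain ⟨hWfin, hWrank⟩ := s56f_alg_W_finrank (p := p) (k := k) (κ := κ) (e := e) (cτ := cτ)
  have hrank : Module.rank ↥(s56f_alg_fixField p κ f) ↥(s56f_alg_S p e u cτ cφ f) ≤
      ((finrank ↥(IntermediateField.adjoin (ZMod p) {e}) k : ℕ) : Cardinal) := by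
    apply rank_le
    intro s hs
    have h1 := s56f_alg_IL hu (fun i : s => (i : ↥(s56f_alg_S p e u cτ cφ f))) hs
    let w : s → ↥(s56f_alg_W e cτ) := fun i =>
      ⟨((i : ↥(s56f_alg_S p e u cτ cφ f)) : k → κ),
        ⟨(i : ↥(s56f_alg_S p e u cτ cφ f)).2.1, (i : ↥(s56f_alg_S p e u cτ cφ f)).2.2.1⟩⟩
    have h2 : LinearIndependent κ w := LinearIndependent.of_comp (s56f_alg_W e cτ).subtype h1
    have h3 := h2.fintype_card_le_finrank
    rw [Fintype.card_coe] at h3
    exact h3.trans hWrank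
  have hSfree : Module.Free ↥(s56f_alg_fixField p κ f) ↥(s56f_alg_S p e u cτ cφ f) :=
    Module.Free.of_divisionRing _ _
  have hSfin : Module.Finite ↥(s56f_alg_fixField p κ f) ↥(s56f_alg_S p e u cτ cφ f) := by
    rw [← Module.rank_lt_aleph0_iff]
    exact lt_of_le_of_lt hrank (Cardinal.natCast_lt_aleph0)
  have hSrank := Module.finrank_le_of_rank_le hrank
  have hScard : Nat.card ↥(s56f_alg_S p e u cτ cφ f) ≤
      (p ^ f) ^ finrank ↥(IntermediateField.adjoin (ZMod p) {e}) k := by
    rw [Module.natCard_eq_pow_finrank (K := ↥(s56f_alg_fixField p κ f))]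
    calc _ ≤ Nat.card ↥(s56f_alg_fixField p κ f) ^
          finrank ↥(IntermediateField.adjoin (ZMod p) {e}) k :=
        Nat.pow_le_pow_right Nat.card_pos hSrank
      _ ≤ _ := Nat.pow_le_pow_left hκ₀card _
  have hSfinite : Finite ↥(s56f_alg_S p e u cτ cφ f) :=
    Module.finite_of_finite ↥(s56f_alg_fixField p κ f)
  have hkcard : Nat.card k = p ^ (finrank (ZMod p) ↥(IntermediateField.adjoin (ZMod p) {e}) *
      finrank ↥(IntermediateField.adjoin (ZMod p) {e}) k) := by
    rw [Module.natCard_eq_pow_finrank (K := ZMod p) (V := k), Nat.card_zmod,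
      Module.finrank_mul_finrank (ZMod p) ↥(IntermediateField.adjoin (ZMod p) {e}) k]
  have hfd : f ≤ finrank (ZMod p) ↥(IntermediateField.adjoin (ZMod p) {e}) := by
    by_contra hcon
    have hd0 : 0 < finrank (ZMod p) ↥(IntermediateField.adjoin (ZMod p) {e}) := Module.finrank_pos
    have hFcard : Nat.card ↥(IntermediateField.adjoin (ZMod p) {e}) =
        p ^ finrank (ZMod p) ↥(IntermediateField.adjoin (ZMod p) {e}) := by
      rw [Module.natCard_eq_pow_finrank (K := ZMod p)
        (V := ↥(IntermediateField.adjoin (ZMod p) {e})), Nat.card_zmod]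
    have heF : e ∈ IntermediateField.adjoin (ZMod p) {e} :=
      IntermediateField.mem_adjoin_simple_self _ e
    have h1 : (⟨e, heF⟩ : ↥(IntermediateField.adjoin (ZMod p) {e})) ^
        (p ^ finrank (ZMod p) ↥(IntermediateField.adjoin (ZMod p) {e})) = ⟨e, heF⟩ := by
      rw [← hFcard]
      let _ := Fintype.ofFinite ↥(IntermediateField.adjoin (ZMod p) {e})
      rw [Nat.card_eq_fintype_card]
      exact FiniteField.pow_card _
    have h2 : e ^ (p ^ finrank (ZMod p) ↥(IntermediateField.adjoin (ZMod p) {e})) = e :=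
      congrArg Subtype.val h1
    exact he _ hd0 (by omega) h2
  -- the injection `k → S`, `c ↦ A (c * ·)`
  let φ : k → ↥(s56f_alg_S p e u cτ cφ f) := fun c =>
    ⟨fun x => A (c * x), fun x y => by
        show A (c * (x + y)) = A (c * x) + A (c * y)
        rw [mul_add, map_add],
      fun x => by
        show A (c * (e * x)) = cτ * A (c * x)
        rw [mul_left_comm, hA1],
      fun x => by
        show A (c * (u * x)) = cφ * A (c * x) ^ p ^ f
        rw [mul_left_comm, hA2]⟩
  have hφ : Function.Injective φ := by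
    intro c c' h
    by_contra hcc
    apply hA0
    ext y
    have h1 : ∀ x, A (c * x) = A (c' * x) := fun x =>
      congrFun (congrArg (fun g : ↥(s56f_alg_S p e u cτ cφ f) => (g : k → κ)) h) x
    have hsub : c - c' ≠ 0 := sub_ne_zero.mpr hcc
    have h2 := h1 ((c - c')⁻¹ * y)
    have h3 : A ((c - c') * ((c - c')⁻¹ * y)) = 0 := by
      rw [sub_mul, map_sub, h2, sub_self]
    rw [← mul_assoc, mul_inv_cancel₀ hsub, one_mul] at h3
    rw [h3]; rfl
  have hbij : Function.Bijective φ := by
    refine hφ.bijective_of_nat_card_le ?_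
    rw [hkcard]
    refine hScard.trans ?_
    rw [← pow_mul]
    exact Nat.pow_le_pow_right (Fact.out : p.Prime).pos (Nat.mul_le_mul_right _ hfd)
  obtain ⟨c, hc⟩ := hbij.2 ⟨fun x => B x, fun x y => map_add B x y, hB1, hB2⟩
  refine ⟨c, fun x => ?_⟩
  exact (congrFun (congrArg (fun g : ↥(s56f_alg_S p e u cτ cφ f) => (g : k → κ)) hc) x).symm

end Fermat.Agent.Lib.S56
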