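/-
PROGRAMME W (S56), wall [W8-F3] (helper3, prefix `s56f_`): **Kummer theory on a subgroup `U ≤ G_ℚ`
fixing `ζ_p`** and the WINDOW characters of `V₁`.

* `s56f_exists_kummer` : an additive `χ : U → 𝔽_p` killing `U ∩ G_F` (`F` finite) has a Kummer generator
  `α ∈ ℚ̄^×`, `u α = ζ^{χ u} α` (Hilbert 90, `ptg_hilbert90_open`);
* `s56f_kummer_unique` : two generators differ by a `U`-fixed element;
* `s56f_kummer_conj` : `g α` generates `g ⋆ χ`, `(g ⋆ χ) u = a · χ (g⁻¹ u g)` if `g ζ = ζ ^ a`;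
* `s56f_Win P π₁ ζ χ γ` : `χ|_{V₁}` has a generator `α` with `v(α^p - 1) ≥ γ`.
-/
import Mathlib
import Fermat.Agent.Lib.S56.IfaceF3
import Fermat.Agent.Lib.PT.BridgeL
import Fermat.Agent.Lib.PT.GLevelField
import Fermat.Agent.Lib.Frey.OrdInertia

set_option autoImplicit false

noncomputable section

namespace Fermat.Agent.Lib.S56

open Fermat.Agent.Lib.PT Fermat.Agent.Lib.Frey

local notation "Qbar" => AlgebraicClosure ℚ
local notation "GQ" => (AlgebraicClosure ℚ ≃ₐ[ℚ] AlgebraicClosure ℚ)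

section Kummer

variable {p : ℕ} [hpF : Fact p.Prime] {ζ : Qbar}

/-- `ζ ^ a` for `a : 𝔽_p`. -/
def s56f_zpow (ζ : Qbar) (a : ZMod p) : Qbar := ζ ^ a.val

lemma s56f_zpow_zero : s56f_zpow ζ (0 : ZMod p) = 1 := by
  rw [s56f_zpow, ZMod.val_zero, pow_zero]

lemma s56f_zpow_add (hζ : ζ ^ p = 1) (a b : ZMod p) :
    s56f_zpow ζ (a + b) = s56f_zpow ζ a * s56f_zpow ζ b := by
  rw [s56f_zpow, s56f_zpow, s56f_zpow, ZMod.val_add, ← pow_add, ← pow_eq_pow_mod _ hζ]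

lemma s56f_zpow_natCast (hζ : ζ ^ p = 1) (n : ℕ) : s56f_zpow ζ ((n : ℕ) : ZMod p) = ζ ^ n := by
  rw [s56f_zpow, ZMod.val_natCast, ← pow_eq_pow_mod _ hζ]

lemma s56f_zpow_mul (hζ : ζ ^ p = 1) (a b : ZMod p) :
    s56f_zpow ζ (a * b) = (s56f_zpow ζ b) ^ a.val := by
  rw [s56f_zpow, s56f_zpow, ZMod.val_mul, ← pow_mul, ← pow_eq_pow_mod _ hζ, mul_comm]

lemma s56f_zpow_ne_zero (hζ : ζ ^ p = 1) (a : ZMod p) : s56f_zpow ζ a ≠ 0 := by
  have h0 : ζ ≠ 0 := by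
    rintro rfl
    rw [zero_pow hpF.out.ne_zero] at hζ
    exact zero_ne_one hζ
  exact pow_ne_zero _ h0

lemma s56f_zpow_pow_p (hζ : ζ ^ p = 1) (a : ZMod p) : (s56f_zpow ζ a) ^ p = 1 := by
  rw [s56f_zpow, ← pow_mul, mul_comm, pow_mul, hζ, one_pow]

/-- `ζ ^ a = 1` only for `a = 0` (`ζ` a primitive `p`-th root of unity). -/
lemma s56f_zpow_eq_one (hζ : ζ ^ p = 1) (hζ1 : ζ ≠ 1) {a : ZMod p} (h : s56f_zpow ζ a = 1) :
    a = 0 := by
  have hord : orderOf ζ = p := by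
    have hdvd : orderOf ζ ∣ p := orderOf_dvd_of_pow_eq_one hζ
    rcases (Nat.dvd_prime hpF.out).mp hdvd with h1 | h1
    · exact absurd (orderOf_eq_one_iff.mp h1) hζ1
    · exact h1
  have h2 : p ∣ a.val := by
    have h2' : orderOf ζ ∣ a.val := orderOf_dvd_of_pow_eq_one h
    rwa [hord] at h2'
  have h3 : a.val < p := ZMod.val_lt a
  have h4 : a.val = 0 := Nat.eq_zero_of_dvd_of_lt h2 h3
  exact (ZMod.val_eq_zero a).mp h4

lemma s56f_zpow_injective (hζ : ζ ^ p = 1) (hζ1 : ζ ≠ 1) {a b : ZMod p}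
    (h : s56f_zpow ζ a = s56f_zpow ζ b) : a = b := by
  have h1 : s56f_zpow ζ (a - b) = 1 := by
    have h2 : s56f_zpow ζ (a - b) * s56f_zpow ζ b = s56f_zpow ζ b := by
      rw [← s56f_zpow_add hζ, sub_add_cancel, h]
    have h3 := s56f_zpow_ne_zero hζ b
    exact mul_right_cancel₀ h3 (by rw [h2, one_mul])
  have := s56f_zpow_eq_one hζ hζ1 h1
  exact sub_eq_zero.mp this

/-- **Kummer theory, existence.** -/
theorem s56f_exists_kummer (U : Subgroup GQ) (hζ : ζ ^ p = 1) (hζU : ∀ u ∈ U, u ζ = ζ)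
    (χ : GQ → ZMod p) (hadd : ∀ u ∈ U, ∀ u' ∈ U, χ (u * u') = χ u + χ u')
    (F : IntermediateField ℚ Qbar) [FiniteDimensional ℚ F]
    (hF : ∀ u ∈ U, u ∈ F.fixingSubgroup → χ u = 0) :
    ∃ α : Qbar, α ≠ 0 ∧ ∀ u ∈ U, u α = s56f_zpow ζ (χ u) * α := by
  haveI : F.fixingSubgroup.FiniteIndex := pta_finiteIndex_fixingSubgroup F
  let φ : U → Qbarˣ := fun g => Units.mk0 (s56f_zpow ζ (χ g)) (s56f_zpow_ne_zero hζ _)
  have hfix : ∀ (g : U) (a : ZMod p), (g : GQ) (s56f_zpow ζ a) = s56f_zpow ζ a := by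
    intro g a
    rw [s56f_zpow, map_pow, hζU g g.2]
  obtain ⟨b, hb⟩ := ptg_hilbert90_open F U φ
    (fun g h => by
      apply Units.ext
      rw [Units.val_mul, AlgEquiv.smul_units_def]
      show s56f_zpow ζ (χ ((g : GQ) * (h : GQ))) =
        (g : GQ) (s56f_zpow ζ (χ (h : GQ))) * s56f_zpow ζ (χ (g : GQ))
      rw [hfix, hadd g g.2 h h.2, s56f_zpow_add hζ, mul_comm])
    (fun g n hn => by
      apply Units.ext
      show s56f_zpow ζ (χ ((g : GQ) * (n : GQ))) = s56f_zpow ζ (χ (g : GQ))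
      rw [hadd g g.2 n n.2, hF n n.2 hn, add_zero])
  refine ⟨(b : Qbar), b.ne_zero, fun u hu => ?_⟩
  have h1 := hb ⟨u, hu⟩
  have h2 := congrArg (fun w : Qbarˣ => (w : Qbar)) h1
  simp only [φ, Units.val_mk0, Units.val_div_eq_div_val, AlgEquiv.smul_units_def] at h2
  rw [h2, div_mul_cancel₀ _ b.ne_zero]
  rfl

/-- **Kummer theory, uniqueness**: two generators of the same character differ by a `U`-fixed factor. -/
theorem s56f_kummer_unique (U : Subgroup GQ) (χ : GQ → ZMod p) {α α' : Qbar}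
    (hα : ∀ u ∈ U, u α = s56f_zpow ζ (χ u) * α) (hα' : ∀ u ∈ U, u α' = s56f_zpow ζ (χ u) * α')
    (hζ : ζ ^ p = 1) : ∀ u ∈ U, u (α' / α) = α' / α := by
  intro u hu
  rw [map_div₀, hα u hu, hα' u hu, mul_div_mul_left _ _ (s56f_zpow_ne_zero hζ _)]

/-- a generator of `χ` is fixed by `u` iff `χ u = 0`. -/
theorem s56f_kummer_fixed_iff (hζ : ζ ^ p = 1) (hζ1 : ζ ≠ 1) {U : Subgroup GQ} {χ : GQ → ZMod p}
    {α : Qbar} (hα0 : α ≠ 0) (hα : ∀ u ∈ U, u α = s56f_zpow ζ (χ u) * α) {u : GQ} (hu : u ∈ U) :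
    u α = α ↔ χ u = 0 := by
  constructor
  · intro h
    rw [hα u hu] at h
    have h1 : s56f_zpow ζ (χ u) = 1 := by
      have := mul_right_cancel₀ hα0 (h.trans (one_mul α).symm)
      exact this
    exact s56f_zpow_eq_one hζ hζ1 h1
  · intro h
    rw [hα u hu, h, s56f_zpow_zero, one_mul]

/-- the `p`-th power of a generator is `U`-fixed. -/
theorem s56f_kummer_pow_fixed (hζ : ζ ^ p = 1) {U : Subgroup GQ} {χ : GQ → ZMod p}
    {α : Qbar} (hα : ∀ u ∈ U, u α = s56f_zpow ζ (χ u) * α) {u : GQ} (hu : u ∈ U) :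
    u (α ^ p) = α ^ p := by
  rw [map_pow, hα u hu, mul_pow, s56f_zpow_pow_p hζ, one_mul]

/-- **conjugation**: if `g` normalises `U` and `g ζ = ζ ^ a`, then `g α` generates
`u ↦ a · χ (g⁻¹ u g)`. -/
theorem s56f_kummer_conj (hζ : ζ ^ p = 1) {U : Subgroup GQ} {χ : GQ → ZMod p}
    {α : Qbar} (hα : ∀ u ∈ U, u α = s56f_zpow ζ (χ u) * α) (g : GQ) (a : ZMod p)
    (hg : g ζ = s56f_zpow ζ a) (hgU : ∀ u ∈ U, g⁻¹ * u * g ∈ U) :
    ∀ u ∈ U, u (g α) = s56f_zpow ζ (a * χ (g⁻¹ * u * g)) * g α := by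
  intro u hu
  have h1 : u (g α) = g ((g⁻¹ * u * g) α) := by
    rw [AlgEquiv.mul_apply, AlgEquiv.mul_apply, ← AlgEquiv.mul_apply g g⁻¹, mul_inv_cancel,
      AlgEquiv.one_apply]
  rw [h1, hα _ (hgU u hu), map_mul]
  congr 1
  rw [s56f_zpow, map_pow, hg, s56f_zpow_mul hζ]
  rw [s56f_zpow, s56f_zpow, ← pow_mul, ← pow_mul, mul_comm]

end Kummer

section Window

variable {p : ℕ} [hpF : Fact p.Prime]

/-- **window characters of depth `≥ γ`**: `χ|_{V₁}` has a Kummer generator `α` with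
`v (α ^ p - 1) ≥ γ`. -/
def s56f_Win (P : ValuationSubring Qbar) (hP : P.LiesOverPrime p) (π₁ ζ : Qbar)
    (χ : GQ → ZMod p) (γ : ℚ) : Prop :=
  ∃ α : Qbar, α ≠ 0 ∧ (∀ u ∈ s56f_V1 P π₁, u α = s56f_zpow ζ (χ u) * α) ∧
    (γ : WithTop ℚ) ≤ ford_vQ P hpF.out hP (α ^ p - 1)

lemma s56f_Win.mono {P : ValuationSubring Qbar} {hP : P.LiesOverPrime p} {π₁ ζ : Qbar}
    {χ : GQ → ZMod p} {γ γ' : ℚ} (h : s56f_Win P hP π₁ ζ χ γ) (hγ : γ' ≤ γ) :
    s56f_Win P hP π₁ ζ χ γ' := by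
  obtain ⟨α, h0, h1, h2⟩ := h
  exact ⟨α, h0, h1, le_trans (by exact_mod_cast hγ) h2⟩

/-- only the values on `V₁` matter. -/
lemma s56f_Win.congr {P : ValuationSubring Qbar} {hP : P.LiesOverPrime p} {π₁ ζ : Qbar}
    {χ χ' : GQ → ZMod p} {γ : ℚ} (h : s56f_Win P hP π₁ ζ χ γ)
    (hχ : ∀ u ∈ s56f_V1 P π₁, χ u = χ' u) : s56f_Win P hP π₁ ζ χ' γ := by
  obtain ⟨α, h0, h1, h2⟩ := h
  exact ⟨α, h0, fun u hu => by rw [← hχ u hu]; exact h1 u hu, h2⟩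

end Window

end Fermat.Agent.Lib.S56
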