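/-
PROGRAMME W (S56), wall [W8-F3] (helper3, prefix `s56f_`): small API for the `ℚ`-valued valuation
`v = ford_vQ P` on `ℚ̄` (bounds with rational constants), and the binomial lemma
`(1 + η)^p - 1 = η^p + p η r`, `r ∈ P`.
-/
import Mathlib
import Fermat.Agent.Lib.Frey.Ord

set_option autoImplicit false

noncomputable section

namespace Fermat.Agent.Lib.S56

open Fermat.Agent.Lib.Frey

local notation "Qbar" => AlgebraicClosure ℚ

section Val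

variable {p : ℕ} (hp : p.Prime) (P : ValuationSubring Qbar) (hP : (p : Qbar) ∈ P.nonunits)

/-- the valuation of a non-zero element is a rational number. -/
lemma s56f_v_eq_coe {x : Qbar} (hx : x ≠ 0) : ∃ q : ℚ, ford_vQ P hp hP x = (q : WithTop ℚ) := by
  have h : ford_vQ P hp hP x ≠ ⊤ := (AddValuation.ne_top_iff _).mpr hx
  exact ⟨(ford_vQ P hp hP x).untop h, (WithTop.coe_untop _ h).symm⟩

lemma s56f_v_one : ford_vQ P hp hP (1 : Qbar) = ((0 : ℚ) : WithTop ℚ) := by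
  rw [AddValuation.map_one]; rfl

lemma s56f_v_p : ford_vQ P hp hP (p : Qbar) = ((1 : ℚ) : WithTop ℚ) := by
  rw [ford_vQ_q]; rfl

lemma s56f_v_mul (x y : Qbar) :
    ford_vQ P hp hP (x * y) = ford_vQ P hp hP x + ford_vQ P hp hP y :=
  AddValuation.map_mul _ x y

lemma s56f_v_pow (x : Qbar) (n : ℕ) : ford_vQ P hp hP (x ^ n) = n • ford_vQ P hp hP x :=
  AddValuation.map_pow _ x n

lemma s56f_v_pow_coe {x : Qbar} {q : ℚ} (h : ford_vQ P hp hP x = (q : WithTop ℚ)) (n : ℕ) :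
    ford_vQ P hp hP (x ^ n) = (((n : ℚ) * q : ℚ) : WithTop ℚ) := by
  rw [s56f_v_pow, h, ← WithTop.coe_nsmul, nsmul_eq_mul]

lemma s56f_v_inv {x : Qbar} {q : ℚ} (h : ford_vQ P hp hP x = (q : WithTop ℚ)) :
    ford_vQ P hp hP x⁻¹ = ((-q : ℚ) : WithTop ℚ) := by
  have hx : x ≠ 0 := by
    rintro rfl
    rw [AddValuation.map_zero] at h
    exact WithTop.top_ne_coe h
  obtain ⟨r, hr⟩ := s56f_v_eq_coe hp P hP (inv_ne_zero hx)
  have h1 : ford_vQ P hp hP (x * x⁻¹) = ((0 : ℚ) : WithTop ℚ) := by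
    rw [mul_inv_cancel₀ hx]; exact s56f_v_one hp P hP
  rw [s56f_v_mul, h, hr, ← WithTop.coe_add, WithTop.coe_eq_coe] at h1
  rw [hr, WithTop.coe_eq_coe]
  linarith

lemma s56f_v_div {x y : Qbar} {q r : ℚ} (hx : ford_vQ P hp hP x = (q : WithTop ℚ))
    (hy : ford_vQ P hp hP y = (r : WithTop ℚ)) :
    ford_vQ P hp hP (x / y) = ((q - r : ℚ) : WithTop ℚ) := by
  rw [div_eq_mul_inv, s56f_v_mul, hx, s56f_v_inv hp P hP hy, ← WithTop.coe_add, sub_eq_add_neg]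

/-- lower bounds multiply. -/
lemma s56f_le_v_mul {x y : Qbar} {a b : ℚ} (hx : (a : WithTop ℚ) ≤ ford_vQ P hp hP x)
    (hy : (b : WithTop ℚ) ≤ ford_vQ P hp hP y) :
    ((a + b : ℚ) : WithTop ℚ) ≤ ford_vQ P hp hP (x * y) := by
  rw [s56f_v_mul, WithTop.coe_add]
  exact add_le_add hx hy

lemma s56f_le_v_pow {x : Qbar} {a : ℚ} (hx : (a : WithTop ℚ) ≤ ford_vQ P hp hP x) (n : ℕ) :
    (((n : ℚ) * a : ℚ) : WithTop ℚ) ≤ ford_vQ P hp hP (x ^ n) := by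
  rw [s56f_v_pow, ← nsmul_eq_mul, WithTop.coe_nsmul]
  exact nsmul_le_nsmul_right hx n

lemma s56f_le_v_add {x y : Qbar} {a : ℚ} (hx : (a : WithTop ℚ) ≤ ford_vQ P hp hP x)
    (hy : (a : WithTop ℚ) ≤ ford_vQ P hp hP y) :
    (a : WithTop ℚ) ≤ ford_vQ P hp hP (x + y) :=
  AddValuation.map_le_add _ hx hy

lemma s56f_le_v_sub {x y : Qbar} {a : ℚ} (hx : (a : WithTop ℚ) ≤ ford_vQ P hp hP x)
    (hy : (a : WithTop ℚ) ≤ ford_vQ P hp hP y) :
    (a : WithTop ℚ) ≤ ford_vQ P hp hP (x - y) :=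
  AddValuation.map_le_sub _ hx hy

lemma s56f_lt_v_add {x y : Qbar} {a : ℚ} (hx : (a : WithTop ℚ) < ford_vQ P hp hP x)
    (hy : (a : WithTop ℚ) < ford_vQ P hp hP y) :
    (a : WithTop ℚ) < ford_vQ P hp hP (x + y) :=
  lt_of_lt_of_le (lt_min hx hy) (AddValuation.map_add _ x y)

lemma s56f_lt_v_sub {x y : Qbar} {a : ℚ} (hx : (a : WithTop ℚ) < ford_vQ P hp hP x)
    (hy : (a : WithTop ℚ) < ford_vQ P hp hP y) :
    (a : WithTop ℚ) < ford_vQ P hp hP (x - y) :=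
  lt_of_lt_of_le (lt_min hx hy) (AddValuation.map_sub _ x y)

/-- the dominant term decides. -/
lemma s56f_v_add_eq {x y : Qbar} {a : ℚ} (hx : ford_vQ P hp hP x = (a : WithTop ℚ))
    (hy : (a : WithTop ℚ) < ford_vQ P hp hP y) : ford_vQ P hp hP (x + y) = (a : WithTop ℚ) := by
  have h1 : ford_vQ P hp hP x ≠ ford_vQ P hp hP y := by
    rw [hx]; exact ne_of_lt hy
  rw [AddValuation.map_add_of_distinct_val _ h1, hx, min_eq_left hy.le]

lemma s56f_mem_iff (x : Qbar) : x ∈ P ↔ ((0 : ℚ) : WithTop ℚ) ≤ ford_vQ P hp hP x :=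
  (ford_vQ_nonneg_iff hp hP x).symm

lemma s56f_mem_nonunits_iff (x : Qbar) :
    x ∈ P.nonunits ↔ ((0 : ℚ) : WithTop ℚ) < ford_vQ P hp hP x :=
  (ford_vQ_pos_iff hp hP x).symm

/-- `1 + x` is a unit of valuation `0` for `v x > 0`. -/
lemma s56f_v_one_add {x : Qbar} (hx : ((0 : ℚ) : WithTop ℚ) < ford_vQ P hp hP x) :
    ford_vQ P hp hP (1 + x) = ((0 : ℚ) : WithTop ℚ) :=
  s56f_v_add_eq hp P hP (s56f_v_one hp P hP) hx

include hp in
/-- **binomial lemma**: for `η ∈ P`, `(1 + η)^p = 1 + η^p + p η r` with `r ∈ P`. -/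
lemma s56f_binom {η : Qbar} (hη : η ∈ P) :
    ∃ r ∈ P, (1 + η) ^ p = 1 + η ^ p + (p : Qbar) * η * r := by
  obtain ⟨r, hr⟩ := exists_add_pow_prime_eq hp (1 : ↥P) ⟨η, hη⟩
  refine ⟨(r : Qbar), r.2, ?_⟩
  have h := congrArg (fun t : ↥P => (t : Qbar)) hr
  simpa using h

/-- consequence: `v((1+η)^p - 1) ≥ min(p v η, 1 + v η)`, in the form of two lower bounds. -/
lemma s56f_binom_le {η : Qbar} {a c : ℚ} (ha0 : 0 ≤ a) (hη : (a : WithTop ℚ) ≤ ford_vQ P hp hP η)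
    (hc1 : c ≤ (p : ℚ) * a) (hc2 : c ≤ 1 + a) :
    (c : WithTop ℚ) ≤ ford_vQ P hp hP ((1 + η) ^ p - 1) := by
  have hηP : η ∈ P := (s56f_mem_iff hp P hP η).mpr (le_trans (by exact_mod_cast ha0) hη)
  obtain ⟨r, hr, h⟩ := s56f_binom hp P hηP
  have h1 : (1 + η) ^ p - 1 = η ^ p + (p : Qbar) * η * r := by rw [h]; ring
  rw [h1]
  refine s56f_le_v_add hp P hP ?_ ?_
  · exact le_trans (by exact_mod_cast hc1) (s56f_le_v_pow hp P hP hη p)
  · have h2 : ((1 + a + 0 : ℚ) : WithTop ℚ) ≤ ford_vQ P hp hP ((p : Qbar) * η * r) :=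
      s56f_le_v_mul hp P hP (s56f_le_v_mul hp P hP (s56f_v_p hp P hP).ge hη)
        ((s56f_mem_iff hp P hP r).mp hr)
    exact le_trans (by rw [add_zero]; exact_mod_cast hc2) h2

/-- consequence: if `v η = a ≥ 0` and `p a < 1 + a` then `v((1+η)^p - 1) = p a`. -/
lemma s56f_binom_eq {η : Qbar} {a : ℚ} (ha0 : 0 ≤ a) (hη : ford_vQ P hp hP η = (a : WithTop ℚ))
    (hlt : (p : ℚ) * a < 1 + a) :
    ford_vQ P hp hP ((1 + η) ^ p - 1) = (((p : ℚ) * a : ℚ) : WithTop ℚ) := by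
  have hηP : η ∈ P := (s56f_mem_iff hp P hP η).mpr (by rw [hη]; exact_mod_cast ha0)
  obtain ⟨r, hr, h⟩ := s56f_binom hp P hηP
  have h1 : (1 + η) ^ p - 1 = η ^ p + (p : Qbar) * η * r := by rw [h]; ring
  rw [h1]
  refine s56f_v_add_eq hp P hP (s56f_v_pow_coe hp P hP hη p) ?_
  have h2 : ((1 + a + 0 : ℚ) : WithTop ℚ) ≤ ford_vQ P hp hP ((p : Qbar) * η * r) :=
    s56f_le_v_mul hp P hP (s56f_le_v_mul hp P hP (s56f_v_p hp P hP).ge hη.ge)
      ((s56f_mem_iff hp P hP r).mp hr)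
  exact lt_of_lt_of_le (by rw [add_zero]; exact_mod_cast hlt) h2

omit hp hP in
/-- `𝔪_P · P ⊆ 𝔪_P`. -/
lemma s56f_nonunits_mul_mem {a b : Qbar} (ha : a ∈ P.nonunits) (hb : b ∈ P) :
    a * b ∈ P.nonunits := by
  rw [ValuationSubring.mem_nonunits_iff] at ha ⊢
  rw [map_mul]
  have hb' : P.valuation b ≤ 1 := (P.valuation_le_one_iff b).mpr hb
  exact mul_lt_one_of_lt_of_le ha hb'

end Val

end Fermat.Agent.Lib.S56
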