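/-
PROGRAMME W (S56), wall [W8-F3] (helper3, prefix `s56f_`): **the depth filtration on window characters.**

`s56f_Dict` bundles the facts of the local dictionary (§B of `IfaceF3`) which are used here.
* `s56f_win_top` (K1): a window character of depth `≥ p/(p-1)` is trivial on `V₁`;
* `s56f_win_raise` (K2): depth `j/e₁` with `p ∣ j` can be raised to `(j+1)/e₁`;
* `s56f_lead_unique` (K3): for `p ∤ j` the leading term at depth `j/e₁ < p/(p-1)` does not depend on the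
  Kummer generator.
-/
import Mathlib
import Fermat.Agent.Lib.S56.F3Kum
import Fermat.Agent.Lib.S56.F3Val

set_option autoImplicit false

noncomputable section

namespace Fermat.Agent.Lib.S56

open Fermat.Agent.Lib.PT Fermat.Agent.Lib.Frey

local notation "Qbar" => AlgebraicClosure ℚ
local notation "GQ" => (AlgebraicClosure ℚ ≃ₐ[ℚ] AlgebraicClosure ℚ)

/-- the facts of the local dictionary used by the depth filtration. -/
structure s56f_Dict (p : ℕ) [hpF : Fact p.Prime] (P : ValuationSubring Qbar)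
    (hP : P.LiesOverPrime p) (π₁ ζ : Qbar) : Prop where
  hπ : π₁ ^ (p ^ 2 - 1) = -(p : Qbar)
  hζ : ζ ^ p = 1
  hζ1 : ζ ≠ 1
  valGroup : ∀ x : Qbar, x ≠ 0 → (∀ σ ∈ s56f_V1 P π₁, σ x = x) →
    ∃ m : ℤ, ford_vQ P hpF.out hP x = (((m : ℚ) / ((p : ℚ) ^ 2 - 1) : ℚ) : WithTop ℚ)
  lam : ford_vQ P hpF.out hP (ζ - 1) = (((1 : ℚ) / ((p : ℚ) - 1) : ℚ) : WithTop ℚ)
  resFin : ∀ c ∈ P, ∃ N : ℕ, 0 < N ∧ c ^ (p ^ N) - c ∈ P.nonunits
  V1ζ : ∀ σ ∈ s56f_V1 P π₁, σ ζ = ζ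
  redInj : ∀ (ξ : Qbar) (m : ℕ), ¬ p ∣ m → ξ ^ m = 1 → ξ - 1 ∈ P.nonunits → ξ = 1

section Depth

variable {p : ℕ} [hpF : Fact p.Prime] {P : ValuationSubring Qbar} {hP : P.LiesOverPrime p}
  {π₁ ζ : Qbar}

local notation "v" => ford_vQ P hpF.out hP

lemma s56f_p_gt_one : (1 : ℚ) < (p : ℚ) := by exact_mod_cast hpF.out.one_lt

/-- `v π₁ = 1/(p²-1)`. -/
lemma s56f_Dict.v_pi (d : s56f_Dict p P hP π₁ ζ) :
    v π₁ = (((1 : ℚ) / ((p : ℚ) ^ 2 - 1) : ℚ) : WithTop ℚ) := by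
  have hp1 := s56f_p_gt_one (p := p)
  have hπ0 : π₁ ≠ 0 := by
    rintro rfl
    have h := d.hπ
    have hpos : 0 < p ^ 2 - 1 := by
      have : 2 ≤ p := hpF.out.two_le
      have : 4 ≤ p ^ 2 := by nlinarith
      omega
    rw [zero_pow hpos.ne'] at h
    have : (p : Qbar) = 0 := neg_eq_zero.mp h.symm
    exact (by exact_mod_cast hpF.out.ne_zero : (p : Qbar) ≠ 0) this
  obtain ⟨q, hq⟩ := s56f_v_eq_coe hpF.out P hP hπ0
  have h1 := s56f_v_pow_coe hpF.out P hP hq (p ^ 2 - 1)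
  rw [d.hπ, AddValuation.map_neg, s56f_v_p hpF.out P hP, WithTop.coe_eq_coe] at h1
  rw [hq, WithTop.coe_eq_coe]
  have h2 : ((p ^ 2 - 1 : ℕ) : ℚ) = (p : ℚ) ^ 2 - 1 := by
    have : 1 ≤ p ^ 2 := Nat.one_le_pow _ _ hpF.out.pos
    push_cast [Nat.cast_sub this]
    ring
  rw [h2] at h1
  have h3 : (p : ℚ) ^ 2 - 1 ≠ 0 := by nlinarith
  field_simp
  linarith

/-- `ζ ^ i - 1 ∈ 𝔪_P`. -/
lemma s56f_Dict.zeta_pow_sub_one_mem (d : s56f_Dict p P hP π₁ ζ) (i : ℕ) :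
    ζ ^ i - 1 ∈ P.nonunits := by
  have hp1 := s56f_p_gt_one (p := p)
  rw [s56f_mem_nonunits_iff hpF.out P hP]
  have h1 : ζ ^ i - 1 = (ζ - 1) * ∑ j ∈ Finset.range i, ζ ^ j := (mul_geom_sum ζ i).symm
  have hζP : ζ ∈ P := by
    rw [s56f_mem_iff hpF.out P hP]
    have h2 : ζ = 1 + (ζ - 1) := by ring
    rw [h2]
    refine s56f_le_v_add hpF.out P hP (s56f_v_one hpF.out P hP).ge ?_
    rw [d.lam]
    have : (0 : ℚ) ≤ 1 / ((p : ℚ) - 1) := by
      apply div_nonneg zero_le_one; linarith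
    exact_mod_cast this
  have hS : (∑ j ∈ Finset.range i, ζ ^ j) ∈ P :=
    Subring.sum_mem P.toSubring (fun j _ => P.pow_mem hζP j)
  rw [h1]
  have h3 : (((1 : ℚ) / ((p : ℚ) - 1) + 0 : ℚ) : WithTop ℚ) ≤
      v ((ζ - 1) * ∑ j ∈ Finset.range i, ζ ^ j) :=
    s56f_le_v_mul hpF.out P hP d.lam.ge ((s56f_mem_iff hpF.out P hP _).mp hS)
  refine lt_of_lt_of_le ?_ h3
  have : (0 : ℚ) < 1 / ((p : ℚ) - 1) + 0 := by
    rw [add_zero]; apply div_pos zero_lt_one; linarith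
  exact_mod_cast this

/-- a natural number `n < p` in the maximal ideal of `P` is `0`. -/
lemma s56f_natCast_mem_nonunits {n : ℕ} (hn : n < p) (h : (n : Qbar) ∈ P.nonunits)
    (hP' : P.LiesOverPrime p) : n = 0 := by
  by_contra hn0
  rw [s56f_mem_nonunits_iff hpF.out P hP', ford_vQ_natCast hpF.out hP' hn0] at h
  have h1 : (0 : ℚ) < (padicValNat p n : ℚ) := by exact_mod_cast h
  have h2 : 0 < padicValNat p n := by exact_mod_cast h1
  have h3 : p ∣ n := dvd_of_one_le_padicValNat h2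
  exact absurd (Nat.le_of_dvd (Nat.pos_of_ne_zero hn0) h3) (not_le.mpr hn)

/-- **(K1)** a window character of depth `≥ p/(p-1)` is trivial on `V₁`. -/
theorem s56f_win_top (d : s56f_Dict p P hP π₁ ζ) {χ : GQ → ZMod p} {γ : ℚ}
    (hγ : (p : ℚ) / ((p : ℚ) - 1) ≤ γ) (h : s56f_Win P hP π₁ ζ χ γ) :
    ∀ u ∈ s56f_V1 P π₁, χ u = 0 := by
  obtain ⟨α, hα0, hα, hv⟩ := h
  have hp1 := s56f_p_gt_one (p := p)
  have hp1' : (0 : ℚ) < (p : ℚ) - 1 := by linarith
  have hvx : (((p : ℚ) / ((p : ℚ) - 1) : ℚ) : WithTop ℚ) ≤ v (α ^ p - 1) :=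
    le_trans (by exact_mod_cast hγ) hv
  have hα' : α = 1 + (α - 1) := by ring
  -- `v (α - 1) ≥ 1/(p-1)`
  have hvw : (((1 : ℚ) / ((p : ℚ) - 1) : ℚ) : WithTop ℚ) ≤ v (α - 1) := by
    by_contra hcon
    rw [not_le] at hcon
    have hw0 : α - 1 ≠ 0 := by
      intro h0
      rw [h0, AddValuation.map_zero] at hcon
      exact not_top_lt hcon
    obtain ⟨a, ha⟩ := s56f_v_eq_coe hpF.out P hP hw0
    rw [ha] at hcon
    have ha' : a < 1 / ((p : ℚ) - 1) := by exact_mod_cast hcon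
    have ha'' : a * ((p : ℚ) - 1) < 1 := by
      rwa [lt_div_iff₀ hp1'] at ha'
    rcases lt_or_ge a 0 with hneg | hnn
    · have h1 : v α = (a : WithTop ℚ) := by
        rw [hα', add_comm]
        exact s56f_v_add_eq hpF.out P hP ha
          (by rw [s56f_v_one hpF.out P hP]; exact_mod_cast hneg)
      have h2 := s56f_v_pow_coe hpF.out P hP h1 p
      have h3 : ((0 : ℚ) : WithTop ℚ) ≤ v (α ^ p) := by
        have h4 : α ^ p = 1 + (α ^ p - 1) := by ring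
        rw [h4]
        refine s56f_le_v_add hpF.out P hP (s56f_v_one hpF.out P hP).ge (le_trans ?_ hvx)
        have : (0 : ℚ) ≤ (p : ℚ) / ((p : ℚ) - 1) := by positivity
        exact_mod_cast this
      rw [h2] at h3
      have h5 : (0 : ℚ) ≤ (p : ℚ) * a := by exact_mod_cast h3
      nlinarith
    · have h1 := s56f_binom_eq hpF.out P hP hnn ha (by nlinarith)
      have e1 : 1 + (α - 1) = α := by ring
      rw [e1] at h1
      rw [h1] at hvx
      have h2 : (p : ℚ) / ((p : ℚ) - 1) ≤ (p : ℚ) * a := by exact_mod_cast hvx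
      rw [div_le_iff₀ hp1'] at h2
      nlinarith
  have hvw0 : ((0 : ℚ) : WithTop ℚ) < v (α - 1) := by
    refine lt_of_lt_of_le ?_ hvw
    have : (0 : ℚ) < 1 / ((p : ℚ) - 1) := by positivity
    exact_mod_cast this
  have hvα : v α = ((0 : ℚ) : WithTop ℚ) := by
    rw [hα']; exact s56f_v_one_add hpF.out P hP hvw0
  have hlam0 : ζ - 1 ≠ 0 := sub_ne_zero.mpr d.hζ1
  -- `z = (α - 1)/λ ∈ P`
  have hzP : (α - 1) / (ζ - 1) ∈ P := by
    rw [s56f_mem_iff hpF.out P hP]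
    rcases eq_or_ne (α - 1) 0 with h0 | h0
    · rw [h0, zero_div, AddValuation.map_zero]; exact le_top
    · obtain ⟨a, ha⟩ := s56f_v_eq_coe hpF.out P hP h0
      rw [s56f_v_div hpF.out P hP ha d.lam]
      rw [ha] at hvw
      have : 1 / ((p : ℚ) - 1) ≤ a := by exact_mod_cast hvw
      have h2 : (0 : ℚ) ≤ a - 1 / ((p : ℚ) - 1) := by linarith
      exact_mod_cast h2
  intro u hu
  have huI := (s56f_mem_V1 P).mp hu
  have hin := (ford_inertia_spec P u huI.1).2 _ hzP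
  have huζ : u ζ = ζ := d.V1ζ u hu
  set n := (χ u).val with hn
  have huα : u α = ζ ^ n * α := hα u hu
  -- `u z - z = α · S`, `S = ∑_{i<n} ζ^i`
  have h1 : u ((α - 1) / (ζ - 1)) - (α - 1) / (ζ - 1) =
      α * ∑ j ∈ Finset.range n, ζ ^ j := by
    rw [map_div₀, map_sub, map_sub, map_one, huζ, huα]
    have h2 : ζ ^ n - 1 = (ζ - 1) * ∑ j ∈ Finset.range n, ζ ^ j := (mul_geom_sum ζ n).symm
    field_simp
    linear_combination α * h2
  rw [h1, s56f_mem_nonunits_iff hpF.out P hP, s56f_v_mul, hvα] at hin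
  have hS : (∑ j ∈ Finset.range n, ζ ^ j) ∈ P.nonunits := by
    rw [s56f_mem_nonunits_iff hpF.out P hP]
    have : ((0 : ℚ) : WithTop ℚ) + v (∑ j ∈ Finset.range n, ζ ^ j) =
        v (∑ j ∈ Finset.range n, ζ ^ j) := by
      rw [WithTop.coe_zero, zero_add]
    rwa [this] at hin
  have hn' : (n : Qbar) ∈ P.nonunits := by
    have h3 : (n : Qbar) = ∑ j ∈ Finset.range n, ζ ^ j - ∑ j ∈ Finset.range n, (ζ ^ j - 1) := by
      rw [Finset.sum_sub_distrib, Finset.sum_const, Finset.card_range]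
      simp
    rw [h3]
    refine P.nonunits.sub_mem hS ?_
    exact sum_mem (fun j _ => d.zeta_pow_sub_one_mem j)
  have hn0 : n = 0 := s56f_natCast_mem_nonunits (ZMod.val_lt (χ u)) hn' hP
  exact (ZMod.val_eq_zero (χ u)).mp hn0

lemma s56f_e_pos : (0 : ℚ) < (p : ℚ) ^ 2 - 1 := by
  have := s56f_p_gt_one (p := p)
  nlinarith

/-- a `V₁`-fixed element of valuation `> j/e₁` has valuation `≥ (j+1)/e₁`. -/
lemma s56f_Dict.succ_le (d : s56f_Dict p P hP π₁ ζ) {y : Qbar}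
    (hy : ∀ σ ∈ s56f_V1 P π₁, σ y = y) {j : ℕ}
    (h : ((((j : ℚ)) / ((p : ℚ) ^ 2 - 1) : ℚ) : WithTop ℚ) < v y) :
    (((((j : ℚ) + 1) / ((p : ℚ) ^ 2 - 1) : ℚ)) : WithTop ℚ) ≤ v y := by
  have he := s56f_e_pos (p := p)
  rcases eq_or_ne y 0 with rfl | hy0
  · rw [AddValuation.map_zero]; exact le_top
  · obtain ⟨m, hm⟩ := d.valGroup y hy0 hy
    rw [hm] at h ⊢
    have h1 : (j : ℚ) / ((p : ℚ) ^ 2 - 1) < (m : ℚ) / ((p : ℚ) ^ 2 - 1) := by exact_mod_cast h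
    rw [div_lt_div_iff_of_pos_right he] at h1
    have h2 : (j : ℤ) < m := by exact_mod_cast h1
    have h3 : (j : ℤ) + 1 ≤ m := h2
    have h4 : ((j : ℚ) + 1) / ((p : ℚ) ^ 2 - 1) ≤ (m : ℚ) / ((p : ℚ) ^ 2 - 1) := by
      rw [div_le_div_iff_of_pos_right he]
      exact_mod_cast h3
    exact_mod_cast h4

/-- **(K3)** for `p ∤ j`, `0 < j/e₁ < p/(p-1)`, two Kummer generators of the same character of depth
`≥ j/e₁` have the same leading term: `v (α'^p - α^p) > j/e₁`. -/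
theorem s56f_lead_unique (d : s56f_Dict p P hP π₁ ζ) {χ : GQ → ZMod p} {j : ℕ} (hj : ¬ p ∣ j)
    (hj0 : 0 < j) (hjtop : (j : ℚ) / ((p : ℚ) ^ 2 - 1) < (p : ℚ) / ((p : ℚ) - 1))
    {α α' : Qbar} (hα0 : α ≠ 0)
    (hα : ∀ u ∈ s56f_V1 P π₁, u α = s56f_zpow ζ (χ u) * α)
    (hα' : ∀ u ∈ s56f_V1 P π₁, u α' = s56f_zpow ζ (χ u) * α')
    (hv : ((((j : ℚ)) / ((p : ℚ) ^ 2 - 1) : ℚ) : WithTop ℚ) ≤ v (α ^ p - 1))
    (hv' : ((((j : ℚ)) / ((p : ℚ) ^ 2 - 1) : ℚ) : WithTop ℚ) ≤ v (α' ^ p - 1)) :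
    ((((j : ℚ)) / ((p : ℚ) ^ 2 - 1) : ℚ) : WithTop ℚ) < v (α' ^ p - α ^ p) := by
  have hp1 := s56f_p_gt_one (p := p)
  have hp1' : (0 : ℚ) < (p : ℚ) - 1 := by linarith
  have he := s56f_e_pos (p := p)
  set γ : ℚ := (j : ℚ) / ((p : ℚ) ^ 2 - 1) with hγ
  have hγ0 : 0 < γ := by
    rw [hγ]; apply div_pos _ he; exact_mod_cast hj0
  have hγ0' : ((0 : ℚ) : WithTop ℚ) < (γ : WithTop ℚ) := by exact_mod_cast hγ0
  -- `v (α^p) = 0`
  have hvαp : v (α ^ p) = ((0 : ℚ) : WithTop ℚ) := by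
    have h1 : α ^ p = 1 + (α ^ p - 1) := by ring
    rw [h1]
    exact s56f_v_one_add hpF.out P hP (lt_of_lt_of_le hγ0' hv)
  have hαp0 : α ^ p ≠ 0 := pow_ne_zero _ hα0
  -- the difference has valuation `≥ γ`
  have hdiff : (γ : WithTop ℚ) ≤ v (α' ^ p - α ^ p) := by
    have h1 : α' ^ p - α ^ p = (α' ^ p - 1) - (α ^ p - 1) := by ring
    rw [h1]
    exact s56f_le_v_sub hpF.out P hP hv' hv
  set z := α' / α with hz
  have hzfix : ∀ u ∈ s56f_V1 P π₁, u z = z := s56f_kummer_unique _ χ hα hα' d.hζ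
  have hzp : z ^ p - 1 = (α' ^ p - α ^ p) / α ^ p := by
    rw [hz, div_pow]
    field_simp
  -- `v (z^p - 1) = v (α'^p - α^p)`
  have hvz : v (z ^ p - 1) = v (α' ^ p - α ^ p) := by
    rw [hzp, div_eq_mul_inv, s56f_v_mul, s56f_v_inv hpF.out P hP hvαp]
    simp
  rw [← hvz] at hdiff ⊢
  rcases eq_or_ne (z - 1) 0 with hη0 | hη0
  · have h1 : z = 1 := sub_eq_zero.mp hη0
    rw [h1, one_pow, sub_self, AddValuation.map_zero]
    exact WithTop.coe_lt_top _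
  · have hηfix : ∀ u ∈ s56f_V1 P π₁, u (z - 1) = z - 1 := by
      intro u hu
      rw [map_sub, map_one, hzfix u hu]
    obtain ⟨m, hm⟩ := d.valGroup _ hη0 hηfix
    set a : ℚ := (m : ℚ) / ((p : ℚ) ^ 2 - 1) with ha
    have hz' : z = 1 + (z - 1) := by ring
    rcases lt_or_ge a 0 with hneg | hnn
    · exfalso
      have h1 : v z = (a : WithTop ℚ) := by
        rw [hz', add_comm]
        exact s56f_v_add_eq hpF.out P hP hm
          (by rw [s56f_v_one hpF.out P hP]; exact_mod_cast hneg)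
      have h2 := s56f_v_pow_coe hpF.out P hP h1 p
      have h3 : ((0 : ℚ) : WithTop ℚ) ≤ v (z ^ p) := by
        have h4 : z ^ p = 1 + (z ^ p - 1) := by ring
        rw [h4]
        exact s56f_le_v_add hpF.out P hP (s56f_v_one hpF.out P hP).ge (le_trans hγ0'.le hdiff)
      rw [h2] at h3
      have h5 : (0 : ℚ) ≤ (p : ℚ) * a := by exact_mod_cast h3
      nlinarith
    · rcases lt_or_ge ((p : ℚ) * a) (1 + a) with hlt | hge
      · have h1 := s56f_binom_eq hpF.out P hP hnn hm hlt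
        have e1 : 1 + (z - 1) = z := by ring
        rw [e1] at h1
        rw [h1] at hdiff ⊢
        have h2 : γ ≤ (p : ℚ) * a := by exact_mod_cast hdiff
        rcases lt_or_eq_of_le h2 with h3 | h3
        · exact_mod_cast h3
        · exfalso
          apply hj
          rw [hγ, ha, ← mul_div_assoc, div_left_inj' he.ne'] at h3
          have h4 : (j : ℤ) = (p : ℤ) * m := by exact_mod_cast h3
          have h5 : (p : ℤ) ∣ (j : ℤ) := ⟨m, h4⟩
          exact_mod_cast h5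
      · have h1 : ((1 + a : ℚ) : WithTop ℚ) ≤ v ((1 + (z - 1)) ^ p - 1) :=
          s56f_binom_le hpF.out P hP hnn hm.ge hge le_rfl
        have e1 : 1 + (z - 1) = z := by ring
        rw [e1] at h1
        refine lt_of_lt_of_le ?_ h1
        have h2 : (1 : ℚ) / ((p : ℚ) - 1) ≤ a := by
          rw [div_le_iff₀ hp1']
          nlinarith
        have h3 : (p : ℚ) / ((p : ℚ) - 1) = 1 + 1 / ((p : ℚ) - 1) := by
          field_simp
          ring
        have h4 : γ < 1 + a := by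
          calc γ < (p : ℚ) / ((p : ℚ) - 1) := hjtop
            _ = 1 + 1 / ((p : ℚ) - 1) := h3
            _ ≤ 1 + a := by linarith
        exact_mod_cast h4

/-- **(K2)** depth `j/e₁` with `p ∣ j`, `1 ≤ j/e₁ < p/(p-1)`, can be raised to `(j+1)/e₁`. -/
theorem s56f_win_raise (d : s56f_Dict p P hP π₁ ζ) {χ : GQ → ZMod p} {j : ℕ} (hpj : p ∣ j)
    (hj0 : 0 < j) (hjtop : (j : ℚ) / ((p : ℚ) ^ 2 - 1) < (p : ℚ) / ((p : ℚ) - 1))
    (h : s56f_Win P hP π₁ ζ χ ((j : ℚ) / ((p : ℚ) ^ 2 - 1))) :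
    s56f_Win P hP π₁ ζ χ (((j : ℚ) + 1) / ((p : ℚ) ^ 2 - 1)) := by
  have hp1 := s56f_p_gt_one (p := p)
  have hp1' : (0 : ℚ) < (p : ℚ) - 1 := by linarith
  have he := s56f_e_pos (p := p)
  obtain ⟨α, hα0, hα, hv⟩ := h
  set γ : ℚ := (j : ℚ) / ((p : ℚ) ^ 2 - 1) with hγ
  have hγ0 : 0 < γ := by
    rw [hγ]; apply div_pos _ he; exact_mod_cast hj0
  have hxfix : ∀ u ∈ s56f_V1 P π₁, u (α ^ p - 1) = α ^ p - 1 := by
    intro u hu
    rw [map_sub, map_one, s56f_kummer_pow_fixed d.hζ hα hu]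
  rcases lt_or_eq_of_le hv with hlt | heq
  · exact ⟨α, hα0, hα, d.succ_le hxfix hlt⟩
  -- `v x = j/e₁` exactly
  obtain ⟨m', rfl⟩ := hpj
  have hπ0 : π₁ ≠ 0 := by
    intro h0
    have h1 := d.v_pi
    rw [h0, AddValuation.map_zero] at h1
    exact WithTop.top_ne_coe h1
  have hπfix : ∀ u ∈ s56f_V1 P π₁, u π₁ = π₁ := fun u hu => ((s56f_mem_V1 P).mp hu).2
  set x := α ^ p - 1 with hx
  have hvx : v x = (γ : WithTop ℚ) := heq.symm
  have hvπj : v (π₁ ^ (p * m')) = (γ : WithTop ℚ) := by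
    rw [s56f_v_pow_coe hpF.out P hP d.v_pi, hγ]
    congr 1
    push_cast
    field_simp
  set c := -x / π₁ ^ (p * m') with hc
  have hvc : v c = ((0 : ℚ) : WithTop ℚ) := by
    have h1 : v (-x) = (γ : WithTop ℚ) := by rw [AddValuation.map_neg]; exact hvx
    rw [hc, s56f_v_div hpF.out P hP h1 hvπj, sub_self]
  have hcP : c ∈ P := (s56f_mem_iff hpF.out P hP c).mpr hvc.ge
  have hcfix : ∀ u ∈ s56f_V1 P π₁, u c = c := by
    intro u hu
    rw [hc, map_div₀, map_neg, hxfix u hu, map_pow, hπfix u hu]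
  obtain ⟨N, hN, hcN⟩ := d.resFin c hcP
  set d₀ := c ^ (p ^ (N - 1)) with hd₀
  have hd₀p : d₀ ^ p = c ^ (p ^ N) := by
    rw [hd₀, ← pow_mul, ← pow_succ, Nat.sub_add_cancel hN]
  have hd₀P : d₀ ∈ P := P.pow_mem hcP _
  have hd₀fix : ∀ u ∈ s56f_V1 P π₁, u d₀ = d₀ := by
    intro u hu
    rw [hd₀, map_pow, hcfix u hu]
  -- `t = d₀ π₁^{m'}`
  set t := d₀ * π₁ ^ m' with ht
  have hvt : (((m' : ℚ) / ((p : ℚ) ^ 2 - 1) : ℚ) : WithTop ℚ) ≤ v t := by
    have h1 : ((0 + (m' : ℚ) * (1 / ((p : ℚ) ^ 2 - 1)) : ℚ) : WithTop ℚ) ≤ v t :=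
      s56f_le_v_mul hpF.out P hP ((s56f_mem_iff hpF.out P hP d₀).mp hd₀P)
        (s56f_v_pow_coe hpF.out P hP d.v_pi m').ge
    refine le_trans ?_ h1
    have : (m' : ℚ) / ((p : ℚ) ^ 2 - 1) = 0 + (m' : ℚ) * (1 / ((p : ℚ) ^ 2 - 1)) := by ring
    exact_mod_cast this.le
  have hm'0 : 0 < m' := by
    rcases Nat.eq_zero_or_pos m' with h0 | h0
    · rw [h0, mul_zero] at hj0; exact absurd hj0 (lt_irrefl 0)
    · exact h0
  have hm'q : (0 : ℚ) < (m' : ℚ) / ((p : ℚ) ^ 2 - 1) := by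
    apply div_pos _ he; exact_mod_cast hm'0
  have hvt0 : ((0 : ℚ) : WithTop ℚ) < v t := lt_of_lt_of_le (by exact_mod_cast hm'q) hvt
  have htP : t ∈ P := (s56f_mem_iff hpF.out P hP t).mpr hvt0.le
  have htfix : ∀ u ∈ s56f_V1 P π₁, u t = t := by
    intro u hu
    rw [ht, map_mul, hd₀fix u hu, map_pow, hπfix u hu]
  have hvz : v (1 + t) = ((0 : ℚ) : WithTop ℚ) := s56f_v_one_add hpF.out P hP hvt0
  have hz0 : 1 + t ≠ 0 := by
    intro h0
    rw [h0, AddValuation.map_zero] at hvz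
    exact WithTop.top_ne_coe hvz
  obtain ⟨r, hrP, hr⟩ := s56f_binom hpF.out P htP
  refine ⟨α * (1 + t), mul_ne_zero hα0 hz0, fun u hu => ?_, ?_⟩
  · rw [map_mul, hα u hu, map_add, map_one, htfix u hu, mul_assoc]
  · have hyfix : ∀ u ∈ s56f_V1 P π₁, u ((α * (1 + t)) ^ p - 1) = (α * (1 + t)) ^ p - 1 := by
      intro u hu
      rw [map_sub, map_one, map_pow, map_mul, map_add, map_one, htfix u hu, mul_pow, mul_pow,
        ← map_pow, s56f_kummer_pow_fixed d.hζ hα hu]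
    refine d.succ_le hyfix ?_
    -- the expansion
    have hαp : α ^ p = 1 + x := by rw [hx]; ring
    have htp : t ^ p = c ^ (p ^ N) * π₁ ^ (p * m') := by
      rw [ht, mul_pow, hd₀p, ← pow_mul, mul_comm m' p]
    have hxc : x = -c * π₁ ^ (p * m') := by
      rw [hc]
      field_simp
    have hexp : (α * (1 + t)) ^ p - 1 =
        (c ^ (p ^ N) - c) * π₁ ^ (p * m') + (x * t ^ p + (1 + x) * ((p : Qbar) * t * r)) := by
      rw [mul_pow, hr, hαp, htp]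
      linear_combination (1 : Qbar) * hxc
    rw [hexp]
    have hγγ : γ < γ + γ := by linarith
    refine s56f_lt_v_add hpF.out P hP ?_ (s56f_lt_v_add hpF.out P hP ?_ ?_)
    · -- `(c^{p^N} - c) π₁^j`
      obtain hz | hnz := eq_or_ne (c ^ (p ^ N) - c) 0
      · rw [hz, zero_mul, AddValuation.map_zero]; exact WithTop.coe_lt_top _
      · obtain ⟨b, hb⟩ := s56f_v_eq_coe hpF.out P hP hnz
        have hb0 : (0 : ℚ) < b := by
          have := (s56f_mem_nonunits_iff hpF.out P hP _).mp hcN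
          rw [hb] at this
          exact_mod_cast this
        rw [s56f_v_mul, hb, hvπj, ← WithTop.coe_add]
        have : γ < b + γ := by linarith
        exact WithTop.coe_lt_coe.mpr this
    · -- `x t^p`
      have h1 : ((γ + (p : ℚ) * ((m' : ℚ) / ((p : ℚ) ^ 2 - 1)) : ℚ) : WithTop ℚ) ≤ v (x * t ^ p) :=
        s56f_le_v_mul hpF.out P hP hvx.ge (s56f_le_v_pow hpF.out P hP hvt p)
      refine lt_of_lt_of_le ?_ h1
      have : γ < γ + (p : ℚ) * ((m' : ℚ) / ((p : ℚ) ^ 2 - 1)) := by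
        have : (0 : ℚ) < (p : ℚ) * ((m' : ℚ) / ((p : ℚ) ^ 2 - 1)) := by positivity
        linarith
      exact WithTop.coe_lt_coe.mpr this
    · -- `(1 + x) p t r`
      have hx1 : ((0 : ℚ) : WithTop ℚ) ≤ v (1 + x) := by
        refine s56f_le_v_add hpF.out P hP (s56f_v_one hpF.out P hP).ge ?_
        rw [hvx]; exact_mod_cast hγ0.le
      have h1 : ((0 + (1 + (m' : ℚ) / ((p : ℚ) ^ 2 - 1) + 0) : ℚ) : WithTop ℚ) ≤
          v ((1 + x) * ((p : Qbar) * t * r)) :=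
        s56f_le_v_mul hpF.out P hP hx1
          (s56f_le_v_mul hpF.out P hP
            (s56f_le_v_mul hpF.out P hP (s56f_v_p hpF.out P hP).ge hvt)
            ((s56f_mem_iff hpF.out P hP r).mp hrP))
      refine lt_of_lt_of_le ?_ h1
      have hγm : γ = (p : ℚ) * ((m' : ℚ) / ((p : ℚ) ^ 2 - 1)) := by
        rw [hγ]; push_cast; ring
      have : γ < 0 + (1 + (m' : ℚ) / ((p : ℚ) ^ 2 - 1) + 0) := by
        have h2 : γ * ((p : ℚ) - 1) < (p : ℚ) := by
          rwa [lt_div_iff₀ hp1'] at hjtop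
        have h3 : (m' : ℚ) / ((p : ℚ) ^ 2 - 1) = γ / (p : ℚ) := by
          rw [hγm]; field_simp
        rw [h3]
        have hp0 : (0 : ℚ) < (p : ℚ) := by linarith
        have h4 : γ - γ / (p : ℚ) < 1 := by
          rw [sub_lt_iff_lt_add, ← sub_lt_iff_lt_add']
          rw [lt_div_iff₀ hp0]
          nlinarith
        linarith
      exact WithTop.coe_lt_coe.mpr this

end Depth

end Fermat.Agent.Lib.S56
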