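/-
PROGRAMME W (S56), wall [W8-F3] (helper3, prefix `s56f_`): **the bridge from the arithmetic input to
window characters.**  An additive `χ : U₁ → 𝔽_p` (`U₁ = D_P ∩ G_{K₁}`, `K₁` tame Galois, `ζ ∈ K₁`,
`V₁ ⊆ G_{K₁}`) vanishing on `U₁ ∩ G_L` with `L` good is a window character of depth `≥ 1`.
-/
import Mathlib
import Fermat.Agent.Lib.S56.F3Depth

set_option autoImplicit false

noncomputable section

namespace Fermat.Agent.Lib.S56

open Fermat.Agent.Lib.PT Fermat.Agent.Lib.Frey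

local notation "Qbar" => AlgebraicClosure ℚ
local notation "GQ" => (AlgebraicClosure ℚ ≃ₐ[ℚ] AlgebraicClosure ℚ)

section Bridge

variable {p : ℕ} [hpF : Fact p.Prime] {P : ValuationSubring Qbar} {hP : P.LiesOverPrime p}
  {π₁ ζ : Qbar}

local notation "v" => ford_vQ P hpF.out hP

/-- **the bridge.** -/
theorem s56f_window_of_KB (d : s56f_Dict p P hP π₁ ζ)
    {Good : IntermediateField ℚ Qbar → Prop} (hKB : s56f_KB p P Good)
    {L : IntermediateField ℚ Qbar} (hL : Good L) (hLfd : FiniteDimensional ℚ L)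
    {K₁ : IntermediateField ℚ Qbar} (hK₁fd : FiniteDimensional ℚ K₁) (hK₁n : Normal ℚ K₁)
    (hK₁t : s56f_TameAt K₁ p P) (hζK : ζ ∈ K₁)
    (hV₁K : ∀ σ ∈ s56f_V1 P π₁, σ ∈ K₁.fixingSubgroup)
    (χ : GQ → ZMod p)
    (hadd : ∀ u ∈ P.decompositionSubgroup ℚ, u ∈ K₁.fixingSubgroup →
      ∀ u' ∈ P.decompositionSubgroup ℚ, u' ∈ K₁.fixingSubgroup → χ (u * u') = χ u + χ u')
    (hL0 : ∀ u ∈ P.decompositionSubgroup ℚ, u ∈ K₁.fixingSubgroup → u ∈ L.fixingSubgroup →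
      χ u = 0) :
    s56f_Win P hP π₁ ζ χ 1 := by
  -- Kummer generator on `U₁`
  let U₁ : Subgroup GQ := P.decompositionSubgroup ℚ ⊓ K₁.fixingSubgroup
  have hζU : ∀ u ∈ U₁, u ζ = ζ := fun u hu =>
    (IntermediateField.mem_fixingSubgroup_iff K₁ u).mp hu.2 ζ hζK
  haveI := hLfd
  obtain ⟨α, hα0, hα⟩ := s56f_exists_kummer U₁ d.hζ hζU χ
    (fun u hu u' hu' => hadd u hu.1 hu.2 u' hu'.1 hu'.2) L
    (fun u hu huL => hL0 u hu.1 hu.2 huL)
  -- the arithmetic input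
  obtain ⟨z, w, hzw, hwP, hαzw⟩ := hKB L hL K₁ hK₁fd hK₁n hK₁t ⟨ζ, hζK, d.hζ, d.hζ1⟩ α hα0
    (fun σ hσD hσ => by
      have h1 : σ ∈ L.fixingSubgroup :=
        IntermediateField.fixingSubgroup_antitone le_sup_left hσ
      have h2 : σ ∈ K₁.fixingSubgroup :=
        IntermediateField.fixingSubgroup_antitone le_sup_right hσ
      rw [hα σ ⟨hσD, h2⟩, hL0 σ hσD h2 h1, s56f_zpow_zero, one_mul])
    (fun σ hσD hσ => s56f_kummer_pow_fixed d.hζ hα (u := σ) ⟨hσD, hσ⟩)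
  have hz0 : z ≠ 0 := by
    rintro rfl
    rw [zero_pow hpF.out.ne_zero, zero_mul] at hαzw
    exact hα0 (pow_eq_zero_iff hpF.out.ne_zero |>.mp hαzw)
  refine ⟨α / z, div_ne_zero hα0 hz0, fun u hu => ?_, ?_⟩
  · have huD : u ∈ P.decompositionSubgroup ℚ :=
      (ford_inertia_spec P u ((s56f_mem_V1 P).mp hu).1).1
    have huU : u ∈ U₁ := ⟨huD, hV₁K u hu⟩
    rw [map_div₀, hα u huU, (hzw u huD (hV₁K u hu)).1, mul_div_assoc]
  · have h1 : (α / z) ^ p - 1 = (p : Qbar) * w := by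
      rw [div_pow, hαzw, mul_div_assoc, mul_comm, div_mul_cancel₀ _ (pow_ne_zero p hz0)]
      ring
    rw [h1]
    have h2 := s56f_le_v_mul hpF.out P hP (s56f_v_p hpF.out P hP).ge
      ((s56f_mem_iff hpF.out P hP w).mp hwP)
    rw [add_zero] at h2
    exact h2

end Bridge

end Fermat.Agent.Lib.S56
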