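/-
PROGRAMME W (S56), wall [W8-F3] (helper3, prefix `s56f_`): **leading terms of window characters.**

* `s56f_leadOf P π₁ j x` : the residue of `x / π₁^j` in `κ = P/𝔪_P` (`0` if `x/π₁^j ∉ P`);
  additive on `{v ≥ j/e₁}`, kernel `{v > j/e₁}`, `leadOf (g x) = θ(g)^j · ḡ(leadOf x)` for `g ∈ D_P`;
* `s56f_lead d j χ h` : the leading term of a window character of depth `≥ j/e₁`, `p ∤ j`: independent of
  the Kummer generator (`s56f_lead_eq`), additive (`s56f_lead_add`), vanishing iff the depth is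
  `≥ (j+1)/e₁` (`s56f_win_of_lead_eq_zero`), and `lead (g ⋆ χ) = θ(g)^j · ḡ(lead χ)` (`s56f_lead_conj`).
-/
import Mathlib
import Fermat.Agent.Lib.S56.F3Depth

set_option autoImplicit false

noncomputable section

namespace Fermat.Agent.Lib.S56

open Fermat.Agent.Lib.PT Fermat.Agent.Lib.Frey

local notation "Qbar" => AlgebraicClosure ℚ
local notation "GQ" => (AlgebraicClosure ℚ ≃ₐ[ℚ] AlgebraicClosure ℚ)

section LeadOf

variable {p : ℕ} [hpF : Fact p.Prime] {P : ValuationSubring Qbar} {hP : P.LiesOverPrime p}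
  {π₁ ζ : Qbar}

local notation "v" => ford_vQ P hpF.out hP

open Classical in
/-- the residue of `x / π₁ ^ j`. -/
def s56f_leadOf (P : ValuationSubring Qbar) (π₁ : Qbar) (j : ℕ) (x : Qbar) :
    IsLocalRing.ResidueField ↥P :=
  if h : x / π₁ ^ j ∈ P then IsLocalRing.residue ↥P ⟨x / π₁ ^ j, h⟩ else 0

lemma s56f_leadOf_of_mem {j : ℕ} {x : Qbar} (h : x / π₁ ^ j ∈ P) :
    s56f_leadOf P π₁ j x = IsLocalRing.residue ↥P ⟨x / π₁ ^ j, h⟩ := by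
  rw [s56f_leadOf, dif_pos h]

/-- `v (π₁ ^ j) = j/e₁`. -/
lemma s56f_Dict.v_pi_pow (d : s56f_Dict p P hP π₁ ζ) (j : ℕ) :
    v (π₁ ^ j) = ((((j : ℚ)) / ((p : ℚ) ^ 2 - 1) : ℚ) : WithTop ℚ) := by
  rw [s56f_v_pow_coe hpF.out P hP d.v_pi j]
  congr 1
  ring

lemma s56f_Dict.pi_ne_zero (d : s56f_Dict p P hP π₁ ζ) : π₁ ≠ 0 := by
  intro h0
  have h1 := d.v_pi
  rw [h0, AddValuation.map_zero] at h1
  exact WithTop.top_ne_coe h1

/-- `x / π₁^j ∈ P` for `v x ≥ j/e₁`. -/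
lemma s56f_Dict.div_mem (d : s56f_Dict p P hP π₁ ζ) {j : ℕ} {x : Qbar}
    (hx : ((((j : ℚ)) / ((p : ℚ) ^ 2 - 1) : ℚ) : WithTop ℚ) ≤ v x) : x / π₁ ^ j ∈ P := by
  rw [s56f_mem_iff hpF.out P hP]
  rcases eq_or_ne x 0 with rfl | hx0
  · rw [zero_div, AddValuation.map_zero]; exact le_top
  · obtain ⟨a, ha⟩ := s56f_v_eq_coe hpF.out P hP hx0
    rw [s56f_v_div hpF.out P hP ha (d.v_pi_pow j)]
    rw [ha] at hx
    have h1 : (j : ℚ) / ((p : ℚ) ^ 2 - 1) ≤ a := by exact_mod_cast hx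
    have h2 : (0 : ℚ) ≤ a - (j : ℚ) / ((p : ℚ) ^ 2 - 1) := by linarith
    exact WithTop.coe_le_coe.mpr h2

/-- `x / π₁^j ∈ 𝔪_P` iff `v x > j/e₁`. -/
lemma s56f_Dict.div_mem_nonunits_iff (d : s56f_Dict p P hP π₁ ζ) {j : ℕ} {x : Qbar} :
    x / π₁ ^ j ∈ P.nonunits ↔ ((((j : ℚ)) / ((p : ℚ) ^ 2 - 1) : ℚ) : WithTop ℚ) < v x := by
  rw [s56f_mem_nonunits_iff hpF.out P hP]
  rcases eq_or_ne x 0 with rfl | hx0
  · rw [zero_div, AddValuation.map_zero]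
    exact ⟨fun _ => WithTop.coe_lt_top _, fun _ => WithTop.coe_lt_top _⟩
  · obtain ⟨a, ha⟩ := s56f_v_eq_coe hpF.out P hP hx0
    rw [s56f_v_div hpF.out P hP ha (d.v_pi_pow j), ha, WithTop.coe_lt_coe, WithTop.coe_lt_coe]
    constructor <;> intro h <;> linarith

lemma s56f_Dict.leadOf_add (d : s56f_Dict p P hP π₁ ζ) {j : ℕ} {x y : Qbar}
    (hx : ((((j : ℚ)) / ((p : ℚ) ^ 2 - 1) : ℚ) : WithTop ℚ) ≤ v x)
    (hy : ((((j : ℚ)) / ((p : ℚ) ^ 2 - 1) : ℚ) : WithTop ℚ) ≤ v y) :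
    s56f_leadOf P π₁ j (x + y) = s56f_leadOf P π₁ j x + s56f_leadOf P π₁ j y := by
  have hxy := s56f_le_v_add hpF.out P hP hx hy
  rw [s56f_leadOf_of_mem (d.div_mem hx), s56f_leadOf_of_mem (d.div_mem hy),
    s56f_leadOf_of_mem (d.div_mem hxy), ← map_add]
  congr 1
  apply Subtype.ext
  show (x + y) / π₁ ^ j = x / π₁ ^ j + y / π₁ ^ j
  rw [add_div]

lemma s56f_Dict.leadOf_eq_zero_iff (d : s56f_Dict p P hP π₁ ζ) {j : ℕ} {x : Qbar}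
    (hx : ((((j : ℚ)) / ((p : ℚ) ^ 2 - 1) : ℚ) : WithTop ℚ) ≤ v x) :
    s56f_leadOf P π₁ j x = 0 ↔ ((((j : ℚ)) / ((p : ℚ) ^ 2 - 1) : ℚ) : WithTop ℚ) < v x := by
  rw [s56f_leadOf_of_mem (d.div_mem hx), IsLocalRing.residue_eq_zero_iff,
    ← ValuationSubring.coe_mem_nonunits_iff, d.div_mem_nonunits_iff]

lemma s56f_Dict.leadOf_congr (d : s56f_Dict p P hP π₁ ζ) {j : ℕ} {x y : Qbar}
    (hx : ((((j : ℚ)) / ((p : ℚ) ^ 2 - 1) : ℚ) : WithTop ℚ) ≤ v x)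
    (hxy : ((((j : ℚ)) / ((p : ℚ) ^ 2 - 1) : ℚ) : WithTop ℚ) < v (y - x)) :
    s56f_leadOf P π₁ j y = s56f_leadOf P π₁ j x := by
  have h1 : y = x + (y - x) := by ring
  rw [h1, d.leadOf_add hx hxy.le, (d.leadOf_eq_zero_iff hxy.le).mpr hxy, add_zero]

/-- the tame cocycle `θ(g) = g π₁ / π₁ mod 𝔪_P`. -/
def s56f_theta (P : ValuationSubring Qbar) (π₁ : Qbar) (g : GQ) : IsLocalRing.ResidueField ↥P :=
  s56f_leadOf P π₁ 1 (g π₁)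

/-- `leadOf (g x) = θ(g)^j · ḡ (leadOf x)` for `g ∈ D_P`. -/
lemma s56f_Dict.leadOf_conj (d : s56f_Dict p P hP π₁ ζ) {j : ℕ} {x : Qbar}
    (hx : ((((j : ℚ)) / ((p : ℚ) ^ 2 - 1) : ℚ) : WithTop ℚ) ≤ v x) (g : GQ)
    (hg : g ∈ P.decompositionSubgroup ℚ) :
    s56f_leadOf P π₁ j (g x) = s56f_theta P π₁ g ^ j *
      ((⟨g, hg⟩ : P.decompositionSubgroup ℚ) • s56f_leadOf P π₁ j x) := by
  have hgx : ((((j : ℚ)) / ((p : ℚ) ^ 2 - 1) : ℚ) : WithTop ℚ) ≤ v (g x) := by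
    rw [ford_vQ_decomposition hpF.out hP g hg]; exact hx
  have hπ1 : ((((1 : ℕ) : ℚ) / ((p : ℚ) ^ 2 - 1) : ℚ) : WithTop ℚ) ≤ v (g π₁) := by
    rw [ford_vQ_decomposition hpF.out hP g hg, d.v_pi]
    simp
  have hm1 : g π₁ / π₁ ^ 1 ∈ P := d.div_mem hπ1
  rw [s56f_theta, s56f_leadOf_of_mem hm1, s56f_leadOf_of_mem (d.div_mem hx),
    s56f_leadOf_of_mem (d.div_mem hgx), ← IsLocalRing.ResidueField.residue_smul, ← map_pow,
    ← map_mul]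
  congr 1
  apply Subtype.ext
  show g x / π₁ ^ j = (g π₁ / π₁ ^ 1) ^ j * g (x / π₁ ^ j)
  have hπ0 := d.pi_ne_zero
  have hgπ0 : g π₁ ≠ 0 := by
    intro h0
    apply hπ0
    have := congrArg g.symm h0
    rwa [map_zero, AlgEquiv.symm_apply_apply] at this
  rw [map_div₀, map_pow, pow_one, div_pow]
  field_simp

end LeadOf

section Normal

variable {p : ℕ} [hpF : Fact p.Prime] {P : ValuationSubring Qbar} {hP : P.LiesOverPrime p}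
  {π₁ ζ : Qbar}

local notation "v" => ford_vQ P hpF.out hP

lemma s56f_e_nat_pos : 0 < p ^ 2 - 1 := by
  have : 2 ≤ p := hpF.out.two_le
  have : 4 ≤ p ^ 2 := by nlinarith
  omega

lemma s56f_not_dvd_e : ¬ p ∣ p ^ 2 - 1 := by
  intro h
  have h1 : p ∣ p ^ 2 := dvd_pow_self p (by norm_num)
  have h2 : 1 ≤ p ^ 2 := Nat.one_le_pow _ _ hpF.out.pos
  have h3 : p ∣ p ^ 2 - (p ^ 2 - 1) := Nat.dvd_sub h1 h
  have h4 : p ^ 2 - (p ^ 2 - 1) = 1 := by omega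
  rw [h4] at h3
  exact hpF.out.one_lt.ne' (Nat.dvd_one.mp h3)

/-- inertia fixes the roots of unity of order prime to `p`. -/
lemma s56f_Dict.inertia_fix_root (d : s56f_Dict p P hP π₁ ζ) {η : Qbar} {m : ℕ} (hm : ¬ p ∣ m)
    (hη : η ^ m = 1) {u : GQ} (hu : u ∈ P.inertiaSubgroupIn ℚ) : u η = η := by
  have hm0 : m ≠ 0 := by
    rintro rfl
    exact hm (dvd_zero p)
  have hη0 : η ≠ 0 := by
    rintro rfl
    rw [zero_pow hm0] at hη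
    exact zero_ne_one hη
  have hηP : η ∈ P := by
    rw [s56f_mem_iff hpF.out P hP]
    obtain ⟨a, ha⟩ := s56f_v_eq_coe hpF.out P hP hη0
    have h1 := s56f_v_pow_coe hpF.out P hP ha m
    rw [hη, s56f_v_one hpF.out P hP, WithTop.coe_eq_coe] at h1
    have hm' : (m : ℚ) ≠ 0 := by exact_mod_cast hm0
    have ha0 : a = 0 := by
      rcases mul_eq_zero.mp h1.symm with h | h
      · exact absurd h hm'
      · exact h
    rw [ha, ha0]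
  have hηinvP : η⁻¹ ∈ P := by
    have h1 : η⁻¹ = η ^ (m - 1) := by
      have h2 : η ^ (m - 1) * η = 1 := by
        rw [← pow_succ, Nat.sub_add_cancel (Nat.pos_of_ne_zero hm0), hη]
      exact (eq_inv_of_mul_eq_one_left h2).symm
    rw [h1]
    exact P.pow_mem hηP _
  have h1 := (ford_inertia_spec P u hu).2 η hηP
  -- `u η / η - 1 ∈ 𝔪`
  have h2 : u η / η - 1 ∈ P.nonunits := by
    have h3 : u η / η - 1 = (u η - η) * η⁻¹ := by field_simp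
    rw [h3]
    exact s56f_nonunits_mul_mem P h1 hηinvP
  have h4 : (u η / η) ^ m = 1 := by
    rw [div_pow, ← map_pow, hη, map_one, div_one]
  have h5 := d.redInj _ m hm h4 h2
  rw [div_eq_one_iff_eq hη0] at h5
  exact h5

/-- the inertia group is normalised by the decomposition group. -/
lemma s56f_conj_mem_inertia (A : ValuationSubring Qbar) (σ τ : GQ)
    (hσ : σ ∈ A.decompositionSubgroup ℚ) (hτ : τ ∈ A.inertiaSubgroupIn ℚ) :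
    σ * τ * σ⁻¹ ∈ A.inertiaSubgroupIn ℚ := by
  obtain ⟨t, ht, rfl⟩ := hτ
  refine ⟨⟨σ, hσ⟩ * t * ⟨σ, hσ⟩⁻¹, ?_, rfl⟩
  exact (MonoidHom.normal_ker _).conj_mem t ht ⟨σ, hσ⟩

/-- `g π₁ = η π₁` with `η ^ (p²-1) = 1`, for every `g ∈ G_ℚ`. -/
lemma s56f_Dict.exists_root (d : s56f_Dict p P hP π₁ ζ) (g : GQ) :
    ∃ η : Qbar, η ^ (p ^ 2 - 1) = 1 ∧ g π₁ = η * π₁ := by
  have hπ0 := d.pi_ne_zero
  refine ⟨g π₁ / π₁, ?_, by field_simp⟩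
  rw [div_pow, ← map_pow, d.hπ, map_neg, map_natCast, div_self]
  rw [← d.hπ]
  exact pow_ne_zero _ hπ0

/-- `V₁` is normalised by `D_P`. -/
lemma s56f_Dict.conj_mem_V1 (d : s56f_Dict p P hP π₁ ζ) {g : GQ}
    (hg : g ∈ P.decompositionSubgroup ℚ) {u : GQ} (hu : u ∈ s56f_V1 P π₁) :
    g * u * g⁻¹ ∈ s56f_V1 P π₁ := by
  obtain ⟨huI, huπ⟩ := (s56f_mem_V1 P).mp hu
  refine (s56f_mem_V1 P).mpr ⟨s56f_conj_mem_inertia P g u hg huI, ?_⟩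
  obtain ⟨η, hη, hgη⟩ := d.exists_root g⁻¹
  have h1 : u η = η := d.inertia_fix_root s56f_not_dvd_e hη huI
  rw [AlgEquiv.mul_apply, AlgEquiv.mul_apply, hgη, map_mul, h1, huπ, ← hgη,
    ← AlgEquiv.mul_apply, mul_inv_cancel, AlgEquiv.one_apply]

lemma s56f_Dict.conj_mem_V1' (d : s56f_Dict p P hP π₁ ζ) {g : GQ}
    (hg : g ∈ P.decompositionSubgroup ℚ) {u : GQ} (hu : u ∈ s56f_V1 P π₁) :
    g⁻¹ * u * g ∈ s56f_V1 P π₁ := by
  have h := d.conj_mem_V1 (inv_mem hg) hu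
  rwa [inv_inv] at h

end Normal

section Lead

variable {p : ℕ} [hpF : Fact p.Prime] {P : ValuationSubring Qbar} {hP : P.LiesOverPrime p}
  {π₁ ζ : Qbar}

local notation "v" => ford_vQ P hpF.out hP

/-- **the leading term** of a window character of depth `≥ j/e₁`. -/
def s56f_lead (P : ValuationSubring Qbar) (hP : P.LiesOverPrime p) (π₁ ζ : Qbar) (j : ℕ)
    (χ : GQ → ZMod p) (h : s56f_Win P hP π₁ ζ χ ((j : ℚ) / ((p : ℚ) ^ 2 - 1))) :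
    IsLocalRing.ResidueField ↥P :=
  s56f_leadOf P π₁ j ((Classical.choose h) ^ p - 1)

/-- the leading term does not depend on the Kummer generator. -/
theorem s56f_lead_eq (d : s56f_Dict p P hP π₁ ζ) {j : ℕ} (hj : ¬ p ∣ j) (hj0 : 0 < j)
    (hjtop : (j : ℚ) / ((p : ℚ) ^ 2 - 1) < (p : ℚ) / ((p : ℚ) - 1)) {χ : GQ → ZMod p}
    (h : s56f_Win P hP π₁ ζ χ ((j : ℚ) / ((p : ℚ) ^ 2 - 1))) {α : Qbar}
    (hα : ∀ u ∈ s56f_V1 P π₁, u α = s56f_zpow ζ (χ u) * α)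
    (hv : ((((j : ℚ)) / ((p : ℚ) ^ 2 - 1) : ℚ) : WithTop ℚ) ≤ v (α ^ p - 1)) :
    s56f_lead P hP π₁ ζ j χ h = s56f_leadOf P π₁ j (α ^ p - 1) := by
  obtain ⟨h0, hgen, hv0⟩ := Classical.choose_spec h
  have h1 := s56f_lead_unique d hj hj0 hjtop h0 hgen hα hv0 hv
  have h2 : α ^ p - 1 - ((Classical.choose h) ^ p - 1) = α ^ p - (Classical.choose h) ^ p := by
    ring
  rw [s56f_lead]
  exact (d.leadOf_congr hv0 (by rw [h2]; exact h1)).symm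

/-- only the values on `V₁` matter. -/
theorem s56f_lead_congr (d : s56f_Dict p P hP π₁ ζ) {j : ℕ} (hj : ¬ p ∣ j) (hj0 : 0 < j)
    (hjtop : (j : ℚ) / ((p : ℚ) ^ 2 - 1) < (p : ℚ) / ((p : ℚ) - 1)) {χ χ' : GQ → ZMod p}
    (h : s56f_Win P hP π₁ ζ χ ((j : ℚ) / ((p : ℚ) ^ 2 - 1)))
    (h' : s56f_Win P hP π₁ ζ χ' ((j : ℚ) / ((p : ℚ) ^ 2 - 1)))
    (hχ : ∀ u ∈ s56f_V1 P π₁, χ u = χ' u) :
    s56f_lead P hP π₁ ζ j χ h = s56f_lead P hP π₁ ζ j χ' h' := by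
  obtain ⟨h0, hgen, hv0⟩ := Classical.choose_spec h'
  rw [s56f_lead_eq d hj hj0 hjtop h (α := Classical.choose h')
    (fun u hu => by rw [hχ u hu]; exact hgen u hu) hv0]
  rfl

/-- the leading term is additive. -/
theorem s56f_lead_add (d : s56f_Dict p P hP π₁ ζ) {j : ℕ} (hj : ¬ p ∣ j) (hj0 : 0 < j)
    (hjtop : (j : ℚ) / ((p : ℚ) ^ 2 - 1) < (p : ℚ) / ((p : ℚ) - 1)) {χ₁ χ₂ χ₃ : GQ → ZMod p}
    (h₁ : s56f_Win P hP π₁ ζ χ₁ ((j : ℚ) / ((p : ℚ) ^ 2 - 1)))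
    (h₂ : s56f_Win P hP π₁ ζ χ₂ ((j : ℚ) / ((p : ℚ) ^ 2 - 1)))
    (h₃ : s56f_Win P hP π₁ ζ χ₃ ((j : ℚ) / ((p : ℚ) ^ 2 - 1)))
    (hχ : ∀ u ∈ s56f_V1 P π₁, χ₃ u = χ₁ u + χ₂ u) :
    s56f_lead P hP π₁ ζ j χ₃ h₃ = s56f_lead P hP π₁ ζ j χ₁ h₁ + s56f_lead P hP π₁ ζ j χ₂ h₂ := by
  obtain ⟨h10, hgen1, hv1⟩ := Classical.choose_spec h₁
  obtain ⟨h20, hgen2, hv2⟩ := Classical.choose_spec h₂
  set α₁ := Classical.choose h₁
  set α₂ := Classical.choose h₂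
  have he := s56f_e_pos (p := p)
  have hγ0 : (0 : ℚ) < (j : ℚ) / ((p : ℚ) ^ 2 - 1) := by
    apply div_pos _ he; exact_mod_cast hj0
  have hexp : (α₁ * α₂) ^ p - 1 =
      (α₁ ^ p - 1) + (α₂ ^ p - 1) + (α₁ ^ p - 1) * (α₂ ^ p - 1) := by ring
  have hvab : ((((j : ℚ)) / ((p : ℚ) ^ 2 - 1) : ℚ) : WithTop ℚ) <
      v ((α₁ ^ p - 1) * (α₂ ^ p - 1)) := by
    refine lt_of_lt_of_le ?_ (s56f_le_v_mul hpF.out P hP hv1 hv2)
    exact WithTop.coe_lt_coe.mpr (by linarith)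
  have hvsum := s56f_le_v_add hpF.out P hP hv1 hv2
  have hgen3 : ∀ u ∈ s56f_V1 P π₁, u (α₁ * α₂) = s56f_zpow ζ (χ₃ u) * (α₁ * α₂) := by
    intro u hu
    rw [map_mul, hgen1 u hu, hgen2 u hu, hχ u hu, s56f_zpow_add d.hζ]
    ring
  have hv3 : ((((j : ℚ)) / ((p : ℚ) ^ 2 - 1) : ℚ) : WithTop ℚ) ≤ v ((α₁ * α₂) ^ p - 1) := by
    rw [hexp]
    exact s56f_le_v_add hpF.out P hP hvsum hvab.le
  rw [s56f_lead_eq d hj hj0 hjtop h₃ hgen3 hv3, hexp, d.leadOf_add hvsum hvab.le,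
    d.leadOf_add hv1 hv2, (d.leadOf_eq_zero_iff hvab.le).mpr hvab, add_zero]
  rfl

/-- vanishing leading term: the depth is `≥ (j+1)/e₁`. -/
theorem s56f_win_of_lead_eq_zero (d : s56f_Dict p P hP π₁ ζ) {j : ℕ} {χ : GQ → ZMod p}
    (h : s56f_Win P hP π₁ ζ χ ((j : ℚ) / ((p : ℚ) ^ 2 - 1)))
    (h0 : s56f_lead P hP π₁ ζ j χ h = 0) :
    s56f_Win P hP π₁ ζ χ (((j : ℚ) + 1) / ((p : ℚ) ^ 2 - 1)) := by
  obtain ⟨hα0, hgen, hv0⟩ := Classical.choose_spec h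
  refine ⟨Classical.choose h, hα0, hgen, ?_⟩
  have hxfix : ∀ u ∈ s56f_V1 P π₁, u ((Classical.choose h) ^ p - 1) = (Classical.choose h) ^ p - 1 := by
    intro u hu
    rw [map_sub, map_one, s56f_kummer_pow_fixed d.hζ hgen hu]
  exact d.succ_le hxfix ((d.leadOf_eq_zero_iff hv0).mp h0)

/-- conjugation of window characters. -/
theorem s56f_Win.conj (d : s56f_Dict p P hP π₁ ζ) {χ : GQ → ZMod p} {γ : ℚ}
    (h : s56f_Win P hP π₁ ζ χ γ) {g : GQ} (hg : g ∈ P.decompositionSubgroup ℚ) (a : ZMod p)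
    (hgζ : g ζ = s56f_zpow ζ a) :
    s56f_Win P hP π₁ ζ (fun u => a * χ (g⁻¹ * u * g)) γ := by
  obtain ⟨α, hα0, hgen, hv0⟩ := h
  refine ⟨g α, ?_, s56f_kummer_conj d.hζ hgen g a hgζ (fun u hu => d.conj_mem_V1' hg hu), ?_⟩
  · intro h0
    apply hα0
    have := congrArg g.symm h0
    rwa [map_zero, AlgEquiv.symm_apply_apply] at this
  · have h1 : (g α) ^ p - 1 = g (α ^ p - 1) := by rw [map_sub, map_pow, map_one]
    rw [h1, ford_vQ_decomposition hpF.out hP g hg]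
    exact hv0

/-- **equivariance of the leading term.** -/
theorem s56f_lead_conj (d : s56f_Dict p P hP π₁ ζ) {j : ℕ} (hj : ¬ p ∣ j) (hj0 : 0 < j)
    (hjtop : (j : ℚ) / ((p : ℚ) ^ 2 - 1) < (p : ℚ) / ((p : ℚ) - 1)) {χ χ' : GQ → ZMod p}
    (h : s56f_Win P hP π₁ ζ χ ((j : ℚ) / ((p : ℚ) ^ 2 - 1)))
    (h' : s56f_Win P hP π₁ ζ χ' ((j : ℚ) / ((p : ℚ) ^ 2 - 1)))
    {g : GQ} (hg : g ∈ P.decompositionSubgroup ℚ) (a : ZMod p) (hgζ : g ζ = s56f_zpow ζ a)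
    (hχ : ∀ u ∈ s56f_V1 P π₁, χ' u = a * χ (g⁻¹ * u * g)) :
    s56f_lead P hP π₁ ζ j χ' h' = s56f_theta P π₁ g ^ j *
      ((⟨g, hg⟩ : P.decompositionSubgroup ℚ) • s56f_lead P hP π₁ ζ j χ h) := by
  obtain ⟨hα0, hgen, hv0⟩ := Classical.choose_spec h
  set α := Classical.choose h
  have hgen' : ∀ u ∈ s56f_V1 P π₁, u (g α) = s56f_zpow ζ (χ' u) * g α := by
    intro u hu
    rw [hχ u hu]
    exact s56f_kummer_conj d.hζ hgen g a hgζ (fun u hu => d.conj_mem_V1' hg hu) u hu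
  have h1 : (g α) ^ p - 1 = g (α ^ p - 1) := by rw [map_sub, map_pow, map_one]
  have hv' : ((((j : ℚ)) / ((p : ℚ) ^ 2 - 1) : ℚ) : WithTop ℚ) ≤ v ((g α) ^ p - 1) := by
    rw [h1, ford_vQ_decomposition hpF.out hP g hg]
    exact hv0
  rw [s56f_lead_eq d hj hj0 hjtop h' hgen' hv', h1, d.leadOf_conj hv0 g hg]
  rfl

end Lead

end Fermat.Agent.Lib.S56
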