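/-
PROGRAMME W (S56), wall [W8-F3] (helper3, prefix `s56f_`): **the character count.**

`𝓗_ψ(D')` (`s56f_InH`): the functions `h : V₁ → k` with `h (g u g⁻¹) = ψ(g) h(u)` for `g ∈ D'`, all of
whose `𝔽_p`-components `λ₀ (x · h)` are window characters of depth `≥ 1`.
* `s56f_cc_vanish` : no hit in the window `e₁ ≤ j < p² + p` ⇒ `h|_{V₁} = 0`;
* `s56f_cc_one` : a single possible hit `j₀`, with (Count) there ⇒ any two elements are proportional;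
* `s56f_cc_triv`, `s56f_cc_f1`, `s56f_cc_f2` : the three cases used by the assemblies.
-/
import Mathlib
import Fermat.Agent.Lib.S56.F3Lead
import Fermat.Agent.Lib.S18.XPerfect

set_option autoImplicit false

noncomputable section

namespace Fermat.Agent.Lib.S56

open Fermat.Agent.Lib.PT Fermat.Agent.Lib.Frey Polynomial

local notation "Qbar" => AlgebraicClosure ℚ
local notation "GQ" => (AlgebraicClosure ℚ ≃ₐ[ℚ] AlgebraicClosure ℚ)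

section WinOps

variable {p : ℕ} [hpF : Fact p.Prime] {P : ValuationSubring Qbar} {hP : P.LiesOverPrime p}
  {π₁ ζ : Qbar}

local notation "v" => ford_vQ P hpF.out hP

/-- window characters of positive depth are closed under subtraction. -/
theorem s56f_Win.sub (d : s56f_Dict p P hP π₁ ζ) {χ₁ χ₂ χ₃ : GQ → ZMod p} {γ : ℚ} (hγ : 0 < γ)
    (h₁ : s56f_Win P hP π₁ ζ χ₁ γ) (h₂ : s56f_Win P hP π₁ ζ χ₂ γ)
    (hχ : ∀ u ∈ s56f_V1 P π₁, χ₃ u = χ₁ u - χ₂ u) : s56f_Win P hP π₁ ζ χ₃ γ := by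
  obtain ⟨α₁, h10, hgen1, hv1⟩ := h₁
  obtain ⟨α₂, h20, hgen2, hv2⟩ := h₂
  refine ⟨α₁ / α₂, div_ne_zero h10 h20, ?_, ?_⟩
  · intro u hu
    rw [map_div₀, hgen1 u hu, hgen2 u hu, hχ u hu]
    have h3 : s56f_zpow ζ (χ₁ u - χ₂ u) * s56f_zpow ζ (χ₂ u) = s56f_zpow ζ (χ₁ u) := by
      rw [← s56f_zpow_add d.hζ, sub_add_cancel]
    have h4 := s56f_zpow_ne_zero d.hζ (χ₂ u)
    rw [← h3]
    field_simp
  · have hv20 : v (α₂ ^ p) = ((0 : ℚ) : WithTop ℚ) := by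
      have h5 : α₂ ^ p = 1 + (α₂ ^ p - 1) := by ring
      rw [h5]
      exact s56f_v_one_add hpF.out P hP (lt_of_lt_of_le (by exact_mod_cast hγ) hv2)
    have h5 : (α₁ / α₂) ^ p - 1 = ((α₁ ^ p - 1) - (α₂ ^ p - 1)) * (α₂ ^ p)⁻¹ := by
      have h6 : α₂ ^ p ≠ 0 := pow_ne_zero _ h20
      rw [div_pow]
      field_simp
      ring
    rw [h5]
    have h6 := s56f_le_v_sub hpF.out P hP hv1 hv2
    have h7 : v ((α₂ ^ p)⁻¹) = (((-0 : ℚ)) : WithTop ℚ) := s56f_v_inv hpF.out P hP hv20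
    have h8 := s56f_le_v_mul hpF.out P hP h6 h7.ge
    simpa using h8

/-- inertia acts trivially on the residue field. -/
lemma s56f_inertia_smul {τ : GQ} (hτ : τ ∈ P.inertiaSubgroupIn ℚ)
    (hτD : τ ∈ P.decompositionSubgroup ℚ) (y : IsLocalRing.ResidueField ↥P) :
    (⟨τ, hτD⟩ : P.decompositionSubgroup ℚ) • y = y := by
  obtain ⟨t, ht, rfl⟩ := hτ
  have h1 : (⟨(P.decompositionSubgroup ℚ).subtype t, hτD⟩ : P.decompositionSubgroup ℚ) = t :=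
    Subtype.ext rfl
  rw [h1]
  exact RingEquiv.congr_fun (MonoidHom.mem_ker.mp ht) y

/-- `j < p² + p` means depth `< p/(p-1)`. -/
lemma s56f_jtop {j : ℕ} (hj : j < p ^ 2 + p) :
    (j : ℚ) / ((p : ℚ) ^ 2 - 1) < (p : ℚ) / ((p : ℚ) - 1) := by
  have hp1 := s56f_p_gt_one (p := p)
  have he := s56f_e_pos (p := p)
  have h1 : (p : ℚ) / ((p : ℚ) - 1) = ((p : ℚ) ^ 2 + p) / ((p : ℚ) ^ 2 - 1) := by
    have h2 : (p : ℚ) - 1 ≠ 0 := by linarith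
    field_simp
    ring
  rw [h1]
  apply div_lt_div_of_pos_right _ he
  exact_mod_cast hj

lemma s56f_jtop_eq : (((p ^ 2 + p : ℕ) : ℚ)) / ((p : ℚ) ^ 2 - 1) = (p : ℚ) / ((p : ℚ) - 1) := by
  have hp1 := s56f_p_gt_one (p := p)
  have he := s56f_e_pos (p := p)
  have h2 : (p : ℚ) - 1 ≠ 0 := by linarith
  push_cast
  field_simp
  ring

lemma s56f_jbot_eq : (((p ^ 2 - 1 : ℕ) : ℚ)) / ((p : ℚ) ^ 2 - 1) = 1 := by
  have he := s56f_e_pos (p := p)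
  have h1 : 1 ≤ p ^ 2 := Nat.one_le_pow _ _ hpF.out.pos
  rw [Nat.cast_sub h1]
  push_cast
  exact div_self he.ne'

end WinOps

section LeadMap

variable {p : ℕ} [hpF : Fact p.Prime] {P : ValuationSubring Qbar} {hP : P.LiesOverPrime p}
  {π₁ ζ : Qbar} {k : Type} [Field k] [Algebra (ZMod p) k]

local notation "v" => ford_vQ P hpF.out hP

/-- the `𝔽_p`-components of `h`. -/
def s56f_comp (lam0 : k →ₗ[ZMod p] ZMod p) (h : GQ → k) (x : k) : GQ → ZMod p :=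
  fun u => lam0 (x * h u)

/-- **the leading-term map** `A_h : k → κ` of `h` at depth `j`. -/
def s56f_leadMap (d : s56f_Dict p P hP π₁ ζ) {j : ℕ} (hj : ¬ p ∣ j) (hj0 : 0 < j)
    (hjtop : (j : ℚ) / ((p : ℚ) ^ 2 - 1) < (p : ℚ) / ((p : ℚ) - 1))
    (lam0 : k →ₗ[ZMod p] ZMod p) (h : GQ → k)
    (hW : ∀ x : k, s56f_Win P hP π₁ ζ (s56f_comp lam0 h x) ((j : ℚ) / ((p : ℚ) ^ 2 - 1))) :
    k →+ IsLocalRing.ResidueField ↥P :=
  AddMonoidHom.mk' (fun x => s56f_lead P hP π₁ ζ j _ (hW x)) (fun x y =>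
    s56f_lead_add d hj hj0 hjtop (hW x) (hW y) (hW (x + y)) (fun u _ => by
      show lam0 ((x + y) * h u) = lam0 (x * h u) + lam0 (y * h u)
      rw [add_mul, map_add]))

lemma s56f_leadMap_apply (d : s56f_Dict p P hP π₁ ζ) {j : ℕ} (hj : ¬ p ∣ j) (hj0 : 0 < j)
    (hjtop : (j : ℚ) / ((p : ℚ) ^ 2 - 1) < (p : ℚ) / ((p : ℚ) - 1))
    (lam0 : k →ₗ[ZMod p] ZMod p) (h : GQ → k)
    (hW : ∀ x : k, s56f_Win P hP π₁ ζ (s56f_comp lam0 h x) ((j : ℚ) / ((p : ℚ) ^ 2 - 1)))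
    (x : k) :
    s56f_leadMap d hj hj0 hjtop lam0 h hW x = s56f_lead P hP π₁ ζ j _ (hW x) := rfl

/-- **equivariance of the leading-term map.** -/
theorem s56f_leadMap_conj (d : s56f_Dict p P hP π₁ ζ) {j : ℕ} (hj : ¬ p ∣ j) (hj0 : 0 < j)
    (hjtop : (j : ℚ) / ((p : ℚ) ^ 2 - 1) < (p : ℚ) / ((p : ℚ) - 1))
    (lam0 : k →ₗ[ZMod p] ZMod p) (h : GQ → k)
    (hW : ∀ x : k, s56f_Win P hP π₁ ζ (s56f_comp lam0 h x) ((j : ℚ) / ((p : ℚ) ^ 2 - 1)))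
    {g : GQ} (hg : g ∈ P.decompositionSubgroup ℚ) (a : ZMod p) (hgζ : g ζ = s56f_zpow ζ a)
    {ψg : k} (hψg : ψg ≠ 0)
    (heq : ∀ u ∈ s56f_V1 P π₁, h (g * u * g⁻¹) = ψg * h u) (x : k) :
    s56f_leadMap d hj hj0 hjtop lam0 h hW (algebraMap (ZMod p) k a * ψg⁻¹ * x) =
      s56f_theta P π₁ g ^ j * ((⟨g, hg⟩ : P.decompositionSubgroup ℚ) •
        s56f_leadMap d hj hj0 hjtop lam0 h hW x) := by
  rw [s56f_leadMap_apply, s56f_leadMap_apply]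
  refine s56f_lead_conj d hj hj0 hjtop (hW x) (hW _) hg a hgζ (fun u hu => ?_)
  have hu' := d.conj_mem_V1' hg hu
  have h1 := heq _ hu'
  have h2 : g * (g⁻¹ * u * g) * g⁻¹ = u := by group
  rw [h2] at h1
  have h3 : h (g⁻¹ * u * g) = ψg⁻¹ * h u := by
    rw [h1, ← mul_assoc, inv_mul_cancel₀ hψg, one_mul]
  show lam0 (algebraMap (ZMod p) k a * ψg⁻¹ * x * h u) = a * lam0 (x * h (g⁻¹ * u * g))
  rw [h3, ← smul_eq_mul a, ← map_smul, Algebra.smul_def]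
  congr 1
  ring

/-- vanishing leading-term map: the depth goes up. -/
theorem s56f_raise_of_leadMap_eq_zero (d : s56f_Dict p P hP π₁ ζ) {j : ℕ} (hj : ¬ p ∣ j)
    (hj0 : 0 < j) (hjtop : (j : ℚ) / ((p : ℚ) ^ 2 - 1) < (p : ℚ) / ((p : ℚ) - 1))
    (lam0 : k →ₗ[ZMod p] ZMod p) (h : GQ → k)
    (hW : ∀ x : k, s56f_Win P hP π₁ ζ (s56f_comp lam0 h x) ((j : ℚ) / ((p : ℚ) ^ 2 - 1)))
    (h0 : s56f_leadMap d hj hj0 hjtop lam0 h hW = 0) (x : k) :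
    s56f_Win P hP π₁ ζ (s56f_comp lam0 h x) ((((j + 1 : ℕ)) : ℚ) / ((p : ℚ) ^ 2 - 1)) := by
  have h1 : s56f_lead P hP π₁ ζ j _ (hW x) = 0 := by
    rw [← s56f_leadMap_apply d hj hj0 hjtop lam0 h hW x, h0]
    rfl
  have h2 := s56f_win_of_lead_eq_zero d (hW x) h1
  have h3 : (((j + 1 : ℕ)) : ℚ) = (j : ℚ) + 1 := by push_cast; ring
  rw [h3]
  exact h2

end LeadMap

section Climb

variable {p : ℕ} [hpF : Fact p.Prime] {P : ValuationSubring Qbar} {hP : P.LiesOverPrime p}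
  {π₁ ζ : Qbar} {k : Type} [Field k] [Algebra (ZMod p) k]

local notation "v" => ford_vQ P hpF.out hP

/-- a generator `τ` of tame inertia of level `p² - 1`: `τ π₁ = ξ π₁`, `τ ζ = ζ ^ aτ`. -/
structure s56f_TauData (P : ValuationSubring Qbar) (π₁ ζ : Qbar) (τ : GQ) (ξ : Qbar)
    (aτ : ZMod p) : Prop where
  mem : τ ∈ P.inertiaSubgroupIn ℚ
  ord : orderOf ξ = p ^ 2 - 1
  pi : τ π₁ = ξ * π₁
  zeta : τ ζ = s56f_zpow ζ aτ
  omega : ξ ^ (p + 1) - ((aτ.val : ℕ) : Qbar) ∈ P.nonunits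

lemma s56f_TauData.memD {τ : GQ} {ξ : Qbar} {aτ : ZMod p} (T : s56f_TauData P π₁ ζ τ ξ aτ) :
    τ ∈ P.decompositionSubgroup ℚ := (ford_inertia_spec P τ T.mem).1

/-- one step of the depth induction. -/
theorem s56f_step (d : s56f_Dict p P hP π₁ ζ) {τ : GQ} {ξ : Qbar} {aτ : ZMod p}
    (T : s56f_TauData P π₁ ζ τ ξ aτ) {ψτ : k} (hψτ : ψτ ≠ 0)
    (lam0 : k →ₗ[ZMod p] ZMod p) (h : GQ → k)
    (hτeq : ∀ u ∈ s56f_V1 P π₁, h (τ * u * τ⁻¹) = ψτ * h u)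
    {j : ℕ} (hjlo : p ^ 2 - 1 ≤ j) (hjhi : j < p ^ 2 + p)
    (hno : ¬ p ∣ j → ∀ A : k →+ IsLocalRing.ResidueField ↥P,
      (∀ x, A (algebraMap (ZMod p) k aτ * ψτ⁻¹ * x) = s56f_theta P π₁ τ ^ j * A x) → A = 0)
    (hW : ∀ x : k, s56f_Win P hP π₁ ζ (s56f_comp lam0 h x) ((j : ℚ) / ((p : ℚ) ^ 2 - 1)))
    (x : k) :
    s56f_Win P hP π₁ ζ (s56f_comp lam0 h x) ((((j + 1 : ℕ)) : ℚ) / ((p : ℚ) ^ 2 - 1)) := by
  have hj0 : 0 < j := lt_of_lt_of_le (s56f_e_nat_pos (p := p)) hjlo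
  have hjtop := s56f_jtop (p := p) hjhi
  by_cases hpj : p ∣ j
  · have h2 := s56f_win_raise d hpj hj0 hjtop (hW x)
    have h3 : (((j + 1 : ℕ)) : ℚ) = (j : ℚ) + 1 := by push_cast; ring
    rw [h3]
    exact h2
  · refine s56f_raise_of_leadMap_eq_zero d hpj hj0 hjtop lam0 h hW (hno hpj _ (fun y => ?_)) x
    rw [s56f_leadMap_conj d hpj hj0 hjtop lam0 h hW T.memD aτ T.zeta hψτ hτeq y,
      s56f_inertia_smul T.mem T.memD]

/-- **climbing**: no hit in `[j, j₁)` ⇒ the depth goes from `j` up to `j₁`. -/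
theorem s56f_climb (d : s56f_Dict p P hP π₁ ζ) {τ : GQ} {ξ : Qbar} {aτ : ZMod p}
    (T : s56f_TauData P π₁ ζ τ ξ aτ) {ψτ : k} (hψτ : ψτ ≠ 0)
    (lam0 : k →ₗ[ZMod p] ZMod p) (h : GQ → k)
    (hτeq : ∀ u ∈ s56f_V1 P π₁, h (τ * u * τ⁻¹) = ψτ * h u)
    (j₁ : ℕ) (hj₁ : j₁ ≤ p ^ 2 + p) :
    ∀ (n j : ℕ), j + n = j₁ → p ^ 2 - 1 ≤ j →
    (∀ j', j ≤ j' → j' < j₁ → ¬ p ∣ j' → ∀ A : k →+ IsLocalRing.ResidueField ↥P,
      (∀ x, A (algebraMap (ZMod p) k aτ * ψτ⁻¹ * x) = s56f_theta P π₁ τ ^ j' * A x) → A = 0) →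
    (∀ x : k, s56f_Win P hP π₁ ζ (s56f_comp lam0 h x) ((j : ℚ) / ((p : ℚ) ^ 2 - 1))) →
    ∀ x : k, s56f_Win P hP π₁ ζ (s56f_comp lam0 h x) ((j₁ : ℚ) / ((p : ℚ) ^ 2 - 1)) := by
  intro n
  induction n with
  | zero =>
    intro j hj _ _ hW
    rw [add_zero] at hj
    rw [← hj]
    exact hW
  | succ n ih =>
    intro j hj hjlo hno hW
    have hjlt : j < j₁ := by omega
    refine ih (j + 1) (by omega) (by omega) (fun j' h1 h2 => hno j' (by omega) h2) ?_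
    exact s56f_step d T hψτ lam0 h hτeq hjlo (by omega) (hno j le_rfl hjlt) hW

/-- nondegeneracy of `(x, y) ↦ λ₀ (x y)`. -/
lemma s56f_lam0_nondeg {lam0 : k →ₗ[ZMod p] ZMod p} (hlam : lam0 ≠ 0) {y : k}
    (hy : ∀ x : k, lam0 (x * y) = 0) : y = 0 := by
  by_contra hy0
  apply hlam
  ext z
  have := hy (z * y⁻¹)
  rw [mul_assoc, inv_mul_cancel₀ hy0, mul_one] at this
  simpa using this

/-- at the top of the window the function vanishes on `V₁`. -/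
theorem s56f_vanish_top (d : s56f_Dict p P hP π₁ ζ) {lam0 : k →ₗ[ZMod p] ZMod p}
    (hlam : lam0 ≠ 0) (h : GQ → k)
    (hW : ∀ x : k, s56f_Win P hP π₁ ζ (s56f_comp lam0 h x)
      ((((p ^ 2 + p : ℕ)) : ℚ) / ((p : ℚ) ^ 2 - 1))) :
    ∀ u ∈ s56f_V1 P π₁, h u = 0 := by
  intro u hu
  apply s56f_lam0_nondeg hlam
  intro x
  exact s56f_win_top d (s56f_jtop_eq (p := p)).ge (hW x) u hu

/-- **no hit ⇒ vanishing.** -/
theorem s56f_cc_vanish_from (d : s56f_Dict p P hP π₁ ζ) {τ : GQ} {ξ : Qbar} {aτ : ZMod p}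
    (T : s56f_TauData P π₁ ζ τ ξ aτ) {ψτ : k} (hψτ : ψτ ≠ 0)
    {lam0 : k →ₗ[ZMod p] ZMod p} (hlam : lam0 ≠ 0) (h : GQ → k)
    (hτeq : ∀ u ∈ s56f_V1 P π₁, h (τ * u * τ⁻¹) = ψτ * h u)
    {j : ℕ} (hjlo : p ^ 2 - 1 ≤ j) (hjhi : j ≤ p ^ 2 + p)
    (hno : ∀ j', j ≤ j' → j' < p ^ 2 + p → ¬ p ∣ j' → ∀ A : k →+ IsLocalRing.ResidueField ↥P,
      (∀ x, A (algebraMap (ZMod p) k aτ * ψτ⁻¹ * x) = s56f_theta P π₁ τ ^ j' * A x) → A = 0)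
    (hW : ∀ x : k, s56f_Win P hP π₁ ζ (s56f_comp lam0 h x) ((j : ℚ) / ((p : ℚ) ^ 2 - 1))) :
    ∀ u ∈ s56f_V1 P π₁, h u = 0 := by
  refine s56f_vanish_top d hlam h ?_
  exact s56f_climb d T hψτ lam0 h hτeq (p ^ 2 + p) le_rfl (p ^ 2 + p - j) j (by omega) hjlo hno hW

end Climb

section Count

variable {p : ℕ} [hpF : Fact p.Prime] {P : ValuationSubring Qbar} {hP : P.LiesOverPrime p}
  {π₁ ζ : Qbar} {k : Type} [Field k] [Algebra (ZMod p) k]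

local notation "v" => ford_vQ P hpF.out hP

/-- **`h ∈ 𝓗_ψ(D')`**: `h (g u g⁻¹) = ψ(g) h(u)` for `g ∈ D'`, `u ∈ V₁`, and all the components
`λ₀ (x · h)` are window characters of depth `≥ 1`. -/
structure s56f_InH (P : ValuationSubring Qbar) (hP : P.LiesOverPrime p) (π₁ ζ : Qbar)
    (D' : Set GQ) (ψ : GQ → k) (lam0 : k →ₗ[ZMod p] ZMod p) (h : GQ → k) : Prop where
  equiv : ∀ g ∈ D', ∀ u ∈ s56f_V1 P π₁, h (g * u * g⁻¹) = ψ g * h u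
  win : ∀ x : k, s56f_Win P hP π₁ ζ (s56f_comp lam0 h x) 1

lemma s56f_InH.win' {D' : Set GQ} {ψ : GQ → k} {lam0 : k →ₗ[ZMod p] ZMod p} {h : GQ → k}
    (hh : s56f_InH P hP π₁ ζ D' ψ lam0 h) (x : k) :
    s56f_Win P hP π₁ ζ (s56f_comp lam0 h x) ((((p ^ 2 - 1 : ℕ)) : ℚ) / ((p : ℚ) ^ 2 - 1)) := by
  rw [s56f_jbot_eq]
  exact hh.win x

/-- **(CC-vanish)** no hit in the window ⇒ `h|_{V₁} = 0`. -/
theorem s56f_cc_vanish (d : s56f_Dict p P hP π₁ ζ) {τ : GQ} {ξ : Qbar} {aτ : ZMod p}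
    (T : s56f_TauData P π₁ ζ τ ξ aτ) {D' : Set GQ} (hτD' : τ ∈ D') {ψ : GQ → k}
    (hψτ : ψ τ ≠ 0) {lam0 : k →ₗ[ZMod p] ZMod p} (hlam : lam0 ≠ 0)
    (hno : ∀ j, p ^ 2 - 1 ≤ j → j < p ^ 2 + p → ¬ p ∣ j →
      ∀ A : k →+ IsLocalRing.ResidueField ↥P,
      (∀ x, A (algebraMap (ZMod p) k aτ * (ψ τ)⁻¹ * x) = s56f_theta P π₁ τ ^ j * A x) → A = 0)
    {h : GQ → k} (hh : s56f_InH P hP π₁ ζ D' ψ lam0 h) :
    ∀ u ∈ s56f_V1 P π₁, h u = 0 := by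
  have he : p ^ 2 - 1 ≤ p ^ 2 + p := by omega
  exact s56f_cc_vanish_from d T hψτ hlam h (hh.equiv τ hτD') le_rfl he hno hh.win'

/-- **(CC-one)** a single possible hit `j₀`, with the (Count) property there: any two elements of
`𝓗_ψ(D')` are proportional on `V₁`. -/
theorem s56f_cc_one (d : s56f_Dict p P hP π₁ ζ) {τ : GQ} {ξ : Qbar} {aτ : ZMod p}
    (T : s56f_TauData P π₁ ζ τ ξ aτ) {D' : Set GQ} (hτD' : τ ∈ D') {ψ : GQ → k}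
    (hψτ : ψ τ ≠ 0) {lam0 : k →ₗ[ZMod p] ZMod p} (hlam : lam0 ≠ 0)
    {φ' : GQ} (hφD : φ' ∈ P.decompositionSubgroup ℚ) (hφD' : φ' ∈ D') {aφ : ZMod p}
    (hφζ : φ' ζ = s56f_zpow ζ aφ) (hψφ : ψ φ' ≠ 0) {f : ℕ}
    (hφ : ∀ y : IsLocalRing.ResidueField ↥P,
      (⟨φ', hφD⟩ : P.decompositionSubgroup ℚ) • y = y ^ (p ^ f))
    {j₀ : ℕ} (hj₀lo : p ^ 2 - 1 ≤ j₀) (hj₀hi : j₀ < p ^ 2 + p) (hj₀ : ¬ p ∣ j₀)
    (hno : ∀ j, p ^ 2 - 1 ≤ j → j < p ^ 2 + p → ¬ p ∣ j → j ≠ j₀ →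
      ∀ A : k →+ IsLocalRing.ResidueField ↥P,
      (∀ x, A (algebraMap (ZMod p) k aτ * (ψ τ)⁻¹ * x) = s56f_theta P π₁ τ ^ j * A x) → A = 0)
    (hcnt : ∀ A B : k →+ IsLocalRing.ResidueField ↥P,
      (∀ x, A (algebraMap (ZMod p) k aτ * (ψ τ)⁻¹ * x) = s56f_theta P π₁ τ ^ j₀ * A x) →
      (∀ x, A (algebraMap (ZMod p) k aφ * (ψ φ')⁻¹ * x) =
        s56f_theta P π₁ φ' ^ j₀ * A x ^ (p ^ f)) →
      (∀ x, B (algebraMap (ZMod p) k aτ * (ψ τ)⁻¹ * x) = s56f_theta P π₁ τ ^ j₀ * B x) →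
      (∀ x, B (algebraMap (ZMod p) k aφ * (ψ φ')⁻¹ * x) =
        s56f_theta P π₁ φ' ^ j₀ * B x ^ (p ^ f)) →
      A ≠ 0 → ∃ c : k, ∀ x, B x = A (c * x))
    {h h' : GQ → k} (hh : s56f_InH P hP π₁ ζ D' ψ lam0 h)
    (hh' : s56f_InH P hP π₁ ζ D' ψ lam0 h') (hne : ∃ u ∈ s56f_V1 P π₁, h u ≠ 0) :
    ∃ c : k, ∀ u ∈ s56f_V1 P π₁, h' u = c * h u := by
  have hj0 : 0 < j₀ := lt_of_lt_of_le (s56f_e_nat_pos (p := p)) hj₀lo
  have hjtop := s56f_jtop (p := p) hj₀hi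
  -- both have depth `≥ j₀`
  have hclimb : ∀ h₁ : GQ → k, s56f_InH P hP π₁ ζ D' ψ lam0 h₁ → ∀ x : k,
      s56f_Win P hP π₁ ζ (s56f_comp lam0 h₁ x) ((j₀ : ℚ) / ((p : ℚ) ^ 2 - 1)) := by
    intro h₁ hh₁
    exact s56f_climb d T hψτ lam0 h₁ (hh₁.equiv τ hτD') j₀ hj₀hi.le (j₀ - (p ^ 2 - 1)) (p ^ 2 - 1)
      (by omega) le_rfl (fun j' h1 h2 h3 => hno j' h1 (by omega) h3 (by omega)) hh₁.win'
  have hW := hclimb h hh
  have hW' := hclimb h' hh'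
  -- the equations of the leading-term maps
  have heqs : ∀ (h₁ : GQ → k) (hτeq : ∀ u ∈ s56f_V1 P π₁, h₁ (τ * u * τ⁻¹) = ψ τ * h₁ u)
      (hφeq : ∀ u ∈ s56f_V1 P π₁, h₁ (φ' * u * φ'⁻¹) = ψ φ' * h₁ u)
      (hW₁ : ∀ x : k, s56f_Win P hP π₁ ζ (s56f_comp lam0 h₁ x) ((j₀ : ℚ) / ((p : ℚ) ^ 2 - 1))),
      (∀ x, s56f_leadMap d hj₀ hj0 hjtop lam0 h₁ hW₁ (algebraMap (ZMod p) k aτ * (ψ τ)⁻¹ * x) =
        s56f_theta P π₁ τ ^ j₀ * s56f_leadMap d hj₀ hj0 hjtop lam0 h₁ hW₁ x) ∧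
      (∀ x, s56f_leadMap d hj₀ hj0 hjtop lam0 h₁ hW₁ (algebraMap (ZMod p) k aφ * (ψ φ')⁻¹ * x) =
        s56f_theta P π₁ φ' ^ j₀ * s56f_leadMap d hj₀ hj0 hjtop lam0 h₁ hW₁ x ^ (p ^ f)) := by
    intro h₁ hτeq hφeq hW₁
    refine ⟨fun x => ?_, fun x => ?_⟩
    · rw [s56f_leadMap_conj d hj₀ hj0 hjtop lam0 h₁ hW₁ T.memD aτ T.zeta hψτ hτeq x,
        s56f_inertia_smul T.mem T.memD]
    · rw [s56f_leadMap_conj d hj₀ hj0 hjtop lam0 h₁ hW₁ hφD aφ hφζ hψφ hφeq x, hφ]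
  -- above `j₀` there is no hit
  have habove : ∀ (h₁ : GQ → k) (hτeq : ∀ u ∈ s56f_V1 P π₁, h₁ (τ * u * τ⁻¹) = ψ τ * h₁ u)
      (hW₁ : ∀ x : k, s56f_Win P hP π₁ ζ (s56f_comp lam0 h₁ x) ((j₀ : ℚ) / ((p : ℚ) ^ 2 - 1))),
      s56f_leadMap d hj₀ hj0 hjtop lam0 h₁ hW₁ = 0 → ∀ u ∈ s56f_V1 P π₁, h₁ u = 0 := by
    intro h₁ hτeq hW₁ h0
    have hW₂ := s56f_raise_of_leadMap_eq_zero d hj₀ hj0 hjtop lam0 h₁ hW₁ h0
    exact s56f_cc_vanish_from d T hψτ hlam h₁ hτeq (by omega) (by omega)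
      (fun j' h1 h2 h3 => hno j' (by omega) h2 h3 (by omega)) hW₂
  obtain ⟨hAτ, hAφ⟩ := heqs h (hh.equiv τ hτD') (hh.equiv φ' hφD') hW
  obtain ⟨hBτ, hBφ⟩ := heqs h' (hh'.equiv τ hτD') (hh'.equiv φ' hφD') hW'
  have hA0 : s56f_leadMap d hj₀ hj0 hjtop lam0 h hW ≠ 0 := by
    intro h0
    obtain ⟨u, hu, hne'⟩ := hne
    exact hne' (habove h (hh.equiv τ hτD') hW h0 u hu)
  obtain ⟨c, hc⟩ := hcnt _ _ hAτ hAφ hBτ hBφ hA0
  refine ⟨c, fun u hu => ?_⟩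
  -- `h'' = h' - c h`
  have hγ0 : (0 : ℚ) < (j₀ : ℚ) / ((p : ℚ) ^ 2 - 1) := by
    apply div_pos _ (s56f_e_pos (p := p)); exact_mod_cast hj0
  have hW'' : ∀ x : k, s56f_Win P hP π₁ ζ (s56f_comp lam0 (fun u => h' u - c * h u) x)
      ((j₀ : ℚ) / ((p : ℚ) ^ 2 - 1)) := by
    intro x
    refine s56f_Win.sub d hγ0 (hW' x) (hW (c * x)) (fun u _ => ?_)
    show lam0 (x * (h' u - c * h u)) = lam0 (x * h' u) - lam0 (c * x * h u)
    rw [mul_sub, map_sub]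
    congr 2
    ring
  have hτeq'' : ∀ u ∈ s56f_V1 P π₁,
      (fun u => h' u - c * h u) (τ * u * τ⁻¹) = ψ τ * (fun u => h' u - c * h u) u := by
    intro u hu
    show h' (τ * u * τ⁻¹) - c * h (τ * u * τ⁻¹) = ψ τ * (h' u - c * h u)
    rw [hh.equiv τ hτD' u hu, hh'.equiv τ hτD' u hu]
    ring
  have h0'' : s56f_leadMap d hj₀ hj0 hjtop lam0 (fun u => h' u - c * h u) hW'' = 0 := by
    ext x
    rw [s56f_leadMap_apply]
    have h1 := s56f_lead_add d hj₀ hj0 hjtop (hW'' x) (hW (c * x)) (hW' x) (fun u _ => by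
      show lam0 (x * h' u) = lam0 (x * (h' u - c * h u)) + lam0 (c * x * h u)
      rw [← map_add]
      congr 1
      ring)
    have h2 := hc x
    rw [s56f_leadMap_apply, s56f_leadMap_apply] at h2
    rw [h2] at h1
    have h3 : s56f_lead P hP π₁ ζ j₀ _ (hW'' x) = 0 := by
      have := h1
      exact (add_eq_right.mp this.symm)
    rw [h3]
    rfl
  have := habove _ hτeq'' hW'' h0'' u hu
  exact sub_eq_zero.mp this

end Count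

section Tau

variable {p : ℕ} [hpF : Fact p.Prime] {P : ValuationSubring Qbar} {hP : P.LiesOverPrime p}
  {π₁ ζ : Qbar}

local notation "v" => ford_vQ P hpF.out hP

/-- roots of unity lie in `P`. -/
lemma s56f_root_mem (hP : P.LiesOverPrime p) {η : Qbar} {m : ℕ} (hm0 : m ≠ 0) (hη : η ^ m = 1) :
    η ∈ P := by
  have hη0 : η ≠ 0 := by
    rintro rfl
    rw [zero_pow hm0] at hη
    exact zero_ne_one hη
  rw [s56f_mem_iff hpF.out P hP]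
  obtain ⟨a, ha⟩ := s56f_v_eq_coe hpF.out P hP hη0
  have h1 := s56f_v_pow_coe hpF.out P hP ha m
  rw [hη, s56f_v_one hpF.out P hP, WithTop.coe_eq_coe] at h1
  have hm' : (m : ℚ) ≠ 0 := by exact_mod_cast hm0
  have ha0 : a = 0 := by
    rcases mul_eq_zero.mp h1.symm with h | h
    · exact absurd h hm'
    · exact h
  rw [ha, ha0]

lemma s56f_residue_eq_iff {a b : Qbar} (ha : a ∈ P) (hb : b ∈ P) :
    IsLocalRing.residue ↥P ⟨a, ha⟩ = IsLocalRing.residue ↥P ⟨b, hb⟩ ↔ a - b ∈ P.nonunits := by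
  rw [← sub_eq_zero, ← map_sub, IsLocalRing.residue_eq_zero_iff,
    ← ValuationSubring.coe_mem_nonunits_iff]
  rfl

variable {τ : GQ} {ξ : Qbar} {aτ : ZMod p}

lemma s56f_TauData.xi_mem (T : s56f_TauData P π₁ ζ τ ξ aτ) (hP : P.LiesOverPrime p) : ξ ∈ P :=
  s56f_root_mem hP (s56f_e_nat_pos (p := p)).ne' (by rw [← T.ord]; exact pow_orderOf_eq_one ξ)

/-- `θ(τ) = ξ mod 𝔪`. -/
lemma s56f_TauData.theta_eq (T : s56f_TauData P π₁ ζ τ ξ aτ) (d : s56f_Dict p P hP π₁ ζ) :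
    s56f_theta P π₁ τ = IsLocalRing.residue ↥P ⟨ξ, T.xi_mem hP⟩ := by
  have h1 : τ π₁ / π₁ ^ 1 = ξ := by
    rw [T.pi, pow_one, mul_div_assoc, div_self d.pi_ne_zero, mul_one]
  have h2 : τ π₁ / π₁ ^ 1 ∈ P := by rw [h1]; exact T.xi_mem hP
  rw [s56f_theta, s56f_leadOf_of_mem h2]
  congr 1
  exact Subtype.ext h1

/-- `θ(τ)` has exact order `p² - 1`. -/
lemma s56f_TauData.orderOf_theta (T : s56f_TauData P π₁ ζ τ ξ aτ) (d : s56f_Dict p P hP π₁ ζ) :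
    orderOf (s56f_theta P π₁ τ) = p ^ 2 - 1 := by
  rw [← T.ord, orderOf_eq_orderOf_iff]
  intro n
  rw [T.theta_eq d, ← map_pow]
  have h1 : (⟨ξ, T.xi_mem hP⟩ : ↥P) ^ n = ⟨ξ ^ n, P.pow_mem (T.xi_mem hP) n⟩ := Subtype.ext rfl
  have h2 : (1 : IsLocalRing.ResidueField ↥P) = IsLocalRing.residue ↥P ⟨1, P.one_mem⟩ :=
    (map_one _).symm
  rw [h1, h2, s56f_residue_eq_iff]
  constructor
  · intro h3
    refine d.redInj (ξ ^ n) (p ^ 2 - 1) s56f_not_dvd_e ?_ h3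
    rw [← pow_mul, mul_comm, pow_mul, ← T.ord, pow_orderOf_eq_one, one_pow]
  · intro h3
    rw [h3, sub_self]
    exact (s56f_mem_nonunits_iff hpF.out P hP 0).mpr (by rw [AddValuation.map_zero]; exact WithTop.coe_lt_top _)

/-- `θ(τ)^(p+1) = ω(τ)`. -/
lemma s56f_TauData.theta_pow (T : s56f_TauData P π₁ ζ τ ξ aτ) (d : s56f_Dict p P hP π₁ ζ)
    [Algebra (ZMod p) (IsLocalRing.ResidueField ↥P)] :
    s56f_theta P π₁ τ ^ (p + 1) = algebraMap (ZMod p) (IsLocalRing.ResidueField ↥P) aτ := by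
  rw [T.theta_eq d, ← map_pow]
  have h1 : (⟨ξ, T.xi_mem hP⟩ : ↥P) ^ (p + 1) = ⟨ξ ^ (p + 1), P.pow_mem (T.xi_mem hP) _⟩ :=
    Subtype.ext rfl
  have hmem : ((aτ.val : ℕ) : Qbar) ∈ P := natCast_mem P.toSubring aτ.val
  have h2 : IsLocalRing.residue ↥P ⟨ξ ^ (p + 1), P.pow_mem (T.xi_mem hP) _⟩ =
      IsLocalRing.residue ↥P ⟨((aτ.val : ℕ) : Qbar), hmem⟩ :=
    (s56f_residue_eq_iff _ _).mpr T.omega
  rw [h1, h2]
  have h3 : (⟨((aτ.val : ℕ) : Qbar), hmem⟩ : ↥P) = ((aτ.val : ℕ) : ↥P) :=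
    Subtype.ext (by push_cast; rfl)
  rw [h3, map_natCast]
  conv_rhs => rw [← ZMod.natCast_zmod_val aτ]
  rw [map_natCast]

end Tau

section Cases

variable {p : ℕ} [hpF : Fact p.Prime] {P : ValuationSubring Qbar} {hP : P.LiesOverPrime p}
  {π₁ ζ : Qbar} {k : Type} [Field k] [Algebra (ZMod p) k]
  {τ : GQ} {ξ : Qbar} {aτ : ZMod p}

local notation "v" => ford_vQ P hpF.out hP

lemma s56f_three_p_le (hp2 : p ≠ 2) : 3 * p ≤ p ^ 2 := by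
  have h2 : 2 ≤ p := hpF.out.two_le
  have h3 : 3 ≤ p := by omega
  nlinarith

/-- `ω(τ) ≠ 1` for `p` odd. -/
lemma s56f_TauData.a_ne_one (T : s56f_TauData P π₁ ζ τ ξ aτ) (d : s56f_Dict p P hP π₁ ζ)
    (hp2 : p ≠ 2) : aτ ≠ 1 := by
  intro h1
  haveI : CharP (IsLocalRing.ResidueField ↥P) p :=
    Fermat.Agent.Lib.S18.s18x_charP_residueField P hpF.out hP
  letI : Algebra (ZMod p) (IsLocalRing.ResidueField ↥P) := ZMod.algebra _ p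
  have h2 := T.theta_pow d
  rw [h1, map_one] at h2
  have h3 := orderOf_dvd_of_pow_eq_one h2
  rw [T.orderOf_theta d] at h3
  have h4 := Nat.le_of_dvd (by omega) h3
  have h5 := s56f_three_p_le (p := p) hp2
  have h6 : 2 ≤ p := hpF.out.two_le
  omega

/-- `ω(τ)² ≠ 1` for `p ≥ 5` (from (Arith3)). -/
lemma s56f_TauData.a_sq_ne_one (T : s56f_TauData P π₁ ζ τ ξ aτ) (d : s56f_Dict p P hP π₁ ζ)
    (hA3 : s56f_IfaceArith3) (hp5 : 5 ≤ p) : aτ ^ 2 ≠ 1 := by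
  intro h1
  haveI : CharP (IsLocalRing.ResidueField ↥P) p :=
    Fermat.Agent.Lib.S18.s18x_charP_residueField P hpF.out hP
  letI : Algebra (ZMod p) (IsLocalRing.ResidueField ↥P) := ZMod.algebra _ p
  have h2 := T.theta_pow d
  apply hA3 p (IsLocalRing.ResidueField ↥P) (s56f_theta P π₁ τ) (T.orderOf_theta d) hp5
  rw [h2, ← map_pow, h1, map_one]

/-- a hit forces `θ(τ)^j` to be a root of every polynomial killing `ε(τ)`. -/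
lemma s56f_hit_apply (hHit : s56f_IfaceHit) [Algebra (ZMod p) (IsLocalRing.ResidueField ↥P)]
    {e : k} {c : IsLocalRing.ResidueField ↥P} {A : k →+ IsLocalRing.ResidueField ↥P}
    (hA : ∀ x, A (e * x) = c * A x) (hA0 : A ≠ 0) (Q : Polynomial (ZMod p))
    (hQ : aeval e Q = 0) : aeval c Q = 0 :=
  hHit p k (IsLocalRing.ResidueField ↥P) e c A hA hA0 Q hQ

/-- **(CC-triv)** `ψ(τ) = 1` ⇒ `h|_{V₁} = 0`  (`p` odd). -/
theorem s56f_cc_triv (hHit : s56f_IfaceHit) (d : s56f_Dict p P hP π₁ ζ) (hp2 : p ≠ 2)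
    (T : s56f_TauData P π₁ ζ τ ξ aτ) {D' : Set GQ} (hτD' : τ ∈ D') {ψ : GQ → k}
    (hψτ : ψ τ = 1) {lam0 : k →ₗ[ZMod p] ZMod p} (hlam : lam0 ≠ 0)
    {h : GQ → k} (hh : s56f_InH P hP π₁ ζ D' ψ lam0 h) :
    ∀ u ∈ s56f_V1 P π₁, h u = 0 := by
  haveI : CharP (IsLocalRing.ResidueField ↥P) p :=
    Fermat.Agent.Lib.S18.s18x_charP_residueField P hpF.out hP
  letI : Algebra (ZMod p) (IsLocalRing.ResidueField ↥P) := ZMod.algebra _ p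
  refine s56f_cc_vanish d T hτD' (by rw [hψτ]; exact one_ne_zero) hlam ?_ hh
  intro j hjlo hjhi hpj A hA
  by_contra hA0
  have h1 := s56f_hit_apply hHit hA hA0 (X - C aτ) (by
    rw [hψτ, inv_one, mul_one, map_sub, aeval_X, aeval_C, sub_self])
  rw [map_sub, aeval_X, aeval_C, sub_eq_zero, ← T.theta_pow d] at h1
  have h5 := s56f_three_p_le (p := p) hp2
  have h6 : 2 ≤ p := hpF.out.two_le
  have ht0 : s56f_theta P π₁ τ ≠ 0 := by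
    intro h0
    have h7 := pow_orderOf_eq_one (s56f_theta P π₁ τ)
    rw [T.orderOf_theta d, h0, zero_pow (s56f_e_nat_pos (p := p)).ne'] at h7
    exact zero_ne_one h7
  have h7 : j = (p + 1) + (j - (p + 1)) := by omega
  rw [h7, pow_add] at h1
  have h8 : s56f_theta P π₁ τ ^ (j - (p + 1)) = 1 :=
    mul_left_cancel₀ (pow_ne_zero (p + 1) ht0) (h1.trans (mul_one _).symm)
  have h9 := orderOf_dvd_of_pow_eq_one h8
  rw [T.orderOf_theta d] at h9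
  have h10 := Nat.le_of_dvd (by omega) h9
  omega

/-- `φ' ζ = ζ ^ a` forces `a ≠ 0`. -/
lemma s56f_zeta_exp_ne_zero (d : s56f_Dict p P hP π₁ ζ) {g : GQ} {a : ZMod p}
    (hg : g ζ = s56f_zpow ζ a) : a ≠ 0 := by
  rintro rfl
  rw [s56f_zpow_zero] at hg
  apply d.hζ1
  have := congrArg g.symm hg
  rwa [AlgEquiv.symm_apply_apply, map_one] at this

lemma s56f_eps_ne_zero (d : s56f_Dict p P hP π₁ ζ) {g : GQ} {a : ZMod p}
    (hg : g ζ = s56f_zpow ζ a) {ψg : k} (hψg : ψg ≠ 0) :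
    algebraMap (ZMod p) k a * ψg⁻¹ ≠ 0 := by
  refine mul_ne_zero ?_ (inv_ne_zero hψg)
  rw [Ne, map_eq_zero_iff _ (algebraMap (ZMod p) k).injective]
  exact s56f_zeta_exp_ne_zero d hg

/-- the prime-field case: hits only at `j = p² - 1`. -/
lemma s56f_no_hit_prime_field (hHit : s56f_IfaceHit) (hA1 : s56f_IfaceArith1)
    (d : s56f_Dict p P hP π₁ ζ) (T : s56f_TauData P π₁ ζ τ ξ aτ) {e : k} (he : e ^ p = e)
    {j : ℕ} (hjlo : p ^ 2 - 1 ≤ j) (hjhi : j < p ^ 2 + p) (hj : j ≠ p ^ 2 - 1)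
    (A : k →+ IsLocalRing.ResidueField ↥P)
    (hA : ∀ x, A (e * x) = s56f_theta P π₁ τ ^ j * A x) : A = 0 := by
  haveI : CharP (IsLocalRing.ResidueField ↥P) p :=
    Fermat.Agent.Lib.S18.s18x_charP_residueField P hpF.out hP
  letI : Algebra (ZMod p) (IsLocalRing.ResidueField ↥P) := ZMod.algebra _ p
  by_contra hA0
  have h1 := s56f_hit_apply hHit hA hA0 (X ^ p - X : Polynomial (ZMod p)) (by
    rw [map_sub, map_pow, aeval_X, he, sub_self])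
  rw [map_sub, map_pow, aeval_X, sub_eq_zero] at h1
  exact hj (hA1 p (IsLocalRing.ResidueField ↥P) (s56f_theta P π₁ τ) (T.orderOf_theta d) j hjlo hjhi
    h1)

/-- **(CC-f1)** `D'` contains a Frobenius lift `φ'` (`f = 1`), `ψ(τ) ∈ 𝔽_p^×`: if `𝓗_ψ(D')|_{V₁} ≠ 0`
then `ψ(τ) = ω(τ)`, and any two elements of `𝓗_ψ(D')` are proportional on `V₁`. -/
theorem s56f_cc_f1 (hHit : s56f_IfaceHit) (hCount : s56f_IfaceCount) (hA1 : s56f_IfaceArith1)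
    [Finite k] [CharP k p] (d : s56f_Dict p P hP π₁ ζ)
    (T : s56f_TauData P π₁ ζ τ ξ aτ) {D' : Set GQ} (hτD' : τ ∈ D') {ψ : GQ → k}
    (hψτ : ψ τ ≠ 0) (hψτp : ψ τ ^ p = ψ τ) {lam0 : k →ₗ[ZMod p] ZMod p} (hlam : lam0 ≠ 0)
    {φ' : GQ} (hφ : P.IsFrobeniusAt φ' p) (hφD' : φ' ∈ D') {aφ : ZMod p}
    (hφζ : φ' ζ = s56f_zpow ζ aφ) (hψφ : ψ φ' ≠ 0) :
    (∀ h : GQ → k, s56f_InH P hP π₁ ζ D' ψ lam0 h → (∃ u ∈ s56f_V1 P π₁, h u ≠ 0) →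
      ψ τ = algebraMap (ZMod p) k aτ) ∧
    (∀ h h' : GQ → k, s56f_InH P hP π₁ ζ D' ψ lam0 h → s56f_InH P hP π₁ ζ D' ψ lam0 h' →
      (∃ u ∈ s56f_V1 P π₁, h u ≠ 0) → ∃ c : k, ∀ u ∈ s56f_V1 P π₁, h' u = c * h u) := by
  haveI : CharP (IsLocalRing.ResidueField ↥P) p :=
    Fermat.Agent.Lib.S18.s18x_charP_residueField P hpF.out hP
  have he : (algebraMap (ZMod p) k aτ * (ψ τ)⁻¹) ^ p = algebraMap (ZMod p) k aτ * (ψ τ)⁻¹ := by
    rw [mul_pow, ← map_pow, ZMod.pow_card, inv_pow, hψτp]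
  have hno : ∀ j, p ^ 2 - 1 ≤ j → j < p ^ 2 + p → ¬ p ∣ j → j ≠ p ^ 2 - 1 →
      ∀ A : k →+ IsLocalRing.ResidueField ↥P,
      (∀ x, A (algebraMap (ZMod p) k aτ * (ψ τ)⁻¹ * x) = s56f_theta P π₁ τ ^ j * A x) → A = 0 :=
    fun j hjlo hjhi _ hj A hA => s56f_no_hit_prime_field hHit hA1 d T he hjlo hjhi hj A hA
  refine ⟨fun h hh hne => ?_, fun h h' hh hh' hne => ?_⟩
  · by_contra hcon
    obtain ⟨u, hu, hne'⟩ := hne
    apply hne'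
    refine s56f_cc_vanish d T hτD' hψτ hlam (fun j hjlo hjhi hpj A hA => ?_) hh u hu
    by_cases hj : j = p ^ 2 - 1
    · -- `θ(τ)^j = 1`, `ε(τ) ≠ 1`
      have h1 : s56f_theta P π₁ τ ^ j = 1 := by
        rw [hj, ← T.orderOf_theta d]; exact pow_orderOf_eq_one _
      have he1 : algebraMap (ZMod p) k aτ * (ψ τ)⁻¹ - 1 ≠ 0 := by
        intro h2
        apply hcon
        have h3 := sub_eq_zero.mp h2
        have h4 : algebraMap (ZMod p) k aτ * (ψ τ)⁻¹ * ψ τ = 1 * ψ τ := by rw [h3]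
        rw [mul_assoc, inv_mul_cancel₀ hψτ, mul_one, one_mul] at h4
        exact h4.symm
      ext y
      have h2 := hA ((algebraMap (ZMod p) k aτ * (ψ τ)⁻¹ - 1)⁻¹ * y)
      rw [h1, one_mul] at h2
      have h3 : y = algebraMap (ZMod p) k aτ * (ψ τ)⁻¹ *
          ((algebraMap (ZMod p) k aτ * (ψ τ)⁻¹ - 1)⁻¹ * y) -
          (algebraMap (ZMod p) k aτ * (ψ τ)⁻¹ - 1)⁻¹ * y := by
        have h4 : (algebraMap (ZMod p) k aτ * (ψ τ)⁻¹ - 1) *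
            ((algebraMap (ZMod p) k aτ * (ψ τ)⁻¹ - 1)⁻¹ * y) = y := by
          rw [← mul_assoc, mul_inv_cancel₀ he1, one_mul]
        rw [sub_mul, one_mul] at h4
        exact h4.symm
      rw [h3, map_sub, h2, sub_self]
      rfl
    · exact hno j hjlo hjhi hpj hj A hA
  · have hφ' : ∀ y : IsLocalRing.ResidueField ↥P,
        (⟨φ', hφ.mem_decompositionSubgroup⟩ : P.decompositionSubgroup ℚ) • y = y ^ (p ^ 1) := by
      intro y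
      rw [pow_one]
      exact hφ.smul_residue_eq y
    have h5 : 2 ≤ p := hpF.out.two_le
    have h6 : 4 ≤ p ^ 2 := by nlinarith
    refine s56f_cc_one d T hτD' hψτ hlam hφ.mem_decompositionSubgroup hφD' hφζ hψφ hφ'
      (j₀ := p ^ 2 - 1) le_rfl (by omega) s56f_not_dvd_e hno ?_ hh hh' hne
    intro A B hAτ hAφ hBτ hBφ hA0
    exact hCount p k (IsLocalRing.ResidueField ↥P) 1 _ _ _ _ one_pos
      (s56f_eps_ne_zero d hφζ hψφ) (fun i h1 h2 => by omega) A B hAτ hAφ hBτ hBφ hA0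

/-- **(CC-f2)** `p ≥ 5`, `D'` contains `φ'` acting on the residue field by `y ↦ y^(p²)` (`f = 2`),
`ψ(τ)^(p+1) = 1`: any two elements of `𝓗_ψ(D')` are proportional on `V₁`. -/
theorem s56f_cc_f2 (hHit : s56f_IfaceHit) (hCount : s56f_IfaceCount) (hA1 : s56f_IfaceArith1)
    (hA2 : s56f_IfaceArith2) (hp5 : 5 ≤ p)
    [Finite k] [CharP k p] (d : s56f_Dict p P hP π₁ ζ)
    (T : s56f_TauData P π₁ ζ τ ξ aτ) {D' : Set GQ} (hτD' : τ ∈ D') {ψ : GQ → k}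
    (hψτ : ψ τ ^ (p + 1) = 1) {lam0 : k →ₗ[ZMod p] ZMod p} (hlam : lam0 ≠ 0)
    {φ' : GQ} (hφD : φ' ∈ P.decompositionSubgroup ℚ)
    (hφ : ∀ y : IsLocalRing.ResidueField ↥P,
      (⟨φ', hφD⟩ : P.decompositionSubgroup ℚ) • y = y ^ (p ^ 2))
    (hφD' : φ' ∈ D') {aφ : ZMod p}
    (hφζ : φ' ζ = s56f_zpow ζ aφ) (hψφ : ψ φ' ≠ 0)
    {h h' : GQ → k} (hh : s56f_InH P hP π₁ ζ D' ψ lam0 h)
    (hh' : s56f_InH P hP π₁ ζ D' ψ lam0 h') (hne : ∃ u ∈ s56f_V1 P π₁, h u ≠ 0) :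
    ∃ c : k, ∀ u ∈ s56f_V1 P π₁, h' u = c * h u := by
  haveI : CharP (IsLocalRing.ResidueField ↥P) p :=
    Fermat.Agent.Lib.S18.s18x_charP_residueField P hpF.out hP
  letI : Algebra (ZMod p) (IsLocalRing.ResidueField ↥P) := ZMod.algebra _ p
  have hψτ0 : ψ τ ≠ 0 := by
    intro h0
    rw [h0, zero_pow (by omega)] at hψτ
    exact zero_ne_one hψτ
  have h5 : 2 ≤ p := hpF.out.two_le
  have h6 : 4 ≤ p ^ 2 := by nlinarith
  have he : (algebraMap (ZMod p) k aτ * (ψ τ)⁻¹) ^ (p + 1) = algebraMap (ZMod p) k (aτ ^ 2) := by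
    rw [mul_pow, inv_pow, hψτ, inv_one, mul_one, ← map_pow, pow_succ, ZMod.pow_card, pow_two]
  have hno : ∀ j, p ^ 2 - 1 ≤ j → j < p ^ 2 + p → ¬ p ∣ j → j ≠ p ^ 2 + 1 →
      ∀ A : k →+ IsLocalRing.ResidueField ↥P,
      (∀ x, A (algebraMap (ZMod p) k aτ * (ψ τ)⁻¹ * x) = s56f_theta P π₁ τ ^ j * A x) → A = 0 := by
    intro j hjlo hjhi _ hj A hA
    by_contra hA0
    have h1 := s56f_hit_apply hHit hA hA0 (X ^ (p + 1) - C (aτ ^ 2)) (by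
      rw [map_sub, map_pow, aeval_X, aeval_C, he, sub_self])
    rw [map_sub, map_pow, aeval_X, aeval_C, sub_eq_zero] at h1
    have h2 : s56f_theta P π₁ τ ^ (2 * (p + 1)) =
        algebraMap (ZMod p) (IsLocalRing.ResidueField ↥P) (aτ ^ 2) := by
      rw [mul_comm, pow_mul, T.theta_pow d, map_pow]
    exact hj (hA2 p (IsLocalRing.ResidueField ↥P) (s56f_theta P π₁ τ) (T.orderOf_theta d) hp5 j
      hjlo hjhi (h1.trans h2.symm))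
  by_cases hep : (algebraMap (ZMod p) k aτ * (ψ τ)⁻¹) ^ p = algebraMap (ZMod p) k aτ * (ψ τ)⁻¹
  · exfalso
    obtain ⟨u, hu, hne'⟩ := hne
    apply hne'
    refine s56f_cc_vanish d T hτD' hψτ0 hlam (fun j hjlo hjhi hpj A hA => ?_) hh u hu
    by_cases hj : j = p ^ 2 + 1
    · exact s56f_no_hit_prime_field hHit hA1 d T hep hjlo hjhi (by omega) A hA
    · exact hno j hjlo hjhi hpj hj A hA
  · have hj₀ : ¬ p ∣ p ^ 2 + 1 := by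
      intro hdvd
      have h7 : p ∣ p ^ 2 := dvd_pow_self p (by norm_num)
      have h8 : p ∣ 1 := (Nat.dvd_add_right h7).mp hdvd
      exact hpF.out.one_lt.ne' (Nat.dvd_one.mp h8)
    refine s56f_cc_one d T hτD' hψτ0 hlam hφD hφD' hφζ hψφ hφ
      (j₀ := p ^ 2 + 1) (by omega) (by omega) hj₀ hno ?_ hh hh' hne
    intro A B hAτ hAφ hBτ hBφ hA0
    refine hCount p k (IsLocalRing.ResidueField ↥P) 2 _ _ _ _ (by norm_num)
      (s56f_eps_ne_zero d hφζ hψφ) (fun i h1 h2 => ?_) A B hAτ hAφ hBτ hBφ hA0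
    have hi : i = 1 := by omega
    rw [hi, pow_one]
    exact hep

end Cases

end Fermat.Agent.Lib.S56
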