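/-
PROGRAMME W (S56), wall [W8-F3] (helper3, prefix `s56f_`): **elementary cocycle calculus** for
functions `c : G → End V` satisfying `c (g h) = c g + ρ g · c h · ρ g⁻¹` on a subgroup `D`, and the
averaging lemma (a cocycle vanishing on `V₁`, `I = ⋃ τ^i V₁`, `τ^n ∈ V₁`, `n` invertible, is a
coboundary on `I`).
-/
import Mathlib

set_option autoImplicit false

noncomputable section

namespace Fermat.Agent.Lib.S56

open Module

section Coc

variable {k : Type} [Field k] {V : Type} [AddCommGroup V] [Module k V] {G : Type*} [Group G]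
  (ρ : G →* Module.End k V)

lemma s56f_rho_mul_inv (g : G) : ρ g * ρ g⁻¹ = 1 := by rw [← map_mul, mul_inv_cancel, map_one]

lemma s56f_rho_inv_mul (g : G) : ρ g⁻¹ * ρ g = 1 := by rw [← map_mul, inv_mul_cancel, map_one]

variable {ρ} {D : Subgroup G} {c : G → Module.End k V}

lemma s56f_coc_one (hcoc : ∀ g ∈ D, ∀ h ∈ D, c (g * h) = c g + ρ g * c h * ρ g⁻¹) : c 1 = 0 := by
  have h := hcoc 1 D.one_mem 1 D.one_mem
  rw [mul_one, inv_one, map_one, one_mul, mul_one] at h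
  exact left_eq_add.mp h

lemma s56f_coc_inv (hcoc : ∀ g ∈ D, ∀ h ∈ D, c (g * h) = c g + ρ g * c h * ρ g⁻¹) {g : G}
    (hg : g ∈ D) : c g + ρ g * c g⁻¹ * ρ g⁻¹ = 0 := by
  have h := hcoc g hg g⁻¹ (D.inv_mem hg)
  rw [mul_inv_cancel, s56f_coc_one hcoc] at h
  exact h.symm

/-- `c (u u') = c u + c u'` when `ρ u = 1`. -/
lemma s56f_coc_add (hcoc : ∀ g ∈ D, ∀ h ∈ D, c (g * h) = c g + ρ g * c h * ρ g⁻¹) {u u' : G}
    (hu : u ∈ D) (hu' : u' ∈ D) (hρu : ρ u = 1) : c (u * u') = c u + c u' := by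
  have h1 : ρ u⁻¹ = 1 := by
    have := s56f_rho_inv_mul ρ u
    rwa [hρu, mul_one] at this
  rw [hcoc u hu u' hu', hρu, h1, one_mul, mul_one]

/-- `c (g u) = c g` when `c u = 0`. -/
lemma s56f_coc_mul_right (hcoc : ∀ g ∈ D, ∀ h ∈ D, c (g * h) = c g + ρ g * c h * ρ g⁻¹) {g u : G}
    (hg : g ∈ D) (hu : u ∈ D) (hcu : c u = 0) : c (g * u) = c g := by
  rw [hcoc g hg u hu, hcu, mul_zero, zero_mul, add_zero]

/-- `c (g u g⁻¹) = ρ g · c u · ρ g⁻¹` when `ρ u = 1`. -/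
lemma s56f_coc_conj (hcoc : ∀ g ∈ D, ∀ h ∈ D, c (g * h) = c g + ρ g * c h * ρ g⁻¹) {g u : G}
    (hg : g ∈ D) (hu : u ∈ D) (hρu : ρ u = 1) : c (g * u * g⁻¹) = ρ g * c u * ρ g⁻¹ := by
  rw [mul_assoc, hcoc g hg (u * g⁻¹) (D.mul_mem hu (D.inv_mem hg)),
    s56f_coc_add hcoc hu (D.inv_mem hg) hρu, mul_add, add_mul, ← add_assoc]
  have h := s56f_coc_inv hcoc hg
  rw [add_right_comm, h, zero_add]

/-- **averaging**: a cocycle vanishing on `V₁` is a coboundary on `⋃ τ^m V₁`. -/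
theorem s56f_average (hcoc : ∀ g ∈ D, ∀ h ∈ D, c (g * h) = c g + ρ g * c h * ρ g⁻¹) {τ : G}
    (hτ : τ ∈ D) {n : ℕ} (hn : (n : k) ≠ 0) (V₁ : Subgroup G) (hV₁D : V₁ ≤ D)
    (hρV : ∀ u ∈ V₁, ρ u = 1) (hcV : ∀ u ∈ V₁, c u = 0) (hτn : τ ^ n ∈ V₁)
    (htr : ∀ g ∈ D, LinearMap.trace k V (c g) = 0) :
    ∃ M : Module.End k V, LinearMap.trace k V M = 0 ∧
      ∀ (m : ℕ), ∀ u ∈ V₁, c (τ ^ m * u) = ρ (τ ^ m * u) * M * ρ (τ ^ m * u)⁻¹ - M := by
  have hτm : ∀ m : ℕ, τ ^ m ∈ D := fun m => D.pow_mem hτ m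
  set S : Module.End k V := ∑ i ∈ Finset.range n, c (τ ^ i) with hS
  -- periodicity
  have hper : ∀ j : ℕ, c (τ ^ (j + n)) = c (τ ^ j) := by
    intro j
    rw [pow_add]
    exact s56f_coc_mul_right hcoc (hτm j) (hV₁D hτn) (hcV _ hτn)
  have hshift : ∀ m : ℕ, ∑ i ∈ Finset.range n, c (τ ^ (m + i)) = S := by
    intro m
    induction m with
    | zero => simp [hS]
    | succ m ih =>
      have h1 : ∑ i ∈ Finset.range n, c (τ ^ (m + 1 + i)) + c (τ ^ (m + 0)) =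
          ∑ i ∈ Finset.range (n + 1), c (τ ^ (m + i)) := by
        rw [Finset.sum_range_succ' (fun i => c (τ ^ (m + i))) n]
        congr 1
        apply Finset.sum_congr rfl
        intro i _
        congr 2
        ring
      have h2 : ∑ i ∈ Finset.range (n + 1), c (τ ^ (m + i)) =
          ∑ i ∈ Finset.range n, c (τ ^ (m + i)) + c (τ ^ (m + n)) :=
        Finset.sum_range_succ (fun i => c (τ ^ (m + i))) n
      rw [h2, ih, hper, add_zero] at h1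
      exact add_right_cancel h1
  have hconj : ∀ m : ℕ, ρ (τ ^ m) * S * ρ (τ ^ m)⁻¹ = S - (n : k) • c (τ ^ m) := by
    intro m
    rw [hS, Finset.mul_sum, Finset.sum_mul]
    have h1 : ∀ i ∈ Finset.range n, ρ (τ ^ m) * c (τ ^ i) * ρ (τ ^ m)⁻¹ =
        c (τ ^ (m + i)) - c (τ ^ m) := by
      intro i _
      rw [pow_add, hcoc _ (hτm m) _ (hτm i)]
      abel
    rw [Finset.sum_congr rfl h1, Finset.sum_sub_distrib, hshift m, Finset.sum_const,
      Finset.card_range, ← hS, Nat.cast_smul_eq_nsmul]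
  refine ⟨-((n : k)⁻¹ • S), ?_, ?_⟩
  · rw [map_neg, map_smul, hS, map_sum, Finset.sum_eq_zero (fun i _ => htr _ (hτm i)), smul_zero,
      neg_zero]
  · intro m u hu
    have h1 : ρ (τ ^ m * u) = ρ (τ ^ m) := by rw [map_mul, hρV u hu, mul_one]
    have h2 : ρ (τ ^ m * u)⁻¹ = ρ (τ ^ m)⁻¹ := by
      rw [mul_inv_rev, map_mul]
      have h3 : ρ u⁻¹ = 1 := hρV _ (V₁.inv_mem hu)
      rw [h3, one_mul]
    rw [s56f_coc_mul_right hcoc (hτm m) (hV₁D hu) (hcV u hu), h1, h2, mul_neg, neg_mul,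
      mul_smul_comm, smul_mul_assoc, hconj m, smul_sub, smul_smul, inv_mul_cancel₀ hn, one_smul]
    abel

end Coc

end Fermat.Agent.Lib.S56
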