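/-
PROGRAMME W (S56), wall [W8-F3] (helper3, prefix `s56f_`): **linear algebra in dimension 2** for the
tame assembly: eigenbases, the diagonal / antidiagonal dichotomy for the normaliser of a regular
diagonal matrix, and `S^(p²-1) = 1` for a tame element with `R S R⁻¹ = S^p`.
-/
import Mathlib

set_option autoImplicit false

noncomputable section

namespace Fermat.Agent.Lib.S56

open Polynomial Module

section Mat

variable {k : Type} [Field k]

/-- **dichotomy**: an invertible `R` with `R · diag(α, β) = diag(α', β') · R`, `α ≠ β`, is diagonal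
(`α' = α`, `β' = β`) or antidiagonal (`α' = β`, `β' = α`). -/
lemma s56f_mat_dich {R R' : Matrix (Fin 2) (Fin 2) k} (hRR' : R * R' = 1) (hR'R : R' * R = 1)
    {α β α' β' : k} (hαβ : α ≠ β)
    (h : R * Matrix.diagonal ![α, β] = Matrix.diagonal ![α', β'] * R) :
    (R 0 1 = 0 ∧ R 1 0 = 0 ∧ α' = α ∧ β' = β) ∨ (R 0 0 = 0 ∧ R 1 1 = 0 ∧ α' = β ∧ β' = α) := by
  have e00 := congrFun (congrFun h 0) 0
  have e01 := congrFun (congrFun h 0) 1
  have e10 := congrFun (congrFun h 1) 0
  have e11 := congrFun (congrFun h 1) 1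
  rw [Matrix.mul_diagonal, Matrix.diagonal_mul] at e00 e01 e10 e11
  simp only [Matrix.cons_val_zero, Matrix.cons_val_one] at e00 e01 e10 e11
  have r00 := congrFun (congrFun hRR' 0) 0
  have r11 := congrFun (congrFun hR'R 1) 1
  have s00 := congrFun (congrFun hR'R 0) 0
  rw [Matrix.mul_apply, Fin.sum_univ_two] at r00 r11 s00
  simp only [Matrix.one_apply_eq] at r00 r11 s00
  by_cases h00 : R 0 0 = 0
  · right
    have h01 : R 0 1 ≠ 0 := by
      intro h0
      rw [h00, h0, zero_mul, zero_mul, add_zero] at r00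
      exact zero_ne_one r00
    have h10 : R 1 0 ≠ 0 := by
      intro h0
      rw [h00, h0, mul_zero, mul_zero, add_zero] at s00
      exact zero_ne_one s00
    have hα' : α' = β := by
      have : R 0 1 * (β - α') = 0 := by rw [mul_sub, e01]; ring
      rcases mul_eq_zero.mp this with h1 | h1
      · exact absurd h1 h01
      · exact (sub_eq_zero.mp h1).symm
    have hβ' : β' = α := by
      have : R 1 0 * (α - β') = 0 := by rw [mul_sub, e10]; ring
      rcases mul_eq_zero.mp this with h1 | h1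
      · exact absurd h1 h10
      · exact (sub_eq_zero.mp h1).symm
    refine ⟨h00, ?_, hα', hβ'⟩
    have : R 1 1 * (β - β') = 0 := by rw [mul_sub, e11]; ring
    rcases mul_eq_zero.mp this with h1 | h1
    · exact h1
    · rw [hβ'] at h1
      exact absurd (sub_eq_zero.mp h1).symm hαβ
  · left
    have hα' : α' = α := by
      have : R 0 0 * (α - α') = 0 := by rw [mul_sub, e00]; ring
      rcases mul_eq_zero.mp this with h1 | h1
      · exact absurd h1 h00
      · exact (sub_eq_zero.mp h1).symm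
    have h01 : R 0 1 = 0 := by
      have : R 0 1 * (β - α') = 0 := by rw [mul_sub, e01]; ring
      rcases mul_eq_zero.mp this with h1 | h1
      · exact h1
      · rw [hα'] at h1
        exact absurd (sub_eq_zero.mp h1).symm hαβ
    have h11 : R 1 1 ≠ 0 := by
      intro h0
      rw [h01, h0, mul_zero, mul_zero, add_zero] at r11
      exact zero_ne_one r11
    have hβ' : β' = β := by
      have : R 1 1 * (β - β') = 0 := by rw [mul_sub, e11]; ring
      rcases mul_eq_zero.mp this with h1 | h1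
      · exact absurd h1 h11
      · exact (sub_eq_zero.mp h1).symm
    refine ⟨h01, ?_, hα', hβ'⟩
    have : R 1 0 * (α - β') = 0 := by rw [mul_sub, e10]; ring
    rcases mul_eq_zero.mp this with h1 | h1
    · exact h1
    · rw [hβ'] at h1
      exact absurd (sub_eq_zero.mp h1) hαβ

/-- the inverse of a diagonal matrix. -/
lemma s56f_mat_diag_inv {R R' : Matrix (Fin 2) (Fin 2) k} (hRR' : R * R' = 1)
    (h01 : R 0 1 = 0) (h10 : R 1 0 = 0) :
    R' 0 1 = 0 ∧ R' 1 0 = 0 ∧ R 0 0 * R' 0 0 = 1 ∧ R 1 1 * R' 1 1 = 1 := by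
  have r00 := congrFun (congrFun hRR' 0) 0
  have r01 := congrFun (congrFun hRR' 0) 1
  have r10 := congrFun (congrFun hRR' 1) 0
  have r11 := congrFun (congrFun hRR' 1) 1
  rw [Matrix.mul_apply, Fin.sum_univ_two] at r00 r01 r10 r11
  simp only [Matrix.one_apply_eq, Matrix.one_apply_ne (show (0 : Fin 2) ≠ 1 by decide),
    Matrix.one_apply_ne (show (1 : Fin 2) ≠ 0 by decide)] at r00 r01 r10 r11
  rw [h01, zero_mul, add_zero] at r00 r01
  rw [h10, zero_mul, zero_add] at r10 r11
  have h00 : R 0 0 ≠ 0 := left_ne_zero_of_mul_eq_one r00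
  have h11 : R 1 1 ≠ 0 := left_ne_zero_of_mul_eq_one r11
  exact ⟨(mul_eq_zero.mp r01).resolve_left h00, (mul_eq_zero.mp r10).resolve_left h11, r00, r11⟩

/-- the inverse of an antidiagonal matrix. -/
lemma s56f_mat_anti_inv {R R' : Matrix (Fin 2) (Fin 2) k} (hRR' : R * R' = 1)
    (h00 : R 0 0 = 0) (h11 : R 1 1 = 0) :
    R' 0 0 = 0 ∧ R' 1 1 = 0 ∧ R 0 1 * R' 1 0 = 1 ∧ R 1 0 * R' 0 1 = 1 := by
  have r00 := congrFun (congrFun hRR' 0) 0
  have r01 := congrFun (congrFun hRR' 0) 1
  have r10 := congrFun (congrFun hRR' 1) 0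
  have r11 := congrFun (congrFun hRR' 1) 1
  rw [Matrix.mul_apply, Fin.sum_univ_two] at r00 r01 r10 r11
  simp only [Matrix.one_apply_eq, Matrix.one_apply_ne (show (0 : Fin 2) ≠ 1 by decide),
    Matrix.one_apply_ne (show (1 : Fin 2) ≠ 0 by decide)] at r00 r01 r10 r11
  rw [h00, zero_mul, zero_add] at r00 r01
  rw [h11, zero_mul, add_zero] at r10 r11
  have h01 : R 0 1 ≠ 0 := left_ne_zero_of_mul_eq_one r00
  have h10 : R 1 0 ≠ 0 := left_ne_zero_of_mul_eq_one r11
  exact ⟨(mul_eq_zero.mp r10).resolve_left h10, (mul_eq_zero.mp r01).resolve_left h01, r00, r11⟩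

end Mat

section End2

variable {k : Type} [Field k] {V : Type} [AddCommGroup V] [Module k V] [Module.Finite k V]

/-- **eigenbasis** for a split endomorphism with distinct eigenvalues in dimension 2. -/
theorem s56f_exists_eigenbasis (hV : finrank k V = 2) (S : Module.End k V) {α β : k}
    (hS : LinearMap.charpoly S = (X - C α) * (X - C β)) (hαβ : α ≠ β) :
    ∃ b : Basis (Fin 2) k V, LinearMap.toMatrix b b S = Matrix.diagonal ![α, β] := by
  have hα : S.HasEigenvalue α := by
    rw [Module.End.hasEigenvalue_iff_isRoot_charpoly, hS]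
    simp
  have hβ : S.HasEigenvalue β := by
    rw [Module.End.hasEigenvalue_iff_isRoot_charpoly, hS]
    simp
  obtain ⟨v₁, hv₁⟩ := hα.exists_hasEigenvector
  obtain ⟨v₂, hv₂⟩ := hβ.exists_hasEigenvector
  have h1 : S v₁ = α • v₁ := hv₁.apply_eq_smul
  have h2 : S v₂ = β • v₂ := hv₂.apply_eq_smul
  have hli : LinearIndependent k ![v₁, v₂] := by
    rw [LinearIndependent.pair_iff]
    intro s t hst
    have h3 : S (s • v₁ + t • v₂) = 0 := by rw [hst, map_zero]
    rw [map_add, map_smul, map_smul, h1, h2] at h3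
    have h4 : (s * (α - β)) • v₁ = 0 := by
      have h5 : (s * (α - β)) • v₁ = (s • α • v₁ + t • β • v₂) - β • (s • v₁ + t • v₂) := by
        rw [smul_add, smul_smul, smul_smul, smul_smul, smul_smul, mul_sub, sub_smul]
        rw [mul_comm β s, mul_comm β t]
        abel
      rw [h5, h3, hst, smul_zero, sub_zero]
    have hs : s = 0 := by
      rcases smul_eq_zero.mp h4 with h5 | h5
      · rcases mul_eq_zero.mp h5 with h6 | h6
        · exact h6
        · exact absurd (sub_eq_zero.mp h6) hαβ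
      · exact absurd h5 hv₁.2
    refine ⟨hs, ?_⟩
    rw [hs, zero_smul, zero_add] at hst
    rcases smul_eq_zero.mp hst with h5 | h5
    · exact h5
    · exact absurd h5 hv₂.2
  let b : Basis (Fin 2) k V := basisOfLinearIndependentOfCardEqFinrank hli (by simp [hV])
  have hb : ∀ i, b i = ![v₁, v₂] i := fun i => by
    simp [b, coe_basisOfLinearIndependentOfCardEqFinrank]
  refine ⟨b, ?_⟩
  ext i j
  rw [LinearMap.toMatrix_apply]
  fin_cases j
  · have h3 : S (b 0) = α • b 0 := by rw [hb 0]; exact h1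
    simp only [Fin.zero_eta]
    rw [h3, map_smul, Basis.repr_self]
    fin_cases i <;> simp
  · have h3 : S (b 1) = β • b 1 := by rw [hb 1]; exact h2
    simp only [Fin.mk_one]
    rw [h3, map_smul, Basis.repr_self]
    fin_cases i <;> simp

/-- a split endomorphism with a double eigenvalue and of finite order prime to the characteristic is
a scalar. -/
theorem s56f_scalar_of_double (S : Module.End k V) {α : k}
    (hS : LinearMap.charpoly S = (X - C α) * (X - C α)) {m : ℕ} (hm : (m : k) ≠ 0)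
    (hSm : S ^ m = 1) : S = α • (1 : Module.End k V) := by
  have h1 : minpoly k S ∣ (X - C α) ^ 2 := by
    rw [pow_two, ← hS]
    exact LinearMap.minpoly_dvd_charpoly S
  have h2 : minpoly k S ∣ X ^ m - C (1 : k) := by
    apply minpoly.dvd
    rw [map_sub, map_pow, aeval_X, aeval_C, hSm, map_one, sub_self]
  have hsq : Squarefree (minpoly k S) :=
    (Polynomial.separable_X_pow_sub_C (1 : k) hm one_ne_zero).squarefree.squarefree_of_dvd h2
  have h3 : minpoly k S ∣ X - C α := by
    obtain ⟨i, hi, hassoc⟩ := (dvd_prime_pow (Polynomial.prime_X_sub_C α) 2).mp h1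
    interval_cases i
    · rw [pow_zero] at hassoc
      exact hassoc.dvd.trans (one_dvd _)
    · rw [pow_one] at hassoc
      exact hassoc.dvd
    · exfalso
      have h4 : (X - C α) * (X - C α) ∣ minpoly k S := by
        rw [← pow_two]; exact hassoc.symm.dvd
      exact Polynomial.not_isUnit_X_sub_C α (hsq _ h4)
  obtain ⟨q, hq⟩ := h3
  have h4 : aeval S (X - C α) = 0 := by
    rw [hq, map_mul, minpoly.aeval, zero_mul]
  rw [map_sub, aeval_X, aeval_C, sub_eq_zero] at h4
  rw [h4, Algebra.algebraMap_eq_smul_one]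

lemma s56f_diag_pow (α β : k) (n : ℕ) :
    (Matrix.diagonal ![α, β] : Matrix (Fin 2) (Fin 2) k) ^ n = Matrix.diagonal ![α ^ n, β ^ n] := by
  rw [Matrix.diagonal_pow]
  congr 1
  funext i
  fin_cases i <;> simp

lemma s56f_diag_eq_one {α β : k} (hα : α = 1) (hβ : β = 1) :
    (Matrix.diagonal ![α, β] : Matrix (Fin 2) (Fin 2) k) = 1 := by
  rw [hα, hβ, ← Matrix.diagonal_one]
  congr 1
  funext i
  fin_cases i <;> simp

lemma s56f_diag_eq_one_iff {α β : k}
    (h : (Matrix.diagonal ![α, β] : Matrix (Fin 2) (Fin 2) k) = 1) : α = 1 ∧ β = 1 := by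
  have h0 := congrFun (congrFun h 0) 0
  have h1 := congrFun (congrFun h 1) 1
  simpa using And.intro h0 h1

lemma s56f_pow_sq_sub_one {p : ℕ} (hp : p.Prime) {α : k} (hα0 : α ≠ 0) (h : α ^ (p ^ 2) = α) :
    α ^ (p ^ 2 - 1) = 1 := by
  have h1 : 1 ≤ p ^ 2 := Nat.one_le_pow _ _ hp.pos
  have h2 : α ^ (p ^ 2 - 1) * α = α := by rw [← pow_succ, Nat.sub_add_cancel h1, h]
  exact mul_right_cancel₀ hα0 (h2.trans (one_mul α).symm)

/-- **Step 1**: an element `S` of order prime to `p` with `R S R⁻¹ = S^p` has `S^(p²-1) = 1`. -/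
theorem s56f_pow_eq_one_of_frob (p : ℕ) [hpF : Fact p.Prime] [CharP k p] (hV : finrank k V = 2)
    (S R R' : Module.End k V) (hRR' : R * R' = 1) (hR'R : R' * R = 1)
    (hconj : R * S * R' = S ^ p) {m : ℕ} (hm : m.Coprime p) (hSm : S ^ m = 1)
    {α β : k} (hS : LinearMap.charpoly S = (X - C α) * (X - C β)) :
    S ^ (p ^ 2 - 1) = 1 := by
  have hm0 : (m : k) ≠ 0 := by
    rw [Ne, CharP.cast_eq_zero_iff k p]
    exact (Nat.Prime.coprime_iff_not_dvd hpF.out).mp hm.symm
  haveI : Nontrivial V := Module.nontrivial_of_finrank_pos (R := k) (by rw [hV]; norm_num)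
  have hcomm : R * S = S ^ p * R := by
    have h1 : R * S * R' * R = S ^ p * R := by rw [hconj]
    rwa [mul_assoc (R * S), hR'R, mul_one] at h1
  by_cases hαβ : α = β
  · subst hαβ
    have hSα := s56f_scalar_of_double S hS hm0 hSm
    have hαm : α ^ m = 1 := by
      rw [hSα, _root_.smul_pow, one_pow] at hSm
      have h1 : (α ^ m - 1) • (1 : Module.End k V) = 0 := by rw [sub_smul, hSm, one_smul, sub_self]
      rcases smul_eq_zero.mp h1 with h2 | h2
      · exact sub_eq_zero.mp h2
      · exact absurd h2 one_ne_zero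
    have hα0 : α ≠ 0 := by
      rintro rfl
      have hm1 : m ≠ 0 := by
        rintro rfl
        exact hm0 (by simp)
      rw [zero_pow hm1] at hαm
      exact zero_ne_one hαm
    have hαp : α ^ p = α := by
      rw [hSα, _root_.smul_pow, one_pow, mul_smul_comm, mul_one, smul_mul_assoc, hRR'] at hconj
      have h1 : (α - α ^ p) • (1 : Module.End k V) = 0 := by rw [sub_smul, hconj, sub_self]
      rcases smul_eq_zero.mp h1 with h2 | h2
      · exact (sub_eq_zero.mp h2).symm
      · exact absurd h2 one_ne_zero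
    have hαpp : α ^ (p ^ 2) = α := by rw [pow_two, pow_mul, hαp, hαp]
    rw [hSα, _root_.smul_pow, one_pow, s56f_pow_sq_sub_one hpF.out hα0 hαpp, one_smul]
  · obtain ⟨b, hb⟩ := s56f_exists_eigenbasis hV S hS hαβ
    let e : Module.End k V ≃ₐ[k] Matrix (Fin 2) (Fin 2) k := LinearMap.toMatrixAlgEquiv b
    have heS : e S = Matrix.diagonal ![α, β] := hb
    have h1 : e R * Matrix.diagonal ![α, β] = Matrix.diagonal ![α ^ p, β ^ p] * e R := by
      rw [← s56f_diag_pow, ← heS, ← map_pow, ← map_mul, ← map_mul, hcomm]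
    have h2 : e R * e R' = 1 := by rw [← map_mul, hRR', map_one]
    have h3 : e R' * e R = 1 := by rw [← map_mul, hR'R, map_one]
    have h4 : (Matrix.diagonal ![α ^ m, β ^ m] : Matrix (Fin 2) (Fin 2) k) = 1 := by
      rw [← s56f_diag_pow, ← heS, ← map_pow, hSm, map_one]
    obtain ⟨hαm, hβm⟩ := s56f_diag_eq_one_iff h4
    have hm1 : m ≠ 0 := by
      rintro rfl
      exact hm0 (by simp)
    have hα0 : α ≠ 0 := by
      rintro rfl
      rw [zero_pow hm1] at hαm
      exact zero_ne_one hαm
    have hβ0 : β ≠ 0 := by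
      rintro rfl
      rw [zero_pow hm1] at hβm
      exact zero_ne_one hβm
    have hpp : α ^ (p ^ 2) = α ∧ β ^ (p ^ 2) = β := by
      rcases s56f_mat_dich h2 h3 hαβ h1 with ⟨-, -, h5, h6⟩ | ⟨-, -, h5, h6⟩
      · exact ⟨by rw [pow_two, pow_mul, h5, h5], by rw [pow_two, pow_mul, h6, h6]⟩
      · exact ⟨by rw [pow_two, pow_mul, h5, h6], by rw [pow_two, pow_mul, h6, h5]⟩
    apply e.injective
    rw [map_pow, heS, s56f_diag_pow, map_one]
    exact s56f_diag_eq_one (s56f_pow_sq_sub_one hpF.out hα0 hpp.1)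
      (s56f_pow_sq_sub_one hpF.out hβ0 hpp.2)

end End2

end Fermat.Agent.Lib.S56
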