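/-
PROGRAMME W (S56), wall [W8-F3] "THE COUNT", SECOND INTERFACE (helper3, prefix `s56f_`).
STATEMENT-ONLY: the decomposition of `s56f_IfaceMain` (see `IfaceF3.lean`) into assignable contracts.

`s56f_IfaceMain` ⇐ (Glue) `s56f_IfaceElem` [cocycle-level statement, no `Rep`/`H1`]
`s56f_IfaceElem` ⇐ `s56f_IfaceTameAsm` (tame `ρ̄|_D`) + `s56f_IfaceWildAsm` (wild `ρ̄|_D`)
both assemblies consume: the character count `F3Char.lean` (`s56f_cc_triv/_f1/_f2`, needs §A + `s56f_Dict`),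
the bridge `F3Bridge.lean` (`s56f_window_of_KB`), the tame field package `s56f_IfaceK1`, `s56f_IfaceFrobPi`,
`s56f_IfaceTameMax`, helper6's `s56g_IfaceFrobGen`, the tame relation, and (wild) `s56f_IfaceWildLine`.
-/
import Mathlib
import Fermat.Agent.Lib.S56.IfaceF3

set_option autoImplicit false

noncomputable section

namespace Fermat.Agent.Lib.S56

open Polynomial Module

local notation "Qbar" => AlgebraicClosure ℚ
local notation "GQ" => (AlgebraicClosure ℚ ≃ₐ[ℚ] AlgebraicClosure ℚ)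

/-! ### §K The explicit tame fields `K₁(n) = ℚ(ζ_{p(pⁿ-1)}, π₁)`, `n = 2N` -/

/-- **(K1)** for every `N ≥ 1` there is a finite Galois `K₁/ℚ`, tame at `P`, containing `ζ` and `π₁`,
with `V₁ ⊆ G_{K₁}`, such that `D ∩ G_{K₁}` is topologically generated by `V₁` and `φ ^ n`, `N ∣ n`,
for every Frobenius lift `φ` fixing `π₁`.  (`K₁ = ℚ(ζ_{p(p^(2N)-1)}, π₁)`, the splitting field of
`(X^(p(p^(2N)-1)) - 1)(X^(p²-1) + p)`; `σ^(p²-1)` fixes `K₁` for `σ ∈ I`; FrobGen + `φ^j ζ' = ζ'^(p^j)`.) -/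
def s56f_IfaceK1 : Prop :=
  ∀ (p : ℕ), p.Prime → p ≠ 2 → ∀ (P : ValuationSubring Qbar), P.LiesOverPrime p →
    ∀ (π₁ ζ : Qbar), π₁ ^ (p ^ 2 - 1) = -(p : Qbar) → ζ ^ p = 1 → ζ ≠ 1 →
    ∀ N : ℕ, 0 < N →
    ∃ K₁ : IntermediateField ℚ Qbar, FiniteDimensional ℚ K₁ ∧ Normal ℚ K₁ ∧ s56f_TameAt K₁ p P ∧
      ζ ∈ K₁ ∧ π₁ ∈ K₁ ∧ (∀ σ ∈ s56f_V1 P π₁, σ ∈ K₁.fixingSubgroup) ∧
      ∀ φ : GQ, P.IsFrobeniusAt φ p → φ π₁ = π₁ →
        ∀ σ ∈ P.decompositionSubgroup ℚ, σ ∈ K₁.fixingSubgroup →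
        ∀ F : IntermediateField ℚ Qbar, FiniteDimensional ℚ F →
          ∃ (j : ℕ) (ι : GQ), N ∣ j ∧ ι ∈ s56f_V1 P π₁ ∧ (φ ^ j * ι)⁻¹ * σ ∈ F.fixingSubgroup

/-- **(FrobPi)** there is a Frobenius lift at `P` fixing `π₁`. -/
def s56f_IfaceFrobPi : Prop :=
  ∀ (p : ℕ), p.Prime → ∀ (P : ValuationSubring Qbar), P.LiesOverPrime p →
    ∀ (π₁ : Qbar), π₁ ^ (p ^ 2 - 1) = -(p : Qbar) →
    ∃ φ : GQ, P.IsFrobeniusAt φ p ∧ φ π₁ = π₁

/-- **(TameMax)** `ℚ_p^{ur}(π₁)` is the maximal tame extension of exponent dividing `p² - 1`: a subgroup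
`K` with `K ∩ I` open in `I` and stable under `I`-conjugation, such that `σ^(p²-1) ∈ K` for all `σ ∈ I`,
contains `V₁`.  (Kummer theory on `I` with `μ_{p²-1}`, `v(ℚ̄^I) = ℤ`, (RedInj).) -/
def s56f_IfaceTameMax : Prop :=
  ∀ (p : ℕ), p.Prime → ∀ (P : ValuationSubring Qbar), P.LiesOverPrime p →
    ∀ (π₁ : Qbar), π₁ ^ (p ^ 2 - 1) = -(p : Qbar) →
    ∀ K : Subgroup GQ,
      (∃ F : IntermediateField ℚ Qbar, FiniteDimensional ℚ F ∧
        ∀ σ ∈ P.inertiaSubgroupIn ℚ, σ ∈ F.fixingSubgroup → σ ∈ K) →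
      (∀ g ∈ P.inertiaSubgroupIn ℚ, ∀ x ∈ P.inertiaSubgroupIn ℚ, x ∈ K → g * x * g⁻¹ ∈ K) →
      (∀ σ ∈ P.inertiaSubgroupIn ℚ, σ ^ (p ^ 2 - 1) ∈ K) →
      ∀ σ ∈ s56f_V1 P π₁, σ ∈ K

/-- **(TameRel)** the tame relation modulo an open subgroup: for `φ` a Frobenius lift and `τ ∈ I`,
`(φ τ φ⁻¹ τ^(-p))^(p^a)` fixes `F`.  (= `s35t_tame_fin`, Lib/S35/TameFin, for the normal closure.) -/
def s56f_IfaceTameRel : Prop :=
  ∀ (p : ℕ), p.Prime → ∀ (P : ValuationSubring Qbar), P.LiesOverPrime p →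
    ∀ (φ τ : GQ), P.IsFrobeniusAt φ p → τ ∈ P.inertiaSubgroupIn ℚ →
    ∀ F : IntermediateField ℚ Qbar, FiniteDimensional ℚ F →
      ∃ a : ℕ, (φ * τ * φ⁻¹ * (τ ^ p)⁻¹) ^ (p ^ a) ∈ F.fixingSubgroup

/-! ### §E The cocycle-level statement -/

section Elem

variable {k : Type} [Field k] {V : Type} [AddCommGroup V] [Module k V]

/-- **good cocycles** of `D_P` with values in `ad⁰ ρ` (functions on `G_ℚ`; only the values on `D_P`
matter): the cocycle identity on `D_P`, trace zero, and vanishing on `D_P ∩ G_L` for some `Good L` with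
`G_L ⊆ ker ρ`. -/
structure s56f_GoodCoc (P : ValuationSubring Qbar) (Good : IntermediateField ℚ Qbar → Prop)
    (ρ : GQ →* Module.End k V) (c : GQ → Module.End k V) : Prop where
  coc : ∀ g ∈ P.decompositionSubgroup ℚ, ∀ h ∈ P.decompositionSubgroup ℚ,
    c (g * h) = c g + ρ g * c h * ρ g⁻¹
  tr : ∀ g ∈ P.decompositionSubgroup ℚ, LinearMap.trace k V (c g) = 0
  good : ∃ L : IntermediateField ℚ Qbar, Good L ∧ (∀ σ ∈ L.fixingSubgroup, ρ σ = 1) ∧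
    ∀ g ∈ P.decompositionSubgroup ℚ, g ∈ L.fixingSubgroup → c g = 0

/-- the conclusion of the count at the cocycle level: modulo coboundaries and cocycles vanishing on
inertia, the good cocycles are the multiples of a single continuous cocycle `c₀`. -/
def s56f_ElemConcl (P : ValuationSubring Qbar) (Good : IntermediateField ℚ Qbar → Prop)
    (ρ : GQ →* Module.End k V) : Prop :=
  ∃ c₀ : GQ → Module.End k V,
    s56f_GoodCoc P (fun L => FiniteDimensional ℚ L) ρ c₀ ∧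
    ∀ c : GQ → Module.End k V, s56f_GoodCoc P Good ρ c →
      ∃ (a : k) (M : Module.End k V), LinearMap.trace k V M = 0 ∧
        ∀ σ ∈ P.inertiaSubgroupIn ℚ, c σ = a • c₀ σ + (ρ σ * M * ρ σ⁻¹ - M)

end Elem

/-- the common hypotheses of the cocycle-level statements (`p ≥ 5`). -/
def s56f_ElemHyp (p : ℕ) (k : Type) [Field k] (V : Type) [AddCommGroup V] [Module k V]
    [Module.Finite k V] (ρ : GQ →* Module.End k V) (P : ValuationSubring Qbar)
    (Good : IntermediateField ℚ Qbar → Prop) : Prop :=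
  5 ≤ p ∧ finrank k V = 2 ∧
  (∃ F : IntermediateField ℚ Qbar, FiniteDimensional ℚ F ∧ ∀ σ ∈ F.fixingSubgroup, ρ σ = 1) ∧
  (∀ σ : GQ, ∃ α β : k, LinearMap.charpoly (ρ σ) = (X - C α) * (X - C β)) ∧
  P.LiesOverPrime p ∧
  (∀ L L', Good L → Good L' → Good (L ⊔ L')) ∧ (∀ L, Good L → FiniteDimensional ℚ L) ∧
  s56f_KB p P Good

/-- **(Elem)** the count at the cocycle level. -/
def s56f_IfaceElem : Prop :=
  ∀ (p : ℕ) [Fact p.Prime] (k : Type) [Field k] [Finite k] [CharP k p]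
    (V : Type) [AddCommGroup V] [Module k V] [Module.Finite k V] (ρ : GQ →* Module.End k V)
    (P : ValuationSubring Qbar) (Good : IntermediateField ℚ Qbar → Prop),
    s56f_ElemHyp p k V ρ P Good → s56f_ElemConcl P Good ρ

/-- **(TameAsm)** the tame case. -/
def s56f_IfaceTameAsm : Prop :=
  ∀ (p : ℕ) [Fact p.Prime] (k : Type) [Field k] [Finite k] [CharP k p]
    (V : Type) [AddCommGroup V] [Module k V] [Module.Finite k V] (ρ : GQ →* Module.End k V)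
    (P : ValuationSubring Qbar) (Good : IntermediateField ℚ Qbar → Prop),
    s56f_ElemHyp p k V ρ P Good →
    (∀ σ ∈ P.inertiaSubgroupIn ℚ, ∃ m : ℕ, m.Coprime p ∧ ρ σ ^ m = 1) →
    s56f_ElemConcl P Good ρ

/-- **(WildAsm)** the wild case. -/
def s56f_IfaceWildAsm : Prop :=
  ∀ (p : ℕ) [Fact p.Prime] (k : Type) [Field k] [Finite k] [CharP k p]
    (V : Type) [AddCommGroup V] [Module k V] [Module.Finite k V] (ρ : GQ →* Module.End k V)
    (P : ValuationSubring Qbar) (Good : IntermediateField ℚ Qbar → Prop),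
    s56f_ElemHyp p k V ρ P Good →
    ¬ (∀ σ ∈ P.inertiaSubgroupIn ℚ, ∃ m : ℕ, m.Coprime p ∧ ρ σ ^ m = 1) →
    s56f_ElemConcl P Good ρ

end Fermat.Agent.Lib.S56
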