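/-
Programme W (S56), wall [W8-F3] §K (helper5, prefix `s56o_`; the contracts are helper3's `s56f_Iface…`
of `IfaceF3b.lean`): **the explicit tame fields**.

* `s56f_ifaceTameRel` : the tame relation modulo an open subgroup;
* `s56f_ifaceFrobPi`  : a Frobenius lift fixing `π₁`;
* `s56f_ifaceTameMax` : `V₁ ⊆ K` for every `K` with `K ∩ I` open in `I` and `σ^(p²-1) ∈ K` on `I`;
* `s56f_ifaceK1`      : the fields `K₁ = ℚ(μ_{p(p^N-1)}, (-p)^{1/(p²-1)})`.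
-/
import Fermat.Agent.Lib.S56.IfaceF3b
import Fermat.Agent.Lib.S56.F3Dict
import Fermat.Agent.Lib.S56.GDecomp
import Fermat.Agent.Lib.S35.TameFin
import Fermat.Agent.Lib.Frobenius.Exists

set_option autoImplicit false
set_option linter.style.haveILetI false

noncomputable section

namespace Fermat.Agent.Lib.S56

open Fermat.Agent.Lib.Frey Fermat.Agent.Lib.S18 Fermat.Agent.Lib.Mz Fermat.Agent.Lib.CFT
  Fermat.Agent.Lib.S35

local notation "Qbar" => AlgebraicClosure ℚ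
local notation "GQ" => (AlgebraicClosure ℚ ≃ₐ[ℚ] AlgebraicClosure ℚ)

/-! ### (TameRel) -/

theorem s56f_ifaceTameRel : s56f_IfaceTameRel := by
  intro p hp P hP φ τ hφ hτ F hF
  obtain ⟨L, hFL, hfd, hnorm⟩ := s56g_exists_level F hF
  have hstable : ∀ g : GQ, ∀ x ∈ L, g x ∈ L := by
    intro g x hx
    have hcl : IsAlgClosure ℚ Qbar := ⟨inferInstance, AlgebraicClosure.isAlgebraic ℚ⟩
    haveI hnQ : Normal ℚ Qbar := IsAlgClosure.normal ℚ Qbar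
    have h1 := IntermediateField.normal_iff_forall_map_le'.mp hnorm g
    exact h1 ((IntermediateField.mem_map _).mpr ⟨x, hx, rfl⟩)
  obtain ⟨a, ha⟩ := s35t_tame_fin P hp hP φ τ hφ hτ L hfd hstable
  refine ⟨a, ?_⟩
  rw [IntermediateField.mem_fixingSubgroup_iff]
  intro x hx
  exact ha x (hFL hx)

/-! ### Frobenius lifts -/

/-- inertia times a Frobenius lift is a Frobenius lift. -/
theorem s56o_inertia_mul_frob (P : ValuationSubring Qbar) {q : ℕ} {φ σ : GQ}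
    (hφ : P.IsFrobeniusAt φ q) (hσ : σ ∈ P.inertiaSubgroupIn ℚ) : P.IsFrobeniusAt (σ * φ) q := by
  obtain ⟨t, ht, rfl⟩ := hσ
  have hφD := hφ.mem_decompositionSubgroup
  have hmem : (P.decompositionSubgroup ℚ).subtype t * φ ∈ P.decompositionSubgroup ℚ :=
    mul_mem t.2 hφD
  refine ⟨hmem, fun x => ?_⟩
  have h1 : (⟨(P.decompositionSubgroup ℚ).subtype t * φ, hmem⟩ : P.decompositionSubgroup ℚ) =
      t * ⟨φ, hφD⟩ := rfl
  rw [h1, mul_smul, hφ.smul_residue_eq x]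
  exact RingEquiv.congr_fun (MonoidHom.mem_ker.mp ht) (x ^ q)

/-! ### (FrobPi) -/

/-- the tame character is onto `μ_{p²-1}`. -/
theorem s56o_chi_surj {p : ℕ} (hp : p.Prime) (P : ValuationSubring Qbar) (hP : P.LiesOverPrime p)
    {π₁ : Qbar} (hπ : π₁ ^ (p ^ 2 - 1) = -(p : Qbar)) (η : Qbar) (hη : η ^ (p ^ 2 - 1) = 1) :
    ∃ σ : ↥(P.inertiaSubgroupIn ℚ), ((s56o_chi hp P hP hπ σ : Qbarˣ) : Qbar) = η := by
  haveI : NeZero (p ^ 2 - 1) := ⟨(s56o_e1_pos hp).ne'⟩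
  have hη0 : η ≠ 0 := by
    intro h
    rw [h, zero_pow (s56o_e1_pos hp).ne'] at hη
    exact zero_ne_one hη
  have heq : s56o_H hp P hP hπ = rootsOfUnity (p ^ 2 - 1) Qbar := by
    apply Subgroup.eq_of_le_of_card_ge (s56o_H_le hp P hP hπ)
    rw [s56o_card_H hp P hP hπ]
    exact card_rootsOfUnity Qbar (p ^ 2 - 1)
  have hmem : Units.mk0 η hη0 ∈ s56o_H hp P hP hπ := by
    rw [heq, mem_rootsOfUnity]
    apply Units.ext
    rw [Units.val_pow_eq_pow_val, Units.val_mk0, hη, Units.val_one]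
  obtain ⟨σ, hσ⟩ := hmem
  exact ⟨σ, by rw [hσ, Units.val_mk0]⟩

theorem s56f_ifaceFrobPi : s56f_IfaceFrobPi := by
  intro p hp P hP π₁ hπ
  obtain ⟨φ₀, hφ₀⟩ := Fermat.Agent.Lib.Frobenius.exists_isFrobeniusAt_of_liesOverPrime P p hp hP
  have hπ0 := s56o_pi1_ne_zero hp hπ
  set η : Qbar := φ₀ π₁ / π₁ with hη
  have h1 : φ₀ π₁ = η * π₁ := by rw [hη]; field_simp
  have hηpow : η ^ (p ^ 2 - 1) = 1 := s56o_xi_pow hp hπ φ₀ h1
  have hηinv : (η⁻¹) ^ (p ^ 2 - 1) = 1 := by rw [inv_pow, hηpow, inv_one]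
  obtain ⟨σ, hσ⟩ := s56o_chi_surj hp P hP hπ η⁻¹ hηinv
  refine ⟨(σ : GQ) * φ₀, s56o_inertia_mul_frob P hφ₀ σ.2, ?_⟩
  have h2 : ((σ : GQ) * φ₀) π₁ = (σ : GQ) (φ₀ π₁) := rfl
  have h3 : (σ : GQ) η = η :=
    s56o_inertia_fix_root hp P hP (s56o_not_dvd_e1 hp) hηpow (σ : GQ) σ.2
  have hη0 : η ≠ 0 := by
    intro h
    rw [h, zero_pow (s56o_e1_pos hp).ne'] at hηpow
    exact zero_ne_one hηpow
  rw [h2, h1, map_mul, h3, s56o_chi_spec hp P hP hπ σ, hσ]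
  field_simp

/-! ### (TameMax) -/

/-- `χ ρ = 1 ↔ ρ π₁ = π₁`. -/
theorem s56o_chi_eq_one_iff {p : ℕ} (hp : p.Prime) (P : ValuationSubring Qbar)
    (hP : P.LiesOverPrime p) {π₁ : Qbar} (hπ : π₁ ^ (p ^ 2 - 1) = -(p : Qbar))
    (ρ : ↥(P.inertiaSubgroupIn ℚ)) : s56o_chi hp P hP hπ ρ = 1 ↔ (ρ : GQ) π₁ = π₁ := by
  have hπ0 := s56o_pi1_ne_zero hp hπ
  constructor
  · intro h
    rw [s56o_chi_spec hp P hP hπ ρ, h, Units.val_one, one_mul]
  · intro h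
    have h1 := s56o_chi_spec hp P hP hπ ρ
    rw [h] at h1
    apply Units.ext
    rw [Units.val_one]
    have h2 : ((s56o_chi hp P hP hπ ρ : Qbarˣ) : Qbar) * π₁ = 1 * π₁ := by rw [one_mul]; exact h1.symm
    exact mul_right_cancel₀ hπ0 h2

theorem s56o_coprime_e1 {p : ℕ} (hp : p.Prime) : (p ^ 2 - 1).Coprime p :=
  ((Nat.Prime.coprime_iff_not_dvd hp).mpr (s56o_not_dvd_e1 hp)).symm

theorem s56f_ifaceTameMax : s56f_IfaceTameMax := by
  intro p hp P hP π₁ hπ K hopenK _ hpow σ hσ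
  obtain ⟨F, hF, hFK⟩ := hopenK
  set I := P.inertiaSubgroupIn ℚ with hI
  set K'' : Subgroup GQ := K ⊓ s56f_V1 P π₁ with hK''
  have hV1 : ∀ ρ : ↥I, (ρ : GQ) ∈ s56f_V1 P π₁ ↔ s56o_chi hp P hP hπ ρ = 1 := by
    intro ρ
    rw [s56o_chi_eq_one_iff hp P hP hπ ρ]
    exact ⟨fun h => h.2, fun h => ⟨ρ.2, h⟩⟩
  have hopen : ∃ F' : IntermediateField ℚ Qbar, FiniteDimensional ℚ F' ∧
      ∀ σ ∈ I, σ ∈ F'.fixingSubgroup → σ ∈ K'' := by
    refine ⟨F ⊔ IntermediateField.adjoin ℚ {π₁}, ?_, ?_⟩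
    · haveI := hF
      haveI : FiniteDimensional ℚ (IntermediateField.adjoin ℚ {π₁}) :=
        IntermediateField.adjoin.finiteDimensional (Algebra.IsAlgebraic.isAlgebraic π₁).isIntegral
      exact IntermediateField.finiteDimensional_sup _ _
    · intro σ hσI hσF
      refine ⟨hFK σ hσI (IntermediateField.fixingSubgroup_antitone le_sup_left hσF), hσI, ?_⟩
      exact (IntermediateField.mem_fixingSubgroup_iff _ σ).mp hσF π₁
        ((le_sup_right : IntermediateField.adjoin ℚ {π₁} ≤ F ⊔ IntermediateField.adjoin ℚ {π₁})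
          (IntermediateField.mem_adjoin_simple_self ℚ π₁))
  have hcop : ∀ σ ∈ I, ∃ m : ℕ, m.Coprime p ∧ σ ^ m ∈ K'' := by
    intro σ hσI
    refine ⟨p ^ 2 - 1, s56o_coprime_e1 hp, hpow σ hσI, ?_⟩
    have h1 : ((⟨σ, hσI⟩ ^ (p ^ 2 - 1) : ↥I) : GQ) ∈ s56f_V1 P π₁ := by
      rw [hV1, map_pow, s56o_chi_pow]
    exact h1
  obtain ⟨τ, hτ, hgen, -⟩ := s56g_ifaceTame p hp P hP K'' hopen hcop
  -- `g = χ τ` generates `H`
  have := s56o_H_finite hp P hP hπ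
  set g : ↥(s56o_H hp P hP hπ) := ⟨s56o_chi hp P hP hπ ⟨τ, hτ⟩, ⟨_, rfl⟩⟩ with hg
  have hchi : ∀ (ρ : GQ) (hρ : ρ ∈ I) (j : ℕ), (τ ^ j)⁻¹ * ρ ∈ s56f_V1 P π₁ →
      s56o_chi hp P hP hπ ⟨ρ, hρ⟩ = (s56o_chi hp P hP hπ ⟨τ, hτ⟩) ^ j := by
    intro ρ hρ j hj
    have h1 : (((⟨τ, hτ⟩ ^ j)⁻¹ * ⟨ρ, hρ⟩ : ↥I) : GQ) ∈ s56f_V1 P π₁ := hj
    rw [hV1, map_mul, map_inv, map_pow] at h1
    exact (inv_mul_eq_one.mp h1).symm
  have hgen' : ∀ x : ↥(s56o_H hp P hP hπ), x ∈ Subgroup.zpowers g := by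
    rintro ⟨_, ⟨ρ, rfl⟩⟩
    obtain ⟨j, hj⟩ := hgen ρ ρ.2
    refine ⟨(j : ℤ), ?_⟩
    apply Subtype.ext
    have := hchi ρ ρ.2 j hj.2
    simp only [zpow_natCast, SubgroupClass.coe_pow, hg]
    exact this.symm
  have hord : orderOf g = p ^ 2 - 1 := by
    rw [orderOf_eq_card_of_forall_mem_zpowers hgen', s56o_card_H hp P hP hπ]
  -- now `σ ∈ V₁`
  obtain ⟨j, hj⟩ := hgen σ hσ.1
  have h1 : τ ^ j ∈ s56f_V1 P π₁ := by
    have h2 : τ ^ j = σ * ((τ ^ j)⁻¹ * σ)⁻¹ := by group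
    rw [h2]
    exact mul_mem hσ (inv_mem hj.2)
  have h3 : g ^ j = 1 := by
    apply Subtype.ext
    have h4 : ((⟨τ, hτ⟩ ^ j : ↥I) : GQ) ∈ s56f_V1 P π₁ := h1
    rw [hV1, map_pow] at h4
    simp only [SubgroupClass.coe_pow, hg, OneMemClass.coe_one]
    exact h4
  have h5 : (p ^ 2 - 1) ∣ j := by
    rw [← hord]
    exact orderOf_dvd_of_pow_eq_one h3
  obtain ⟨c, hc⟩ := h5
  have h6 : τ ^ j ∈ K := by
    rw [hc, pow_mul]
    exact K.pow_mem (hpow τ hτ) c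
  have h7 : σ = τ ^ j * ((τ ^ j)⁻¹ * σ) := by group
  rw [h7]
  exact K.mul_mem h6 hj.1

/-! ### (K1): general lemmas -/

/-- an automorphism fixing `x ^ a` and `x ^ b`, `a`, `b` coprime, fixes `x`. -/
theorem s56o_fix_of_fix_parts (g : GQ) {x : Qbar} (hx0 : x ≠ 0) {a b : ℕ} (hab : a.Coprime b)
    (ha : g (x ^ a) = x ^ a) (hb : g (x ^ b) = x ^ b) : g x = x := by
  have hbz : (a : ℤ) * Nat.gcdA a b + (b : ℤ) * Nat.gcdB a b = 1 := by
    have := Nat.gcd_eq_gcd_ab a b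
    rw [hab] at this
    exact_mod_cast this.symm
  have h4 : x = (x ^ a) ^ (Nat.gcdA a b) * (x ^ b) ^ (Nat.gcdB a b) := by
    calc x = x ^ (1 : ℤ) := (zpow_one _).symm
      _ = x ^ ((a : ℤ) * Nat.gcdA a b + (b : ℤ) * Nat.gcdB a b) := by rw [hbz]
      _ = (x ^ a) ^ (Nat.gcdA a b) * (x ^ b) ^ (Nat.gcdB a b) := by
          rw [zpow_add₀ hx0, zpow_mul, zpow_mul, zpow_natCast, zpow_natCast]
  have h5 : g x = g ((x ^ a) ^ (Nat.gcdA a b) * (x ^ b) ^ (Nat.gcdB a b)) := by rw [← h4]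
  rw [h5, map_mul, map_zpow₀, map_zpow₀, ha, hb, ← h4]

/-- `ρ ^ (p - 1)` fixes the `p`-th roots of unity. -/
theorem s56o_pow_fix_mup {p : ℕ} (hp : p.Prime) (ρ : GQ) {z : Qbar} (hz : z ^ p = 1) :
    (ρ ^ (p - 1)) z = z := by
  by_cases hz1 : z = 1
  · rw [hz1, map_one]
  haveI : NeZero p := ⟨hp.ne_zero⟩
  haveI : Fact p.Prime := ⟨hp⟩
  have hord : orderOf z = p := orderOf_eq_prime hz hz1
  have hprim : IsPrimitiveRoot z p := IsPrimitiveRoot.iff_orderOf.mpr hord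
  have h1 : (ρ z) ^ p = 1 := by rw [← map_pow, hz, map_one]
  obtain ⟨a, -, hza⟩ := hprim.eq_pow_of_pow_eq_one h1
  have hpow : ∀ n : ℕ, (ρ ^ n) z = z ^ (a ^ n) := by
    intro n
    induction n with
    | zero => simp
    | succ n ih =>
      rw [pow_succ, AlgEquiv.mul_apply, ← hza, map_pow, ih, ← pow_mul, ← pow_succ]
  have hpa : ¬ p ∣ a := by
    rintro ⟨c, rfl⟩
    rw [pow_mul, hz, one_pow] at hza
    have : ρ z = ρ 1 := by rw [map_one]; exact hza.symm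
    exact hz1 (ρ.injective this)
  have hcop : a.Coprime p := ((Nat.Prime.coprime_iff_not_dvd hp).mpr hpa).symm
  have hfl : a ^ (p - 1) ≡ 1 [MOD p] := by
    have := Nat.ModEq.pow_totient hcop
    rwa [Nat.totient_prime hp] at this
  rw [hpow]
  have h2 : z ^ (a ^ (p - 1)) = z ^ 1 := by
    rw [← pow_mod_orderOf z (a ^ (p - 1)), ← pow_mod_orderOf z 1, hord]
    exact congrArg (fun n => z ^ n) hfl
  rw [h2, pow_one]

section frob

variable {p : ℕ} (hp : p.Prime) (P : ValuationSubring Qbar) (hP : P.LiesOverPrime p)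
include hp hP

/-- a Frobenius lift raises the roots of unity of order prime to `p` to the `p`-th power. -/
theorem s56o_frob_root {φ : GQ} (hφ : P.IsFrobeniusAt φ p) {m : ℕ} (hm : ¬ p ∣ m) {η : Qbar}
    (hη : η ^ m = 1) : φ η = η ^ p := by
  have hm0 : m ≠ 0 := fun h => hm (h ▸ dvd_zero p)
  have hval : P.valuation η = 1 := s56o_val_root_of_unity P hm0 hη
  have hη0 : η ≠ 0 := by
    intro h
    rw [h, map_zero] at hval
    exact zero_ne_one hval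
  have hηP : η ∈ P := (P.valuation_le_one_iff _).mp hval.le
  have h1 := (s35t_frob_spec P φ p hφ).2 η hηP
  have h2 : (φ η / η ^ p) ^ m = 1 := by
    rw [div_pow, ← map_pow, hη, map_one, ← pow_mul, mul_comm, pow_mul, hη, one_pow, div_one]
  have h3 : φ η / η ^ p - 1 ∈ P.nonunits := by
    have : φ η / η ^ p - 1 = (φ η - η ^ p) / η ^ p := by field_simp
    rw [this, P.mem_nonunits_iff, map_div₀, map_pow, hval, one_pow, div_one]
    exact P.mem_nonunits_iff.mp h1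
  have h4 := s56f_ifaceRedInj p hp P hP _ m hm h2 h3
  exact (div_eq_one_iff_eq (pow_ne_zero _ hη0)).mp h4

theorem s56o_frob_pow_root {φ : GQ} (hφ : P.IsFrobeniusAt φ p) {m : ℕ} (hm : ¬ p ∣ m) {η : Qbar}
    (hη : η ^ m = 1) (j : ℕ) : (φ ^ j) η = η ^ (p ^ j) := by
  induction j with
  | zero => simp
  | succ j ih =>
    rw [pow_succ, AlgEquiv.mul_apply, s56o_frob_root hp P hP hφ hm hη, map_pow, ih, ← pow_mul,
      ← pow_succ]

end frob

/-- `p ^ N - 1 ∣ p ^ j - 1 ⇒ N ∣ j`. -/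
theorem s56o_dvd_of_pow_sub_one_dvd {p : ℕ} (hp : p.Prime) {N j : ℕ}
    (h : p ^ N - 1 ∣ p ^ j - 1) : N ∣ j := by
  have h1 : Nat.gcd (p ^ N - 1) (p ^ j - 1) = p ^ N - 1 := Nat.gcd_eq_left h
  rw [Nat.pow_sub_one_gcd_pow_sub_one] at h1
  have h2 : p ^ Nat.gcd N j = p ^ N := by
    have h3 : 1 ≤ p ^ Nat.gcd N j := Nat.one_le_pow _ _ hp.pos
    have h4 : 1 ≤ p ^ N := Nat.one_le_pow _ _ hp.pos
    omega
  have h5 : Nat.gcd N j = N := Nat.pow_right_injective hp.two_le h2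
  rw [← h5]
  exact Nat.gcd_dvd_right N j

/-! ### (K1): the field `K₁ = ℚ(μ_{p(p^N-1)}, (-p)^{1/(p²-1)})` -/

open Polynomial in
/-- the polynomial `(X^(p(p^N-1)) - 1)(X^(p²-1) + p)`. -/
def s56o_K1poly (p N : ℕ) : Polynomial ℚ :=
  (X ^ (p * (p ^ N - 1)) - C 1) * (X ^ (p ^ 2 - 1) + C (p : ℚ))

/-- `K₁`, the splitting field of `s56o_K1poly p N` in `ℚ̄`. -/
def s56o_K1 (p N : ℕ) : IntermediateField ℚ Qbar :=
  IntermediateField.adjoin ℚ ((s56o_K1poly p N).rootSet Qbar)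

theorem s56o_not_dvd_pow_sub_one {p : ℕ} (hp : p.Prime) {n : ℕ} (hn : 0 < n) :
    ¬ p ∣ p ^ n - 1 := by
  intro h
  have h1 : p ∣ p ^ n := dvd_pow_self p hn.ne'
  have h2 : p ∣ p ^ n - (p ^ n - 1) := Nat.dvd_sub h1 h
  have h3 : p ^ n - (p ^ n - 1) = 1 := by
    have := Nat.one_le_pow n p hp.pos
    omega
  rw [h3] at h2
  exact hp.one_lt.ne' (Nat.dvd_one.mp h2)

theorem s56o_pow_sub_one_pos {p : ℕ} (hp : p.Prime) {n : ℕ} (hn : 0 < n) : 0 < p ^ n - 1 := by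
  have h1 : p ^ 1 ≤ p ^ n := Nat.pow_le_pow_right hp.pos hn
  rw [pow_one] at h1
  have := hp.two_le
  omega

section K1

variable {p : ℕ} (hp : p.Prime) {N : ℕ} (hN : 0 < N)
include hp hN

theorem s56o_K1poly_ne_zero : s56o_K1poly p N ≠ 0 := by
  have hM : p * (p ^ N - 1) ≠ 0 := (Nat.mul_pos hp.pos (s56o_pow_sub_one_pos hp hN)).ne'
  exact mul_ne_zero (Polynomial.monic_X_pow_sub_C (1 : ℚ) hM).ne_zero
    (Polynomial.monic_X_pow_add_C (p : ℚ) (s56o_e1_pos hp).ne').ne_zero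

theorem s56o_mem_rootSet_K1poly (x : Qbar) :
    x ∈ (s56o_K1poly p N).rootSet Qbar ↔
      x ^ (p * (p ^ N - 1)) = 1 ∨ x ^ (p ^ 2 - 1) = -(p : Qbar) := by
  rw [Polynomial.mem_rootSet]
  have h1 : Polynomial.aeval x (s56o_K1poly p N) =
      (x ^ (p * (p ^ N - 1)) - 1) * (x ^ (p ^ 2 - 1) + (p : Qbar)) := by
    simp [s56o_K1poly]
  rw [h1, mul_eq_zero, sub_eq_zero, add_eq_zero_iff_eq_neg]
  exact ⟨fun h => h.2, fun h => ⟨s56o_K1poly_ne_zero hp hN, h⟩⟩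

theorem s56o_mem_K1_of_pow_eq_one {x : Qbar} (hx : x ^ (p * (p ^ N - 1)) = 1) :
    x ∈ s56o_K1 p N :=
  IntermediateField.subset_adjoin ℚ _ ((s56o_mem_rootSet_K1poly hp hN x).mpr (Or.inl hx))

theorem s56o_mem_K1_of_pow_eq {x : Qbar} (hx : x ^ (p ^ 2 - 1) = -(p : Qbar)) :
    x ∈ s56o_K1 p N :=
  IntermediateField.subset_adjoin ℚ _ ((s56o_mem_rootSet_K1poly hp hN x).mpr (Or.inr hx))

omit hp hN in
theorem s56o_K1_isSplittingField :
    (s56o_K1poly p N).IsSplittingField ℚ ↥(s56o_K1 p N) :=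
  IntermediateField.adjoin_rootSet_isSplittingField (IsAlgClosed.splits _)

omit hp hN in
theorem s56o_K1_finiteDimensional : FiniteDimensional ℚ ↥(s56o_K1 p N) := by
  haveI := s56o_K1_isSplittingField (p := p) (N := N)
  exact Polynomial.IsSplittingField.finiteDimensional ↥(s56o_K1 p N) (s56o_K1poly p N)

omit hp hN in
theorem s56o_K1_normal : Normal ℚ ↥(s56o_K1 p N) := by
  haveI := s56o_K1_isSplittingField (p := p) (N := N)
  exact Normal.of_isSplittingField (s56o_K1poly p N)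

/-- an automorphism fixing the roots of `s56o_K1poly` fixes `K₁`. -/
theorem s56o_mem_fixing_K1 (g : GQ)
    (h1 : ∀ x : Qbar, x ^ (p * (p ^ N - 1)) = 1 → g x = x)
    (h2 : ∀ x : Qbar, x ^ (p ^ 2 - 1) = -(p : Qbar) → g x = x) :
    g ∈ (s56o_K1 p N).fixingSubgroup := by
  rw [IntermediateField.mem_fixingSubgroup_iff]
  intro y hy
  induction hy using IntermediateField.adjoin_induction with
  | mem x hx =>
    rcases (s56o_mem_rootSet_K1poly hp hN x).mp hx with h | h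
    · exact h1 x h
    · exact h2 x h
  | algebraMap x => exact g.commutes x
  | add x y _ _ hx hy => rw [map_add, hx, hy]
  | inv x _ hx => rw [map_inv₀, hx]
  | mul x y _ _ hx hy => rw [map_mul, hx, hy]

/-- fixing `μ_{p^N-1}` and `μ_p` ⇒ fixing `μ_{p(p^N-1)}`. -/
theorem s56o_fix_root_M (g : GQ) (h1 : ∀ η : Qbar, η ^ (p ^ N - 1) = 1 → g η = η)
    (h2 : ∀ z : Qbar, z ^ p = 1 → g z = z) :
    ∀ x : Qbar, x ^ (p * (p ^ N - 1)) = 1 → g x = x := by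
  intro x hx
  have hx0 : x ≠ 0 := by
    intro h
    rw [h, zero_pow (Nat.mul_pos hp.pos (s56o_pow_sub_one_pos hp hN)).ne'] at hx
    exact zero_ne_one hx
  have hcop : p.Coprime (p ^ N - 1) :=
    (Nat.Prime.coprime_iff_not_dvd hp).mpr (s56o_not_dvd_pow_sub_one hp hN)
  refine s56o_fix_of_fix_parts g hx0 hcop (h1 _ ?_) (h2 _ ?_)
  · rw [← pow_mul]; exact hx
  · rw [← pow_mul, mul_comm]; exact hx

omit hN in
/-- fixing `μ_{p²-1}` and `π₁` ⇒ fixing all `(p²-1)`-th roots of `-p`. -/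
theorem s56o_fix_root_e1 {π₁ : Qbar} (hπ : π₁ ^ (p ^ 2 - 1) = -(p : Qbar)) (g : GQ)
    (h1 : ∀ η : Qbar, η ^ (p ^ 2 - 1) = 1 → g η = η) (h2 : g π₁ = π₁) :
    ∀ x : Qbar, x ^ (p ^ 2 - 1) = -(p : Qbar) → g x = x := by
  intro x hx
  have hπ0 := s56o_pi1_ne_zero hp hπ
  have h3 : x = (x / π₁) * π₁ := by field_simp
  have h4 : (x / π₁) ^ (p ^ 2 - 1) = 1 := by
    rw [div_pow, hx, hπ, div_self (neg_ne_zero.mpr (s56o_p_ne_zero hp))]
  have h5 : g x = g ((x / π₁) * π₁) := by rw [← h3]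
  rw [h5, map_mul, h1 _ h4, h2, ← h3]

end K1

theorem s56o_e1_factor (p : ℕ) : p ^ 2 - 1 = (p + 1) * (p - 1) := by
  have := Nat.sq_sub_sq p 1
  rw [one_pow] at this
  exact this

theorem s56f_ifaceK1 : s56f_IfaceK1 := by
  intro p hp _ P hP π₁ ζ hπ hζ hζ1 N hN
  have hM' := s56o_not_dvd_pow_sub_one hp hN
  have hπ0 := s56o_pi1_ne_zero hp hπ
  refine ⟨s56o_K1 p N, s56o_K1_finiteDimensional, s56o_K1_normal, ?_, ?_, ?_, ?_, ?_⟩
  · -- tame
    intro σ hσ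
    refine ⟨p ^ 2 - 1, s56o_coprime_e1 hp, ?_⟩
    have hσe : σ ^ (p ^ 2 - 1) ∈ P.inertiaSubgroupIn ℚ := pow_mem hσ _
    apply s56o_mem_fixing_K1 hp hN
    · apply s56o_fix_root_M hp hN
      · intro η hη
        exact s56o_inertia_fix_root hp P hP hM' hη _ hσe
      · intro z hz
        have h1 : σ ^ (p ^ 2 - 1) = (σ ^ (p + 1)) ^ (p - 1) := by
          rw [← pow_mul, s56o_e1_factor]
        rw [h1]
        exact s56o_pow_fix_mup hp _ hz
    · apply s56o_fix_root_e1 hp hπ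
      · intro η hη
        exact s56o_inertia_fix_root hp P hP (s56o_not_dvd_e1 hp) hη _ hσe
      · have h1 : ((⟨σ, hσ⟩ ^ (p ^ 2 - 1) : ↥(P.inertiaSubgroupIn ℚ)) : GQ) π₁ = π₁ := by
          rw [← s56o_chi_eq_one_iff hp P hP hπ, map_pow, s56o_chi_pow]
        exact h1
  · exact s56o_mem_K1_of_pow_eq_one hp hN (by rw [pow_mul, hζ, one_pow])
  · exact s56o_mem_K1_of_pow_eq hp hN hπ
  · -- `V₁ ⊆ G_{K₁}`
    intro σ hσ
    apply s56o_mem_fixing_K1 hp hN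
    · apply s56o_fix_root_M hp hN
      · intro η hη
        exact s56o_inertia_fix_root hp P hP hM' hη σ hσ.1
      · intro z hz
        exact s56o_V1_fix_zeta hp P hP hπ hz σ hσ
    · apply s56o_fix_root_e1 hp hπ
      · intro η hη
        exact s56o_inertia_fix_root hp P hP (s56o_not_dvd_e1 hp) hη σ hσ.1
      · exact hσ.2
  · -- generation
    intro φ hφ hφπ σ hσD hσK F hF
    haveI := hF
    haveI := s56o_K1_finiteDimensional (p := p) (N := N)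
    have hF' : FiniteDimensional ℚ ↥(F ⊔ s56o_K1 p N) := IntermediateField.finiteDimensional_sup _ _
    obtain ⟨j, ι, hι, hjι⟩ := s56g_ifaceFrobGen p hp P hP φ hφ (F ⊔ s56o_K1 p N) hF' σ hσD
    have hK : (φ ^ j * ι)⁻¹ * σ ∈ (s56o_K1 p N).fixingSubgroup :=
      IntermediateField.fixingSubgroup_antitone le_sup_right hjι
    have hFf : (φ ^ j * ι)⁻¹ * σ ∈ F.fixingSubgroup :=
      IntermediateField.fixingSubgroup_antitone le_sup_left hjι
    have hg : φ ^ j * ι ∈ (s56o_K1 p N).fixingSubgroup := by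
      have h : φ ^ j * ι = σ * ((φ ^ j * ι)⁻¹ * σ)⁻¹ := by group
      rw [h]
      exact mul_mem hσK (inv_mem hK)
    have hgfix := (IntermediateField.mem_fixingSubgroup_iff _ _).mp hg
    -- `N ∣ j`
    have hM'pos := s56o_pow_sub_one_pos hp hN
    haveI : NeZero (p ^ N - 1) := ⟨hM'pos.ne'⟩
    obtain ⟨ζ'', hζ''⟩ := HasEnoughRootsOfUnity.exists_primitiveRoot Qbar (p ^ N - 1)
    have hζpow : ζ'' ^ (p ^ N - 1) = 1 := hζ''.pow_eq_one
    have hζK : ζ'' ∈ s56o_K1 p N :=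
      s56o_mem_K1_of_pow_eq_one hp hN (by rw [mul_comm, pow_mul, hζpow, one_pow])
    have h1 : (φ ^ j * ι) ζ'' = ζ'' := hgfix ζ'' hζK
    rw [AlgEquiv.mul_apply, s56o_inertia_fix_root hp P hP hM' hζpow ι hι,
      s56o_frob_pow_root hp P hP hφ hM' hζpow j] at h1
    have h2 : (p ^ N - 1) ∣ p ^ j - 1 := by
      have h3 : ζ'' ^ (p ^ j - 1) = 1 := by
        have h4 : ζ'' ^ (p ^ j) = ζ'' ^ (p ^ j - 1) * ζ'' := by
          rw [← pow_succ, Nat.sub_add_cancel (Nat.one_le_pow _ _ hp.pos)]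
        rw [h4] at h1
        exact mul_right_cancel₀ (hζ''.ne_zero hM'pos.ne') (by rw [h1, one_mul])
      exact (hζ''.pow_eq_one_iff_dvd _).mp h3
    have hNj : N ∣ j := s56o_dvd_of_pow_sub_one_dvd hp h2
    -- `ι ∈ V₁`
    have hπK : π₁ ∈ s56o_K1 p N := s56o_mem_K1_of_pow_eq hp hN hπ
    have h4 : (φ ^ j * ι) π₁ = π₁ := hgfix π₁ hπK
    have h5 : ι π₁ = ((s56o_chi hp P hP hπ ⟨ι, hι⟩ : Qbarˣ) : Qbar) * π₁ :=
      s56o_chi_spec hp P hP hπ ⟨ι, hι⟩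
    have hφj : ∀ n : ℕ, (φ ^ n) π₁ = π₁ := by
      intro n
      induction n with
      | zero => simp
      | succ n ih => rw [pow_succ, AlgEquiv.mul_apply, hφπ, ih]
    rw [AlgEquiv.mul_apply, h5, map_mul, hφj] at h4
    have h6 : (φ ^ j) ((s56o_chi hp P hP hπ ⟨ι, hι⟩ : Qbarˣ) : Qbar) = 1 :=
      mul_right_cancel₀ hπ0 (by rw [h4, one_mul])
    have h7 : ((s56o_chi hp P hP hπ ⟨ι, hι⟩ : Qbarˣ) : Qbar) = 1 :=
      (φ ^ j).injective (h6.trans (map_one _).symm)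
    have hιV : ι ∈ s56f_V1 P π₁ := ⟨hι, by rw [h5, h7, one_mul]⟩
    exact ⟨j, ι, hNj, hιV, hFf⟩

end Fermat.Agent.Lib.S56
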