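/-
PROGRAMME W (S56), wall [W8-F3] (helper3, prefix `s56f_`): **the tame assembly, part B**: from the tame
context `s56f_TameCtx` (dictionary, generator `τ` of `I/V₁`, Frobenius lift `φ`, `ρ(U₁) = 1`,
`ρ(φ)ρ(τ)ρ(φ)⁻¹ = ρ(τ)^p`) and the character count to `s56f_ElemConcl`.
-/
import Mathlib
import Fermat.Agent.Lib.S56.IfaceF3b
import Fermat.Agent.Lib.S56.F3Char
import Fermat.Agent.Lib.S56.F3Bridge
import Fermat.Agent.Lib.S56.F3LinAlg
import Fermat.Agent.Lib.S56.F3Coc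

set_option autoImplicit false

noncomputable section

namespace Fermat.Agent.Lib.S56

open Fermat.Agent.Lib.PT Fermat.Agent.Lib.Frey Polynomial Module

local notation "Qbar" => AlgebraicClosure ℚ
local notation "GQ" => (AlgebraicClosure ℚ ≃ₐ[ℚ] AlgebraicClosure ℚ)

section Concl

variable {k : Type} [Field k] {V : Type} [AddCommGroup V] [Module k V]
  {P : ValuationSubring Qbar} {Good : IntermediateField ℚ Qbar → Prop} {ρ : GQ →* Module.End k V}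

lemma s56f_V1_le_D {π₁ : Qbar} {u : GQ} (hu : u ∈ s56f_V1 P π₁) :
    u ∈ P.decompositionSubgroup ℚ :=
  (ford_inertia_spec P u ((s56f_mem_V1 P).mp hu).1).1

/-- linear combinations of good cocycles satisfy the cocycle identity. -/
lemma s56f_GoodCoc.sub_smul_coc {c c₀ : GQ → Module.End k V} (hc : s56f_GoodCoc P Good ρ c)
    (hc₀ : s56f_GoodCoc P (fun L => FiniteDimensional ℚ L) ρ c₀) (a : k) :
    ∀ g ∈ P.decompositionSubgroup ℚ, ∀ h ∈ P.decompositionSubgroup ℚ,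
      (fun σ => c σ - a • c₀ σ) (g * h) =
        (fun σ => c σ - a • c₀ σ) g + ρ g * (fun σ => c σ - a • c₀ σ) h * ρ g⁻¹ := by
  intro g hg h hh
  show c (g * h) - a • c₀ (g * h) = c g - a • c₀ g + ρ g * (c h - a • c₀ h) * ρ g⁻¹
  rw [hc.coc g hg h hh, hc₀.coc g hg h hh, mul_sub, sub_mul, mul_smul_comm, smul_mul_assoc,
    smul_add]
  abel

/-- **from proportionality on `V₁` to the conclusion** (averaging over `I/V₁`). -/
theorem s56f_elemConcl_of_prop (hGoodfd : ∀ L, Good L → FiniteDimensional ℚ L)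
    (hF : ∃ F : IntermediateField ℚ Qbar, FiniteDimensional ℚ F ∧
      ∀ σ ∈ F.fixingSubgroup, ρ σ = 1)
    {π₁ : Qbar} {τ : GQ} (hτI : τ ∈ P.inertiaSubgroupIn ℚ) {n : ℕ} (hn : (n : k) ≠ 0)
    (hτn : τ ^ n ∈ s56f_V1 P π₁)
    (hgen : ∀ σ ∈ P.inertiaSubgroupIn ℚ, ∃ m : ℕ, ∃ u ∈ s56f_V1 P π₁, σ = τ ^ m * u)
    (hρV : ∀ u ∈ s56f_V1 P π₁, ρ u = 1)
    (hprop : ∀ c₁ c₂ : GQ → Module.End k V, s56f_GoodCoc P Good ρ c₁ → s56f_GoodCoc P Good ρ c₂ →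
      (∃ u ∈ s56f_V1 P π₁, c₁ u ≠ 0) → ∃ a : k, ∀ u ∈ s56f_V1 P π₁, c₂ u = a • c₁ u) :
    s56f_ElemConcl P Good ρ := by
  have hτD : τ ∈ P.decompositionSubgroup ℚ := (ford_inertia_spec P τ hτI).1
  have hV₁D : s56f_V1 P π₁ ≤ P.decompositionSubgroup ℚ := fun u hu => s56f_V1_le_D hu
  -- the final step, common to both cases
  have hfin : ∀ (c₀ : GQ → Module.End k V),
      s56f_GoodCoc P (fun L => FiniteDimensional ℚ L) ρ c₀ → ∀ (c : GQ → Module.End k V),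
      s56f_GoodCoc P Good ρ c → ∀ a : k, (∀ u ∈ s56f_V1 P π₁, c u = a • c₀ u) →
      ∃ (a : k) (M : Module.End k V), LinearMap.trace k V M = 0 ∧
        ∀ σ ∈ P.inertiaSubgroupIn ℚ, c σ = a • c₀ σ + (ρ σ * M * ρ σ⁻¹ - M) := by
    intro c₀ hc₀ c hc a hca
    obtain ⟨M, hM, hMc⟩ := s56f_average (hc.sub_smul_coc hc₀ a) hτD hn (s56f_V1 P π₁) hV₁D hρV
      (fun u hu => by
        show c u - a • c₀ u = 0
        rw [hca u hu, sub_self]) hτn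
      (fun g hg => by
        show LinearMap.trace k V (c g - a • c₀ g) = 0
        rw [map_sub, map_smul, hc.tr g hg, hc₀.tr g hg, smul_zero, sub_zero])
    refine ⟨a, M, hM, fun σ hσ => ?_⟩
    obtain ⟨m, u, hu, rfl⟩ := hgen σ hσ
    have := hMc m u hu
    rw [← this]
    show c (τ ^ m * u) = a • c₀ (τ ^ m * u) + (c (τ ^ m * u) - a • c₀ (τ ^ m * u))
    abel
  by_cases hex : ∃ c₁ : GQ → Module.End k V, s56f_GoodCoc P Good ρ c₁ ∧
      ∃ u ∈ s56f_V1 P π₁, c₁ u ≠ 0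
  · obtain ⟨c₁, hc₁, hne⟩ := hex
    have hc₁' : s56f_GoodCoc P (fun L => FiniteDimensional ℚ L) ρ c₁ := by
      obtain ⟨L, hL, h1, h2⟩ := hc₁.good
      exact ⟨hc₁.coc, hc₁.tr, ⟨L, hGoodfd L hL, h1, h2⟩⟩
    refine ⟨c₁, hc₁', fun c hc => ?_⟩
    obtain ⟨a, ha⟩ := hprop c₁ c hc₁ hc hne
    exact hfin c₁ hc₁' c hc a ha
  · have h0 : s56f_GoodCoc P (fun L => FiniteDimensional ℚ L) ρ (fun _ => 0) := by
      obtain ⟨F, hF1, hF2⟩ := hF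
      refine ⟨fun g _ h _ => ?_, fun g _ => ?_, ⟨F, hF1, hF2, fun g _ _ => rfl⟩⟩
      · show (0 : Module.End k V) = 0 + ρ g * 0 * ρ g⁻¹
        rw [mul_zero, zero_mul, add_zero]
      · exact map_zero _
    refine ⟨fun _ => 0, h0, fun c hc => ?_⟩
    refine hfin _ h0 c hc 0 (fun u hu => ?_)
    rw [zero_smul]
    by_contra hne
    exact hex ⟨c, hc, u, hu, hne⟩

end Concl

section Mat2

variable {k : Type} [Field k]

/-- conjugation by diagonal matrices, entrywise. -/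
lemma s56f_mat_conj_diag {R E R' : Matrix (Fin 2) (Fin 2) k} (h01 : R 0 1 = 0) (h10 : R 1 0 = 0)
    (h01' : R' 0 1 = 0) (h10' : R' 1 0 = 0) (i j : Fin 2) :
    (R * E * R') i j = R i i * E i j * R' j j := by
  rw [Matrix.mul_apply, Fin.sum_univ_two, Matrix.mul_apply, Matrix.mul_apply, Fin.sum_univ_two,
    Fin.sum_univ_two]
  fin_cases i <;> fin_cases j <;> simp [h01, h10, h01', h10']

/-- conjugation by antidiagonal matrices, the `(0,1)` entry. -/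
lemma s56f_mat_conj_anti {R E R' : Matrix (Fin 2) (Fin 2) k} (h00 : R 0 0 = 0)
    (h11' : R' 1 1 = 0) : (R * E * R') 0 1 = R 0 1 * E 1 0 * R' 0 1 := by
  rw [Matrix.mul_apply, Fin.sum_univ_two, Matrix.mul_apply, Matrix.mul_apply, Fin.sum_univ_two,
    Fin.sum_univ_two]
  simp [h00, h11']

/-- the square of an antidiagonal matrix is diagonal. -/
lemma s56f_mat_anti_sq {R : Matrix (Fin 2) (Fin 2) k} (h00 : R 0 0 = 0) (h11 : R 1 1 = 0) :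
    (R * R) 0 1 = 0 ∧ (R * R) 1 0 = 0 ∧ (R * R) 0 0 = R 0 1 * R 1 0 ∧
      (R * R) 1 1 = R 1 0 * R 0 1 := by
  refine ⟨?_, ?_, ?_, ?_⟩ <;> rw [Matrix.mul_apply, Fin.sum_univ_two] <;> simp [h00, h11]

end Mat2

section Ctx

variable {p : ℕ} [hpF : Fact p.Prime] {k : Type} [Field k] {V : Type} [AddCommGroup V] [Module k V]
  {ρ : GQ →* Module.End k V} {P : ValuationSubring Qbar} {hP : P.LiesOverPrime p}
  {Good : IntermediateField ℚ Qbar → Prop} {π₁ ζ : Qbar} {τ φ : GQ} {ξ : Qbar} {aτ aφ : ZMod p}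
  {K₁ : IntermediateField ℚ Qbar}

/-- **the tame context.** -/
structure s56f_TameCtx (p : ℕ) [hpF : Fact p.Prime] {k : Type} [Field k] {V : Type} [AddCommGroup V]
    [Module k V] (ρ : GQ →* Module.End k V) (P : ValuationSubring Qbar) (hP : P.LiesOverPrime p)
    (Good : IntermediateField ℚ Qbar → Prop) (π₁ ζ : Qbar) (τ φ : GQ) (ξ : Qbar) (aτ aφ : ZMod p)
    (K₁ : IntermediateField ℚ Qbar) : Prop where
  hV : finrank k V = 2
  d : s56f_Dict p P hP π₁ ζ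
  T : s56f_TauData P π₁ ζ τ ξ aτ
  gen : ∀ σ ∈ P.inertiaSubgroupIn ℚ, ∃ m : ℕ, ∃ u ∈ s56f_V1 P π₁, σ = τ ^ m * u
  τn : τ ^ (p ^ 2 - 1) ∈ s56f_V1 P π₁
  φfrob : P.IsFrobeniusAt φ p
  φζ : φ ζ = s56f_zpow ζ aφ
  ρV₁ : ∀ u ∈ s56f_V1 P π₁, ρ u = 1
  K₁fd : FiniteDimensional ℚ K₁
  K₁n : Normal ℚ K₁
  K₁t : s56f_TameAt K₁ p P
  ζK : ζ ∈ K₁
  V₁K : ∀ σ ∈ s56f_V1 P π₁, σ ∈ K₁.fixingSubgroup
  ρU₁ : ∀ σ ∈ P.decompositionSubgroup ℚ, σ ∈ K₁.fixingSubgroup → ρ σ = 1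
  rel : ρ φ * ρ τ * ρ φ⁻¹ = ρ τ ^ p
  KB : s56f_KB p P Good
  Goodfd : ∀ L, Good L → FiniteDimensional ℚ L

/-- every additive functional of a good cocycle is a window character of depth `≥ 1`. -/
theorem s56f_TameCtx.win (C : s56f_TameCtx p ρ P hP Good π₁ ζ τ φ ξ aτ aφ K₁)
    {c : GQ → Module.End k V} (hc : s56f_GoodCoc P Good ρ c) (lam : Module.End k V →+ ZMod p) :
    s56f_Win P hP π₁ ζ (fun u => lam (c u)) 1 := by
  obtain ⟨L, hL, hρL, hcL⟩ := hc.good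
  refine s56f_window_of_KB C.d C.KB hL (C.Goodfd L hL) C.K₁fd C.K₁n C.K₁t C.ζK C.V₁K _ ?_ ?_
  · intro u hu huK u' hu' _
    show lam (c (u * u')) = lam (c u) + lam (c u')
    rw [s56f_coc_add hc.coc hu hu' (C.ρU₁ u hu huK), map_add]
  · intro u hu _ huL
    show lam (c u) = 0
    rw [hcL u hu huL, map_zero]

/-- conjugation formula on `V₁`. -/
theorem s56f_TameCtx.conj (C : s56f_TameCtx p ρ P hP Good π₁ ζ τ φ ξ aτ aφ K₁)
    {c : GQ → Module.End k V} (hc : s56f_GoodCoc P Good ρ c) {g : GQ}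
    (hg : g ∈ P.decompositionSubgroup ℚ) {u : GQ} (hu : u ∈ s56f_V1 P π₁) :
    c (g * u * g⁻¹) = ρ g * c u * ρ g⁻¹ :=
  s56f_coc_conj hc.coc hg (s56f_V1_le_D hu) (C.ρV₁ u hu)

section Entries

variable [Algebra (ZMod p) k] (e : Module.End k V ≃ₐ[k] Matrix (Fin 2) (Fin 2) k)

/-- the additive functional `X ↦ λ₀ (x · X_{ij})`. -/
def s56f_entryLam (lam0 : k →ₗ[ZMod p] ZMod p) (x : k) (i j : Fin 2) :
    Module.End k V →+ ZMod p :=
  AddMonoidHom.mk' (fun X => lam0 (x * e X i j)) (fun X Y => by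
    rw [map_add, Matrix.add_apply, mul_add, map_add])

lemma s56f_e_rho_mul_inv (g : GQ) : e (ρ g) * e (ρ g⁻¹) = 1 := by
  rw [← map_mul, s56f_rho_mul_inv, map_one]

lemma s56f_e_rho_inv_mul (g : GQ) : e (ρ g⁻¹) * e (ρ g) = 1 := by
  rw [← map_mul, s56f_rho_inv_mul, map_one]

/-- the entries of a good cocycle belong to `𝓗_ψ(D')` for `D'` a set of elements of `D_P` acting
diagonally, `ψ(g) = ρ(g)_{ii} ρ(g⁻¹)_{jj}`. -/
theorem s56f_TameCtx.inH_entry (C : s56f_TameCtx p ρ P hP Good π₁ ζ τ φ ξ aτ aφ K₁)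
    (lam0 : k →ₗ[ZMod p] ZMod p) (i j : Fin 2) {D' : Set GQ}
    (hD' : ∀ g ∈ D', g ∈ P.decompositionSubgroup ℚ ∧ e (ρ g) 0 1 = 0 ∧ e (ρ g) 1 0 = 0)
    {c : GQ → Module.End k V} (hc : s56f_GoodCoc P Good ρ c) :
    s56f_InH P hP π₁ ζ D' (fun g => e (ρ g) i i * e (ρ g⁻¹) j j) lam0
      (fun u => e (c u) i j) := by
  refine ⟨fun g hg u hu => ?_, fun x => C.win hc (s56f_entryLam e lam0 x i j)⟩
  obtain ⟨hgD, h01, h10⟩ := hD' g hg
  obtain ⟨h01', h10', -, -⟩ := s56f_mat_diag_inv (s56f_e_rho_mul_inv e g) h01 h10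
  show e (c (g * u * g⁻¹)) i j = e (ρ g) i i * e (ρ g⁻¹) j j * e (c u) i j
  rw [C.conj hc hgD hu, map_mul, map_mul, s56f_mat_conj_diag h01 h10 h01' h10']
  ring

/-- an entry on which `τ` acts trivially vanishes on `V₁`. -/
theorem s56f_TameCtx.entry_vanish (hHit : s56f_IfaceHit) (hp2 : p ≠ 2)
    (C : s56f_TameCtx p ρ P hP Good π₁ ζ τ φ ξ aτ aφ K₁)
    {lam0 : k →ₗ[ZMod p] ZMod p} (hlam : lam0 ≠ 0) (i j : Fin 2)
    (h01 : e (ρ τ) 0 1 = 0) (h10 : e (ρ τ) 1 0 = 0) (hψ : e (ρ τ) i i * e (ρ τ⁻¹) j j = 1)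
    {c : GQ → Module.End k V} (hc : s56f_GoodCoc P Good ρ c) :
    ∀ u ∈ s56f_V1 P π₁, e (c u) i j = 0 := by
  have hin := C.inH_entry e lam0 i j (D' := {τ}) (fun g hg => by
    rw [Set.mem_singleton_iff] at hg
    subst hg
    exact ⟨C.T.memD, h01, h10⟩) hc
  exact s56f_cc_triv hHit C.d hp2 C.T (Set.mem_singleton τ) hψ hlam hin

/-- **the scalar case**: if `ρ(τ)` is a scalar, every good cocycle vanishes on `V₁`. -/
theorem s56f_TameCtx.vanish_of_scalar (hHit : s56f_IfaceHit) (hp2 : p ≠ 2)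
    (C : s56f_TameCtx p ρ P hP Good π₁ ζ τ φ ξ aτ aφ K₁)
    {lam0 : k →ₗ[ZMod p] ZMod p} (hlam : lam0 ≠ 0) {α : k}
    (hα : ρ τ = α • (1 : Module.End k V))
    {c : GQ → Module.End k V} (hc : s56f_GoodCoc P Good ρ c) :
    ∀ u ∈ s56f_V1 P π₁, c u = 0 := by
  intro u hu
  haveI : Module.Finite k V := Module.finite_of_finrank_eq_succ C.hV
  let b : Basis (Fin 2) k V := Module.finBasisOfFinrankEq k V C.hV
  let e : Module.End k V ≃ₐ[k] Matrix (Fin 2) (Fin 2) k := LinearMap.toMatrixAlgEquiv b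
  have heτ : e (ρ τ) = α • (1 : Matrix (Fin 2) (Fin 2) k) := by rw [hα, map_smul, map_one]
  have h01 : e (ρ τ) 0 1 = 0 := by rw [heτ]; simp
  have h10 : e (ρ τ) 1 0 = 0 := by rw [heτ]; simp
  obtain ⟨-, -, h00, h11⟩ := s56f_mat_diag_inv (s56f_e_rho_mul_inv e τ) h01 h10
  have hii : ∀ i : Fin 2, e (ρ τ) i i = α := by
    intro i
    rw [heτ]
    simp
  have hα0 : α ≠ 0 := by
    intro h0
    rw [hii 0, h0, zero_mul] at h00
    exact zero_ne_one h00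
  have hjj : ∀ j : Fin 2, e (ρ τ⁻¹) j j = α⁻¹ := by
    intro j
    fin_cases j
    · rw [hii 0] at h00
      exact eq_inv_of_mul_eq_one_right h00
    · rw [hii 1] at h11
      exact eq_inv_of_mul_eq_one_right h11
  apply e.injective
  rw [map_zero]
  ext i j
  exact C.entry_vanish e hHit hp2 hlam i j h01 h10
    (by rw [hii, hjj, mul_inv_cancel₀ hα0]) hc u hu

/-- the square of a Frobenius lift acts by `y ↦ y^(p²)` on the residue field. -/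
lemma s56f_frob_sq {φ : GQ} (hφ : P.IsFrobeniusAt φ p)
    (hφ2 : φ * φ ∈ P.decompositionSubgroup ℚ) (y : IsLocalRing.ResidueField ↥P) :
    (⟨φ * φ, hφ2⟩ : P.decompositionSubgroup ℚ) • y = y ^ (p ^ 2) := by
  have h1 : (⟨φ * φ, hφ2⟩ : P.decompositionSubgroup ℚ) =
      ⟨φ, hφ.mem_decompositionSubgroup⟩ * ⟨φ, hφ.mem_decompositionSubgroup⟩ := Subtype.ext rfl
  rw [h1, mul_smul, hφ.smul_residue_eq, hφ.smul_residue_eq, ← pow_mul, pow_two]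

lemma s56f_frob_sq_zeta (hζ : ζ ^ p = 1) {φ : GQ} {aφ : ZMod p} (hφζ : φ ζ = s56f_zpow ζ aφ) :
    (φ * φ) ζ = s56f_zpow ζ (aφ * aφ) := by
  rw [AlgEquiv.mul_apply, hφζ, s56f_zpow, map_pow, hφζ, s56f_zpow_mul hζ]

/-- **the regular case**: `ρ(τ) = diag(α, β)`, `α ≠ β`: any two good cocycles are proportional on
`V₁`. -/
theorem s56f_TameCtx.prop_of_regular (hHit : s56f_IfaceHit) (hCount : s56f_IfaceCount)
    (hA1 : s56f_IfaceArith1) (hA2 : s56f_IfaceArith2) (hA3 : s56f_IfaceArith3) (hp5 : 5 ≤ p)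
    [Finite k] [CharP k p]
    (C : s56f_TameCtx p ρ P hP Good π₁ ζ τ φ ξ aτ aφ K₁)
    {lam0 : k →ₗ[ZMod p] ZMod p} (hlam : lam0 ≠ 0) {α β : k} (hαβ : α ≠ β)
    (heτ : e (ρ τ) = Matrix.diagonal ![α, β])
    {c₁ c₂ : GQ → Module.End k V} (hc₁ : s56f_GoodCoc P Good ρ c₁)
    (hc₂ : s56f_GoodCoc P Good ρ c₂) (hne : ∃ u ∈ s56f_V1 P π₁, c₁ u ≠ 0) :
    ∃ a : k, ∀ u ∈ s56f_V1 P π₁, c₂ u = a • c₁ u := by
  have hp2 : p ≠ 2 := by omega
  have h01τ : e (ρ τ) 0 1 = 0 := by rw [heτ]; simp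
  have h10τ : e (ρ τ) 1 0 = 0 := by rw [heτ]; simp
  have h00τ : e (ρ τ) 0 0 = α := by rw [heτ]; simp
  have h11τ : e (ρ τ) 1 1 = β := by rw [heτ]; simp
  obtain ⟨-, -, hτ00, hτ11⟩ := s56f_mat_diag_inv (s56f_e_rho_mul_inv e τ) h01τ h10τ
  have hα0 : α ≠ 0 := by
    rw [h00τ] at hτ00; exact left_ne_zero_of_mul_eq_one hτ00
  have hβ0 : β ≠ 0 := by
    rw [h11τ] at hτ11; exact left_ne_zero_of_mul_eq_one hτ11
  have h00τ' : e (ρ τ⁻¹) 0 0 = α⁻¹ := by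
    rw [h00τ] at hτ00; exact eq_inv_of_mul_eq_one_right hτ00
  have h11τ' : e (ρ τ⁻¹) 1 1 = β⁻¹ := by
    rw [h11τ] at hτ11; exact eq_inv_of_mul_eq_one_right hτ11
  -- the diagonal entries vanish
  have H00 : ∀ c : GQ → Module.End k V, s56f_GoodCoc P Good ρ c →
      ∀ u ∈ s56f_V1 P π₁, e (c u) 0 0 = 0 :=
    fun c hc => C.entry_vanish e hHit hp2 hlam 0 0 h01τ h10τ hτ00 hc
  have H11 : ∀ c : GQ → Module.End k V, s56f_GoodCoc P Good ρ c →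
      ∀ u ∈ s56f_V1 P π₁, e (c u) 1 1 = 0 :=
    fun c hc => C.entry_vanish e hHit hp2 hlam 1 1 h01τ h10τ hτ11 hc
  -- the off-diagonal entries of `c₁`
  have hoff : (∃ u ∈ s56f_V1 P π₁, e (c₁ u) 0 1 ≠ 0) ∨ (∃ u ∈ s56f_V1 P π₁, e (c₁ u) 1 0 ≠ 0) := by
    obtain ⟨u, hu, hcu⟩ := hne
    by_contra hcon
    rw [not_or] at hcon
    apply hcu
    apply e.injective
    rw [map_zero]
    ext i j
    fin_cases i <;> fin_cases j
    · exact H00 c₁ hc₁ u hu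
    · by_contra h1
      exact hcon.1 ⟨u, hu, h1⟩
    · by_contra h1
      exact hcon.2 ⟨u, hu, h1⟩
    · exact H11 c₁ hc₁ u hu
  -- assembling the conclusion from the entries
  have hfinal : ∀ a : k, (∀ u ∈ s56f_V1 P π₁, e (c₂ u) 0 1 = a * e (c₁ u) 0 1) →
      (∀ u ∈ s56f_V1 P π₁, e (c₂ u) 1 0 = a * e (c₁ u) 1 0) →
      ∀ u ∈ s56f_V1 P π₁, c₂ u = a • c₁ u := by
    intro a hX hY u hu
    apply e.injective
    rw [map_smul]
    ext i j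
    rw [Matrix.smul_apply, smul_eq_mul]
    fin_cases i <;> fin_cases j
    · show e (c₂ u) 0 0 = a * e (c₁ u) 0 0
      rw [H00 c₁ hc₁ u hu, H00 c₂ hc₂ u hu, mul_zero]
    · exact hX u hu
    · exact hY u hu
    · show e (c₂ u) 1 1 = a * e (c₁ u) 1 1
      rw [H11 c₁ hc₁ u hu, H11 c₂ hc₂ u hu, mul_zero]
  -- the relation with the Frobenius lift
  have hrelm : e (ρ φ) * Matrix.diagonal ![α, β] = Matrix.diagonal ![α ^ p, β ^ p] * e (ρ φ) := by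
    have h1 : ρ φ * ρ τ = ρ τ ^ p * ρ φ := by
      have h2 : ρ φ * ρ τ * ρ φ⁻¹ * ρ φ = ρ τ ^ p * ρ φ := by rw [C.rel]
      rwa [mul_assoc (ρ φ * ρ τ), s56f_rho_inv_mul, mul_one] at h2
    calc e (ρ φ) * Matrix.diagonal ![α, β] = e (ρ φ) * e (ρ τ) := by rw [heτ]
      _ = e (ρ φ * ρ τ) := (map_mul e _ _).symm
      _ = e (ρ τ ^ p * ρ φ) := by rw [h1]
      _ = e (ρ τ) ^ p * e (ρ φ) := by rw [map_mul e, map_pow e]
      _ = Matrix.diagonal ![α ^ p, β ^ p] * e (ρ φ) := by rw [heτ, s56f_diag_pow]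
  have hφD : φ ∈ P.decompositionSubgroup ℚ := C.φfrob.mem_decompositionSubgroup
  rcases s56f_mat_dich (s56f_e_rho_mul_inv e φ) (s56f_e_rho_inv_mul e φ) hαβ hrelm with
    ⟨hR01, hR10, hαp, hβp⟩ | ⟨hR00, hR11, hαp, hβp⟩
  · -- `ρ(φ)` diagonal: `f = 1`
    obtain ⟨-, -, hφ00, hφ11⟩ := s56f_mat_diag_inv (s56f_e_rho_mul_inv e φ) hR01 hR10
    have hD' : ∀ g ∈ ({τ, φ} : Set GQ),
        g ∈ P.decompositionSubgroup ℚ ∧ e (ρ g) 0 1 = 0 ∧ e (ρ g) 1 0 = 0 := by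
      intro g hg
      rcases hg with rfl | hg
      · exact ⟨C.T.memD, h01τ, h10τ⟩
      · rw [Set.mem_singleton_iff] at hg
        subst hg
        exact ⟨hφD, hR01, hR10⟩
    have hτD' : τ ∈ ({τ, φ} : Set GQ) := Set.mem_insert τ _
    have hφD' : φ ∈ ({τ, φ} : Set GQ) := Set.mem_insert_of_mem τ (Set.mem_singleton φ)
    have hX := fun (c : GQ → Module.End k V) (hc : s56f_GoodCoc P Good ρ c) =>
      C.inH_entry e lam0 0 1 hD' hc
    have hY := fun (c : GQ → Module.End k V) (hc : s56f_GoodCoc P Good ρ c) =>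
      C.inH_entry e lam0 1 0 hD' hc
    have hψXτ : e (ρ τ) 0 0 * e (ρ τ⁻¹) 1 1 = α * β⁻¹ := by rw [h00τ, h11τ']
    have hψYτ : e (ρ τ) 1 1 * e (ρ τ⁻¹) 0 0 = β * α⁻¹ := by rw [h11τ, h00τ']
    obtain ⟨hX1, hX2⟩ := s56f_cc_f1 hHit hCount hA1 C.d C.T hτD'
      (ψ := fun g => e (ρ g) 0 0 * e (ρ g⁻¹) 1 1) (lam0 := lam0)
      (by
        show e (ρ τ) 0 0 * e (ρ τ⁻¹) 1 1 ≠ 0
        rw [hψXτ]; exact mul_ne_zero hα0 (inv_ne_zero hβ0))
      (by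
        show (e (ρ τ) 0 0 * e (ρ τ⁻¹) 1 1) ^ p = e (ρ τ) 0 0 * e (ρ τ⁻¹) 1 1
        rw [hψXτ, mul_pow, inv_pow, hαp, hβp])
      hlam C.φfrob hφD' C.φζ
      (by
        show e (ρ φ) 0 0 * e (ρ φ⁻¹) 1 1 ≠ 0
        exact mul_ne_zero (left_ne_zero_of_mul_eq_one hφ00) (right_ne_zero_of_mul_eq_one hφ11))
    obtain ⟨hY1, hY2⟩ := s56f_cc_f1 hHit hCount hA1 C.d C.T hτD'
      (ψ := fun g => e (ρ g) 1 1 * e (ρ g⁻¹) 0 0) (lam0 := lam0)
      (by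
        show e (ρ τ) 1 1 * e (ρ τ⁻¹) 0 0 ≠ 0
        rw [hψYτ]; exact mul_ne_zero hβ0 (inv_ne_zero hα0))
      (by
        show (e (ρ τ) 1 1 * e (ρ τ⁻¹) 0 0) ^ p = e (ρ τ) 1 1 * e (ρ τ⁻¹) 0 0
        rw [hψYτ, mul_pow, inv_pow, hαp, hβp])
      hlam C.φfrob hφD' C.φζ
      (by
        show e (ρ φ) 1 1 * e (ρ φ⁻¹) 0 0 ≠ 0
        exact mul_ne_zero (left_ne_zero_of_mul_eq_one hφ11) (right_ne_zero_of_mul_eq_one hφ00))
    -- the two characters cannot both be `ω`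
    have hnot : ¬ ((α * β⁻¹ = algebraMap (ZMod p) k aτ) ∧ (β * α⁻¹ = algebraMap (ZMod p) k aτ)) := by
      rintro ⟨h1, h2⟩
      apply C.T.a_sq_ne_one C.d hA3 hp5
      apply (algebraMap (ZMod p) k).injective
      rw [map_pow, map_one, pow_two]
      nth_rewrite 1 [← h1]
      rw [← h2]
      field_simp
    rcases hoff with hXne | hYne
    · have hψ := hX1 _ (hX c₁ hc₁) hXne
      have hYv : ∀ c : GQ → Module.End k V, s56f_GoodCoc P Good ρ c →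
          ∀ u ∈ s56f_V1 P π₁, e (c u) 1 0 = 0 := by
        intro c hc u hu
        by_contra h1
        have hψ' := hY1 _ (hY c hc) ⟨u, hu, h1⟩
        exact hnot ⟨by rw [← hψXτ]; exact hψ, by rw [← hψYτ]; exact hψ'⟩
      obtain ⟨a, ha⟩ := hX2 _ _ (hX c₁ hc₁) (hX c₂ hc₂) hXne
      exact ⟨a, hfinal a ha (fun u hu => by rw [hYv c₁ hc₁ u hu, hYv c₂ hc₂ u hu, mul_zero])⟩
    · have hψ := hY1 _ (hY c₁ hc₁) hYne
      have hXv : ∀ c : GQ → Module.End k V, s56f_GoodCoc P Good ρ c →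
          ∀ u ∈ s56f_V1 P π₁, e (c u) 0 1 = 0 := by
        intro c hc u hu
        by_contra h1
        have hψ' := hX1 _ (hX c hc) ⟨u, hu, h1⟩
        exact hnot ⟨by rw [← hψXτ]; exact hψ', by rw [← hψYτ]; exact hψ⟩
      obtain ⟨a, ha⟩ := hY2 _ _ (hY c₁ hc₁) (hY c₂ hc₂) hYne
      exact ⟨a, hfinal a (fun u hu => by rw [hXv c₁ hc₁ u hu, hXv c₂ hc₂ u hu, mul_zero]) ha⟩
  · -- `ρ(φ)` antidiagonal: `f = 2`
    obtain ⟨hR00', hR11', hφ01, hφ10⟩ := s56f_mat_anti_inv (s56f_e_rho_mul_inv e φ) hR00 hR11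
    have hφ2D : φ * φ ∈ P.decompositionSubgroup ℚ := mul_mem hφD hφD
    obtain ⟨hS01, hS10, hS00, hS11⟩ := s56f_mat_anti_sq hR00 hR11
    have heφ2 : e (ρ (φ * φ)) = e (ρ φ) * e (ρ φ) := by rw [map_mul, map_mul]
    have hD' : ∀ g ∈ ({τ, φ * φ} : Set GQ),
        g ∈ P.decompositionSubgroup ℚ ∧ e (ρ g) 0 1 = 0 ∧ e (ρ g) 1 0 = 0 := by
      intro g hg
      rcases hg with rfl | hg
      · exact ⟨C.T.memD, h01τ, h10τ⟩
      · rw [Set.mem_singleton_iff] at hg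
        subst hg
        exact ⟨hφ2D, by rw [heφ2]; exact hS01, by rw [heφ2]; exact hS10⟩
    have hτD' : τ ∈ ({τ, φ * φ} : Set GQ) := Set.mem_insert τ _
    have hφD' : φ * φ ∈ ({τ, φ * φ} : Set GQ) := Set.mem_insert_of_mem τ (Set.mem_singleton _)
    have hX := fun (c : GQ → Module.End k V) (hc : s56f_GoodCoc P Good ρ c) =>
      C.inH_entry e lam0 0 1 hD' hc
    obtain ⟨-, -, hφφ00, hφφ11⟩ := s56f_mat_diag_inv (s56f_e_rho_mul_inv e (φ * φ))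
      (hD' _ hφD').2.1 (hD' _ hφD').2.2
    have hψXτ : e (ρ τ) 0 0 * e (ρ τ⁻¹) 1 1 = α * β⁻¹ := by rw [h00τ, h11τ']
    have hprop := fun (c c' : GQ → Module.End k V) (hc : s56f_GoodCoc P Good ρ c)
        (hc' : s56f_GoodCoc P Good ρ c') =>
      s56f_cc_f2 hHit hCount hA1 hA2 hp5 C.d C.T hτD'
        (ψ := fun g => e (ρ g) 0 0 * e (ρ g⁻¹) 1 1) (lam0 := lam0)
        (by
          show (e (ρ τ) 0 0 * e (ρ τ⁻¹) 1 1) ^ (p + 1) = 1
          rw [hψXτ, pow_succ, mul_pow, inv_pow, hαp, hβp]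
          field_simp)
        hlam hφ2D (s56f_frob_sq C.φfrob hφ2D) hφD' (s56f_frob_sq_zeta C.d.hζ C.φζ)
        (by
          show e (ρ (φ * φ)) 0 0 * e (ρ (φ * φ)⁻¹) 1 1 ≠ 0
          exact mul_ne_zero (left_ne_zero_of_mul_eq_one hφφ00)
            (right_ne_zero_of_mul_eq_one hφφ11))
        (hX c hc) (hX c' hc')
    -- the `(1,0)` entry from the `(0,1)` entry
    have hYX : ∀ c : GQ → Module.End k V, s56f_GoodCoc P Good ρ c → ∀ u ∈ s56f_V1 P π₁,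
        e (c (φ * u * φ⁻¹)) 0 1 = e (ρ φ) 0 1 * e (c u) 1 0 * e (ρ φ⁻¹) 0 1 := by
      intro c hc u hu
      rw [C.conj hc hφD hu, map_mul, map_mul, s56f_mat_conj_anti hR00 hR11']
    have hr1 : e (ρ φ) 0 1 ≠ 0 := left_ne_zero_of_mul_eq_one hφ01
    have hr2 : e (ρ φ⁻¹) 0 1 ≠ 0 := right_ne_zero_of_mul_eq_one hφ10
    have hXne : ∃ u ∈ s56f_V1 P π₁, e (c₁ u) 0 1 ≠ 0 := by
      rcases hoff with h1 | ⟨u, hu, h1⟩
      · exact h1
      · refine ⟨φ * u * φ⁻¹, C.d.conj_mem_V1 hφD hu, ?_⟩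
        rw [hYX c₁ hc₁ u hu]
        exact mul_ne_zero (mul_ne_zero hr1 h1) hr2
    obtain ⟨a, ha⟩ := hprop c₁ c₂ hc₁ hc₂ hXne
    refine ⟨a, hfinal a ha (fun u hu => ?_)⟩
    have h1 := ha (φ * u * φ⁻¹) (C.d.conj_mem_V1 hφD hu)
    rw [hYX c₁ hc₁ u hu, hYX c₂ hc₂ u hu] at h1
    have h2 : e (ρ φ) 0 1 * e (ρ φ⁻¹) 0 1 * e (c₂ u) 1 0 =
        e (ρ φ) 0 1 * e (ρ φ⁻¹) 0 1 * (a * e (c₁ u) 1 0) := by
      rw [mul_right_comm, h1]
      ring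
    exact mul_left_cancel₀ (mul_ne_zero hr1 hr2) h2

end Entries

/-- a nonzero `𝔽_p`-linear form on `k`. -/
lemma s56f_exists_lam0 [Algebra (ZMod p) k] : ∃ lam0 : k →ₗ[ZMod p] ZMod p, lam0 ≠ 0 := by
  by_contra hcon
  push_neg at hcon
  have h1 : (1 : k) = 0 := (Module.forall_dual_apply_eq_zero_iff (ZMod p) (1 : k)).mp (fun f => by
    rw [hcon f]; rfl)
  exact one_ne_zero h1

/-- **the tame assembly, part B.** -/
theorem s56f_TameCtx.elemConcl (hHit : s56f_IfaceHit) (hCount : s56f_IfaceCount)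
    (hA1 : s56f_IfaceArith1) (hA2 : s56f_IfaceArith2) (hA3 : s56f_IfaceArith3) (hp5 : 5 ≤ p)
    [Finite k] [CharP k p] [Module.Finite k V]
    (Cx : s56f_TameCtx p ρ P hP Good π₁ ζ τ φ ξ aτ aφ K₁)
    (hF : ∃ F : IntermediateField ℚ Qbar, FiniteDimensional ℚ F ∧
      ∀ σ ∈ F.fixingSubgroup, ρ σ = 1)
    (hsplit : ∃ α β : k, LinearMap.charpoly (ρ τ) = (X - Polynomial.C α) * (X - Polynomial.C β)) :
    s56f_ElemConcl P Good ρ := by
  letI : Algebra (ZMod p) k := ZMod.algebra k p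
  obtain ⟨lam0, hlam⟩ := s56f_exists_lam0 (p := p) (k := k)
  have hp2 : p ≠ 2 := by omega
  have hn : (((p ^ 2 - 1 : ℕ)) : k) ≠ 0 := by
    rw [Ne, CharP.cast_eq_zero_iff k p]
    exact s56f_not_dvd_e
  have hτpow : ρ τ ^ (p ^ 2 - 1) = 1 := by rw [← map_pow]; exact Cx.ρV₁ _ Cx.τn
  refine s56f_elemConcl_of_prop Cx.Goodfd hF Cx.T.mem hn Cx.τn Cx.gen Cx.ρV₁ ?_
  intro c₁ c₂ hc₁ hc₂ hne
  obtain ⟨α, β, hS⟩ := hsplit
  by_cases hαβ : α = β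
  · exfalso
    subst hαβ
    have hα := s56f_scalar_of_double (ρ τ) hS hn hτpow
    obtain ⟨u, hu, hcu⟩ := hne
    exact hcu (Cx.vanish_of_scalar hHit hp2 hlam hα hc₁ u hu)
  · obtain ⟨b, hb⟩ := s56f_exists_eigenbasis Cx.hV (ρ τ) hS hαβ
    exact Cx.prop_of_regular (LinearMap.toMatrixAlgEquiv b) hHit hCount hA1 hA2 hA3 hp5 hlam hαβ hb
      hc₁ hc₂ hne

end Ctx

end Fermat.Agent.Lib.S56
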