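/-
PROGRAMME W (S56), wall [W8-F3] (helper3, prefix `s56f_`): **the tame assembly, part A**: construction
of the tame context `s56f_TameCtx` from the contracts (dictionary, TameGen, Omega, K1, FrobPi, TameMax,
TameRel), and the proof of `s56f_IfaceTameAsm` from the contracts.
-/
import Mathlib
import Fermat.Agent.Lib.S56.F3TameB
import Fermat.Agent.Lib.PT.GLevelField

set_option autoImplicit false

noncomputable section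

namespace Fermat.Agent.Lib.S56

open Fermat.Agent.Lib.PT Fermat.Agent.Lib.Frey Polynomial Module

local notation "Qbar" => AlgebraicClosure ℚ
local notation "GQ" => (AlgebraicClosure ℚ ≃ₐ[ℚ] AlgebraicClosure ℚ)

/-- **(Dict)** the dictionary structure, from the six §B contracts + `s56o_V1_fix_zeta`. -/
def s56f_IfaceDict : Prop :=
  ∀ (p : ℕ) [hpF : Fact p.Prime] (P : ValuationSubring Qbar) (hP : P.LiesOverPrime p)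
    (π₁ ζ : Qbar), π₁ ^ (p ^ 2 - 1) = -(p : Qbar) → ζ ^ p = 1 → ζ ≠ 1 → s56f_Dict p P hP π₁ ζ

section Aux

variable {p : ℕ} [hpF : Fact p.Prime]

/-- `π₁` exists. -/
lemma s56f_exists_pi : ∃ π₁ : Qbar, π₁ ^ (p ^ 2 - 1) = -(p : Qbar) :=
  IsAlgClosed.exists_pow_nat_eq _ (s56f_e_nat_pos (p := p))

/-- `ζ` exists. -/
lemma s56f_exists_zeta : ∃ ζ : Qbar, ζ ^ p = 1 ∧ ζ ≠ 1 := by
  haveI : NeZero (p : ℚ) := ⟨by exact_mod_cast hpF.out.ne_zero⟩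
  obtain ⟨ζ, hζ⟩ := HasEnoughRootsOfUnity.exists_primitiveRoot Qbar p
  exact ⟨ζ, hζ.pow_eq_one, hζ.ne_one hpF.out.one_lt⟩

/-- every automorphism raises `ζ` to a power. -/
lemma s56f_exists_zeta_exp {ζ : Qbar} (hζ : ζ ^ p = 1) (hζ1 : ζ ≠ 1) (g : GQ) :
    ∃ a : ZMod p, g ζ = s56f_zpow ζ a := by
  have hord : orderOf ζ = p := by
    have hdvd : orderOf ζ ∣ p := orderOf_dvd_of_pow_eq_one hζ
    rcases (Nat.dvd_prime hpF.out).mp hdvd with h1 | h1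
    · exact absurd (orderOf_eq_one_iff.mp h1) hζ1
    · exact h1
  have hprim : IsPrimitiveRoot ζ p := hord ▸ IsPrimitiveRoot.orderOf ζ
  have h1 : (g ζ) ^ p = 1 := by rw [← map_pow, hζ, map_one]
  obtain ⟨i, -, hi⟩ := hprim.eq_pow_of_pow_eq_one h1
  exact ⟨(i : ZMod p), by rw [s56f_zpow_natCast hζ, hi]⟩

end Aux

section Build

variable {p : ℕ} [hpF : Fact p.Prime] {k : Type} [Field k] {V : Type} [AddCommGroup V] [Module k V]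
  {ρ : GQ →* Module.End k V} {P : ValuationSubring Qbar}

/-- powers of `τ` on `π₁`. -/
lemma s56f_tau_pow_pi {π₁ ξ : Qbar} {τ : GQ} (hτπ : τ π₁ = ξ * π₁) (hτξ : τ ξ = ξ) (i : ℕ) :
    (τ ^ i) π₁ = ξ ^ i * π₁ := by
  induction i with
  | zero => simp
  | succ i ih =>
    rw [pow_succ', AlgEquiv.mul_apply, ih, map_mul, map_pow, hτξ, hτπ, pow_succ]
    ring

/-- **Step 1**: in the tame case `ρ(φ) ρ(σ) ρ(φ)⁻¹ = ρ(σ)^p` for `σ ∈ I`. -/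
lemma s56f_tame_rel (hTameRel : s56f_IfaceTameRel) (hP : P.LiesOverPrime p)
    (hF : ∃ F : IntermediateField ℚ Qbar, FiniteDimensional ℚ F ∧
      ∀ σ ∈ F.fixingSubgroup, ρ σ = 1)
    (htame : ∀ σ ∈ P.inertiaSubgroupIn ℚ, ∃ m : ℕ, m.Coprime p ∧ ρ σ ^ m = 1)
    {φ : GQ} (hφ : P.IsFrobeniusAt φ p) {σ : GQ} (hσ : σ ∈ P.inertiaSubgroupIn ℚ) :
    ρ φ * ρ σ * ρ φ⁻¹ = ρ σ ^ p := by
  obtain ⟨F, hFfd, hFρ⟩ := hF
  obtain ⟨a, ha⟩ := hTameRel p hpF.out P hP φ σ hφ hσ F hFfd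
  have hwI : φ * σ * φ⁻¹ * (σ ^ p)⁻¹ ∈ P.inertiaSubgroupIn ℚ :=
    mul_mem (s56f_conj_mem_inertia P φ σ hφ.mem_decompositionSubgroup hσ)
      (inv_mem (pow_mem hσ p))
  obtain ⟨m, hm, hwm⟩ := htame _ hwI
  have hwa : ρ (φ * σ * φ⁻¹ * (σ ^ p)⁻¹) ^ (p ^ a) = 1 := by
    rw [← map_pow]; exact hFρ _ ha
  have hgcd : m.gcd (p ^ a) = 1 := Nat.Coprime.pow_right a hm
  have hw1 : ρ (φ * σ * φ⁻¹ * (σ ^ p)⁻¹) = 1 := by
    have := pow_gcd_eq_one.mpr ⟨hwm, hwa⟩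
    rwa [hgcd, pow_one] at this
  rw [map_mul, map_mul, map_mul] at hw1
  have h2 : ρ φ * ρ σ * ρ φ⁻¹ * ρ (σ ^ p)⁻¹ * ρ (σ ^ p) = ρ (σ ^ p) := by rw [hw1, one_mul]
  rw [mul_assoc _ (ρ (σ ^ p)⁻¹), s56f_rho_inv_mul, mul_one, map_pow] at h2
  exact h2

end Build

/-- **THE TAME ASSEMBLY** from the contracts. -/
theorem s56f_tameAsm_of_contracts (hHit : s56f_IfaceHit) (hCount : s56f_IfaceCount)
    (hA1 : s56f_IfaceArith1) (hA2 : s56f_IfaceArith2) (hA3 : s56f_IfaceArith3)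
    (hDict : s56f_IfaceDict) (hTameGen : s56f_IfaceTameGen) (hOmega : s56f_IfaceOmega)
    (hK1 : s56f_IfaceK1) (hFrobPi : s56f_IfaceFrobPi) (hTameMax : s56f_IfaceTameMax)
    (hTameRel : s56f_IfaceTameRel) : s56f_IfaceTameAsm := by
  intro p hpF k _ _ _ V _ _ _ ρ P Good hyp htame
  obtain ⟨hp5, hV, hF, hsplit, hP, hGsup, hGfd, hKB⟩ := hyp
  have hp2 : p ≠ 2 := by omega
  obtain ⟨π₁, hπ⟩ := s56f_exists_pi (p := p)
  obtain ⟨ζ, hζ, hζ1⟩ := s56f_exists_zeta (p := p)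
  have d : s56f_Dict p P hP π₁ ζ := hDict p P hP π₁ ζ hπ hζ hζ1
  -- the generator of tame inertia
  obtain ⟨τ, hτI, ξ, hξord, hτπ, hgenI⟩ := hTameGen p hpF.out P hP π₁ hπ
  obtain ⟨aτ, hτζ⟩ := s56f_exists_zeta_exp hζ hζ1 τ
  have hτξ : τ ξ = ξ := (hgenI τ hτI).1
  have T : s56f_TauData P π₁ ζ τ ξ aτ :=
    ⟨hτI, hξord, hτπ, hτζ, hOmega p hpF.out hp2 P hP π₁ hπ τ hτI ξ ζ aτ.val hτπ hζ hζ1 hτζ⟩
  have hgen : ∀ σ ∈ P.inertiaSubgroupIn ℚ, ∃ m : ℕ, ∃ u ∈ s56f_V1 P π₁, σ = τ ^ m * u := by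
    intro σ hσ
    obtain ⟨-, i, hi⟩ := hgenI σ hσ
    refine ⟨i, (τ ^ i)⁻¹ * σ, ?_, by group⟩
    refine (s56f_mem_V1 P).mpr ⟨mul_mem (inv_mem (pow_mem hτI i)) hσ, ?_⟩
    rw [AlgEquiv.mul_apply, hi, ← s56f_tau_pow_pi hτπ hτξ i, ← AlgEquiv.mul_apply, inv_mul_cancel,
      AlgEquiv.one_apply]
  have hτn : τ ^ (p ^ 2 - 1) ∈ s56f_V1 P π₁ := by
    refine (s56f_mem_V1 P).mpr ⟨pow_mem hτI _, ?_⟩
    rw [s56f_tau_pow_pi hτπ hτξ, ← hξord, pow_orderOf_eq_one, one_mul]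
  -- the Frobenius lift
  obtain ⟨φ, hφ, hφπ⟩ := hFrobPi p hpF.out P hP π₁ hπ
  obtain ⟨aφ, hφζ⟩ := s56f_exists_zeta_exp hζ hζ1 φ
  -- Step 1 and Step 2
  have hrel : ∀ σ ∈ P.inertiaSubgroupIn ℚ, ρ φ * ρ σ * ρ φ⁻¹ = ρ σ ^ p :=
    fun σ hσ => s56f_tame_rel hTameRel hP hF htame hφ hσ
  have hpow : ∀ σ ∈ P.inertiaSubgroupIn ℚ, ρ σ ^ (p ^ 2 - 1) = 1 := by
    intro σ hσ
    obtain ⟨m, hm, hσm⟩ := htame σ hσ
    obtain ⟨α, β, hS⟩ := hsplit σ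
    exact s56f_pow_eq_one_of_frob p hV (ρ σ) (ρ φ) (ρ φ⁻¹) (s56f_rho_mul_inv ρ φ)
      (s56f_rho_inv_mul ρ φ) (hrel σ hσ) hm hσm hS
  have hρV₁ : ∀ u ∈ s56f_V1 P π₁, ρ u = 1 := by
    intro u hu
    have h1 := hTameMax p hpF.out P hP π₁ hπ (MonoidHom.ker ρ)
      (by
        obtain ⟨F, hFfd, hFρ⟩ := hF
        exact ⟨F, hFfd, fun σ _ hσF => MonoidHom.mem_ker.mpr (hFρ σ hσF)⟩)
      (fun g _ x _ hx => (MonoidHom.normal_ker ρ).conj_mem x hx g)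
      (fun σ hσ => by rw [MonoidHom.mem_ker, map_pow]; exact hpow σ hσ) u hu
    exact MonoidHom.mem_ker.mp h1
  -- the order of `ρ(φ)` and the tame field
  obtain ⟨F, hFfd, hFρ⟩ := hF
  haveI := hFfd
  haveI : F.fixingSubgroup.FiniteIndex := pta_finiteIndex_fixingSubgroup F
  obtain ⟨N, hN0, -, hφN⟩ :=
    Subgroup.exists_pow_mem_of_index_ne_zero (H := F.fixingSubgroup) Subgroup.FiniteIndex.index_ne_zero φ
  have hρφN : ρ φ ^ N = 1 := by rw [← map_pow]; exact hFρ _ hφN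
  obtain ⟨K₁, hK₁fd, hK₁n, hK₁t, hζK, -, hV₁K, hU₁⟩ := hK1 p hpF.out hp2 P hP π₁ ζ hπ hζ hζ1 N hN0
  have hρU₁ : ∀ σ ∈ P.decompositionSubgroup ℚ, σ ∈ K₁.fixingSubgroup → ρ σ = 1 := by
    intro σ hσD hσK
    obtain ⟨j, ι, ⟨q, rfl⟩, hι, hjι⟩ := hU₁ φ hφ hφπ σ hσD hσK F hFfd
    have h1 := hFρ _ hjι
    rw [map_mul] at h1
    have h2 : ρ (φ ^ (N * q) * ι) = 1 := by
      rw [map_mul, map_pow, pow_mul, hρφN, one_pow, one_mul, hρV₁ ι hι]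
    have h3 : ρ σ = ρ (φ ^ (N * q) * ι) * (ρ (φ ^ (N * q) * ι)⁻¹ * ρ σ) := by
      rw [← mul_assoc, s56f_rho_mul_inv, one_mul]
    rw [h3, h1, h2, mul_one]
  have Cx : s56f_TameCtx p ρ P hP Good π₁ ζ τ φ ξ aτ aφ K₁ :=
    { hV := hV, d := d, T := T, gen := hgen, τn := hτn, φfrob := hφ, φζ := hφζ, ρV₁ := hρV₁,
      K₁fd := hK₁fd, K₁n := hK₁n, K₁t := hK₁t, ζK := hζK, V₁K := hV₁K, ρU₁ := hρU₁,
      rel := hrel τ hτI, KB := hKB, Goodfd := hGfd }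
  exact Cx.elemConcl hHit hCount hA1 hA2 hA3 hp5 ⟨F, hFfd, hFρ⟩ (hsplit τ)

end Fermat.Agent.Lib.S56
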