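/-
PROGRAMME W (S56), wall [W8-F3] (helper3, prefix `s56f_`): **the tame assembly, unconditional**:
`s56f_ifaceTameAsm : s56f_IfaceTameAsm`, wiring helper8's §A (`F3Alg`), helper5's §B (`F3Dict`) and §K
(`F3Tame`) into `s56f_tameAsm_of_contracts`.
-/
import Mathlib
import Fermat.Agent.Lib.S56.F3TameA
import Fermat.Agent.Lib.S56.F3Alg
import Fermat.Agent.Lib.S56.F3Dict
import Fermat.Agent.Lib.S56.F3Tame

set_option autoImplicit false

noncomputable section

namespace Fermat.Agent.Lib.S56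

/-- the dictionary structure. -/
theorem s56f_ifaceDict : s56f_IfaceDict := fun p hpF P hP π₁ ζ hπ hζ hζ1 =>
  ⟨hπ, hζ, hζ1, s56f_ifaceValGroup p hpF.out P hP π₁ hπ,
    (s56f_ifaceLambda p hpF.out P hP ζ hζ hζ1).1, s56f_ifaceResFin p hpF.out P hP,
    s56o_V1_fix_zeta hpF.out P hP hπ hζ, s56f_ifaceRedInj p hpF.out P hP⟩

/-- **THE TAME ASSEMBLY.** -/
theorem s56f_ifaceTameAsm : s56f_IfaceTameAsm :=
  s56f_tameAsm_of_contracts s56f_ifaceHit s56f_ifaceCount s56f_ifaceArith1 s56f_ifaceArith2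
    s56f_ifaceArith3 s56f_ifaceDict s56f_ifaceTameGen s56f_ifaceOmega s56f_ifaceK1 s56f_ifaceFrobPi
    s56f_ifaceTameMax s56f_ifaceTameRel

end Fermat.Agent.Lib.S56
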