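/-
Programme W (S56), wall [W8-F3] §W (helper5; statement `s56f_IfaceWildLine` of helper3's `IfaceF3.lean`):
**a 2-dimensional mod-`p` representation of `G_ℚ` with finite image which is not tame at `P | p` has a
`D_P`-stable line.**

Proof.  `L ⊇ F` a finite Galois level, `𝔭` the prime of `𝓞 L` below `P`.
`𝒲 := {σ ∈ I_P | σ|_L acts trivially on 𝔭/𝔭²}` ("wild inertia at level `L`") is a subgroup of `I_P` normalised
by `D_P`; every `ρ w`, `w ∈ 𝒲`, has `p`-power order (landed `s35t_wild_trivial`); if `ρ(𝒲) = 1` then `ρ|_I` is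
tame (`σ ^ (N𝔭 - 1) ∈ 𝒲`).  So `ρ(𝒲)` is a non-trivial `p`-group normalised by `ρ(D_P)`, and its fixed space is
a `D_P`-stable subspace, `≠ V`, and `≠ 0` by the fixed-point congruence for `p`-groups (applied to the finite
`𝔽_p`-span of the `G_ℚ`-orbit of a non-zero vector).
-/
import Fermat.Agent.Lib.S56.IfaceF3
import Fermat.Agent.Lib.S56.GDecomp

set_option autoImplicit false
set_option linter.unusedSectionVars false
set_option linter.style.haveILetI false

noncomputable section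

namespace Fermat.Agent.Lib.S56

open NumberField Module Fermat.Agent.Lib.S35 Fermat.Agent.Lib.PT Fermat.Agent.Lib.CFT
  Fermat.Agent.Lib.Frey

local notation "Ω" => AlgebraicClosure ℚ
local notation "GQ" => (AlgebraicClosure ℚ ≃ₐ[ℚ] AlgebraicClosure ℚ)

/-- **a non-trivial `p`-group of automorphisms of a vector space in characteristic `p`, contained in a group
with finite orbits, has a non-zero fixed vector.**  Here: `S` a set of endomorphisms closed under
composition..., stated for a subgroup `S̄` of `(End V)ˣ` which is a `p`-group and a finite set `T` of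
endomorphisms containing all elements of `S̄`. -/
theorem s56o_exists_fixed_pgroup {p : ℕ} [Fact p.Prime] {k : Type} [Field k] [CharP k p] {V : Type}
    [AddCommGroup V] [Module k V] [Nontrivial V] (S : Subgroup (Module.End k V)ˣ)
    (hS : IsPGroup p ↥S) (T : Set (Module.End k V)) (hT : T.Finite)
    (hST : ∀ s ∈ S, ∀ t ∈ T, ((s : (Module.End k V)ˣ) : Module.End k V) * t ∈ T)
    (h1T : (1 : Module.End k V) ∈ T) :
    ∃ v : V, v ≠ 0 ∧ ∀ s ∈ S, ((s : (Module.End k V)ˣ) : Module.End k V) v = v := by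
  classical
  have hp : p.Prime := Fact.out
  obtain ⟨v₀, hv₀⟩ := exists_ne (0 : V)
  letI : Algebra (ZMod p) k := ZMod.algebra k p
  letI : Module (ZMod p) V := Module.compHom V (algebraMap (ZMod p) k)
  -- the finite `𝔽_p`-span of `T v₀`
  let M : Submodule (ZMod p) V := Submodule.span (ZMod p) ((fun t : Module.End k V => t v₀) '' T)
  haveI : Module.Finite (ZMod p) ↥M := Module.Finite.span_of_finite _ (hT.image _)
  haveI : Finite ↥M := Module.finite_of_finite (ZMod p)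
  have hv₀M : v₀ ∈ M := Submodule.subset_span ⟨1, h1T, rfl⟩
  have hstab : ∀ s ∈ S, ∀ m ∈ M, ((s : (Module.End k V)ˣ) : Module.End k V) m ∈ M := by
    intro s hs m hm
    induction hm using Submodule.span_induction with
    | mem x hx =>
      obtain ⟨t, ht, rfl⟩ := hx
      exact Submodule.subset_span ⟨_, hST s hs t ht, rfl⟩
    | zero =>
      rw [map_zero]
      exact M.zero_mem
    | add x y _ _ hx hy =>
      rw [map_add]
      exact M.add_mem hx hy
    | smul c x _ hx =>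
      have : c • x = (algebraMap (ZMod p) k c) • x := rfl
      rw [this, map_smul]
      exact M.smul_mem c hx
  letI : MulAction ↥S ↥M :=
    { smul := fun s m => ⟨((s : (Module.End k V)ˣ) : Module.End k V) m.1, hstab s.1 s.2 m.1 m.2⟩
      one_smul := fun m => Subtype.ext rfl
      mul_smul := fun s s' m => Subtype.ext rfl }
  have hsmul : ∀ (s : ↥S) (m : ↥M),
      ((s • m : ↥M) : V) = ((s : (Module.End k V)ˣ) : Module.End k V) m.1 := fun _ _ => rfl
  -- `p ∣ |M|`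
  have hpM : p ∣ Nat.card ↥M := by
    have hpk : ((p : ℕ) : k) = 0 := CharP.cast_eq_zero k p
    have h0 : p • (⟨v₀, hv₀M⟩ : ↥M) = 0 := by
      apply Subtype.ext
      show p • v₀ = 0
      rw [← Nat.cast_smul_eq_nsmul k, hpk, zero_smul]
    have hne : (⟨v₀, hv₀M⟩ : ↥M) ≠ 0 := fun h => hv₀ (congrArg Subtype.val h)
    have h1 := addOrderOf_eq_prime h0 hne
    have h2 := addOrderOf_dvd_natCard (⟨v₀, hv₀M⟩ : ↥M)
    rwa [h1] at h2
  have h0fix : (0 : ↥M) ∈ MulAction.fixedPoints ↥S ↥M := by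
    intro s
    apply Subtype.ext
    rw [hsmul]
    exact map_zero _
  obtain ⟨b, hb, hb0⟩ := hS.exists_fixed_point_of_prime_dvd_card_of_fixed_point ↥M hpM h0fix
  refine ⟨b.1, fun h => hb0 (Subtype.ext h.symm), fun s hs => ?_⟩
  have := hb ⟨s, hs⟩
  exact congrArg Subtype.val this

/-- conjugation by an element preserving `𝔭` preserves "trivial on `𝔭/𝔭²`". -/
theorem s56o_isTheta_one_conj {B : Type*} [CommRing B] {G : Type*} [Group G] [MulSemiringAction G B]
    {𝔭 : Ideal B} {g σ : G} (h : s35t_IsTheta 𝔭 g 1) (hσ : ∀ x ∈ 𝔭, σ • x ∈ 𝔭)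
    (hσ' : ∀ x ∈ 𝔭, σ⁻¹ • x ∈ 𝔭) : s35t_IsTheta 𝔭 (σ * g * σ⁻¹) 1 := by
  intro π hπ
  have h1 : (σ * g * σ⁻¹) • π - 1 * π = σ • (g • (σ⁻¹ • π) - 1 * (σ⁻¹ • π)) := by
    rw [one_mul, one_mul, smul_sub, mul_smul, mul_smul, smul_inv_smul]
  rw [h1]
  exact s35t_smul_mem_pow σ hσ 2 (h _ (hσ' π hπ))

/-- **(WildLine)** -/
theorem s56f_ifaceWildLine : s56f_IfaceWildLine := by
  intro p _ k _ _ P hP V _ _ hV ρ hlev hnt
  classical
  obtain ⟨F, hF, hρF⟩ := hlev
  have hp : p.Prime := Fact.out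
  obtain ⟨L, hFL, hfd, hnorm⟩ := s56g_exists_level F hF
  haveI : NumberField L :=
    { to_charZero := inferInstance
      to_finiteDimensional := by convert hfd }
  haveI : IsGalois ℚ L := @IsGalois.mk ℚ _ L _ _ (by infer_instance) hnorm
  have hP0 := pta_primeBelow_ne_bot (L := L) P hp hP
  have hpP := pta_natCast_mem_primeBelow (L := L) P hP
  set 𝔭 := pta_primeBelow (L := L) P with h𝔭
  have hρL : ∀ σ : GQ, s56g_r L σ = 1 → ρ σ = 1 := fun σ h =>
    hρF σ (IntermediateField.fixingSubgroup_antitone hFL ((s56g_r_eq_one_iff L σ).mp h))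
  haveI : FiniteDimensional k V := Module.finite_of_finrank_pos (by rw [hV]; norm_num)
  haveI : Nontrivial V := Module.nontrivial_of_finrank_pos (R := k) (by rw [hV]; norm_num)
  -- the wild inertia group at level `L`
  let 𝒲 : Subgroup GQ :=
    { carrier := {σ | σ ∈ P.inertiaSubgroupIn ℚ ∧ s35t_IsTheta 𝔭 (s56g_r L σ) 1}
      one_mem' := ⟨one_mem _, by rw [map_one]; exact s35t_isTheta_one 𝔭⟩
      mul_mem' := fun {a b} ha hb => ⟨mul_mem ha.1 hb.1, by
        rw [map_mul]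
        have := s35t_IsTheta.mul (s56g_isIn_of_inertia L ha.1) ha.2 hb.2
        rwa [one_mul] at this⟩
      inv_mem' := fun {a} ha => ⟨inv_mem ha.1, by
        rw [map_inv]
        have := s35t_isTheta_mul_inv hP0 (s35t_isIn_one 𝔭) (s56g_isIn_of_inertia L ha.1)
          (s35t_isTheta_one 𝔭) ha.2
        rwa [one_mul] at this⟩ }
  have hmem𝒲 : ∀ σ : GQ, σ ∈ 𝒲 ↔
      σ ∈ P.inertiaSubgroupIn ℚ ∧ s35t_IsTheta 𝔭 (s56g_r L σ) 1 := fun _ => Iff.rfl
  -- elements of `𝒲` act through elements of `p`-power order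
  have hpow : ∀ w ∈ 𝒲, ∃ a : ℕ, ρ w ^ (p ^ a) = 1 := by
    intro w hw
    set g := s56g_r L w with hg
    obtain ⟨a, m, hm, hord⟩ :=
      Nat.exists_eq_pow_mul_and_not_dvd (orderOf_pos g).ne' p hp.ne_one
    have h1 : (g ^ (p ^ a)) ^ m = 1 := by rw [← pow_mul, ← hord, pow_orderOf_eq_one]
    have hin := s56g_isIn_of_inertia L hw.1
    have hth : s35t_IsTheta 𝔭 (g ^ (p ^ a)) 1 := by
      have := s35t_IsTheta.pow hin hw.2 (p ^ a)
      rwa [one_pow] at this
    have hcop : m.Coprime p := ((Nat.Prime.coprime_iff_not_dvd hp).mpr hm).symm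
    have h2 : ∀ x : 𝓞 L, (g ^ (p ^ a)) • x = x :=
      s35t_wild_trivial hP0 hpP (hin.pow _) hth hcop h1
    have h3 : g ^ (p ^ a) = 1 := by
      apply FaithfulSMul.eq_of_smul_eq_smul (α := 𝓞 L)
      intro x
      rw [h2, one_smul]
    refine ⟨a, ?_⟩
    rw [← map_pow]
    apply hρL
    rw [map_pow]
    exact h3
  -- `ρ(𝒲) ≠ 1`, otherwise `ρ|_I` is tame
  have hex : ∃ w ∈ 𝒲, ρ w ≠ 1 := by
    by_contra hcon
    push Not at hcon
    apply hnt
    intro σ hσ
    haveI : Finite (𝓞 L ⧸ 𝔭) := 𝔭.finiteQuotientOfFreeOfNeBot hP0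
    haveI : 𝔭.IsMaximal := Ideal.IsPrime.isMaximal inferInstance hP0
    letI : Field (𝓞 L ⧸ 𝔭) := Ideal.Quotient.field 𝔭
    set N := Nat.card (𝓞 L ⧸ 𝔭) with hN
    set g := s56g_r L σ with hg
    have hin : s35t_IsIn 𝔭 g := s56g_isIn_of_inertia L hσ
    obtain ⟨d, hd⟩ := s35t_exists_isTheta hP0 hin
    obtain ⟨d', hd'⟩ := s35t_exists_isTheta hP0 hin.inv
    have h1 : s35t_IsTheta 𝔭 (g * g⁻¹) (d * d') := hd.mul hin hd'
    rw [mul_inv_cancel] at h1
    have h2 : d * d' - 1 ∈ 𝔭 := h1.unique hP0 (s35t_isTheta_one 𝔭)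
    have hdn : d ∉ 𝔭 := fun h => by
      have h3 : (1 : 𝓞 L) ∈ 𝔭 := by
        have := 𝔭.sub_mem (𝔭.mul_mem_right d' h) h2
        simpa using this
      exact (Ideal.IsPrime.ne_top inferInstance) ((Ideal.eq_top_iff_one _).mpr h3)
    have h3 : d ^ (N - 1) - 1 ∈ 𝔭 := by
      rw [← Ideal.Quotient.eq_zero_iff_mem, map_sub, map_pow, map_one, sub_eq_zero]
      have hd0 : (Ideal.Quotient.mk 𝔭 d) ≠ 0 := by
        rwa [Ne, Ideal.Quotient.eq_zero_iff_mem]
      haveI := Fintype.ofFinite (𝓞 L ⧸ 𝔭)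
      have := FiniteField.pow_card_sub_one_eq_one _ hd0
      rwa [← Nat.card_eq_fintype_card] at this
    have hpN : p ∣ N := by
      have h0 : p • (1 : 𝓞 L ⧸ 𝔭) = 0 := by
        rw [nsmul_eq_mul, mul_one]
        have : ((p : 𝓞 L) : 𝓞 L ⧸ 𝔭) = 0 := Ideal.Quotient.eq_zero_iff_mem.mpr hpP
        exact_mod_cast this
      have h4 := addOrderOf_eq_prime h0 one_ne_zero
      have h5 := addOrderOf_dvd_natCard (1 : 𝓞 L ⧸ 𝔭)
      rwa [h4] at h5
    have hN0 : 0 < N := Nat.card_pos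
    have hcop : (N - 1).Coprime p := by
      rw [Nat.coprime_comm, Nat.Prime.coprime_iff_not_dvd hp]
      intro h
      have h6 : p ∣ N - (N - 1) := Nat.dvd_sub hpN h
      have h7 : N - (N - 1) = 1 := by omega
      rw [h7] at h6
      exact hp.one_lt.ne' (Nat.dvd_one.mp h6)
    refine ⟨N - 1, hcop, ?_⟩
    have h8 : σ ^ (N - 1) ∈ 𝒲 := by
      refine ⟨pow_mem hσ _, ?_⟩
      rw [map_pow]
      exact (hd.pow hin (N - 1)).congr h3
    rw [← map_pow]
    exact hcon _ h8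
  obtain ⟨w₀, hw₀, hw₀1⟩ := hex
  -- normality in `D_P`
  have hnormal : ∀ σ ∈ P.decompositionSubgroup ℚ, ∀ w ∈ 𝒲, σ * w * σ⁻¹ ∈ 𝒲 := by
    intro σ hσ w hw
    refine ⟨s35t_conj_mem_inertia P σ w hσ hw.1, ?_⟩
    rw [map_mul, map_mul, map_inv]
    exact s56o_isTheta_one_conj hw.2 (fun x hx => s56g_smul_mem_of_decomp L hσ hx)
      (fun x hx => by
        rw [← map_inv]
        exact s56g_smul_mem_of_decomp L (inv_mem hσ) hx)
  -- the finite set of all `ρ σ`
  have hTfin : (Set.range ρ).Finite := by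
    have hcl : IsAlgClosure ℚ Ω := ⟨inferInstance, AlgebraicClosure.isAlgebraic ℚ⟩
    haveI hnQ : Normal ℚ Ω := IsAlgClosure.normal ℚ Ω
    have hsurj : Function.Surjective (s56g_r L) := AlgEquiv.restrictNormalHom_surjective Ω
    choose lift hlift using hsurj
    have hsub : Set.range ρ ⊆ Set.range (fun g : (L ≃ₐ[ℚ] L) => ρ (lift g)) := by
      rintro _ ⟨σ, rfl⟩
      refine ⟨s56g_r L σ, ?_⟩
      show ρ (lift (s56g_r L σ)) = ρ σ
      have h1 : ρ ((lift (s56g_r L σ))⁻¹ * σ) = 1 := by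
        apply hρL
        rw [map_mul, map_inv, hlift, inv_mul_cancel]
      have h2 : σ = lift (s56g_r L σ) * ((lift (s56g_r L σ))⁻¹ * σ) := by group
      conv_rhs => rw [h2]
      rw [map_mul, h1, mul_one]
    exact (Set.finite_range _).subset hsub
  -- the `p`-group `ρ(𝒲)` in `(End V)ˣ`
  let ρ' : GQ →* (Module.End k V)ˣ := ρ.toHomUnits
  have hρ' : ∀ σ, ((ρ' σ : (Module.End k V)ˣ) : Module.End k V) = ρ σ := fun σ => rfl
  let S : Subgroup (Module.End k V)ˣ := 𝒲.map ρ'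
  have hS : IsPGroup p ↥S := by
    rintro ⟨s, w, hw, rfl⟩
    obtain ⟨a, ha⟩ := hpow w hw
    refine ⟨a, ?_⟩
    apply Subtype.ext
    apply Units.ext
    show ((ρ' w ^ (p ^ a) : (Module.End k V)ˣ) : Module.End k V) = 1
    rw [Units.val_pow_eq_pow_val, hρ']
    exact ha
  obtain ⟨v, hv0, hvfix⟩ := s56o_exists_fixed_pgroup S hS (Set.range ρ) hTfin
    (by
      rintro s ⟨w, hw, rfl⟩ _ ⟨σ, rfl⟩
      exact ⟨w * σ, by rw [map_mul]; rfl⟩)
    ⟨1, map_one ρ⟩
  -- the fixed space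
  let ℓ : Submodule k V :=
    { carrier := {x | ∀ w ∈ 𝒲, ρ w x = x}
      add_mem' := fun {x y} hx hy w hw => by rw [map_add, hx w hw, hy w hw]
      zero_mem' := fun w _ => map_zero _
      smul_mem' := fun c x hx w hw => by rw [map_smul, hx w hw] }
  have hvℓ : v ∈ ℓ := fun w hw => hvfix (ρ' w) ⟨w, hw, rfl⟩
  have hℓbot : ℓ ≠ ⊥ := fun h => hv0 ((Submodule.mem_bot k).mp (h ▸ hvℓ))
  have hℓtop : ℓ ≠ ⊤ := fun h => hw₀1 (LinearMap.ext fun x => by
    have : x ∈ ℓ := h ▸ Submodule.mem_top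
    rw [Module.End.one_apply]
    exact this w₀ hw₀)
  refine ⟨ℓ, ?_, fun σ hσ x hx w hw => ?_⟩
  · have h1 : finrank k ℓ ≤ 2 := hV ▸ Submodule.finrank_le ℓ
    have h2 : finrank k ℓ ≠ 0 := fun h => hℓbot (Submodule.finrank_eq_zero.mp h)
    have h3 : finrank k ℓ ≠ 2 := fun h =>
      hℓtop (Submodule.eq_top_of_finrank_eq (by rw [h, hV]))
    omega
  · -- `ρ w (ρ σ x) = ρ σ (ρ (σ⁻¹ w σ) x) = ρ σ x`
    have h1 : σ⁻¹ * w * σ ∈ 𝒲 := by
      have := hnormal σ⁻¹ (inv_mem hσ) w hw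
      rwa [inv_inv] at this
    have h2 : w * σ = σ * (σ⁻¹ * w * σ) := by group
    have h3 : ρ w (ρ σ x) = ρ (w * σ) x := by rw [map_mul, Module.End.mul_apply]
    rw [h3, h2, map_mul, Module.End.mul_apply, hx _ h1]

end Fermat.Agent.Lib.S56
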