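/-
PROGRAMME W (S56), wall [W8-F3], the wild assembly, ABSTRACT CORE (helper8, prefix `s56f_wc_`).
Pure algebra (Mathlib only): a group `G` with subgroups `V₁ ≤ I ≤ D`, `I` normal in `D`,
`I = ⋃ τ^i V₁`, `I/V₁` of exponent prime to `char k`, `D` generated by `I` and `φ` modulo every "nice"
subgroup; a homomorphism `R : G →* M₂(k)` upper triangular on `D`, `θ = a/d`, `β = b/d`.  Given the
three "character count" facts (good homs vanish on `V₁`; good `θ`-cocycles are multiples of `β` on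
`V₁`; good `θ⁻¹`-cocycles vanish on `V₁`), the good cocycles with values in `sl₂` are, modulo
coboundaries, the multiples of one of them.
-/
import Mathlib

set_option autoImplicit false

noncomputable section

namespace Fermat.Agent.Lib.S56

section WildCore

variable {G : Type*} [Group G] {k : Type*} [Field k]

/-! ### cocycles of characters -/

/-- **rigidity**: a cocycle of a character `ψ` (`ψ(τ) ≠ 1`, `ψ|_{V₁} = 1`) which vanishes on `V₁` is a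
coboundary on `D`. -/
lemma s56f_wc_rigid (D I V₁ : Subgroup G) (hVI : V₁ ≤ I) (hID : I ≤ D)
    (hnorm : ∀ g ∈ D, ∀ ι ∈ I, g * ι * g⁻¹ ∈ I) (τ : G) (hτ : τ ∈ I)
    (hgen : ∀ σ ∈ I, ∃ (i : ℕ), ∃ ι ∈ V₁, σ = τ ^ i * ι)
    (ψ : G → k) (hψmul : ∀ g ∈ D, ∀ h ∈ D, ψ (g * h) = ψ g * ψ h)
    (hψV : ∀ u ∈ V₁, ψ u = 1) (hψτ : ψ τ ≠ 1)
    (h : G → k) (hcoc : ∀ g ∈ D, ∀ g' ∈ D, h (g * g') = h g + ψ g * h g')
    (hV : ∀ u ∈ V₁, h u = 0) :
    ∃ m : k, ∀ g ∈ D, h g = (ψ g - 1) * m := by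
  have hτD : τ ∈ D := hID hτ
  have hne : ψ τ - 1 ≠ 0 := sub_ne_zero.mpr hψτ
  refine ⟨h τ / (ψ τ - 1), ?_⟩
  set m : k := h τ / (ψ τ - 1) with hm
  set h' : G → k := fun g => h g - (ψ g - 1) * m with hh'
  have hcoc' : ∀ g ∈ D, ∀ g' ∈ D, h' (g * g') = h' g + ψ g * h' g' := by
    intro g hg g' hg'
    simp only [hh']
    rw [hcoc g hg g' hg', hψmul g hg g' hg']
    ring
  have hτ0 : h' τ = 0 := by
    simp only [hh', hm]
    field_simp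
    ring
  have hV' : ∀ u ∈ V₁, h' u = 0 := by
    intro u hu
    simp only [hh']
    rw [hV u hu, hψV u hu]
    ring
  have h1 : h' 1 = 0 := hV' 1 (one_mem _)
  have hpow : ∀ i : ℕ, h' (τ ^ i) = 0 := by
    intro i
    induction i with
    | zero => rw [pow_zero]; exact h1
    | succ i ih =>
      rw [pow_succ, hcoc' _ (pow_mem hτD i) _ hτD, ih, hτ0]
      ring
  have hI : ∀ σ ∈ I, h' σ = 0 := by
    intro σ hσ
    obtain ⟨i, ι, hι, rfl⟩ := hgen σ hσ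
    rw [hcoc' _ (pow_mem hτD i) _ (hID (hVI hι)), hpow, hV' ι hι]
    ring
  intro g hg
  have hginv : g⁻¹ ∈ D := inv_mem hg
  have h2 : h' (g * τ * g⁻¹) = 0 := hI _ (hnorm g hg τ hτ)
  have h3 : h' (g * g⁻¹) = 0 := by rw [mul_inv_cancel]; exact h1
  rw [hcoc' _ hg _ hginv] at h3
  rw [hcoc' _ (mul_mem hg hτD) _ hginv, hcoc' _ hg _ hτD, hτ0, hψmul g hg τ hτD] at h2
  have h4 : (1 - ψ τ) * h' g = 0 := by linear_combination h2 - ψ τ * h3
  have h5 : h' g = 0 := by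
    rcases mul_eq_zero.mp h4 with h6 | h6
    · exact absurd (sub_eq_zero.mp h6).symm hψτ
    · exact h6
  have h6 : h g - (ψ g - 1) * m = 0 := h5
  exact sub_eq_zero.mp h6

/-- an additive function on `D` vanishing on `V₁` vanishes on `I` (`I/V₁` of exponent `e`, invertible
in `k`). -/
lemma s56f_wc_hom_inertia (D I V₁ : Subgroup G) (hID : I ≤ D) (e : ℕ) (he : (e : k) ≠ 0)
    (hexp : ∀ σ ∈ I, σ ^ e ∈ V₁) (h : G → k)
    (hadd : ∀ g ∈ D, ∀ g' ∈ D, h (g * g') = h g + h g') (hV : ∀ u ∈ V₁, h u = 0) :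
    ∀ σ ∈ I, h σ = 0 := by
  have h1 : h 1 = 0 := hV 1 (one_mem _)
  have hpow : ∀ g ∈ D, ∀ n : ℕ, h (g ^ n) = n * h g := by
    intro g hg n
    induction n with
    | zero => rw [pow_zero, h1]; simp
    | succ n ih =>
      rw [pow_succ, hadd _ (pow_mem hg n) _ hg, ih]
      push_cast
      ring
  intro σ hσ
  have h2 := hpow σ (hID hσ) e
  rw [hV _ (hexp σ hσ)] at h2
  rcases mul_eq_zero.mp h2.symm with h3 | h3
  · exact absurd h3 he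
  · exact h3

/-- an additive function on `D` vanishing on `I`, on `D ∩ N` and at `φ` vanishes on `D`. -/
lemma s56f_wc_hom_all (D I : Subgroup G) (hID : I ≤ D) (φ : G) (hφ : φ ∈ D) (N : Subgroup G)
    (hgenN : ∀ g ∈ D, ∃ (j : ℕ) (ι : G), ι ∈ I ∧ (φ ^ j * ι)⁻¹ * g ∈ N)
    (h : G → k) (hadd : ∀ g ∈ D, ∀ g' ∈ D, h (g * g') = h g + h g')
    (hI : ∀ σ ∈ I, h σ = 0) (hN : ∀ g ∈ D, g ∈ N → h g = 0) (hφ0 : h φ = 0) :
    ∀ g ∈ D, h g = 0 := by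
  have h1 : h 1 = 0 := hI 1 (one_mem _)
  have hpow : ∀ n : ℕ, h (φ ^ n) = 0 := by
    intro n
    induction n with
    | zero => rw [pow_zero, h1]
    | succ n ih => rw [pow_succ, hadd _ (pow_mem hφ n) _ hφ, ih, hφ0, add_zero]
  intro g hg
  obtain ⟨j, ι, hι, hn⟩ := hgenN g hg
  have hιD : ι ∈ D := hID hι
  have hfD : φ ^ j * ι ∈ D := mul_mem (pow_mem hφ j) hιD
  have hnD : (φ ^ j * ι)⁻¹ * g ∈ D := mul_mem (inv_mem hfD) hg
  have hg' : g = (φ ^ j * ι) * ((φ ^ j * ι)⁻¹ * g) := by group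
  rw [hg', hadd _ hfD _ hnD, hadd _ (pow_mem hφ j) _ hιD, hpow, hI ι hι, hN _ hnD hn]
  ring

/-! ### upper triangular `2 × 2` representations -/

lemma s56f_wc_mul_apply (A B : Matrix (Fin 2) (Fin 2) k) (i j : Fin 2) :
    (A * B) i j = A i 0 * B 0 j + A i 1 * B 1 j := by
  rw [Matrix.mul_apply, Fin.sum_univ_two]

variable (R : G →* Matrix (Fin 2) (Fin 2) k)

/-- `θ = a/d` -/
def s56f_wc_theta (g : G) : k := R g 0 0 * R g⁻¹ 1 1

/-- `θ⁻¹ = d/a` -/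
def s56f_wc_thetaInv (g : G) : k := R g 1 1 * R g⁻¹ 0 0

/-- `β = b/d` -/
def s56f_wc_beta (g : G) : k := R g 0 1 * R g⁻¹ 1 1

variable {R}

lemma s56f_wc_b_mul (g h : G) :
    R (g * h) 0 1 = R g 0 0 * R h 0 1 + R g 0 1 * R h 1 1 := by
  rw [map_mul, s56f_wc_mul_apply]

section Tri

variable {D : Subgroup G} (htri : ∀ g ∈ D, R g 1 0 = 0)

include htri

lemma s56f_wc_a_mul (g : G) {h : G} (hh : h ∈ D) : R (g * h) 0 0 = R g 0 0 * R h 0 0 := by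
  rw [map_mul, s56f_wc_mul_apply, htri h hh, mul_zero, add_zero]

lemma s56f_wc_d_mul {g : G} (hg : g ∈ D) (h : G) : R (g * h) 1 1 = R g 1 1 * R h 1 1 := by
  rw [map_mul, s56f_wc_mul_apply, htri g hg, zero_mul, zero_add]

lemma s56f_wc_a_inv {g : G} (hg : g ∈ D) : R g 0 0 * R g⁻¹ 0 0 = 1 := by
  rw [← s56f_wc_a_mul htri g (inv_mem hg), mul_inv_cancel, map_one, Matrix.one_apply_eq]

lemma s56f_wc_d_inv {g : G} (hg : g ∈ D) : R g 1 1 * R g⁻¹ 1 1 = 1 := by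
  rw [← s56f_wc_d_mul htri hg g⁻¹, mul_inv_cancel, map_one, Matrix.one_apply_eq]

omit htri in
lemma s56f_wc_b_inv (g : G) : R g 0 0 * R g⁻¹ 0 1 + R g 0 1 * R g⁻¹ 1 1 = 0 := by
  rw [← s56f_wc_b_mul g g⁻¹, mul_inv_cancel, map_one]
  exact Matrix.one_apply_ne (by decide)

lemma s56f_wc_theta_mul {g h : G} (_hg : g ∈ D) (hh : h ∈ D) :
    s56f_wc_theta R (g * h) = s56f_wc_theta R g * s56f_wc_theta R h := by
  unfold s56f_wc_theta
  rw [mul_inv_rev, s56f_wc_a_mul htri g hh, s56f_wc_d_mul htri (inv_mem hh) g⁻¹]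
  ring

lemma s56f_wc_thetaInv_mul {g h : G} (hg : g ∈ D) (_hh : h ∈ D) :
    s56f_wc_thetaInv R (g * h) = s56f_wc_thetaInv R g * s56f_wc_thetaInv R h := by
  unfold s56f_wc_thetaInv
  rw [mul_inv_rev, s56f_wc_d_mul htri hg h, s56f_wc_a_mul htri h⁻¹ (inv_mem hg)]
  ring

lemma s56f_wc_theta_thetaInv {g : G} (hg : g ∈ D) :
    s56f_wc_theta R g * s56f_wc_thetaInv R g = 1 := by
  unfold s56f_wc_theta s56f_wc_thetaInv
  have h1 := s56f_wc_a_inv htri hg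
  have h2 := s56f_wc_d_inv htri hg
  linear_combination (R g 1 1 * R g⁻¹ 1 1) * h1 + h2

lemma s56f_wc_beta_mul {g h : G} (_hg : g ∈ D) (hh : h ∈ D) :
    s56f_wc_beta R (g * h) = s56f_wc_beta R g + s56f_wc_theta R g * s56f_wc_beta R h := by
  unfold s56f_wc_beta s56f_wc_theta
  rw [mul_inv_rev, s56f_wc_b_mul g h, s56f_wc_d_mul htri (inv_mem hh) g⁻¹]
  have h2 := s56f_wc_d_inv htri hh
  linear_combination (R g 0 1 * R g⁻¹ 1 1) * h2

/-- conjugation by an upper triangular matrix, entrywise -/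
lemma s56f_wc_conj_apply {g : G} (hg : g ∈ D) (A : Matrix (Fin 2) (Fin 2) k) :
    (R g * A * R g⁻¹) 0 0 = (R g 0 0 * A 0 0 + R g 0 1 * A 1 0) * R g⁻¹ 0 0 ∧
    (R g * A * R g⁻¹) 0 1 = (R g 0 0 * A 0 0 + R g 0 1 * A 1 0) * R g⁻¹ 0 1 +
      (R g 0 0 * A 0 1 + R g 0 1 * A 1 1) * R g⁻¹ 1 1 ∧
    (R g * A * R g⁻¹) 1 0 = R g 1 1 * A 1 0 * R g⁻¹ 0 0 ∧
    (R g * A * R g⁻¹) 1 1 = R g 1 1 * A 1 0 * R g⁻¹ 0 1 + R g 1 1 * A 1 1 * R g⁻¹ 1 1 := by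
  have h1 := htri g hg
  have h2 := htri g⁻¹ (inv_mem hg)
  refine ⟨?_, ?_, ?_, ?_⟩
  · rw [s56f_wc_mul_apply, s56f_wc_mul_apply, s56f_wc_mul_apply]
    linear_combination (R g 0 0 * A 0 1 + R g 0 1 * A 1 1) * h2
  · rw [s56f_wc_mul_apply, s56f_wc_mul_apply, s56f_wc_mul_apply]
  · rw [s56f_wc_mul_apply, s56f_wc_mul_apply, s56f_wc_mul_apply]
    linear_combination (A 0 0 * R g⁻¹ 0 0 + A 0 1 * R g⁻¹ 1 0) * h1 + (R g 1 1 * A 1 1) * h2
  · rw [s56f_wc_mul_apply, s56f_wc_mul_apply, s56f_wc_mul_apply]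
    linear_combination (A 0 0 * R g⁻¹ 0 1 + A 0 1 * R g⁻¹ 1 1) * h1

end Tri

/-! ### cocycles with values in `sl₂` -/

/-- good `ψ`-cocycles `D → k` -/
def s56f_wc_GoodFun (D : Subgroup G) (Nice : Subgroup G → Prop) (ψ : G → k) (h : G → k) : Prop :=
  (∀ g ∈ D, ∀ g' ∈ D, h (g * g') = h g + ψ g * h g') ∧ ∃ N, Nice N ∧ ∀ g ∈ D, g ∈ N → h g = 0

/-- good cocycles `D → sl₂(k)` -/
def s56f_wc_GoodCoc (D : Subgroup G) (R : G →* Matrix (Fin 2) (Fin 2) k)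
    (Nice : Subgroup G → Prop) (C : G → Matrix (Fin 2) (Fin 2) k) : Prop :=
  (∀ g ∈ D, ∀ g' ∈ D, C (g * g') = C g + R g * C g' * R g⁻¹) ∧ (∀ g ∈ D, (C g).trace = 0) ∧
  ∃ N, Nice N ∧ ∀ g ∈ D, g ∈ N → C g = 0

/-- the coboundary of `M` -/
def s56f_wc_cob (R : G →* Matrix (Fin 2) (Fin 2) k) (M : Matrix (Fin 2) (Fin 2) k) (g : G) :
    Matrix (Fin 2) (Fin 2) k := R g * M * R g⁻¹ - M

lemma s56f_wc_cob_mul (M : Matrix (Fin 2) (Fin 2) k) (g h : G) :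
    s56f_wc_cob R M (g * h) = s56f_wc_cob R M g + R g * s56f_wc_cob R M h * R g⁻¹ := by
  unfold s56f_wc_cob
  rw [mul_inv_rev, map_mul, map_mul]
  noncomm_ring

lemma s56f_wc_inv_mul (g : G) : R g⁻¹ * R g = 1 := by
  rw [← map_mul, inv_mul_cancel, map_one]

lemma s56f_wc_cob_trace (M : Matrix (Fin 2) (Fin 2) k) (g : G) :
    (s56f_wc_cob R M g).trace = 0 := by
  unfold s56f_wc_cob
  rw [Matrix.trace_sub, Matrix.trace_mul_comm, ← mul_assoc, s56f_wc_inv_mul, one_mul, sub_self]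

lemma s56f_wc_cob_one (M : Matrix (Fin 2) (Fin 2) k) {g : G} (hg : R g = 1) :
    s56f_wc_cob R M g = 0 := by
  have h1 : R g⁻¹ = 1 := by
    have := s56f_wc_inv_mul (R := R) g
    rwa [hg, mul_one] at this
  unfold s56f_wc_cob
  rw [hg, h1, one_mul, mul_one, sub_self]

lemma s56f_wc_cob_add (M M' : Matrix (Fin 2) (Fin 2) k) (g : G) :
    s56f_wc_cob R (M + M') g = s56f_wc_cob R M g + s56f_wc_cob R M' g := by
  unfold s56f_wc_cob
  noncomm_ring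

lemma s56f_wc_GoodCoc.sub_cob {D : Subgroup G} {Nice : Subgroup G → Prop}
    (hNR : ∀ N, Nice N → ∀ n ∈ N, R n = 1) {C : G → Matrix (Fin 2) (Fin 2) k}
    (hC : s56f_wc_GoodCoc D R Nice C) (M : Matrix (Fin 2) (Fin 2) k) :
    s56f_wc_GoodCoc D R Nice (fun g => C g - s56f_wc_cob R M g) := by
  obtain ⟨hcoc, htr, N, hN, hvan⟩ := hC
  refine ⟨fun g hg g' hg' => ?_, fun g hg => ?_, N, hN, fun g hg hgN => ?_⟩
  · show C (g * g') - s56f_wc_cob R M (g * g') = _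
    rw [hcoc g hg g' hg', s56f_wc_cob_mul]
    noncomm_ring
  · show (C g - s56f_wc_cob R M g).trace = 0
    rw [Matrix.trace_sub, htr g hg, s56f_wc_cob_trace, sub_self]
  · show C g - s56f_wc_cob R M g = 0
    rw [hvan g hg hgN, s56f_wc_cob_one M (hNR N hN g hgN), sub_self]

lemma s56f_wc_GoodCoc.sub_smul {D : Subgroup G} {Nice : Subgroup G → Prop}
    (hNice : ∀ N N', Nice N → Nice N' → Nice (N ⊓ N')) {C C₀ : G → Matrix (Fin 2) (Fin 2) k}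
    (hC : s56f_wc_GoodCoc D R Nice C) (hC₀ : s56f_wc_GoodCoc D R Nice C₀) (a : k) :
    s56f_wc_GoodCoc D R Nice (fun g => C g - a • C₀ g) := by
  obtain ⟨hcoc, htr, N, hN, hvan⟩ := hC
  obtain ⟨hcoc₀, htr₀, N₀, hN₀, hvan₀⟩ := hC₀
  refine ⟨fun g hg g' hg' => ?_, fun g hg => ?_, N ⊓ N₀, hNice N N₀ hN hN₀, fun g hg hgN => ?_⟩
  · show C (g * g') - a • C₀ (g * g') = _
    rw [hcoc g hg g' hg', hcoc₀ g hg g' hg']
    simp only [Matrix.mul_sub, Matrix.sub_mul, Matrix.mul_smul, Matrix.smul_mul, smul_add]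
    abel
  · show (C g - a • C₀ g).trace = 0
    rw [Matrix.trace_sub, Matrix.trace_smul, htr g hg, htr₀ g hg, smul_zero, sub_self]
  · show C g - a • C₀ g = 0
    rw [hvan g hg hgN.1, hvan₀ g hg hgN.2, smul_zero, sub_self]

/-! ### the main reduction -/

/-- the linear form `Φ` on good cocycles: the value at `φ` of the diagonal entry after removing the
lower-left entry by a coboundary. -/
def s56f_wc_Phi (R : G →* Matrix (Fin 2) (Fin 2) k) (τ φ : G)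
    (C : G → Matrix (Fin 2) (Fin 2) k) : k :=
  C φ 0 0 - C τ 1 0 / (s56f_wc_thetaInv R τ - 1) * (R φ 0 1 * R φ⁻¹ 0 0)

section Main

variable (D I V₁ : Subgroup G) (hVI : V₁ ≤ I) (hID : I ≤ D)
  (hnorm : ∀ g ∈ D, ∀ ι ∈ I, g * ι * g⁻¹ ∈ I) (τ φ : G) (hτ : τ ∈ I) (hφ : φ ∈ D)
  (hgen : ∀ σ ∈ I, ∃ (i : ℕ), ∃ ι ∈ V₁, σ = τ ^ i * ι)
  (e : ℕ) (he : (e : k) ≠ 0) (hexp : ∀ σ ∈ I, σ ^ e ∈ V₁) (h2 : (2 : k) ≠ 0)
  (htri : ∀ g ∈ D, R g 1 0 = 0)
  (hθV : ∀ u ∈ V₁, s56f_wc_theta R u = 1) (hθτ : s56f_wc_theta R τ ≠ 1)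
  (Nice : Subgroup G → Prop) (hNice : ∀ N N', Nice N → Nice N' → Nice (N ⊓ N'))
  (hNR : ∀ N, Nice N → ∀ n ∈ N, R n = 1)
  (hFrobGen : ∀ N, Nice N → ∀ g ∈ D, ∃ (j : ℕ) (ι : G), ι ∈ I ∧ (φ ^ j * ι)⁻¹ * g ∈ N)
  (hCC1 : ∀ h : G → k, s56f_wc_GoodFun D Nice (fun _ => 1) h → ∀ u ∈ V₁, h u = 0)
  (hCCθ : ∀ h : G → k, s56f_wc_GoodFun D Nice (s56f_wc_theta R) h →
    ∃ c : k, ∀ u ∈ V₁, h u = c * s56f_wc_beta R u)

include hVI hID hnorm hτ hφ hgen he hexp h2 htri hθV hθτ hNR hFrobGen hCC1 hCCθ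

/-- a good cocycle with `Φ = 0` is a coboundary on `D`. -/
lemma s56f_wc_cob_of_Phi_zero {C : G → Matrix (Fin 2) (Fin 2) k}
    (hC : s56f_wc_GoodCoc D R Nice C) (hzV : ∀ u ∈ V₁, C u 1 0 = 0)
    (hΦ : s56f_wc_Phi R τ φ C = 0) :
    ∃ M : Matrix (Fin 2) (Fin 2) k, M.trace = 0 ∧ ∀ σ ∈ D, C σ = s56f_wc_cob R M σ := by
  have hτD : τ ∈ D := hID hτ
  -- `θ⁻¹` on `V₁` and at `τ`
  have hθ'V : ∀ u ∈ V₁, s56f_wc_thetaInv R u = 1 := by
    intro u hu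
    have h := s56f_wc_theta_thetaInv htri (hID (hVI hu))
    rw [hθV u hu, one_mul] at h
    exact h
  have hθ'τ : s56f_wc_thetaInv R τ ≠ 1 := by
    intro h
    have h' := s56f_wc_theta_thetaInv htri hτD
    rw [h, mul_one] at h'
    exact hθτ h'
  have hne : s56f_wc_thetaInv R τ - 1 ≠ 0 := sub_ne_zero.mpr hθ'τ
  obtain ⟨hcoc, htr, N, hN, hvan⟩ := hC
  -- step 1: the lower-left entry
  have hz : s56f_wc_GoodFun D Nice (s56f_wc_thetaInv R) (fun g => C g 1 0) := by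
    refine ⟨fun g hg g' hg' => ?_, N, hN, fun g hg hgN => ?_⟩
    · show C (g * g') 1 0 = C g 1 0 + s56f_wc_thetaInv R g * C g' 1 0
      rw [hcoc g hg g' hg', Matrix.add_apply, (s56f_wc_conj_apply htri hg (C g')).2.2.1]
      unfold s56f_wc_thetaInv
      ring
    · show C g 1 0 = 0
      rw [hvan g hg hgN]
      rfl
  obtain ⟨y₀, hy₀⟩ := s56f_wc_rigid D I V₁ hVI hID hnorm τ hτ hgen (s56f_wc_thetaInv R)
    (fun g hg h hh => s56f_wc_thetaInv_mul htri hg hh) hθ'V hθ'τ (fun g => C g 1 0) hz.1 hzV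
  have hy₀τ : y₀ = C τ 1 0 / (s56f_wc_thetaInv R τ - 1) := by
    have h : C τ 1 0 = (s56f_wc_thetaInv R τ - 1) * y₀ := hy₀ τ hτD
    rw [h]
    field_simp
  -- step 2: remove it
  set M₁ : Matrix (Fin 2) (Fin 2) k := !![0, 0; y₀, 0] with hM₁
  set C1 : G → Matrix (Fin 2) (Fin 2) k := fun g => C g - s56f_wc_cob R M₁ g with hC1def
  have hC1 : s56f_wc_GoodCoc D R Nice C1 :=
    s56f_wc_GoodCoc.sub_cob hNR ⟨hcoc, htr, N, hN, hvan⟩ M₁
  have hcoc1 := hC1.1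
  have htr1 := hC1.2.1
  have hvan1 : ∀ g ∈ D, g ∈ N → C1 g = 0 := by
    intro g hg hgN
    show C g - s56f_wc_cob R M₁ g = 0
    rw [hvan g hg hgN, s56f_wc_cob_one M₁ (hNR N hN g hgN), sub_self]
  have hcob10 : ∀ g ∈ D, s56f_wc_cob R M₁ g 1 0 = (s56f_wc_thetaInv R g - 1) * y₀ := by
    intro g hg
    unfold s56f_wc_cob s56f_wc_thetaInv
    rw [Matrix.sub_apply, (s56f_wc_conj_apply htri hg M₁).2.2.1, hM₁]
    simp
    ring
  have hcob00 : ∀ g ∈ D, s56f_wc_cob R M₁ g 0 0 = y₀ * (R g 0 1 * R g⁻¹ 0 0) := by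
    intro g hg
    unfold s56f_wc_cob
    rw [Matrix.sub_apply, (s56f_wc_conj_apply htri hg M₁).1, hM₁]
    simp
    ring
  have hz1 : ∀ g ∈ D, C1 g 1 0 = 0 := by
    intro g hg
    show (C g - s56f_wc_cob R M₁ g) 1 0 = 0
    rw [Matrix.sub_apply, hcob10 g hg]
    have h : C g 1 0 = (s56f_wc_thetaInv R g - 1) * y₀ := hy₀ g hg
    rw [h, sub_self]
  -- step 3: the diagonal entry is additive
  have hxadd : ∀ g ∈ D, ∀ g' ∈ D, C1 (g * g') 0 0 = C1 g 0 0 + C1 g' 0 0 := by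
    intro g hg g' hg'
    rw [hcoc1 g hg g' hg', Matrix.add_apply, (s56f_wc_conj_apply htri hg _).1, hz1 g' hg']
    have h3 := s56f_wc_a_inv htri hg
    linear_combination (C1 g' 0 0) * h3
  have hx : s56f_wc_GoodFun D Nice (fun _ => 1) (fun g => C1 g 0 0) := by
    refine ⟨fun g hg g' hg' => ?_, N, hN, fun g hg hgN => ?_⟩
    · show C1 (g * g') 0 0 = C1 g 0 0 + 1 * C1 g' 0 0
      rw [hxadd g hg g' hg', one_mul]
    · show C1 g 0 0 = 0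
      rw [hvan1 g hg hgN]
      rfl
  have hxV := hCC1 _ hx
  have hxI := s56f_wc_hom_inertia D I V₁ hID e he hexp (fun g => C1 g 0 0) hxadd hxV
  have hxφ : C1 φ 0 0 = 0 := by
    show (C φ - s56f_wc_cob R M₁ φ) 0 0 = 0
    rw [Matrix.sub_apply, hcob00 φ hφ, hy₀τ]
    exact hΦ
  have hxD : ∀ g ∈ D, C1 g 0 0 = 0 :=
    s56f_wc_hom_all D I hID φ hφ N (hFrobGen N hN) (fun g => C1 g 0 0) hxadd hxI
      (fun g hg hgN => by
        show C1 g 0 0 = 0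
        rw [hvan1 g hg hgN]
        rfl) hxφ
  have hwD : ∀ g ∈ D, C1 g 1 1 = 0 := by
    intro g hg
    have h := htr1 g hg
    rw [Matrix.trace_fin_two, hxD g hg, zero_add] at h
    exact h
  -- step 4: the upper-right entry is a `θ`-cocycle
  have hy : s56f_wc_GoodFun D Nice (s56f_wc_theta R) (fun g => C1 g 0 1) := by
    refine ⟨fun g hg g' hg' => ?_, N, hN, fun g hg hgN => ?_⟩
    · show C1 (g * g') 0 1 = C1 g 0 1 + s56f_wc_theta R g * C1 g' 0 1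
      rw [hcoc1 g hg g' hg', Matrix.add_apply, (s56f_wc_conj_apply htri hg _).2.1, hz1 g' hg',
        hxD g' hg', hwD g' hg']
      unfold s56f_wc_theta
      ring
    · show C1 g 0 1 = 0
      rw [hvan1 g hg hgN]
      rfl
  obtain ⟨lam, hlam⟩ := hCCθ _ hy
  obtain ⟨m, hm⟩ := s56f_wc_rigid D I V₁ hVI hID hnorm τ hτ hgen (s56f_wc_theta R)
    (fun g hg h hh => s56f_wc_theta_mul htri hg hh) hθV hθτ
    (fun g => C1 g 0 1 - lam * s56f_wc_beta R g)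
    (fun g hg g' hg' => by
      show C1 (g * g') 0 1 - lam * s56f_wc_beta R (g * g') = _
      have hy1 : C1 (g * g') 0 1 = C1 g 0 1 + s56f_wc_theta R g * C1 g' 0 1 := hy.1 g hg g' hg'
      rw [hy1, s56f_wc_beta_mul htri hg hg']
      ring)
    (fun u hu => by
      show C1 u 0 1 - lam * s56f_wc_beta R u = 0
      rw [hlam u hu, sub_self])
  -- step 5: the coboundary
  obtain ⟨mu, hmu⟩ : ∃ mu : k, lam = 2 * mu := ⟨lam / 2, by field_simp⟩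
  set M₂ : Matrix (Fin 2) (Fin 2) k := !![-mu, m; 0, mu] with hM₂
  have hC1cob : ∀ σ ∈ D, C1 σ = s56f_wc_cob R M₂ σ := by
    intro σ hσ
    have hmσ : C1 σ 0 1 - lam * s56f_wc_beta R σ = (s56f_wc_theta R σ - 1) * m := hm σ hσ
    rw [hmu] at hmσ
    have ha := s56f_wc_a_inv htri hσ
    have hd := s56f_wc_d_inv htri hσ
    have hb := s56f_wc_b_inv (R := R) σ
    have hconj := s56f_wc_conj_apply htri hσ M₂
    ext i j
    fin_cases i <;> fin_cases j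
    · show C1 σ 0 0 = (R σ * M₂ * R σ⁻¹ - M₂) 0 0
      rw [hxD σ hσ, Matrix.sub_apply, hconj.1, hM₂]
      simp
      linear_combination mu * ha
    · show C1 σ 0 1 = (R σ * M₂ * R σ⁻¹ - M₂) 0 1
      rw [Matrix.sub_apply, hconj.2.1, hM₂]
      simp
      unfold s56f_wc_theta s56f_wc_beta at hmσ
      linear_combination hmσ + mu * hb
    · show C1 σ 1 0 = (R σ * M₂ * R σ⁻¹ - M₂) 1 0
      rw [hz1 σ hσ, Matrix.sub_apply, hconj.2.2.1, hM₂]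
      simp
    · show C1 σ 1 1 = (R σ * M₂ * R σ⁻¹ - M₂) 1 1
      rw [hwD σ hσ, Matrix.sub_apply, hconj.2.2.2, hM₂]
      simp
      linear_combination (-mu) * hd
  refine ⟨M₁ + M₂, ?_, fun σ hσ => ?_⟩
  · rw [Matrix.trace_add, hM₁, hM₂, Matrix.trace_fin_two, Matrix.trace_fin_two]
    simp
  · rw [s56f_wc_cob_add, ← hC1cob σ hσ]
    show C σ = s56f_wc_cob R M₁ σ + (C σ - s56f_wc_cob R M₁ σ)
    abel

omit hVI hID hnorm hτ hφ hgen he hexp h2 htri hθV hθτ hNR hFrobGen hCC1 hCCθ in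
lemma s56f_wc_Phi_sub_smul (C C₀ : G → Matrix (Fin 2) (Fin 2) k) (a : k) :
    s56f_wc_Phi R τ φ (fun g => C g - a • C₀ g) =
      s56f_wc_Phi R τ φ C - a * s56f_wc_Phi R τ φ C₀ := by
  unfold s56f_wc_Phi
  simp only [Matrix.sub_apply, Matrix.smul_apply, smul_eq_mul]
  ring

/-- **The abstract wild assembly, relative to a class `Q` of good cocycles** closed under
`C - a • C₀` and whose lower-left entries vanish on `V₁`: modulo coboundaries, the cocycles in `Q` are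
the multiples of one of them. -/
theorem s56f_wc_main_Q (Q : (G → Matrix (Fin 2) (Fin 2) k) → Prop)
    (hQ1 : ∀ C, Q C → s56f_wc_GoodCoc D R Nice C)
    (hQ2 : ∀ C C₀ (a : k), Q C → Q C₀ → Q (fun g => C g - a • C₀ g))
    (hQ3 : ∀ C, Q C → ∀ u ∈ V₁, C u 1 0 = 0) :
    ∃ C₀ : G → Matrix (Fin 2) (Fin 2) k, (C₀ = 0 ∨ Q C₀) ∧
      ∀ C, Q C → ∃ (a : k) (M : Matrix (Fin 2) (Fin 2) k), M.trace = 0 ∧
        ∀ σ ∈ D, C σ = a • C₀ σ + s56f_wc_cob R M σ := by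
  have key := fun (C : G → Matrix (Fin 2) (Fin 2) k) (hC : Q C)
      (hΦ : s56f_wc_Phi R τ φ C = 0) =>
    s56f_wc_cob_of_Phi_zero D I V₁ hVI hID hnorm τ φ hτ hφ hgen e he hexp h2 htri hθV hθτ Nice hNR
      hFrobGen hCC1 hCCθ (hQ1 C hC) (hQ3 C hC) hΦ
  by_cases hex : ∃ C₀, Q C₀ ∧ s56f_wc_Phi R τ φ C₀ ≠ 0
  · obtain ⟨C₀, hC₀, hΦ₀⟩ := hex
    refine ⟨C₀, Or.inr hC₀, fun C hC => ?_⟩
    set a : k := s56f_wc_Phi R τ φ C / s56f_wc_Phi R τ φ C₀ with ha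
    have hC' := hQ2 C C₀ a hC hC₀
    have hΦ' : s56f_wc_Phi R τ φ (fun g => C g - a • C₀ g) = 0 := by
      rw [s56f_wc_Phi_sub_smul, ha]
      field_simp
      ring
    obtain ⟨M, hM, hcob⟩ := key _ hC' hΦ'
    refine ⟨a, M, hM, fun σ hσ => ?_⟩
    have h : C σ - a • C₀ σ = s56f_wc_cob R M σ := hcob σ hσ
    rw [← h]
    abel
  · refine ⟨0, Or.inl rfl, fun C hC => ?_⟩
    have hΦ : s56f_wc_Phi R τ φ C = 0 := by
      by_contra h
      exact hex ⟨C, hC, h⟩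
    obtain ⟨M, hM, hcob⟩ := key C hC hΦ
    refine ⟨0, M, hM, fun σ hσ => ?_⟩
    rw [zero_smul, zero_add]
    exact hcob σ hσ

omit hVI hID hnorm hτ hφ hgen he hexp h2 hθV hθτ hNR hFrobGen hCC1 hCCθ in
/-- the lower-left entry of a good cocycle is a good `θ⁻¹`-cocycle. -/
lemma s56f_wc_GoodCoc.lowerLeft {C : G → Matrix (Fin 2) (Fin 2) k}
    (hC : s56f_wc_GoodCoc D R Nice C) :
    s56f_wc_GoodFun D Nice (s56f_wc_thetaInv R) (fun g => C g 1 0) := by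
  obtain ⟨hcoc, _, N, hN, hvan⟩ := hC
  refine ⟨fun g hg g' hg' => ?_, N, hN, fun g hg hgN => ?_⟩
  · show C (g * g') 1 0 = C g 1 0 + s56f_wc_thetaInv R g * C g' 1 0
    rw [hcoc g hg g' hg', Matrix.add_apply, (s56f_wc_conj_apply htri hg (C g')).2.2.1]
    unfold s56f_wc_thetaInv
    ring
  · show C g 1 0 = 0
    rw [hvan g hg hgN]
    rfl

include hNice in
/-- **The abstract wild assembly**: modulo coboundaries, the good cocycles are the multiples of one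
of them. -/
theorem s56f_wc_main
    (hCCθ' : ∀ h : G → k, s56f_wc_GoodFun D Nice (s56f_wc_thetaInv R) h → ∀ u ∈ V₁, h u = 0) :
    ∃ C₀ : G → Matrix (Fin 2) (Fin 2) k, (C₀ = 0 ∨ s56f_wc_GoodCoc D R Nice C₀) ∧
      ∀ C, s56f_wc_GoodCoc D R Nice C → ∃ (a : k) (M : Matrix (Fin 2) (Fin 2) k), M.trace = 0 ∧
        ∀ σ ∈ D, C σ = a • C₀ σ + s56f_wc_cob R M σ :=
  s56f_wc_main_Q D I V₁ hVI hID hnorm τ φ hτ hφ hgen e he hexp h2 htri hθV hθτ Nice hNR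
    hFrobGen hCC1 hCCθ (s56f_wc_GoodCoc D R Nice) (fun _ h => h)
    (fun _ _ a hC hC₀ => s56f_wc_GoodCoc.sub_smul hNice hC hC₀ a)
    (fun _ hC => hCCθ' _ (s56f_wc_GoodCoc.lowerLeft D htri Nice hC))

end Main

end WildCore

end Fermat.Agent.Lib.S56
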