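/-
PROGRAMME W (S56), wall [W8-F3], the wild assembly, GALOIS-SIDE LEMMAS (helper8, prefix `s56f_wa_`).
-/
import Mathlib
import Fermat.Agent.Lib.S56.F3Char
import Fermat.Agent.Lib.S56.F3Bridge
import Fermat.Agent.Lib.S56.IfaceF3b

set_option autoImplicit false

noncomputable section

namespace Fermat.Agent.Lib.S56

open Fermat.Agent.Lib.PT Fermat.Agent.Lib.Frey Polynomial Module

local notation "Qbar" => AlgebraicClosure ℚ
local notation "GQ" => (AlgebraicClosure ℚ ≃ₐ[ℚ] AlgebraicClosure ℚ)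

section Gal

variable {P : ValuationSubring Qbar}

/-- inertia is normal in the decomposition group -/
lemma s56f_wa_inertia_conj {g ι : GQ} (hg : g ∈ P.decompositionSubgroup ℚ)
    (hι : ι ∈ P.inertiaSubgroupIn ℚ) : g * ι * g⁻¹ ∈ P.inertiaSubgroupIn ℚ := by
  obtain ⟨t, ht, rfl⟩ := hι
  refine ⟨⟨g, hg⟩ * t * ⟨g, hg⟩⁻¹, ?_, rfl⟩
  have hn : (P.inertiaSubgroup ℚ).Normal := by
    unfold ValuationSubring.inertiaSubgroup
    infer_instance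
  exact hn.conj_mem t ht ⟨g, hg⟩

lemma s56f_wa_inertia_le {σ : GQ} (hσ : σ ∈ P.inertiaSubgroupIn ℚ) :
    σ ∈ P.decompositionSubgroup ℚ := (ford_inertia_spec P σ hσ).1

variable {p : ℕ} [hpF : Fact p.Prime] {π₁ ζ : Qbar}

/-- powers of an inertia element on `π₁` -/
lemma s56f_wa_pow_pi {σ : GQ} {ξ : Qbar} {i : ℕ} (hσξ : σ ξ = ξ) (hσπ : σ π₁ = ξ ^ i * π₁)
    (n : ℕ) : (σ ^ n) π₁ = ξ ^ (i * n) * π₁ := by
  induction n with
  | zero => simp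
  | succ n ih =>
    rw [pow_succ', AlgEquiv.mul_apply, ih, map_mul, map_pow, hσξ, hσπ, mul_add, mul_one, pow_add]
    ring

/-- **the generator of tame inertia with all its data.** -/
lemma s56f_wa_exists_tau (hTameGen : s56f_IfaceTameGen) (hOmega : s56f_IfaceOmega) (hp2 : p ≠ 2)
    (hP : P.LiesOverPrime p) (hπ₁ : π₁ ^ (p ^ 2 - 1) = -(p : Qbar)) (hζ : ζ ^ p = 1)
    (hζ1 : ζ ≠ 1) :
    ∃ (τ : GQ) (ξ : Qbar) (aτ : ZMod p), s56f_TauData P π₁ ζ τ ξ aτ ∧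
      (∀ σ ∈ P.inertiaSubgroupIn ℚ, ∃ (i : ℕ), ∃ ι ∈ s56f_V1 P π₁, σ = τ ^ i * ι) ∧
      (∀ σ ∈ P.inertiaSubgroupIn ℚ, σ ^ (p ^ 2 - 1) ∈ s56f_V1 P π₁) := by
  obtain ⟨τ, hτI, ξ, hξord, hτπ, hall⟩ := hTameGen p hpF.out P hP π₁ hπ₁
  have hτξ : τ ξ = ξ := (hall τ hτI).1
  -- `τ ζ = ζ ^ a`
  have hprim : IsPrimitiveRoot ζ p := by
    have hord : orderOf ζ = p := by
      have hdvd : orderOf ζ ∣ p := orderOf_dvd_of_pow_eq_one hζ
      rcases (Nat.dvd_prime hpF.out).mp hdvd with h1 | h1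
      · exact absurd (orderOf_eq_one_iff.mp h1) hζ1
      · exact h1
    rw [← hord]
    exact IsPrimitiveRoot.orderOf ζ
  have hτζp : (τ ζ) ^ p = 1 := by rw [← map_pow, hζ, map_one]
  have : NeZero p := ⟨hpF.out.ne_zero⟩
  obtain ⟨i, _, hi⟩ := hprim.eq_pow_of_pow_eq_one hτζp
  have hτζ : τ ζ = s56f_zpow ζ ((i : ℕ) : ZMod p) := by
    rw [s56f_zpow_natCast hζ, hi]
  refine ⟨τ, ξ, ((i : ℕ) : ZMod p), ⟨hτI, hξord, hτπ, hτζ, ?_⟩, ?_, ?_⟩
  · exact hOmega p hpF.out hp2 P hP π₁ hπ₁ τ hτI ξ ζ _ hτπ hζ hζ1 hτζ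
  · intro σ hσ
    obtain ⟨hσξ, j, hσπ⟩ := hall σ hσ
    have h1 : (τ ^ j) π₁ = ξ ^ j * π₁ := by
      have := s56f_wa_pow_pi (σ := τ) (ξ := ξ) (i := 1) hτξ (by rw [pow_one]; exact hτπ) j
      rwa [one_mul] at this
    refine ⟨j, (τ ^ j)⁻¹ * σ, ⟨mul_mem (inv_mem (pow_mem hτI j)) hσ, ?_⟩, by group⟩
    rw [AlgEquiv.mul_apply, hσπ, ← h1, ← AlgEquiv.mul_apply, inv_mul_cancel, AlgEquiv.one_apply]
  · intro σ hσ
    obtain ⟨hσξ, j, hσπ⟩ := hall σ hσ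
    refine ⟨pow_mem hσ _, ?_⟩
    rw [s56f_wa_pow_pi hσξ hσπ, mul_comm j, pow_mul, ← hξord, pow_orderOf_eq_one, one_pow, one_mul]

/-- every automorphism acts on `μ_p` through an exponent in `𝔽_p`. -/
lemma s56f_wa_exists_exp (hζ : ζ ^ p = 1) (hζ1 : ζ ≠ 1) (g : GQ) :
    ∃ a : ZMod p, g ζ = s56f_zpow ζ a := by
  have hprim : IsPrimitiveRoot ζ p := by
    have hord : orderOf ζ = p := by
      have hdvd : orderOf ζ ∣ p := orderOf_dvd_of_pow_eq_one hζ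
      rcases (Nat.dvd_prime hpF.out).mp hdvd with h1 | h1
      · exact absurd (orderOf_eq_one_iff.mp h1) hζ1
      · exact h1
    rw [← hord]
    exact IsPrimitiveRoot.orderOf ζ
  have hgζp : (g ζ) ^ p = 1 := by rw [← map_pow, hζ, map_one]
  have : NeZero p := ⟨hpF.out.ne_zero⟩
  obtain ⟨i, _, hi⟩ := hprim.eq_pow_of_pow_eq_one hgζp
  exact ⟨((i : ℕ) : ZMod p), by rw [s56f_zpow_natCast hζ, hi]⟩

/-- `x ≠ 0`, `x ^ p = x` ⇒ `x ^ (p² - 1) = 1`. -/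
lemma s56f_wa_pow_eq_one {k : Type} [Field k] {x : k} (hx0 : x ≠ 0) (hx : x ^ p = x) :
    x ^ (p ^ 2 - 1) = 1 := by
  have h2 : 2 ≤ p := hpF.out.two_le
  have h1 : x ^ (p - 1) = 1 := by
    have h3 : x ^ (p - 1) * x = 1 * x := by
      rw [← pow_succ, Nat.sub_add_cancel (by omega), hx, one_mul]
    exact mul_right_cancel₀ hx0 h3
  have h4 : p ^ 2 - 1 = (p - 1) * (p + 1) := by
    have h5 : p ^ 2 = (p - 1) * (p + 1) + 1 := by
      obtain ⟨q, rfl⟩ : ∃ q, p = q + 1 := ⟨p - 1, by omega⟩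
      simp only [Nat.add_sub_cancel]
      ring
    omega
  rw [h4, pow_mul, h1, one_pow]

/-- a character of `D` of finite level has values in `𝔽_p^×` on inertia. -/
lemma s56f_wa_char_inertia (hTameRel : s56f_IfaceTameRel) (hP : P.LiesOverPrime p)
    {k : Type} [Field k] [CharP k p] {φ : GQ} (hφ : P.IsFrobeniusAt φ p) (ψ : GQ → k)
    (hmul : ∀ g ∈ P.decompositionSubgroup ℚ, ∀ h ∈ P.decompositionSubgroup ℚ,
      ψ (g * h) = ψ g * ψ h)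
    {F : IntermediateField ℚ Qbar} (hF : FiniteDimensional ℚ F)
    (hψF : ∀ g ∈ P.decompositionSubgroup ℚ, g ∈ F.fixingSubgroup → ψ g = 1) :
    (∀ g ∈ P.decompositionSubgroup ℚ, ψ g ≠ 0) ∧
    ∀ σ ∈ P.inertiaSubgroupIn ℚ, ψ σ ^ p = ψ σ := by
  have h1 : ψ 1 = 1 := hψF 1 (one_mem _) (one_mem _)
  have hinv : ∀ g ∈ P.decompositionSubgroup ℚ, ψ g * ψ g⁻¹ = 1 := by
    intro g hg
    rw [← hmul g hg g⁻¹ (inv_mem hg), mul_inv_cancel, h1]
  have hne : ∀ g ∈ P.decompositionSubgroup ℚ, ψ g ≠ 0 := by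
    intro g hg h0
    have := hinv g hg
    rw [h0, zero_mul] at this
    exact zero_ne_one this
  have hpow : ∀ g ∈ P.decompositionSubgroup ℚ, ∀ n : ℕ, ψ (g ^ n) = ψ g ^ n := by
    intro g hg n
    induction n with
    | zero => rw [pow_zero, pow_zero, h1]
    | succ n ih => rw [pow_succ, hmul _ (pow_mem hg n) _ hg, ih, pow_succ]
  refine ⟨hne, fun σ hσ => ?_⟩
  have hσD := s56f_wa_inertia_le hσ
  have hφD := hφ.mem_decompositionSubgroup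
  obtain ⟨a, ha⟩ := hTameRel p hpF.out P hP φ σ hφ hσ F hF
  set x : GQ := φ * σ * φ⁻¹ * (σ ^ p)⁻¹ with hx
  have hxD : x ∈ P.decompositionSubgroup ℚ :=
    mul_mem (mul_mem (mul_mem hφD hσD) (inv_mem hφD)) (inv_mem (pow_mem hσD p))
  have hψx : ψ x * ψ σ ^ p = ψ σ := by
    have e1 : ψ x = ψ φ * ψ σ * ψ φ⁻¹ * ψ (σ ^ p)⁻¹ := by
      rw [hx, hmul _ (mul_mem (mul_mem hφD hσD) (inv_mem hφD)) _ (inv_mem (pow_mem hσD p)),
        hmul _ (mul_mem hφD hσD) _ (inv_mem hφD), hmul _ hφD _ hσD]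
    have e2 := hinv φ hφD
    have e3 := hinv (σ ^ p) (pow_mem hσD p)
    rw [hpow σ hσD p] at e3
    rw [e1]
    linear_combination (ψ σ * ψ (σ ^ p)⁻¹ * ψ σ ^ p) * e2 + ψ σ * e3
  have hψx1 : ψ x ^ (p ^ a) = 1 := by
    rw [← hpow x hxD]
    exact hψF _ (pow_mem hxD _) ha
  have hx1 : ψ x = 1 := by
    have h2 : (ψ x - 1) ^ (p ^ a) = 0 := by
      rw [sub_pow_char_pow, hψx1, one_pow, sub_self]
    exact sub_eq_zero.mp (pow_eq_zero_iff (pow_pos hpF.out.pos a).ne' |>.mp h2)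
  rw [hx1, one_mul] at hψx
  exact hψx

/-- a good cocycle of a character `ψ` (trivial on `U₁ = D ∩ G_{K₁}`) lies in `𝓗_ψ(D)`. -/
lemma s56f_wa_InH {hP : P.LiesOverPrime p} (d : s56f_Dict p P hP π₁ ζ)
    {Good : IntermediateField ℚ Qbar → Prop} (hKB : s56f_KB p P Good)
    {L : IntermediateField ℚ Qbar} (hL : Good L) (hLfd : FiniteDimensional ℚ L)
    {K₁ : IntermediateField ℚ Qbar} (hK₁fd : FiniteDimensional ℚ K₁) (hK₁n : Normal ℚ K₁)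
    (hK₁t : s56f_TameAt K₁ p P) (hζK : ζ ∈ K₁)
    (hV₁K : ∀ σ ∈ s56f_V1 P π₁, σ ∈ K₁.fixingSubgroup)
    {k : Type} [Field k] [Algebra (ZMod p) k] (ψ h : GQ → k)
    (hψU : ∀ u ∈ P.decompositionSubgroup ℚ, u ∈ K₁.fixingSubgroup → ψ u = 1)
    (hcoc : ∀ g ∈ P.decompositionSubgroup ℚ, ∀ g' ∈ P.decompositionSubgroup ℚ,
      h (g * g') = h g + ψ g * h g')
    (hvan : ∀ g ∈ P.decompositionSubgroup ℚ, g ∈ L.fixingSubgroup → h g = 0)
    (lam0 : k →ₗ[ZMod p] ZMod p) :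
    s56f_InH P hP π₁ ζ (↑(P.decompositionSubgroup ℚ) : Set GQ) ψ lam0 h := by
  have hV₁D : ∀ u ∈ s56f_V1 P π₁, u ∈ P.decompositionSubgroup ℚ := fun u hu =>
    s56f_wa_inertia_le ((s56f_mem_V1 P).mp hu).1
  have h1 : h 1 = 0 := hvan 1 (one_mem _) (one_mem _)
  refine ⟨fun g hg u hu => ?_, fun x => ?_⟩
  · have hgD : g ∈ P.decompositionSubgroup ℚ := hg
    have huD := hV₁D u hu
    have hginv : g⁻¹ ∈ P.decompositionSubgroup ℚ := inv_mem hgD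
    have e1 : h (g * g⁻¹) = 0 := by rw [mul_inv_cancel]; exact h1
    rw [hcoc g hgD _ hginv] at e1
    rw [hcoc _ (mul_mem hgD huD) _ hginv, hcoc g hgD u huD]
    have e2 : ψ (g * u) * h g⁻¹ = ψ g * h g⁻¹ := by
      -- compare the two expansions of `h (g * u * g⁻¹)`
      have e3 := hcoc g hgD _ (mul_mem huD hginv)
      rw [hcoc u huD _ hginv, hψU u huD (hV₁K u hu), one_mul] at e3
      have e4 := hcoc _ (mul_mem hgD huD) _ hginv
      rw [hcoc g hgD u huD] at e4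
      have e5 : g * u * g⁻¹ = g * (u * g⁻¹) := mul_assoc _ _ _
      rw [e5, e3] at e4
      linear_combination -e4
    rw [e2]
    linear_combination e1
  · refine s56f_window_of_KB d hKB hL hLfd hK₁fd hK₁n hK₁t hζK hV₁K _ ?_ ?_
    · intro u hu huK u' hu' _
      show lam0 (x * h (u * u')) = lam0 (x * h u) + lam0 (x * h u')
      rw [hcoc u hu u' hu', hψU u hu huK, one_mul, mul_add, map_add]
    · intro u hu _ huL
      show lam0 (x * h u) = 0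
      rw [hvan u hu huL, mul_zero, map_zero]

end Gal

end Fermat.Agent.Lib.S56
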