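/-
PROGRAMME W (S56), wall [W8-F3], THE WILD ASSEMBLY (helper8 for helper3):
`s56f_wildAsm : (contracts) → s56f_IfaceWildAsm`.
-/
import Mathlib
import Fermat.Agent.Lib.S56.F3WildCore
import Fermat.Agent.Lib.S56.F3WildGal
import Fermat.Agent.Lib.S56.IfaceW6

set_option autoImplicit false

noncomputable section

namespace Fermat.Agent.Lib.S56

open Fermat.Agent.Lib.PT Fermat.Agent.Lib.Frey Polynomial Module

local notation "Qbar" => AlgebraicClosure ℚ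
local notation "GQ" => (AlgebraicClosure ℚ ≃ₐ[ℚ] AlgebraicClosure ℚ)

section Prep

/-- a basis of a plane adapted to a line -/
lemma s56f_wa_exists_basis {k V : Type} [Field k] [AddCommGroup V] [Module k V]
    (hdim : finrank k V = 2) (ℓ : Submodule k V) (hℓ : finrank k ℓ = 1) :
    ∃ b : Basis (Fin 2) k V, ∀ x ∈ ℓ, ∃ c : k, x = c • b 0 := by
  obtain ⟨v, hv0, hv⟩ := finrank_eq_one_iff'.mp hℓ
  have he₁ : (v : V) ≠ 0 := fun h => hv0 (Subtype.ext h)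
  obtain ⟨e₂, hli⟩ := exists_linearIndependent_pair_of_one_lt_finrank (by rw [hdim]; norm_num) he₁
  let b : Basis (Fin 2) k V := basisOfLinearIndependentOfCardEqFinrank hli (by rw [hdim]; rfl)
  refine ⟨b, fun x hx => ?_⟩
  obtain ⟨c, hc⟩ := hv ⟨x, hx⟩
  refine ⟨c, ?_⟩
  have hb0 : b 0 = (v : V) := by
    simp [b, coe_basisOfLinearIndependentOfCardEqFinrank]
  rw [hb0]
  exact (congrArg Subtype.val hc).symm

lemma s56f_wa_exists_lam0 (p : ℕ) [Fact p.Prime] (k : Type) [Field k] [Algebra (ZMod p) k] :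
    ∃ lam0 : k →ₗ[ZMod p] ZMod p, lam0 ≠ 0 := by
  by_contra hcon
  have hall : ∀ f : k →ₗ[ZMod p] ZMod p, f = 0 := fun f => by
    by_contra hf
    exact hcon ⟨f, hf⟩
  have h1 : (1 : k) = 0 :=
    (Module.forall_dual_apply_eq_zero_iff (ZMod p) (1 : k)).mp (fun f => by rw [hall f]; rfl)
  exact one_ne_zero h1

lemma s56f_wa_exists_zeta (p : ℕ) [Fact p.Prime] : ∃ ζ : Qbar, ζ ^ p = 1 ∧ ζ ≠ 1 := by
  have : NeZero ((p : ℕ) : ℚ) := ⟨by exact_mod_cast (Fact.out : p.Prime).ne_zero⟩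
  obtain ⟨ζ, hζ⟩ := HasEnoughRootsOfUnity.exists_primitiveRoot Qbar p
  exact ⟨ζ, hζ.pow_eq_one, hζ.ne_one (Fact.out : p.Prime).one_lt⟩

/-- an element of a finite-image representation has finite order -/
lemma s56f_wa_exists_order {k V : Type} [Field k] [Finite k] [AddCommGroup V] [Module k V]
    [Module.Finite k V] (ρ : GQ →* Module.End k V) (φ : GQ) : ∃ N : ℕ, 0 < N ∧ ρ φ ^ N = 1 := by
  have : Finite V := Module.finite_of_finite k
  have : Finite (Module.End k V) := Finite.of_injective (fun f => (f : V → V)) DFunLike.coe_injective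
  have h := isOfFinOrder_of_finite (ρ.toHomUnits φ)
  refine ⟨orderOf (ρ.toHomUnits φ), h.orderOf_pos, ?_⟩
  have h1 := pow_orderOf_eq_one (ρ.toHomUnits φ)
  have h2 := congrArg (fun u : (Module.End k V)ˣ => (u : Module.End k V)) h1
  simp only [Units.val_pow_eq_pow_val, Units.val_one, MonoidHom.coe_toHomUnits] at h2
  exact h2

end Prep

/-- **THE WILD ASSEMBLY.** -/
theorem s56f_wildAsm (hHit : s56f_IfaceHit) (hCount : s56f_IfaceCount) (hA1 : s56f_IfaceArith1)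
    (hA3 : s56f_IfaceArith3)
    (hDict : ∀ (p : ℕ) [hpF : Fact p.Prime] (P : ValuationSubring Qbar) (hP : P.LiesOverPrime p)
      (π₁ ζ : Qbar), π₁ ^ (p ^ 2 - 1) = -(p : Qbar) → ζ ^ p = 1 → ζ ≠ 1 → s56f_Dict p P hP π₁ ζ)
    (hTameGen : s56f_IfaceTameGen) (hOmega : s56f_IfaceOmega) (hK1 : s56f_IfaceK1)
    (hFrobPi : s56f_IfaceFrobPi) (hTameMax : s56f_IfaceTameMax) (hTameRel : s56f_IfaceTameRel)
    (hFrobGen : s56g_IfaceFrobGen) (hWildLine : s56f_IfaceWildLine) : s56f_IfaceWildAsm := by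
  intro p hpF k _ _ _ V _ _ _ ρ P Good hyp hwild
  obtain ⟨hp5, hdim, ⟨F₀, hF₀fd, hF₀⟩, _, hP, hGsup, hGfd, hKB⟩ := hyp
  have hp : p.Prime := hpF.out
  have hp2 : p ≠ 2 := by omega
  -- the trivial case: no good field
  by_cases hexL : ∃ L, Good L ∧ ∀ σ ∈ L.fixingSubgroup, ρ σ = 1
  swap
  · refine ⟨0, ⟨fun _ _ _ _ => by simp, fun _ _ => by simp, F₀, hF₀fd, hF₀, fun _ _ _ => rfl⟩,
      fun c hc => ?_⟩
    obtain ⟨L, hL, hLρ, _⟩ := hc.good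
    exact absurd ⟨L, hL, hLρ⟩ hexL
  obtain ⟨L₀, hL₀, hL₀ρ⟩ := hexL
  -- the local dictionary
  have he1 : 0 < p ^ 2 - 1 := by
    have : 2 ≤ p := hp.two_le
    have : 4 ≤ p ^ 2 := by nlinarith
    omega
  obtain ⟨π₁, hπ₁⟩ : ∃ π₁ : Qbar, π₁ ^ (p ^ 2 - 1) = -(p : Qbar) :=
    IsAlgClosed.exists_pow_nat_eq _ he1
  obtain ⟨ζ, hζp, hζ1⟩ := s56f_wa_exists_zeta p
  have d := hDict p P hP π₁ ζ hπ₁ hζp hζ1
  obtain ⟨τ, ξ, aτ, T, hgenI, hexpI⟩ := s56f_wa_exists_tau hTameGen hOmega hp2 hP hπ₁ hζp hζ1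
  obtain ⟨φ, hφ, hφπ⟩ := hFrobPi p hp P hP π₁ hπ₁
  have hφD : φ ∈ P.decompositionSubgroup ℚ := hφ.mem_decompositionSubgroup
  have hτD : τ ∈ P.decompositionSubgroup ℚ := T.memD
  -- the `D`-stable line, the adapted basis, the matrices
  obtain ⟨ℓ, hℓ1, hℓD⟩ := hWildLine p k P hP V hdim ρ ⟨F₀, hF₀fd, hF₀⟩ hwild
  obtain ⟨b, hb⟩ := s56f_wa_exists_basis hdim ℓ hℓ1
  have hb0ℓ : b 0 ∈ ℓ := by
    -- `ℓ ≠ 0` contains a nonzero multiple of `b 0`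
    obtain ⟨v, hv0, _⟩ := finrank_eq_one_iff'.mp hℓ1
    obtain ⟨c, hc⟩ := hb v v.2
    have hc0 : c ≠ 0 := by
      rintro rfl
      rw [zero_smul] at hc
      exact hv0 (Subtype.ext hc)
    have : b 0 = c⁻¹ • (v : V) := by rw [hc, smul_smul, inv_mul_cancel₀ hc0, one_smul]
    rw [this]
    exact ℓ.smul_mem _ v.2
  let Tm := LinearMap.toMatrixAlgEquiv b
  let R : GQ →* Matrix (Fin 2) (Fin 2) k :=
    { toFun := fun g => Tm (ρ g)
      map_one' := by rw [map_one, map_one]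
      map_mul' := fun g h => by rw [map_mul, map_mul] }
  have hR : ∀ g, R g = Tm (ρ g) := fun _ => rfl
  have htri : ∀ g ∈ P.decompositionSubgroup ℚ, R g 1 0 = 0 := by
    intro g hg
    obtain ⟨c, hc⟩ := hb _ (hℓD g hg (b 0) hb0ℓ)
    rw [hR, LinearMap.toMatrixAlgEquiv_apply, hc, map_smul, Basis.repr_self]
    simp
  have hRone : ∀ g, ρ g = 1 → R g = 1 := fun g hg => by rw [hR, hg, map_one]
  have hID : ∀ σ ∈ P.inertiaSubgroupIn ℚ, σ ∈ P.decompositionSubgroup ℚ :=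
    fun σ hσ => s56f_wa_inertia_le hσ
  have hV₁I : ∀ σ ∈ s56f_V1 P π₁, σ ∈ P.inertiaSubgroupIn ℚ := fun σ hσ => hσ.1
  -- (L4) the diagonal characters
  have ha_mul : ∀ g ∈ P.decompositionSubgroup ℚ, ∀ h ∈ P.decompositionSubgroup ℚ,
      R (g * h) 0 0 = R g 0 0 * R h 0 0 := fun g _ h hh => s56f_wc_a_mul htri g hh
  have hd_mul : ∀ g ∈ P.decompositionSubgroup ℚ, ∀ h ∈ P.decompositionSubgroup ℚ,
      R (g * h) 1 1 = R g 1 1 * R h 1 1 := fun g hg h _ => s56f_wc_d_mul htri hg h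
  have haF : ∀ g ∈ P.decompositionSubgroup ℚ, g ∈ F₀.fixingSubgroup → R g 0 0 = 1 :=
    fun g _ hgF => by rw [hRone g (hF₀ g hgF)]; rfl
  have hdF : ∀ g ∈ P.decompositionSubgroup ℚ, g ∈ F₀.fixingSubgroup → R g 1 1 = 1 :=
    fun g _ hgF => by rw [hRone g (hF₀ g hgF)]; rfl
  obtain ⟨ha0, hap⟩ := s56f_wa_char_inertia hTameRel hP hφ (fun g => R g 0 0) ha_mul hF₀fd haF
  obtain ⟨hd0, hdp⟩ := s56f_wa_char_inertia hTameRel hP hφ (fun g => R g 1 1) hd_mul hF₀fd hdF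
  have hR1 : R 1 = 1 := map_one R
  have ha_pow : ∀ g ∈ P.decompositionSubgroup ℚ, ∀ n : ℕ, R (g ^ n) 0 0 = R g 0 0 ^ n := by
    intro g hg n
    induction n with
    | zero => rw [pow_zero, pow_zero, hR1]; rfl
    | succ n ih => rw [pow_succ, ha_mul _ (pow_mem hg n) _ hg, ih, pow_succ]
  have hd_pow : ∀ g ∈ P.decompositionSubgroup ℚ, ∀ n : ℕ, R (g ^ n) 1 1 = R g 1 1 ^ n := by
    intro g hg n
    induction n with
    | zero => rw [pow_zero, pow_zero, hR1]; rfl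
    | succ n ih => rw [pow_succ, hd_mul _ (pow_mem hg n) _ hg, ih, pow_succ]
  -- (L5) the diagonal characters are trivial on `V₁`
  have hadV : ∀ u ∈ s56f_V1 P π₁, R u 0 0 = 1 ∧ R u 1 1 = 1 := by
    let K : Subgroup GQ :=
      { carrier := {σ | σ ∈ P.decompositionSubgroup ℚ ∧ R σ 0 0 = 1 ∧ R σ 1 1 = 1}
        mul_mem' := by
          rintro x y ⟨hx, hxa, hxd⟩ ⟨hy, hya, hyd⟩
          exact ⟨mul_mem hx hy, by rw [ha_mul x hx y hy, hxa, hya, one_mul],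
            by rw [hd_mul x hx y hy, hxd, hyd, one_mul]⟩
        one_mem' := ⟨one_mem _, by rw [hR1]; rfl, by rw [hR1]; rfl⟩
        inv_mem' := by
          rintro x ⟨hx, hxa, hxd⟩
          refine ⟨inv_mem hx, ?_, ?_⟩
          · have := s56f_wc_a_inv htri hx
            rwa [hxa, one_mul] at this
          · have := s56f_wc_d_inv htri hx
            rwa [hxd, one_mul] at this }
    have hK := hTameMax p hp P hP π₁ hπ₁ K
      ⟨F₀, hF₀fd, fun σ hσ hσF => ⟨hID σ hσ, haF σ (hID σ hσ) hσF, hdF σ (hID σ hσ) hσF⟩⟩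
      (fun g hg x hx hxK => by
        obtain ⟨hxD, hxa, hxd⟩ := hxK
        have hgD := hID g hg
        refine ⟨mul_mem (mul_mem hgD hxD) (inv_mem hgD), ?_, ?_⟩
        · rw [ha_mul _ (mul_mem hgD hxD) _ (inv_mem hgD), ha_mul g hgD x hxD, hxa, mul_one]
          exact s56f_wc_a_inv htri hgD
        · rw [hd_mul _ (mul_mem hgD hxD) _ (inv_mem hgD), hd_mul g hgD x hxD, hxd, mul_one]
          exact s56f_wc_d_inv htri hgD)
      (fun σ hσ => by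
        have hσD := hID σ hσ
        refine ⟨pow_mem hσD _, ?_, ?_⟩
        · rw [ha_pow σ hσD]
          exact s56f_wa_pow_eq_one (ha0 σ hσD) (hap σ hσ)
        · rw [hd_pow σ hσD]
          exact s56f_wa_pow_eq_one (hd0 σ hσD) (hdp σ hσ))
    intro u hu
    exact (hK u hu).2
  have hθV : ∀ u ∈ s56f_V1 P π₁, s56f_wc_theta R u = 1 := by
    intro u hu
    unfold s56f_wc_theta
    rw [(hadV u hu).1, (hadV u⁻¹ (inv_mem hu)).2, one_mul]
  have hθ'V : ∀ u ∈ s56f_V1 P π₁, s56f_wc_thetaInv R u = 1 := by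
    intro u hu
    unfold s56f_wc_thetaInv
    rw [(hadV u hu).2, (hadV u⁻¹ (inv_mem hu)).1, one_mul]
  -- (L6) the tame field `K₁`
  obtain ⟨N, hN0, hN⟩ := s56f_wa_exists_order ρ φ
  obtain ⟨K₁, hK₁fd, hK₁n, hK₁t, hζK, hπK, hV₁K, hK₁gen⟩ :=
    hK1 p hp hp2 P hP π₁ ζ hπ₁ hζp hζ1 N hN0
  have hρU : ∀ σ ∈ P.decompositionSubgroup ℚ, σ ∈ K₁.fixingSubgroup →
      ∃ ι ∈ s56f_V1 P π₁, ρ σ = ρ ι := by
    intro σ hσ hσK
    obtain ⟨j, ι, hNj, hι, hx⟩ := hK₁gen φ hφ hφπ σ hσ hσK F₀ hF₀fd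
    refine ⟨ι, hι, ?_⟩
    have h1 : σ = φ ^ j * ι * ((φ ^ j * ι)⁻¹ * σ) := by group
    obtain ⟨m, rfl⟩ := hNj
    have h2 : ρ (φ ^ (N * m)) = 1 := by rw [map_pow, pow_mul, hN, one_pow]
    conv_lhs => rw [h1]
    rw [map_mul, map_mul, hF₀ _ hx, h2, one_mul, mul_one]
  have hadU : ∀ σ ∈ P.decompositionSubgroup ℚ, σ ∈ K₁.fixingSubgroup →
      R σ 0 0 = 1 ∧ R σ 1 1 = 1 := by
    intro σ hσ hσK
    obtain ⟨ι, hι, hρ⟩ := hρU σ hσ hσK
    rw [hR, hρ, ← hR]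
    exact hadV ι hι
  have hθU : ∀ u ∈ P.decompositionSubgroup ℚ, u ∈ K₁.fixingSubgroup → s56f_wc_theta R u = 1 := by
    intro u hu huK
    unfold s56f_wc_theta
    rw [(hadU u hu huK).1, (hadU u⁻¹ (inv_mem hu) (inv_mem huK)).2, one_mul]
  have hθ'U : ∀ u ∈ P.decompositionSubgroup ℚ, u ∈ K₁.fixingSubgroup →
      s56f_wc_thetaInv R u = 1 := by
    intro u hu huK
    unfold s56f_wc_thetaInv
    rw [(hadU u hu huK).2, (hadU u⁻¹ (inv_mem hu) (inv_mem huK)).1, one_mul]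
  -- (L7) `β` does not vanish on `V₁`
  have hβne : ∃ u ∈ s56f_V1 P π₁, s56f_wc_beta R u ≠ 0 := by
    by_contra hcon
    apply hwild
    intro σ hσ
    refine ⟨p ^ 2 - 1, ?_, ?_⟩
    · rw [Nat.coprime_comm]
      exact (Nat.Prime.coprime_iff_not_dvd hp).mpr s56f_not_dvd_e
    · have hu := hexpI σ hσ
      have hβ0 : s56f_wc_beta R (σ ^ (p ^ 2 - 1)) = 0 := by
        by_contra h
        exact hcon ⟨_, hu, h⟩
      unfold s56f_wc_beta at hβ0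
      rw [(hadV _ (inv_mem hu)).2, mul_one] at hβ0
      have h1 : R (σ ^ (p ^ 2 - 1)) = 1 := by
        ext i j
        fin_cases i <;> fin_cases j
        · exact (hadV _ hu).1
        · exact hβ0
        · exact htri _ (hID _ (hV₁I _ hu))
        · exact (hadV _ hu).2
      rw [hR, map_pow] at h1
      have h2 : Tm (ρ σ ^ (p ^ 2 - 1)) = Tm 1 := by rw [h1, map_one]
      exact Tm.injective h2
  -- (L8) the character count
  let _ : Algebra (ZMod p) k := ZMod.algebra k p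
  obtain ⟨lam0, hlam⟩ := s56f_wa_exists_lam0 p k
  obtain ⟨aφ, hφζ⟩ := s56f_wa_exists_exp hζp hζ1 φ
  let Nice : Subgroup GQ → Prop := fun N' =>
    ∃ L, Good L ∧ (∀ σ ∈ L.fixingSubgroup, ρ σ = 1) ∧ N' = L.fixingSubgroup
  have hτI : τ ∈ P.inertiaSubgroupIn ℚ := T.mem
  have hτD' : τ ∈ (↑(P.decompositionSubgroup ℚ) : Set GQ) := hτD
  have hφD' : φ ∈ (↑(P.decompositionSubgroup ℚ) : Set GQ) := hφD
  have ha0' : ∀ g ∈ P.decompositionSubgroup ℚ, R g 0 0 ≠ 0 := ha0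
  have hd0' : ∀ g ∈ P.decompositionSubgroup ℚ, R g 1 1 ≠ 0 := hd0
  have hap' : ∀ σ ∈ P.inertiaSubgroupIn ℚ, R σ 0 0 ^ p = R σ 0 0 := hap
  have hdp' : ∀ σ ∈ P.inertiaSubgroupIn ℚ, R σ 1 1 ^ p = R σ 1 1 := hdp
  have hInH : ∀ (ψ h : GQ → k),
      (∀ u ∈ P.decompositionSubgroup ℚ, u ∈ K₁.fixingSubgroup → ψ u = 1) →
      s56f_wc_GoodFun (P.decompositionSubgroup ℚ) Nice ψ h →
      s56f_InH P hP π₁ ζ (↑(P.decompositionSubgroup ℚ) : Set GQ) ψ lam0 h := by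
    rintro ψ h hψU ⟨hcoc, N', ⟨L, hL, hLρ, rfl⟩, hvan⟩
    exact s56f_wa_InH d hKB hL (hGfd L hL) hK₁fd hK₁n hK₁t hζK hV₁K ψ h hψU hcoc hvan lam0
  have hθτ0 : s56f_wc_theta R τ ≠ 0 := mul_ne_zero (ha0' τ hτD) (hd0' τ⁻¹ (inv_mem hτD))
  have hθτp : s56f_wc_theta R τ ^ p = s56f_wc_theta R τ := by
    unfold s56f_wc_theta
    rw [mul_pow, hap' τ hτI, hdp' τ⁻¹ (inv_mem hτI)]
  have hθφ0 : s56f_wc_theta R φ ≠ 0 := mul_ne_zero (ha0' φ hφD) (hd0' φ⁻¹ (inv_mem hφD))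
  have hθ'τ0 : s56f_wc_thetaInv R τ ≠ 0 := mul_ne_zero (hd0' τ hτD) (ha0' τ⁻¹ (inv_mem hτD))
  have hθ'τp : s56f_wc_thetaInv R τ ^ p = s56f_wc_thetaInv R τ := by
    unfold s56f_wc_thetaInv
    rw [mul_pow, hdp' τ hτI, hap' τ⁻¹ (inv_mem hτI)]
  have hθ'φ0 : s56f_wc_thetaInv R φ ≠ 0 := mul_ne_zero (hd0' φ hφD) (ha0' φ⁻¹ (inv_mem hφD))
  have hCC1 : ∀ h : GQ → k, s56f_wc_GoodFun (P.decompositionSubgroup ℚ) Nice (fun _ => (1 : k)) h →
      ∀ u ∈ s56f_V1 P π₁, h u = 0 := by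
    intro h hh
    exact s56f_cc_triv hHit d hp2 T hτD' (ψ := fun _ => (1 : k)) rfl hlam
      (hInH _ h (fun _ _ _ => rfl) hh)
  have hβgood : s56f_wc_GoodFun (P.decompositionSubgroup ℚ) Nice (s56f_wc_theta R)
      (s56f_wc_beta R) := by
    refine ⟨fun g hg g' hg' => s56f_wc_beta_mul htri hg hg', L₀.fixingSubgroup,
      ⟨L₀, hL₀, hL₀ρ, rfl⟩, fun g hg hgL => ?_⟩
    unfold s56f_wc_beta
    rw [hRone g (hL₀ρ g hgL)]
    simp
  have hcc := s56f_cc_f1 hHit hCount hA1 d T hτD' (ψ := s56f_wc_theta R) hθτ0 hθτp hlam hφ hφD'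
    hφζ hθφ0
  have hβInH := hInH _ _ hθU hβgood
  obtain ⟨u₀, hu₀, hβu₀⟩ := hβne
  have hCCθ : ∀ h : GQ → k, s56f_wc_GoodFun (P.decompositionSubgroup ℚ) Nice (s56f_wc_theta R) h →
      ∃ c : k, ∀ u ∈ s56f_V1 P π₁, h u = c * s56f_wc_beta R u :=
    fun h hh => hcc.2 _ h hβInH (hInH _ h hθU hh) ⟨u₀, hu₀, hβu₀⟩
  have hθτa : s56f_wc_theta R τ = algebraMap (ZMod p) k aτ := hcc.1 _ hβInH ⟨u₀, hu₀, hβu₀⟩
  have hθτ : s56f_wc_theta R τ ≠ 1 := by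
    rw [hθτa]
    intro h1
    apply T.a_ne_one d hp2
    apply (algebraMap (ZMod p) k).injective
    rw [h1, map_one]
  -- **the only place where `5 ≤ p` is used**: lower-left entries of good cocycles vanish on `V₁`
  have hCCθ' : ∀ h : GQ → k,
      s56f_wc_GoodFun (P.decompositionSubgroup ℚ) Nice (s56f_wc_thetaInv R) h →
      ∀ u ∈ s56f_V1 P π₁, h u = 0 := by
    have hcc' := s56f_cc_f1 hHit hCount hA1 d T hτD' (ψ := s56f_wc_thetaInv R) hθ'τ0 hθ'τp hlam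
      hφ hφD' hφζ hθ'φ0
    intro h hh u hu
    by_contra hne
    have h1 := hcc'.1 h (hInH _ h hθ'U hh) ⟨u, hu, hne⟩
    have h3 := s56f_wc_theta_thetaInv htri hτD
    rw [h1, hθτa, ← map_mul, ← pow_two] at h3
    apply T.a_sq_ne_one d hA3 hp5
    apply (algebraMap (ZMod p) k).injective
    rw [h3, map_one]
  -- (L9)-(L11)
  have hFG : ∀ N', Nice N' → ∀ g ∈ P.decompositionSubgroup ℚ,
      ∃ (j : ℕ) (ι : GQ), ι ∈ P.inertiaSubgroupIn ℚ ∧ (φ ^ j * ι)⁻¹ * g ∈ N' := by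
    rintro N' ⟨L, hL, _, rfl⟩ g hg
    exact hFrobGen p hp P hP φ hφ L (hGfd L hL) g hg
  have hNice : ∀ N₁ N₂, Nice N₁ → Nice N₂ → Nice (N₁ ⊓ N₂) := by
    rintro N₁ N₂ ⟨L, hL, hLρ, rfl⟩ ⟨L', hL', _, rfl⟩
    refine ⟨L ⊔ L', hGsup L L' hL hL', fun σ hσ => hLρ σ ?_,
      IntermediateField.fixingSubgroup_sup.symm⟩
    rw [IntermediateField.fixingSubgroup_sup] at hσ
    exact hσ.1
  have hNR : ∀ N', Nice N' → ∀ n ∈ N', R n = 1 := by
    rintro N' ⟨L, _, hLρ, rfl⟩ n hn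
    exact hRone n (hLρ n hn)
  have he : (((p ^ 2 - 1 : ℕ)) : k) ≠ 0 := by
    rw [Ne, CharP.cast_eq_zero_iff k p]
    exact s56f_not_dvd_e
  have h2k : (2 : k) ≠ 0 := by
    have h : ((2 : ℕ) : k) ≠ 0 := by
      rw [Ne, CharP.cast_eq_zero_iff k p]
      intro hdvd
      have h1 := Nat.le_of_dvd (by norm_num) hdvd
      have h2 := hp.two_le
      omega
    exact_mod_cast h
  -- the abstract assembly
  obtain ⟨C₀, hC₀, hmain⟩ := s56f_wc_main_Q (R := R) (P.decompositionSubgroup ℚ)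
    (P.inertiaSubgroupIn ℚ) (s56f_V1 P π₁) hV₁I hID
    (fun g hg ι hι => s56f_wa_inertia_conj hg hι) τ φ hτI hφD hgenI (p ^ 2 - 1) he hexpI h2k htri
    hθV hθτ Nice hNR hFG hCC1 hCCθ (s56f_wc_GoodCoc (P.decompositionSubgroup ℚ) R Nice)
    (fun _ h => h) (fun _ _ a hC hC₀ => s56f_wc_GoodCoc.sub_smul hNice hC hC₀ a)
    (fun C hC => hCCθ' _ (s56f_wc_GoodCoc.lowerLeft (P.decompositionSubgroup ℚ) htri Nice hC))
  -- (L12) transport back to `End V`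
  have hTmρ : ∀ g, Tm.symm (R g) = ρ g := fun g => by rw [hR, AlgEquiv.symm_apply_apply]
  have htrace : ∀ f : Module.End k V, (Tm f).trace = LinearMap.trace k V f := fun f => by
    rw [LinearMap.trace_eq_matrix_trace k b f]
    rfl
  have hfwd : ∀ c, s56f_GoodCoc P Good ρ c →
      s56f_wc_GoodCoc (P.decompositionSubgroup ℚ) R Nice (fun g => Tm (c g)) := by
    intro c hc
    obtain ⟨L, hL, hLρ, hvan⟩ := hc.good
    refine ⟨fun g hg g' hg' => ?_, fun g hg => ?_, L.fixingSubgroup, ⟨L, hL, hLρ, rfl⟩,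
      fun g hg hgL => ?_⟩
    · show Tm (c (g * g')) = Tm (c g) + R g * Tm (c g') * R g⁻¹
      rw [hc.coc g hg g' hg', map_add, map_mul, map_mul]
      rfl
    · show (Tm (c g)).trace = 0
      rw [htrace, hc.tr g hg]
    · show Tm (c g) = 0
      rw [hvan g hg hgL, map_zero]
  refine ⟨fun g => Tm.symm (C₀ g), ?_, fun c hc => ?_⟩
  · rcases hC₀ with rfl | hC₀
    · exact ⟨fun _ _ _ _ => by simp, fun _ _ => by simp, F₀, hF₀fd, hF₀, fun _ _ _ => by simp⟩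
    · obtain ⟨hcoc, htr, N', ⟨L, hL, hLρ, rfl⟩, hvan⟩ := hC₀
      refine ⟨fun g hg g' hg' => ?_, fun g hg => ?_, L, hGfd L hL, hLρ, fun g hg hgL => ?_⟩
      · show Tm.symm (C₀ (g * g')) = Tm.symm (C₀ g) + ρ g * Tm.symm (C₀ g') * ρ g⁻¹
        rw [hcoc g hg g' hg', map_add, map_mul, map_mul, hTmρ, hTmρ]
      · show LinearMap.trace k V (Tm.symm (C₀ g)) = 0
        rw [← htrace, AlgEquiv.apply_symm_apply, htr g hg]
      · show Tm.symm (C₀ g) = 0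
        rw [hvan g hg hgL, map_zero]
  · obtain ⟨a, M, hM, hcM⟩ := hmain _ (hfwd c hc)
    refine ⟨a, Tm.symm M, ?_, fun σ hσ => ?_⟩
    · rw [← htrace, AlgEquiv.apply_symm_apply, hM]
    · have h1 : Tm (c σ) = a • C₀ σ + s56f_wc_cob R M σ := hcM σ (hID σ hσ)
      have h2 := congrArg Tm.symm h1
      rw [AlgEquiv.symm_apply_apply] at h2
      rw [h2]
      unfold s56f_wc_cob
      rw [map_add, map_smul, map_sub, map_mul, map_mul, hTmρ, hTmρ]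

end Fermat.Agent.Lib.S56
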