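/-
PROGRAMME W (S56), wall [W8-F3] (helper8): **the wild assembly, unconditional**:
`s56f_ifaceWildAsm : s56f_IfaceWildAsm`, wiring §A (`F3Alg`), helper5's §B (`F3Dict`), §K (`F3Tame`),
§W (`F3Wild`), helper6's `s56g_ifaceFrobGen` (`GDecomp`) and helper3's `s56f_ifaceDict` (`F3TameFinal`)
into `s56f_wildAsm`; and **(Elem)** `s56f_ifaceElem : s56f_IfaceElem` for `p ≥ 5`.
-/
import Mathlib
import Fermat.Agent.Lib.S56.F3WildAsm
import Fermat.Agent.Lib.S56.F3TameFinal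
import Fermat.Agent.Lib.S56.F3Wild

set_option autoImplicit false

noncomputable section

namespace Fermat.Agent.Lib.S56

/-- **THE WILD ASSEMBLY.** -/
theorem s56f_ifaceWildAsm : s56f_IfaceWildAsm :=
  s56f_wildAsm s56f_ifaceHit s56f_ifaceCount s56f_ifaceArith1 s56f_ifaceArith3 s56f_ifaceDict
    s56f_ifaceTameGen s56f_ifaceOmega s56f_ifaceK1 s56f_ifaceFrobPi s56f_ifaceTameMax
    s56f_ifaceTameRel s56g_ifaceFrobGen s56f_ifaceWildLine

/-- **(Elem)** the count at the cocycle level, `p ≥ 5`. -/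
theorem s56f_ifaceElem : s56f_IfaceElem := by
  intro p hpF k _ _ _ V _ _ _ ρ P Good hyp
  by_cases htame : ∀ σ ∈ P.inertiaSubgroupIn ℚ, ∃ m : ℕ, m.Coprime p ∧ ρ σ ^ m = 1
  · exact s56f_ifaceTameAsm p k V ρ P Good hyp htame
  · exact s56f_ifaceWildAsm p k V ρ P Good hyp htame

end Fermat.Agent.Lib.S56
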