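/-
Programme W (S56), wall [W8-F4] (helper5, prefix `s56o_`): **flat first-order deformations are "Borel" at `p`
as soon as `ρ̄|_{I_p}` has a non-trivial character on the line** (this is what rescues `p = 3`).

`s56o_flat_borel`: `p` odd, `k` finite of characteristic `p`, `c` a level-constant cocycle of `ad⁰ ρ̄` whose
first-order deformation `s56a_liftRep ρbar c hc` is flat at `p` (Prelude's `IsFlatAt`), `P | p`,
`L̄ ⊆ V̄` a `D_P`-stable subspace with `(σ − 1) V̄ ⊆ L̄` for `σ ∈ I_P`, and some `σ₀ ∈ I_P` acting on `L̄` by a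
scalar `a₀ ≠ 1`.  Then there is `X ∈ End V̄` with `(c σ + ρ̄σ X ρ̄σ⁻¹ − X) L̄ ⊆ L̄` for all `σ ∈ D_P`
(explicitly `X = a₀/(a₀−1) · c σ₀`): the lower-left class of `c|_{D_P}` is trivial.
-/
import Fermat.Agent.Lib.S56.FHopf
import Fermat.Agent.Lib.S56.ADefs

set_option autoImplicit false
set_option linter.style.haveILetI false

noncomputable section

namespace Fermat.Agent.Lib.S56

open groupCohomology
open Fermat.Agent.Lib.Frey

local notation "Ω" => AlgebraicClosure ℚ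
local notation "Γℚ" => (AlgebraicClosure ℚ ≃ₐ[ℚ] AlgebraicClosure ℚ)

/-- the Galois action on the underlying additive group. -/
def s56o_actOf {A : Type} [CommRing A] [IsLocalRing A] (ρ : GaloisRepAdic A) :
    Γℚ →* AddMonoid.End ρ.V where
  toFun σ := (ρ.ρ σ).toAddMonoidHom
  map_one' := by
    rw [map_one]
    rfl
  map_mul' σ τ := by
    rw [map_mul]
    rfl

theorem s56o_actOf_apply {A : Type} [CommRing A] [IsLocalRing A] (ρ : GaloisRepAdic A) (σ : Γℚ)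
    (x : ρ.V) : s56o_actOf ρ σ x = ρ.ρ σ x := rfl

/-- the Hopf-algebra model of a flat representation with finite coefficients. -/
theorem s56o_flat_model {A : Type} [CommRing A] [IsLocalRing A] [Finite A] (ρ : GaloisRepAdic A)
    {p : ℕ} (h : ρ.IsFlatAt p) :
    ∃ (H : Type) (_ : CommRing H) (_ : HopfAlgebra ↥(GaloisRep.ratLocalizedAt p) H),
      Module.Finite ↥(GaloisRep.ratLocalizedAt p) H ∧
      ∃ e : WithConv (H →ₐ[↥(GaloisRep.ratLocalizedAt p)] Ω) ≃ ρ.V,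
        (∀ f g : WithConv (H →ₐ[↥(GaloisRep.ratLocalizedAt p)] Ω), e (f * g) = e f + e g) ∧
        ∀ (σ : Γℚ) (f g : WithConv (H →ₐ[↥(GaloisRep.ratLocalizedAt p)] Ω)),
          (∀ h : H, g h = σ (f h)) → e g = s56o_actOf ρ σ (e f) := by
  obtain ⟨_, hI⟩ := h
  haveI : Finite (A ⧸ (⊥ : Ideal A)) :=
    Finite.of_surjective _ (Ideal.Quotient.mk_surjective (I := (⊥ : Ideal A)))
  obtain ⟨H, i1, i2, hfin, _, _, e, hmul, hequiv⟩ := hI ⊥ inferInstance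
  have hN : ((⊥ : Ideal A) • (⊤ : Submodule A ρ.V)) = ⊥ := Submodule.bot_smul _
  let q := Submodule.quotEquivOfEqBot _ hN
  refine ⟨H, i1, i2, hfin, e.trans q.toEquiv, fun f g => ?_, fun σ f g hfg => ?_⟩
  · show q (e (f * g)) = q (e f) + q (e g)
    rw [hmul, map_add]
  · show q (e g) = ρ.ρ σ (q (e f))
    rw [hequiv σ f g hfg]
    obtain ⟨y, hy⟩ := Submodule.Quotient.mk_surjective _ (e f)
    rw [← hy]
    rfl

/-! ### the core argument on `V̄ ⊕ ε V̄` -/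

section core

variable {k : Type} [Field k] [Finite k] {p : ℕ} (hp : p.Prime) (hp2 : p ≠ 2) (hpk : (p : k) = 0)
  (ρbar : ResidualGaloisRep k) (c : cocycles₁ (s56a_ad0 ρbar))
  {P : ValuationSubring Ω} (hP : P.LiesOverPrime p)
  {H : Type} [CommRing H] [HopfAlgebra ↥(GaloisRep.ratLocalizedAt p) H]
  [Module.Finite ↥(GaloisRep.ratLocalizedAt p) H]
  (e : WithConv (H →ₐ[↥(GaloisRep.ratLocalizedAt p)] Ω) ≃ s56a_VEps ρbar)
  (hmul : ∀ f g : WithConv (H →ₐ[↥(GaloisRep.ratLocalizedAt p)] Ω), e (f * g) = e f + e g)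
  (act : Γℚ →* AddMonoid.End (s56a_VEps ρbar))
  (hact : ∀ σ x, act σ x = s56a_VEps.mk (ρbar.ρ σ x.re)
      (ρbar.ρ σ x.im + s56a_toEnd ρbar (c.1 σ) (ρbar.ρ σ x.re)))
  (hequiv : ∀ (σ : Γℚ) (f g : WithConv (H →ₐ[↥(GaloisRep.ratLocalizedAt p)] Ω)),
    (∀ h : H, g h = σ (f h)) → e g = act σ (e f))

include hp hp2 hpk hP hmul hact hequiv in
theorem s56o_borel_core (Lbar : Submodule k ρbar.V)
    (hD : ∀ σ ∈ P.decompositionSubgroup ℚ, ∀ v ∈ Lbar, ρbar.ρ σ v ∈ Lbar)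
    (hI : ∀ σ ∈ P.inertiaSubgroupIn ℚ, ∀ v : ρbar.V, ρbar.ρ σ v - v ∈ Lbar)
    (σ₀ : Γℚ) (hσ₀ : σ₀ ∈ P.inertiaSubgroupIn ℚ) (a₀ : k) (ha₀ : a₀ ≠ 1)
    (hσ₀L : ∀ v ∈ Lbar, ρbar.ρ σ₀ v = a₀ • v) :
    ∀ σ ∈ P.decompositionSubgroup ℚ, ∀ v ∈ Lbar,
      (s56a_toEnd ρbar (c.1 σ) +
        ρbar.ρ σ * ((a₀ * (a₀ - 1)⁻¹) • s56a_toEnd ρbar (c.1 σ₀)) * ρbar.ρ σ⁻¹ -
        (a₀ * (a₀ - 1)⁻¹) • s56a_toEnd ρbar (c.1 σ₀)) v ∈ Lbar := by
  classical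
  haveI : Finite ρbar.V := Module.finite_of_finite k
  haveI : Finite (s56a_VEps ρbar) := inferInstanceAs (Finite (ρbar.V × ρbar.V))
  set U := s56o_redKer hp hP e hmul with hU
  set X₀ : Module.End k ρbar.V := (a₀ * (a₀ - 1)⁻¹) • s56a_toEnd ρbar (c.1 σ₀) with hX₀
  have ha1 : a₀ - 1 ≠ 0 := sub_ne_zero.mpr ha₀
  -- `Z = ε L̄`
  let Z : AddSubgroup (s56a_VEps ρbar) :=
    { carrier := {x | x.re = 0 ∧ x.im ∈ Lbar}
      zero_mem' := ⟨rfl, Lbar.zero_mem⟩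
      add_mem' := fun {x y} hx hy =>
        ⟨by rw [s56a_VEps.re_add, hx.1, hy.1, add_zero],
          by rw [s56a_VEps.im_add]; exact Lbar.add_mem hx.2 hy.2⟩
      neg_mem' := fun {x} hx =>
        ⟨by rw [s56a_VEps.re_neg, hx.1, neg_zero],
          by rw [s56a_VEps.im_neg]; exact Lbar.neg_mem hx.2⟩ }
  have hID : ∀ σ ∈ P.inertiaSubgroupIn ℚ, σ ∈ P.decompositionSubgroup ℚ := fun σ hσ =>
    (ford_inertia_spec P σ hσ).1
  have hZ : ∀ σ ∈ P.inertiaSubgroupIn ℚ, ∀ z ∈ Z, act σ z ∈ Z := by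
    intro σ hσ z hz
    rw [hact]
    refine ⟨?_, ?_⟩
    · show ρbar.ρ σ z.re = 0
      rw [hz.1, map_zero]
    · show ρbar.ρ σ z.im + s56a_toEnd ρbar (c.1 σ) (ρbar.ρ σ z.re) ∈ Lbar
      rw [hz.1, map_zero, map_zero, add_zero]
      exact hD σ (hID σ hσ) _ hz.2
  have hpV : ∀ v : ρbar.V, p • v = 0 := fun v => by
    rw [← Nat.cast_smul_eq_nsmul k, hpk, zero_smul]
  -- Claim A: `U ∩ ε V̄ ⊆ ε L̄`
  have hA : ∀ u ∈ U, u.re = 0 → u.im ∈ Lbar := by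
    intro u hu hre
    have hpu : p • u = 0 := Prod.ext (hpV u.1) (hpV u.2)
    have huZ : ∀ σ ∈ P.inertiaSubgroupIn ℚ, act σ u - u ∈ Z := by
      intro σ hσ
      rw [hact]
      refine ⟨?_, ?_⟩
      · show ρbar.ρ σ u.re - u.re = 0
        rw [hre, map_zero, sub_zero]
      · show ρbar.ρ σ u.im + s56a_toEnd ρbar (c.1 σ) (ρbar.ρ σ u.re) - u.im ∈ Lbar
        rw [hre, map_zero, map_zero, add_zero]
        exact hI σ hσ _
    exact (s56o_redKer_spq e hmul act hequiv hp hP hp2 Z hZ hu hpu huZ).2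
  -- the key elements `v + ε X₀ v`
  have hkey : ∀ v ∈ Lbar, s56a_VEps.mk v (X₀ v) ∈ U := by
    intro v hv
    let x₀ : s56a_VEps ρbar := s56a_VEps.mk ((a₀ - 1)⁻¹ • v) 0
    have h1 : act σ₀ x₀ - x₀ = s56a_VEps.mk v (X₀ v) := by
      rw [hact]
      apply s56a_VEps.ext
      · show ρbar.ρ σ₀ ((a₀ - 1)⁻¹ • v) - (a₀ - 1)⁻¹ • v = v
        rw [hσ₀L _ (Lbar.smul_mem _ hv), smul_smul, ← sub_smul]
        have : a₀ * (a₀ - 1)⁻¹ - (a₀ - 1)⁻¹ = 1 := by field_simp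
        rw [this, one_smul]
      · show ρbar.ρ σ₀ 0 + s56a_toEnd ρbar (c.1 σ₀) (ρbar.ρ σ₀ ((a₀ - 1)⁻¹ • v)) - 0 = X₀ v
        rw [map_zero, zero_add, sub_zero, hσ₀L _ (Lbar.smul_mem _ hv), smul_smul, map_smul]
        rfl
    rw [← h1]
    exact s56o_redKer_inertia e hmul act hequiv hp hP hσ₀ x₀
  intro σ hσ v' hv'
  have hσ' : σ⁻¹ ∈ P.decompositionSubgroup ℚ := inv_mem hσ
  set v := ρbar.ρ σ⁻¹ v' with hv
  have hvL : v ∈ Lbar := hD σ⁻¹ hσ' v' hv'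
  have h1 : act σ (s56a_VEps.mk v (X₀ v)) ∈ U :=
    s56o_redKer_decomp e hmul act hequiv hp hP hσ (hkey v hvL)
  have h2 := U.sub_mem h1 (hkey v' hv')
  have hσv : ρbar.ρ σ v = v' := by
    rw [hv, ← Module.End.mul_apply, s56a_rho_mul_inv, Module.End.one_apply]
  rw [hact] at h2
  have h3 := hA _ h2 (by
    show ρbar.ρ σ v - v' = 0
    rw [hσv, sub_self])
  have h4 : ρbar.ρ σ (X₀ v) + s56a_toEnd ρbar (c.1 σ) (ρbar.ρ σ v) - X₀ v' =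
      (s56a_toEnd ρbar (c.1 σ) + ρbar.ρ σ * X₀ * ρbar.ρ σ⁻¹ - X₀) v' := by
    rw [hσv, LinearMap.sub_apply, LinearMap.add_apply, Module.End.mul_apply,
      Module.End.mul_apply]
    abel
  rw [← h4]
  exact h3

include hp hp2 hpk hP hmul hact hequiv in
/-- **no wild inertia on a flat deformation whose inertia-trivial part absorbs it**: if `I_P` acts trivially
on `L̄` and `σ ∈ I_P` has `(σ − 1) V̄ ⊆ L̄`, then `ρ̄ σ = 1`. -/
theorem s56o_wild_core (Lbar : Submodule k ρbar.V)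
    (hLI : ∀ τ ∈ P.inertiaSubgroupIn ℚ, ∀ l ∈ Lbar, ρbar.ρ τ l = l)
    (σ : Γℚ) (hσ : σ ∈ P.inertiaSubgroupIn ℚ) (hσL : ∀ v : ρbar.V, ρbar.ρ σ v - v ∈ Lbar) :
    ρbar.ρ σ = 1 := by
  classical
  haveI : Finite ρbar.V := Module.finite_of_finite k
  haveI : Finite (s56a_VEps ρbar) := inferInstanceAs (Finite (ρbar.V × ρbar.V))
  have hpV : ∀ v : ρbar.V, p • v = 0 := fun v => by
    rw [← Nat.cast_smul_eq_nsmul k, hpk, zero_smul]
  apply LinearMap.ext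
  intro v
  rw [Module.End.one_apply]
  set l := ρbar.ρ σ v - v with hl
  have hlL : l ∈ Lbar := hσL v
  let x : s56a_VEps ρbar := s56a_VEps.mk 0 v
  have hu : act σ x - x ∈ s56o_redKer hp hP e hmul :=
    s56o_redKer_inertia e hmul act hequiv hp hP hσ x
  have hux : act σ x - x = s56a_VEps.mk 0 l := by
    rw [hact]
    apply s56a_VEps.ext
    · show ρbar.ρ σ 0 - 0 = 0
      rw [map_zero, sub_zero]
    · show ρbar.ρ σ v + s56a_toEnd ρbar (c.1 σ) (ρbar.ρ σ 0) - v = l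
      rw [map_zero, map_zero, add_zero]
  rw [hux] at hu
  have h0 : s56a_VEps.mk 0 l ∈ (⊥ : AddSubgroup (s56a_VEps ρbar)) := by
    refine s56o_redKer_spq e hmul act hequiv hp hP hp2 ⊥ (fun τ _ z hz => ?_) hu
      (Prod.ext (hpV _) (hpV _)) (fun τ hτ => ?_)
    · rw [AddSubgroup.mem_bot] at hz ⊢
      rw [hz, map_zero]
    · rw [AddSubgroup.mem_bot, hact]
      apply s56a_VEps.ext
      · show ρbar.ρ τ 0 - 0 = 0
        rw [map_zero, sub_zero]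
      · show ρbar.ρ τ l + s56a_toEnd ρbar (c.1 τ) (ρbar.ρ τ 0) - l = 0
        rw [map_zero, map_zero, add_zero, hLI τ hτ l hlL, sub_self]
  rw [AddSubgroup.mem_bot] at h0
  have h1 : l = 0 := congrArg s56a_VEps.im h0
  exact sub_eq_zero.mp h1

include hp hp2 hpk hP hmul hact hequiv in
/-- **flat + ordinary shape ⇒ ordinary**: with `X₀ = a₀/(a₀−1)·c σ₀`, the cocycle `c' = c + ∂X₀` is Borel-valued
on `D_P` AND maps `V̄` into `L̄` on `I_P` (the reduction kernel of `V̄ ⊕ εV̄` is exactly the line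
`{v + ε(X₀ v + l)}`, and inertia acts trivially modulo the reduction kernel). -/
theorem s56o_ord_core (Lbar : Submodule k ρbar.V)
    (hD : ∀ σ ∈ P.decompositionSubgroup ℚ, ∀ v ∈ Lbar, ρbar.ρ σ v ∈ Lbar)
    (hI : ∀ σ ∈ P.inertiaSubgroupIn ℚ, ∀ v : ρbar.V, ρbar.ρ σ v - v ∈ Lbar)
    (σ₀ : Γℚ) (hσ₀ : σ₀ ∈ P.inertiaSubgroupIn ℚ) (a₀ : k) (ha₀ : a₀ ≠ 1)
    (hσ₀L : ∀ v ∈ Lbar, ρbar.ρ σ₀ v = a₀ • v) :
    ∀ σ ∈ P.inertiaSubgroupIn ℚ, ∀ v : ρbar.V,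
      (s56a_toEnd ρbar (c.1 σ) +
        ρbar.ρ σ * ((a₀ * (a₀ - 1)⁻¹) • s56a_toEnd ρbar (c.1 σ₀)) * ρbar.ρ σ⁻¹ -
        (a₀ * (a₀ - 1)⁻¹) • s56a_toEnd ρbar (c.1 σ₀)) v ∈ Lbar := by
  classical
  haveI : Finite ρbar.V := Module.finite_of_finite k
  haveI : Finite (s56a_VEps ρbar) := inferInstanceAs (Finite (ρbar.V × ρbar.V))
  set U := s56o_redKer hp hP e hmul with hU
  set X₀ : Module.End k ρbar.V := (a₀ * (a₀ - 1)⁻¹) • s56a_toEnd ρbar (c.1 σ₀) with hX₀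
  have ha1 : a₀ - 1 ≠ 0 := sub_ne_zero.mpr ha₀
  have hID : ∀ σ ∈ P.inertiaSubgroupIn ℚ, σ ∈ P.decompositionSubgroup ℚ := fun σ hσ =>
    (ford_inertia_spec P σ hσ).1
  have hpV : ∀ v : ρbar.V, p • v = 0 := fun v => by
    rw [← Nat.cast_smul_eq_nsmul k, hpk, zero_smul]
  -- `Z = ε L̄` and `Y = π⁻¹ L̄`
  let Z : AddSubgroup (s56a_VEps ρbar) :=
    { carrier := {x | x.re = 0 ∧ x.im ∈ Lbar}
      zero_mem' := ⟨rfl, Lbar.zero_mem⟩
      add_mem' := fun {x y} hx hy =>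
        ⟨by rw [s56a_VEps.re_add, hx.1, hy.1, add_zero],
          by rw [s56a_VEps.im_add]; exact Lbar.add_mem hx.2 hy.2⟩
      neg_mem' := fun {x} hx =>
        ⟨by rw [s56a_VEps.re_neg, hx.1, neg_zero],
          by rw [s56a_VEps.im_neg]; exact Lbar.neg_mem hx.2⟩ }
  let Y : AddSubgroup (s56a_VEps ρbar) :=
    { carrier := {x | x.re ∈ Lbar}
      zero_mem' := Lbar.zero_mem
      add_mem' := fun {x y} hx hy => by
        show (x + y).re ∈ Lbar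
        rw [s56a_VEps.re_add]
        exact Lbar.add_mem hx hy
      neg_mem' := fun {x} hx => by
        show (-x).re ∈ Lbar
        rw [s56a_VEps.re_neg]
        exact Lbar.neg_mem hx }
  have hZ : ∀ σ ∈ P.inertiaSubgroupIn ℚ, ∀ z ∈ Z, act σ z ∈ Z := by
    intro σ hσ z hz
    rw [hact]
    refine ⟨?_, ?_⟩
    · show ρbar.ρ σ z.re = 0
      rw [hz.1, map_zero]
    · show ρbar.ρ σ z.im + s56a_toEnd ρbar (c.1 σ) (ρbar.ρ σ z.re) ∈ Lbar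
      rw [hz.1, map_zero, map_zero, add_zero]
      exact hD σ (hID σ hσ) _ hz.2
  have hY : ∀ σ ∈ P.inertiaSubgroupIn ℚ, ∀ z ∈ Y, act σ z ∈ Y := by
    intro σ hσ z hz
    rw [hact]
    show ρbar.ρ σ z.re ∈ Lbar
    exact hD σ (hID σ hσ) _ hz
  -- `U ⊆ Y`
  have hUY : ∀ u ∈ U, u.re ∈ Lbar := by
    intro u hu
    have hpu : p • u = 0 := Prod.ext (hpV u.1) (hpV u.2)
    have huY : ∀ σ ∈ P.inertiaSubgroupIn ℚ, act σ u - u ∈ Y := by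
      intro σ hσ
      rw [hact]
      show ρbar.ρ σ u.re - u.re ∈ Lbar
      exact hI σ hσ _
    exact s56o_redKer_spq e hmul act hequiv hp hP hp2 Y hY hu hpu huY
  -- `U ∩ ε V̄ ⊆ ε L̄`
  have hA : ∀ u ∈ U, u.re = 0 → u.im ∈ Lbar := by
    intro u hu hre
    have hpu : p • u = 0 := Prod.ext (hpV u.1) (hpV u.2)
    have huZ : ∀ σ ∈ P.inertiaSubgroupIn ℚ, act σ u - u ∈ Z := by
      intro σ hσ
      rw [hact]
      refine ⟨?_, ?_⟩
      · show ρbar.ρ σ u.re - u.re = 0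
        rw [hre, map_zero, sub_zero]
      · show ρbar.ρ σ u.im + s56a_toEnd ρbar (c.1 σ) (ρbar.ρ σ u.re) - u.im ∈ Lbar
        rw [hre, map_zero, map_zero, add_zero]
        exact hI σ hσ _
    exact (s56o_redKer_spq e hmul act hequiv hp hP hp2 Z hZ hu hpu huZ).2
  have hkey : ∀ v ∈ Lbar, s56a_VEps.mk v (X₀ v) ∈ U := by
    intro v hv
    let x₀ : s56a_VEps ρbar := s56a_VEps.mk ((a₀ - 1)⁻¹ • v) 0
    have h1 : act σ₀ x₀ - x₀ = s56a_VEps.mk v (X₀ v) := by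
      rw [hact]
      apply s56a_VEps.ext
      · show ρbar.ρ σ₀ ((a₀ - 1)⁻¹ • v) - (a₀ - 1)⁻¹ • v = v
        rw [hσ₀L _ (Lbar.smul_mem _ hv), smul_smul, ← sub_smul]
        have : a₀ * (a₀ - 1)⁻¹ - (a₀ - 1)⁻¹ = 1 := by field_simp
        rw [this, one_smul]
      · show ρbar.ρ σ₀ 0 + s56a_toEnd ρbar (c.1 σ₀) (ρbar.ρ σ₀ ((a₀ - 1)⁻¹ • v)) - 0 = X₀ v
        rw [map_zero, zero_add, sub_zero, hσ₀L _ (Lbar.smul_mem _ hv), smul_smul, map_smul]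
        rfl
    rw [← h1]
    exact s56o_redKer_inertia e hmul act hequiv hp hP hσ₀ x₀
  -- `U ⊆ {y | y.im − X₀ y.re ∈ L̄}`
  have hUX : ∀ u ∈ U, u.im - X₀ u.re ∈ Lbar := by
    intro u hu
    have h1 := U.sub_mem hu (hkey u.re (hUY u hu))
    exact hA _ h1 (by
      show u.re - u.re = 0
      rw [sub_self])
  intro σ hσ v'
  set v := ρbar.ρ σ⁻¹ v' with hv
  have hσv : ρbar.ρ σ v = v' := by
    rw [hv, ← Module.End.mul_apply, s56a_rho_mul_inv, Module.End.one_apply]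
  have h1 : act σ (s56a_VEps.mk v 0) - s56a_VEps.mk v 0 ∈ U :=
    s56o_redKer_inertia e hmul act hequiv hp hP hσ _
  have h2 := hUX _ h1
  rw [hact] at h2
  have h3 : ρbar.ρ σ 0 + s56a_toEnd ρbar (c.1 σ) (ρbar.ρ σ v) - 0 - X₀ (ρbar.ρ σ v - v) ∈ Lbar := h2
  rw [map_zero, zero_add, sub_zero, hσv, map_sub] at h3
  -- `c σ v' − X₀ v' + X₀ v ∈ L̄`, and `ρ̄σ X₀ v − X₀ v ∈ L̄`
  have h4 : ρbar.ρ σ (X₀ v) - X₀ v ∈ Lbar := hI σ hσ _
  have h5 : (s56a_toEnd ρbar (c.1 σ) + ρbar.ρ σ * X₀ * ρbar.ρ σ⁻¹ - X₀) v' =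
      (s56a_toEnd ρbar (c.1 σ) v' - (X₀ v' - X₀ v)) + (ρbar.ρ σ (X₀ v) - X₀ v) := by
    rw [LinearMap.sub_apply, LinearMap.add_apply, Module.End.mul_apply, Module.End.mul_apply]
    abel
  rw [h5]
  exact Lbar.add_mem h3 h4

end core

/-! ### the theorem for the Prelude's `IsFlatAt` -/

/-- **flat ⇒ Borel at `p`** (the lower-left class of a flat first-order deformation vanishes on `D_P` as soon
as inertia acts on the line through a non-trivial character). -/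
theorem s56o_flat_borel {k : Type} [Field k] [Finite k] {p : ℕ} (hp : p.Prime) (hp2 : p ≠ 2)
    (hpk : (p : k) = 0) (ρbar : ResidualGaloisRep k) (c : cocycles₁ (s56a_ad0 ρbar))
    (hc : s56a_IsLevel c.1) (hflat : (s56a_liftRep ρbar c hc).IsFlatAt p)
    (P : ValuationSubring Ω) (hP : P.LiesOverPrime p) (Lbar : Submodule k ρbar.V)
    (hD : ∀ σ ∈ P.decompositionSubgroup ℚ, ∀ v ∈ Lbar, ρbar.ρ σ v ∈ Lbar)
    (hI : ∀ σ ∈ P.inertiaSubgroupIn ℚ, ∀ v : ρbar.V, ρbar.ρ σ v - v ∈ Lbar)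
    (σ₀ : Γℚ) (hσ₀ : σ₀ ∈ P.inertiaSubgroupIn ℚ) (a₀ : k) (ha₀ : a₀ ≠ 1)
    (hσ₀L : ∀ v ∈ Lbar, ρbar.ρ σ₀ v = a₀ • v) :
    ∃ X : Module.End k ρbar.V, ∀ σ ∈ P.decompositionSubgroup ℚ, ∀ v ∈ Lbar,
      (s56a_toEnd ρbar (c.1 σ) + ρbar.ρ σ * X * ρbar.ρ σ⁻¹ - X) v ∈ Lbar := by
  haveI : Finite (DualNumber k) := inferInstanceAs (Finite (k × k))
  obtain ⟨H, i1, i2, hfin, e, hmul, hequiv⟩ := s56o_flat_model (s56a_liftRep ρbar c hc) hflat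
  exact ⟨(a₀ * (a₀ - 1)⁻¹) • s56a_toEnd ρbar (c.1 σ₀),
    s56o_borel_core hp hp2 hpk ρbar c hP e hmul (s56o_actOf (s56a_liftRep ρbar c hc))
      (fun σ x => s56a_liftRep_apply ρbar c hc σ x) hequiv Lbar hD hI σ₀ hσ₀ a₀ ha₀ hσ₀L⟩

/-- **a residual representation with a flat first-order deformation has no "wild" inertia of shape
`(1 *; 0 ω)`**: if `I_P` acts trivially on the subspace `L̄` and `σ ∈ I_P` satisfies `(σ − 1) V̄ ⊆ L̄`,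
then `ρ̄ σ = 1`. -/
theorem s56o_flat_wild_trivial {k : Type} [Field k] [Finite k] {p : ℕ} (hp : p.Prime) (hp2 : p ≠ 2)
    (hpk : (p : k) = 0) (ρbar : ResidualGaloisRep k) (c : cocycles₁ (s56a_ad0 ρbar))
    (hc : s56a_IsLevel c.1) (hflat : (s56a_liftRep ρbar c hc).IsFlatAt p)
    (P : ValuationSubring Ω) (hP : P.LiesOverPrime p) (Lbar : Submodule k ρbar.V)
    (hLI : ∀ τ ∈ P.inertiaSubgroupIn ℚ, ∀ l ∈ Lbar, ρbar.ρ τ l = l)
    (σ : Γℚ) (hσ : σ ∈ P.inertiaSubgroupIn ℚ) (hσL : ∀ v : ρbar.V, ρbar.ρ σ v - v ∈ Lbar) :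
    ρbar.ρ σ = 1 := by
  haveI : Finite (DualNumber k) := inferInstanceAs (Finite (k × k))
  obtain ⟨H, i1, i2, hfin, e, hmul, hequiv⟩ := s56o_flat_model (s56a_liftRep ρbar c hc) hflat
  exact s56o_wild_core hp hp2 hpk ρbar c hP e hmul (s56o_actOf (s56a_liftRep ρbar c hc))
    (fun σ x => s56a_liftRep_apply ρbar c hc σ x) hequiv Lbar hLI σ hσ hσL

/-- **flat + ordinary shape ⇒ ordinary** (Selmer-type): there is `X` such that `c' = c + ∂X` is Borel-valued on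
`D_P` and maps `V̄` into `L̄` on `I_P` (so, being of trace `0`, `c' σ ∈ Hom(V̄/L̄, L̄)` for `σ ∈ I_P`: the two
diagonal characters of the deformation are unramified twists of those of `ρ̄`). -/
theorem s56o_flat_ord {k : Type} [Field k] [Finite k] {p : ℕ} (hp : p.Prime) (hp2 : p ≠ 2)
    (hpk : (p : k) = 0) (ρbar : ResidualGaloisRep k) (c : cocycles₁ (s56a_ad0 ρbar))
    (hc : s56a_IsLevel c.1) (hflat : (s56a_liftRep ρbar c hc).IsFlatAt p)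
    (P : ValuationSubring Ω) (hP : P.LiesOverPrime p) (Lbar : Submodule k ρbar.V)
    (hD : ∀ σ ∈ P.decompositionSubgroup ℚ, ∀ v ∈ Lbar, ρbar.ρ σ v ∈ Lbar)
    (hI : ∀ σ ∈ P.inertiaSubgroupIn ℚ, ∀ v : ρbar.V, ρbar.ρ σ v - v ∈ Lbar)
    (σ₀ : Γℚ) (hσ₀ : σ₀ ∈ P.inertiaSubgroupIn ℚ) (a₀ : k) (ha₀ : a₀ ≠ 1)
    (hσ₀L : ∀ v ∈ Lbar, ρbar.ρ σ₀ v = a₀ • v) :
    ∃ X : Module.End k ρbar.V,
      (∀ σ ∈ P.decompositionSubgroup ℚ, ∀ v ∈ Lbar,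
        (s56a_toEnd ρbar (c.1 σ) + ρbar.ρ σ * X * ρbar.ρ σ⁻¹ - X) v ∈ Lbar) ∧
      ∀ σ ∈ P.inertiaSubgroupIn ℚ, ∀ v : ρbar.V,
        (s56a_toEnd ρbar (c.1 σ) + ρbar.ρ σ * X * ρbar.ρ σ⁻¹ - X) v ∈ Lbar := by
  haveI : Finite (DualNumber k) := inferInstanceAs (Finite (k × k))
  obtain ⟨H, i1, i2, hfin, e, hmul, hequiv⟩ := s56o_flat_model (s56a_liftRep ρbar c hc) hflat
  exact ⟨(a₀ * (a₀ - 1)⁻¹) • s56a_toEnd ρbar (c.1 σ₀),
    s56o_borel_core hp hp2 hpk ρbar c hP e hmul (s56o_actOf (s56a_liftRep ρbar c hc))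
      (fun σ x => s56a_liftRep_apply ρbar c hc σ x) hequiv Lbar hD hI σ₀ hσ₀ a₀ ha₀ hσ₀L,
    s56o_ord_core hp hp2 hpk ρbar c hP e hmul (s56o_actOf (s56a_liftRep ρbar c hc))
      (fun σ x => s56a_liftRep_apply ρbar c hc σ x) hequiv Lbar hD hI σ₀ hσ₀ a₀ ha₀ hσ₀L⟩

end Fermat.Agent.Lib.S56
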