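/-
Programme W (S56), wall [W8-F4] (helper5, prefix `s56o_`): **Artin's lemma for equivariant functions.**

`Ω` a field, `φ g : Ω →+* Ω` a family of ring endomorphisms, `a g : W → W` a family of surjections,
`c j : W → Ω` finitely many functions with `c j (a g w) = φ g (c j w)`.  If the `c j` are linearly independent
over (a set `F` containing) the common fixed points of the `φ g`, they are linearly independent over `Ω`.
-/
import Mathlib

set_option autoImplicit false

namespace Fermat.Agent.Lib.S56

open Finset

theorem s56o_artin {Ω : Type*} [Field Ω] {G W ι : Type*} [Fintype ι] [DecidableEq ι]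
    (φ : G → Ω →+* Ω) (a : G → W → W) (ha : ∀ g, Function.Surjective (a g))
    (c : ι → W → Ω) (hc : ∀ j g w, c j (a g w) = φ g (c j w))
    (F : Set Ω) (hF : ∀ x : Ω, (∀ g, φ g x = x) → x ∈ F)
    (hind : ∀ l : ι → Ω, (∀ j, l j ∈ F) → (∀ w, ∑ j, l j * c j w = 0) → l = 0) :
    ∀ l : ι → Ω, (∀ w, ∑ j, l j * c j w = 0) → l = 0 := by
  classical
  have key : ∀ n : ℕ, ∀ l : ι → Ω, (univ.filter fun j => l j ≠ 0).card ≤ n →
      (∀ w, ∑ j, l j * c j w = 0) → l = 0 := by
    intro n
    induction n with
    | zero =>
      intro l hcard _
      funext j
      by_contra hj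
      have : j ∈ univ.filter fun j => l j ≠ 0 := by
        rw [mem_filter]; exact ⟨mem_univ _, hj⟩
      have := card_pos.mpr ⟨j, this⟩
      omega
    | succ n ih =>
      intro l hcard hrel
      by_contra hl
      obtain ⟨j₀, hj₀⟩ : ∃ j₀, l j₀ ≠ 0 := by
        by_contra hcon
        push Not at hcon
        exact hl (funext hcon)
      -- normalise
      set m : ι → Ω := fun j => l j / l j₀ with hm
      have hm0 : m j₀ = 1 := div_self hj₀
      have hmrel : ∀ w, ∑ j, m j * c j w = 0 := by
        intro w
        have h1 : ∑ j, m j * c j w = (∑ j, l j * c j w) / l j₀ := by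
          rw [sum_div]
          refine sum_congr rfl fun j _ => ?_
          rw [hm]; ring
        rw [h1, hrel w, zero_div]
      have hmsupp : ∀ j, l j = 0 → m j = 0 := fun j hj => by
        rw [hm]; simp only; rw [hj, zero_div]
      -- every `φ g` fixes the coefficients
      have hfix : ∀ g j, φ g (m j) = m j := by
        intro g
        set d : ι → Ω := fun j => φ g (m j) - m j with hd
        have hdrel : ∀ w, ∑ j, d j * c j w = 0 := by
          intro w
          obtain ⟨w', rfl⟩ := ha g w
          have h1 : ∑ j, φ g (m j) * c j (a g w') = φ g (∑ j, m j * c j w') := by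
            rw [map_sum]
            refine sum_congr rfl fun j _ => ?_
            rw [map_mul, hc]
          have h2 : ∑ j, d j * c j (a g w') =
              ∑ j, φ g (m j) * c j (a g w') - ∑ j, m j * c j (a g w') := by
            rw [← sum_sub_distrib]
            refine sum_congr rfl fun j _ => ?_
            rw [hd]; ring
          rw [h2, h1, hmrel w', map_zero, hmrel, sub_zero]
        have hdcard : (univ.filter fun j => d j ≠ 0).card ≤ n := by
          have hsub : (univ.filter fun j => d j ≠ 0) ⊆ (univ.filter fun j => l j ≠ 0).erase j₀ := by
            intro j hj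
            rw [mem_filter] at hj
            rw [mem_erase, mem_filter]
            refine ⟨?_, mem_univ _, ?_⟩
            · rintro rfl
              apply hj.2
              rw [hd]; simp only; rw [hm0, map_one, sub_self]
            · intro hlj
              apply hj.2
              rw [hd]; simp only; rw [hmsupp j hlj, map_zero, sub_self]
          have h3 := card_le_card hsub
          have h4 : j₀ ∈ univ.filter fun j => l j ≠ 0 := by
            rw [mem_filter]; exact ⟨mem_univ _, hj₀⟩
          rw [card_erase_of_mem h4] at h3
          omega
        have hd0 := ih d hdcard hdrel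
        intro j
        have := congrFun hd0 j
        rw [hd] at this
        exact sub_eq_zero.mp this
      have hmF : ∀ j, m j ∈ F := fun j => hF _ fun g => hfix g j
      have := congrFun (hind m hmF hmrel) j₀
      rw [hm0] at this
      exact one_ne_zero this
  intro l hrel
  exact key _ l le_rfl hrel

end Fermat.Agent.Lib.S56
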