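/-
Programme W (S56), wall [W8-F4] (helper5, prefix `s56o_`): **function orders** over
`O = P ∩ ℚ̄^{I_P}` (`s56o_Our P`): finitely many `P`-valued, `I_P`-equivariant functions `a i : W → ℚ̄` on a
finite abelian group `W` with an action of `G_ℚ`, closed under "comultiplication" and spanning all functions
over `ℚ̄` (this is what a finite Hopf algebra over `ℤ_(p)` with point group `W` gives, `FApp.lean`).

This file: the `O`-span `𝒜`, its elementary closure properties, and an `O`-basis of `𝒜` which is linearly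
independent over `ℚ̄` (`s56o_exists_basis`, by Artin's lemma).
-/
import Fermat.Agent.Lib.S56.FArith
import Fermat.Agent.Lib.S56.FArtin

set_option autoImplicit false
set_option linter.style.haveILetI false

noncomputable section

namespace Fermat.Agent.Lib.S56

open Finset

local notation "Ω" => AlgebraicClosure ℚ
local notation "Γℚ" => (AlgebraicClosure ℚ ≃ₐ[ℚ] AlgebraicClosure ℚ)

/-- the `O`-span of a family of functions. -/
def s56o_span (P : ValuationSubring Ω) {W ι : Type} (a : ι → W → Ω) :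
    Submodule ↥(s56o_Our P) (W → Ω) :=
  Submodule.span ↥(s56o_Our P) (Set.range a)

/-- **a function order** on `W` (over `O = s56o_Our P`). -/
structure s56o_FnOrder (P : ValuationSubring Ω) (W ι : Type) [AddCommGroup W] [Fintype ι] where
  /-- the Galois action on the points -/
  act : Γℚ →* AddMonoid.End W
  /-- the generating functions -/
  a : ι → W → Ω
  integral : ∀ i w, a i w ∈ P
  equivariant : ∀ i, ∀ σ ∈ P.inertiaSubgroupIn ℚ, ∀ w, a i (act σ w) = σ (a i w)
  comul : ∀ i, ∃ η : ι → W → Ω, (∀ i', η i' ∈ s56o_span P a) ∧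
    ∀ w v, a i (w + v) = ∑ i', η i' v * a i' w
  span : ∀ f : W → Ω, ∃ l : ι → Ω, ∀ w, f w = ∑ i, l i * a i w

variable {p : ℕ} {P : ValuationSubring Ω} {W ι : Type} [AddCommGroup W] [Fintype ι]

omit [AddCommGroup W] in
theorem s56o_smul_apply (x : ↥(s56o_Our P)) (f : W → Ω) (w : W) : (x • f) w = (x : Ω) * f w := rfl

namespace s56o_FnOrder

variable (F : s56o_FnOrder P W ι)

/-- the `O`-span `𝒜` of the generating functions. -/
def A : Submodule ↥(s56o_Our P) (W → Ω) := s56o_span P F.a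

theorem a_mem (i : ι) : F.a i ∈ F.A := Submodule.subset_span ⟨i, rfl⟩

theorem act_inv_apply (σ : Γℚ) (w : W) : F.act σ (F.act σ⁻¹ w) = w := by
  have h : F.act σ * F.act σ⁻¹ = 1 := by rw [← map_mul, mul_inv_cancel, map_one]
  exact congrArg (fun f : AddMonoid.End W => f w) h

theorem act_surjective (σ : Γℚ) : Function.Surjective (F.act σ) :=
  fun w => ⟨F.act σ⁻¹ w, F.act_inv_apply σ w⟩

theorem act_injective (σ : Γℚ) : Function.Injective (F.act σ) := by
  intro w w' h
  have := congrArg (F.act σ⁻¹) h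
  have h1 : ∀ v, F.act σ⁻¹ (F.act σ v) = v := fun v => by
    have := F.act_inv_apply σ⁻¹ v
    rwa [inv_inv] at this
  rwa [h1, h1] at this

/-- elements of `𝒜` are `P`-valued. -/
theorem A_integral {f : W → Ω} (hf : f ∈ F.A) (w : W) : f w ∈ P := by
  induction hf using Submodule.span_induction with
  | mem f hf =>
    obtain ⟨i, rfl⟩ := hf
    exact F.integral i w
  | zero => exact P.zero_mem
  | add f g _ _ hf hg => exact P.add_mem _ _ hf hg
  | smul x f _ hf => exact P.mul_mem _ _ x.2.1 hf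

/-- elements of `𝒜` are `I_P`-equivariant. -/
theorem A_equivariant {f : W → Ω} (hf : f ∈ F.A) (σ : Γℚ) (hσ : σ ∈ P.inertiaSubgroupIn ℚ)
    (w : W) : f (F.act σ w) = σ (f w) := by
  induction hf using Submodule.span_induction with
  | mem f hf =>
    obtain ⟨i, rfl⟩ := hf
    exact F.equivariant i σ hσ w
  | zero => exact (map_zero σ).symm
  | add f g _ _ hf hg =>
    show f _ + g _ = σ (f w + g w)
    rw [map_add, hf, hg]
  | smul x f _ hf =>
    show (x : Ω) * f _ = σ ((x : Ω) * f w)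
    rw [map_mul, hf, x.2.2 σ hσ]

end s56o_FnOrder

section basis

variable (hp : p.Prime) (hP : P.LiesOverPrime p)
include hp hP

/-- clearing denominators: an `I_P`-fixed element of `ℚ̄` becomes an element of `O` after multiplication by
a power of `p`. -/
theorem s56o_exists_pow_mul_mem (x : Ω) (hx : ∀ σ ∈ P.inertiaSubgroupIn ℚ, σ x = x) :
    ∃ N : ℕ, ∀ M : ℕ, N ≤ M → (p : Ω) ^ M * x ∈ s56o_Our P := by
  have hpO : ∀ M : ℕ, (p : Ω) ^ M ∈ s56o_Our P := fun M =>
    (s56o_Our P).pow_mem (s56o_p_mem_Our P hP) M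
  rcases P.mem_or_inv_mem x with hxP | hxP
  · exact ⟨0, fun M _ => (s56o_Our P).mul_mem (hpO M) ⟨hxP, hx⟩⟩
  · by_cases hx0 : x = 0
    · exact ⟨0, fun M _ => by rw [hx0, mul_zero]; exact (s56o_Our P).zero_mem⟩
    have hinvO : x⁻¹ ∈ s56o_Our P := ⟨hxP, fun σ hσ => by rw [map_inv₀, hx σ hσ]⟩
    obtain ⟨n, u, hu, hu', hxu⟩ := s56o_Our_factor hp P hP x⁻¹ hinvO (inv_ne_zero hx0)
    refine ⟨n, fun M hM => ?_⟩
    obtain ⟨k, rfl⟩ := Nat.exists_eq_add_of_le hM
    have hp0 := s56o_p_ne_zero hp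
    have hu0 : u ≠ 0 := by
      rintro rfl
      rw [mul_zero] at hxu
      exact inv_ne_zero hx0 hxu
    have h1 : x = ((p : Ω) ^ n)⁻¹ * u⁻¹ := by
      rw [← mul_inv, ← hxu, inv_inv]
    have h2 : (p : Ω) ^ (n + k) * x = (p : Ω) ^ k * u⁻¹ := by
      rw [h1, pow_add]
      field_simp
    rw [h2]
    exact (s56o_Our P).mul_mem (hpO k) hu'

/-- `O` is `p`-adically separated. -/
theorem s56o_Our_separated (x : Ω) (hx : ∀ n : ℕ, ∃ y ∈ s56o_Our P, x = (p : Ω) ^ n * y) :
    x = 0 := by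
  by_contra hx0
  obtain ⟨y0, hy0, hxy0⟩ := hx 0
  have hxO : x ∈ s56o_Our P := by rw [hxy0, pow_zero, one_mul]; exact hy0
  obtain ⟨k, u, hu, hu', hxu⟩ := s56o_Our_factor hp P hP x hxO hx0
  obtain ⟨y, hy, hxy⟩ := hx (k + 1)
  have hp0 := s56o_p_ne_zero hp
  have hu0 : u ≠ 0 := by
    rintro rfl
    rw [mul_zero] at hxu
    exact hx0 hxu
  have h1 : u = (p : Ω) * y := by
    have h2 : (p : Ω) ^ k * u = (p : Ω) ^ k * ((p : Ω) * y) := by
      rw [← hxu, hxy, pow_succ, mul_assoc]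
    exact mul_left_cancel₀ (pow_ne_zero k hp0) h2
  apply s56o_p_inv_not_mem hp P hP
  have h3 : ((p : Ω))⁻¹ = y * u⁻¹ := by
    rw [h1, mul_inv, ← mul_assoc, mul_comm y, mul_assoc]
    have hy0' : y ≠ 0 := by
      rintro rfl
      rw [mul_zero] at h1
      exact hu0 h1
    rw [mul_inv_cancel₀ hy0', mul_one]
  rw [h3]
  exact P.mul_mem _ _ hy.1 hu'.1

/-- **an `O`-basis of `𝒜`, linearly independent over `ℚ̄`.** -/
theorem s56o_FnOrder.exists_basis [Finite W] (F : s56o_FnOrder P W ι) :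
    ∃ (n : ℕ) (c : Fin n → W → Ω), (∀ j, c j ∈ F.A) ∧
      (∀ f ∈ F.A, ∃ l : Fin n → Ω, (∀ j, l j ∈ s56o_Our P) ∧ ∀ w, f w = ∑ j, l j * c j w) ∧
      (∀ l : Fin n → Ω, (∀ w, ∑ j, l j * c j w = 0) → l = 0) := by
  classical
  haveI := s56o_Our_dvr hp P hP
  haveI : Module.Finite ↥(s56o_Our P) ↥F.A :=
    Module.Finite.span_of_finite _ (Set.finite_range F.a)
  obtain ⟨n, b⟩ := Module.basisOfFiniteTypeTorsionFree' (R := ↥(s56o_Our P)) (M := ↥F.A)
  have hcoe : ∀ (g : Fin n → ↥(s56o_Our P)) (w : W),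
      ((∑ j, g j • b j : ↥F.A) : W → Ω) w = ∑ j, (g j : Ω) * (b j : W → Ω) w := by
    intro g w
    rw [Submodule.coe_sum, Finset.sum_apply]
    rfl
  refine ⟨n, fun j => (b j : W → Ω), fun j => (b j).2, fun f hf => ?_, ?_⟩
  · refine ⟨fun j => (b.repr ⟨f, hf⟩ j : Ω), fun j => (b.repr ⟨f, hf⟩ j).2, fun w => ?_⟩
    have h1 := b.sum_repr ⟨f, hf⟩
    have h2 := congrArg (fun t : ↥F.A => (t : W → Ω) w) h1
    simp only at h2
    rw [hcoe] at h2
    exact h2.symm
  · -- Artin's lemma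
    refine s56o_artin (G := ↥(P.inertiaSubgroupIn ℚ))
      (fun g => ((g : Γℚ) : Ω →ₐ[ℚ] Ω).toRingHom) (fun g => F.act (g : Γℚ))
      (fun g => F.act_surjective _) (fun j => (b j : W → Ω))
      (fun j g w => F.A_equivariant (b j).2 g g.2 w)
      {x | ∀ σ ∈ P.inertiaSubgroupIn ℚ, σ x = x} (fun x hx σ hσ => hx ⟨σ, hσ⟩) ?_
    intro l hl hrel
    choose N hN using fun j => s56o_exists_pow_mul_mem hp hP (l j) (hl j)
    set M := ∑ j, N j with hM
    have hle : ∀ j, N j ≤ M := fun j => Finset.single_le_sum (fun _ _ => Nat.zero_le _) (mem_univ j)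
    let g : Fin n → ↥(s56o_Our P) := fun j => ⟨(p : Ω) ^ M * l j, hN j M (hle j)⟩
    have hsum : ∑ j, g j • b j = 0 := by
      apply Subtype.ext
      funext w
      rw [hcoe]
      show ∑ j, ((p : Ω) ^ M * l j) * (b j : W → Ω) w = 0
      have : ∑ j, ((p : Ω) ^ M * l j) * (b j : W → Ω) w =
          (p : Ω) ^ M * ∑ j, l j * (b j : W → Ω) w := by
        rw [Finset.mul_sum]
        exact Finset.sum_congr rfl fun j _ => by ring
      rw [this, hrel w, mul_zero]
    have hg := Fintype.linearIndependent_iff.mp b.linearIndependent g hsum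
    funext j
    have h1 := congrArg (fun t : ↥(s56o_Our P) => (t : Ω)) (hg j)
    have h2 : (p : Ω) ^ M * l j = 0 := h1
    rcases mul_eq_zero.mp h2 with h | h
    · exact absurd h (pow_ne_zero M (s56o_p_ne_zero hp))
    · exact h

end basis

end Fermat.Agent.Lib.S56
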