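/-
PROGRAMME W (S56), wall [W6] (helper6, prefix `s56g_`): the LINEAR ALGEBRA of `sl(V)`, `dim V = 2`.
* `s56g_ifaceUnipLA : s56g_IfaceUnipLA` — `u ≠ 1` unipotent: `(Ad u - 1) sl = {X ∈ sl | tr (X u) = 0}`.
* `s56g_ifaceTWLA : s56g_IfaceTWLA` — `u` with distinct eigenvalues.
-/
import Fermat.Agent.Lib.S56.IfaceW6

set_option autoImplicit false

namespace Fermat.Agent.Lib.S56

open Matrix Polynomial

section Mat

variable {k : Type} [Field k]

/-- Jordan-form computation for `UnipLA`. -/
theorem s56g_mat_unip (h2 : (2 : k) ≠ 0) (X : Matrix (Fin 2) (Fin 2) k)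
    (h0 : X.trace = 0) (h1 : (X * !![1, 1; 0, 1]).trace = 0) :
    ∃ m : Matrix (Fin 2) (Fin 2) k, m.trace = 0 ∧
      X = !![1, 1; 0, 1] * m * !![1, -1; 0, 1] - m := by
  rw [Matrix.trace_fin_two] at h0 h1
  simp [Matrix.mul_apply, Fin.sum_univ_two] at h1
  refine ⟨!![-(X 0 0 + X 0 1) / 2, 0; X 0 0, (X 0 0 + X 0 1) / 2], ?_, ?_⟩
  · rw [Matrix.trace_fin_two]; simp; ring
  · have h10 : X 1 0 = 0 := by linear_combination h1 - h0
    have h11 : X 1 1 = - X 0 0 := by linear_combination h0
    ext i j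
    fin_cases i <;> fin_cases j <;> simp [h10, h11] <;> field_simp <;> ring

theorem s56g_mat_decomp (Y : Matrix (Fin 2) (Fin 2) k) :
    Y = Y 0 0 • Matrix.single 0 0 (1 : k) + Y 0 1 • Matrix.single 0 1 (1 : k)
      + Y 1 0 • Matrix.single 1 0 (1 : k) + Y 1 1 • Matrix.single 1 1 (1 : k) := by
  ext i j
  fin_cases i <;> fin_cases j <;> simp [Matrix.single]

theorem s56g_dual_mat_apply (f : Module.Dual k (Matrix (Fin 2) (Fin 2) k))
    (Y : Matrix (Fin 2) (Fin 2) k) :
    f Y = Y 0 0 * f (Matrix.single 0 0 1) + Y 0 1 * f (Matrix.single 0 1 1)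
      + Y 1 0 * f (Matrix.single 1 0 1) + Y 1 1 * f (Matrix.single 1 1 1) := by
  conv_lhs => rw [s56g_mat_decomp Y]
  simp only [map_add, map_smul, smul_eq_mul]

theorem s56g_mat_conj (α β a b : k) (Y : Matrix (Fin 2) (Fin 2) k) :
    !![α, 0; 0, β] * Y * !![a, 0; 0, b] =
      !![α * Y 0 0 * a, α * Y 0 1 * b; β * Y 1 0 * a, β * Y 1 1 * b] := by
  ext i j
  fin_cases i <;> fin_cases j <;> simp [Matrix.mul_apply, Fin.sum_univ_two, Matrix.vecMul, dotProduct]

theorem s56g_mat_H (h2 : (2 : k) ≠ 0) (α β : k) :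
    (!![α, 0; 0, β] : Matrix (Fin 2) (Fin 2) k) - ((α + β) / 2) • (1 : Matrix (Fin 2) (Fin 2) k) =
      !![(α - β) / 2, 0; 0, (β - α) / 2] := by
  ext i j
  fin_cases i <;> fin_cases j <;> simp <;> field_simp <;> ring

section TW
variable (h2 : (2 : k) ≠ 0) {α β : k} (hα : α ≠ 0) (hβ : β ≠ 0) (hαβ : α ≠ β)
include h2 hα hβ hαβ

theorem s56g_mat_TW_comm (Y : Matrix (Fin 2) (Fin 2) k) (hY : Y.trace = 0) :
    !![α, 0; 0, β] * Y * !![α⁻¹, 0; 0, β⁻¹] = Y ↔
      ∃ a : k, Y = a • !![(α - β) / 2, 0; 0, (β - α) / 2] := by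
  rw [s56g_mat_conj]
  rw [Matrix.trace_fin_two] at hY
  have hab : α - β ≠ 0 := sub_ne_zero.mpr hαβ
  constructor
  · intro h
    have h01 := congrFun (congrFun h 0) 1
    have h10 := congrFun (congrFun h 1) 0
    simp at h01 h10
    have e01 : Y 0 1 = 0 := by
      have : Y 0 1 * (α - β) = 0 := by
        have h' : α * Y 0 1 * β⁻¹ * β = Y 0 1 * β := by rw [h01]
        rw [mul_assoc, inv_mul_cancel₀ hβ, mul_one] at h'
        linear_combination h'
      exact (mul_eq_zero.mp this).resolve_right hab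
    have e10 : Y 1 0 = 0 := by
      have : Y 1 0 * (α - β) = 0 := by
        have h' : β * Y 1 0 * α⁻¹ * α = Y 1 0 * α := by rw [h10]
        rw [mul_assoc, inv_mul_cancel₀ hα, mul_one] at h'
        linear_combination -h'
      exact (mul_eq_zero.mp this).resolve_right hab
    refine ⟨2 * Y 0 0 / (α - β), ?_⟩
    have e11 : Y 1 1 = - Y 0 0 := by linear_combination hY
    ext i j
    fin_cases i <;> fin_cases j <;> simp [e01, e10, e11] <;> field_simp <;> ring
  · rintro ⟨a, rfl⟩
    ext i j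
    fin_cases i <;> fin_cases j <;> simp <;> field_simp

theorem s56g_mat_TW_range (Y : Matrix (Fin 2) (Fin 2) k) (hY : Y.trace = 0) :
    (∃ m : Matrix (Fin 2) (Fin 2) k, m.trace = 0 ∧
        Y = !![α, 0; 0, β] * m * !![α⁻¹, 0; 0, β⁻¹] - m) ↔
      (Y * !![α, 0; 0, β]).trace = 0 := by
  rw [Matrix.trace_fin_two] at hY
  have hab : α - β ≠ 0 := sub_ne_zero.mpr hαβ
  have htr : (Y * !![α, 0; 0, β]).trace = (α - β) * Y 0 0 := by
    rw [Matrix.trace_fin_two]
    simp [Matrix.mul_apply, Fin.sum_univ_two]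
    linear_combination β * hY
  rw [htr]
  constructor
  · rintro ⟨m, -, rfl⟩
    rw [s56g_mat_conj]
    simp
    right
    field_simp
    ring
  · intro h
    have h00 : Y 0 0 = 0 := (mul_eq_zero.mp h).resolve_left hab
    have h11 : Y 1 1 = 0 := by rw [h00, zero_add] at hY; exact hY
    refine ⟨!![0, Y 0 1 * β / (α - β); Y 1 0 * α / (β - α), 0], by rw [Matrix.trace_fin_two]; simp, ?_⟩
    rw [s56g_mat_conj]
    have hba : β - α ≠ 0 := sub_ne_zero.mpr (Ne.symm hαβ)
    ext i j
    fin_cases i <;> fin_cases j <;> simp [h00, h11] <;> field_simp <;> ring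

end TW

section TW2
variable {α β : k} (hα : α ≠ 0) (hβ : β ≠ 0) (hαβ : α ≠ β)
include hα hβ hαβ

theorem s56g_mat_TW_dual (h2 : (2 : k) ≠ 0) (f : Module.Dual k (Matrix (Fin 2) (Fin 2) k)) :
    (∃ g : Module.Dual k (Matrix (Fin 2) (Fin 2) k), ∀ Y : Matrix (Fin 2) (Fin 2) k,
        Y.trace = 0 → f Y = g (!![α⁻¹, 0; 0, β⁻¹] * Y * !![α, 0; 0, β]) - g Y) ↔
      f !![(α - β) / 2, 0; 0, (β - α) / 2] = 0 := by
  have hab : α - β ≠ 0 := sub_ne_zero.mpr hαβ
  have hba : β - α ≠ 0 := sub_ne_zero.mpr (Ne.symm hαβ)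
  constructor
  · rintro ⟨g, hg⟩
    have hH : (!![(α - β) / 2, 0; 0, (β - α) / 2] : Matrix (Fin 2) (Fin 2) k).trace = 0 := by
      rw [Matrix.trace_fin_two]; simp; ring
    rw [hg _ hH, s56g_mat_conj]
    have : (!![α⁻¹ * (!![(α - β) / 2, 0; 0, (β - α) / 2] : Matrix (Fin 2) (Fin 2) k) 0 0 * α,
        α⁻¹ * (!![(α - β) / 2, 0; 0, (β - α) / 2] : Matrix (Fin 2) (Fin 2) k) 0 1 * β;
        β⁻¹ * (!![(α - β) / 2, 0; 0, (β - α) / 2] : Matrix (Fin 2) (Fin 2) k) 1 0 * α,
        β⁻¹ * (!![(α - β) / 2, 0; 0, (β - α) / 2] : Matrix (Fin 2) (Fin 2) k) 1 1 * β] :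
          Matrix (Fin 2) (Fin 2) k) = !![(α - β) / 2, 0; 0, (β - α) / 2] := by
      ext i j
      fin_cases i <;> fin_cases j <;> simp <;> field_simp
    rw [this, sub_self]
  · intro hf
    rw [s56g_dual_mat_apply f] at hf
    simp at hf
    have hf' : f (Matrix.single 0 0 1) = f (Matrix.single 1 1 1) := by
      have : (α - β) * (f (Matrix.single 0 0 1) - f (Matrix.single 1 1 1)) = 0 := by
        field_simp at hf
        linear_combination hf
      have := (mul_eq_zero.mp this).resolve_left hab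
      exact sub_eq_zero.mp this
    refine ⟨(f (Matrix.single 0 1 1) * α / (β - α)) • Matrix.entryLinearMap k k 0 1
      + (f (Matrix.single 1 0 1) * β / (α - β)) • Matrix.entryLinearMap k k 1 0, ?_⟩
    intro Y hY
    rw [Matrix.trace_fin_two] at hY
    have e11 : Y 1 1 = - Y 0 0 := by linear_combination hY
    rw [s56g_dual_mat_apply f Y, s56g_mat_conj]
    simp [hf', e11]
    field_simp
    ring

theorem s56g_mat_TW_inv (h2 : (2 : k) ≠ 0) (f : Module.Dual k (Matrix (Fin 2) (Fin 2) k))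
    (hinv : ∀ Y : Matrix (Fin 2) (Fin 2) k, Y.trace = 0 →
      f (!![α⁻¹, 0; 0, β⁻¹] * Y * !![α, 0; 0, β]) = f Y)
    (hf : f !![(α - β) / 2, 0; 0, (β - α) / 2] = 0)
    (Y : Matrix (Fin 2) (Fin 2) k) (hY : Y.trace = 0) : f Y = 0 := by
  have hab : α - β ≠ 0 := sub_ne_zero.mpr hαβ
  have hba : β - α ≠ 0 := sub_ne_zero.mpr (Ne.symm hαβ)
  rw [s56g_dual_mat_apply f] at hf
  simp at hf
  have h01 : f (Matrix.single 0 1 1) = 0 := by
    have h := hinv (Matrix.single 0 1 1) (by rw [Matrix.trace_fin_two]; simp [Matrix.single_apply])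
    rw [s56g_mat_conj, s56g_dual_mat_apply f] at h
    simp [Matrix.single_apply] at h
    have : (β - α) * f (Matrix.single 0 1 1) = 0 := by
      field_simp at h
      linear_combination h
    exact (mul_eq_zero.mp this).resolve_left hba
  have h10 : f (Matrix.single 1 0 1) = 0 := by
    have h := hinv (Matrix.single 1 0 1) (by rw [Matrix.trace_fin_two]; simp [Matrix.single_apply])
    rw [s56g_mat_conj, s56g_dual_mat_apply f] at h
    simp [Matrix.single_apply] at h
    have : (α - β) * f (Matrix.single 1 0 1) = 0 := by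
      field_simp at h
      linear_combination h
    exact (mul_eq_zero.mp this).resolve_left hab
  rw [Matrix.trace_fin_two] at hY
  have e11 : Y 1 1 = - Y 0 0 := by linear_combination hY
  rw [s56g_dual_mat_apply f Y, h01, h10, e11]
  have : (α - β) * (f (Matrix.single 0 0 1) - f (Matrix.single 1 1 1)) = 0 := by
    field_simp at hf
    linear_combination hf
  have := (mul_eq_zero.mp this).resolve_left hab
  linear_combination Y 0 0 * this

end TW2

end Mat

section Basis

variable {k : Type} [Field k] {V : Type} [AddCommGroup V] [Module k V]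

/-- a Jordan basis for a nonzero nilpotent endomorphism of a plane -/
theorem s56g_exists_basis_nilp (hV : Module.finrank k V = 2)
    (n : Module.End k V) (hn2 : n * n = 0) (hn : n ≠ 0) :
    ∃ b : Module.Basis (Fin 2) k V, LinearMap.toMatrix b b n = !![0, 1; 0, 0] := by
  have : ∃ w, n w ≠ 0 := by
    by_contra hcon
    push Not at hcon
    exact hn (LinearMap.ext hcon)
  obtain ⟨w, hw⟩ := this
  have hnn : n (n w) = 0 := by
    have := congrArg (fun f : Module.End k V => f w) hn2
    simpa using this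
  have hli : LinearIndependent k ![n w, w] := by
    rw [LinearIndependent.pair_iff]
    intro s t hst
    have h1 : t • n w = 0 := by
      have := congrArg n hst
      simpa [hnn] using this
    have ht : t = 0 := by
      rcases smul_eq_zero.mp h1 with h | h
      · exact h
      · exact absurd h hw
    subst ht
    have hs : s • n w = 0 := by simpa using hst
    rcases smul_eq_zero.mp hs with h | h
    · exact ⟨h, rfl⟩
    · exact absurd h hw
  let b := basisOfLinearIndependentOfCardEqFinrank hli (by simp [hV])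
  have hb0 : b 0 = n w := by simp [b]
  have hb1 : b 1 = w := by simp [b]
  refine ⟨b, ?_⟩
  ext i j
  rw [LinearMap.toMatrix_apply]
  fin_cases j
  · simp only [Fin.zero_eta, hb0, hnn, map_zero, Finsupp.coe_zero, Pi.zero_apply]
    fin_cases i <;> simp
  · simp only [Fin.mk_one, hb1]
    rw [← hb0, Module.Basis.repr_self]
    fin_cases i <;> simp

theorem s56g_exists_basis_diag [FiniteDimensional k V] (hV : Module.finrank k V = 2)
    (u : Module.End k V) {α β : k} (hαβ : α ≠ β)
    (hchar : LinearMap.charpoly u = (X - C α) * (X - C β)) :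
    ∃ b : Module.Basis (Fin 2) k V, LinearMap.toMatrix b b u = !![α, 0; 0, β] := by
  have hα : u.HasEigenvalue α := by
    rw [Module.End.hasEigenvalue_iff_isRoot_charpoly, hchar]
    simp [Polynomial.IsRoot]
  have hβ : u.HasEigenvalue β := by
    rw [Module.End.hasEigenvalue_iff_isRoot_charpoly, hchar]
    simp [Polynomial.IsRoot]
  obtain ⟨v, hv⟩ := hα.exists_hasEigenvector
  obtain ⟨w, hw⟩ := hβ.exists_hasEigenvector
  have huv : u v = α • v := hv.apply_eq_smul
  have huw : u w = β • w := hw.apply_eq_smul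
  have hv0 : v ≠ 0 := hv.2
  have hw0 : w ≠ 0 := hw.2
  have hli : LinearIndependent k ![v, w] := by
    rw [LinearIndependent.pair_iff]
    intro s t hst
    have h1 : (s * α) • v + (t * β) • w = 0 := by
      have := congrArg u hst
      simpa [huv, huw, smul_smul] using this
    have h2 : (t * (β - α)) • w = 0 := by
      have h3 : α • (s • v + t • w) = 0 := by rw [hst, smul_zero]
      have : (t * (β - α)) • w = ((s * α) • v + (t * β) • w) - α • (s • v + t • w) := by
        simp only [smul_add, smul_smul, mul_sub, sub_smul]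
        rw [mul_comm α s, mul_comm α t]
        abel
      rw [this, h1, h3, sub_zero]
    have ht : t = 0 := by
      rcases smul_eq_zero.mp h2 with h | h
      · rcases mul_eq_zero.mp h with h | h
        · exact h
        · exact absurd (sub_eq_zero.mp h).symm hαβ
      · exact absurd h hw0
    subst ht
    have hs : s • v = 0 := by simpa using hst
    rcases smul_eq_zero.mp hs with h | h
    · exact ⟨h, rfl⟩
    · exact absurd h hv0
  let b := basisOfLinearIndependentOfCardEqFinrank hli (by simp [hV])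
  have hb0 : b 0 = v := by simp [b]
  have hb1 : b 1 = w := by simp [b]
  refine ⟨b, ?_⟩
  ext i j
  rw [LinearMap.toMatrix_apply]
  fin_cases j
  · simp only [Fin.zero_eta, hb0, huv]
    rw [← hb0, map_smul, Module.Basis.repr_self]
    fin_cases i <;> simp
  · simp only [Fin.mk_one, hb1, huw]
    rw [← hb1, map_smul, Module.Basis.repr_self]
    fin_cases i <;> simp

end Basis

/-- **(UnipLA)** -/
theorem s56g_ifaceUnipLA : s56g_IfaceUnipLA := by
  intro k _ V _ _ hV h2 u u' X huu' hu2 hu1 hX0 hX1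
  have hn0 : u - 1 ≠ 0 := sub_ne_zero.mpr hu1
  obtain ⟨b, hb⟩ := s56g_exists_basis_nilp hV (u - 1) hu2 hn0
  have hu' : u' = 1 - (u - 1) := by
    have h1 : (1 - (u - 1)) * u = 1 := by
      have : (1 - (u - 1)) * u = 1 - (u - 1) * (u - 1) := by noncomm_ring
      rw [this, hu2, sub_zero]
    calc u' = ((1 - (u - 1)) * u) * u' := by rw [h1, one_mul]
      _ = (1 - (u - 1)) * (u * u') := by rw [mul_assoc]
      _ = 1 - (u - 1) := by rw [huu', mul_one]
  let e := LinearMap.toMatrixAlgEquiv b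
  have hen : e (u - 1) = !![0, 1; 0, 0] := hb
  have heu : e u = !![1, 1; 0, 1] := by
    have : u = 1 + (u - 1) := by abel
    rw [this, map_add, map_one, hen]
    ext i j
    fin_cases i <;> fin_cases j <;> simp
  have heu' : e u' = !![1, -1; 0, 1] := by
    rw [hu', map_sub, map_one, hen]
    ext i j
    fin_cases i <;> fin_cases j <;> simp
  have tr : ∀ f : Module.End k V, LinearMap.trace k V f = (e f).trace := fun f =>
    LinearMap.trace_eq_matrix_trace k b f
  obtain ⟨m, hm0, hm⟩ := s56g_mat_unip h2 (e X) (by rw [← tr, hX0])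
    (by rw [← heu, ← map_mul, ← tr, hX1])
  refine ⟨e.symm m, by rw [tr, e.apply_symm_apply, hm0], ?_⟩
  apply e.injective
  rw [map_sub, map_mul, map_mul, e.apply_symm_apply, heu, heu', ← hm]

/-- **(TWLA)** -/
theorem s56g_ifaceTWLA : s56g_IfaceTWLA := by
  intro k _ V _ _ _ hV h2 u u' α β huu' hαβ hchar
  obtain ⟨b, hb⟩ := s56g_exists_basis_diag hV u hαβ hchar
  let e := LinearMap.toMatrixAlgEquiv b
  have heu : e u = !![α, 0; 0, β] := hb
  have hprod : !![α, 0; 0, β] * e u' = 1 := by rw [← heu, ← map_mul, huu', map_one]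
  have hα : α ≠ 0 := by
    intro h
    have := congrFun (congrFun hprod 0) 0
    simp [Matrix.mul_apply, Fin.sum_univ_two, h] at this
  have hβ : β ≠ 0 := by
    intro h
    have := congrFun (congrFun hprod 1) 1
    simp [Matrix.mul_apply, Fin.sum_univ_two, h] at this
  have hinv : !![α⁻¹, 0; 0, β⁻¹] * !![α, 0; 0, β] = (1 : Matrix (Fin 2) (Fin 2) k) := by
    ext i j
    fin_cases i <;> fin_cases j <;> simp [hα, hβ]
  have heu' : e u' = !![α⁻¹, 0; 0, β⁻¹] := by
    calc e u' = (!![α⁻¹, 0; 0, β⁻¹] * !![α, 0; 0, β]) * e u' := by rw [hinv, one_mul]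
      _ = !![α⁻¹, 0; 0, β⁻¹] * (!![α, 0; 0, β] * e u') := by rw [mul_assoc]
      _ = !![α⁻¹, 0; 0, β⁻¹] := by rw [hprod, mul_one]
  have heH : e (u - ((α + β) / 2) • (1 : Module.End k V)) =
      !![(α - β) / 2, 0; 0, (β - α) / 2] := by
    rw [map_sub, map_smul, map_one, heu]
    exact s56g_mat_H h2 α β
  have tr : ∀ f : Module.End k V, LinearMap.trace k V f = (e f).trace := fun f =>
    LinearMap.trace_eq_matrix_trace k b f
  have hab : α - β ≠ 0 := sub_ne_zero.mpr hαβ
  refine ⟨?_, ?_, ?_, ?_, ?_, ?_⟩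
  · rw [tr, heH, Matrix.trace_fin_two]
    simp
    ring
  · intro h0
    have h1 := congrArg e h0
    rw [heH, map_zero] at h1
    have h2' := congrFun (congrFun h1 0) 0
    simp at h2'
    rcases h2' with h | h
    · exact hab h
    · exact h2 h
  · intro Y hY
    have key := s56g_mat_TW_comm h2 hα hβ hαβ (e Y) (by rw [← tr, hY])
    constructor
    · intro h
      have h' : e u * e Y * e u' = e Y := by rw [← map_mul, ← map_mul, h]
      rw [heu, heu'] at h'
      obtain ⟨a, ha⟩ := key.mp h'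
      refine ⟨a, e.injective ?_⟩
      rw [ha, map_smul, heH]
    · rintro ⟨a, rfl⟩
      apply e.injective
      rw [map_mul, map_mul, heu, heu']
      exact key.mpr ⟨a, by rw [map_smul, heH]⟩
  · intro Y hY
    have key := s56g_mat_TW_range h2 hα hβ hαβ (e Y) (by rw [← tr, hY])
    rw [tr, map_mul, heu]
    rw [← key]
    constructor
    · rintro ⟨m, hm0, hm⟩
      refine ⟨e m, by rw [← tr, hm0], ?_⟩
      rw [hm, map_sub, map_mul, map_mul, heu, heu']
    · rintro ⟨m, hm0, hm⟩
      refine ⟨e.symm m, by rw [tr, e.apply_symm_apply, hm0], e.injective ?_⟩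
      rw [map_sub, map_mul, map_mul, e.apply_symm_apply, heu, heu', ← hm]
  · intro f
    have key := s56g_mat_TW_dual hα hβ hαβ h2 (f ∘ₗ e.symm.toLinearMap)
    have hfe : ∀ Y : Module.End k V, (f ∘ₗ e.symm.toLinearMap) (e Y) = f Y := fun Y => by
      simp
    rw [← hfe, heH, ← key]
    constructor
    · rintro ⟨g, hg⟩
      refine ⟨g ∘ₗ e.symm.toLinearMap, fun Y hY => ?_⟩
      have h1 := hg (e.symm Y) (by rw [tr, e.apply_symm_apply, hY])
      have h2' : e.symm (!![α⁻¹, 0; 0, β⁻¹] * Y * !![α, 0; 0, β]) = u' * e.symm Y * u := by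
        apply e.injective
        rw [e.apply_symm_apply, map_mul, map_mul, e.apply_symm_apply, heu, heu']
      simp only [LinearMap.comp_apply, AlgEquiv.toLinearMap_apply]
      rw [h1, h2']
    · rintro ⟨g, hg⟩
      refine ⟨g ∘ₗ e.toLinearMap, fun Y hY => ?_⟩
      have h1 := hg (e Y) (by rw [← tr, hY])
      rw [hfe] at h1
      rw [h1]
      simp only [LinearMap.comp_apply, AlgEquiv.toLinearMap_apply]
      rw [map_mul e, map_mul e, heu, heu']
  · intro f hinv hfH Y hY
    have hfe : ∀ Y : Module.End k V, (f ∘ₗ e.symm.toLinearMap) (e Y) = f Y := fun Y => by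
      simp
    rw [← hfe]
    refine s56g_mat_TW_inv hα hβ hαβ h2 (f ∘ₗ e.symm.toLinearMap) ?_ ?_ (e Y) (by rw [← tr, hY])
    · intro Z hZ
      have h1 := hinv (e.symm Z) (by rw [tr, e.apply_symm_apply, hZ])
      have h2' : e.symm (!![α⁻¹, 0; 0, β⁻¹] * Z * !![α, 0; 0, β]) = u' * e.symm Z * u := by
        apply e.injective
        rw [e.apply_symm_apply, map_mul, map_mul, e.apply_symm_apply, heu, heu']
      simp only [LinearMap.comp_apply, AlgEquiv.toLinearMap_apply]
      rw [h2', h1]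
    · rw [← heH, hfe, hfH]

end Fermat.Agent.Lib.S56
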