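/-
PROGRAMME W (S56), wall [W6] (helper6, prefix `s56g_`): UNRAMIFIED CLASSES.
* local dictionary: Frobenius lifts in `G_q`, `G_q = ⟨I_q, φ⟩` modulo every level;
* `s56g_ifaceDetectLoc`, `s56g_ifaceInvUnr`, `s56g_ifaceDetect`, `s56g_ifaceUnrLe`.
-/
import Mathlib
import Fermat.Agent.Lib.S56.IfaceW6
import Fermat.Agent.Lib.S56.GDecomp
import Fermat.Agent.Lib.PT.BridgeE
import Fermat.Agent.Lib.PT.GLevelLoc

set_option autoImplicit false
set_option linter.unusedSectionVars false
set_option linter.style.haveILetI false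

namespace Fermat.Agent.Lib.S56

open groupCohomology ExtCitation CategoryTheory Fermat.Agent.Lib.PT Fermat.Agent.Lib.S35

local notation "Qbar" => AlgebraicClosure ℚ
local notation "GQ" => (AlgebraicClosure ℚ ≃ₐ[ℚ] AlgebraicClosure ℚ)

section Local

variable (q : Nat.Primes)

instance s56g_factPrime : Fact (q : ℕ).Prime := ⟨q.2⟩

lemma s56g_place_liesOver : (primeLocalPlace q).LiesOverPrime (q : ℕ) :=
  ptg_padicPlace_liesOver (q : ℕ)

lemma s56g_loc_injective : Function.Injective (primeLocalToGlobal q) :=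
  ptg_localGaloisToGlobal_injective (q : ℕ)

lemma s56g_loc_mem_decomp (g : primeLocalGaloisGroup q) :
    primeLocalToGlobal q g ∈ (primeLocalPlace q).decompositionSubgroup ℚ :=
  localGaloisToGlobal_mem_decompositionSubgroup (q : ℕ) g

lemma s56g_exists_loc_eq {σ : GQ} (hσ : σ ∈ (primeLocalPlace q).decompositionSubgroup ℚ) :
    ∃ g : primeLocalGaloisGroup q, primeLocalToGlobal q g = σ :=
  ptg_exists_local_lift (q := (q : ℕ)) hσ

lemma s56g_inertia_le_decomp {σ : GQ} (hσ : σ ∈ (primeLocalPlace q).inertiaSubgroupIn ℚ) :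
    σ ∈ (primeLocalPlace q).decompositionSubgroup ℚ :=
  (Fermat.Agent.Lib.Frey.ford_inertia_spec _ σ hσ).1

lemma s56g_mem_Iq_iff (τ : primeLocalGaloisGroup q) :
    τ ∈ s56g_Iq q ↔ primeLocalToGlobal q τ ∈ (primeLocalPlace q).inertiaSubgroupIn ℚ := Iff.rfl

/-- local Frobenius lifts exist -/
lemma s56g_exists_local_frob :
    ∃ φ : primeLocalGaloisGroup q, (primeLocalPlace q).IsFrobeniusAt (primeLocalToGlobal q φ) q := by
  obtain ⟨σ, hσ⟩ := Fermat.Agent.Lib.Frobenius.exists_isFrobeniusAt_of_liesOverPrime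
    (primeLocalPlace q) q q.2 (s56g_place_liesOver q)
  obtain ⟨φ, rfl⟩ := s56g_exists_loc_eq q hσ.mem_decompositionSubgroup
  exact ⟨φ, hσ⟩

/-- `I_q` is normal in `G_q` -/
lemma s56g_conj_mem_Iq (g : primeLocalGaloisGroup q) {τ : primeLocalGaloisGroup q}
    (hτ : τ ∈ s56g_Iq q) : g * τ * g⁻¹ ∈ s56g_Iq q := by
  rw [s56g_mem_Iq_iff, map_mul, map_mul, map_inv]
  exact s35t_conj_mem_inertia _ _ _ (s56g_loc_mem_decomp q g) hτ

/-- **local (FrobGen)**: modulo every level, `G_q` is generated by `I_q` and a Frobenius lift. -/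
lemma s56g_local_frobGen {φ : primeLocalGaloisGroup q}
    (hφ : (primeLocalPlace q).IsFrobeniusAt (primeLocalToGlobal q φ) q)
    (F : IntermediateField ℚ Qbar) (hF : FiniteDimensional ℚ F) (g : primeLocalGaloisGroup q) :
    ∃ (j : ℕ) (ι s : primeLocalGaloisGroup q), ι ∈ s56g_Iq q ∧
      primeLocalToGlobal q s ∈ F.fixingSubgroup ∧ g = φ ^ j * ι * s := by
  obtain ⟨j, ι', hι', hs⟩ := s56g_ifaceFrobGen q q.2 (primeLocalPlace q) (s56g_place_liesOver q)
    _ hφ F hF _ (s56g_loc_mem_decomp q g)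
  obtain ⟨ι, rfl⟩ := s56g_exists_loc_eq q (s56g_inertia_le_decomp q hι')
  refine ⟨j, ι, (φ ^ j * ι)⁻¹ * g, hι', ?_, by group⟩
  rw [map_mul, map_inv, map_mul, map_pow]
  exact hs

end Local

section Vanish

variable {k : Type} [CommRing k] (q : Nat.Primes) {V : Type} [AddCommGroup V] [Module k V]
  (ρ : Representation k (primeLocalGaloisGroup q) V)

/-- a level-constant cocycle of `G_q` vanishing on inertia and at a Frobenius lift vanishes -/
theorem s56g_cocycle_vanish (c : primeLocalGaloisGroup q → V)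
    (hc : ∀ g h, c (g * h) = ρ g (c h) + c g) {φ : primeLocalGaloisGroup q}
    (hφ : (primeLocalPlace q).IsFrobeniusAt (primeLocalToGlobal q φ) q)
    (hI : ∀ τ ∈ s56g_Iq q, c τ = 0) (hφ0 : c φ = 0)
    (hlev : IsLevelConstant₁ (primeLocalToGlobal q) c) (g : primeLocalGaloisGroup q) : c g = 0 := by
  obtain ⟨F, hF, hFc⟩ := hlev
  have h1 : c 1 = 0 := by
    have := hc 1 1
    rw [mul_one, map_one, Module.End.one_apply] at this
    simpa using this
  have hpow : ∀ j : ℕ, c (φ ^ j) = 0 := by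
    intro j
    induction j with
    | zero => rw [pow_zero]; exact h1
    | succ j ih => rw [pow_succ', hc, ih, map_zero, hφ0, add_zero]
  obtain ⟨j, ι, s, hι, hs, rfl⟩ := s56g_local_frobGen q hφ F hF g
  rw [hFc _ _ hs, hc, hI ι hι, map_zero, hpow, add_zero]

end Vanish

section Detect

variable {k : Type} [CommRing k] (q : Nat.Primes) (M : Rep.{0} k GQ)

/-- level-constant functions are closed under subtraction -/
lemma s56g_isLevelConstant_sub {G : Type} [Group G] {r : G →* GQ} {X : Type*} [AddGroup X]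
    {f f' : G → X} (hf : IsLevelConstant₁ r f) (hf' : IsLevelConstant₁ r f') :
    IsLevelConstant₁ r (fun g => f g - f' g) := by
  have h := hf.add (hf'.comp (fun x => -x))
  have e : (fun g => f g - f' g) = f + (fun x => -x) ∘ f' := by
    funext g
    simp [sub_eq_add_neg]
  rw [e]
  exact h

/-- the coboundary of a smooth vector is level-constant -/
lemma s56g_isLevelConstant_d0 (hsm : s56g_IsSmooth M) (m : M) :
    IsLevelConstant₁ (primeLocalToGlobal q)
      (fun g : primeLocalGaloisGroup q => M.ρ (primeLocalToGlobal q g) m - m) := by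
  obtain ⟨F, hF, hFm⟩ := hsm m
  refine ⟨F, hF, fun g s hs => ?_⟩
  show M.ρ (primeLocalToGlobal q (g * s)) m - m = M.ρ (primeLocalToGlobal q g) m - m
  rw [map_mul, map_mul, Module.End.mul_apply, hFm _ hs]

/-- **(DetectLoc)** -/
theorem s56g_ifaceDetectLoc : s56g_IfaceDetectLoc := by
  intro k _ q M hsm φ hφ c hclev hcI
  rw [H1π_eq_zero_iff]
  have hcoc := (mem_cocycles₁_iff (c : primeLocalGaloisGroup q → M)).mp c.2
  constructor
  · rintro ⟨m, hm⟩
    have hm' : ∀ g, M.ρ (primeLocalToGlobal q g) m - m = c g := fun g => by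
      have := congrFun hm g
      rwa [d₀₁_hom_apply] at this
    refine ⟨m, fun τ hτ => ?_, (hm' φ).symm⟩
    have := hm' τ
    rw [hcI τ hτ, sub_eq_zero] at this
    exact this
  · rintro ⟨m, hmI, hmφ⟩
    refine ⟨m, ?_⟩
    funext g
    rw [d₀₁_hom_apply]
    have key := s56g_cocycle_vanish q (Rep.res (primeLocalToGlobal q) M).ρ
      (fun g => c g - (M.ρ (primeLocalToGlobal q g) m - m)) ?_ hφ ?_ ?_ ?_ g
    · exact (sub_eq_zero.mp key).symm
    · intro g h
      show c (g * h) - (M.ρ (primeLocalToGlobal q (g * h)) m - m) =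
        M.ρ (primeLocalToGlobal q g) (c h - (M.ρ (primeLocalToGlobal q h) m - m)) +
          (c g - (M.ρ (primeLocalToGlobal q g) m - m))
      rw [hcoc g h, map_mul, map_mul, Module.End.mul_apply, map_sub, map_sub]
      show M.ρ (primeLocalToGlobal q g) (c h) + c g - _ = _
      abel
    · intro τ hτ
      show c τ - (M.ρ (primeLocalToGlobal q τ) m - m) = 0
      rw [hcI τ hτ, hmI τ hτ, sub_self, sub_zero]
    · show c φ - (M.ρ (primeLocalToGlobal q φ) m - m) = 0
      rw [hmφ, sub_self]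
    · exact s56g_isLevelConstant_sub hclev (s56g_isLevelConstant_d0 q M hsm m)

end Detect

section Global

/-- **(InvUnr)** -/
theorem s56g_ifaceInvUnr : s56g_IfaceInvUnr := by
  intro k _ q M hsm hur φ hφ m
  rw [Representation.mem_invariants]
  constructor
  · intro h
    obtain ⟨φ', rfl⟩ := s56g_exists_loc_eq q hφ.mem_decompositionSubgroup
    exact h φ'
  · intro hφm g
    show M.ρ (primeLocalToGlobal q g) m = m
    obtain ⟨F, hF, hFm⟩ := hsm m
    obtain ⟨j, ι, hι, hs⟩ := s56g_ifaceFrobGen q q.2 (primeLocalPlace q) (s56g_place_liesOver q)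
      φ hφ F hF _ (s56g_loc_mem_decomp q g)
    have e : primeLocalToGlobal q g = φ ^ j * ι * ((φ ^ j * ι)⁻¹ * primeLocalToGlobal q g) := by
      group
    have hpow : ∀ n : ℕ, (M.ρ φ ^ n) m = m := by
      intro n
      induction n with
      | zero => simp
      | succ n ih => rw [pow_succ, Module.End.mul_apply, hφm, ih]
    rw [e, map_mul, map_mul, map_pow, Module.End.mul_apply, Module.End.mul_apply, hFm _ hs, hur ι hι,
      Module.End.one_apply, hpow]

/-- **(Detect)** -/
theorem s56g_ifaceDetect : s56g_IfaceDetect := by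
  intro k _ q M hsm hur φ hφ c hclev hcI
  have h1 : (s56g_loc q M).hom ((H1π M).hom c) =
      (H1π (Rep.res (primeLocalToGlobal q) M)).hom
        (mapCocycles₁ (primeLocalToGlobal q) (𝟙 (Rep.res (primeLocalToGlobal q) M)) c) :=
    H1π_comp_map_apply (primeLocalToGlobal q) (𝟙 (Rep.res (primeLocalToGlobal q) M)) c
  set c' := mapCocycles₁ (primeLocalToGlobal q) (𝟙 (Rep.res (primeLocalToGlobal q) M)) c with hc'
  have hc'app : ∀ g, c' g = c (primeLocalToGlobal q g) := fun g => by
    rw [hc', coe_mapCocycles₁]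
    rfl
  have hc'lev : IsLevelConstant₁ (primeLocalToGlobal q) c' := by
    obtain ⟨F, hF, h⟩ := hclev
    refine ⟨F, hF, fun g s hs => ?_⟩
    rw [hc'app, hc'app, map_mul]
    exact h _ _ hs
  have hc'I : ∀ τ ∈ s56g_Iq q, c' τ = 0 := fun τ hτ => by
    rw [hc'app]
    exact hcI _ hτ
  refine ⟨?_, ?_⟩
  · rw [h1]
    exact ⟨c', hc'lev, hc'I, rfl⟩
  · rw [h1]
    obtain ⟨φ', rfl⟩ := s56g_exists_loc_eq q hφ.mem_decompositionSubgroup
    rw [s56g_ifaceDetectLoc k q M hsm φ' hφ c' hc'lev hc'I]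
    constructor
    · rintro ⟨m, -, hm⟩
      exact ⟨m, by rw [← hc'app]; exact hm⟩
    · rintro ⟨m, hm⟩
      refine ⟨m, fun τ hτ => ?_, by rw [hc'app]; exact hm⟩
      rw [hur _ hτ]
      rfl

end Global

section UnrLe

variable {k : Type} [CommRing k] (q : Nat.Primes) (M : Rep.{0} k GQ)

/-- the inertia invariants `N = M^{I_q}` -/
def s56g_inertiaInv : Submodule k M where
  carrier := {m | ∀ τ ∈ s56g_Iq q, M.ρ (primeLocalToGlobal q τ) m = m}
  add_mem' := fun {a b} ha hb τ hτ => by rw [map_add, ha τ hτ, hb τ hτ]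
  zero_mem' := fun τ _ => map_zero _
  smul_mem' := fun a m hm τ hτ => by rw [map_smul, hm τ hτ]

lemma s56g_mem_inertiaInv (m : M) :
    m ∈ s56g_inertiaInv q M ↔ ∀ τ ∈ s56g_Iq q, M.ρ (primeLocalToGlobal q τ) m = m := Iff.rfl

/-- `G_q` preserves the inertia invariants -/
lemma s56g_smul_mem_inertiaInv (g : primeLocalGaloisGroup q) {m : M}
    (hm : m ∈ s56g_inertiaInv q M) : M.ρ (primeLocalToGlobal q g) m ∈ s56g_inertiaInv q M := by
  intro τ hτ
  have h1 : g⁻¹ * τ * g⁻¹⁻¹ ∈ s56g_Iq q := s56g_conj_mem_Iq q g⁻¹ hτ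
  have h2 := hm _ h1
  have e : τ * g = g * (g⁻¹ * τ * g⁻¹⁻¹) := by group
  rw [← Module.End.mul_apply, ← map_mul, ← map_mul, e, map_mul, map_mul, Module.End.mul_apply, h2]

/-- the level-constant cocycles of `G_q` vanishing on inertia -/
def s56g_Zur : Submodule k (cocycles₁ (Rep.res (primeLocalToGlobal q) M)) where
  carrier := {c | IsLevelConstant₁ (primeLocalToGlobal q) c ∧ ∀ τ ∈ s56g_Iq q, c τ = 0}
  add_mem' := by
    rintro c c' ⟨hc, hc0⟩ ⟨hc', hc0'⟩
    refine ⟨hc.add hc', fun τ hτ => ?_⟩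
    show c τ + c' τ = 0
    rw [hc0 τ hτ, hc0' τ hτ, add_zero]
  zero_mem' := ⟨isLevelConstant₁_const _ (0 : M), fun _ _ => rfl⟩
  smul_mem' := by
    rintro a c ⟨hc, hc0⟩
    refine ⟨hc.comp (a • ·), fun τ hτ => ?_⟩
    show a • c τ = 0
    rw [hc0 τ hτ, smul_zero]

/-- the value at Frobenius of a cocycle vanishing on inertia is inertia-invariant -/
lemma s56g_apply_mem_inertiaInv (φ : primeLocalGaloisGroup q)
    {c : cocycles₁ (Rep.res (primeLocalToGlobal q) M)} (hc : c ∈ s56g_Zur q M) :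
    (c φ : M) ∈ s56g_inertiaInv q M := by
  intro τ hτ
  have hcoc := (mem_cocycles₁_iff (c : primeLocalGaloisGroup q → M)).mp c.2
  have h1 : φ⁻¹ * τ * φ⁻¹⁻¹ ∈ s56g_Iq q := s56g_conj_mem_Iq q φ⁻¹ hτ
  have e : τ * φ = φ * (φ⁻¹ * τ * φ⁻¹⁻¹) := by group
  have h2 := hcoc τ φ
  have h3 := hcoc φ (φ⁻¹ * τ * φ⁻¹⁻¹)
  rw [← e, hc.2 _ h1, map_zero, zero_add] at h3
  rw [h3, hc.2 τ hτ, add_zero] at h2
  exact h2.symm

end UnrLe

/-- `H¹_ur(G_q, M)` is finite-dimensional of dimension at most `h⁰(G_q, M)` -/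
theorem s56g_unr_core (k : Type) [Field k] (q : Nat.Primes) (M : Rep.{0} k GQ)
    [FiniteDimensional k M] (hsm : s56g_IsSmooth M) :
    Module.Finite k (s56g_H1ur q M) ∧
    Module.finrank k (s56g_H1ur q M) ≤
      Module.finrank k (Rep.res (primeLocalToGlobal q) M).ρ.invariants := by
  obtain ⟨φ, hφ⟩ := s56g_exists_local_frob q
  set A := Rep.res (primeLocalToGlobal q) M with hA
  set N := s56g_inertiaInv q M with hN
  let T : N →ₗ[k] N := (M.ρ (primeLocalToGlobal q φ)).restrict
    (fun m hm => s56g_smul_mem_inertiaInv q M φ hm)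
  set R : Submodule k N := LinearMap.range (T - 1) with hR
  set Z := s56g_Zur q M with hZ
  let ev : Z →ₗ[k] N :=
    { toFun := fun c => ⟨(c : cocycles₁ A) φ, s56g_apply_mem_inertiaInv q M φ c.2⟩
      map_add' := fun c c' => rfl
      map_smul' := fun a c => rfl }
  let f : Z →ₗ[k] H1 A := (H1π A).hom ∘ₗ Z.subtype
  let g : Z →ₗ[k] N ⧸ R := R.mkQ ∘ₗ ev
  have hrange : LinearMap.range f = s56g_H1ur q M := by
    ext x
    constructor
    · rintro ⟨c, rfl⟩
      exact ⟨c.1, c.2.1, c.2.2, rfl⟩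
    · rintro ⟨c, hc, hc0, rfl⟩
      exact ⟨⟨c, hc, hc0⟩, rfl⟩
  have hker : LinearMap.ker f = LinearMap.ker g := by
    ext c
    rw [LinearMap.mem_ker, LinearMap.mem_ker]
    show (H1π A).hom (c : cocycles₁ A) = 0 ↔ R.mkQ (ev c) = 0
    rw [s56g_ifaceDetectLoc k q M hsm φ hφ c.1 c.2.1 c.2.2, Submodule.mkQ_apply,
      Submodule.Quotient.mk_eq_zero, hR, LinearMap.mem_range]
    constructor
    · rintro ⟨m, hmI, hm⟩
      refine ⟨⟨m, hmI⟩, ?_⟩
      apply Subtype.ext
      show M.ρ (primeLocalToGlobal q φ) m - m = (c : cocycles₁ A) φ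
      exact hm.symm
    · rintro ⟨n, hn⟩
      refine ⟨n.1, n.2, ?_⟩
      have := congrArg Subtype.val hn
      exact this.symm
  have h1 : Module.Finite k (s56g_H1ur q M) ∧
      Module.finrank k (s56g_H1ur q M) = Module.finrank k (LinearMap.range g) := by
    rw [← hrange]
    let e := Submodule.equivSubtypeMap (cocycles₁ A) Z
    let f' : ↥(Z.map (cocycles₁ A).subtype) →ₗ[k] H1 A := f ∘ₗ e.symm.toLinearMap
    let g' : ↥(Z.map (cocycles₁ A).subtype) →ₗ[k] N ⧸ R := g ∘ₗ e.symm.toLinearMap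
    have hf' : LinearMap.range f' = LinearMap.range f := LinearEquiv.range_comp e.symm f
    have hg' : LinearMap.range g' = LinearMap.range g := LinearEquiv.range_comp e.symm g
    have hker' : LinearMap.ker f' = LinearMap.ker g' := by
      ext c
      have := SetLike.ext_iff.mp hker (e.symm c)
      simpa [LinearMap.mem_ker, f', g'] using this
    let E : ↥(LinearMap.range g') ≃ₗ[k] ↥(LinearMap.range f') :=
      ((LinearMap.quotKerEquivRange (R := k) g').symm.trans
        (Submodule.quotEquivOfEq _ _ hker'.symm)).trans (LinearMap.quotKerEquivRange (R := k) f')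
    rw [← hf', ← hg']
    exact ⟨Module.Finite.equiv E, (LinearEquiv.finrank_eq E).symm⟩
  have h2 : Module.finrank k (LinearMap.range g) ≤ Module.finrank k (N ⧸ R) :=
    Submodule.finrank_le _
  have h3 : Module.finrank k (N ⧸ R) = Module.finrank k (LinearMap.ker (T - 1)) := by
    have e1 := (T - 1).finrank_range_add_finrank_ker
    have e2 := R.finrank_quotient_add_finrank
    rw [hR] at e2 ⊢
    omega
  have h4 : (LinearMap.ker (T - 1)).map N.subtype = A.ρ.invariants := by
    ext m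
    rw [Representation.mem_invariants, Submodule.mem_map]
    constructor
    · rintro ⟨n, hn, rfl⟩ γ
      show M.ρ (primeLocalToGlobal q γ) (n : M) = n
      have hn' : M.ρ (primeLocalToGlobal q φ) (n : M) = n := by
        rw [LinearMap.mem_ker, LinearMap.sub_apply, sub_eq_zero] at hn
        exact congrArg Subtype.val hn
      obtain ⟨F, hF, hFm⟩ := hsm (n : M)
      obtain ⟨j, ι, s', hι, hs, rfl⟩ := s56g_local_frobGen q hφ F hF γ
      have hpow : ∀ i : ℕ, (M.ρ (primeLocalToGlobal q φ) ^ i) (n : M) = n := by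
        intro i
        induction i with
        | zero => simp
        | succ i ih => rw [pow_succ, Module.End.mul_apply, hn', ih]
      rw [map_mul, map_mul, map_mul, map_mul, map_pow, map_pow, Module.End.mul_apply,
        Module.End.mul_apply, hFm _ hs, n.2 ι hι, hpow]
    · intro h
      have hmN : m ∈ N := fun τ _ => h τ
      refine ⟨⟨m, hmN⟩, ?_, rfl⟩
      rw [LinearMap.mem_ker, LinearMap.sub_apply, sub_eq_zero]
      apply Subtype.ext
      exact h φ
  have h5 : Module.finrank k (LinearMap.ker (T - 1)) = Module.finrank k A.ρ.invariants := by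
    rw [← h4]
    exact (Submodule.finrank_map_subtype_eq N (LinearMap.ker (T - 1))).symm
  have h6 : Module.finrank k (s56g_H1ur q M) ≤ Module.finrank k A.ρ.invariants := by
    have := h1.2
    omega
  exact ⟨h1.1, h6⟩

/-- **(UnrLe)** -/
theorem s56g_ifaceUnrLe : s56g_IfaceUnrLe := by
  intro k _ q M _ hsm
  exact (s56g_unr_core k q M hsm).2

end Fermat.Agent.Lib.S56
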