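/-
PROGRAMME W (S56), wall [W6] (helper6, prefix `s56g_`): TAYLOR–WILES PRIMES, local side.
* `s56g_locZeroInertia` : a cocycle of an unramified module whose class dies at `q` vanishes on the
  inertia group of the `q`-adic place;
* `s56g_ifaceTWH1` : `dim H¹_cont(G_q, M) ≤ dim ker (φ - 1) + dim ker (φ - q)` for `M` unramified at
  `q ≠ p = char k`.
-/
import Mathlib
import Fermat.Agent.Lib.S56.GUnr

set_option autoImplicit false
set_option linter.unusedSectionVars false
set_option linter.style.haveILetI false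

namespace Fermat.Agent.Lib.S56

open groupCohomology ExtCitation CategoryTheory Fermat.Agent.Lib.PT Fermat.Agent.Lib.S35

local notation "Qbar" => AlgebraicClosure ℚ
local notation "GQ" => (AlgebraicClosure ℚ ≃ₐ[ℚ] AlgebraicClosure ℚ)

section LocZero

variable {k : Type} [CommRing k] (q : Nat.Primes) (N : Rep.{0} k GQ)

/-- **(LocZeroInertia)** for `N` unramified at `q`: a cocycle whose class dies at `q` vanishes on the
inertia group of the `q`-adic place. -/
theorem s56g_locZeroInertia (hur : s56g_IsUnrAt N q) (c : cocycles₁ N)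
    (h0 : (s56g_loc q N).hom ((H1π N).hom c) = 0) :
    ∀ σ ∈ (primeLocalPlace q).inertiaSubgroupIn ℚ, c σ = 0 := by
  intro σ hσ
  have h1 : (s56g_loc q N).hom ((H1π N).hom c) =
      (H1π (Rep.res (primeLocalToGlobal q) N)).hom
        (mapCocycles₁ (primeLocalToGlobal q) (𝟙 (Rep.res (primeLocalToGlobal q) N)) c) :=
    H1π_comp_map_apply (primeLocalToGlobal q) (𝟙 (Rep.res (primeLocalToGlobal q) N)) c
  rw [h1, H1π_eq_zero_iff] at h0
  obtain ⟨m, hm⟩ := h0
  obtain ⟨g, rfl⟩ := s56g_exists_loc_eq q (s56g_inertia_le_decomp q hσ)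
  have h2 := congrFun hm g
  rw [d₀₁_hom_apply, coe_mapCocycles₁] at h2
  have h3 : N.ρ (primeLocalToGlobal q g) m = m := by
    rw [hur _ hσ]; rfl
  have h4 : c (primeLocalToGlobal q g) = (Rep.res (primeLocalToGlobal q) N).ρ g m - m := h2.symm
  rw [h4]
  show N.ρ (primeLocalToGlobal q g) m - m = 0
  rw [h3, sub_self]

end LocZero

section LA

/-- linear algebra: `dim f(Z) ≤ dim e(Z) + dim S` if `f (ker e) ⊆ S` -/
lemma s56g_finrank_range_le {k : Type*} [Field k] {Z X Y : Type*} [AddCommGroup Z] [Module k Z]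
    [AddCommGroup X] [Module k X] [AddCommGroup Y] [Module k Y] [FiniteDimensional k Y]
    (f : Z →ₗ[k] X) (e : Z →ₗ[k] Y) (S : Submodule k X) [FiniteDimensional k S]
    (h : ∀ z, e z = 0 → f z ∈ S) :
    Module.finrank k (LinearMap.range f) ≤
      Module.finrank k (LinearMap.range e) + Module.finrank k S := by
  obtain ⟨s, hs⟩ := LinearMap.exists_rightInverse_of_surjective e.rangeRestrict
    (LinearMap.range_rangeRestrict e)
  set T : Submodule k X := LinearMap.range (f ∘ₗ s) with hT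
  have hle : LinearMap.range f ≤ S ⊔ T := by
    rintro _ ⟨z, rfl⟩
    have h1 : e (z - s (e.rangeRestrict z)) = 0 := by
      have h2 := LinearMap.congr_fun hs (e.rangeRestrict z)
      have h3 : e (s (e.rangeRestrict z)) = e z := by
        have := congrArg Subtype.val h2
        simpa using this
      rw [map_sub, h3, sub_self]
    have h4 : f z = f (z - s (e.rangeRestrict z)) + (f ∘ₗ s) (e.rangeRestrict z) := by
      rw [LinearMap.comp_apply, ← map_add, sub_add_cancel]
    rw [h4]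
    exact Submodule.add_mem_sup (h _ h1) ⟨_, rfl⟩
  calc Module.finrank k (LinearMap.range f) ≤ Module.finrank k ↥(S ⊔ T) := Submodule.finrank_mono hle
    _ ≤ Module.finrank k S + Module.finrank k T := Submodule.finrank_add_le_finrank_add_finrank S T
    _ ≤ Module.finrank k S + Module.finrank k (LinearMap.range e) :=
        Nat.add_le_add_left (LinearMap.finrank_range_le _) _
    _ = _ := Nat.add_comm _ _

end LA

section TWH1

variable {k : Type} [Field k] (q : Nat.Primes) (M : Rep.{0} k GQ)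

/-- the cocycles of `G_q` of level `F`, as a submodule of the function space -/
def s56g_ZF (F : IntermediateField ℚ Qbar) : Submodule k (primeLocalGaloisGroup q → M) where
  carrier := {c | c ∈ cocycles₁ (Rep.res (primeLocalToGlobal q) M) ∧
    ∀ g s : primeLocalGaloisGroup q, primeLocalToGlobal q s ∈ F.fixingSubgroup → c (g * s) = c g}
  add_mem' := by
    rintro c c' ⟨hc, hl⟩ ⟨hc', hl'⟩
    refine ⟨Submodule.add_mem _ hc hc', fun g s hs => ?_⟩
    show c (g * s) + c' (g * s) = c g + c' g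
    rw [hl g s hs, hl' g s hs]
  zero_mem' := ⟨Submodule.zero_mem _, fun _ _ _ => rfl⟩
  smul_mem' := by
    rintro a c ⟨hc, hl⟩
    refine ⟨Submodule.smul_mem _ a hc, fun g s hs => ?_⟩
    show a • c (g * s) = a • c g
    rw [hl g s hs]

variable {q M}

lemma s56g_ZF_coc {F : IntermediateField ℚ Qbar} {c : primeLocalGaloisGroup q → M}
    (hc : c ∈ s56g_ZF q M F) (g h : primeLocalGaloisGroup q) :
    c (g * h) = M.ρ (primeLocalToGlobal q g) (c h) + c g :=
  (mem_cocycles₁_iff (A := Rep.res (primeLocalToGlobal q) M) c).mp hc.1 g h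

lemma s56g_ZF_one {F : IntermediateField ℚ Qbar} {c : primeLocalGaloisGroup q → M}
    (hc : c ∈ s56g_ZF q M F) : c 1 = 0 := by
  have := s56g_ZF_coc hc 1 1
  rw [mul_one, map_one, map_one, Module.End.one_apply] at this
  simpa using this

/-- on inertia, a cocycle of an unramified module is additive -/
lemma s56g_ZF_mul_of_inertia (hur : s56g_IsUnrAt M q) {F : IntermediateField ℚ Qbar}
    {c : primeLocalGaloisGroup q → M} (hc : c ∈ s56g_ZF q M F) {g : primeLocalGaloisGroup q}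
    (hg : g ∈ s56g_Iq q) (h : primeLocalGaloisGroup q) : c (g * h) = c h + c g := by
  rw [s56g_ZF_coc hc, hur _ hg, Module.End.one_apply]

lemma s56g_ZF_pow_of_inertia (hur : s56g_IsUnrAt M q) {F : IntermediateField ℚ Qbar}
    {c : primeLocalGaloisGroup q → M} (hc : c ∈ s56g_ZF q M F) {g : primeLocalGaloisGroup q}
    (hg : g ∈ s56g_Iq q) (j : ℕ) : c (g ^ j) = j • c g := by
  induction j with
  | zero => rw [pow_zero, zero_smul]; exact s56g_ZF_one hc
  | succ j ih => rw [pow_succ', s56g_ZF_mul_of_inertia hur hc hg, ih, succ_nsmul]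

variable (q M)

/-- the common kernel on inertia of all cocycles of level `F` -/
def s56g_KF (hur : s56g_IsUnrAt M q) (F : IntermediateField ℚ Qbar) :
    Subgroup (primeLocalGaloisGroup q) where
  carrier := {τ | τ ∈ s56g_Iq q ∧ ∀ c ∈ s56g_ZF q M F, c τ = 0}
  mul_mem' := by
    rintro a b ⟨ha, ha0⟩ ⟨hb, hb0⟩
    refine ⟨Subgroup.mul_mem _ ha hb, fun c hc => ?_⟩
    rw [s56g_ZF_mul_of_inertia hur hc ha, ha0 c hc, hb0 c hc, add_zero]
  one_mem' := ⟨Subgroup.one_mem _, fun c hc => s56g_ZF_one hc⟩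
  inv_mem' := by
    rintro a ⟨ha, ha0⟩
    refine ⟨Subgroup.inv_mem _ ha, fun c hc => ?_⟩
    have h := s56g_ZF_mul_of_inertia hur hc ha a⁻¹
    rw [mul_inv_cancel, s56g_ZF_one hc, ha0 c hc, add_zero] at h
    exact h.symm

/-- **the tame generator at level `F`**: one inertia element `τ` which controls all cocycles of
level `F` on inertia, with `φ (c τ) = q • c τ`. -/
theorem s56g_exists_tame_gen {p : ℕ} [Fact p.Prime] [CharP k p] (hqp : (q : ℕ) ≠ p)
    (hur : s56g_IsUnrAt M q) (F : IntermediateField ℚ Qbar) (hF : FiniteDimensional ℚ F)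
    {φ : primeLocalGaloisGroup q}
    (hφ : (primeLocalPlace q).IsFrobeniusAt (primeLocalToGlobal q φ) q) :
    ∃ τ ∈ s56g_Iq q, ∀ c ∈ s56g_ZF q M F,
      (c τ = 0 → ∀ τ' ∈ s56g_Iq q, c τ' = 0) ∧
      M.ρ (primeLocalToGlobal q φ) (c τ) = ((q : ℕ) : k) • c τ := by
  have hinj := s56g_loc_injective q
  set K : Subgroup GQ := (s56g_KF q M hur F).map (primeLocalToGlobal q) with hK
  have hKmem : ∀ κ : primeLocalGaloisGroup q, primeLocalToGlobal q κ ∈ K → κ ∈ s56g_KF q M hur F := by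
    intro κ hκ
    obtain ⟨κ', hκ', he⟩ := hκ
    rwa [← hinj he]
  have h1 : ∃ F' : IntermediateField ℚ Qbar, FiniteDimensional ℚ F' ∧
      ∀ σ ∈ (primeLocalPlace q).inertiaSubgroupIn ℚ, σ ∈ F'.fixingSubgroup → σ ∈ K := by
    refine ⟨F, hF, fun σ hσ hσF => ?_⟩
    obtain ⟨s, rfl⟩ := s56g_exists_loc_eq q (s56g_inertia_le_decomp q hσ)
    refine ⟨s, ⟨hσ, fun c hc => ?_⟩, rfl⟩
    have := hc.2 1 s hσF
    rw [one_mul] at this
    rw [this]
    exact s56g_ZF_one hc
  have h2 : ∀ σ ∈ (primeLocalPlace q).inertiaSubgroupIn ℚ,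
      ∃ m : ℕ, m.Coprime (q : ℕ) ∧ σ ^ m ∈ K := by
    intro σ hσ
    obtain ⟨s, rfl⟩ := s56g_exists_loc_eq q (s56g_inertia_le_decomp q hσ)
    have hs : s ∈ s56g_Iq q := hσ
    refine ⟨p, ?_, s ^ p, ⟨Subgroup.pow_mem _ hs p, fun c hc => ?_⟩, map_pow _ _ _⟩
    · exact (Nat.coprime_primes (Fact.out : p.Prime) q.2).mpr (Ne.symm hqp)
    · rw [s56g_ZF_pow_of_inertia hur hc hs]
      have : ((p : ℕ) : k) = 0 := CharP.cast_eq_zero k p
      rw [← Nat.cast_smul_eq_nsmul k, this, zero_smul]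
  obtain ⟨τ₀, hτ₀, hgen, hfrob⟩ := s56g_ifaceTame q q.2 (primeLocalPlace q) (s56g_place_liesOver q) K h1 h2
  obtain ⟨τ, rfl⟩ := s56g_exists_loc_eq q (s56g_inertia_le_decomp q hτ₀)
  have hτ : τ ∈ s56g_Iq q := hτ₀
  refine ⟨τ, hτ, fun c hc => ⟨fun hcτ τ' hτ' => ?_, ?_⟩⟩
  · obtain ⟨j, hj⟩ := hgen _ hτ'
    rw [← map_pow, ← map_inv, ← map_mul] at hj
    have hκ := hKmem _ hj
    have e : τ' = τ ^ j * ((τ ^ j)⁻¹ * τ') := by group
    rw [e, s56g_ZF_mul_of_inertia hur hc (Subgroup.pow_mem _ hτ j), hκ.2 c hc,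
      s56g_ZF_pow_of_inertia hur hc hτ, hcτ, smul_zero, add_zero]
  · have hj := hfrob _ hφ
    rw [← map_pow, ← map_inv, ← map_inv, ← map_mul, ← map_mul, ← map_mul] at hj
    have hκ := hKmem _ hj
    have e : φ * τ * φ⁻¹ = τ ^ (q : ℕ) * ((τ ^ (q : ℕ))⁻¹ * (φ * τ * φ⁻¹)) := by group
    have h3 : c (φ * τ * φ⁻¹) = ((q : ℕ) : k) • c τ := by
      rw [e, s56g_ZF_mul_of_inertia hur hc (Subgroup.pow_mem _ hτ _), hκ.2 c hc,
        s56g_ZF_pow_of_inertia hur hc hτ, zero_add, Nat.cast_smul_eq_nsmul]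
    have h4 : c (φ * τ * φ⁻¹) = M.ρ (primeLocalToGlobal q φ) (c τ) := by
      have a1 := s56g_ZF_coc hc (φ * τ) φ⁻¹
      have a2 := s56g_ZF_coc hc φ τ
      have a3 := s56g_ZF_coc hc φ φ⁻¹
      rw [mul_inv_cancel, s56g_ZF_one hc] at a3
      rw [a1, a2, map_mul, map_mul, Module.End.mul_apply, hur _ hτ, Module.End.one_apply]
      have : M.ρ (primeLocalToGlobal q φ) (c φ⁻¹) = - c φ := by
        rw [eq_neg_iff_add_eq_zero]; exact a3.symm
      rw [this]
      abel
    rw [← h4, h3]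

/-- **(TWH1)** -/
theorem s56g_ifaceTWH1 : s56g_IfaceTWH1 := by
  intro k _ p _ _ q hqp M _ hsm hur φ hφ
  set A := Rep.res (primeLocalToGlobal q) M with hA
  set H := continuousH1 (primeLocalToGlobal q) A with hH
  by_cases hfin : Module.Finite k H
  swap
  · rw [Module.finrank_of_not_finite hfin]; exact Nat.zero_le _
  obtain ⟨φ', rfl⟩ := s56g_exists_loc_eq q hφ.mem_decompositionSubgroup
  -- a basis and representatives
  let b := Module.finBasis k H
  have hrep : ∀ i, ∃ c : cocycles₁ A, IsLevelConstant₁ (primeLocalToGlobal q) c ∧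
      (H1π A).hom c = (b i : H1 A) :=
    fun i => (mem_continuousH1_iff _ _ _).mp (b i).2
  choose c hclev hcb using hrep
  choose Fi hFi hFic using hclev
  set F : IntermediateField ℚ Qbar := ⨆ i, Fi i with hFdef
  haveI : ∀ i, FiniteDimensional ℚ (Fi i) := hFi
  have hF : FiniteDimensional ℚ F := IntermediateField.finiteDimensional_iSup_of_finite
  have hcZ : ∀ i, (c i : primeLocalGaloisGroup q → M) ∈ s56g_ZF q M F := by
    intro i
    refine ⟨(c i).2, fun g s hs => hFic i g s ?_⟩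
    exact IntermediateField.fixingSubgroup_antitone (le_iSup Fi i) hs
  obtain ⟨τ, hτ, hτc⟩ := s56g_exists_tame_gen q M (p := p) hqp hur F hF hφ
  set Z := s56g_ZF q M F with hZ
  let ι : Z →ₗ[k] cocycles₁ A := LinearMap.codRestrict (cocycles₁ A) Z.subtype (fun z => z.2.1)
  let f : Z →ₗ[k] H1 A := (H1π A).hom ∘ₗ ι
  set Y : Submodule k M :=
    LinearMap.ker (M.ρ (primeLocalToGlobal q φ') - ((q : ℕ) : k) • (1 : Module.End k M)) with hY
  let e : Z →ₗ[k] Y := LinearMap.codRestrict Y ((LinearMap.proj τ).comp Z.subtype) (fun z => by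
    rw [hY, LinearMap.mem_ker, LinearMap.sub_apply, LinearMap.smul_apply, Module.End.one_apply,
      sub_eq_zero]
    exact (hτc z.1 z.2).2)
  obtain ⟨hSfin, hSle⟩ := s56g_unr_core k q M hsm
  haveI := hSfin
  have hker : ∀ z, e z = 0 → f z ∈ s56g_H1ur q M := by
    intro z hz
    have hz' : (z : primeLocalGaloisGroup q → M) τ = 0 := congrArg Subtype.val hz
    have hI := (hτc z.1 z.2).1 hz'
    exact ⟨ι z, ⟨F, hF, z.2.2⟩, hI, rfl⟩
  have hrange : LinearMap.range f = H := by
    apply le_antisymm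
    · rintro _ ⟨z, rfl⟩
      exact (mem_continuousH1_iff _ _ _).mpr ⟨ι z, ⟨F, hF, z.2.2⟩, rfl⟩
    · intro x hx
      have hx' : (⟨x, hx⟩ : H) ∈ Submodule.span k (Set.range b) := by
        rw [b.span_eq]; exact Submodule.mem_top
      have hmap : x ∈ (Submodule.span k (Set.range b)).map H.subtype := ⟨⟨x, hx⟩, hx', rfl⟩
      rw [Submodule.map_span] at hmap
      refine Submodule.span_le.mpr ?_ hmap
      rintro _ ⟨_, ⟨i, rfl⟩, rfl⟩
      exact ⟨⟨c i, hcZ i⟩, hcb i⟩
  have h1 := s56g_finrank_range_le f e (s56g_H1ur q M) hker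
  have h2 : Module.finrank k (LinearMap.range e) ≤ Module.finrank k Y := Submodule.finrank_le _
  have h3 : A.ρ.invariants = LinearMap.ker (M.ρ (primeLocalToGlobal q φ') - 1) := by
    ext m
    rw [s56g_ifaceInvUnr k q M hsm hur _ hφ m, LinearMap.mem_ker, LinearMap.sub_apply,
      Module.End.one_apply, sub_eq_zero]
  rw [hrange] at h1
  have h4 : Module.finrank k H ≤ Module.finrank k Y + Module.finrank k A.ρ.invariants :=
    h1.trans (Nat.add_le_add h2 hSle)
  rw [← h3]
  exact h4.trans_eq (Nat.add_comm _ _)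

end TWH1

end Fermat.Agent.Lib.S56
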