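/-
PROGRAMME W (S56), wall [W6] (helper6, prefix `s56g_`): THE PRIMES `q ∈ Smin \ {p}`.
`s56g_ifaceUnip`: a first-order deformation which is unipotent on inertia at `q ≠ p`, `ρ̄` ramified
at `q`, has a cocycle which is a coboundary (of a trace-zero `m`) on the inertia group.
-/
import Mathlib
import Fermat.Agent.Lib.S56.IfaceW6
import Fermat.Agent.Lib.S56.GLinAlg
import Fermat.Agent.Lib.S56.GDecomp

set_option autoImplicit false
set_option linter.unusedSectionVars false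

namespace Fermat.Agent.Lib.S56

open Polynomial

local notation "Qbar" => AlgebraicClosure ℚ
local notation "GQ" => (AlgebraicClosure ℚ ≃ₐ[ℚ] AlgebraicClosure ℚ)

section Unip

variable {k : Type} [Field k] {V : Type} [AddCommGroup V] [Module k V]

/-- powers of `1 + n`, `n² = 0` -/
lemma s56g_pow_of_sq_zero (u : Module.End k V) (hn : (u - 1) * (u - 1) = 0) (j : ℕ) :
    u ^ j = 1 + j • (u - 1) := by
  induction j with
  | zero => simp
  | succ j ih =>
    have hu : u = 1 + (u - 1) := by abel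
    rw [pow_succ, ih]
    nth_rewrite 2 [hu]
    rw [add_mul, mul_add, mul_add, one_mul, mul_one, one_mul, smul_mul_assoc, hn, smul_zero,
      add_zero, succ_nsmul]
    abel

variable (ρ : GQ →* Module.End k V) (c : GQ → Module.End k V)

/-- the elements where both `ρ` and the cocycle `c` are trivial -/
def s56g_unipKer (hc : ∀ σ τ, c (σ * τ) = c σ + ρ σ * c τ * ρ σ⁻¹) : Subgroup GQ where
  carrier := {σ | ρ σ = 1 ∧ c σ = 0}
  mul_mem' := by
    rintro a b ⟨ha, ha0⟩ ⟨hb, hb0⟩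
    refine ⟨by rw [map_mul, ha, hb, one_mul], ?_⟩
    rw [hc, ha0, hb0, mul_zero, zero_mul, add_zero]
  one_mem' := by
    refine ⟨map_one ρ, ?_⟩
    have := hc 1 1
    rw [mul_one, inv_one, map_one, one_mul, mul_one] at this
    exact left_eq_add.mp this
  inv_mem' := by
    rintro a ⟨ha, ha0⟩
    have ha' : ρ a⁻¹ = 1 := by
      have : ρ a * ρ a⁻¹ = 1 := by rw [← map_mul, mul_inv_cancel, map_one]
      rwa [ha, one_mul] at this
    refine ⟨ha', ?_⟩
    have h1 : c 1 = 0 := by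
      have := hc 1 1
      rw [mul_one, inv_one, map_one, one_mul, mul_one] at this
      exact left_eq_add.mp this
    have := hc a a⁻¹
    rw [mul_inv_cancel, h1, ha0, ha, ha', one_mul, mul_one, zero_add] at this
    exact this.symm

end Unip

/-- **(Unip)** -/
theorem s56g_ifaceUnip : s56g_IfaceUnip := by
  intro k _ p _ _ hp2 q hq hqp P hP V _ _ _ hV ρ c hc hlev hunip hram
  have hpk : ((p : ℕ) : k) = 0 := CharP.cast_eq_zero k p
  have h2k : (2 : k) ≠ 0 := by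
    intro h
    have h' : ((2 : ℕ) : k) = 0 := by exact_mod_cast h
    rw [CharP.cast_eq_zero_iff k p] at h'
    have hp := (Fact.out : p.Prime)
    rcases (Nat.dvd_prime Nat.prime_two).mp h' with h1 | h1
    · exact hp.ne_one h1
    · exact hp2 h1
  have hinv : ∀ σ : GQ, ρ σ * ρ σ⁻¹ = 1 := fun σ => by rw [← map_mul, mul_inv_cancel, map_one]
  have hinv' : ∀ σ : GQ, ρ σ⁻¹ * ρ σ = 1 := fun σ => by rw [← map_mul, inv_mul_cancel, map_one]
  have hc1 : c 1 = 0 := by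
    have := hc 1 1
    rw [mul_one, inv_one, map_one, one_mul, mul_one] at this
    exact left_eq_add.mp this
  -- unipotency
  have hsq : ∀ σ ∈ P.inertiaSubgroupIn ℚ, (ρ σ - 1) * (ρ σ - 1) = 0 := by
    intro σ hσ
    have h1 := LinearMap.aeval_self_charpoly (ρ σ)
    rw [(hunip σ hσ).1] at h1
    simpa [pow_two] using h1
  set N := s56g_unipKer ρ c hc with hN
  -- hypotheses of (Tame)
  have h1 : ∃ F : IntermediateField ℚ Qbar, FiniteDimensional ℚ F ∧
      ∀ σ ∈ P.inertiaSubgroupIn ℚ, σ ∈ F.fixingSubgroup → σ ∈ N := by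
    obtain ⟨F, hF, hFc⟩ := hlev
    exact ⟨F, hF, fun σ _ hσF => hFc σ hσF⟩
  have h2 : ∀ σ ∈ P.inertiaSubgroupIn ℚ, ∃ m : ℕ, m.Coprime q ∧ σ ^ m ∈ N := by
    intro σ hσ
    have hp := (Fact.out : p.Prime)
    refine ⟨p ^ 2, Nat.Coprime.pow_left 2 ((Nat.coprime_primes hp hq).mpr (Ne.symm hqp)), ?_⟩
    have hρp : ρ (σ ^ p) = 1 := by
      rw [map_pow, s56g_pow_of_sq_zero (ρ σ) (hsq σ hσ), ← Nat.cast_smul_eq_nsmul k, hpk, zero_smul,
        add_zero]
    have hρpi : ρ (σ ^ p)⁻¹ = 1 := by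
      have := hinv (σ ^ p)
      rwa [hρp, one_mul] at this
    have hadd : ∀ j : ℕ, c ((σ ^ p) ^ j) = j • c (σ ^ p) := by
      intro j
      induction j with
      | zero => rw [pow_zero, zero_smul]; exact hc1
      | succ j ih => rw [pow_succ', hc, hρp, hρpi, one_mul, mul_one, ih, succ_nsmul, add_comm]
    refine ⟨?_, ?_⟩
    · rw [pow_two, pow_mul, map_pow, hρp, one_pow]
    · rw [pow_two, pow_mul, hadd, ← Nat.cast_smul_eq_nsmul k, hpk, zero_smul]
  obtain ⟨τ, hτ, hgen, -⟩ := s56g_ifaceTame q hq P hP N h1 h2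
  -- `ρ τ ≠ 1`
  have hpowρ : ∀ σ ∈ P.inertiaSubgroupIn ℚ, ∃ j : ℕ, ρ σ = ρ τ ^ j := by
    intro σ hσ
    obtain ⟨j, hj⟩ := hgen σ hσ
    refine ⟨j, ?_⟩
    have e : σ = τ ^ j * ((τ ^ j)⁻¹ * σ) := by group
    rw [e, map_mul, hj.1, mul_one, map_pow]
  have hu1 : ρ τ ≠ 1 := by
    intro h
    obtain ⟨σ, hσ, hσ1⟩ := hram
    obtain ⟨j, hj⟩ := hpowρ σ hσ
    rw [h, one_pow] at hj
    exact hσ1 hj
  obtain ⟨hτ1, hτ2, hτ3⟩ := hunip τ hτ
  obtain ⟨m, hm0, hm⟩ := s56g_ifaceUnipLA k V hV h2k (ρ τ) (ρ τ⁻¹) (c τ) (hinv τ) (hsq τ hτ) hu1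
    hτ2 hτ3
  refine ⟨m, hm0, ?_⟩
  -- the difference cocycle
  set c' : GQ → Module.End k V := fun σ => c σ - (ρ σ * m * ρ σ⁻¹ - m) with hc'
  have hc'coc : ∀ σ σ', c' (σ * σ') = c' σ + ρ σ * c' σ' * ρ σ⁻¹ := by
    intro σ σ'
    simp only [hc']
    rw [hc, mul_inv_rev, map_mul, map_mul]
    have e1 : ρ σ * ρ σ' * m * (ρ σ'⁻¹ * ρ σ⁻¹) = ρ σ * (ρ σ' * m * ρ σ'⁻¹) * ρ σ⁻¹ := by
      simp only [mul_assoc]
    rw [e1]
    simp only [mul_sub, sub_mul]
    abel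
  have hc'τ : c' τ = 0 := by
    simp only [hc']
    rw [hm, sub_self]
  have hc'pow : ∀ j : ℕ, c' (τ ^ j) = 0 := by
    intro j
    induction j with
    | zero =>
      simp only [hc', pow_zero]
      rw [hc1, inv_one, map_one, one_mul, mul_one, sub_self, sub_self]
    | succ j ih => rw [pow_succ', hc'coc, hc'τ, ih, mul_zero, zero_mul, add_zero]
  intro σ hσ
  obtain ⟨j, hj⟩ := hgen σ hσ
  have e : σ = τ ^ j * ((τ ^ j)⁻¹ * σ) := by group
  have hκ' : c' ((τ ^ j)⁻¹ * σ) = 0 := by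
    have hκi : ρ ((τ ^ j)⁻¹ * σ)⁻¹ = 1 := by
      have := hinv ((τ ^ j)⁻¹ * σ)
      rwa [hj.1, one_mul] at this
    simp only [hc']
    rw [hj.2, hj.1, hκi, one_mul, mul_one, sub_self, sub_self]
  have hσ0 : c' σ = 0 := by
    rw [e, hc'coc, hc'pow, hκ', mul_zero, zero_mul, add_zero]
  exact sub_eq_zero.mp hσ0

end Fermat.Agent.Lib.S56
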