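/-
PROGRAMME W (S56), TOP ASSEMBLY (lead + helper7, prefix `s56z_`): **DRAFT of the list of statements which the top
consumes from every wall, in the final vocabulary** (= W2's: `M : Rep (ZMod p) G_ℚ`, `𝔽_p`-dimensions,
`s56b_H1`, `s56b_H1q`, `s56b_loc`, `s56b_selmer`, `s56b_orth`, `s56b_GW`; W1's `s56a_ad0`, `s56a_liftRep`,
`s56a_SelmerStatement`; W6's `s56g_H1ur`).  Everything here is a DEFINITION; `s56z_TopStmt` is what `ZTop.lean`
will prove, the `s56z_K…` are the contracts (owner in brackets).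

Notation: `k` the residue field, `d = [k : 𝔽_p]`, `M = ad⁰ρ̄` over `𝔽_p` (`s56z_M`), `M' = M.dualTwist (cycloChar p)`
(`s56z_Md`), `Σ₀ = Smin`, `Σ = Smin ∪ Q` (as `Finset Nat.Primes`: `s56z_prm`).  Local conditions `s56z_L Pp Σ₀ Σ`:
at `p` the `𝔽_p`-span of the localisations of ALL global first-order lifts of local type `Pp` (canonical, independent
of `Q`); at `q ∈ Σ₀ \ {p}` the unramified classes; at the other `q ∈ Σ` everything.

The count (all dimensions over `𝔽_p`).  `r := dim H¹(G_{Σ₀}, M')` (finite: T10) — the WHOLE `H¹(G_{Σ₀}, M')`, not the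
dual Selmer group: S56 only asks for SOME `r`, and this choice removes every requirement on the dual local
conditions at `Σ₀` (no `L_p^⊥`, no unramified annihilator).  Given `n`, (T9 = W7) gives `Q = Q_n`, `#Q = r`, such
that no nonzero class of `H¹(G_{Σ₀}, M')` is locally trivial at all `q ∈ Q`.  Put `Σ = Σ₀ ∪ Q`, `L = s56z_L Pp Σ₀ Σ`.
* For `[c]` in W1's Selmer set of type `(cond Σ, unipotent at Smin)`: (T6) `c` is `Σ`-level-constant, its localisation
  at `p` lies in `L_p` by definition, at `q ∈ Σ₀ \ {p}` it is unramified by (T7); so `[c] ∈ H¹_L(G_Σ, M)`.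
* (T1) gives `B` with `h¹_L(M) + h⁰(M') + Σ_q h⁰(G_q,M) + dim M^{c=1} = h¹_{L^⊥}(M') + h⁰(M) + Σ_q dim L_q`; with (T5)
  `h⁰(M) = 0`, `dim M^{c=1} ≥ d` and the local bounds (T2) `dim L_p ≤ h⁰(G_p,M) + d`, (T3) `dim H¹_ur(G_q,M) ≤ h⁰(G_q,M)`,
  (T4) `dim H¹(G_q,M) ≤ h⁰(G_q,M) + d` (`q ∈ Q`): `h¹_L(M) ≤ h¹_{L^⊥}(M') + d·#Q`.
* `H¹_{L^⊥}(G_Σ, M') = 0`: a class `y` in it has `loc_q y ∈ ⊤^⊥ = 0` for `q ∈ Q` (perfectness, T1), so (T8) its cocycle
  vanishes on the inertia groups above `Q`, so (T9') it is `Σ₀`-level-constant, i.e. `y ∈ H¹(G_{Σ₀}, M')`, and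
  (`s56g_IfaceDetect`) it is locally trivial at every `q ∈ Q`; hence `y = 0` by (T9).
Hence `#H¹_L(G_Σ,M) ≤ p^{d r} = |k|^r`, and `T :=` the image of `H¹_L(G_Σ, M)` in `H¹(G_ℚ, ad⁰ρ̄)` (same cocycles, same
coboundaries) contains the Selmer set.
-/
import Fermat.Agent.Lib.S56.ADefs
import Fermat.Agent.Lib.S56.BGWConc
import Fermat.Agent.Lib.S56.IfaceW6

set_option autoImplicit false

noncomputable section

namespace Fermat.Agent.Lib.S56

open groupCohomology ExtCitation CategoryTheory Module IsLocalRing Polynomial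

local notation "GQ" => (AlgebraicClosure ℚ ≃ₐ[ℚ] AlgebraicClosure ℚ)

/-! ### §0 Vocabulary -/

section Vocabulary

variable (p : ℕ) [Fact p.Prime] {k : Type} [Field k] [Algebra (ZMod p) k] (ρbar : ResidualGaloisRep k)

/-- the `𝔽_p`-module structure on `sl(V̄)` (restriction of scalars along `𝔽_p → k`). -/
@[reducible] def s56z_modSl : Module (ZMod p) ↥(s56a_sl ρbar) :=
  Module.compHom _ (algebraMap (ZMod p) k)

/-- `ad⁰ρ̄` as a representation over `𝔽_p`. -/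
def s56z_rep : @Representation (ZMod p) GQ ↥(s56a_sl ρbar) _ _ _ (s56z_modSl p ρbar) :=
  letI := s56z_modSl p ρbar
  { toFun := fun σ =>
      { toFun := fun X => s56a_ad0Rep ρbar σ X
        map_add' := fun X Y => map_add _ X Y
        map_smul' := fun a X => by
          show s56a_ad0Rep ρbar σ ((algebraMap (ZMod p) k a) • X) =
            (algebraMap (ZMod p) k a) • s56a_ad0Rep ρbar σ X
          rw [map_smul] }
    map_one' := by
      ext X : 2
      show ((s56a_ad0Rep ρbar 1 X : ↥(s56a_sl ρbar)) : Module.End k ρbar.V) = X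
      rw [map_one]; rfl
    map_mul' := fun σ τ => by
      ext X : 2
      show ((s56a_ad0Rep ρbar (σ * τ) X : ↥(s56a_sl ρbar)) : Module.End k ρbar.V) =
        (s56a_ad0Rep ρbar σ (s56a_ad0Rep ρbar τ X) : ↥(s56a_sl ρbar))
      rw [map_mul]; rfl }

/-- **`M = ad⁰ρ̄` as an object of `Rep (ZMod p) G_ℚ`** (the coefficients of W2, W3, W4); the underlying type is
`↥(s56a_sl ρbar)`, definitionally. -/
def s56z_M : Rep.{0} (ZMod p) GQ :=
  @Rep.of (ZMod p) GQ _ _ ↥(s56a_sl ρbar) _ (s56z_modSl p ρbar) (s56z_rep p ρbar)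

/-- **`M' = Hom(M, μ_p)`**, the Tate dual of W2. -/
def s56z_Md : Rep.{0} (ZMod p) GQ := s56b_dual (s56z_M p ρbar)

/-- a `k`-cocycle of `ad⁰ρ̄` is an `𝔽_p`-cocycle of `M` (same function). -/
def s56z_coc (c : cocycles₁ (s56a_ad0 ρbar)) : cocycles₁ (s56z_M p ρbar) :=
  ⟨c.1, (mem_cocycles₁_def (A := s56z_M p ρbar) c.1).2
    (fun g h => (mem_cocycles₁_def (A := s56a_ad0 ρbar) c.1).1 c.2 g h)⟩

/-- the primes of a finite set of natural numbers. -/
def s56z_prm (T : Finset ℕ) : Finset Nat.Primes := Finset.subtype Nat.Prime T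

/-- `H¹(G_q, N)` (continuous classes), for ANY prime `q` (W2's `s56b_H1q S N ⟨q, _⟩` is this, definitionally). -/
abbrev s56z_H1q (N : Rep.{0} (ZMod p) GQ) (q : Nat.Primes) : Type :=
  ↥(continuousH1 (primeLocalToGlobal q) (Rep.res (primeLocalToGlobal q) N))

/-- a uniform family of local pairings `H¹(G_q,M) × H¹(G_q,M') → 𝔽_p`, one for every prime `q` [W3]. -/
abbrev s56z_Pairings : Type :=
  ∀ q : Nat.Primes, s56z_H1q p (s56z_M p ρbar) q →ₗ[ZMod p]
    s56z_H1q p (s56z_Md p ρbar) q →ₗ[ZMod p] ZMod p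

/-- the class in `H¹(G_Σ, M)` of a `Σ`-level-constant `k`-cocycle of `ad⁰ρ̄`. -/
def s56z_cls (Sg : Finset Nat.Primes) (c : cocycles₁ (s56a_ad0 ρbar))
    (hc : IsLevelConstantS₁ Sg c.1) : s56b_H1 Sg (s56z_M p ρbar) :=
  ⟨(H1π (s56z_M p ρbar)).hom (s56z_coc p ρbar c),
    (mem_continuousH1S_iff Sg (s56z_M p ρbar) _).2 ⟨s56z_coc p ρbar c, hc, rfl⟩⟩

/-- the localisation at `q` of the class of a level-constant `k`-cocycle of `ad⁰ρ̄`, in `H¹(G_q, M)`. -/
def s56z_locCls (q : Nat.Primes) (c : cocycles₁ (s56a_ad0 ρbar)) :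
    H1 (Rep.res (primeLocalToGlobal q) (s56z_M p ρbar)) :=
  (s56g_loc q (s56z_M p ρbar)).hom ((H1π (s56z_M p ρbar)).hom (s56z_coc p ρbar c))

/-- **the canonical local condition** attached to a property `Pp` of first-order lifts (for S56:
`ρ.DetIsCyclotomic p ∧ ρ.IsStrictOrdinaryAt p`, resp. `ρ.DetIsCyclotomic p ∧ ρ.IsFlatAt p`): the `𝔽_p`-span of the
localisations at `q` of the classes of ALL level-constant global cocycles whose lift `(1 + εc)ρ̄` has the property.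
Used at `q = pPrime p` only (stated for all `q` to avoid casts). -/
def s56z_Lp (Pp : GaloisRepAdic (DualNumber k) → Prop) (q : Nat.Primes) :
    Submodule (ZMod p) (s56z_H1q p (s56z_M p ρbar) q) :=
  Submodule.span (ZMod p) {x | ∃ (c : cocycles₁ (s56a_ad0 ρbar)) (hc : s56a_IsLevel c.1),
    Pp (s56a_liftRep ρbar c hc) ∧
      (x : H1 (Rep.res (primeLocalToGlobal q) (s56z_M p ρbar))) = s56z_locCls p ρbar q c}

/-- the unramified classes at `q`, as a subspace of the continuous classes. -/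
def s56z_Lur (q : Nat.Primes) : Submodule (ZMod p) (s56z_H1q p (s56z_M p ρbar) q) :=
  (s56g_H1ur q (s56z_M p ρbar)).comap (Submodule.subtype _)

open Classical in
/-- **the local conditions** on `Σ ⊇ Σ₀ ∋ p`. -/
def s56z_L (Pp : GaloisRepAdic (DualNumber k) → Prop) (Sg0 Sg : Finset Nat.Primes) :
    ∀ q : ↥Sg, Submodule (ZMod p) (s56b_H1q Sg (s56z_M p ρbar) q) := fun q =>
  if q.1 = pPrime p then s56z_Lp p ρbar Pp q.1
  else if q.1 ∈ Sg0 then s56z_Lur p ρbar q.1 else ⊤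

/-- the Selmer group `H¹_L(G_Σ, M)`. -/
def s56z_Sel (Pp : GaloisRepAdic (DualNumber k) → Prop) (Sg0 Sg : Finset Nat.Primes) :
    Submodule (ZMod p) (s56b_H1 Sg (s56z_M p ρbar)) :=
  s56b_selmer (s56b_loc Sg (s56z_M p ρbar)) (s56z_L p ρbar Pp Sg0 Sg)

/-- the dual Selmer group `H¹_{L^⊥}(G_Σ, M')` for the pairings `B`. -/
def s56z_DSel (B : s56z_Pairings p ρbar) (Pp : GaloisRepAdic (DualNumber k) → Prop)
    (Sg0 Sg : Finset Nat.Primes) : Submodule (ZMod p) (s56b_H1 Sg (s56z_Md p ρbar)) :=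
  s56b_selmer (s56b_loc Sg (s56z_Md p ρbar))
    (fun q => s56b_orth (B q.1) (s56z_L p ρbar Pp Sg0 Sg q))

/-- the weakest form of "`y ∈ H¹(G_ℚ, N)` is locally trivial at `q`" (what W7 consumes): for SOME place over `q`,
SOME Frobenius `φ` there and SOME cocycle `c` representing `y`, `c φ ∈ (φ - 1) N`. -/
def s56z_LocTrivAt (N : Rep.{0} (ZMod p) GQ) (q : ℕ) (y : H1 N) : Prop :=
  ∃ P : ValuationSubring (AlgebraicClosure ℚ), P.LiesOverPrime q ∧
    ∃ φ : GQ, P.IsFrobeniusAt φ q ∧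
      ∃ c : cocycles₁ N, (H1π N).hom c = y ∧ c.val φ ∈ LinearMap.range (N.ρ φ - 1)

end Vocabulary

/-! ### §1 The contracts -/

section Contracts

/-- smoothness of a `G_ℚ`-module (the hypothesis `hsm` of S55, W2, W6). -/
def s56z_Smooth {p : ℕ} [Fact p.Prime] (N : Rep.{0} (ZMod p) GQ) : Prop :=
  ∀ m : N, ∃ F : IntermediateField ℚ (AlgebraicClosure ℚ), FiniteDimensional ℚ F ∧
    ∀ s ∈ F.fixingSubgroup, N.ρ s m = m

/-- `N` is unramified outside `Sg` (the hypothesis `hMur` of S55, W2). -/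
def s56z_UnrOutside {p : ℕ} [Fact p.Prime] (N : Rep.{0} (ZMod p) GQ) (Sg : Finset Nat.Primes) : Prop :=
  ∀ q : Nat.Primes, q ∉ Sg → ∀ A : ValuationSubring (AlgebraicClosure ℚ),
    A.LiesOverPrime (q : ℕ) → ∀ g ∈ A.inertiaSubgroupIn ℚ, N.ρ g = 1

/-- **(T1) [W2 + W3 + W4 + tail + S55]** Greenberg–Wiles with perfect local pairings, for every finite smooth
`𝔽_p[G_ℚ]`-module unramified outside `Σ ∋ p`.  (The pairings may depend on `Σ`: the top only uses
`orth (B q) ⊤ = ⊥`.) -/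
def s56z_GWStmt : Prop :=
  ∀ (p : ℕ) [Fact p.Prime], p ≠ 2 → ∀ (Sg : Finset Nat.Primes), pPrime p ∈ Sg →
    ∀ (N : Rep.{0} (ZMod p) GQ) [FiniteDimensional (ZMod p) N], s56z_Smooth N → s56z_UnrOutside N Sg →
      ∃ B : s56b_Pairings Sg N, s56b_LocalDuality B ∧ s56b_GW B

/-- **(T10) [W2 tail, helper9: `s56t_finite_continuousH1S`]** finiteness of `H¹(G_Σ, N)`. -/
def s56z_FinStmt : Prop :=
  ∀ (p : ℕ) [Fact p.Prime], p ≠ 2 → ∀ (Sg : Finset Nat.Primes), pPrime p ∈ Sg →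
    ∀ (N : Rep.{0} (ZMod p) GQ) [FiniteDimensional (ZMod p) N], s56z_Smooth N → s56z_UnrOutside N Sg →
      Module.Finite (ZMod p) ↥(continuousH1S Sg N)

/-- **the Greenberg–Wiles UPPER BOUND** (verbatim helper3's `s56c_GWle`, `CGWleConc.lean`): for every family of
local conditions, `h¹_L(N) + h⁰(N') + Σ_q h⁰(G_q,N) + dim N^{c=1} ≤ h¹_{L^⊥}(N') + h⁰(N) + Σ_q dim L_q`. -/
def s56z_GWle {p : ℕ} [Fact p.Prime] {Sg : Finset Nat.Primes} {N : Rep.{0} (ZMod p) GQ}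
    (B : s56b_Pairings Sg N) : Prop :=
  ∀ L : ∀ q : ↥Sg, Submodule (ZMod p) (s56b_H1q Sg N q),
    finrank (ZMod p) (s56b_selmer (s56b_loc Sg N) L) +
        finrank (ZMod p) (s56b_dual N).ρ.invariants +
        ∑ q : ↥Sg, finrank (ZMod p) (s56b_Mq Sg N q).ρ.invariants +
        finrank (ZMod p) (Rep.res archimedeanLoc N).ρ.invariants ≤
      finrank (ZMod p) (s56b_selmer (s56b_loc Sg (s56b_dual N)) fun q => s56b_orth (B q) (L q)) +
        finrank (ZMod p) N.ρ.invariants +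
        ∑ q : ↥Sg, finrank (ZMod p) (L q)

variable (p : ℕ) [Fact p.Prime] {k : Type} [Field k] [Algebra (ZMod p) k] (ρbar : ResidualGaloisRep k)

/-- **(T1′) [W2 `s56b_gwle` (helper4) + W4 `euler'` for `ad⁰ρ̄`]** the form of (T1) which the top uses: for
`N = s56z_M p ρbar` only, with the upper bound only. -/
def s56z_GWleStmt : Prop :=
  ∀ (Sg : Finset Nat.Primes), pPrime p ∈ Sg → s56z_UnrOutside (s56z_M p ρbar) Sg →
    ∃ B : s56b_Pairings Sg (s56z_M p ρbar), s56b_LocalDuality B ∧ s56z_GWle B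

/-- **(T2) [W5 for `Pp` = strict ordinary, W8 for `Pp` = flat; + the `k → 𝔽_p` dictionary of W1-bis]**
`dim_{𝔽_p} L_p ≤ h⁰(G_p, M) + [k : 𝔽_p]`. -/
def s56z_LpBound (Pp : GaloisRepAdic (DualNumber k) → Prop) : Prop :=
  finrank (ZMod p) ↥(s56z_Lp p ρbar Pp (pPrime p)) ≤
    finrank (ZMod p) ↥(Rep.res (primeLocalToGlobal (pPrime p)) (s56z_M p ρbar)).ρ.invariants +
      finrank (ZMod p) k

/-- **(T3) [W6]** is `s56g_IfaceUnrLe` (used with the field `ZMod p` and `M = s56z_M`). -/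
abbrev s56z_UnrBound : Prop := s56g_IfaceUnrLe

/-- **(T4) [W6 `TWH1` + `TWLA` + `InvUnr`, or W3 `LocalTerm` + W6 `TWInv`]** at a Taylor–Wiles prime `q`:
`dim_{𝔽_p} H¹(G_q, M) ≤ h⁰(G_q, M) + [k : 𝔽_p]`. -/
def s56z_TWBound : Prop :=
  ∀ q : Nat.Primes, p ∣ (q : ℕ) - 1 →
    (∀ P : ValuationSubring (AlgebraicClosure ℚ), P.LiesOverPrime (q : ℕ) →
      ∀ σ ∈ P.inertiaSubgroupIn ℚ, ρbar.ρ σ = 1) →
    (∃ φ : GQ, (primeLocalPlace q).IsFrobeniusAt φ q ∧ ∃ α β : k, α ≠ β ∧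
      LinearMap.charpoly (ρbar.ρ φ) = (X - C α) * (X - C β)) →
    finrank (ZMod p) (s56z_H1q p (s56z_M p ρbar) q) ≤
      finrank (ZMod p) ↥(Rep.res (primeLocalToGlobal q) (s56z_M p ρbar)).ρ.invariants +
        finrank (ZMod p) k

/-- **(T5) [top]** `H⁰(G_ℚ, M) = 0` (Schur) and `dim M^{c=1} ≥ [k : 𝔽_p]` (oddness).  (`h⁰(G_ℚ, M') ≥ 0` is
all that the count uses on the dual side.) -/
def s56z_GlobInv : Prop :=
  finrank (ZMod p) ↥(s56z_M p ρbar).ρ.invariants = 0 ∧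
    finrank (ZMod p) k ≤ finrank (ZMod p) ↥(Rep.res archimedeanLoc (s56z_M p ρbar)).ρ.invariants

/-- **(T6) [W1-bis (G1), helper2]** a first-order lift unramified outside `T` has a `T`-level-constant cocycle. -/
def s56z_LevelOfUnr : Prop :=
  ∀ (c : cocycles₁ (s56a_ad0 ρbar)) (hc : s56a_IsLevel c.1) (T : Finset ℕ),
    (∀ q : ℕ, q.Prime → q ∉ T → (s56a_liftRep ρbar c hc).IsUnramifiedAt q) →
      IsLevelConstantS₁ (s56z_prm T) c.1

/-- **(T7) [W6 `Unip`]** at `q ≠ p` where `ρ̄` is ramified, a first-order lift which is unipotent on inertia has a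
cocycle which is a coboundary on the inertia group of the `q`-adic place. -/
def s56z_UnipCob : Prop :=
  ∀ q : Nat.Primes, (q : ℕ) ≠ p → ¬ ρbar.IsUnramifiedAt q →
    ∀ (c : cocycles₁ (s56a_ad0 ρbar)) (hc : s56a_IsLevel c.1),
      (s56a_liftRep ρbar c hc).IsUnipotentOnInertiaAt q →
      ∃ m : ↥(s56a_sl ρbar), ∀ σ ∈ (primeLocalPlace q).inertiaSubgroupIn ℚ,
        c.1 σ = s56a_ad0Rep ρbar σ m - m

/-- **(T8) [W6]** for `N` smooth and unramified at `q`: a global continuous class which dies at `q` has (every)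
cocycle vanishing on the inertia group of the `q`-adic place.  (With `s56g_IfaceDetect` this gives
`c φ ∈ (φ - 1) N`; the other places over `q` follow by conjugation in the top.) -/
def s56z_LocZeroInertia : Prop :=
  ∀ (q : Nat.Primes) (N : Rep.{0} (ZMod p) GQ), s56z_Smooth N →
    (∀ σ ∈ (primeLocalPlace q).inertiaSubgroupIn ℚ, N.ρ σ = 1) →
    ∀ c : cocycles₁ N, IsLevelConstant₁ (MonoidHom.id GQ) c →
      (s56g_loc q N).hom ((H1π N).hom c) = 0 →
      ∀ σ ∈ (primeLocalPlace q).inertiaSubgroupIn ℚ, c.1 σ = 0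

/-- **(T9) [W7, helper7 + helper8]** THE TAYLOR–WILES PRIMES: for every `n` and every finite-dimensional
`𝔽_p`-space `D` of continuous classes in `H¹(G_ℚ, M')` there are `dim_{𝔽_p} D` distinct primes `q ∉ S`,
`q ≡ 1 mod p^(n+1)`, all of whose Frobenii have distinct eigenvalues in `k`, such that no nonzero class of `D`
is locally trivial at all of them. -/
def s56z_PrimesStmt (S : Finset ℕ) : Prop :=
  ∀ (n : ℕ) (D : Submodule (ZMod p) (H1 (s56z_Md p ρbar))),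
    D ≤ continuousH1 (MonoidHom.id GQ) (s56z_Md p ρbar) → FiniteDimensional (ZMod p) ↥D →
    ∃ qv : Fin (finrank (ZMod p) ↥D) → ℕ, Function.Injective qv ∧
      (∀ i, (qv i).Prime ∧ qv i ∉ S ∧ p ^ (n + 1) ∣ qv i - 1) ∧
      (∀ i, ∀ P : ValuationSubring (AlgebraicClosure ℚ), P.LiesOverPrime (qv i) →
        ∀ φ : GQ, P.IsFrobeniusAt φ (qv i) →
          ∃ α β : k, α ≠ β ∧ LinearMap.charpoly (ρbar.ρ φ) = (X - C α) * (X - C β)) ∧
      ∀ y ∈ D, (∀ i, s56z_LocTrivAt p (s56z_Md p ρbar) (qv i) y) → y = 0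

/-- **(T9') [top, helper7]** level lowering: a `Σ`-level-constant cocycle which vanishes on all inertia groups
above the primes of `Σ \ Σ₀` is `Σ₀`-level-constant. -/
def s56z_LevelLowering : Prop :=
  ∀ (N : Rep.{0} (ZMod p) GQ) (Sg0 Sg : Finset Nat.Primes) (c : cocycles₁ N),
    IsLevelConstantS₁ Sg c.1 →
    (∀ q ∈ Sg, q ∉ Sg0 → ∀ P : ValuationSubring (AlgebraicClosure ℚ), P.LiesOverPrime (q : ℕ) →
      ∀ σ ∈ P.inertiaSubgroupIn ℚ, c.1 σ = 0) →
    IsLevelConstantS₁ Sg0 c.1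

end Contracts

/-! ### §2 What the top proves -/

section Top

open Fermat.Agent.Lib.Deform (dualNumberAlgebra)

/-- **THE TOP** (`ZTop.lean`): under the hypotheses of S56, the contracts (T1)–(T10) give the two numerical Selmer
statements of W1 (`s56a_result_of_selmer` then gives S56 verbatim). -/
def s56z_TopStmt : Prop :=
  ∀ {𝒪 : Type} [CommRing 𝒪] [IsDomain 𝒪] [IsDiscreteValuationRing 𝒪]
    [IsAdicComplete (maximalIdeal 𝒪) 𝒪] [Finite (ResidueField 𝒪)]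
    (p : ℕ) [Fact p.Prime] (_hp2 : p ≠ 2) (_hp𝒪 : (p : 𝒪) ∈ maximalIdeal 𝒪)
    [Algebra (ZMod p) (ResidueField 𝒪)]
    (ρbar : ResidualGaloisRep (ResidueField 𝒪))
    (_habs : ρbar.IsAbsolutelyIrreducible)
    (_hdet : (GaloisRepAdic.ofResidualGaloisRep ρbar).DetIsCyclotomic p)
    (S Smin : Finset ℕ) (_hpSmin : p ∈ Smin) (_hSmin : Smin ⊆ S) (_hS : ∀ q ∈ S, q.Prime)
    (_hmin : ∀ q : ℕ, q.Prime → q ≠ p → (q ∈ Smin ↔ ¬ ρbar.IsUnramifiedAt q)),
    s56z_GWStmt → s56z_FinStmt →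
    s56z_LpBound p ρbar (fun ρ => ρ.DetIsCyclotomic p ∧ ρ.IsStrictOrdinaryAt p) →
    s56z_LpBound p ρbar (fun ρ => ρ.DetIsCyclotomic p ∧ ρ.IsFlatAt p) →
    s56z_UnrBound → s56z_TWBound p ρbar → s56z_GlobInv p ρbar → s56z_LevelOfUnr ρbar →
    s56z_UnipCob p ρbar → s56z_LocZeroInertia p → s56g_IfaceDetect → s56z_PrimesStmt p ρbar S →
    s56z_LevelLowering p →
    s56a_SelmerStatement 𝒪 ρbar p S Smin (GaloisRep.strictOrdinaryCondition 𝒪 p) ∧
      s56a_SelmerStatement 𝒪 ρbar p S Smin (GaloisRep.flatCondition 𝒪 p)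

end Top

end Fermat.Agent.Lib.S56
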