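/-
PROGRAMME W (S56), wall [W6] (helper6, prefix `s56g_`): the W6 contracts of `IfaceTop.lean` in the
top assembly's exact shapes.
* `s56g_unipCob`        : (T7) `s56z_UnipCob p ρbar`        (needs `p ≠ 2`);
* `s56g_locZeroInertia_top` : (T8) `s56z_LocZeroInertia p`;
* `s56g_twBound`        : (T4) `s56z_TWBound p ρbar`        (needs `p ≠ 2`, `k` finite over `𝔽_p`).
-/
import Mathlib
import Fermat.Agent.Lib.S56.IfaceTop
import Fermat.Agent.Lib.S56.ACocycle
import Fermat.Agent.Lib.S56.AAd0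
import Fermat.Agent.Lib.S56.GUnip
import Fermat.Agent.Lib.S56.GTW
import Fermat.Agent.Lib.Mz.ValConj

set_option autoImplicit false
set_option linter.unusedSectionVars false
set_option linter.style.haveILetI false

noncomputable section

namespace Fermat.Agent.Lib.S56

open groupCohomology ExtCitation CategoryTheory Module Polynomial Fermat.Agent.Lib.Mz
open Fermat.Agent.Lib.S53 (matOf matOfRes matOf_apply matOfRes_apply)

local notation "Qbar" => AlgebraicClosure ℚ
local notation "GQ" => (AlgebraicClosure ℚ ≃ₐ[ℚ] AlgebraicClosure ℚ)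

section Dict

variable {k : Type} [Field k] (ρbar : ResidualGaloisRep k)

/-- **dictionary**: the Prelude's unipotency condition for the first-order lift `(1 + εc) ρ̄`. -/
theorem s56g_unip_dict (c : cocycles₁ (s56a_ad0 ρbar)) (hc : s56a_IsLevel c.1) (σ : GQ)
    (h : LinearMap.charpoly ((s56a_liftRep ρbar c hc).ρ σ) = (X - 1) ^ 2) :
    LinearMap.charpoly (ρbar.ρ σ) = (X - 1) ^ 2 ∧
      LinearMap.trace k ρbar.V (s56a_toEnd ρbar (c.1 σ) * ρbar.ρ σ) = 0 := by
  set b : Basis (Fin 2) k ρbar.V := Module.finBasisOfFinrankEq k ρbar.V ρbar.finrank_eq with hb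
  set A : Matrix (Fin 2) (Fin 2) k := matOfRes ρbar b σ with hA
  set B : Matrix (Fin 2) (Fin 2) k := LinearMap.toMatrix b b (s56a_toEnd ρbar (c.1 σ)) * A with hB
  have h1 : (s56a_mkM A B).charpoly = (X - 1) ^ 2 := by
    rw [← s56a_matOf_liftRep ρbar b c hc σ]
    exact (LinearMap.charpoly_toMatrix ((s56a_liftRep ρbar c hc).ρ σ)
      (s56a_epsBasis ρbar b)).trans h
  rw [Matrix.charpoly_fin_two] at h1
  have e : ((X : Polynomial (DualNumber k)) - 1) ^ 2 = X ^ 2 - C 2 * X + C 1 := by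
    rw [map_ofNat, map_one]; ring
  rw [e] at h1
  have c1 := congrArg (fun f => Polynomial.coeff f 1) h1
  have c0 := congrArg (fun f => Polynomial.coeff f 0) h1
  simp only [coeff_add, coeff_sub, coeff_X_pow, coeff_C_mul, coeff_X_one, coeff_C_zero,
    coeff_C_succ, coeff_X_zero] at c1 c0
  norm_num at c1 c0
  have htr : (s56a_mkM A B).trace = 2 := c1
  have hdet : (s56a_mkM A B).det = 1 := c0
  have two : (2 : DualNumber k) = 1 + 1 := by norm_num
  have htrA : A.trace = 2 := by
    have := congrArg TrivSqZeroExt.fst htr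
    rw [two] at this
    simp [Matrix.trace_fin_two, s56a_mkM] at this
    rw [Matrix.trace_fin_two, this]
    norm_num
  have htrB : B.trace = 0 := by
    have := congrArg TrivSqZeroExt.snd htr
    rw [two] at this
    simp [Matrix.trace_fin_two, s56a_mkM] at this
    rw [Matrix.trace_fin_two, this]
  have hdetA : A.det = 1 := by
    have := congrArg TrivSqZeroExt.fst hdet
    simpa [Matrix.det_fin_two, s56a_mkM] using this
  constructor
  · rw [← LinearMap.charpoly_toMatrix (ρbar.ρ σ) b, ← matOfRes_apply, ← hA,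
      Matrix.charpoly_fin_two, htrA, hdetA]
    rw [map_ofNat, map_one]; ring
  · rw [LinearMap.trace_eq_matrix_trace k b, LinearMap.toMatrix_mul, ← matOfRes_apply, ← hA, ← hB]
    exact htrB

end Dict

section Contracts

variable (p : ℕ) [Fact p.Prime] {k : Type} [Field k] [Algebra (ZMod p) k]
  (ρbar : ResidualGaloisRep k)

/-- **(T7)** `s56z_UnipCob` -/
theorem s56g_unipCob (hp2 : p ≠ 2) : s56z_UnipCob p ρbar := by
  intro q hqp hram c hc hU
  haveI : CharP k p := charP_of_injective_algebraMap (algebraMap (ZMod p) k).injective p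
  haveI : FiniteDimensional k ρbar.V :=
    Module.finite_of_finrank_pos (by rw [ρbar.finrank_eq]; norm_num)
  have hP := s56g_place_liesOver q
  -- `ρ̄` is ramified at the `q`-adic place
  have hram' : ∃ σ ∈ (primeLocalPlace q).inertiaSubgroupIn ℚ, ρbar.ρ σ ≠ 1 := by
    unfold ResidualGaloisRep.IsUnramifiedAt at hram
    push Not at hram
    obtain ⟨A', hA', τ, hτ, hτ1⟩ := hram
    obtain ⟨g, hg⟩ := ptm_inertia_conj q.2 (primeLocalPlace q) A' hP hA'
    refine ⟨g * τ * g⁻¹, hg τ hτ, fun h => hτ1 ?_⟩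
    have e : τ = g⁻¹ * (g * τ * g⁻¹) * g := by group
    rw [e, map_mul, map_mul, h, mul_one, ← map_mul, inv_mul_cancel, map_one]
  obtain ⟨F, hF, hFc⟩ := id hc
  obtain ⟨L, hL, hρL⟩ := ρbar.factorsThroughFiniteLevel
  have hlev : ∃ F' : IntermediateField ℚ Qbar, FiniteDimensional ℚ F' ∧
      ∀ σ ∈ F'.fixingSubgroup, ρbar.ρ σ = 1 ∧ s56a_toEnd ρbar (c.1 σ) = 0 := by
    refine ⟨F ⊔ L, IntermediateField.finiteDimensional_sup F L, fun σ hσ => ⟨?_, ?_⟩⟩
    · exact hρL σ fun x hx => (IntermediateField.mem_fixingSubgroup_iff _ σ).1 hσ x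
        ((le_sup_right : L ≤ F ⊔ L) hx)
    · have hσF : σ ∈ F.fixingSubgroup :=
        IntermediateField.fixingSubgroup_antitone (le_sup_left : F ≤ F ⊔ L) hσ
      have := hFc 1 σ hσF
      rw [one_mul] at this
      rw [this]
      exact s56a_cocycle_apply_one ρbar c
  obtain ⟨m, hm0, hm⟩ := s56g_ifaceUnip k p hp2 q q.2 hqp (primeLocalPlace q) hP ρbar.V
    ρbar.finrank_eq ρbar.ρ (fun σ => s56a_toEnd ρbar (c.1 σ))
    (fun σ τ => s56a_cocycle_apply_mul ρbar c σ τ) hlev
    (fun σ hσ => by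
      obtain ⟨h1, h2⟩ := s56g_unip_dict ρbar c hc σ (hU _ hP σ hσ)
      exact ⟨h1, (s56a_mem_sl ρbar _).1 (c.1 σ).2, h2⟩) hram'
  refine ⟨⟨m, (s56a_mem_sl ρbar m).2 hm0⟩, fun σ hσ => Subtype.ext ?_⟩
  exact hm σ hσ

/-- **(T8)** `s56z_LocZeroInertia` -/
theorem s56g_locZeroInertia_top : s56z_LocZeroInertia p := by
  intro q N _ hur c _ h0
  exact s56g_locZeroInertia q N hur c h0

/-- **(T4)** `s56z_TWBound` (for `k` finite over `𝔽_p`, `p ≠ 2`) -/
theorem s56g_twBound (hp2 : p ≠ 2) [Module.Finite (ZMod p) k] : s56z_TWBound p ρbar := by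
  intro q hpq hunr hfrob
  obtain ⟨φ, hφ, α, β, hαβ, hchar⟩ := hfrob
  haveI : CharP k p := charP_of_injective_algebraMap (algebraMap (ZMod p) k).injective p
  haveI : FiniteDimensional k ρbar.V :=
    Module.finite_of_finrank_pos (by rw [ρbar.finrank_eq]; norm_num)
  have hp := (Fact.out : p.Prime)
  have h2k : (2 : k) ≠ 0 := by
    intro h
    have h' : ((2 : ℕ) : k) = 0 := by exact_mod_cast h
    rw [CharP.cast_eq_zero_iff k p] at h'
    rcases (Nat.dvd_prime Nat.prime_two).mp h' with h1 | h1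
    · exact hp.ne_one h1
    · exact hp2 h1
  have hP := s56g_place_liesOver q
  have hq1 : 1 ≤ (q : ℕ) := q.2.one_lt.le
  have hqp : (q : ℕ) ≠ p := by
    intro h
    rw [h] at hpq
    have := Nat.le_of_dvd (by have := hp.two_le; omega) hpq
    have := hp.two_le
    omega
  have hqk : (((q : ℕ) : ℕ) : ZMod p) = 1 := by
    have e : (q : ℕ) = ((q : ℕ) - 1) + 1 := by omega
    rw [e, Nat.cast_add, (ZMod.natCast_eq_zero_iff _ _).2 hpq, zero_add, Nat.cast_one]
  set M : Rep.{0} (ZMod p) GQ := s56z_M p ρbar with hM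
  have hMe : M = s56a_resF (ZMod p) (s56a_ad0 ρbar) := rfl
  haveI : FiniteDimensional (ZMod p) M := by
    rw [hMe]; exact s56a_finite_ad0_res ρbar (ZMod p)
  have hsm : s56g_IsSmooth M := fun m => s56a_ad0_res_smooth ρbar (ZMod p) m
  have hur : s56g_IsUnrAt M q := fun σ hσ =>
    s56a_ad0_res_unramified ρbar (ZMod p) q hunr (primeLocalPlace q) hP σ hσ
  have h1 := s56g_ifaceTWH1 (ZMod p) p q hqp M hsm hur φ hφ
  rw [hqk, one_smul] at h1
  -- the invariants are the fixed space of Frobenius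
  have h3 : (Rep.res (primeLocalToGlobal q) M).ρ.invariants = LinearMap.ker (M.ρ φ - 1) := by
    ext m
    rw [s56g_ifaceInvUnr (ZMod p) q M hsm hur _ hφ m, LinearMap.mem_ker, LinearMap.sub_apply,
      Module.End.one_apply, sub_eq_zero]
  -- the fixed space of Frobenius is a `k`-line
  obtain ⟨ht0, hh0, hcent, -, -, -⟩ := s56g_ifaceTWLA k ρbar.V ρbar.finrank_eq h2k (ρbar.ρ φ)
    (ρbar.ρ φ⁻¹) α β (s56a_rho_mul_inv ρbar φ) hαβ hchar
  set h : Module.End k ρbar.V := ρbar.ρ φ - ((α + β) / 2) • (1 : Module.End k ρbar.V) with hh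
  have hmemker : ∀ X : M, X ∈ LinearMap.ker (M.ρ φ - 1) ↔
      ρbar.ρ φ * (X : ↥(s56a_sl ρbar)).1 * ρbar.ρ φ⁻¹ = (X : ↥(s56a_sl ρbar)).1 := by
    intro X
    rw [LinearMap.mem_ker, LinearMap.sub_apply, Module.End.one_apply, sub_eq_zero]
    constructor
    · intro hX
      exact congrArg Subtype.val hX
    · intro hX
      exact Subtype.ext hX
  let Λ : k →ₗ[ZMod p] LinearMap.ker (M.ρ φ - 1) :=
    { toFun := fun a => ⟨(⟨a • h, by
          rw [s56a_mem_sl, map_smul, ht0, smul_zero]⟩ : ↥(s56a_sl ρbar)),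
        (hmemker _).2 ((hcent (a • h) (by rw [map_smul, ht0, smul_zero])).2 ⟨a, rfl⟩)⟩
      map_add' := fun a b => by
        apply Subtype.ext
        apply Subtype.ext
        exact add_smul a b h
      map_smul' := fun r a => by
        apply Subtype.ext
        apply Subtype.ext
        show (r • a) • h = (algebraMap (ZMod p) k r) • (a • h)
        have e : r • a = algebraMap (ZMod p) k r * a := Algebra.smul_def r a
        rw [e, mul_smul] }
  have hΛinj : Function.Injective Λ := by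
    intro a b hab
    have h1 : a • h = b • h := congrArg (fun X => ((X : LinearMap.ker (M.ρ φ - 1)) : M).1) hab
    have h2 : (a - b) • h = 0 := by rw [sub_smul, h1, sub_self]
    rcases smul_eq_zero.mp h2 with h3 | h3
    · exact sub_eq_zero.mp h3
    · exact absurd h3 hh0
  have hΛsurj : Function.Surjective Λ := by
    intro X
    have hX := (hmemker X.1).1 X.2
    have htr : LinearMap.trace k ρbar.V ((X.1 : ↥(s56a_sl ρbar)).1) = 0 :=
      (s56a_mem_sl ρbar _).1 (X.1 : ↥(s56a_sl ρbar)).2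
    obtain ⟨a, ha⟩ := (hcent _ htr).1 hX
    refine ⟨a, ?_⟩
    apply Subtype.ext
    apply Subtype.ext
    exact ha.symm
  have h4 : finrank (ZMod p) (LinearMap.ker (M.ρ φ - 1)) = finrank (ZMod p) k :=
    (LinearEquiv.finrank_eq (LinearEquiv.ofBijective Λ ⟨hΛinj, hΛsurj⟩)).symm
  rw [h3]
  rw [h4] at h1
  exact h1.trans_eq (by rw [h4])

end Contracts

end Fermat.Agent.Lib.S56
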