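/-
PROGRAMME W (S56), wall [W7] (helper7, prefix `s56h_`): **[W7-G3] `ad⁰ρ` is irreducible**.

`ρ : Γ →* GL₂(k)` (`Γ` any group, `k` a field with `2 ≠ 0`), absolutely irreducible on `Γ` and on every subgroup of
index `2` (helper8's `s56e_AbsIrr`).  Then a `k`-subspace of trace-zero matrices which is stable under conjugation by
`ρ(Γ)` is `0` or everything (`s56h_adIrr`); in particular helper8's interface statement `s56e_AdIrr` holds.

Proof: a stable line `k X₀`: if `X₀` is nilpotent its image is a stable line of `k²`; otherwise `X₀² = -det X₀` is a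
non-zero scalar, every `ρ g` commutes or anticommutes with `X₀`, the centraliser has index `≤ 2` and fixes the
eigenlines of `X₀` over `k̄`.  A stable plane with basis `X₁, X₂` gives the stable line `k [X₁, X₂]`.
-/
import Fermat.Agent.Lib.S56.IfaceW7Grp
import Fermat.Agent.Lib.S48.EMat2

set_option autoImplicit false

namespace Fermat.Agent.Lib.S56

open Matrix Fermat.Agent.Lib.S48

section Vec

variable {K : Type*} [Field K]

/-- two vectors of `K²` with vanishing determinant, the first non-zero, are proportional. -/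
theorem s56h_vec_prop (u v : Fin 2 → K) (hu : u ≠ 0) (hd : u 0 * v 1 - u 1 * v 0 = 0) :
    ∃ c : K, v = c • u := by
  have hu' : u 0 ≠ 0 ∨ u 1 ≠ 0 := by
    by_contra hcon
    push Not at hcon
    apply hu
    funext i
    fin_cases i
    · exact hcon.1
    · exact hcon.2
  rcases hu' with h | h
  · refine ⟨v 0 / u 0, ?_⟩
    funext i
    fin_cases i
    · simp only [Fin.zero_eta, Pi.smul_apply, smul_eq_mul]
      field_simp
    · simp only [Fin.mk_one, Pi.smul_apply, smul_eq_mul]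
      field_simp
      linear_combination hd
  · refine ⟨v 1 / u 1, ?_⟩
    funext i
    fin_cases i
    · simp only [Fin.zero_eta, Pi.smul_apply, smul_eq_mul]
      field_simp
      linear_combination -hd
    · simp only [Fin.mk_one, Pi.smul_apply, smul_eq_mul]
      field_simp

/-- two eigenvectors for the same eigenvalue of a non-scalar `2 × 2` matrix are proportional. -/
theorem s56h_eigen_prop (A : Matrix (Fin 2) (Fin 2) K) (μ : K)
    (hA : A ≠ μ • (1 : Matrix (Fin 2) (Fin 2) K)) (u v : Fin 2 → K) (hu : u ≠ 0)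
    (hAu : A *ᵥ u = μ • u) (hAv : A *ᵥ v = μ • v) : ∃ c : K, v = c • u := by
  apply s56h_vec_prop u v hu
  by_contra hd
  apply hA
  have e1 := congrFun hAu 0
  have e2 := congrFun hAu 1
  have e3 := congrFun hAv 0
  have e4 := congrFun hAv 1
  simp only [Matrix.mulVec, dotProduct, Fin.sum_univ_two, Pi.smul_apply, smul_eq_mul] at e1 e2 e3 e4
  set d := u 0 * v 1 - u 1 * v 0 with hdd
  have h00 : (A 0 0 - μ) * d = 0 := by rw [hdd]; linear_combination v 1 * e1 - u 1 * e3
  have h01 : A 0 1 * d = 0 := by rw [hdd]; linear_combination u 0 * e3 - v 0 * e1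
  have h10 : A 1 0 * d = 0 := by rw [hdd]; linear_combination v 1 * e2 - u 1 * e4
  have h11 : (A 1 1 - μ) * d = 0 := by rw [hdd]; linear_combination u 0 * e4 - v 0 * e2
  have k00 := (mul_eq_zero.1 h00).resolve_right hd
  have k01 := (mul_eq_zero.1 h01).resolve_right hd
  have k10 := (mul_eq_zero.1 h10).resolve_right hd
  have k11 := (mul_eq_zero.1 h11).resolve_right hd
  ext i j
  fin_cases i <;> fin_cases j <;> simp
  · linear_combination k00
  · exact k01
  · exact k10
  · linear_combination k11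

/-- a non-zero `2 × 2` matrix has a non-zero column. -/
theorem s56h_exists_col (A : Matrix (Fin 2) (Fin 2) K) (hA : A ≠ 0) :
    ∃ j : Fin 2, (fun i => A i j) ≠ 0 := by
  by_contra hcon
  push Not at hcon
  apply hA
  ext i j
  exact congrFun (hcon j) i

end Vec


section Line

variable {k : Type*} [Field k] {Γ : Type*} [Group Γ] (ρ : Γ →* GL (Fin 2) k)

local notation "K" => AlgebraicClosure k

theorem s56h_coe_mul_inv (g : Γ) :
    ((ρ g : GL (Fin 2) k) : Matrix (Fin 2) (Fin 2) k) *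
      (((ρ g)⁻¹ : GL (Fin 2) k) : Matrix (Fin 2) (Fin 2) k) = 1 := by
  rw [← Matrix.GeneralLinearGroup.coe_mul, mul_inv_cancel]; rfl

theorem s56h_coe_inv_mul (g : Γ) :
    (((ρ g)⁻¹ : GL (Fin 2) k) : Matrix (Fin 2) (Fin 2) k) *
      ((ρ g : GL (Fin 2) k) : Matrix (Fin 2) (Fin 2) k) = 1 := by
  rw [← Matrix.GeneralLinearGroup.coe_mul, inv_mul_cancel]; rfl

/-- an eigenvector over `k` gives an eigenvector over `k̄`. -/
theorem s56h_eigen_map (A : Matrix (Fin 2) (Fin 2) k) (v : Fin 2 → k) (c : k) (h : A *ᵥ v = c • v) :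
    (A.map (algebraMap k K)) *ᵥ (fun i => algebraMap k K (v i)) =
      algebraMap k K c • (fun i => algebraMap k K (v i)) := by
  funext i
  have := congrArg (algebraMap k K) (congrFun h i)
  simp only [Matrix.mulVec, dotProduct, Fin.sum_univ_two, Pi.smul_apply, smul_eq_mul, map_add,
    map_mul, Matrix.map_apply] at this ⊢
  exact this

/-- the conjugation relation in the form `G X = c X G`. -/
theorem s56h_conj_rel (g : Γ) (X : Matrix (Fin 2) (Fin 2) k) (c : k)
    (h : (ρ g : Matrix (Fin 2) (Fin 2) k) * X * (((ρ g)⁻¹ : GL (Fin 2) k) : Matrix (Fin 2) (Fin 2) k) =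
      c • X) :
    (ρ g : Matrix (Fin 2) (Fin 2) k) * X = c • (X * (ρ g : Matrix (Fin 2) (Fin 2) k)) := by
  have := congrArg (· * (ρ g : Matrix (Fin 2) (Fin 2) k)) h
  simp only [Matrix.mul_assoc, s56h_coe_inv_mul, Matrix.mul_one, Matrix.smul_mul] at this
  exact this


theorem s56h_map_ne_zero (v : Fin 2 → k) (hv : v ≠ 0) :
    (fun i => algebraMap k K (v i)) ≠ 0 := by
  intro h
  apply hv
  funext i
  have := congrFun h i
  simpa using this

/-- the nilpotent case of the line lemma. -/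
theorem s56h_line_nilp (hirr : s56e_AbsIrr ρ ⊤) (X₀ : Matrix (Fin 2) (Fin 2) k) (hX0 : X₀ ≠ 0)
    (hdet : X₀.det = 0)
    (hst : ∀ g : Γ, ∃ c : k, (ρ g : Matrix (Fin 2) (Fin 2) k) * X₀ *
      (((ρ g)⁻¹ : GL (Fin 2) k) : Matrix (Fin 2) (Fin 2) k) = c • X₀) : False := by
  obtain ⟨j, hj⟩ := s56h_exists_col X₀ hX0
  rw [Matrix.det_fin_two] at hdet
  have key : ∀ g : Γ, ∃ c' : k,
      (ρ g : Matrix (Fin 2) (Fin 2) k) *ᵥ (fun i => X₀ i j) = c' • (fun i => X₀ i j) := by
    intro g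
    obtain ⟨c, hc⟩ := hst g
    have rel := s56h_conj_rel ρ g X₀ c hc
    obtain ⟨c', hc'⟩ := s56h_vec_prop (fun i => X₀ i j)
      ((ρ g : Matrix (Fin 2) (Fin 2) k) *ᵥ (fun i => X₀ i j)) hj (by
        have r0 := congrFun (congrFun rel 0) j
        have r1 := congrFun (congrFun rel 1) j
        simp only [Matrix.mul_apply, Fin.sum_univ_two, Matrix.smul_apply, smul_eq_mul] at r0 r1
        simp only [Matrix.mulVec, dotProduct, Fin.sum_univ_two]
        rw [r0, r1]
        fin_cases j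
        · simp only [Fin.zero_eta]
          linear_combination c * (ρ g : Matrix (Fin 2) (Fin 2) k) 1 0 * hdet
        · simp only [Fin.mk_one]
          linear_combination -c * (ρ g : Matrix (Fin 2) (Fin 2) k) 0 1 * hdet)
    exact ⟨c', hc'⟩
  obtain ⟨g, -, hg⟩ := hirr (fun i => algebraMap k K (X₀ i j)) (s56h_map_ne_zero _ hj)
  obtain ⟨c', hc'⟩ := key g
  exact hg (algebraMap k K c') (s56h_eigen_map _ _ c' hc')


/-- the centraliser of `X₀` in `Γ`. -/
def s56h_centr (X₀ : Matrix (Fin 2) (Fin 2) k) : Subgroup Γ where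
  carrier := {g | (ρ g : Matrix (Fin 2) (Fin 2) k) * X₀ = X₀ * (ρ g : Matrix (Fin 2) (Fin 2) k)}
  one_mem' := by simp
  mul_mem' := by
    intro a b ha hb
    simp only [Set.mem_ofPred_eq] at ha hb ⊢
    rw [map_mul, Matrix.GeneralLinearGroup.coe_mul, Matrix.mul_assoc, hb, ← Matrix.mul_assoc, ha,
      Matrix.mul_assoc]
  inv_mem' := by
    intro a ha
    simp only [Set.mem_ofPred_eq] at ha ⊢
    rw [map_inv]
    calc (((ρ a)⁻¹ : GL (Fin 2) k) : Matrix (Fin 2) (Fin 2) k) * X₀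
        = (((ρ a)⁻¹ : GL (Fin 2) k) : Matrix (Fin 2) (Fin 2) k) * (X₀ *
            (ρ a : Matrix (Fin 2) (Fin 2) k)) *
            (((ρ a)⁻¹ : GL (Fin 2) k) : Matrix (Fin 2) (Fin 2) k) := by
          rw [Matrix.mul_assoc, Matrix.mul_assoc, s56h_coe_mul_inv, Matrix.mul_one]
      _ = X₀ * (((ρ a)⁻¹ : GL (Fin 2) k) : Matrix (Fin 2) (Fin 2) k) := by
          rw [← ha, ← Matrix.mul_assoc, s56h_coe_inv_mul, Matrix.one_mul]

theorem s56h_mem_centr (X₀ : Matrix (Fin 2) (Fin 2) k) (g : Γ) :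
    g ∈ s56h_centr ρ X₀ ↔
      (ρ g : Matrix (Fin 2) (Fin 2) k) * X₀ = X₀ * (ρ g : Matrix (Fin 2) (Fin 2) k) := Iff.rfl


/-- for an invertible trace-zero `X₀` spanning a stable line, every `ρ g` commutes or anticommutes with `X₀`. -/
theorem s56h_comm_or_anti (X₀ : Matrix (Fin 2) (Fin 2) k) (htr : X₀.trace = 0) (hdet : X₀.det ≠ 0)
    (g : Γ) (c : k)
    (hc : (ρ g : Matrix (Fin 2) (Fin 2) k) * X₀ *
      (((ρ g)⁻¹ : GL (Fin 2) k) : Matrix (Fin 2) (Fin 2) k) = c • X₀) :
    (ρ g : Matrix (Fin 2) (Fin 2) k) * X₀ = X₀ * (ρ g : Matrix (Fin 2) (Fin 2) k) ∨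
    (ρ g : Matrix (Fin 2) (Fin 2) k) * X₀ = -(X₀ * (ρ g : Matrix (Fin 2) (Fin 2) k)) := by
  have hCH : X₀ * X₀ = -(X₀.det • (1 : Matrix (Fin 2) (Fin 2) k)) := by
    rw [s48e_mat2_cayley_hamilton, htr, zero_smul, zero_sub]
  have hsq : (c • X₀) * (c • X₀) = -(X₀.det • (1 : Matrix (Fin 2) (Fin 2) k)) := by
    rw [← hc]
    calc (ρ g : Matrix (Fin 2) (Fin 2) k) * X₀ *
          (((ρ g)⁻¹ : GL (Fin 2) k) : Matrix (Fin 2) (Fin 2) k) *
          ((ρ g : Matrix (Fin 2) (Fin 2) k) * X₀ *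
            (((ρ g)⁻¹ : GL (Fin 2) k) : Matrix (Fin 2) (Fin 2) k))
        = (ρ g : Matrix (Fin 2) (Fin 2) k) * (X₀ *
            ((((ρ g)⁻¹ : GL (Fin 2) k) : Matrix (Fin 2) (Fin 2) k) *
              (ρ g : Matrix (Fin 2) (Fin 2) k)) * X₀) *
            (((ρ g)⁻¹ : GL (Fin 2) k) : Matrix (Fin 2) (Fin 2) k) := by
          simp only [Matrix.mul_assoc]
      _ = -(X₀.det • (1 : Matrix (Fin 2) (Fin 2) k)) := by
          rw [s56h_coe_inv_mul, Matrix.mul_one, hCH, Matrix.mul_neg, Matrix.neg_mul,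
            Matrix.mul_smul, Matrix.smul_mul, Matrix.mul_one, s56h_coe_mul_inv]
  have hc2 : c ^ 2 = 1 := by
    have h00 := congrFun (congrFun hsq 0) 0
    rw [Matrix.smul_mul, Matrix.mul_smul, hCH] at h00
    simp only [Matrix.smul_apply, Matrix.neg_apply, Matrix.one_apply_eq, smul_eq_mul, mul_one,
      mul_neg] at h00
    have : (c ^ 2 - 1) * X₀.det = 0 := by linear_combination -h00
    rcases mul_eq_zero.1 this with h | h
    · linear_combination h
    · exact absurd h hdet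
  have rel := s56h_conj_rel ρ g X₀ c hc
  have hc' : (c - 1) * (c + 1) = 0 := by linear_combination hc2
  rcases mul_eq_zero.1 hc' with h | h
  · left
    have : c = 1 := by linear_combination h
    rw [rel, this, one_smul]
  · right
    have : c = -1 := by linear_combination h
    rw [rel, this, neg_smul, one_smul]


/-- the semisimple case of the line lemma. -/
theorem s56h_line_ss (h2 : (2 : k) ≠ 0) (hirr : s56e_AbsIrr ρ ⊤)
    (hirr2 : ∀ S : Subgroup Γ, S.index = 2 → s56e_AbsIrr ρ S)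
    (X₀ : Matrix (Fin 2) (Fin 2) k) (htr : X₀.trace = 0) (hdet : X₀.det ≠ 0)
    (hst : ∀ g : Γ, ∃ c : k, (ρ g : Matrix (Fin 2) (Fin 2) k) * X₀ *
      (((ρ g)⁻¹ : GL (Fin 2) k) : Matrix (Fin 2) (Fin 2) k) = c • X₀) : False := by
  have hdich : ∀ g : Γ,
      (ρ g : Matrix (Fin 2) (Fin 2) k) * X₀ = X₀ * (ρ g : Matrix (Fin 2) (Fin 2) k) ∨
      (ρ g : Matrix (Fin 2) (Fin 2) k) * X₀ = -(X₀ * (ρ g : Matrix (Fin 2) (Fin 2) k)) := by
    intro g
    obtain ⟨c, hc⟩ := hst g
    exact s56h_comm_or_anti ρ X₀ htr hdet g c hc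
  have hX0 : X₀ ≠ 0 := by
    rintro rfl
    apply hdet
    simp
  have hXG : ∀ g : Γ, X₀ * (ρ g : Matrix (Fin 2) (Fin 2) k) ≠ 0 := by
    intro g h
    apply hX0
    have := congrArg (· * (((ρ g)⁻¹ : GL (Fin 2) k) : Matrix (Fin 2) (Fin 2) k)) h
    simpa only [Matrix.mul_assoc, s56h_coe_mul_inv, Matrix.mul_one, Matrix.zero_mul] using this
  have hnot : ∀ g : Γ,
      (ρ g : Matrix (Fin 2) (Fin 2) k) * X₀ = -(X₀ * (ρ g : Matrix (Fin 2) (Fin 2) k)) →
      ¬ (ρ g : Matrix (Fin 2) (Fin 2) k) * X₀ = X₀ * (ρ g : Matrix (Fin 2) (Fin 2) k) := by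
    intro g ha hc
    apply hXG g
    rw [hc] at ha
    have h3 : (2 : k) • (X₀ * (ρ g : Matrix (Fin 2) (Fin 2) k)) = 0 := by
      rw [two_smul]
      nth_rw 1 [ha]
      exact neg_add_cancel _
    rcases smul_eq_zero.1 h3 with h | h
    · exact absurd h h2
    · exact h
  -- over the algebraic closure
  have hf2 : (2 : K) ≠ 0 := by
    have := (map_ne_zero_iff (algebraMap k K) (algebraMap k K).injective).2 h2
    rwa [map_ofNat] at this
  set X : Matrix (Fin 2) (Fin 2) K := X₀.map (algebraMap k K) with hXdef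
  have hXtr : X.trace = 0 := by
    have : X.trace = algebraMap k K X₀.trace := by
      simp [hXdef, Matrix.trace_fin_two]
    rw [this, htr, map_zero]
  have hXdet : X.det = algebraMap k K X₀.det := by
    simp [hXdef, Matrix.det_fin_two]
  obtain ⟨μ, hμ⟩ := IsAlgClosed.exists_pow_nat_eq (-(algebraMap k K X₀.det)) (n := 2) (by norm_num)
  have hμ0 : μ ≠ 0 := by
    rintro rfl
    apply hdet
    have : algebraMap k K X₀.det = 0 := by
      have h0 : (0 : K) ^ 2 = 0 := by norm_num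
      rw [h0] at hμ
      exact neg_eq_zero.1 hμ.symm
    exact (map_eq_zero_iff (algebraMap k K) (algebraMap k K).injective).1 this
  have hXX : X * X = (μ ^ 2) • (1 : Matrix (Fin 2) (Fin 2) K) := by
    rw [s48e_mat2_cayley_hamilton, hXtr, zero_smul, zero_sub, hXdet, hμ, neg_smul]
  have hYtr : (X + μ • (1 : Matrix (Fin 2) (Fin 2) K)).trace = X.trace + 2 * μ := by
    simp [Matrix.trace_fin_two]
    ring
  have hY : X + μ • (1 : Matrix (Fin 2) (Fin 2) K) ≠ 0 := by
    intro h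
    rw [h, hXtr] at hYtr
    simp only [Matrix.trace_zero, zero_add] at hYtr
    rcases mul_eq_zero.1 hYtr.symm with h' | h'
    · exact hf2 h'
    · exact hμ0 h'
  obtain ⟨j, hj⟩ := s56h_exists_col _ hY
  have hXY : X * (X + μ • (1 : Matrix (Fin 2) (Fin 2) K)) =
      μ • (X + μ • (1 : Matrix (Fin 2) (Fin 2) K)) := by
    rw [Matrix.mul_add, hXX, Matrix.mul_smul, Matrix.mul_one, smul_add, smul_smul, pow_two, add_comm]
  have hXv : X *ᵥ (fun i => (X + μ • (1 : Matrix (Fin 2) (Fin 2) K)) i j) =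
      μ • (fun i => (X + μ • (1 : Matrix (Fin 2) (Fin 2) K)) i j) := by
    funext i
    have := congrFun (congrFun hXY i) j
    simpa only [Matrix.mul_apply, Matrix.mulVec, dotProduct, Matrix.smul_apply, Pi.smul_apply] using this
  have hXne : X ≠ μ • (1 : Matrix (Fin 2) (Fin 2) K) := by
    intro h
    have : X.trace = 2 * μ := by
      rw [h]
      simp
      ring
    rw [hXtr] at this
    rcases mul_eq_zero.1 this.symm with h' | h'
    · exact hf2 h'
    · exact hμ0 h'
  have hSeig : ∀ g ∈ s56h_centr ρ X₀, ∃ c : K,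
      ((ρ g : Matrix (Fin 2) (Fin 2) k).map (algebraMap k K)) *ᵥ
        (fun i => (X + μ • (1 : Matrix (Fin 2) (Fin 2) K)) i j) =
      c • (fun i => (X + μ • (1 : Matrix (Fin 2) (Fin 2) K)) i j) := by
    intro g hg
    rw [s56h_mem_centr] at hg
    have hcomm : ((ρ g : Matrix (Fin 2) (Fin 2) k).map (algebraMap k K)) * X =
        X * ((ρ g : Matrix (Fin 2) (Fin 2) k).map (algebraMap k K)) := by
      rw [hXdef, ← Matrix.map_mul, ← Matrix.map_mul, hg]
    apply s56h_eigen_prop X μ hXne _ _ hj hXv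
    rw [Matrix.mulVec_mulVec, ← hcomm, ← Matrix.mulVec_mulVec, hXv, Matrix.mulVec_smul]
  by_cases hall : ∀ g : Γ, g ∈ s56h_centr ρ X₀
  · obtain ⟨g, -, hg⟩ := hirr _ hj
    obtain ⟨c, hc⟩ := hSeig g (hall g)
    exact hg c hc
  · push Not at hall
    obtain ⟨a, ha⟩ := hall
    have haanti := (hdich a).resolve_left ha
    have hidx : (s56h_centr ρ X₀).index = 2 := by
      rw [Subgroup.index_eq_two_iff]
      refine ⟨a, fun b => ?_⟩
      by_cases hb : b ∈ s56h_centr ρ X₀
      · refine Or.inr ⟨hb, ?_⟩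
        rw [s56h_mem_centr] at hb ⊢
        apply hnot
        rw [map_mul, Matrix.GeneralLinearGroup.coe_mul, Matrix.mul_assoc, haanti, Matrix.mul_neg,
          ← Matrix.mul_assoc, hb, Matrix.mul_assoc]
      · refine Or.inl ⟨?_, hb⟩
        have hbanti := (hdich b).resolve_left hb
        rw [s56h_mem_centr]
        rw [map_mul, Matrix.GeneralLinearGroup.coe_mul, Matrix.mul_assoc, haanti, Matrix.mul_neg,
          ← Matrix.mul_assoc, hbanti, Matrix.neg_mul, neg_neg, Matrix.mul_assoc]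
    obtain ⟨g, hgS, hg⟩ := hirr2 _ hidx _ hj
    obtain ⟨c, hc⟩ := hSeig g hgS
    exact hg c hc


/-- **the line lemma**: no non-zero trace-zero matrix spans a line stable under conjugation by `ρ(Γ)`. -/
theorem s56h_line_false (h2 : (2 : k) ≠ 0) (hirr : s56e_AbsIrr ρ ⊤)
    (hirr2 : ∀ S : Subgroup Γ, S.index = 2 → s56e_AbsIrr ρ S)
    (X₀ : Matrix (Fin 2) (Fin 2) k) (hX0 : X₀ ≠ 0) (htr : X₀.trace = 0)
    (hst : ∀ g : Γ, ∃ c : k, (ρ g : Matrix (Fin 2) (Fin 2) k) * X₀ *
      (((ρ g)⁻¹ : GL (Fin 2) k) : Matrix (Fin 2) (Fin 2) k) = c • X₀) : False := by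
  by_cases hdet : X₀.det = 0
  · exact s56h_line_nilp ρ hirr X₀ hX0 hdet hst
  · exact s56h_line_ss ρ h2 hirr hirr2 X₀ htr hdet hst

end Line

section Main

variable {k : Type*} [Field k] {Γ : Type*} [Group Γ] (ρ : Γ →* GL (Fin 2) k)

/-- the space of trace-zero `2 × 2` matrices. -/
def s56h_sl2 (k : Type*) [Field k] : Submodule k (Matrix (Fin 2) (Fin 2) k) :=
  LinearMap.ker (Matrix.traceLinearMap (Fin 2) k k)

theorem s56h_mem_sl2 (X : Matrix (Fin 2) (Fin 2) k) : X ∈ s56h_sl2 k ↔ X.trace = 0 := by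
  rw [s56h_sl2, LinearMap.mem_ker, Matrix.traceLinearMap_apply]

theorem s56h_finrank_sl2 : Module.finrank k (s56h_sl2 k) = 3 := by
  have h := LinearMap.finrank_range_add_finrank_ker (Matrix.traceLinearMap (Fin 2) k k)
  have hr : LinearMap.range (Matrix.traceLinearMap (Fin 2) k k) = ⊤ := by
    rw [LinearMap.range_eq_top]
    intro c
    refine ⟨!![c, 0; 0, 0], ?_⟩
    simp [Matrix.trace_fin_two]
  rw [hr, finrank_top, Module.finrank_self, Module.finrank_matrix] at h
  simp only [Fintype.card_fin, Module.finrank_self] at h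
  rw [s56h_sl2]
  omega


/-- conjugation is multiplicative. -/
theorem s56h_conj_mul (g : Γ) (A B : Matrix (Fin 2) (Fin 2) k) :
    (ρ g : Matrix (Fin 2) (Fin 2) k) * (A * B) *
        (((ρ g)⁻¹ : GL (Fin 2) k) : Matrix (Fin 2) (Fin 2) k) =
      ((ρ g : Matrix (Fin 2) (Fin 2) k) * A *
        (((ρ g)⁻¹ : GL (Fin 2) k) : Matrix (Fin 2) (Fin 2) k)) *
      ((ρ g : Matrix (Fin 2) (Fin 2) k) * B *
        (((ρ g)⁻¹ : GL (Fin 2) k) : Matrix (Fin 2) (Fin 2) k)) := by
  have h : ∀ (G G' : Matrix (Fin 2) (Fin 2) k), G' * G = 1 →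
      G * (A * B) * G' = (G * A * G') * (G * B * G') := by
    intro G G' h
    calc G * (A * B) * G' = G * A * (1 * (B * G')) := by simp only [Matrix.mul_assoc, Matrix.one_mul]
      _ = (G * A * G') * (G * B * G') := by rw [← h]; simp only [Matrix.mul_assoc]
  exact h _ _ (s56h_coe_inv_mul ρ g)

/-- **[W7-G3] `ad⁰ρ` is irreducible.** -/
theorem s56h_adIrr (h2 : (2 : k) ≠ 0) (hirr : s56e_AbsIrr ρ ⊤)
    (hirr2 : ∀ S : Subgroup Γ, S.index = 2 → s56e_AbsIrr ρ S)
    (W : Submodule k (Matrix (Fin 2) (Fin 2) k)) (hW0 : ∀ X ∈ W, X.trace = 0)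
    (hWst : ∀ g : Γ, ∀ X ∈ W, s56e_adTw (ρ g) 1 X ∈ W) :
    W = ⊥ ∨ ∀ X : Matrix (Fin 2) (Fin 2) k, X.trace = 0 → X ∈ W := by
  have hst' : ∀ (g : Γ) (X : Matrix (Fin 2) (Fin 2) k), X ∈ W →
      (ρ g : Matrix (Fin 2) (Fin 2) k) * X *
        (((ρ g)⁻¹ : GL (Fin 2) k) : Matrix (Fin 2) (Fin 2) k) ∈ W := by
    intro g X hX
    have := hWst g X hX
    rwa [s56e_adTw, one_smul] at this
  have hle : W ≤ s56h_sl2 k := fun X hX => (s56h_mem_sl2 X).2 (hW0 X hX)
  by_cases hbot : W = ⊥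
  · exact Or.inl hbot
  right
  by_contra hnot
  have hlt : W < s56h_sl2 k := by
    refine lt_of_le_of_ne hle (fun h => hnot (fun X hX => ?_))
    rw [h]
    exact (s56h_mem_sl2 X).2 hX
  have hfr : Module.finrank k W < 3 := by
    rw [← s56h_finrank_sl2 (k := k)]
    exact Submodule.finrank_lt_finrank_of_lt hlt
  have hpos : Module.finrank k W ≠ 0 := fun h => hbot (Submodule.finrank_eq_zero.1 h)
  have hcases : Module.finrank k W = 1 ∨ Module.finrank k W = 2 := by omega
  rcases hcases with h1 | h1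
  · -- a stable line
    obtain ⟨v, hv0, hv⟩ := finrank_eq_one_iff'.1 h1
    refine s56h_line_false ρ h2 hirr hirr2 (v : Matrix (Fin 2) (Fin 2) k) ?_ (hW0 _ v.2) ?_
    · intro h
      apply hv0
      exact Subtype.ext h
    · intro g
      obtain ⟨c, hc⟩ := hv ⟨_, hst' g _ v.2⟩
      refine ⟨c, ?_⟩
      have := congrArg (Subtype.val) hc
      simpa using this.symm
  · -- a stable plane
    set b : Module.Basis (Fin 2) k W := Module.finBasisOfFinrankEq k W h1 with hb
    set X₁ : Matrix (Fin 2) (Fin 2) k := (b 0 : Matrix (Fin 2) (Fin 2) k) with hX₁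
    set X₂ : Matrix (Fin 2) (Fin 2) k := (b 1 : Matrix (Fin 2) (Fin 2) k) with hX₂
    have hX₁tr : X₁.trace = 0 := hW0 _ (b 0).2
    have hX₂tr : X₂.trace = 0 := hW0 _ (b 1).2
    have hexp : ∀ w : W, (w : Matrix (Fin 2) (Fin 2) k) = b.repr w 0 • X₁ + b.repr w 1 • X₂ := by
      intro w
      have := congrArg (Subtype.val) (b.sum_repr w)
      rw [Fin.sum_univ_two] at this
      simpa using this.symm
    have hX₂0 : X₂ ≠ 0 := by
      intro h
      have : b 1 = 0 := Subtype.ext h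
      exact b.ne_zero 1 this
    have hY0 : X₁ * X₂ - X₂ * X₁ ≠ 0 := by
      intro h
      have hcomm : X₁ * X₂ = X₂ * X₁ := sub_eq_zero.1 h
      have hns : ∀ a : k, X₂ ≠ a • (1 : Matrix (Fin 2) (Fin 2) k) := by
        intro a ha
        have : X₂.trace = 2 * a := by
          rw [ha]; simp; ring
        rw [hX₂tr] at this
        rcases mul_eq_zero.1 this.symm with h' | h'
        · exact h2 h'
        · apply hX₂0
          rw [ha, h', zero_smul]
      obtain ⟨μ, lam, hml⟩ := s48e_mat2_comm_nonscalar X₂ X₁ hns hcomm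
      have htr := congrArg Matrix.trace hml
      rw [s48e_mat2_trace_affine, hX₁tr, hX₂tr, mul_zero, add_zero] at htr
      have hμ : μ = 0 := by
        rcases mul_eq_zero.1 htr.symm with h' | h'
        · exact absurd h' h2
        · exact h'
      rw [hμ, zero_smul, zero_add] at hml
      have hdep : b 0 = lam • b 1 := Subtype.ext hml
      have := congrArg (fun w => b.repr w 0) hdep
      simp at this
    have hYtr : (X₁ * X₂ - X₂ * X₁).trace = 0 := by
      rw [Matrix.trace_sub, Matrix.trace_mul_comm, sub_self]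
    refine s56h_line_false ρ h2 hirr hirr2 _ hY0 hYtr ?_
    intro g
    have e1 := hexp ⟨_, hst' g _ (b 0).2⟩
    have e2 := hexp ⟨_, hst' g _ (b 1).2⟩
    simp only at e1 e2
    set r00 := b.repr ⟨_, hst' g _ (b 0).2⟩ 0
    set r01 := b.repr ⟨_, hst' g _ (b 0).2⟩ 1
    set r10 := b.repr ⟨_, hst' g _ (b 1).2⟩ 0
    set r11 := b.repr ⟨_, hst' g _ (b 1).2⟩ 1
    refine ⟨r00 * r11 - r01 * r10, ?_⟩
    rw [← hX₁] at e1
    rw [← hX₂] at e2
    rw [Matrix.mul_sub, Matrix.sub_mul, s56h_conj_mul, s56h_conj_mul, e1, e2]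
    simp only [add_mul, mul_add, smul_mul_assoc, mul_smul_comm, smul_smul, smul_sub, smul_add]
    module

/-- helper8's interface statement `s56e_AdIrr` holds. -/
theorem s56h_AdIrr_holds : s56e_AdIrr := by
  intro p _ hp2 k _ _ _ Γ _ _ ρ hirr hirr2 W hW0 hWst
  exact s56h_adIrr ρ (s48e_two_ne_zero p hp2) hirr hirr2 W hW0 hWst

end Main

end Fermat.Agent.Lib.S56
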