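/-
PROGRAMME W (S56), wall [W7] (helper7, prefix `s56h_`): **the bridge** from `ρ̄ : ResidualGaloisRep k` to matrices.

* `s56h_b`, `s56h_T` : a basis of `V̄` and the algebra isomorphism `End_k V̄ ≃ M₂(k)`;
* `s56h_rhoMat : G_ℚ →* GL₂(k)`;
* `s56h_absIrr_top`, `s56h_absIrr_index_two` : helper8's `s56e_AbsIrr` from `IsAbsolutelyIrreducible` and the
  hypothesis `hTW` of S56;
* `s56h_split` : `hsplit` of S56 in trace/det form.
-/
import Fermat.Agent.Lib.S56.IfaceW7Grp
import Fermat.Prelude.Def_GaloisRep_Residual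

set_option autoImplicit false

noncomputable section

namespace Fermat.Agent.Lib.S56

open Matrix Polynomial

local notation "GQ" => (AlgebraicClosure ℚ ≃ₐ[ℚ] AlgebraicClosure ℚ)

section Basic

variable {k : Type} [Field k] (ρbar : ResidualGaloisRep k)

/-- a basis of `V̄`. -/
def s56h_b : Module.Basis (Fin 2) k ρbar.V := Module.finBasisOfFinrankEq k ρbar.V ρbar.finrank_eq

/-- `End_k V̄ ≃ M₂(k)`. -/
def s56h_T : Module.End k ρbar.V ≃ₐ[k] Matrix (Fin 2) (Fin 2) k :=
  LinearMap.toMatrixAlgEquiv (s56h_b ρbar)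

/-- `ρ̄` in matrices. -/
def s56h_rhoMat : GQ →* GL (Fin 2) k :=
  (((s56h_T ρbar : Module.End k ρbar.V →* Matrix (Fin 2) (Fin 2) k)).comp ρbar.ρ).toHomUnits

theorem s56h_rhoMat_coe (σ : GQ) :
    ((s56h_rhoMat ρbar σ : GL (Fin 2) k) : Matrix (Fin 2) (Fin 2) k) = s56h_T ρbar (ρbar.ρ σ) := rfl

theorem s56h_rhoMat_inv_coe (σ : GQ) :
    (((s56h_rhoMat ρbar σ)⁻¹ : GL (Fin 2) k) : Matrix (Fin 2) (Fin 2) k) =
      s56h_T ρbar (ρbar.ρ σ⁻¹) := by
  rw [← map_inv]; rfl

theorem s56h_T_trace (X : Module.End k ρbar.V) :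
    (s56h_T ρbar X).trace = LinearMap.trace k ρbar.V X :=
  (LinearMap.trace_eq_matrix_trace k (s56h_b ρbar) X).symm

theorem s56h_T_det (X : Module.End k ρbar.V) :
    (s56h_T ρbar X).det = LinearMap.det X :=
  LinearMap.det_toMatrix (s56h_b ρbar) X

theorem s56h_T_charpoly (X : Module.End k ρbar.V) :
    (s56h_T ρbar X).charpoly = LinearMap.charpoly X :=
  (LinearMap.charpoly_toMatrix X (s56h_b ρbar))

/-- trace and determinant from a split characteristic polynomial. -/
theorem s56h_split_of (σ : GQ) (α β : k)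
    (h : LinearMap.charpoly (ρbar.ρ σ) = (X - C α) * (X - C β)) :
    ((s56h_rhoMat ρbar σ : GL (Fin 2) k) : Matrix (Fin 2) (Fin 2) k).trace = α + β ∧
      ((s56h_rhoMat ρbar σ : GL (Fin 2) k) : Matrix (Fin 2) (Fin 2) k).det = α * β := by
  refine ⟨?_, ?_⟩
  · have h1 := Matrix.trace_eq_neg_charpoly_coeff (s56h_T ρbar (ρbar.ρ σ))
    rw [s56h_T_charpoly, h] at h1
    rw [s56h_rhoMat_coe, h1]
    simp only [Fintype.card_fin, Nat.add_one_sub_one]
    have : ((X - C α) * (X - C β) : k[X]) = X ^ 2 - C (α + β) * X + C (α * β) := by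
      simp only [map_add, map_mul]; ring
    rw [this]
    simp [coeff_C]
  · have h1 := Matrix.det_eq_sign_charpoly_coeff (s56h_T ρbar (ρbar.ρ σ))
    rw [s56h_T_charpoly, h] at h1
    rw [s56h_rhoMat_coe, h1]
    simp only [Fintype.card_fin]
    have : ((X - C α) * (X - C β) : k[X]) = X ^ 2 - C (α + β) * X + C (α * β) := by
      simp only [map_add, map_mul]; ring
    rw [this]
    simp [coeff_X, coeff_C]

/-- `hsplit` of S56 in trace/det form. -/
theorem s56h_split
    (hsplit : ∀ σ : GQ, ∃ α β : k, LinearMap.charpoly (ρbar.ρ σ) = (X - C α) * (X - C β)) (σ : GQ) :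
    ∃ α β : k, ((s56h_rhoMat ρbar σ : GL (Fin 2) k) : Matrix (Fin 2) (Fin 2) k).trace = α + β ∧
      ((s56h_rhoMat ρbar σ : GL (Fin 2) k) : Matrix (Fin 2) (Fin 2) k).det = α * β := by
  obtain ⟨α, β, h⟩ := hsplit σ
  exact ⟨α, β, s56h_split_of ρbar σ α β h⟩

end Basic

section Irr

open scoped TensorProduct

variable {k : Type} [Field k] (ρbar : ResidualGaloisRep k)

/-- the common core of `s56h_absIrr_top` and `s56h_absIrr_index_two`: if every line of `k̄ ⊗ V̄` stable under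
`S` is trivial, then `ρ̄|_S` is absolutely irreducible in the matrix sense. -/
theorem s56h_absIrr_of (S : Subgroup GQ)
    (h : ∀ W : Submodule (AlgebraicClosure k) (ρbar.baseChange (AlgebraicClosure k)).V,
      (∀ σ ∈ S, ∀ x ∈ W, (ρbar.baseChange (AlgebraicClosure k)).ρ σ x ∈ W) → W = ⊥ ∨ W = ⊤) :
    s56e_AbsIrr (s56h_rhoMat ρbar) S := by
  intro v hv
  by_contra hcon
  push Not at hcon
  let B : Module.Basis (Fin 2) (AlgebraicClosure k) (AlgebraicClosure k ⊗[k] ρbar.V) :=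
    Algebra.TensorProduct.basis (AlgebraicClosure k) (s56h_b ρbar)
  let w : AlgebraicClosure k ⊗[k] ρbar.V := B.equivFun.symm v
  have hwv : B.equivFun w = v := LinearEquiv.apply_symm_apply _ _
  have hw0 : w ≠ 0 := by
    intro h0
    apply hv
    rw [← hwv, h0, map_zero]
  have hst : ∀ σ ∈ S, ∃ c : AlgebraicClosure k,
      (ρbar.baseChange (AlgebraicClosure k)).ρ σ w = c • w := by
    intro σ hσ
    obtain ⟨c, hc⟩ := hcon σ hσ
    refine ⟨c, ?_⟩
    apply B.equivFun.injective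
    have h1 : LinearMap.toMatrix B B ((ρbar.ρ σ).baseChange (AlgebraicClosure k)) =
        (LinearMap.toMatrix (s56h_b ρbar) (s56h_b ρbar) (ρbar.ρ σ)).map
          (algebraMap k (AlgebraicClosure k)) :=
      LinearMap.toMatrix_baseChange (AlgebraicClosure k) (ρbar.ρ σ) (s56h_b ρbar) (s56h_b ρbar)
    have h2 := LinearMap.toMatrix_mulVec_repr B B ((ρbar.ρ σ).baseChange (AlgebraicClosure k)) w
    rw [h1] at h2
    have h3 : (B.repr w : Fin 2 → AlgebraicClosure k) = v := hwv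
    rw [h3] at h2
    have h4 : ((s56h_rhoMat ρbar σ : GL (Fin 2) k) : Matrix (Fin 2) (Fin 2) k) =
        LinearMap.toMatrix (s56h_b ρbar) (s56h_b ρbar) (ρbar.ρ σ) := rfl
    rw [h4, h2] at hc
    rw [map_smul, hwv]
    exact hc
  rcases h (Submodule.span (AlgebraicClosure k) {w}) (fun σ hσ x hx => by
      obtain ⟨a, rfl⟩ := Submodule.mem_span_singleton.1 hx
      obtain ⟨c, hc⟩ := hst σ hσ
      rw [map_smul, hc, smul_smul]
      exact Submodule.smul_mem _ _ (Submodule.mem_span_singleton_self w)) with h1 | h1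
  · exact hw0 (Submodule.span_singleton_eq_bot.1 h1)
  · have h2 : Module.finrank (AlgebraicClosure k) (Submodule.span (AlgebraicClosure k) {w}) = 1 :=
      finrank_span_singleton hw0
    rw [h1, finrank_top] at h2
    have h3 : Module.finrank (AlgebraicClosure k) (AlgebraicClosure k ⊗[k] ρbar.V) = 2 :=
      (ρbar.baseChange (AlgebraicClosure k)).finrank_eq
    rw [h3] at h2
    exact absurd h2 (by norm_num)

theorem s56h_absIrr_top (habs : ρbar.IsAbsolutelyIrreducible) :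
    s56e_AbsIrr (s56h_rhoMat ρbar) ⊤ :=
  s56h_absIrr_of ρbar ⊤ (fun W hW => habs W (fun σ x hx => hW σ (Subgroup.mem_top σ) x hx))

theorem s56h_absIrr_index_two
    (hTW : ∀ (K : Type) [Field K] [Algebra k K] (G : Subgroup GQ), G.index = 2 →
      ∀ V : Submodule K (ρbar.baseChange K).V,
        (∀ σ ∈ G, ∀ x ∈ V, (ρbar.baseChange K).ρ σ x ∈ V) → V = ⊥ ∨ V = ⊤)
    (S : Subgroup GQ) (hS : S.index = 2) : s56e_AbsIrr (s56h_rhoMat ρbar) S :=
  s56h_absIrr_of ρbar S (fun W hW => hTW (AlgebraicClosure k) S hS W hW)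

end Irr

end Fermat.Agent.Lib.S56
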