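/-
PROGRAMME W (S56), wall [W7] (helper7, prefix `s56h_`): **[W7-G2] a regular semisimple element in a normal subgroup
with cyclic quotient.**

`ρ : Γ →* GL₂(k)` absolutely irreducible (`Γ` any group, `2 ≠ 0` in `k`), `Δ ⊴ Γ` with `Γ/Δ` cyclic.  Then some
`g ∈ Δ` has `tr ρ(g)² - 4 det ρ(g) ≠ 0` (`s56h_regularElt`); helper8's interface statement `s56e_RegularElt` follows.

Proof.  Otherwise every `A = ρ(h)`, `h ∈ Δ`, is `α + N` with `N² = 0`.  For a non-scalar `A₁ = α₁ + N₁` and any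
`A₂ = α₂ + N₂` the discriminants of `A₁A₂` and `A₁²A₂` are `t(4α₁α₂ + t)` and `4α₁²t(2α₁α₂ + t)` with
`t = tr(N₁N₂)`, so `t = 0`, hence `N₂N₁ = 0` and the eigenline of `A₁` is stable under `ρ(Δ)`, hence (normality) under
`ρ(Γ)`.  If all of `ρ(Δ)` is scalar, `ρ(Γ)` is generated by one element and scalars and has an eigenvector over `k̄`.
-/
import Fermat.Agent.Lib.S56.HAdIrr

set_option autoImplicit false

namespace Fermat.Agent.Lib.S56

open Matrix Fermat.Agent.Lib.S48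

section Nilp

variable {k : Type*} [Field k]

/-- trace-zero, determinant-zero `2 × 2` matrices with `tr(N₁N₂) = 0` have product zero. -/
theorem s56h_nilp_mul_eq_zero (N₁ N₂ : Matrix (Fin 2) (Fin 2) k)
    (h1t : N₁.trace = 0) (h1d : N₁.det = 0) (h2t : N₂.trace = 0) (h2d : N₂.det = 0)
    (ht : (N₁ * N₂).trace = 0) : N₁ * N₂ = 0 := by
  rw [Matrix.trace_fin_two] at h1t h2t ht
  rw [Matrix.det_fin_two] at h1d h2d
  simp only [Matrix.mul_apply, Fin.sum_univ_two] at ht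
  have e1 : N₁ 1 1 = -N₁ 0 0 := by linear_combination h1t
  have e2 : N₂ 1 1 = -N₂ 0 0 := by linear_combination h2t
  rw [e1] at h1d ht
  rw [e2] at h2d ht
  ext i j
  fin_cases i <;> fin_cases j <;>
    simp only [Matrix.mul_apply, Fin.sum_univ_two, Fin.zero_eta, Fin.mk_one, Matrix.zero_apply, e1, e2]
  · apply pow_eq_zero_iff (n := 2) (by norm_num) |>.1
    linear_combination (N₁ 0 1 * N₂ 1 0) * ht - (N₂ 0 0) ^ 2 * h1d + (N₁ 0 1 * N₁ 1 0) * h2d
  · apply pow_eq_zero_iff (n := 2) (by norm_num) |>.1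
    linear_combination -(N₁ 0 1 * N₂ 0 1) * ht - (N₂ 0 1) ^ 2 * h1d - (N₁ 0 1) ^ 2 * h2d
  · apply pow_eq_zero_iff (n := 2) (by norm_num) |>.1
    linear_combination -(N₁ 1 0 * N₂ 1 0) * ht - (N₂ 1 0) ^ 2 * h1d - (N₁ 1 0) ^ 2 * h2d
  · apply pow_eq_zero_iff (n := 2) (by norm_num) |>.1
    linear_combination (N₁ 1 0 * N₂ 0 1) * ht - (N₂ 0 0) ^ 2 * h1d + (N₁ 0 1 * N₁ 1 0) * h2d


/-- the nilpotent part of a matrix with vanishing discriminant. -/
theorem s56h_nilpart (h2 : (2 : k) ≠ 0) (A : Matrix (Fin 2) (Fin 2) k)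
    (hd : A.trace ^ 2 - 4 * A.det = 0) :
    (A - (A.trace / 2) • (1 : Matrix (Fin 2) (Fin 2) k)).trace = 0 ∧
    (A - (A.trace / 2) • (1 : Matrix (Fin 2) (Fin 2) k)).det = 0 := by
  constructor
  · simp only [Matrix.trace_sub, Matrix.trace_smul, Matrix.trace_one, Fintype.card_fin, smul_eq_mul]
    field_simp
    push_cast
    ring
  · rw [Matrix.trace_fin_two, Matrix.det_fin_two] at hd
    rw [Matrix.det_fin_two, Matrix.trace_fin_two]
    simp only [Matrix.sub_apply, Matrix.smul_apply, Matrix.one_apply_eq, smul_eq_mul, mul_one,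
      ne_eq, zero_ne_one, one_ne_zero, not_false_eq_true, Matrix.one_apply_ne, mul_zero, sub_zero]
    field_simp
    linear_combination -hd

/-- the trace relation forced by the vanishing of four discriminants. -/
theorem s56h_disc_tr (h2 : (2 : k) ≠ 0) (A₁ A₂ : Matrix (Fin 2) (Fin 2) k)
    (hd1 : A₁.trace ^ 2 - 4 * A₁.det = 0) (hd2 : A₂.trace ^ 2 - 4 * A₂.det = 0)
    (h12 : (A₁ * A₂).trace ^ 2 - 4 * (A₁ * A₂).det = 0)
    (h112 : (A₁ * A₁ * A₂).trace ^ 2 - 4 * (A₁ * A₁ * A₂).det = 0)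
    (hdet1 : A₁.det ≠ 0) (hdet2 : A₂.det ≠ 0) :
    2 * (A₁ * A₂).trace = A₁.trace * A₂.trace := by
  have e112 : (A₁ * A₁ * A₂).trace = A₁.trace * (A₁ * A₂).trace - A₁.det * A₂.trace := by
    rw [s48e_mat2_cayley_hamilton A₁, Matrix.sub_mul, Matrix.trace_sub, Matrix.smul_mul,
      Matrix.smul_mul, Matrix.one_mul, Matrix.trace_smul, Matrix.trace_smul, smul_eq_mul, smul_eq_mul]
  rw [e112, Matrix.det_mul, Matrix.det_mul] at h112
  rw [Matrix.det_mul] at h12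
  set T1 := A₁.trace
  set T2 := A₂.trace
  set s := (A₁ * A₂).trace
  set d1 := A₁.det
  set d2 := A₂.det
  have hT1 : T1 ≠ 0 := by
    intro h
    apply hdet1
    have : 4 * d1 = 0 := by rw [h] at hd1; linear_combination -hd1
    rcases mul_eq_zero.1 this with h' | h'
    · exfalso
      apply h2
      have : (2 : k) * 2 = 0 := by linear_combination h'
      rcases mul_eq_zero.1 this with h'' | h'' <;> exact h''
    · exact h'
  have hT2 : T2 ≠ 0 := by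
    intro h
    apply hdet2
    have : 4 * d2 = 0 := by rw [h] at hd2; linear_combination -hd2
    rcases mul_eq_zero.1 this with h' | h'
    · exfalso
      apply h2
      have : (2 : k) * 2 = 0 := by linear_combination h'
      rcases mul_eq_zero.1 this with h'' | h'' <;> exact h''
    · exact h'
  have hprod : (2 * s - T1 * T2) * (2 * s + T1 * T2) = 0 := by
    linear_combination 4 * h12 - 4 * d2 * hd1 - T1 ^ 2 * hd2
  rcases mul_eq_zero.1 hprod with h | hu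
  · linear_combination h
  · exfalso
    have key : 8 * (T1 ^ 4 * T2 ^ 2) = 0 := by
      linear_combination 16 * h112
        - 2 * T1 * (2 * (-3 * T1 ^ 2 * T2) + (2 * T1 * (2 * s + T1 * T2) + T2 * (T1 ^ 2 - 4 * d1))) * hu
        - (T2 * (2 * (-3 * T1 ^ 2 * T2) + (2 * T1 * (2 * s + T1 * T2) + T2 * (T1 ^ 2 - 4 * d1)))
            + (2 * T1 ^ 2 * T2 ^ 2 - 2 * T1 ^ 2 * (T2 ^ 2 - 4 * d2) - (T1 ^ 2 - 4 * d1) * T2 ^ 2
              + (T1 ^ 2 - 4 * d1) * (T2 ^ 2 - 4 * d2))) * hd1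
        - T1 ^ 4 * hd2
    have h8 : (8 : k) ≠ 0 := by
      have : (8 : k) = 2 * 2 * 2 := by norm_num
      rw [this]
      exact mul_ne_zero (mul_ne_zero h2 h2) h2
    rcases mul_eq_zero.1 key with h' | h'
    · exact h8 h'
    · rcases mul_eq_zero.1 h' with h'' | h''
      · exact hT1 (pow_eq_zero_iff (by norm_num) |>.1 h'')
      · exact hT2 (pow_eq_zero_iff (by norm_num) |>.1 h'')

end Nilp

section Reg

variable {k : Type*} [Field k] {Γ : Type*} [Group Γ] (ρ : Γ →* GL (Fin 2) k)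

local notation "K" => AlgebraicClosure k

/-- a `2 × 2` matrix over an algebraically closed field has an eigenvector. -/
theorem s56h_exists_eigenvector {L : Type*} [Field L] [IsAlgClosed L] (B : Matrix (Fin 2) (Fin 2) L) :
    ∃ v : Fin 2 → L, v ≠ 0 ∧ ∃ c : L, B *ᵥ v = c • v := by
  obtain ⟨c, hc⟩ := Module.End.exists_eigenvalue (Matrix.toLin' B)
  obtain ⟨v, hv⟩ := hc.exists_hasEigenvector
  refine ⟨v, hv.2, c, ?_⟩
  have := hv.apply_eq_smul
  rwa [Matrix.toLin'_apply] at this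

/-- the elements of `Γ` having `v` as an eigenvector (over `k̄`). -/
def s56h_eigSub (v : Fin 2 → K) (hv : v ≠ 0) : Subgroup Γ where
  carrier := {g | ∃ c : K, ((ρ g : Matrix (Fin 2) (Fin 2) k).map (algebraMap k K)) *ᵥ v = c • v}
  one_mem' := ⟨1, by simp [Matrix.map_one]⟩
  mul_mem' := by
    rintro a b ⟨c, hc⟩ ⟨c', hc'⟩
    refine ⟨c' * c, ?_⟩
    rw [map_mul, Matrix.GeneralLinearGroup.coe_mul, Matrix.map_mul, ← Matrix.mulVec_mulVec, hc',
      Matrix.mulVec_smul, hc, smul_smul]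
  inv_mem' := by
    rintro a ⟨c, hc⟩
    have hinv : ((((ρ a)⁻¹ : GL (Fin 2) k) : Matrix (Fin 2) (Fin 2) k).map (algebraMap k K)) *
        ((ρ a : Matrix (Fin 2) (Fin 2) k).map (algebraMap k K)) = 1 := by
      rw [← Matrix.map_mul, s56h_coe_inv_mul, Matrix.map_one _ (map_zero _) (map_one _)]
    have h1 : ((((ρ a)⁻¹ : GL (Fin 2) k) : Matrix (Fin 2) (Fin 2) k).map (algebraMap k K)) *ᵥ
        (c • v) = v := by
      rw [← hc, Matrix.mulVec_mulVec, hinv, Matrix.one_mulVec]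
    have hc0 : c ≠ 0 := by
      rintro rfl
      rw [zero_smul, Matrix.mulVec_zero] at h1
      exact hv h1.symm
    refine ⟨c⁻¹, ?_⟩
    rw [map_inv]
    rw [Matrix.mulVec_smul] at h1
    calc ((((ρ a)⁻¹ : GL (Fin 2) k) : Matrix (Fin 2) (Fin 2) k).map (algebraMap k K)) *ᵥ v
        = c⁻¹ • (c • (((((ρ a)⁻¹ : GL (Fin 2) k) : Matrix (Fin 2) (Fin 2) k).map
            (algebraMap k K)) *ᵥ v)) := by rw [smul_smul, inv_mul_cancel₀ hc0, one_smul]
      _ = c⁻¹ • v := by rw [h1]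

theorem s56h_mem_eigSub (v : Fin 2 → K) (hv : v ≠ 0) (g : Γ) :
    g ∈ s56h_eigSub ρ v hv ↔
      ∃ c : K, ((ρ g : Matrix (Fin 2) (Fin 2) k).map (algebraMap k K)) *ᵥ v = c • v := Iff.rfl

theorem s56h_det_ne_zero (g : Γ) : (ρ g : Matrix (Fin 2) (Fin 2) k).det ≠ 0 := by
  intro h
  have := congrArg Matrix.det (s56h_coe_mul_inv ρ g)
  rw [Matrix.det_mul, h, zero_mul, Matrix.det_one] at this
  exact zero_ne_one this


/-- the common eigenvector in the non-scalar case (over `k`). -/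
theorem s56h_common_eigen (h2 : (2 : k) ≠ 0) (Δ : Subgroup Γ) [Δ.Normal]
    (hcon : ∀ g ∈ Δ, (ρ g : Matrix (Fin 2) (Fin 2) k).trace ^ 2 -
      4 * (ρ g : Matrix (Fin 2) (Fin 2) k).det = 0)
    (h₁ : Γ) (hh₁ : h₁ ∈ Δ)
    (hns : ∀ a : k, (ρ h₁ : Matrix (Fin 2) (Fin 2) k) ≠ a • (1 : Matrix (Fin 2) (Fin 2) k)) :
    ∃ v : Fin 2 → k, v ≠ 0 ∧ ∀ σ : Γ, ∃ c : k, (ρ σ : Matrix (Fin 2) (Fin 2) k) *ᵥ v = c • v := by
  set A₁ : Matrix (Fin 2) (Fin 2) k := (ρ h₁ : Matrix (Fin 2) (Fin 2) k) with hA₁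
  set α₁ : k := A₁.trace / 2 with hα₁
  set N₁ : Matrix (Fin 2) (Fin 2) k := A₁ - α₁ • (1 : Matrix (Fin 2) (Fin 2) k) with hN₁
  obtain ⟨hN₁t, hN₁d⟩ := s56h_nilpart h2 A₁ (hcon h₁ hh₁)
  have hN₁ne : N₁ ≠ 0 := by
    intro h
    exact hns α₁ (sub_eq_zero.1 h)
  have hN₁sq : N₁ * N₁ = 0 := by
    rw [s48e_mat2_cayley_hamilton, hN₁t, hN₁d, zero_smul, zero_smul, sub_zero]
  have hA₁eq : A₁ = α₁ • (1 : Matrix (Fin 2) (Fin 2) k) + N₁ := by rw [hN₁]; abel
  obtain ⟨j, hj⟩ := s56h_exists_col N₁ hN₁ne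
  set v₁ : Fin 2 → k := fun i => N₁ i j with hv₁
  have hcol : ∀ M : Matrix (Fin 2) (Fin 2) k, M *ᵥ v₁ = fun i => (M * N₁) i j := by
    intro M
    funext i
    simp only [Matrix.mulVec, dotProduct, Matrix.mul_apply, hv₁]
  have hA₁v : A₁ *ᵥ v₁ = α₁ • v₁ := by
    rw [hA₁eq, Matrix.add_mulVec, Matrix.smul_mulVec, Matrix.one_mulVec, hcol N₁, hN₁sq]
    funext i
    simp
  -- every element of `Δ` has `v₁` as an eigenvector
  have claim1 : ∀ h ∈ Δ, ∃ c : k, (ρ h : Matrix (Fin 2) (Fin 2) k) *ᵥ v₁ = c • v₁ := by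
    intro h hh
    set A₂ : Matrix (Fin 2) (Fin 2) k := (ρ h : Matrix (Fin 2) (Fin 2) k) with hA₂
    set α₂ : k := A₂.trace / 2 with hα₂
    obtain ⟨hN₂t, hN₂d⟩ := s56h_nilpart h2 A₂ (hcon h hh)
    have h12 := hcon (h₁ * h) (Δ.mul_mem hh₁ hh)
    have h112 := hcon (h₁ * h₁ * h) (Δ.mul_mem (Δ.mul_mem hh₁ hh₁) hh)
    rw [map_mul, Matrix.GeneralLinearGroup.coe_mul] at h12
    rw [map_mul, map_mul, Matrix.GeneralLinearGroup.coe_mul, Matrix.GeneralLinearGroup.coe_mul] at h112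
    have htr := s56h_disc_tr h2 A₁ A₂ (hcon h₁ hh₁) (hcon h hh) h12 h112
      (s56h_det_ne_zero ρ h₁) (s56h_det_ne_zero ρ h)
    have ht : ((A₂ - α₂ • (1 : Matrix (Fin 2) (Fin 2) k)) * N₁).trace = 0 := by
      rw [Matrix.trace_mul_comm, hN₁, Matrix.sub_mul, Matrix.mul_sub, Matrix.mul_sub]
      simp only [Matrix.smul_mul, Matrix.mul_smul, Matrix.one_mul, Matrix.mul_one, Matrix.trace_sub,
        Matrix.trace_smul, Matrix.trace_one, Fintype.card_fin, smul_eq_mul]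
      rw [hα₁, hα₂]
      field_simp
      push_cast
      linear_combination 2 * htr
    have hzero := s56h_nilp_mul_eq_zero _ N₁ hN₂t hN₂d hN₁t hN₁d ht
    refine ⟨α₂, ?_⟩
    have hA₂eq : A₂ = α₂ • (1 : Matrix (Fin 2) (Fin 2) k) +
        (A₂ - α₂ • (1 : Matrix (Fin 2) (Fin 2) k)) := by abel
    rw [hA₂eq, Matrix.add_mulVec, Matrix.smul_mulVec, Matrix.one_mulVec, hcol, hzero]
    funext i
    simp
  refine ⟨v₁, hj, fun σ => ?_⟩
  have hconj : σ⁻¹ * h₁ * σ ∈ Δ := by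
    have := ‹Δ.Normal›.conj_mem h₁ hh₁ σ⁻¹
    rwa [inv_inv] at this
  obtain ⟨c', hc'⟩ := claim1 _ hconj
  rw [map_mul, map_mul, Matrix.GeneralLinearGroup.coe_mul, Matrix.GeneralLinearGroup.coe_mul,
    map_inv] at hc'
  -- `A₁ (S v₁) = c' S v₁`
  have hw : A₁ *ᵥ ((ρ σ : Matrix (Fin 2) (Fin 2) k) *ᵥ v₁) =
      c' • ((ρ σ : Matrix (Fin 2) (Fin 2) k) *ᵥ v₁) := by
    have := congrArg (fun u => (ρ σ : Matrix (Fin 2) (Fin 2) k) *ᵥ u) hc'
    simp only [Matrix.mulVec_mulVec, Matrix.mulVec_smul] at this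
    rw [← Matrix.mul_assoc, ← Matrix.mul_assoc, s56h_coe_mul_inv, Matrix.one_mul] at this
    rw [Matrix.mulVec_mulVec]
    exact this
  set w : Fin 2 → k := (ρ σ : Matrix (Fin 2) (Fin 2) k) *ᵥ v₁ with hwdef
  by_cases hw0 : w = 0
  · exact ⟨0, by rw [hw0, zero_smul]⟩
  · have hN₁w : N₁ *ᵥ w = (c' - α₁) • w := by
      rw [hN₁, Matrix.sub_mulVec, hw, Matrix.smul_mulVec, Matrix.one_mulVec, sub_smul]
    have hsq : (c' - α₁) ^ 2 • w = 0 := by
      have : N₁ *ᵥ (N₁ *ᵥ w) = (c' - α₁) ^ 2 • w := by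
        rw [hN₁w, Matrix.mulVec_smul, hN₁w, smul_smul, pow_two]
      rw [← this, Matrix.mulVec_mulVec, hN₁sq, Matrix.zero_mulVec]
    have hc'α : c' = α₁ := by
      rcases smul_eq_zero.1 hsq with h | h
      · have := pow_eq_zero_iff (n := 2) (by norm_num) |>.1 h
        linear_combination this
      · exact absurd h hw0
    rw [hc'α] at hw
    exact s56h_eigen_prop A₁ α₁ (hns α₁) v₁ w hj hA₁v hw


/-- **[W7-G2] a regular semisimple element in a normal subgroup with cyclic quotient.** -/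
theorem s56h_regularElt (h2 : (2 : k) ≠ 0) (Δ : Subgroup Γ) [Δ.Normal] (hcyc : IsCyclic (Γ ⧸ Δ))
    (hirr : s56e_AbsIrr ρ ⊤) :
    ∃ g ∈ Δ, (ρ g : Matrix (Fin 2) (Fin 2) k).trace ^ 2 -
      4 * (ρ g : Matrix (Fin 2) (Fin 2) k).det ≠ 0 := by
  by_contra hcon
  push Not at hcon
  suffices h : ∃ v : Fin 2 → K, v ≠ 0 ∧ ∀ g : Γ, ∃ c : K,
      ((ρ g : Matrix (Fin 2) (Fin 2) k).map (algebraMap k K)) *ᵥ v = c • v by
    obtain ⟨v, hv, hall⟩ := h
    obtain ⟨g, -, hg⟩ := hirr v hv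
    obtain ⟨c, hc⟩ := hall g
    exact hg c hc
  by_cases hsc : ∀ h ∈ Δ, ∃ a : k,
      (ρ h : Matrix (Fin 2) (Fin 2) k) = a • (1 : Matrix (Fin 2) (Fin 2) k)
  · -- `ρ(Δ)` is scalar: `ρ(Γ)` is generated by one element and scalars
    obtain ⟨g₀, hg₀⟩ := hcyc.exists_generator
    obtain ⟨γ, rfl⟩ := QuotientGroup.mk_surjective g₀
    obtain ⟨v, hv, c, hc⟩ := s56h_exists_eigenvector
      ((ρ γ : Matrix (Fin 2) (Fin 2) k).map (algebraMap k K))
    refine ⟨v, hv, fun σ => ?_⟩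
    rw [← s56h_mem_eigSub ρ v hv]
    have hγ : γ ∈ s56h_eigSub ρ v hv := ⟨c, hc⟩
    obtain ⟨j, hj⟩ := Subgroup.mem_zpowers_iff.1 (hg₀ (σ : Γ ⧸ Δ))
    have hδ : γ ^ (-j) * σ ∈ Δ := by
      rw [← QuotientGroup.eq_one_iff, QuotientGroup.mk_mul, QuotientGroup.mk_zpow, ← hj, ← _root_.zpow_add,
        neg_add_cancel, zpow_zero]
    have hδ' : γ ^ (-j) * σ ∈ s56h_eigSub ρ v hv := by
      obtain ⟨a, ha⟩ := hsc _ hδ
      refine ⟨algebraMap k K a, ?_⟩
      have hmap : (a • (1 : Matrix (Fin 2) (Fin 2) k)).map (algebraMap k K) =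
          algebraMap k K a • (1 : Matrix (Fin 2) (Fin 2) K) := by
        ext i j
        fin_cases i <;> fin_cases j <;> simp
      rw [ha, hmap, Matrix.smul_mulVec, Matrix.one_mulVec]
    have : σ = γ ^ j * (γ ^ (-j) * σ) := by
      rw [← mul_assoc, ← _root_.zpow_add, add_neg_cancel, zpow_zero, one_mul]
    rw [this]
    exact Subgroup.mul_mem _ (Subgroup.zpow_mem _ hγ j) hδ'
  · push Not at hsc
    obtain ⟨h₁, hh₁, hns⟩ := hsc
    obtain ⟨v, hv, hall⟩ := s56h_common_eigen ρ h2 Δ hcon h₁ hh₁ hns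
    refine ⟨fun i => algebraMap k K (v i), s56h_map_ne_zero v hv, fun g => ?_⟩
    obtain ⟨c, hc⟩ := hall g
    exact ⟨algebraMap k K c, s56h_eigen_map _ v c hc⟩

/-- helper8's interface statement `s56e_RegularElt` holds. -/
theorem s56h_RegularElt_holds : s56e_RegularElt := by
  intro p _ hp2 k _ _ _ Γ _ _ ρ Δ _ hcyc hirr
  exact s56h_regularElt ρ (s48e_two_ne_zero p hp2) Δ hcyc hirr

end Reg

end Fermat.Agent.Lib.S56
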