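/-
PROGRAMME W (S56), wall [W7] (helper7, prefix `s56h_`): **the cocycle step** behind the choice of Taylor–Wiles
primes, at matrix level (pure group theory / linear algebra; `G` is ANY group, in the application `G = G_ℚ`).

`ρ : G →* GL₂(k)`, `χ : G →* (ZMod p)ˣ` with `det ρ = χ`, `Δ ⊴ G` with `G/Δ` cyclic
(`Δ = ker (χ_cyc mod p^(n+1))`), `ψ : G → M₂(k)` a trace-zero cocycle for `g • X = χ(g) · ρ(g) X ρ(g)⁻¹`.
Then (`s56h_cocStep`), granting helper8's `s56e_GroupLemma`:  EITHER `ψ` is a coboundary, OR there is `σ ∈ Δ`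
such that `ρ σ` has distinct eigenvalues (`tr² - 4 det ≠ 0`) and `ψ σ ∉ (σ - 1) sl₂`.
-/
import Fermat.Agent.Lib.S56.HAdIrr
import Fermat.Agent.Lib.S56.HRegElt

set_option autoImplicit false

namespace Fermat.Agent.Lib.S56

open Matrix Fermat.Agent.Lib.S48

section Act

variable {p : ℕ} [Fact p.Prime] {k : Type} [Field k] [CharP k p] {G : Type} [Group G]

/-- the mod `p` character with values in `k`. -/
def s56h_cc (k : Type) [Field k] [CharP k p] (χ : G →* (ZMod p)ˣ) (g : G) : k :=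
  ZMod.castHom (dvd_refl p) k (χ g : ZMod p)

theorem s56h_cc_mul (χ : G →* (ZMod p)ˣ) (g h : G) :
    s56h_cc k χ (g * h) = s56h_cc k χ g * s56h_cc k χ h := by
  unfold s56h_cc
  rw [map_mul, Units.val_mul, map_mul]

theorem s56h_cc_one (χ : G →* (ZMod p)ˣ) : s56h_cc k χ 1 = 1 := by
  unfold s56h_cc
  rw [map_one, Units.val_one, map_one]

theorem s56h_cc_of_eq_one (χ : G →* (ZMod p)ˣ) {g : G} (h : χ g = 1) : s56h_cc k χ g = 1 := by
  unfold s56h_cc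
  rw [h, Units.val_one, map_one]

theorem s56h_cc_ne_zero (χ : G →* (ZMod p)ˣ) (g : G) : s56h_cc k χ g ≠ 0 := by
  unfold s56h_cc
  intro h
  have h1 : ((χ g : (ZMod p)ˣ) : ZMod p) = 0 :=
    (ZMod.castHom (dvd_refl p) k).injective (by rw [h, map_zero])
  exact (χ g).ne_zero h1

theorem s56h_chi_eq_one_of_cc (χ : G →* (ZMod p)ˣ) {g : G} (h : s56h_cc k χ g = 1) : χ g = 1 := by
  unfold s56h_cc at h
  have h1 : ((χ g : (ZMod p)ˣ) : ZMod p) = 1 :=
    (ZMod.castHom (dvd_refl p) k).injective (by rw [h, map_one])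
  exact Units.ext h1

theorem s56h_adTw_mul (g h : GL (Fin 2) k) (c d : k) (X : Matrix (Fin 2) (Fin 2) k) :
    s56e_adTw (g * h) (c * d) X = s56e_adTw g c (s56e_adTw h d X) := by
  unfold s56e_adTw
  rw [_root_.mul_inv_rev, Units.val_mul, Units.val_mul, mul_smul, Matrix.mul_smul, Matrix.smul_mul]
  simp only [Matrix.mul_assoc]

theorem s56h_adTw_one (X : Matrix (Fin 2) (Fin 2) k) : s56e_adTw (1 : GL (Fin 2) k) 1 X = X := by
  unfold s56e_adTw
  rw [inv_one, Units.val_one, one_mul, mul_one, one_smul]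

theorem s56h_adTw_add (g : GL (Fin 2) k) (c : k) (X Y : Matrix (Fin 2) (Fin 2) k) :
    s56e_adTw g c (X + Y) = s56e_adTw g c X + s56e_adTw g c Y := by
  unfold s56e_adTw
  rw [mul_add, add_mul, smul_add]

theorem s56h_adTw_neg (g : GL (Fin 2) k) (c : k) (X : Matrix (Fin 2) (Fin 2) k) :
    s56e_adTw g c (-X) = -s56e_adTw g c X := by
  unfold s56e_adTw
  rw [mul_neg, neg_mul, smul_neg]

theorem s56h_adTw_zero (g : GL (Fin 2) k) (c : k) :
    s56e_adTw g c (0 : Matrix (Fin 2) (Fin 2) k) = 0 := by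
  unfold s56e_adTw
  rw [mul_zero, zero_mul, smul_zero]

theorem s56h_adTw_smul (g : GL (Fin 2) k) (c a : k) (X : Matrix (Fin 2) (Fin 2) k) :
    s56e_adTw g c (a • X) = a • s56e_adTw g c X := by
  unfold s56e_adTw
  rw [Matrix.mul_smul, Matrix.smul_mul, smul_comm]

theorem s56h_adTw_trace (g : GL (Fin 2) k) (c : k) (X : Matrix (Fin 2) (Fin 2) k) :
    (s56e_adTw g c X).trace = c * X.trace := by
  unfold s56e_adTw
  have h1 : ((g⁻¹ : GL (Fin 2) k) : Matrix (Fin 2) (Fin 2) k) * (g : Matrix (Fin 2) (Fin 2) k) = 1 := by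
    rw [← Matrix.GeneralLinearGroup.coe_mul, inv_mul_cancel]; rfl
  rw [Matrix.trace_smul, Matrix.trace_mul_comm, ← Matrix.mul_assoc, h1, one_mul, smul_eq_mul]

theorem s56h_adTw_scal (g : GL (Fin 2) k) (c : k) (X : Matrix (Fin 2) (Fin 2) k) :
    s56e_adTw g c X = c • s56e_adTw g 1 X := by
  unfold s56e_adTw
  rw [one_smul]

end Act

section Coc

variable {p : ℕ} [Fact p.Prime] {k : Type} [Field k] [CharP k p] {G : Type} [Group G]
  (ρ : G →* GL (Fin 2) k) (χ : G →* (ZMod p)ˣ) (ψ : G → Matrix (Fin 2) (Fin 2) k)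

/-- `ψ` is a 1-cocycle for the action `g • X = χ(g) · ρ(g) X ρ(g)⁻¹`. -/
def s56h_IsCoc : Prop :=
  ∀ g h : G, ψ (g * h) = ψ g + s56e_adTw (ρ g) (s56h_cc k χ g) (ψ h)

variable {ρ χ ψ}

theorem s56h_act_triv {δ : G} (hρ : ρ δ = 1) (hχ : χ δ = 1) (X : Matrix (Fin 2) (Fin 2) k) :
    s56e_adTw (ρ δ) (s56h_cc k χ δ) X = X := by
  rw [hρ, s56h_cc_of_eq_one χ hχ, s56h_adTw_one]

theorem s56h_act_mul (g h : G) (X : Matrix (Fin 2) (Fin 2) k) :
    s56e_adTw (ρ (g * h)) (s56h_cc k χ (g * h)) X =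
      s56e_adTw (ρ g) (s56h_cc k χ g) (s56e_adTw (ρ h) (s56h_cc k χ h) X) := by
  rw [map_mul, s56h_cc_mul, s56h_adTw_mul]

theorem s56h_coc_one (hψ : s56h_IsCoc ρ χ ψ) : ψ 1 = 0 := by
  have h := hψ 1 1
  rw [mul_one, map_one, s56h_cc_one, s56h_adTw_one] at h
  exact left_eq_add.mp h

theorem s56h_coc_inv (hψ : s56h_IsCoc ρ χ ψ) (g : G) :
    s56e_adTw (ρ g) (s56h_cc k χ g) (ψ g⁻¹) = -ψ g := by
  have h := hψ g g⁻¹
  rw [mul_inv_cancel, s56h_coc_one hψ] at h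
  rw [eq_neg_iff_add_eq_zero, add_comm]
  exact h.symm

theorem s56h_coc_mul_of_zero (hψ : s56h_IsCoc ρ χ ψ) (g : G) {δ : G} (hδ : ψ δ = 0) :
    ψ (g * δ) = ψ g := by
  rw [hψ g δ, hδ, s56h_adTw_zero, add_zero]

theorem s56h_coc_triv_mul (hψ : s56h_IsCoc ρ χ ψ) {ν : G} (hρ : ρ ν = 1) (hχ : χ ν = 1) (g : G) :
    ψ (ν * g) = ψ ν + ψ g := by
  rw [hψ ν g, s56h_act_triv hρ hχ]

/-- equivariance of a cocycle on the elements acting trivially. -/
theorem s56h_coc_conj (hψ : s56h_IsCoc ρ χ ψ) (γ : G) {δ : G} (hρ : ρ δ = 1) (hχ : χ δ = 1) :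
    ψ (γ * δ * γ⁻¹) = s56e_adTw (ρ γ) (s56h_cc k χ γ) (ψ δ) := by
  rw [mul_assoc, hψ γ (δ * γ⁻¹), hψ δ γ⁻¹, s56h_act_triv hρ hχ, s56h_adTw_add, s56h_coc_inv hψ γ]
  abel

/-- if `det ρ = χ`, the elements of `ker ρ` have trivial character. -/
theorem s56h_chi_of_ker (hdet : ∀ g, (ρ g : Matrix (Fin 2) (Fin 2) k).det = s56h_cc k χ g) {δ : G}
    (hρ : ρ δ = 1) : χ δ = 1 := by
  apply s56h_chi_eq_one_of_cc (k := k)
  rw [← hdet δ, hρ]
  simp

/-- **`H⁰(G, ad⁰ρ(1)) = 0`**: a trace-zero matrix fixed by the twisted adjoint action vanishes. -/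
theorem s56h_fixed_zero (h2 : (2 : k) ≠ 0) (hirr : s56e_AbsIrr ρ ⊤)
    (hirr2 : ∀ S : Subgroup G, S.index = 2 → s56e_AbsIrr ρ S)
    (Z : Matrix (Fin 2) (Fin 2) k) (hZ0 : Z.trace = 0)
    (hZ : ∀ γ : G, s56e_adTw (ρ γ) (s56h_cc k χ γ) Z = Z) : Z = 0 := by
  have hst : ∀ g : G, s56e_adTw (ρ g) 1 Z = (s56h_cc k χ g)⁻¹ • Z := by
    intro g
    have h := hZ g
    rw [s56h_adTw_scal] at h
    rw [← h, smul_smul, inv_mul_cancel₀ (s56h_cc_ne_zero χ g), one_smul]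
    conv_lhs => rw [h]
  rcases s56h_adIrr ρ h2 hirr hirr2 (Submodule.span k {Z})
      (fun X hX => by
        obtain ⟨a, rfl⟩ := Submodule.mem_span_singleton.1 hX
        rw [Matrix.trace_smul, hZ0, smul_zero])
      (fun g X hX => by
        obtain ⟨a, rfl⟩ := Submodule.mem_span_singleton.1 hX
        rw [s56h_adTw_smul, hst g, smul_smul]
        exact Submodule.smul_mem _ _ (Submodule.mem_span_singleton_self Z)) with h | h
  · have : Z ∈ (⊥ : Submodule k (Matrix (Fin 2) (Fin 2) k)) := by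
      rw [← h]; exact Submodule.mem_span_singleton_self Z
    exact (Submodule.mem_bot k).1 this
  · exfalso
    obtain ⟨a, ha⟩ := Submodule.mem_span_singleton.1 (h !![0, 1; 0, 0] (by simp [Matrix.trace_fin_two]))
    obtain ⟨b, hb⟩ := Submodule.mem_span_singleton.1 (h !![0, 0; 1, 0] (by simp [Matrix.trace_fin_two]))
    have h1 := congrFun (congrFun ha 0) 1
    have h2' := congrFun (congrFun ha 1) 0
    have h3 := congrFun (congrFun hb 1) 0
    simp only [Matrix.smul_apply, smul_eq_mul, Matrix.of_apply, Matrix.cons_val', Matrix.cons_val_zero,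
      Matrix.cons_val_one, Matrix.cons_val_fin_one] at h1 h2' h3
    have ha0 : a ≠ 0 := by
      rintro rfl
      rw [zero_mul] at h1
      exact zero_ne_one h1
    have hz : Z 1 0 = 0 := by
      rcases mul_eq_zero.1 h2' with h | h
      · exact absurd h ha0
      · exact h
    rw [hz, mul_zero] at h3
    exact zero_ne_one h3

/-- **Case A**: a cocycle vanishing on `ker ρ` comes from the finite group `G ⧸ ker ρ`, hence is a coboundary by
helper8's `s56e_GroupLemma`. -/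
theorem s56h_cob_of_vanish [Finite k] (hGL : s56e_GroupLemma) (hp2 : p ≠ 2)
    (hdet : ∀ g, (ρ g : Matrix (Fin 2) (Fin 2) k).det = s56h_cc k χ g)
    (hχ : Function.Surjective χ)
    (hsplit : ∀ g, ∃ α β : k, (ρ g : Matrix (Fin 2) (Fin 2) k).trace = α + β ∧
      (ρ g : Matrix (Fin 2) (Fin 2) k).det = α * β)
    (hirr : s56e_AbsIrr ρ ⊤)
    (hirr2 : ∀ S : Subgroup G, S.index = 2 → s56e_AbsIrr ρ S)
    (hψ0 : ∀ g, (ψ g).trace = 0) (hψ : s56h_IsCoc ρ χ ψ)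
    (hvan : ∀ δ : G, ρ δ = 1 → ψ δ = 0) :
    ∃ X : Matrix (Fin 2) (Fin 2) k, X.trace = 0 ∧
      ∀ g, ψ g = s56e_adTw (ρ g) (s56h_cc k χ g) X - X := by
  have hker : ρ.ker ≤ χ.ker := fun δ hδ =>
    MonoidHom.mem_ker.2 (s56h_chi_of_ker hdet (MonoidHom.mem_ker.1 hδ))
  let ρ' : G ⧸ ρ.ker →* GL (Fin 2) k := QuotientGroup.kerLift ρ
  let χ' : G ⧸ ρ.ker →* (ZMod p)ˣ := QuotientGroup.lift ρ.ker χ hker
  have hρ'inj : Function.Injective ρ' := QuotientGroup.kerLift_injective ρ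
  have : Finite (G ⧸ ρ.ker) := Finite.of_injective ρ' hρ'inj
  let ψ' : G ⧸ ρ.ker → Matrix (Fin 2) (Fin 2) k := fun x =>
    Quotient.liftOn' x ψ (fun a b hab => by
      have h1 : a⁻¹ * b ∈ ρ.ker := QuotientGroup.leftRel_apply.1 hab
      have h2 : ψ (a⁻¹ * b) = 0 := hvan _ (MonoidHom.mem_ker.1 h1)
      have h3 := s56h_coc_mul_of_zero hψ a h2
      rw [mul_inv_cancel_left] at h3
      exact h3.symm)
  have hψ'mk : ∀ g : G, ψ' (QuotientGroup.mk g) = ψ g := fun g => rfl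
  have hρ'mk : ∀ g : G, ρ' (QuotientGroup.mk g) = ρ g := fun g => rfl
  have hχ'mk : ∀ g : G, χ' (QuotientGroup.mk g) = χ g := fun g => rfl
  obtain ⟨X, hX0, hX⟩ := hGL p hp2 k (G ⧸ ρ.ker) ρ' χ'
    (fun x => by
      obtain ⟨g, rfl⟩ := QuotientGroup.mk_surjective x
      rw [hρ'mk, hχ'mk]; exact hdet g)
    (fun u => by
      obtain ⟨g, rfl⟩ := hχ u
      exact ⟨QuotientGroup.mk g, hχ'mk g⟩)
    hρ'inj
    (fun x => by
      obtain ⟨g, rfl⟩ := QuotientGroup.mk_surjective x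
      rw [hρ'mk]; exact hsplit g)
    (fun v hv => by
      obtain ⟨g, -, hg⟩ := hirr v hv
      exact ⟨QuotientGroup.mk g, Subgroup.mem_top _, by rw [hρ'mk]; exact hg⟩)
    (fun S hS v hv => by
      have hidx : (S.comap (QuotientGroup.mk' ρ.ker)).index = 2 := by
        rw [Subgroup.index_comap_of_surjective _ (QuotientGroup.mk'_surjective ρ.ker)]
        exact hS
      obtain ⟨g, hgS, hg⟩ := hirr2 _ hidx v hv
      exact ⟨QuotientGroup.mk g, hgS, by rw [hρ'mk]; exact hg⟩)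
    ψ'
    (fun x => by
      obtain ⟨g, rfl⟩ := QuotientGroup.mk_surjective x
      rw [hψ'mk]; exact hψ0 g)
    (fun x y => by
      obtain ⟨g, rfl⟩ := QuotientGroup.mk_surjective x
      obtain ⟨h, rfl⟩ := QuotientGroup.mk_surjective y
      rw [← QuotientGroup.mk_mul, hψ'mk, hψ'mk, hψ'mk, hρ'mk, hχ'mk]
      exact hψ g h)
  refine ⟨X, hX0, fun g => ?_⟩
  have := hX (QuotientGroup.mk g)
  rw [hψ'mk, hρ'mk, hχ'mk] at this
  exact this

/-- the linear map `X ↦ ρ(g) X ρ(g)⁻¹`. -/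
def s56h_AdL (g : GL (Fin 2) k) : Matrix (Fin 2) (Fin 2) k →ₗ[k] Matrix (Fin 2) (Fin 2) k where
  toFun := s56e_adTw g 1
  map_add' := s56h_adTw_add g 1
  map_smul' := fun a X => s56h_adTw_smul g 1 a X

/-- the functional `X ↦ tr (X H)`. -/
def s56h_trL (H : Matrix (Fin 2) (Fin 2) k) : Matrix (Fin 2) (Fin 2) k →ₗ[k] k where
  toFun := fun X => (X * H).trace
  map_add' := fun X Y => by rw [add_mul, Matrix.trace_add]
  map_smul' := fun a X => by rw [Matrix.smul_mul, Matrix.trace_smul]; rfl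

/-- `tr ((g Y g⁻¹ - Y) H) = 0` for `H = g - (tr g / 2)`. -/
theorem s56h_trL_range (g : GL (Fin 2) k) (Y : Matrix (Fin 2) (Fin 2) k) :
    s56h_trL ((g : Matrix (Fin 2) (Fin 2) k) -
      ((g : Matrix (Fin 2) (Fin 2) k).trace / 2) • (1 : Matrix (Fin 2) (Fin 2) k))
      (s56e_adTw g 1 Y - Y) = 0 := by
  set A : Matrix (Fin 2) (Fin 2) k := (g : Matrix (Fin 2) (Fin 2) k) with hA
  set B : Matrix (Fin 2) (Fin 2) k := ((g⁻¹ : GL (Fin 2) k) : Matrix (Fin 2) (Fin 2) k) with hB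
  have hAB : A * B = 1 := by
    rw [hA, hB, ← Matrix.GeneralLinearGroup.coe_mul, mul_inv_cancel]; rfl
  have hBA : B * A = 1 := by
    rw [hA, hB, ← Matrix.GeneralLinearGroup.coe_mul, inv_mul_cancel]; rfl
  set c : k := A.trace / 2
  have hcomm : B * (A - c • (1 : Matrix (Fin 2) (Fin 2) k)) = (A - c • (1 : Matrix (Fin 2) (Fin 2) k)) * B := by
    rw [mul_sub, sub_mul, hAB, hBA, Matrix.mul_smul, Matrix.smul_mul, mul_one, one_mul]
  show ((s56e_adTw g 1 Y - Y) * (A - c • (1 : Matrix (Fin 2) (Fin 2) k))).trace = 0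
  unfold s56e_adTw
  rw [one_smul, sub_mul, Matrix.trace_sub, Matrix.mul_assoc (A * Y) B, hcomm, ← Matrix.mul_assoc,
    Matrix.trace_mul_comm, ← Matrix.mul_assoc, ← Matrix.mul_assoc, hBA, one_mul, sub_self]

/-- `tr (H²) = (tr² - 4 det) / 2` for `H = A - tr A / 2`. -/
theorem s56h_trL_self (h2 : (2 : k) ≠ 0) (A : Matrix (Fin 2) (Fin 2) k) :
    s56h_trL (A - (A.trace / 2) • (1 : Matrix (Fin 2) (Fin 2) k))
      (A - (A.trace / 2) • (1 : Matrix (Fin 2) (Fin 2) k)) = (A.trace ^ 2 - 4 * A.det) / 2 := by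
  show ((A - (A.trace / 2) • (1 : Matrix (Fin 2) (Fin 2) k)) *
    (A - (A.trace / 2) • (1 : Matrix (Fin 2) (Fin 2) k))).trace = _
  simp only [Matrix.trace_fin_two, Matrix.mul_apply, Fin.sum_univ_two, Matrix.det_fin_two,
    Matrix.sub_apply, Matrix.smul_apply, Matrix.one_apply_eq, Matrix.one_apply_ne, smul_eq_mul,
    ne_eq, not_false_eq_true, Fin.isValue, zero_ne_one, one_ne_zero, mul_zero, mul_one, sub_zero]
  field_simp
  ring

theorem s56h_trace_H (h2 : (2 : k) ≠ 0) (A : Matrix (Fin 2) (Fin 2) k) :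
    (A - (A.trace / 2) • (1 : Matrix (Fin 2) (Fin 2) k)).trace = 0 := by
  simp only [Matrix.trace_fin_two, Matrix.sub_apply, Matrix.smul_apply, Matrix.one_apply_eq, smul_eq_mul,
    mul_one]
  field_simp
  ring

/-- **THE COCYCLE STEP.** -/
theorem s56h_cocStep [Finite k] (hGL : s56e_GroupLemma) (hp2 : p ≠ 2)
    (hdet : ∀ g, (ρ g : Matrix (Fin 2) (Fin 2) k).det = s56h_cc k χ g)
    (hχ : Function.Surjective χ)
    (hsplit : ∀ g, ∃ α β : k, (ρ g : Matrix (Fin 2) (Fin 2) k).trace = α + β ∧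
      (ρ g : Matrix (Fin 2) (Fin 2) k).det = α * β)
    (hirr : s56e_AbsIrr ρ ⊤)
    (hirr2 : ∀ S : Subgroup G, S.index = 2 → s56e_AbsIrr ρ S)
    (Δ : Subgroup G) [Δ.Normal] (hcyc : IsCyclic (G ⧸ Δ))
    (hψ0 : ∀ g, (ψ g).trace = 0) (hψ : s56h_IsCoc ρ χ ψ) :
    (∃ X : Matrix (Fin 2) (Fin 2) k, X.trace = 0 ∧
      ∀ g, ψ g = s56e_adTw (ρ g) (s56h_cc k χ g) X - X) ∨
    ∃ σ ∈ Δ, (ρ σ : Matrix (Fin 2) (Fin 2) k).trace ^ 2 -
        4 * (ρ σ : Matrix (Fin 2) (Fin 2) k).det ≠ 0 ∧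
      ∀ Y : Matrix (Fin 2) (Fin 2) k, Y.trace = 0 → ψ σ ≠ s56e_adTw (ρ σ) 1 Y - Y := by
  have h2 : (2 : k) ≠ 0 := s48e_two_ne_zero p hp2
  by_cases hN : ∀ ν : G, ρ ν = 1 → ν ∈ Δ → ψ ν = 0
  · -- Case A
    left
    refine s56h_cob_of_vanish hGL hp2 hdet hχ hsplit hirr hirr2 hψ0 hψ (fun δ hδ => ?_)
    have hχδ : χ δ = 1 := s56h_chi_of_ker hdet hδ
    refine s56h_fixed_zero (χ := χ) h2 hirr hirr2 (ψ δ) (hψ0 δ) (fun γ => ?_)
    have hcρ : ρ (γ * δ * γ⁻¹ * δ⁻¹) = 1 := by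
      rw [map_mul, map_mul, map_mul, map_inv, map_inv, hδ]; group
    have hcΔ : γ * δ * γ⁻¹ * δ⁻¹ ∈ Δ := by
      rw [← QuotientGroup.eq_one_iff]
      have hcomm : ∀ a b : G ⧸ Δ, a * b = b * a := fun a b => by
        obtain ⟨t, ht⟩ := hcyc.exists_generator
        obtain ⟨m, rfl⟩ := Subgroup.mem_zpowers_iff.1 (ht a)
        obtain ⟨n, rfl⟩ := Subgroup.mem_zpowers_iff.1 (ht b)
        rw [← _root_.zpow_add, ← _root_.zpow_add, add_comm]
      rw [QuotientGroup.mk_mul, QuotientGroup.mk_mul, QuotientGroup.mk_mul, QuotientGroup.mk_inv,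
        QuotientGroup.mk_inv, hcomm (γ : G ⧸ Δ) (δ : G ⧸ Δ)]
      group
    have h1 : ψ (γ * δ * γ⁻¹ * δ⁻¹) = 0 := hN _ hcρ hcΔ
    have h3 : ψ (γ * δ * γ⁻¹ * δ⁻¹ * δ) = ψ (γ * δ * γ⁻¹ * δ⁻¹) + ψ δ :=
      s56h_coc_triv_mul hψ hcρ (s56h_chi_of_ker hdet hcρ) δ
    rw [inv_mul_cancel_right, h1, zero_add, s56h_coc_conj hψ γ hδ hχδ] at h3
    exact h3
  · -- Case B
    right
    push Not at hN
    obtain ⟨ν₀, hν₀ρ, hν₀Δ, hν₀⟩ := hN
    set Nset : Set G := {ν | ρ ν = 1 ∧ ν ∈ Δ} with hNset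
    set W : Submodule k (Matrix (Fin 2) (Fin 2) k) := Submodule.span k (ψ '' Nset) with hW
    have hW0 : ∀ X ∈ W, X.trace = 0 := by
      have : W ≤ LinearMap.ker (Matrix.traceLinearMap (Fin 2) k k) := by
        rw [hW, Submodule.span_le]
        rintro _ ⟨ν, -, rfl⟩
        exact LinearMap.mem_ker.2 (hψ0 ν)
      exact fun X hX => LinearMap.mem_ker.1 (this hX)
    have hWst : ∀ g : G, ∀ X ∈ W, s56e_adTw (ρ g) 1 X ∈ W := by
      intro g
      have : W ≤ W.comap (s56h_AdL (ρ g)) := by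
        rw [hW, Submodule.span_le]
        rintro _ ⟨ν, ⟨hνρ, hνΔ⟩, rfl⟩
        show s56e_adTw (ρ g) 1 (ψ ν) ∈ Submodule.span k (ψ '' Nset)
        have h1 := s56h_coc_conj hψ g hνρ (s56h_chi_of_ker hdet hνρ)
        rw [s56h_adTw_scal] at h1
        have h3 : s56e_adTw (ρ g) 1 (ψ ν) = (s56h_cc k χ g)⁻¹ • ψ (g * ν * g⁻¹) := by
          rw [h1, smul_smul, inv_mul_cancel₀ (s56h_cc_ne_zero χ g), one_smul]
        rw [h3]
        refine Submodule.smul_mem _ _ (Submodule.subset_span ⟨g * ν * g⁻¹, ⟨?_, ?_⟩, rfl⟩)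
        · rw [map_mul, map_mul, hνρ, mul_one, map_inv, mul_inv_cancel]
        · exact (inferInstance : Δ.Normal).conj_mem ν hνΔ g
      exact fun X hX => this hX
    have hall : ∀ X : Matrix (Fin 2) (Fin 2) k, X.trace = 0 → X ∈ W := by
      rcases s56h_adIrr ρ h2 hirr hirr2 W hW0 hWst with h | h
      · exfalso
        apply hν₀
        have : ψ ν₀ ∈ W := Submodule.subset_span ⟨ν₀, ⟨hν₀ρ, hν₀Δ⟩, rfl⟩
        rw [h] at this
        exact (Submodule.mem_bot k).1 this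
      · exact h
    obtain ⟨g, hgΔ, hdisc⟩ := s56h_regularElt ρ h2 Δ hcyc hirr
    set A : Matrix (Fin 2) (Fin 2) k := (ρ g : Matrix (Fin 2) (Fin 2) k) with hA
    set H : Matrix (Fin 2) (Fin 2) k := A - (A.trace / 2) • (1 : Matrix (Fin 2) (Fin 2) k) with hH
    have hHH : s56h_trL H H ≠ 0 := by
      rw [hH, s56h_trL_self h2 A]
      exact div_ne_zero hdisc h2
    have hHW : H ∈ W := hall H (s56h_trace_H h2 A)
    have hex : ∃ ν : G, (ρ ν = 1 ∧ ν ∈ Δ) ∧ s56h_trL H (ψ ν) ≠ 0 := by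
      by_contra hcon
      push Not at hcon
      have : W ≤ LinearMap.ker (s56h_trL H) := by
        rw [hW, Submodule.span_le]
        rintro _ ⟨ν, hν, rfl⟩
        exact LinearMap.mem_ker.2 (hcon ν hν)
      exact hHH (LinearMap.mem_ker.1 (this hHW))
    obtain ⟨ν, ⟨hνρ, hνΔ⟩, hν⟩ := hex
    have hkey : ∀ σ : G, ρ σ = ρ g → s56h_trL H (ψ σ) ≠ 0 →
        ∀ Y : Matrix (Fin 2) (Fin 2) k, Y.trace = 0 → ψ σ ≠ s56e_adTw (ρ σ) 1 Y - Y := by
      intro σ hσ hne Y _ hY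
      apply hne
      rw [hY, hσ]
      exact s56h_trL_range (ρ g) Y
    by_cases hg : s56h_trL H (ψ g) = 0
    · refine ⟨ν * g, Δ.mul_mem hνΔ hgΔ, ?_, ?_⟩
      · rw [map_mul, hνρ, one_mul]; exact hdisc
      · refine hkey (ν * g) (by rw [map_mul, hνρ, one_mul]) ?_
        rw [s56h_coc_triv_mul hψ hνρ (s56h_chi_of_ker hdet hνρ) g, map_add, hg, add_zero]
        exact hν
    · exact ⟨g, hgΔ, hdisc, hkey g rfl hg⟩

end Coc

end Fermat.Agent.Lib.S56
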