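/-
PROGRAMME W (S56), wall [W7] (helper7, prefix `s56h_`): **the trace-form isomorphism** `ad⁰ρ̄(1) ≃ M'`.

`M = s56z_M p ρbar` (`ad⁰ρ̄` over `𝔽_p`), `M' = s56z_Md p ρbar = Hom_{𝔽_p}(M, 𝔽_p)(1)`.  For a nonzero `𝔽_p`-linear
`t : k → 𝔽_p`, `e X = (Y ↦ t (tr (X Y)))` is an `𝔽_p`-linear bijection `M → M'` with
`e (χ(σ) · σ X σ⁻¹) = σ • e X`.  Through `e⁻¹` and the basis of `HBridge`, a cocycle of `M'` becomes a matrix cocycle
in the sense of `HCoc` (`s56h_psi`, `s56h_psi_isCoc`), coboundaries and the subspaces `(σ - 1) M'` correspond.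
-/
import Fermat.Agent.Lib.S56.IfaceTop
import Fermat.Agent.Lib.S56.HBridge
import Fermat.Agent.Lib.S56.HCoc

set_option autoImplicit false
set_option linter.unusedSectionVars false

noncomputable section

namespace Fermat.Agent.Lib.S56

open Matrix groupCohomology ExtCitation

local notation "GQ" => (AlgebraicClosure ℚ ≃ₐ[ℚ] AlgebraicClosure ℚ)

section Dual

variable (p : ℕ) [Fact p.Prime] {k : Type} [Field k] [Algebra (ZMod p) k] (ρbar : ResidualGaloisRep k)

theorem s56h_exists_t : ∃ t : k →ₗ[ZMod p] ZMod p, t 1 ≠ 0 := by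
  by_contra hcon
  push Not at hcon
  exact one_ne_zero ((Module.forall_dual_apply_eq_zero_iff (ZMod p) (1 : k)).1 hcon)

/-- a nonzero `𝔽_p`-linear functional on `k`. -/
def s56h_t : k →ₗ[ZMod p] ZMod p := (s56h_exists_t p (k := k)).choose

theorem s56h_t_one : s56h_t p (k := k) 1 ≠ 0 := (s56h_exists_t p (k := k)).choose_spec

/-- `t (a z) = 0` for all `a` forces `z = 0`. -/
theorem s56h_t_nondeg (z : k) (h : ∀ a : k, s56h_t p (a * z) = 0) : z = 0 := by
  by_contra hz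
  apply s56h_t_one p (k := k)
  rw [← inv_mul_cancel₀ hz]
  exact h z⁻¹

/-- the endomorphism underlying an element of `M`. -/
def s56h_toEnd (X : (s56z_M p ρbar)) : Module.End k ρbar.V :=
  ((show ↥(s56a_sl ρbar) from X) : Module.End k ρbar.V)

/-- a trace-zero endomorphism as an element of `M`. -/
def s56h_ofEnd (X : Module.End k ρbar.V) (hX : LinearMap.trace k ρbar.V X = 0) : (s56z_M p ρbar) :=
  (show ↥(s56a_sl ρbar) from ⟨X, (s56a_mem_sl ρbar X).2 hX⟩)

theorem s56h_toEnd_ofEnd (X : Module.End k ρbar.V) (hX : LinearMap.trace k ρbar.V X = 0) :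
    s56h_toEnd p ρbar (s56h_ofEnd p ρbar X hX) = X := rfl

theorem s56h_toEnd_injective : Function.Injective (s56h_toEnd p ρbar) := fun _ _ h => Subtype.ext h

theorem s56h_toEnd_trace (X : (s56z_M p ρbar)) : LinearMap.trace k ρbar.V (s56h_toEnd p ρbar X) = 0 :=
  (s56a_mem_sl ρbar _).1 (show ↥(s56a_sl ρbar) from X).2

theorem s56h_toEnd_smul (a : ZMod p) (Y : (s56z_M p ρbar)) :
    s56h_toEnd p ρbar (a • Y) = (algebraMap (ZMod p) k a) • s56h_toEnd p ρbar Y := rfl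

theorem s56h_toEnd_add (X Y : (s56z_M p ρbar)) :
    s56h_toEnd p ρbar (X + Y) = s56h_toEnd p ρbar X + s56h_toEnd p ρbar Y := rfl

theorem s56h_toEnd_sub (X Y : (s56z_M p ρbar)) :
    s56h_toEnd p ρbar (X - Y) = s56h_toEnd p ρbar X - s56h_toEnd p ρbar Y := rfl

theorem s56h_toEnd_zero : s56h_toEnd p ρbar 0 = 0 := rfl

theorem s56h_toEnd_rho (σ : GQ) (X : (s56z_M p ρbar)) :
    s56h_toEnd p ρbar ((s56z_M p ρbar).ρ σ X) =
      ρbar.ρ σ * s56h_toEnd p ρbar X * ρbar.ρ σ⁻¹ := rfl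

/-- the pairing `(X, Y) ↦ t (tr (X Y))`. -/
def s56h_e : (s56z_M p ρbar) →ₗ[ZMod p] Module.Dual (ZMod p) (s56z_M p ρbar) where
  toFun X :=
    { toFun := fun Y => s56h_t p (LinearMap.trace k ρbar.V (s56h_toEnd p ρbar X * s56h_toEnd p ρbar Y))
      map_add' := fun Y Y' => by
        rw [s56h_toEnd_add, mul_add, map_add, map_add]
      map_smul' := fun a Y => by
        rw [s56h_toEnd_smul, mul_smul_comm, map_smul, RingHom.id_apply, Algebra.algebraMap_eq_smul_one,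
          smul_assoc, one_smul, map_smul] }
  map_add' := fun X X' => by
    ext Y
    show s56h_t p _ = s56h_t p _ + s56h_t p _
    rw [s56h_toEnd_add, add_mul, map_add, map_add]
  map_smul' := fun a X => by
    ext Y
    show s56h_t p _ = a • s56h_t p _
    rw [s56h_toEnd_smul, smul_mul_assoc, map_smul, Algebra.algebraMap_eq_smul_one,
      smul_assoc, one_smul, map_smul]

theorem s56h_e_apply (X Y : (s56z_M p ρbar)) :
    s56h_e p ρbar X Y =
      s56h_t p (LinearMap.trace k ρbar.V (s56h_toEnd p ρbar X * s56h_toEnd p ρbar Y)) := rfl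

theorem s56h_T_toEnd_trace (X : (s56z_M p ρbar)) : (s56h_T ρbar (s56h_toEnd p ρbar X)).trace = 0 := by
  rw [s56h_T_trace, s56h_toEnd_trace]

/-- a trace-zero matrix as an element of `M`. -/
def s56h_ofMat (N : Matrix (Fin 2) (Fin 2) k) (hN : N.trace = 0) : (s56z_M p ρbar) :=
  s56h_ofEnd p ρbar ((s56h_T ρbar).symm N) (by
    rw [← s56h_T_trace, AlgEquiv.apply_symm_apply, hN])

theorem s56h_T_ofMat (N : Matrix (Fin 2) (Fin 2) k) (hN : N.trace = 0) :
    s56h_T ρbar (s56h_toEnd p ρbar (s56h_ofMat p ρbar N hN)) = N := by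
  unfold s56h_ofMat
  rw [s56h_toEnd_ofEnd, AlgEquiv.apply_symm_apply]

theorem s56h_ofMat_T (X : (s56z_M p ρbar)) :
    s56h_ofMat p ρbar (s56h_T ρbar (s56h_toEnd p ρbar X)) (s56h_T_toEnd_trace p ρbar X) = X := by
  apply s56h_toEnd_injective
  unfold s56h_ofMat
  rw [s56h_toEnd_ofEnd, AlgEquiv.symm_apply_apply]

/-- nondegeneracy of the trace form on `sl₂`. -/
theorem s56h_mat_trace_nondeg (h2 : (2 : k) ≠ 0) (A : Matrix (Fin 2) (Fin 2) k) (hA : A.trace = 0)
    (h : ∀ N : Matrix (Fin 2) (Fin 2) k, N.trace = 0 → (A * N).trace = 0) : A = 0 := by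
  have h1 := h !![0, 1; 0, 0] (by simp [Matrix.trace_fin_two])
  have h3 := h !![0, 0; 1, 0] (by simp [Matrix.trace_fin_two])
  have h4 := h !![1, 0; 0, -1] (by simp [Matrix.trace_fin_two])
  simp only [Matrix.trace_fin_two, Matrix.mul_apply, Fin.sum_univ_two, Matrix.of_apply, Matrix.cons_val',
    Matrix.cons_val_zero, Matrix.cons_val_one, Matrix.cons_val_fin_one, mul_zero, mul_one, zero_add,
    add_zero, mul_neg] at h1 h3 h4
  rw [Matrix.trace_fin_two] at hA
  have h00 : A 0 0 = 0 := by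
    have : (2 : k) * A 0 0 = 0 := by linear_combination hA + h4
    rcases mul_eq_zero.1 this with h | h
    · exact absurd h h2
    · exact h
  have h11 : A 1 1 = 0 := by rw [h00, zero_add] at hA; exact hA
  ext i j
  fin_cases i <;> fin_cases j
  · exact h00
  · exact h3
  · exact h1
  · exact h11

theorem s56h_e_injective (h2 : (2 : k) ≠ 0) : Function.Injective (s56h_e p ρbar) := by
  rw [injective_iff_map_eq_zero]
  intro X hX
  apply s56h_toEnd_injective
  rw [s56h_toEnd_zero]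
  apply (s56h_T ρbar).injective
  rw [map_zero]
  apply s56h_mat_trace_nondeg h2 _ (s56h_T_toEnd_trace p ρbar X)
  intro N hN
  apply s56h_t_nondeg p
  intro a
  have h1 : s56h_e p ρbar X (s56h_ofMat p ρbar (a • N) (by rw [Matrix.trace_smul, hN, smul_zero])) = 0 := by
    rw [hX]; rfl
  rw [s56h_e_apply, ← s56h_T_trace, map_mul, s56h_T_ofMat, Matrix.mul_smul, Matrix.trace_smul,
    smul_eq_mul] at h1
  exact h1

instance s56h_finite_M [Finite k] : Finite (s56z_M p ρbar) := by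
  have : Finite (Module.End k ρbar.V) := Finite.of_equiv _ (s56h_T ρbar).toEquiv.symm
  exact Finite.of_injective _ (s56h_toEnd_injective p ρbar)

instance s56h_moduleFinite_M [Finite k] : Module.Finite (ZMod p) (s56z_M p ρbar) :=
  Module.Finite.of_finite

theorem s56h_e_bijective [Finite k] (h2 : (2 : k) ≠ 0) : Function.Bijective (s56h_e p ρbar) := by
  refine ⟨s56h_e_injective p ρbar h2, ?_⟩
  exact (LinearMap.injective_iff_surjective_of_finrank_eq_finrank
    (Subspace.dual_finrank_eq (K := ZMod p) (V := (s56z_M p ρbar))).symm).1 (s56h_e_injective p ρbar h2)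

/-- the `𝔽_p`-linear isomorphism `M ≃ M'` (underlying spaces). -/
def s56h_eEquiv [Finite k] (h2 : (2 : k) ≠ 0) :
    (s56z_M p ρbar) ≃ₗ[ZMod p] Module.Dual (ZMod p) (s56z_M p ρbar) :=
  LinearEquiv.ofBijective (s56h_e p ρbar) (s56h_e_bijective p ρbar h2)

/-- an element of `M'` as a functional on `M`. -/
def s56h_toDual : (s56z_Md p ρbar) ≃ₗ[ZMod p] Module.Dual (ZMod p) (s56z_M p ρbar) :=
  LinearEquiv.refl (ZMod p) (Module.Dual (ZMod p) (s56z_M p ρbar))

theorem s56h_toDual_rho (σ : GQ) (f : (s56z_Md p ρbar)) :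
    s56h_toDual p ρbar ((s56z_Md p ρbar).ρ σ f) =
      ((cycloChar p σ : (ZMod p)ˣ) : ZMod p) • ((s56h_toDual p ρbar f) ∘ₗ (s56z_M p ρbar).ρ σ⁻¹) := rfl

/-- **`eD : M ≃ M'`**. -/
def s56h_eD [Finite k] (h2 : (2 : k) ≠ 0) : (s56z_M p ρbar) ≃ₗ[ZMod p] (s56z_Md p ρbar) :=
  (s56h_eEquiv p ρbar h2).trans (s56h_toDual p ρbar).symm

theorem s56h_toDual_eD [Finite k] (h2 : (2 : k) ≠ 0) (X : (s56z_M p ρbar)) :
    s56h_toDual p ρbar (s56h_eD p ρbar h2 X) = s56h_e p ρbar X := rfl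

/-- **equivariance**: `eD (χ(σ) · σ X σ⁻¹) = σ • eD X`. -/
theorem s56h_eD_equivariant [Finite k] (h2 : (2 : k) ≠ 0) (σ : GQ) (X : (s56z_M p ρbar)) :
    s56h_eD p ρbar h2 (((cycloChar p σ : (ZMod p)ˣ) : ZMod p) • (s56z_M p ρbar).ρ σ X) =
      (s56z_Md p ρbar).ρ σ (s56h_eD p ρbar h2 X) := by
  apply (s56h_toDual p ρbar).injective
  rw [s56h_toDual_rho, s56h_toDual_eD, s56h_toDual_eD]
  ext Y
  rw [map_smul, LinearMap.smul_apply, LinearMap.smul_apply, LinearMap.comp_apply, s56h_e_apply,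
    s56h_e_apply, s56h_toEnd_rho, s56h_toEnd_rho, inv_inv]
  congr 2
  rw [mul_assoc, mul_assoc, LinearMap.trace_mul_comm, mul_assoc, mul_assoc]

end Dual

section Psi

variable (p : ℕ) [Fact p.Prime] {k : Type} [Field k] [Algebra (ZMod p) k] [CharP k p] [Finite k]
  (ρbar : ResidualGaloisRep k) (h2 : (2 : k) ≠ 0)

theorem s56h_algebraMap_eq : (algebraMap (ZMod p) k) = ZMod.castHom (dvd_refl p) k :=
  Subsingleton.elim _ _

/-- the matrix of an element of `M`. -/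
def s56h_mat (X : (s56z_M p ρbar)) : Matrix (Fin 2) (Fin 2) k := s56h_T ρbar (s56h_toEnd p ρbar X)

theorem s56h_mat_injective : Function.Injective (s56h_mat p ρbar) :=
  (s56h_T ρbar).injective.comp (s56h_toEnd_injective p ρbar)

theorem s56h_mat_trace (X : (s56z_M p ρbar)) : (s56h_mat p ρbar X).trace = 0 :=
  s56h_T_toEnd_trace p ρbar X

theorem s56h_mat_add (X Y : (s56z_M p ρbar)) :
    s56h_mat p ρbar (X + Y) = s56h_mat p ρbar X + s56h_mat p ρbar Y := by
  unfold s56h_mat; rw [s56h_toEnd_add, map_add]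

theorem s56h_mat_sub (X Y : (s56z_M p ρbar)) :
    s56h_mat p ρbar (X - Y) = s56h_mat p ρbar X - s56h_mat p ρbar Y := by
  unfold s56h_mat; rw [s56h_toEnd_sub, map_sub]

theorem s56h_mat_ofMat (N : Matrix (Fin 2) (Fin 2) k) (hN : N.trace = 0) :
    s56h_mat p ρbar (s56h_ofMat p ρbar N hN) = N := s56h_T_ofMat p ρbar N hN

/-- the twisted action in matrices. -/
theorem s56h_mat_tw (σ : GQ) (X : (s56z_M p ρbar)) :
    s56h_mat p ρbar (((cycloChar p σ : (ZMod p)ˣ) : ZMod p) • (s56z_M p ρbar).ρ σ X) =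
      s56e_adTw (s56h_rhoMat ρbar σ) (s56h_cc k (cycloChar p) σ) (s56h_mat p ρbar X) := by
  unfold s56h_mat s56e_adTw s56h_cc
  rw [s56h_toEnd_smul, s56h_toEnd_rho, map_smul, map_mul, map_mul, s56h_rhoMat_coe, s56h_rhoMat_inv_coe,
    s56h_algebraMap_eq]

/-- the matrix cochain attached to a cochain of `M'`. -/
def s56h_psi (c : GQ → (s56z_Md p ρbar)) (σ : GQ) : Matrix (Fin 2) (Fin 2) k :=
  s56h_mat p ρbar ((s56h_eD p ρbar h2).symm (c σ))

theorem s56h_psi_trace (c : GQ → (s56z_Md p ρbar)) (σ : GQ) : (s56h_psi p ρbar h2 c σ).trace = 0 :=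
  s56h_mat_trace p ρbar _

theorem s56h_eD_symm_rho (σ : GQ) (f : (s56z_Md p ρbar)) :
    (s56h_eD p ρbar h2).symm ((s56z_Md p ρbar).ρ σ f) =
      ((cycloChar p σ : (ZMod p)ˣ) : ZMod p) • (s56z_M p ρbar).ρ σ ((s56h_eD p ρbar h2).symm f) := by
  apply (s56h_eD p ρbar h2).injective
  rw [LinearEquiv.apply_symm_apply, s56h_eD_equivariant, LinearEquiv.apply_symm_apply]

theorem s56h_psi_isCoc (c : cocycles₁ (s56z_Md p ρbar)) :
    s56h_IsCoc (s56h_rhoMat ρbar) (cycloChar p) (s56h_psi p ρbar h2 c.1) := by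
  intro g h
  have h1 := (mem_cocycles₁_def (A := s56z_Md p ρbar) c.1).1 c.2 g h
  have h3 : c.1 (g * h) = (s56z_Md p ρbar).ρ g (c.1 h) + c.1 g := by
    rw [sub_add_eq_add_sub, sub_eq_zero] at h1
    exact h1.symm
  unfold s56h_psi
  rw [h3, map_add, s56h_eD_symm_rho, s56h_mat_add, s56h_mat_tw, add_comm]

/-- a coboundary in matrices gives a coboundary of `M'`. -/
theorem s56h_cob_of_psi (c : cocycles₁ (s56z_Md p ρbar)) (X : Matrix (Fin 2) (Fin 2) k)
    (hX0 : X.trace = 0)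
    (hX : ∀ g, s56h_psi p ρbar h2 c.1 g =
      s56e_adTw (s56h_rhoMat ρbar g) (s56h_cc k (cycloChar p) g) X - X) :
    (H1π (s56z_Md p ρbar)).hom c = 0 := by
  rw [H1π_eq_zero_iff]
  refine ⟨s56h_eD p ρbar h2 (s56h_ofMat p ρbar X hX0), funext fun g => ?_⟩
  show (s56z_Md p ρbar).ρ g (s56h_eD p ρbar h2 (s56h_ofMat p ρbar X hX0)) -
    s56h_eD p ρbar h2 (s56h_ofMat p ρbar X hX0) = c.1 g
  rw [← s56h_eD_equivariant, ← map_sub]
  apply (s56h_eD p ρbar h2).symm.injective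
  rw [LinearEquiv.symm_apply_apply]
  apply s56h_mat_injective
  rw [s56h_mat_sub, s56h_mat_tw, s56h_mat_ofMat]
  exact (hX g).symm

/-- membership in `(σ - 1) M'` in matrices, for `σ` with trivial cyclotomic character. -/
theorem s56h_psi_of_range (c : GQ → (s56z_Md p ρbar)) (σ : GQ) (hσ : cycloChar p σ = 1)
    (h : c σ ∈ LinearMap.range ((s56z_Md p ρbar).ρ σ - 1)) :
    ∃ Y : Matrix (Fin 2) (Fin 2) k, Y.trace = 0 ∧
      s56h_psi p ρbar h2 c σ = s56e_adTw (s56h_rhoMat ρbar σ) 1 Y - Y := by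
  obtain ⟨f, hf⟩ := h
  refine ⟨s56h_mat p ρbar ((s56h_eD p ρbar h2).symm f), s56h_mat_trace p ρbar _, ?_⟩
  unfold s56h_psi
  rw [← hf, LinearMap.sub_apply, Module.End.one_apply, map_sub, s56h_eD_symm_rho, s56h_mat_sub,
    s56h_mat_tw, s56h_cc_of_eq_one _ hσ]

end Psi

end Fermat.Agent.Lib.S56
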