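/-
PROGRAMME W (S56), wall [W7] (helper7, prefix `s56h_`): **killing cohomology classes at chosen elements.**
Generic part (any field `F`, any group `G`, `N : Rep F G`):

* `s56h_K N σ : Submodule F (H1 N)` : the classes having a cocycle `c` with `c σ ∈ (σ - 1) N` (then every cocycle of
  the class has this property: `s56h_mem_K_iff`);
* `s56h_conj_mem` : `c (g σ g⁻¹) ∈ (g σ g⁻¹ - 1) N → c σ ∈ (σ - 1) N`;
* `s56h_exists_kill` : if every non-zero class of a finite-dimensional `D ≤ H1 N` is outside `K (σ_i)` for some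
  index `i`, then `dim D` indices suffice to kill `D`;
* `s56h_aff c : G →* Function.End N`, `σ ↦ (v ↦ σ v + c σ)`, the affine action attached to a cocycle.
-/
import Mathlib

set_option autoImplicit false

noncomputable section

namespace Fermat.Agent.Lib.S56

open groupCohomology CategoryTheory

section Generic

variable {F : Type} [Field F] {G : Type} [Group G] (N : Rep.{0} F G)

theorem s56h_coc_mul (c : cocycles₁ N) (g h : G) : c.1 (g * h) = N.ρ g (c.1 h) + c.1 g := by
  have h1 := (mem_cocycles₁_def (A := N) c.1).1 c.2 g h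
  rw [sub_add_eq_add_sub, sub_eq_zero] at h1
  exact h1.symm

theorem s56h_coc_one' (c : cocycles₁ N) : c.1 1 = 0 := by
  have h := s56h_coc_mul N c 1 1
  rw [mul_one, map_one, Module.End.one_apply] at h
  exact left_eq_add.mp (by rw [add_comm] at h; exact h)

theorem s56h_coc_inv' (c : cocycles₁ N) (g : G) : N.ρ g (c.1 g⁻¹) = -c.1 g := by
  have h := s56h_coc_mul N c g g⁻¹
  rw [mul_inv_cancel, s56h_coc_one'] at h
  rw [eq_neg_iff_add_eq_zero]
  exact h.symm

/-- two cocycles of the same class differ by a coboundary. -/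
theorem s56h_exists_cob (c c' : cocycles₁ N) (h : (H1π N).hom c = (H1π N).hom c') :
    ∃ m : N, ∀ g : G, c.1 g - c'.1 g = N.ρ g m - m := by
  have h1 := (H1π_eq_iff c c').1 h
  obtain ⟨m, hm⟩ := h1
  exact ⟨m, fun g => (congrFun hm g).symm⟩

theorem s56h_mem_range_congr (c c' : cocycles₁ N) (h : (H1π N).hom c = (H1π N).hom c') (σ : G)
    (hc : c.1 σ ∈ LinearMap.range (N.ρ σ - 1)) : c'.1 σ ∈ LinearMap.range (N.ρ σ - 1) := by
  obtain ⟨m, hm⟩ := s56h_exists_cob N c c' h
  have h1 : c'.1 σ = c.1 σ - (N.ρ σ - 1) m := by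
    rw [LinearMap.sub_apply, Module.End.one_apply, ← hm σ]; abel
  rw [h1]
  exact Submodule.sub_mem _ hc (LinearMap.mem_range_self _ m)

/-- the classes with a cocycle whose value at `σ` lies in `(σ - 1) N`. -/
def s56h_K (σ : G) : Submodule F (H1 N) where
  carrier := {y | ∃ c : cocycles₁ N, (H1π N).hom c = y ∧ c.1 σ ∈ LinearMap.range (N.ρ σ - 1)}
  add_mem' := by
    rintro _ _ ⟨c, rfl, hc⟩ ⟨c', rfl, hc'⟩
    exact ⟨c + c', map_add _ _ _, Submodule.add_mem _ hc hc'⟩
  zero_mem' := ⟨0, map_zero _, Submodule.zero_mem _⟩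
  smul_mem' := by
    rintro a _ ⟨c, rfl, hc⟩
    exact ⟨a • c, map_smul _ _ _, Submodule.smul_mem _ a hc⟩

theorem s56h_mem_K_iff (σ : G) (c : cocycles₁ N) :
    (H1π N).hom c ∈ s56h_K N σ ↔ c.1 σ ∈ LinearMap.range (N.ρ σ - 1) := by
  constructor
  · rintro ⟨c', h, hc'⟩
    exact s56h_mem_range_congr N c' c h σ hc'
  · intro h
    exact ⟨c, rfl, h⟩

/-- the value of a cocycle at a conjugate. -/
theorem s56h_coc_conj' (c : cocycles₁ N) (g σ : G) :
    c.1 (g * σ * g⁻¹) = N.ρ g (c.1 σ) - (N.ρ (g * σ * g⁻¹) - 1) (c.1 g) := by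
  have hinv : ∀ v : N, N.ρ g⁻¹ (N.ρ g v) = v := fun v => by
    rw [← Module.End.mul_apply, ← map_mul, inv_mul_cancel, map_one, Module.End.one_apply]
  rw [mul_assoc, s56h_coc_mul, s56h_coc_mul, map_add, LinearMap.sub_apply, Module.End.one_apply]
  have h2 : N.ρ g (N.ρ σ (c.1 g⁻¹)) = -N.ρ (g * (σ * g⁻¹)) (c.1 g) := by
    have h3 : c.1 g⁻¹ = -N.ρ g⁻¹ (c.1 g) := by
      have := s56h_coc_inv' N c g
      rw [← hinv (c.1 g⁻¹), this, map_neg]
    rw [h3, map_neg, map_neg, map_mul, map_mul]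
    rfl
  rw [h2]; abel

/-- conjugation invariance. -/
theorem s56h_conj_mem (c : cocycles₁ N) (g σ : G)
    (h : c.1 (g * σ * g⁻¹) ∈ LinearMap.range (N.ρ (g * σ * g⁻¹) - 1)) :
    c.1 σ ∈ LinearMap.range (N.ρ σ - 1) := by
  have hinv : ∀ v : N, N.ρ g⁻¹ (N.ρ g v) = v := fun v => by
    rw [← Module.End.mul_apply, ← map_mul, inv_mul_cancel, map_one, Module.End.one_apply]
  have h1 := s56h_coc_conj' N c g σ
  have h4 : N.ρ g (c.1 σ) ∈ LinearMap.range (N.ρ (g * σ * g⁻¹) - 1) := by
    have : N.ρ g (c.1 σ) = c.1 (g * σ * g⁻¹) + (N.ρ (g * σ * g⁻¹) - 1) (c.1 g) := by rw [h1]; abel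
    rw [this]
    exact Submodule.add_mem _ h (LinearMap.mem_range_self _ _)
  obtain ⟨v, hv⟩ := h4
  refine ⟨N.ρ g⁻¹ v, ?_⟩
  have h5 : N.ρ g ((N.ρ σ - 1) (N.ρ g⁻¹ v)) = N.ρ g (c.1 σ) := by
    rw [← hv, LinearMap.sub_apply, Module.End.one_apply, LinearMap.sub_apply, Module.End.one_apply, map_sub,
      map_mul, map_mul]
    have : N.ρ g (N.ρ g⁻¹ v) = v := by
      rw [← Module.End.mul_apply, ← map_mul, mul_inv_cancel, map_one, Module.End.one_apply]
    rw [this]
    rfl
  have h6 := congrArg (N.ρ g⁻¹) h5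
  rw [hinv, hinv] at h6
  exact h6

/-- the affine action `v ↦ σ v + c σ` attached to a cocycle. -/
def s56h_aff (c : cocycles₁ N) : G →* Function.End N where
  toFun σ := fun v => N.ρ σ v + c.1 σ
  map_one' := by
    funext v
    show N.ρ 1 v + c.1 1 = v
    rw [map_one, Module.End.one_apply, s56h_coc_one', add_zero]
  map_mul' σ τ := by
    funext v
    show N.ρ (σ * τ) v + c.1 (σ * τ) = N.ρ σ (N.ρ τ v + c.1 τ) + c.1 σ
    rw [map_mul, Module.End.mul_apply, s56h_coc_mul, map_add]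
    abel

theorem s56h_aff_apply (c : cocycles₁ N) (σ : G) (v : N) : s56h_aff N c σ v = N.ρ σ v + c.1 σ := rfl

/-- the affine action determines the value of the cocycle and the linear action. -/
theorem s56h_aff_eq (c : cocycles₁ N) {σ τ : G} (h : s56h_aff N c σ = s56h_aff N c τ) :
    c.1 σ = c.1 τ ∧ N.ρ σ = N.ρ τ := by
  have h0 : c.1 σ = c.1 τ := by
    have := congrFun h 0
    rw [s56h_aff_apply, s56h_aff_apply, map_zero, map_zero, zero_add, zero_add] at this
    exact this
  refine ⟨h0, LinearMap.ext fun v => ?_⟩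
  have := congrFun h v
  rw [s56h_aff_apply, s56h_aff_apply, h0] at this
  exact add_right_cancel this

end Generic

section Kill

variable {F : Type} [Field F] {V : Type} [AddCommGroup V] [Module F V]

/-- **dimension killing**: if every non-zero vector of a finite-dimensional `D` is outside some member of a family
of subspaces, then `n ≥ dim D` members (with repetition) intersect `D` trivially. -/
theorem s56h_exists_kill {ι : Type} (Ks : ι → Submodule F V) :
    ∀ (n : ℕ) (D : Submodule F V) [FiniteDimensional F D], Module.finrank F D ≤ n →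
      (0 < n → Nonempty ι) →
      (∀ y ∈ D, y ≠ 0 → ∃ i, y ∉ Ks i) →
      ∃ f : Fin n → ι, ∀ x ∈ D, (∀ j, x ∈ Ks (f j)) → x = 0 := by
  intro n
  induction n with
  | zero =>
    intro D _ hD _ _
    have h0 : Module.finrank F D = 0 := Nat.le_zero.1 hD
    have hbot : D = ⊥ := Submodule.finrank_eq_zero.1 h0
    exact ⟨Fin.elim0, fun x hx _ => by rw [hbot] at hx; exact (Submodule.mem_bot F).1 hx⟩
  | succ n ih =>
    intro D _ hD hne hsep
    by_cases hbot : D = ⊥
    · obtain ⟨i₀⟩ := hne (Nat.succ_pos n)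
      exact ⟨fun _ => i₀, fun x hx _ => by rw [hbot] at hx; exact (Submodule.mem_bot F).1 hx⟩
    · obtain ⟨y, hyD, hy0⟩ := (Submodule.ne_bot_iff D).1 hbot
      obtain ⟨i₀, hi₀⟩ := hsep y hyD hy0
      have hlt : D ⊓ Ks i₀ < D := by
        refine lt_of_le_of_ne inf_le_left (fun h => hi₀ ?_)
        have : y ∈ D ⊓ Ks i₀ := by rw [h]; exact hyD
        exact this.2
      have hfr : Module.finrank F ↥(D ⊓ Ks i₀) ≤ n := by
        have := Submodule.finrank_lt_finrank_of_lt hlt
        omega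
      have : FiniteDimensional F ↥(D ⊓ Ks i₀) := Submodule.finiteDimensional_of_le inf_le_left
      obtain ⟨f', hf'⟩ := ih (D ⊓ Ks i₀) hfr (fun _ => ⟨i₀⟩) (fun z hz hz0 => hsep z hz.1 hz0)
      refine ⟨Fin.cons i₀ f', fun x hx hall => hf' x ⟨hx, ?_⟩ (fun j => ?_)⟩
      · have := hall 0
        rwa [Fin.cons_zero] at this
      · have := hall j.succ
        rwa [Fin.cons_succ] at this

end Kill

end Fermat.Agent.Lib.S56
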