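/-
PROGRAMME W (S56), wall [W7] (helper7, prefix `s56h_`): **the Galois elements `σ` behind the Taylor–Wiles primes.**

* cyclotomic preliminaries: `s56h_chiN n : G_ℚ →* (ZMod (p^(n+1)))ˣ` (from the `p`-adic cyclotomic character
  `s30c_eps`), `s56h_cyclo_spec`, `s56h_cyclo_surjective` (Dirichlet + Frobenius), `s56h_cyclo_of_chiN`;
* `s56h_exists_sigma` : under the hypotheses of S56 and helper8's `s56e_GroupLemma`, for every `n` and every cocycle
  `c` of `M'` whose class is non-zero there is `σ ∈ G_ℚ` acting trivially on `μ_{p^(n+1)}`, with `ρ̄ σ` having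
  distinct eigenvalues in `k`, and `c σ ∉ (σ - 1) M'`.
-/
import Fermat.Agent.Lib.S56.HDual
import Fermat.Agent.Lib.S30.Cyc
import Fermat.Agent.Lib.S48.TGal

set_option autoImplicit false
set_option linter.unusedSectionVars false

noncomputable section

namespace Fermat.Agent.Lib.S56

open Matrix groupCohomology ExtCitation Polynomial Fermat.Agent.Lib.S30 Fermat.Agent.Lib.S48

local notation "GQ" => (AlgebraicClosure ℚ ≃ₐ[ℚ] AlgebraicClosure ℚ)

section Cyclo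

variable (p : ℕ) [Fact p.Prime]

/-- the mod `p^(n+1)` cyclotomic character. -/
def s56h_chiN (n : ℕ) : GQ →* (ZMod (p ^ (n + 1)))ˣ :=
  (Units.map ((PadicInt.toZModPow (n + 1) : ℤ_[p] →+* ZMod (p ^ (n + 1))) :
    ℤ_[p] →* ZMod (p ^ (n + 1)))).comp (s30c_eps p)

theorem s56h_chiN_coe (n : ℕ) (σ : GQ) :
    ((s56h_chiN p n σ : (ZMod (p ^ (n + 1)))ˣ) : ZMod (p ^ (n + 1))) =
      PadicInt.toZModPow (n + 1) ((s30c_eps p σ : ℤ_[p]ˣ) : ℤ_[p]) := rfl

/-- the mod `p` cyclotomic character is determined by the action on `μ_p`. -/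
theorem s56h_cyclo_spec (σ : GQ) (a : ℕ)
    (ha : ∀ μ : AlgebraicClosure ℚ, μ ^ p = 1 → σ μ = μ ^ a) :
    ((cycloChar p σ : (ZMod p)ˣ) : ZMod p) = (a : ZMod p) := by
  have hpp : p.Prime := Fact.out
  have : NeZero p := ⟨hpp.ne_zero⟩
  obtain ⟨ζ, hζ'⟩ := s30c_exists_primitiveRoot p 1
  have hζ : IsPrimitiveRoot ζ p := by rwa [pow_one] at hζ'
  rw [coe_cycloChar]
  have h1 : ζ ^ (cycloExp p σ) = ζ ^ a := by
    rw [← ha ζ hζ.pow_eq_one]
    have hμ0 : ζ ≠ 0 := hζ.ne_zero hpp.ne_zero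
    have hmem : Units.mk0 ζ hμ0 ∈ rootsOfUnity p (AlgebraicClosure ℚ) := by
      rw [mem_rootsOfUnity]
      exact Units.ext (by rw [Units.val_pow_eq_pow_val, Units.val_mk0, hζ.pow_eq_one, Units.val_one])
    have h := modularCyclotomicCharacter.spec (AlgebraicClosure ℚ)
      (ExtCitation.card_rootsOfUnity_eq_self p)
      (σ : AlgebraicClosure ℚ ≃+* AlgebraicClosure ℚ) hmem
    rw [Units.val_mk0] at h
    exact h.symm
  have h2 : cycloExp p σ = a % p := by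
    have h3 : ζ ^ (cycloExp p σ) = ζ ^ (a % p) := by
      rw [h1]
      conv_rhs => rw [hζ.eq_orderOf, pow_mod_orderOf]
    exact hζ.pow_inj (ZMod.val_lt _) (Nat.mod_lt _ hpp.pos) h3
  rw [h2]
  exact ZMod.natCast_mod a p

/-- `σ` acts on `μ_p` through `cycloExp`. -/
theorem s56h_cycloExp_spec (σ : GQ) (μ : AlgebraicClosure ℚ) (hμ : μ ^ p = 1) :
    σ μ = μ ^ (cycloExp p σ) := by
  have hpp : p.Prime := Fact.out
  have : NeZero p := ⟨hpp.ne_zero⟩
  have hμ0 : μ ≠ 0 := by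
    rintro rfl
    rw [zero_pow hpp.ne_zero] at hμ
    exact zero_ne_one hμ
  have hmem : Units.mk0 μ hμ0 ∈ rootsOfUnity p (AlgebraicClosure ℚ) := by
    rw [mem_rootsOfUnity]
    exact Units.ext (by rw [Units.val_pow_eq_pow_val, Units.val_mk0, hμ, Units.val_one])
  have h := modularCyclotomicCharacter.spec (AlgebraicClosure ℚ)
    (ExtCitation.card_rootsOfUnity_eq_self p)
    (σ : AlgebraicClosure ℚ ≃+* AlgebraicClosure ℚ) hmem
  rw [Units.val_mk0] at h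
  exact h

/-- the mod `p` character from the `p`-adic one. -/
theorem s56h_cyclo_of_eps (σ : GQ) :
    ((cycloChar p σ : (ZMod p)ˣ) : ZMod p) =
      ((PadicInt.toZModPow 1 ((s30c_eps p σ : ℤ_[p]ˣ) : ℤ_[p])).val : ZMod p) := by
  apply s56h_cyclo_spec
  intro μ hμ
  exact s30c_eps_spec p σ (n := 1) (by rwa [pow_one])

/-- a Frobenius at `ℓ ≠ p` has cyclotomic character `ℓ`. -/
theorem s56h_cyclo_frob (ℓ : ℕ) (hℓ : ℓ.Prime) (hne : ℓ ≠ p)
    (A : ValuationSubring (AlgebraicClosure ℚ)) (hA : A.LiesOverPrime ℓ)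
    (σ : GQ) (hσ : A.IsFrobeniusAt σ ℓ) :
    ((cycloChar p σ : (ZMod p)ˣ) : ZMod p) = (ℓ : ZMod p) := by
  have hpp : p.Prime := Fact.out
  rw [s56h_cyclo_of_eps, s30c_frob p ℓ hℓ hne A hA σ hσ, map_natCast, ZMod.val_natCast]
  have : ((ℓ % p ^ 1 : ℕ) : ZMod p) = ((ℓ % p : ℕ) : ZMod p) := by rw [pow_one]
  rw [this]
  exact ZMod.natCast_mod ℓ p

/-- **the mod `p` cyclotomic character is surjective** (Dirichlet + existence of Frobenius elements). -/
theorem s56h_cyclo_surjective : Function.Surjective (cycloChar p) := by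
  have hpp : p.Prime := Fact.out
  have : NeZero p := ⟨hpp.ne_zero⟩
  intro u
  obtain ⟨ℓ, hℓp, hℓ, hℓu⟩ := Nat.forall_exists_prime_gt_and_eq_mod (q := p) (a := (u : ZMod p)) u.isUnit p
  obtain ⟨A, σ, hA, hσ⟩ := s48t_exists_frob ℓ hℓ
  refine ⟨σ, Units.ext ?_⟩
  rw [s56h_cyclo_frob p ℓ hℓ (Nat.ne_of_gt hℓp) A hA σ hσ, hℓu]

/-- trivial mod `p^(n+1)` character implies trivial mod `p` character. -/
theorem s56h_cyclo_of_chiN (n : ℕ) (σ : GQ) (h : s56h_chiN p n σ = 1) : cycloChar p σ = 1 := by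
  have hpp : p.Prime := Fact.out
  apply Units.ext
  rw [Units.val_one]
  have h1 : PadicInt.toZModPow (n + 1) ((s30c_eps p σ : ℤ_[p]ˣ) : ℤ_[p]) = 1 := by
    rw [← s56h_chiN_coe, h, Units.val_one]
  have key : ∀ μ : AlgebraicClosure ℚ, μ ^ p = 1 → σ μ = μ ^ 1 := by
    intro μ hμ
    have h3 : μ ^ p ^ (n + 1) = 1 := by
      rw [pow_succ', pow_mul, hμ, one_pow]
    have h4 := s30c_eps_spec p σ h3
    rw [h1] at h4
    have : (1 : ZMod (p ^ (n + 1))).val = 1 := by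
      have : Fact (1 < p ^ (n + 1)) := ⟨Nat.one_lt_pow (Nat.succ_ne_zero n) hpp.one_lt⟩
      exact ZMod.val_one (p ^ (n + 1))
    rw [this] at h4
    exact h4
  rw [s56h_cyclo_spec p σ 1 key, Nat.cast_one]

end Cyclo

section Sigma

variable (p : ℕ) [Fact p.Prime] {k : Type} [Field k] [Algebra (ZMod p) k] [CharP k p] [Finite k]
  (ρbar : ResidualGaloisRep k)

/-- `det ρ̄ = χ_p` in matrices. -/
theorem s56h_det_eq (hdet : (GaloisRepAdic.ofResidualGaloisRep ρbar).DetIsCyclotomic p) (σ : GQ) :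
    ((s56h_rhoMat ρbar σ : GL (Fin 2) k) : Matrix (Fin 2) (Fin 2) k).det =
      s56h_cc k (cycloChar p) σ := by
  have h1 := hdet.2 1 σ (cycloExp p σ)
    (fun μ hμ => s56h_cycloExp_spec p σ μ (by rwa [pow_one] at hμ))
  have h0 : (((p ^ 1 : ℕ)) : k) = 0 := by rw [pow_one]; exact CharP.cast_eq_zero k p
  rw [h0] at h1
  have h3 : LinearMap.det (ρbar.ρ σ) = ((cycloExp p σ : ℕ) : k) := by
    have : (Ideal.span {(0 : k)} : Ideal k) = ⊥ := by
      rw [Ideal.span_singleton_eq_bot]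
    rw [this, Ideal.mem_bot, sub_eq_zero] at h1
    exact h1
  rw [s56h_rhoMat_coe, s56h_T_det, h3]
  unfold s56h_cc
  rw [coe_cycloChar, map_natCast]

/-- **THE ELEMENT `σ`.** -/
theorem s56h_exists_sigma (hGL : s56e_GroupLemma) (hp2 : p ≠ 2)
    (habs : ρbar.IsAbsolutelyIrreducible)
    (hdet : (GaloisRepAdic.ofResidualGaloisRep ρbar).DetIsCyclotomic p)
    (hsplit : ∀ σ : GQ, ∃ α β : k, LinearMap.charpoly (ρbar.ρ σ) = (X - C α) * (X - C β))
    (hTW : ∀ (K : Type) [Field K] [Algebra k K] (G : Subgroup GQ), G.index = 2 →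
      ∀ V : Submodule K (ρbar.baseChange K).V,
        (∀ σ ∈ G, ∀ x ∈ V, (ρbar.baseChange K).ρ σ x ∈ V) → V = ⊥ ∨ V = ⊤)
    (n : ℕ) (c : cocycles₁ (s56z_Md p ρbar)) (hc : (H1π (s56z_Md p ρbar)).hom c ≠ 0) :
    ∃ σ : GQ, s56h_chiN p n σ = 1 ∧
      (∃ α β : k, α ≠ β ∧ LinearMap.charpoly (ρbar.ρ σ) = (X - C α) * (X - C β)) ∧
      c.1 σ ∉ LinearMap.range ((s56z_Md p ρbar).ρ σ - 1) := by
  have hpp : p.Prime := Fact.out
  have h2 : (2 : k) ≠ 0 := s48e_two_ne_zero p hp2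
  have hcyc : IsCyclic (GQ ⧸ (s56h_chiN p n).ker) := by
    have h1 : IsCyclic (ZMod (p ^ (n + 1)))ˣ := ZMod.isCyclic_units_of_prime_pow p hpp hp2 (n + 1)
    have h3 : IsCyclic (s56h_chiN p n).range := Subgroup.isCyclic _
    exact isCyclic_of_surjective (QuotientGroup.quotientKerEquivRange (s56h_chiN p n)).symm
      (QuotientGroup.quotientKerEquivRange (s56h_chiN p n)).symm.surjective
  rcases s56h_cocStep (ρ := s56h_rhoMat ρbar) (χ := cycloChar p) (ψ := s56h_psi p ρbar h2 c.1)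
      hGL hp2 (s56h_det_eq p ρbar hdet) (s56h_cyclo_surjective p) (s56h_split ρbar hsplit)
      (s56h_absIrr_top ρbar habs) (s56h_absIrr_index_two ρbar hTW) (s56h_chiN p n).ker hcyc
      (s56h_psi_trace p ρbar h2 c.1) (s56h_psi_isCoc p ρbar h2 c) with ⟨X, hX0, hX⟩ | ⟨σ, hσ, hdisc, hY⟩
  · exact absurd (s56h_cob_of_psi p ρbar h2 c X hX0 hX) hc
  · have hσ1 : s56h_chiN p n σ = 1 := MonoidHom.mem_ker.1 hσ
    refine ⟨σ, hσ1, ?_, ?_⟩
    · obtain ⟨α, β, hαβ⟩ := hsplit σ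
      obtain ⟨ht, hd⟩ := s56h_split_of ρbar σ α β hαβ
      refine ⟨α, β, ?_, hαβ⟩
      rintro rfl
      apply hdisc
      rw [ht, hd]; ring
    · intro hmem
      obtain ⟨Y, hY0, hYe⟩ := s56h_psi_of_range p ρbar h2 c.1 σ (s56h_cyclo_of_chiN p n σ hσ1) hmem
      exact hY Y hY0 hYe

end Sigma

end Fermat.Agent.Lib.S56
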