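/-
PROGRAMME W (S56), wall [W7] (helper7, prefix `s56h_`): **THE TAYLOR–WILES PRIMES** (`s56z_PrimesStmt`, (T9) of
`IfaceTop`), from helper8's `s56e_GroupLemma`.

For a finite-dimensional space `D` of continuous classes of `M'`: `s56h_exists_sigma` + dimension killing
(`s56h_exists_kill`) give `σ_1, …, σ_m ∈ G_ℚ` (`m = dim D`), trivial on `μ_{p^(n+1)}`, with distinct eigenvalues, such
that no non-zero class of `D` lies in all `K(σ_j)`; Chebotarev (`s56h_cheb_seq`) for the finite-level homomorphism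
`(ρ̄, χ_{p^(n+1)}, (affine action of a cocycle of y)_{y ∈ D})` turns them into distinct primes.
-/
import Fermat.Agent.Lib.S56.HSigma
import Fermat.Agent.Lib.S56.HCheb
import Fermat.Agent.Lib.S56.HKill

set_option autoImplicit false
set_option linter.unusedSectionVars false

noncomputable section

namespace Fermat.Agent.Lib.S56

open Matrix groupCohomology ExtCitation Polynomial Fermat.Agent.Lib.S30 Fermat.Agent.Lib.S48

local notation "GQ" => (AlgebraicClosure ℚ ≃ₐ[ℚ] AlgebraicClosure ℚ)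

section Level

variable (p : ℕ) [Fact p.Prime]

theorem s56h_finiteLevel_chiN (n : ℕ) : GaloisFactorsThroughFiniteLevel (s56h_chiN p n) := by
  obtain ⟨L, hL, -, h⟩ := s30c_cont p (n + 1)
  refine ⟨L, hL, fun σ hσ => ?_⟩
  obtain ⟨w, hw⟩ := h σ hσ
  apply Units.ext
  rw [s56h_chiN_coe, Units.val_one]
  have h1 : ((s30c_eps p σ : ℤ_[p]ˣ) : ℤ_[p]) = 1 + (p : ℤ_[p]) ^ (n + 1) * w := by
    rw [← hw]; ring
  rw [h1, map_add, map_one, map_mul, map_pow, map_natCast]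
  have h2 : ((p : ZMod (p ^ (n + 1))) ^ (n + 1)) = 0 := by
    have := ZMod.natCast_self (p ^ (n + 1))
    rwa [Nat.cast_pow] at this
  rw [h2, zero_mul, add_zero]

variable {k : Type} [Field k] [Algebra (ZMod p) k] (ρbar : ResidualGaloisRep k)

theorem s56h_Md_rho_eq_one (σ : GQ) (h1 : ρbar.ρ σ = 1) (h2 : cycloChar p σ = 1) :
    (s56z_Md p ρbar).ρ σ = 1 := by
  have h3 : ρbar.ρ σ⁻¹ = 1 := by
    have := s56a_rho_inv_mul ρbar σ
    rwa [h1, mul_one] at this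
  apply LinearMap.ext
  intro f
  apply (s56h_toDual p ρbar).injective
  rw [s56h_toDual_rho, h2, Units.val_one, one_smul, Module.End.one_apply]
  apply LinearMap.ext
  intro Y
  rw [LinearMap.comp_apply]
  congr 1
  apply s56h_toEnd_injective
  rw [s56h_toEnd_rho, inv_inv, h1, h3, one_mul, mul_one]

theorem s56h_finiteLevel_Md :
    GaloisFactorsThroughFiniteLevel
      ((s56z_Md p ρbar).ρ : GQ →* Module.End (ZMod p) (s56z_Md p ρbar)) := by
  obtain ⟨L₁, hL₁, h₁⟩ := ρbar.factorsThroughFiniteLevel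
  obtain ⟨L₂, hL₂, h₂⟩ := s56h_finiteLevel_chiN p 0
  have := hL₁
  have := hL₂
  refine ⟨L₁ ⊔ L₂, IntermediateField.finiteDimensional_sup L₁ L₂, fun σ hσ => ?_⟩
  refine s56h_Md_rho_eq_one p ρbar σ (h₁ σ fun x hx => hσ x ((le_sup_left : L₁ ≤ L₁ ⊔ L₂) hx)) ?_
  exact s56h_cyclo_of_chiN p 0 σ (h₂ σ fun x hx => hσ x ((le_sup_right : L₂ ≤ L₁ ⊔ L₂) hx))

end Level

section Aff

variable {F : Type} [Field F] (N : Rep.{0} F GQ)

theorem s56h_finiteLevel_aff (c : cocycles₁ N) (hc : IsLevelConstant₁ (MonoidHom.id GQ) c.1)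
    (hN : GaloisFactorsThroughFiniteLevel (N.ρ : GQ →* Module.End F N)) :
    GaloisFactorsThroughFiniteLevel (s56h_aff N c) := by
  obtain ⟨L₁, hL₁, h₁⟩ := hN
  obtain ⟨L₂, hL₂, h₂⟩ := hc
  have := hL₁
  have := hL₂
  refine ⟨L₁ ⊔ L₂, IntermediateField.finiteDimensional_sup L₁ L₂, fun σ hσ => ?_⟩
  have hσ2 : σ ∈ L₂.fixingSubgroup := by
    rw [IntermediateField.mem_fixingSubgroup_iff]
    exact fun x hx => hσ x ((le_sup_right : L₂ ≤ L₁ ⊔ L₂) hx)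
  have hc0 : c.1 σ = 0 := by
    have := h₂ 1 σ hσ2
    rw [one_mul, s56h_coc_one'] at this
    exact this
  funext v
  rw [s56h_aff_apply, hc0, add_zero, h₁ σ fun x hx => hσ x ((le_sup_left : L₁ ≤ L₁ ⊔ L₂) hx)]
  rfl

end Aff

section Main

variable (p : ℕ) [Fact p.Prime] {k : Type} [Field k] [Algebra (ZMod p) k] [CharP k p] [Finite k]
  (ρbar : ResidualGaloisRep k)

theorem s56h_T_mul (X Y : Module.End k ρbar.V) :
    s56h_T ρbar (X * Y) = s56h_T ρbar X * s56h_T ρbar Y :=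
  map_mul (s56h_T ρbar) X Y

/-- conjugate elements have the same characteristic polynomial. -/
theorem s56h_charpoly_conj (φ g σ : GQ) (h : ρbar.ρ φ = ρbar.ρ (g * σ * g⁻¹)) :
    LinearMap.charpoly (ρbar.ρ φ) = LinearMap.charpoly (ρbar.ρ σ) := by
  have h2 : ρbar.ρ (g * σ * g⁻¹) = ρbar.ρ g * ρbar.ρ σ * ρbar.ρ g⁻¹ := by
    rw [ρbar.ρ.map_mul, ρbar.ρ.map_mul]
  have h1 : s56h_T ρbar (ρbar.ρ φ) =
      ((s56h_rhoMat ρbar g : GL (Fin 2) k) : Matrix (Fin 2) (Fin 2) k) * s56h_T ρbar (ρbar.ρ σ) *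
        (((s56h_rhoMat ρbar g)⁻¹ : GL (Fin 2) k) : Matrix (Fin 2) (Fin 2) k) := by
    rw [h, h2, s56h_T_mul, s56h_T_mul, s56h_rhoMat_coe, s56h_rhoMat_inv_coe]
  rw [← s56h_T_charpoly, ← s56h_T_charpoly, h1, Matrix.coe_units_inv]
  exact Matrix.charpoly_units_conj (s56h_rhoMat ρbar g) (s56h_T ρbar (ρbar.ρ σ))

/-- **(T9) THE TAYLOR–WILES PRIMES**, granting helper8's group lemma. -/
theorem s56h_primesStmt (hGL : s56e_GroupLemma) (hp2 : p ≠ 2)
    (habs : ρbar.IsAbsolutelyIrreducible)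
    (hdet : (GaloisRepAdic.ofResidualGaloisRep ρbar).DetIsCyclotomic p)
    (hsplit : ∀ σ : GQ, ∃ α β : k, LinearMap.charpoly (ρbar.ρ σ) = (X - C α) * (X - C β))
    (hTW : ∀ (K : Type) [Field K] [Algebra k K] (G : Subgroup GQ), G.index = 2 →
      ∀ V : Submodule K (ρbar.baseChange K).V,
        (∀ σ ∈ G, ∀ x ∈ V, (ρbar.baseChange K).ρ σ x ∈ V) → V = ⊥ ∨ V = ⊤)
    (S : Finset ℕ) : s56z_PrimesStmt p ρbar S := by
  classical
  have hpp : p.Prime := Fact.out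
  intro n D hD hfinD
  -- the good elements and their kill spaces
  let ι : Type := {σ : GQ // s56h_chiN p n σ = 1 ∧
    ∃ α β : k, α ≠ β ∧ LinearMap.charpoly (ρbar.ρ σ) = (X - C α) * (X - C β)}
  let Ks : ι → Submodule (ZMod p) (H1 (s56z_Md p ρbar)) := fun i => s56h_K (s56z_Md p ρbar) i.1
  have hsep : ∀ y ∈ D, y ≠ 0 → ∃ i, y ∉ Ks i := by
    intro y hyD hy0
    obtain ⟨c, -, rfl⟩ := (mem_continuousH1_iff _ (s56z_Md p ρbar) y).1 (hD hyD)
    obtain ⟨σ, h1, h2, h3⟩ := s56h_exists_sigma p ρbar hGL hp2 habs hdet hsplit hTW n c hy0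
    exact ⟨⟨σ, h1, h2⟩, fun hmem => h3 ((s56h_mem_K_iff (s56z_Md p ρbar) σ c).1 hmem)⟩
  have hne : 0 < Module.finrank (ZMod p) D → Nonempty ι := by
    intro hpos
    have hbot : D ≠ ⊥ := by
      intro h
      rw [h, finrank_bot] at hpos
      exact lt_irrefl _ hpos
    obtain ⟨y, hyD, hy0⟩ := (Submodule.ne_bot_iff D).1 hbot
    obtain ⟨i, -⟩ := hsep y hyD hy0
    exact ⟨i⟩
  obtain ⟨f, hf⟩ := s56h_exists_kill Ks (Module.finrank (ZMod p) D) D le_rfl hne hsep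
  -- a cocycle for every class of `D`
  have hsec : ∀ y : ↥D, ∃ c : cocycles₁ (s56z_Md p ρbar),
      IsLevelConstant₁ (MonoidHom.id GQ) c.1 ∧ (H1π (s56z_Md p ρbar)).hom c = y.1 :=
    fun y => (mem_continuousH1_iff _ (s56z_Md p ρbar) y.1).1 (hD y.2)
  choose s hs_lev hs_cls using hsec
  have hDfin : Finite ↥D := Module.finite_of_finite (ZMod p)
  -- the total homomorphism
  let t₀ : GQ →* (Module.End k ρbar.V × (ZMod (p ^ (n + 1)))ˣ) ×
      (∀ y : ↥D, Function.End (s56z_Md p ρbar)) :=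
    (ρbar.ρ.prod (s56h_chiN p n)).prod (MonoidHom.pi fun y => s56h_aff (s56z_Md p ρbar) (s y))
  have ht₀ : GaloisFactorsThroughFiniteLevel t₀ :=
    s48t_finiteLevel_prod
      (s48t_finiteLevel_prod ρbar.factorsThroughFiniteLevel (s56h_finiteLevel_chiN p n))
      (s56h_finiteLevel_pi _ fun y =>
        s56h_finiteLevel_aff (s56z_Md p ρbar) (s y) (hs_lev y) (s56h_finiteLevel_Md p ρbar))
  have ht : GaloisFactorsThroughFiniteLevel t₀.toHomUnits := by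
    obtain ⟨L, hL, h⟩ := ht₀
    exact ⟨L, hL, fun σ hσ => Units.ext (h σ hσ)⟩
  obtain ⟨qv, hinj, hqv⟩ := s56h_cheb_seq t₀.toHomUnits ht _ (insert p S) (fun j => (f j).1)
  have hcomp : ∀ φ τ : GQ, t₀.toHomUnits φ = t₀.toHomUnits τ →
      ρbar.ρ φ = ρbar.ρ τ ∧ s56h_chiN p n φ = s56h_chiN p n τ ∧
        ∀ y : ↥D, s56h_aff (s56z_Md p ρbar) (s y) φ = s56h_aff (s56z_Md p ρbar) (s y) τ := by
    intro φ τ h
    have h0 : t₀ φ = t₀ τ := congrArg Units.val h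
    exact ⟨congrArg (fun x => x.1.1) h0, congrArg (fun x => x.1.2) h0,
      fun y => congrFun (congrArg (fun x => x.2) h0) y⟩
  have hchi : ∀ g σ : GQ, s56h_chiN p n (g * σ * g⁻¹) = s56h_chiN p n σ := by
    intro g σ
    rw [map_mul, map_mul, map_inv, mul_comm, ← mul_assoc, inv_mul_cancel, one_mul]
  refine ⟨qv, hinj, fun i => ?_, fun i P hP φ hφ => ?_, fun y hyD hall => ?_⟩
  · -- the primes
    obtain ⟨hpr, hnS, hfr⟩ := hqv i
    have hne' : qv i ≠ p := fun h => hnS (by rw [h]; exact Finset.mem_insert_self _ _)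
    refine ⟨hpr, fun h => hnS (Finset.mem_insert_of_mem h), ?_⟩
    obtain ⟨A, φ, hA, hφ⟩ := s48t_exists_frob (qv i) hpr
    obtain ⟨g, hg⟩ := hfr A hA φ hφ
    obtain ⟨-, hχ, -⟩ := hcomp φ _ hg
    rw [hchi, (f i).2.1] at hχ
    have h1 : ((qv i : ℕ) : ZMod (p ^ (n + 1))) = 1 := by
      have h2 := congrArg Units.val hχ
      rw [s56h_chiN_coe, s30c_frob p (qv i) hpr hne' A hA φ hφ, map_natCast, Units.val_one] at h2
      exact h2
    have h3 : qv i ≡ 1 [MOD p ^ (n + 1)] := by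
      rw [← ZMod.natCast_eq_natCast_iff, h1, Nat.cast_one]
    exact (Nat.modEq_iff_dvd' hpr.one_le).1 h3.symm
  · -- the Frobenius elements
    obtain ⟨g, hg⟩ := (hqv i).2.2 P hP φ hφ
    obtain ⟨hρ, -, -⟩ := hcomp φ _ hg
    obtain ⟨α, β, hαβ, hc⟩ := (f i).2.2
    exact ⟨α, β, hαβ, by rw [s56h_charpoly_conj ρbar φ g (f i).1 hρ, hc]⟩
  · -- the classes
    apply hf y hyD
    intro j
    obtain ⟨P, hP, φ, hφ, c', hc'y, hmem⟩ := hall j
    obtain ⟨g, hg⟩ := (hqv j).2.2 P hP φ hφ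
    obtain ⟨-, -, haff⟩ := hcomp φ _ hg
    obtain ⟨hcv, hρv⟩ := s56h_aff_eq (s56z_Md p ρbar) (s ⟨y, hyD⟩) (haff ⟨y, hyD⟩)
    have h1 : (s ⟨y, hyD⟩).1 φ ∈ LinearMap.range ((s56z_Md p ρbar).ρ φ - 1) :=
      s56h_mem_range_congr (s56z_Md p ρbar) c' (s ⟨y, hyD⟩) (hc'y.trans (hs_cls ⟨y, hyD⟩).symm) φ hmem
    rw [hcv, hρv] at h1
    exact ⟨s ⟨y, hyD⟩, hs_cls ⟨y, hyD⟩, s56h_conj_mem (s56z_Md p ρbar) _ g (f j).1 h1⟩

end Main

end Fermat.Agent.Lib.S56
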