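/-
PROGRAMME W (S56), wall [W8-F3], THIRD INTERFACE (helper2, prefix `s56l_`): the cocycle-level count WITH
THE BOREL SIDE CONDITION, needed for `p = 3` (lead's analysis): STATEMENT-ONLY.

For `p = 3` the character `ω|_I` is quadratic, so `ν|_I = ω = ν⁻¹|_I` is possible and the plain count
`s56f_IfaceElem` fails.  Flat deformations satisfy two more properties (helper5, `FApp.lean`):
* `s56l_BorelAt P ρ c` : for every ORDINARY line `L̄` of `ρ|_{D_P}` (`D`-stable, inertia trivial on `V/L̄`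
  and non-trivial on `L̄`) the cocycle `c` is cohomologous on `D_P` to a cocycle preserving `L̄`
  (= the conclusion of `s56o_flat_borel`);
* `s56l_NoWild P ρ` : no inertia element of shape `(1 *; 0 ω)` (= the conclusion of
  `s56o_flat_wild_trivial`; when it fails there is no flat deformation at all).
`s56l_IfaceElemB p` is `s56f_IfaceElem` for the prime `p` (any odd `p`), with `hdet` added to the
hypotheses, `NoWild` assumed, and the conclusion restricted to the good cocycles which are `BorelAt`.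
For `p ≥ 5` it follows from `s56f_IfaceElem` (`s56l_elemB_of_elem`).
-/
import Mathlib
import Fermat.Agent.Lib.S56.IfaceF3b

set_option autoImplicit false

noncomputable section

namespace Fermat.Agent.Lib.S56

open Polynomial Module

local notation "Qbar" => AlgebraicClosure ℚ
local notation "GQ" => (AlgebraicClosure ℚ ≃ₐ[ℚ] AlgebraicClosure ℚ)

section ElemB

variable {k : Type} [Field k] {V : Type} [AddCommGroup V] [Module k V]

/-- **ordinary lines** of `ρ|_{D_P}`: `D_P`-stable, inertia acts trivially on `V/L̄` and through a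
non-trivial scalar on `L̄` (at least for one `σ₀ ∈ I_P`). -/
def s56l_OrdLineAt (P : ValuationSubring Qbar) (ρ : GQ →* Module.End k V) (Lbar : Submodule k V) :
    Prop :=
  (∀ σ ∈ P.decompositionSubgroup ℚ, ∀ v ∈ Lbar, ρ σ v ∈ Lbar) ∧
  (∀ σ ∈ P.inertiaSubgroupIn ℚ, ∀ v : V, ρ σ v - v ∈ Lbar) ∧
  ∃ σ₀ ∈ P.inertiaSubgroupIn ℚ, ∃ a₀ : k, a₀ ≠ 1 ∧ ∀ v ∈ Lbar, ρ σ₀ v = a₀ • v

/-- **the Borel side condition**: for every ordinary line, `c` is cohomologous on `D_P` to a cocycle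
preserving the line. -/
def s56l_BorelAt (P : ValuationSubring Qbar) (ρ : GQ →* Module.End k V)
    (c : GQ → Module.End k V) : Prop :=
  ∀ Lbar : Submodule k V, s56l_OrdLineAt P ρ Lbar →
    ∃ X : Module.End k V, ∀ σ ∈ P.decompositionSubgroup ℚ, ∀ v ∈ Lbar,
      (c σ + ρ σ * X * ρ σ⁻¹ - X) v ∈ Lbar

/-- **no wild inertia of shape `(1 *; 0 ω)`**. -/
def s56l_NoWild (P : ValuationSubring Qbar) (ρ : GQ →* Module.End k V) : Prop :=
  ∀ Lbar : Submodule k V, (∀ τ ∈ P.inertiaSubgroupIn ℚ, ∀ l ∈ Lbar, ρ τ l = l) →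
    ∀ σ ∈ P.inertiaSubgroupIn ℚ, (∀ v : V, ρ σ v - v ∈ Lbar) → ρ σ = 1

/-- the conclusion of the count, restricted to the good cocycles with the Borel side condition. -/
def s56l_ElemConclB (P : ValuationSubring Qbar) (Good : IntermediateField ℚ Qbar → Prop)
    (ρ : GQ →* Module.End k V) : Prop :=
  ∃ c₀ : GQ → Module.End k V,
    s56f_GoodCoc P (fun L => FiniteDimensional ℚ L) ρ c₀ ∧
    ∀ c : GQ → Module.End k V, s56f_GoodCoc P Good ρ c → s56l_BorelAt P ρ c →
      ∃ (a : k) (M : Module.End k V), LinearMap.trace k V M = 0 ∧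
        ∀ σ ∈ P.inertiaSubgroupIn ℚ, c σ = a • c₀ σ + (ρ σ * M * ρ σ⁻¹ - M)

end ElemB

/-- the hypotheses: those of `s56f_ElemHyp` with `p ≠ 2` instead of `5 ≤ p`, and `det ρ = ω`. -/
def s56l_ElemHypB (p : ℕ) (k : Type) [Field k] (V : Type) [AddCommGroup V] [Module k V]
    [Module.Finite k V] (ρ : GQ →* Module.End k V) (P : ValuationSubring Qbar)
    (Good : IntermediateField ℚ Qbar → Prop) : Prop :=
  p ≠ 2 ∧ finrank k V = 2 ∧
  (∃ F : IntermediateField ℚ Qbar, FiniteDimensional ℚ F ∧ ∀ σ ∈ F.fixingSubgroup, ρ σ = 1) ∧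
  (∀ σ : GQ, ∃ α β : k, LinearMap.charpoly (ρ σ) = (X - C α) * (X - C β)) ∧
  P.LiesOverPrime p ∧
  (∀ L L', Good L → Good L' → Good (L ⊔ L')) ∧ (∀ L, Good L → FiniteDimensional ℚ L) ∧
  s56f_KB p P Good ∧
  (∀ (σ : GQ) (a : ℕ), (∀ μ : Qbar, μ ^ p = 1 → σ μ = μ ^ a) → LinearMap.det (ρ σ) = (a : k))

/-- **(ElemB)** the count at the cocycle level with the Borel side condition, for the prime `p`. -/
def s56l_IfaceElemB (p : ℕ) : Prop :=
  ∀ [Fact p.Prime] (k : Type) [Field k] [Finite k] [CharP k p]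
    (V : Type) [AddCommGroup V] [Module k V] [Module.Finite k V] (ρ : GQ →* Module.End k V)
    (P : ValuationSubring Qbar) (Good : IntermediateField ℚ Qbar → Prop),
    s56l_ElemHypB p k V ρ P Good → s56l_NoWild P ρ → s56l_ElemConclB P Good ρ

/-- for `p ≥ 5` the side conditions are not needed. -/
theorem s56l_elemB_of_elem (hE : s56f_IfaceElem) (p : ℕ) (h5 : 5 ≤ p) : s56l_IfaceElemB p := by
  intro _ k _ _ _ V _ _ _ ρ P Good hyp _
  obtain ⟨-, h2, h3, h4, h5', h6, h7, h8, -⟩ := hyp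
  obtain ⟨c₀, hc₀, hc⟩ := hE p k V ρ P Good ⟨h5, h2, h3, h4, h5', h6, h7, h8⟩
  exact ⟨c₀, hc₀, fun c hgood _ => hc c hgood⟩

/-- **(TameAsmB)** the tame case of `s56l_IfaceElemB p` (`NoWild` is automatic there, not assumed). -/
def s56l_IfaceTameAsmB (p : ℕ) : Prop :=
  ∀ [Fact p.Prime] (k : Type) [Field k] [Finite k] [CharP k p]
    (V : Type) [AddCommGroup V] [Module k V] [Module.Finite k V] (ρ : GQ →* Module.End k V)
    (P : ValuationSubring Qbar) (Good : IntermediateField ℚ Qbar → Prop),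
    s56l_ElemHypB p k V ρ P Good →
    (∀ σ ∈ P.inertiaSubgroupIn ℚ, ∃ m : ℕ, m.Coprime p ∧ ρ σ ^ m = 1) →
    s56l_ElemConclB P Good ρ

/-- **(WildAsmB)** the wild case of `s56l_IfaceElemB p`. -/
def s56l_IfaceWildAsmB (p : ℕ) : Prop :=
  ∀ [Fact p.Prime] (k : Type) [Field k] [Finite k] [CharP k p]
    (V : Type) [AddCommGroup V] [Module k V] [Module.Finite k V] (ρ : GQ →* Module.End k V)
    (P : ValuationSubring Qbar) (Good : IntermediateField ℚ Qbar → Prop),
    s56l_ElemHypB p k V ρ P Good → s56l_NoWild P ρ →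
    ¬ (∀ σ ∈ P.inertiaSubgroupIn ℚ, ∃ m : ℕ, m.Coprime p ∧ ρ σ ^ m = 1) →
    s56l_ElemConclB P Good ρ

/-- the two assemblies give the count with the Borel side condition. -/
theorem s56l_elemB_of_asm (p : ℕ) (hT : s56l_IfaceTameAsmB p) (hW : s56l_IfaceWildAsmB p) :
    s56l_IfaceElemB p := by
  intro _ k _ _ _ V _ _ _ ρ P Good hyp hNW
  by_cases htame : ∀ σ ∈ P.inertiaSubgroupIn ℚ, ∃ m : ℕ, m.Coprime p ∧ ρ σ ^ m = 1
  · exact hT k V ρ P Good hyp htame
  · exact hW k V ρ P Good hyp hNW htame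

end Fermat.Agent.Lib.S56
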