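import Fermat.Agent.Lib.S56.AMain
import Fermat.Agent.Lib.S56.AStable

/-!
# Programme W (S56), wall W1: from deformation rings to Selmer sets  (INTERFACE, helper2)

Everything W1 owes is PROVED (complete proofs, standard axioms):

* definitions: `Lib/S56/ADefs.lean` (`s56a_ad0`, `s56a_liftRep`, `s56a_SelmerSet`,
  `s56a_TangentStable`, `s56a_SelmerStatement`);
* `s56a_of_selmer` (`Lib/S56/AMain.lean`): a bound `|Sel_𝒟| ≤ |k|^r` on the Selmer set gives a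
  surjection `𝒪[[x₁,…,x_r]] → R_𝒟` for every deformation ring of type `𝒟`;
* `s56a_tangentStable_ord`, `s56a_tangentStable_flat` (`Lib/S56/AStable.lean`): the two deformation
  types of S56 are tangent-stable;
* `s56a_result_of_selmer` (this file): the literal S56 conclusion from the two numerical Selmer
  statements `s56a_SelmerStatement`.
-/

set_option autoImplicit false

noncomputable section

namespace Fermat.Agent.Lib.S56

open IsLocalRing groupCohomology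

local notation "Γℚ" => (AlgebraicClosure ℚ ≃ₐ[ℚ] AlgebraicClosure ℚ)

section Final

open Polynomial ResidualGaloisRep

/-- **S56 from the two numerical Selmer statements** (literal conclusion of S56). -/
theorem s56a_result_of_selmer
    {𝒪 : Type} [CommRing 𝒪] [IsDomain 𝒪] [IsDiscreteValuationRing 𝒪]
    [IsAdicComplete (maximalIdeal 𝒪) 𝒪] [Finite (ResidueField 𝒪)]
    (p : ℕ) [Fact p.Prime] (hp2 : p ≠ 2) (hp𝒪 : (p : 𝒪) ∈ maximalIdeal 𝒪)
    (ρbar : ResidualGaloisRep (ResidueField 𝒪))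
    (hdet : (GaloisRepAdic.ofResidualGaloisRep ρbar).DetIsCyclotomic p)
    (S Smin : Finset ℕ)
    (hord : s56a_SelmerStatement 𝒪 ρbar p S Smin (GaloisRep.strictOrdinaryCondition 𝒪 p))
    (hflat : s56a_SelmerStatement 𝒪 ρbar p S Smin (GaloisRep.flatCondition 𝒪 p)) :
    (∃ r : ℕ, ∀ n : ℕ, ∃ qv : Fin r → ℕ, Function.Injective qv ∧
      (∀ i, (qv i).Prime ∧ qv i ∉ S ∧ p ^ (n + 1) ∣ qv i - 1) ∧
      (∀ i, ∀ P : ValuationSubring (AlgebraicClosure ℚ), P.LiesOverPrime (qv i) →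
        ∀ φ : AlgebraicClosure ℚ ≃ₐ[ℚ] AlgebraicClosure ℚ, P.IsFrobeniusAt φ (qv i) →
          ∃ α β : ResidueField 𝒪, α ≠ β ∧ LinearMap.charpoly (ρbar.ρ φ) = (X - C α) * (X - C β)) ∧
      ∀ DQ : GaloisRep.DeformationRingData 𝒪 ρbar (fun _A _ _ _ ρ =>
          GaloisRep.strictOrdinaryCondition 𝒪 p (Smin ∪ Finset.univ.image qv) ρ ∧
            ∀ q ∈ Smin, q.Prime → q ≠ p → ρ.IsUnipotentOnInertiaAt q),
        ∃ γ : MvPowerSeries (Fin r) 𝒪 →ₐ[𝒪] DQ.R, Function.Surjective γ) ∧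
    (∃ r : ℕ, ∀ n : ℕ, ∃ qv : Fin r → ℕ, Function.Injective qv ∧
      (∀ i, (qv i).Prime ∧ qv i ∉ S ∧ p ^ (n + 1) ∣ qv i - 1) ∧
      (∀ i, ∀ P : ValuationSubring (AlgebraicClosure ℚ), P.LiesOverPrime (qv i) →
        ∀ φ : AlgebraicClosure ℚ ≃ₐ[ℚ] AlgebraicClosure ℚ, P.IsFrobeniusAt φ (qv i) →
          ∃ α β : ResidueField 𝒪, α ≠ β ∧ LinearMap.charpoly (ρbar.ρ φ) = (X - C α) * (X - C β)) ∧
      ∀ DQ : GaloisRep.DeformationRingData 𝒪 ρbar (fun _A _ _ _ ρ =>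
          GaloisRep.flatCondition 𝒪 p (Smin ∪ Finset.univ.image qv) ρ ∧
            ∀ q ∈ Smin, q.Prime → q ≠ p → ρ.IsUnipotentOnInertiaAt q),
        ∃ γ : MvPowerSeries (Fin r) 𝒪 →ₐ[𝒪] DQ.R, Function.Surjective γ) := by
  refine ⟨?_, ?_⟩
  · obtain ⟨r, hr⟩ := hord
    refine ⟨r, fun n => ?_⟩
    obtain ⟨qv, h1, h2, h3, hT⟩ := hr n
    exact ⟨qv, h1, h2, h3, fun DQ =>
      s56a_of_selmer 𝒪 ρbar _ p hp2 hdet (s56a_tangentStable_ord 𝒪 p _ Smin) r hT DQ⟩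
  · obtain ⟨r, hr⟩ := hflat
    refine ⟨r, fun n => ?_⟩
    obtain ⟨qv, h1, h2, h3, hT⟩ := hr n
    exact ⟨qv, h1, h2, h3, fun DQ =>
      s56a_of_selmer 𝒪 ρbar _ p hp2 hdet (s56a_tangentStable_flat 𝒪 p _ Smin) r hT DQ⟩

end Final

end Fermat.Agent.Lib.S56
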