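import Fermat.Agent.Lib.S56.LGauge

/-!
# Programme W (S56), wall W8-F2 (helper2): the gauge on a convolution algebra

For a commutative ring `A`, a complete ultrametric normed field `K` which is an `A`-algebra with
`‖a‖ ≤ 1` for `a : A`, and ANY cocommutative `A`-coalgebra `C`, the convolution algebra
`WithConv (C →ₗ[A] K)` carries the complete gauge `Bd γ ρ := ∀ c, ‖γ c‖ ≤ ρ`
(`s56l_convGauge`).  A coalgebra map `f : C' → C` induces a contractive ring hom
`s56l_pull f : WithConv (C →ₗ[A] K) →+* WithConv (C' →ₗ[A] K)`.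
-/

set_option autoImplicit false

noncomputable section

namespace Fermat.Agent.Lib.S56

open Coalgebra TensorProduct WithConv Filter Topology

section ConvGauge

variable {A : Type*} [CommRing A] {K : Type*} [NormedField K] [IsUltrametricDist K]
  [CompleteSpace K] [Algebra A K]
  {C : Type*} [AddCommGroup C] [Module A C] [Coalgebra A C] [IsCocomm A C]

omit [Coalgebra A C] [IsCocomm A C] in
/-- the pointwise limit of a pointwise-geometric sequence of linear maps. -/
theorem s56l_exists_limit (s : ℕ → WithConv (C →ₗ[A] K)) (ρ κ : ℝ) (hρ : 0 ≤ ρ) (hκ0 : 0 ≤ κ)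
    (hκ1 : κ < 1) (h : ∀ n c, ‖(s (n + 1) - s n) c‖ ≤ ρ * κ ^ n) :
    ∃ a : WithConv (C →ₗ[A] K), ∀ n c, ‖(a - s n) c‖ ≤ ρ * κ ^ n := by
  have hcau : ∀ c, CauchySeq fun n => s n c := by
    intro c
    refine cauchySeq_of_le_geometric κ ρ hκ1 fun n => ?_
    rw [dist_comm, dist_eq_norm]
    exact h n c
  have hlim : ∀ c, ∃ y : K, Tendsto (fun n => s n c) atTop (𝓝 y) := fun c =>
    cauchySeq_tendsto_of_complete (hcau c)
  choose a ha using hlim
  -- the tail estimate
  have htail : ∀ n m c, n ≤ m → ‖s m c - s n c‖ ≤ ρ * κ ^ n := by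
    intro n m c hnm
    induction m, hnm using Nat.le_induction with
    | base => simpa using mul_nonneg hρ (pow_nonneg hκ0 n)
    | succ m hnm ih =>
      have h1 : s (m + 1) c - s n c = (s (m + 1) c - s m c) + (s m c - s n c) := by ring
      rw [h1]
      refine (IsUltrametricDist.norm_add_le_max _ _).trans (max_le ?_ ih)
      refine (h m c).trans (mul_le_mul_of_nonneg_left ?_ hρ)
      exact pow_le_pow_of_le_one hκ0 hκ1.le hnm
  have hbd : ∀ n c, ‖a c - s n c‖ ≤ ρ * κ ^ n := by
    intro n c
    have h1 : Tendsto (fun m => ‖s m c - s n c‖) atTop (𝓝 ‖a c - s n c‖) :=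
      ((ha c).sub_const _).norm
    refine le_of_tendsto h1 ?_
    filter_upwards [eventually_ge_atTop n] with m hm
    exact htail n m c hm
  let aL : C →ₗ[A] K :=
    { toFun := a
      map_add' := fun c c' => by
        have h1 : Tendsto (fun n => s n (c + c')) atTop (𝓝 (a c + a c')) := by
          have := (ha c).add (ha c')
          refine this.congr fun n => ?_
          exact (map_add (s n).ofConv c c').symm
        exact tendsto_nhds_unique (ha (c + c')) h1
      map_smul' := fun r c => by
        have h1 : Tendsto (fun n => s n (r • c)) atTop (𝓝 (r • a c)) := by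
          have := (ha c).const_smul r
          refine this.congr fun n => ?_
          exact (map_smul (s n).ofConv r c).symm
        exact tendsto_nhds_unique (ha (r • c)) h1 }
  exact ⟨toConv aL, fun n c => hbd n c⟩

/-- **the gauge of a convolution algebra.** -/
def s56l_convGauge (hA : ∀ a : A, ‖algebraMap A K a‖ ≤ 1) :
    s56l_Gauge K (WithConv (C →ₗ[A] K)) where
  Bd γ ρ := ∀ c, ‖γ c‖ ≤ ρ
  nonneg h := (norm_nonneg _).trans (h 0)
  mono h hρσ c := (h c).trans hρσ
  zero c := by
    show ‖(0 : C →ₗ[A] K) c‖ ≤ 0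
    simp
  add {a b ρ} ha hb c := by
    show ‖a c + b c‖ ≤ ρ
    exact (IsUltrametricDist.norm_add_le_max _ _).trans (max_le (ha c) (hb c))
  neg {a ρ} ha c := by
    show ‖-(a c)‖ ≤ ρ
    rw [norm_neg]
    exact ha c
  mul {a b ρ σ} ha hb c := by
    rw [(ℛ A c).convMul_apply]
    refine IsUltrametricDist.norm_sum_le_of_forall_le_of_nonneg
      (mul_nonneg ((norm_nonneg _).trans (ha 0)) ((norm_nonneg _).trans (hb 0))) fun i _ => ?_
    rw [norm_mul]
    exact mul_le_mul (ha _) (hb _) (norm_nonneg _) ((norm_nonneg _).trans (ha 0))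
  one c := by
    rw [LinearMap.convOne_apply]
    exact hA _
  smul {a ρ} k ha c := by
    show ‖k • a c‖ ≤ ‖k‖ * ρ
    rw [norm_smul]
    exact mul_le_mul_of_nonneg_left (ha c) (norm_nonneg k)
  sep {a} h := by
    apply WithConv.ext
    apply LinearMap.ext
    intro c
    show a c = 0
    rw [← norm_le_zero_iff]
    exact le_of_forall_pos_le_add fun ε hε => by simpa using h ε hε c
  complete s ρ κ hρ hκ0 hκ1 h := s56l_exists_limit s ρ κ hρ hκ0 hκ1 h

theorem s56l_convGauge_bd (hA : ∀ a : A, ‖algebraMap A K a‖ ≤ 1) (γ : WithConv (C →ₗ[A] K))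
    (ρ : ℝ) : (s56l_convGauge (C := C) hA).Bd γ ρ ↔ ∀ c, ‖γ c‖ ≤ ρ := Iff.rfl

end ConvGauge

section Pull

variable {A : Type*} [CommRing A] {K : Type*} [CommRing K] [Algebra A K]
  {C : Type*} [AddCommGroup C] [Module A C] [Coalgebra A C]
  {C' : Type*} [AddCommGroup C'] [Module A C'] [Coalgebra A C']

/-- pull-back of the convolution algebra along a coalgebra map. -/
def s56l_pull (f : C' →ₗc[A] C) : WithConv (C →ₗ[A] K) →+* WithConv (C' →ₗ[A] K) where
  toFun γ := toConv (γ.ofConv.comp f.toLinearMap)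
  map_one' := by
    apply WithConv.ext
    apply LinearMap.ext
    intro c
    show algebraMap A K (counit (f c)) = algebraMap A K (counit c)
    rw [CoalgHomClass.counit_comp_apply]
  map_mul' γ γ' := by
    apply WithConv.ext
    exact LinearMap.convMul_comp_coalgHom_distrib γ γ' f
  map_zero' := rfl
  map_add' _ _ := rfl

@[simp] theorem s56l_pull_apply (f : C' →ₗc[A] C) (γ : WithConv (C →ₗ[A] K)) (c : C') :
    s56l_pull f γ c = γ (f c) := rfl

end Pull

end Fermat.Agent.Lib.S56
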