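import Fermat.Agent.Lib.S56.LMainGlue3

/-!
# Programme W (S56), wall W8 (helper2): (T2)-flat for EVERY odd `p`

`s56l_lpBound_flat_all` : the two F3 assemblies for `p ≥ 5` (`s56f_IfaceTameAsm`, `s56f_IfaceWildAsm`) + the
two assemblies with the Borel side condition for `p = 3` (`s56l_IfaceTameAsmB 3`, `s56l_IfaceWildAsmB 3`)
+ the unramified bound (`s56g_unr_core`) + the Kummer input (`s56r_kb`) + `det ρ̄ = ω`
⊢ `s56z_LpBound p ρbar (fun ρ => ρ.DetIsCyclotomic p ∧ ρ.IsFlatAt p)` for every prime `p ≠ 2`.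
-/

set_option autoImplicit false

noncomputable section

namespace Fermat.Agent.Lib.S56

open Fermat.Agent.Lib.Frey Fermat.Agent.Lib.PT GaloisRep groupCohomology ExtCitation CategoryTheory
  Module Polynomial

local notation "Q̄" => AlgebraicClosure ℚ
local notation "GQ" => (AlgebraicClosure ℚ ≃ₐ[ℚ] AlgebraicClosure ℚ)

/-- an odd prime is `3` or `≥ 5`. -/
lemma s56l_three_or_five_le {p : ℕ} (hp : p.Prime) (hp2 : p ≠ 2) : p = 3 ∨ 5 ≤ p := by
  rcases Nat.lt_or_ge p 5 with h | h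
  · left
    have h2 := hp.two_le
    interval_cases p
    · exact absurd rfl hp2
    · rfl
    · exact absurd hp (by decide)
  · exact Or.inr h

/-- the count with the Borel side condition, for every odd prime, from the four assemblies. -/
theorem s56l_elemB_all (hT : s56f_IfaceTameAsm) (hW : s56f_IfaceWildAsm)
    (hT3 : s56l_IfaceTameAsmB 3) (hW3 : s56l_IfaceWildAsmB 3) (p : ℕ) (hp : p.Prime) (hp2 : p ≠ 2) :
    s56l_IfaceElemB p := by
  rcases s56l_three_or_five_le hp hp2 with rfl | h5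
  · exact s56l_elemB_of_asm 3 hT3 hW3
  · exact s56l_elemB_of_elem (s56f_elem_of_asm hT hW) p h5

/-- **(T2) for the flat condition, every odd `p`**, from the four F3 assemblies, F1 and W6. -/
theorem s56l_lpBound_flat_all (p : ℕ) [Fact p.Prime] {k : Type} [Field k] [Algebra (ZMod p) k]
    (ρbar : ResidualGaloisRep k) [Module.Finite (ZMod p) k] (hp2 : p ≠ 2)
    (hT : s56f_IfaceTameAsm) (hW : s56f_IfaceWildAsm)
    (hT3 : s56l_IfaceTameAsmB 3) (hW3 : s56l_IfaceWildAsmB 3)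
    (hUnr : ∀ (k : Type) [Field k] (q : Nat.Primes) (M : Rep.{0} k GQ) [FiniteDimensional k M],
      s56g_IsSmooth M → Module.Finite k ↥(s56g_H1ur q M) ∧
        finrank k ↥(s56g_H1ur q M) ≤ finrank k ↥(Rep.res (primeLocalToGlobal q) M).ρ.invariants)
    (hKB : ∀ (p : ℕ) (hp : p.Prime) (P : ValuationSubring Q̄) (hP : (p : Q̄) ∈ P.nonunits),
      s56f_KB p P (fun L => FiniteDimensional ℚ ↥L ∧ Normal ℚ ↥L ∧
        ∀ m : ℚ, (p : ℚ) / ((p : ℚ) - 1) < m → s56r_Pm p hp P hP L m))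
    (hsplit : ∀ σ : GQ, ∃ α β : k, LinearMap.charpoly (ρbar.ρ σ) = (X - C α) * (X - C β))
    (hdet : (GaloisRepAdic.ofResidualGaloisRep ρbar).DetIsCyclotomic p) :
    s56z_LpBound p ρbar (fun ρ => ρ.DetIsCyclotomic p ∧ ρ.IsFlatAt p) :=
  s56l_lpBound_flat_B p ρbar hp2 (s56l_elemB_all hT hW hT3 hW3 p Fact.out hp2) hUnr hKB hsplit hdet

end Fermat.Agent.Lib.S56
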