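import Fermat.Agent.Lib.S56.LGlueF3
import Fermat.Agent.Lib.S56.AOrdBound

/-!
# Programme W (S56), wall W8 (helper2): (T2) for the flat condition, `p ≥ 5`, from F1 + F3

`s56l_lpBound_flat` : `s56z_LpBound p ρbar (fun ρ => ρ.DetIsCyclotomic p ∧ ρ.IsFlatAt p)` from helper3's
count `s56f_IfaceMain` and the arithmetic input `s56f_KB` for the good fields `s56l_Good`
(helper6's Kummer export), via F2 (`s56l_locRes_mem_H1G`) and the `k → 𝔽_p` dictionary
(`s56a_lpBound_of_mapF`).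
-/

set_option autoImplicit false
set_option linter.style.haveILetI false

noncomputable section

namespace Fermat.Agent.Lib.S56

open Fermat.Agent.Lib.Frey Fermat.Agent.Lib.PT GaloisRep groupCohomology ExtCitation CategoryTheory
  Module Polynomial

local notation "Q̄" => AlgebraicClosure ℚ
local notation "GQ" => (AlgebraicClosure ℚ ≃ₐ[ℚ] AlgebraicClosure ℚ)

variable (p : ℕ) [Fact p.Prime] {k : Type} [Field k] [Algebra (ZMod p) k]
  (ρbar : ResidualGaloisRep k)

/-- **(T2) for the flat condition**, `p ≥ 5`: `dim_{𝔽_p} L_p ≤ h⁰(G_p, M) + [k : 𝔽_p]`. -/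
theorem s56l_lpBound_flat [Module.Finite (ZMod p) k] (h5 : 5 ≤ p) (hmain : s56f_IfaceMain)
    (hp : p.Prime) (hP : (p : Q̄) ∈ (primeLocalPlace (pPrime p)).nonunits)
    (hKB : s56f_KB p (primeLocalPlace (pPrime p)) (s56l_Good p hp (primeLocalPlace (pPrime p)) hP))
    (hsplit : ∀ σ : GQ, ∃ α β : k, LinearMap.charpoly (ρbar.ρ σ) = (X - C α) * (X - C β)) :
    s56z_LpBound p ρbar (fun ρ => ρ.DetIsCyclotomic p ∧ ρ.IsFlatAt p) := by
  have hp0 : (p : k) = 0 := s56a_natCast_eq_zero_of_algebra p k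
  haveI : Finite k := Module.finite_of_finite (ZMod p)
  haveI : CharP k p := (CharP.charP_iff_prime_eq_zero hp).2 hp0
  obtain ⟨hfin, hbound⟩ := hmain p h5 k ρbar hsplit
    (s56l_Good p hp (primeLocalPlace (pPrime p)) hP) (fun L L' => s56l_Good_sup L L')
    (fun L hL => hL.1) hKB
  haveI := hfin
  refine s56a_lpBound_of_mapF (ZMod p) (Rep.res (primeLocalToGlobal (pPrime p)) (s56a_ad0 ρbar))
    (s56f_H1G ρbar (primeLocalToGlobal (pPrime p)) (s56l_Good p hp (primeLocalPlace (pPrime p)) hP))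
    _ _ ?_ hbound
  rintro x ⟨c, hc, ⟨-, hflat⟩, hx⟩
  refine ⟨_, s56l_locRes_mem_H1G p ρbar hp0 c hc hflat hp hP (primeLocalToGlobal (pPrime p)), ?_⟩
  have h1 := (s56a_H1Res_map (ZMod p) (s56a_ad0 ρbar) (primeLocalToGlobal (pPrime p))
    ((H1π (s56a_ad0 ρbar)).hom c)).symm
  rw [s56a_H1Res_π] at h1
  exact h1.trans hx.symm

end Fermat.Agent.Lib.S56
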