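import Fermat.Agent.Lib.S56.IfaceF3b
import Fermat.Agent.Lib.S56.IfaceW6
import Fermat.Agent.Lib.PT.BridgeC
import Fermat.Agent.Lib.PT.BridgeE
import Fermat.Agent.Lib.Frey.OrdInertia

/-!
# Programme W (S56), wall W8-F3, the glue (helper2 for helper3): `s56f_IfaceElem ⇒ s56f_IfaceMain`

`s56f_main_of_elem` : the cocycle-level count `s56f_IfaceElem` and the bound for the unramified classes
(`s56g_unr_core`: `H¹_ur(G_p, M)` is finite-dimensional of dimension `≤ h⁰(G_p, M)`) give helper3's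
`s56f_IfaceMain` : `dim_k H¹_Good(G_p, ad⁰ρ̄) ≤ h⁰(G_p, ad⁰ρ̄) + 1`.
-/

set_option autoImplicit false

noncomputable section

namespace Fermat.Agent.Lib.S56

open groupCohomology ExtCitation CategoryTheory Polynomial Module Fermat.Agent.Lib.Frey
  Fermat.Agent.Lib.PT

local notation "Qbar" => AlgebraicClosure ℚ
local notation "GQ" => (AlgebraicClosure ℚ ≃ₐ[ℚ] AlgebraicClosure ℚ)

section Dict

variable {p : ℕ} [Fact p.Prime] {k : Type} [Field k] (ρbar : ResidualGaloisRep k)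

omit [Fact p.Prime] in
/-- the action of `G_p` on `ad⁰ρ̄`, in coordinates. -/
theorem s56l_res_ad0_coe {G : Type} [Group G] (r : G →* GQ) (g : G) (X : (s56a_ad0 ρbar).V) :
    s56a_toEnd ρbar ((Rep.res r (s56a_ad0 ρbar)).ρ g X) =
      ρbar.ρ (r g) * s56a_toEnd ρbar X * ρbar.ρ (r g)⁻¹ := rfl

theorem s56l_loc_mem_decomp (g : primeLocalGaloisGroup (pPrime p)) :
    primeLocalToGlobal (pPrime p) g ∈ (primeLocalPlace (pPrime p)).decompositionSubgroup ℚ :=
  localGaloisToGlobal_mem_decompositionSubgroup p g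

theorem s56l_loc_injective : Function.Injective (primeLocalToGlobal (pPrime p)) :=
  ptg_localGaloisToGlobal_injective p

/-- a function `c₀ : G_ℚ → End V̄` which is a trace-zero cocycle on `D_P` gives a cocycle of `G_p`. -/
def s56l_cocOfFun (c₀ : GQ → Module.End k ρbar.V)
    (hcoc : ∀ g ∈ (primeLocalPlace (pPrime p)).decompositionSubgroup ℚ,
      ∀ h ∈ (primeLocalPlace (pPrime p)).decompositionSubgroup ℚ,
      c₀ (g * h) = c₀ g + ρbar.ρ g * c₀ h * ρbar.ρ g⁻¹)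
    (htr : ∀ g ∈ (primeLocalPlace (pPrime p)).decompositionSubgroup ℚ,
      LinearMap.trace k ρbar.V (c₀ g) = 0) :
    cocycles₁ (Rep.res (primeLocalToGlobal (pPrime p)) (s56a_ad0 ρbar)) :=
  ⟨fun g => (⟨c₀ (primeLocalToGlobal (pPrime p) g), (s56a_mem_sl ρbar _).2
      (htr _ (s56l_loc_mem_decomp g))⟩ : ↥(s56a_sl ρbar)), by
    refine (mem_cocycles₁_def _).2 ?_
    intro g h
    apply Subtype.ext
    show ρbar.ρ (primeLocalToGlobal (pPrime p) g) * c₀ (primeLocalToGlobal (pPrime p) h) *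
        ρbar.ρ (primeLocalToGlobal (pPrime p) g)⁻¹ - c₀ (primeLocalToGlobal (pPrime p) (g * h)) +
        c₀ (primeLocalToGlobal (pPrime p) g) = 0
    rw [map_mul, hcoc _ (s56l_loc_mem_decomp g) _ (s56l_loc_mem_decomp h)]
    abel⟩

theorem s56l_cocOfFun_apply (c₀ : GQ → Module.End k ρbar.V) (hcoc) (htr)
    (g : primeLocalGaloisGroup (pPrime p)) :
    s56a_toEnd ρbar ((s56l_cocOfFun ρbar c₀ hcoc htr) g) = c₀ (primeLocalToGlobal (pPrime p) g) :=
  rfl

open Classical in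
/-- a cocycle of `G_p` as a function on `G_ℚ` (zero outside `D_P`). -/
def s56l_funOfCoc (c' : cocycles₁ (Rep.res (primeLocalToGlobal (pPrime p)) (s56a_ad0 ρbar))) :
    GQ → Module.End k ρbar.V := fun σ =>
  if h : ∃ g : primeLocalGaloisGroup (pPrime p), primeLocalToGlobal (pPrime p) g = σ then
    s56a_toEnd ρbar (c' h.choose) else 0

theorem s56l_funOfCoc_apply
    (c' : cocycles₁ (Rep.res (primeLocalToGlobal (pPrime p)) (s56a_ad0 ρbar)))
    (g : primeLocalGaloisGroup (pPrime p)) :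
    s56l_funOfCoc ρbar c' (primeLocalToGlobal (pPrime p) g) = s56a_toEnd ρbar (c' g) := by
  have h : ∃ g' : primeLocalGaloisGroup (pPrime p),
      primeLocalToGlobal (pPrime p) g' = primeLocalToGlobal (pPrime p) g := ⟨g, rfl⟩
  rw [s56l_funOfCoc, dif_pos h]
  have h2 : h.choose = g := s56l_loc_injective h.choose_spec
  rw [h2]

theorem s56l_exists_loc_eq {σ : GQ}
    (hσ : σ ∈ (primeLocalPlace (pPrime p)).decompositionSubgroup ℚ) :
    ∃ g : primeLocalGaloisGroup (pPrime p), primeLocalToGlobal (pPrime p) g = σ :=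
  ptg_exists_local_lift (q := p) hσ

/-- the cocycle identity in coordinates. -/
theorem s56l_coc_mul (c' : cocycles₁ (Rep.res (primeLocalToGlobal (pPrime p)) (s56a_ad0 ρbar)))
    (g h : primeLocalGaloisGroup (pPrime p)) :
    s56a_toEnd ρbar (c' (g * h)) = s56a_toEnd ρbar (c' g) +
      ρbar.ρ (primeLocalToGlobal (pPrime p) g) * s56a_toEnd ρbar (c' h) *
        ρbar.ρ (primeLocalToGlobal (pPrime p) g)⁻¹ := by
  have h1 := (mem_cocycles₁_def (c' : _ → _)).1 c'.2 g h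
  have h2 : c' (g * h) = (Rep.res (primeLocalToGlobal (pPrime p)) (s56a_ad0 ρbar)).ρ g (c' h) +
      c' g := by
    rw [sub_add_eq_add_sub, sub_eq_zero] at h1
    exact h1.symm
  rw [h2, map_add, s56l_res_ad0_coe, add_comm]

/-- the function of a cocycle vanishing on `G_L`, `L` good, `G_L ⊆ ker ρ̄`, is a good cocycle. -/
theorem s56l_goodCoc_funOfCoc (Good : IntermediateField ℚ Qbar → Prop)
    (c' : cocycles₁ (Rep.res (primeLocalToGlobal (pPrime p)) (s56a_ad0 ρbar)))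
    (L : IntermediateField ℚ Qbar) (hL : Good L) (hker : ∀ σ ∈ L.fixingSubgroup, ρbar.ρ σ = 1)
    (hvan : ∀ g : primeLocalGaloisGroup (pPrime p),
      primeLocalToGlobal (pPrime p) g ∈ L.fixingSubgroup → c' g = 0) :
    s56f_GoodCoc (primeLocalPlace (pPrime p)) Good ρbar.ρ (s56l_funOfCoc ρbar c') where
  coc := by
    intro g hg h hh
    obtain ⟨g', rfl⟩ := s56l_exists_loc_eq hg
    obtain ⟨h', rfl⟩ := s56l_exists_loc_eq hh
    rw [← map_mul, s56l_funOfCoc_apply, s56l_funOfCoc_apply, s56l_funOfCoc_apply, s56l_coc_mul]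
  tr := by
    intro g hg
    obtain ⟨g', rfl⟩ := s56l_exists_loc_eq hg
    rw [s56l_funOfCoc_apply]
    exact (s56a_mem_sl ρbar _).1 (c' g').2
  good := by
    refine ⟨L, hL, hker, fun g hg hgL => ?_⟩
    obtain ⟨g', rfl⟩ := s56l_exists_loc_eq hg
    rw [s56l_funOfCoc_apply, hvan g' hgL, map_zero]

end Dict

section Main

variable {p : ℕ} [Fact p.Prime] {k : Type} [Field k] (ρbar : ResidualGaloisRep k)

/-- `ad⁰ρ̄` is smooth. -/
theorem s56l_ad0_smooth : s56g_IsSmooth (s56a_ad0 ρbar) := by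
  obtain ⟨F₀, hF₀, hρF₀⟩ := ρbar.factorsThroughFiniteLevel
  intro X
  refine ⟨F₀, hF₀, fun s hs => ?_⟩
  have h1 : ρbar.ρ s = 1 := hρF₀ s ((IntermediateField.mem_fixingSubgroup_iff F₀ s).1 hs)
  have h2 : ρbar.ρ s⁻¹ = 1 := hρF₀ s⁻¹ ((IntermediateField.mem_fixingSubgroup_iff F₀ s⁻¹).1 (inv_mem hs))
  apply Subtype.ext
  show ρbar.ρ s * s56a_toEnd ρbar X * ρbar.ρ s⁻¹ = s56a_toEnd ρbar X
  rw [h1, h2, one_mul, mul_one]

/-- **the core of the glue**: a cocycle `c'` of `G_p` vanishing on `G_L` (`L` finite, `G_L ⊆ ker ρ̄`) which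
on inertia is `a • c₀ + ∂M` has its class in `H¹_ur ⊔ k·[c₀]`. -/
theorem s56l_class_mem_sup (c₀ : GQ → Module.End k ρbar.V)
    (hc₀ : s56f_GoodCoc (primeLocalPlace (pPrime p)) (fun L => FiniteDimensional ℚ L) ρbar.ρ c₀)
    (c' : cocycles₁ (Rep.res (primeLocalToGlobal (pPrime p)) (s56a_ad0 ρbar)))
    (L : IntermediateField ℚ Qbar) (hLfd : FiniteDimensional ℚ ↥L)
    (hker : ∀ σ ∈ L.fixingSubgroup, ρbar.ρ σ = 1)
    (hvan : ∀ g : primeLocalGaloisGroup (pPrime p),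
      primeLocalToGlobal (pPrime p) g ∈ L.fixingSubgroup → c' g = 0)
    (a : k) (Mm : Module.End k ρbar.V) (hMtr : LinearMap.trace k ρbar.V Mm = 0)
    (hI : ∀ σ ∈ (primeLocalPlace (pPrime p)).inertiaSubgroupIn ℚ,
      s56l_funOfCoc ρbar c' σ = a • c₀ σ + (ρbar.ρ σ * Mm * ρbar.ρ σ⁻¹ - Mm)) :
    (H1π (Rep.res (primeLocalToGlobal (pPrime p)) (s56a_ad0 ρbar))).hom c' ∈
      s56g_H1ur (pPrime p) (s56a_ad0 ρbar) ⊔ Submodule.span k
        {(H1π (Rep.res (primeLocalToGlobal (pPrime p)) (s56a_ad0 ρbar))).hom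
          (s56l_cocOfFun ρbar c₀ hc₀.coc hc₀.tr)} := by
  obtain ⟨z₀, hz₀⟩ : ∃ z₀ : cocycles₁ (Rep.res (primeLocalToGlobal (pPrime p)) (s56a_ad0 ρbar)),
      z₀ = s56l_cocOfFun ρbar c₀ hc₀.coc hc₀.tr := ⟨_, rfl⟩
  rw [← hz₀]
  have hz₀app : ∀ g, s56a_toEnd ρbar (z₀ g) = c₀ (primeLocalToGlobal (pPrime p) g) := by
    intro g
    rw [hz₀]
    rfl
  obtain ⟨L₀, hL₀fd, hL₀ker, hL₀van⟩ := hc₀.good
  let m : (Rep.res (primeLocalToGlobal (pPrime p)) (s56a_ad0 ρbar)).V :=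
    (⟨Mm, (s56a_mem_sl ρbar _).2 hMtr⟩ : ↥(s56a_sl ρbar))
  let dm : cocycles₁ (Rep.res (primeLocalToGlobal (pPrime p)) (s56a_ad0 ρbar)) :=
    ⟨(d₀₁ (Rep.res (primeLocalToGlobal (pPrime p)) (s56a_ad0 ρbar))).hom m,
      d₀₁_apply_mem_cocycles₁ (A := Rep.res (primeLocalToGlobal (pPrime p)) (s56a_ad0 ρbar)) m⟩
  have hdmapp : ∀ g, s56a_toEnd ρbar (dm g) =
      ρbar.ρ (primeLocalToGlobal (pPrime p) g) * Mm *
        ρbar.ρ (primeLocalToGlobal (pPrime p) g)⁻¹ - Mm := by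
    intro g
    show s56a_toEnd ρbar ((d₀₁ (Rep.res (primeLocalToGlobal (pPrime p)) (s56a_ad0 ρbar))).hom m g)
      = _
    rw [d₀₁_hom_apply, map_sub, s56l_res_ad0_coe]
    rfl
  have hdm0 : (H1π (Rep.res (primeLocalToGlobal (pPrime p)) (s56a_ad0 ρbar))).hom dm = 0 := by
    rw [H1π_eq_zero_iff]
    exact ⟨m, rfl⟩
  -- the unramified difference
  let w : cocycles₁ (Rep.res (primeLocalToGlobal (pPrime p)) (s56a_ad0 ρbar)) :=
    c' - a • z₀ - dm
  have hwapp : ∀ g, s56a_toEnd ρbar (w g) = s56a_toEnd ρbar (c' g) -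
      a • s56a_toEnd ρbar (z₀ g) - s56a_toEnd ρbar (dm g) := by
    intro g
    show s56a_toEnd ρbar (c' g - a • z₀ g - dm g) = _
    rw [map_sub, map_sub, map_smul]
  have hwI : ∀ τ ∈ s56g_Iq (pPrime p), w τ = 0 := by
    intro τ hτ
    have h1 := hI _ hτ
    rw [s56l_funOfCoc_apply] at h1
    have h2 : s56a_toEnd ρbar (w τ) = 0 := by
      rw [hwapp, hz₀app, hdmapp, h1]
      abel
    exact Subtype.ext h2
  -- level-constancy
  have hwlevel : IsLevelConstant₁ (primeLocalToGlobal (pPrime p)) w := by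
    refine ⟨L ⊔ L₀, IntermediateField.finiteDimensional_sup L L₀, fun g s hs => ?_⟩
    have hsL : primeLocalToGlobal (pPrime p) s ∈ L.fixingSubgroup :=
      IntermediateField.fixingSubgroup_antitone (le_sup_left : L ≤ L ⊔ L₀) hs
    have hsL₀ : primeLocalToGlobal (pPrime p) s ∈ L₀.fixingSubgroup :=
      IntermediateField.fixingSubgroup_antitone (le_sup_right : L₀ ≤ L ⊔ L₀) hs
    have hρs : ρbar.ρ (primeLocalToGlobal (pPrime p) s) = 1 := hker _ hsL
    have hρs' : ρbar.ρ (primeLocalToGlobal (pPrime p) s)⁻¹ = 1 := hker _ (inv_mem hsL)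
    have hρgs : ρbar.ρ (primeLocalToGlobal (pPrime p) (g * s)) =
        ρbar.ρ (primeLocalToGlobal (pPrime p) g) := by
      rw [map_mul, map_mul, hρs, mul_one]
    have hρgs' : ρbar.ρ (primeLocalToGlobal (pPrime p) (g * s))⁻¹ =
        ρbar.ρ (primeLocalToGlobal (pPrime p) g)⁻¹ := by
      rw [map_mul, mul_inv_rev, map_mul, hρs', one_mul]
    have hc₀gs : c₀ (primeLocalToGlobal (pPrime p) (g * s)) =
        c₀ (primeLocalToGlobal (pPrime p) g) := by
      rw [map_mul, hc₀.coc _ (s56l_loc_mem_decomp g) _ (s56l_loc_mem_decomp s),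
        hL₀van _ (s56l_loc_mem_decomp s) hsL₀, mul_zero, zero_mul, add_zero]
    have hc'gs : s56a_toEnd ρbar (c' (g * s)) = s56a_toEnd ρbar (c' g) := by
      rw [s56l_coc_mul, hvan s hsL, map_zero, mul_zero, zero_mul, add_zero]
    apply Subtype.ext
    show s56a_toEnd ρbar (w (g * s)) = s56a_toEnd ρbar (w g)
    rw [hwapp, hwapp, hc'gs, hz₀app, hz₀app, hc₀gs, hdmapp, hdmapp, hρgs, hρgs']
  have hwur : (H1π (Rep.res (primeLocalToGlobal (pPrime p)) (s56a_ad0 ρbar))).hom w ∈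
      s56g_H1ur (pPrime p) (s56a_ad0 ρbar) := ⟨w, hwlevel, hwI, rfl⟩
  have hsplitx : (H1π (Rep.res (primeLocalToGlobal (pPrime p)) (s56a_ad0 ρbar))).hom c' =
      (H1π (Rep.res (primeLocalToGlobal (pPrime p)) (s56a_ad0 ρbar))).hom w +
        a • (H1π (Rep.res (primeLocalToGlobal (pPrime p)) (s56a_ad0 ρbar))).hom z₀ := by
    have h1 : c' = w + a • z₀ + dm := by
      show c' = c' - a • z₀ - dm + a • z₀ + dm
      abel
    conv_lhs => rw [h1]
    rw [map_add, map_add, map_smul, hdm0, add_zero]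
  rw [hsplitx]
  exact Submodule.add_mem _ (Submodule.mem_sup_left hwur)
    (Submodule.mem_sup_right (Submodule.smul_mem _ _ (Submodule.subset_span rfl)))

/-- `H¹_ur ⊔ k·x₀` is finite-dimensional of dimension `≤ h⁰ + 1`. -/
theorem s56l_sup_bound
    (hUnr : ∀ (k : Type) [Field k] (q : Nat.Primes) (M : Rep.{0} k GQ) [FiniteDimensional k M],
      s56g_IsSmooth M → Module.Finite k ↥(s56g_H1ur q M) ∧
        finrank k ↥(s56g_H1ur q M) ≤ finrank k ↥(Rep.res (primeLocalToGlobal q) M).ρ.invariants)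
    (x₀ : H1 (Rep.res (primeLocalToGlobal (pPrime p)) (s56a_ad0 ρbar))) :
    Module.Finite k ↥(s56g_H1ur (pPrime p) (s56a_ad0 ρbar) ⊔ Submodule.span k {x₀}) ∧
    finrank k ↥(s56g_H1ur (pPrime p) (s56a_ad0 ρbar) ⊔ Submodule.span k {x₀}) ≤
      finrank k ↥(Rep.res (primeLocalToGlobal (pPrime p)) (s56a_ad0 ρbar)).ρ.invariants + 1 := by
  have : FiniteDimensional k (s56a_ad0 ρbar) :=
    inferInstanceAs (FiniteDimensional k ↥(s56a_sl ρbar))
  obtain ⟨hufin, hule⟩ := hUnr k (pPrime p) (s56a_ad0 ρbar) (s56l_ad0_smooth ρbar)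
  have := hufin
  refine ⟨inferInstance, ?_⟩
  calc finrank k ↥(s56g_H1ur (pPrime p) (s56a_ad0 ρbar) ⊔ Submodule.span k {x₀})
      ≤ finrank k ↥(s56g_H1ur (pPrime p) (s56a_ad0 ρbar)) + finrank k ↥(Submodule.span k {x₀}) :=
        Submodule.finrank_add_le_finrank_add_finrank _ _
    _ ≤ finrank k ↥(Rep.res (primeLocalToGlobal (pPrime p)) (s56a_ad0 ρbar)).ρ.invariants + 1 := by
        refine add_le_add hule ?_
        exact (finrank_span_le_card _).trans (by simp)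

end Main

section Glue

/-- **(Glue)** the cocycle-level count gives helper3's `s56f_IfaceMain`. -/
theorem s56f_main_of_elem (hElem : s56f_IfaceElem)
    (hUnr : ∀ (k : Type) [Field k] (q : Nat.Primes) (M : Rep.{0} k GQ) [FiniteDimensional k M],
      s56g_IsSmooth M → Module.Finite k ↥(s56g_H1ur q M) ∧
        finrank k ↥(s56g_H1ur q M) ≤ finrank k ↥(Rep.res (primeLocalToGlobal q) M).ρ.invariants) :
    s56f_IfaceMain := by
  intro p _ h5 k _ _ _ ρbar hsplit Good hsup hfd hKB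
  have hP : (primeLocalPlace (pPrime p)).LiesOverPrime p := ptg_padicPlace_liesOver p
  have hlevel : ∃ F : IntermediateField ℚ Qbar, FiniteDimensional ℚ F ∧
      ∀ σ ∈ F.fixingSubgroup, ρbar.ρ σ = 1 := by
    obtain ⟨F, hF, h⟩ := ρbar.factorsThroughFiniteLevel
    exact ⟨F, hF, fun σ hσ => h σ ((IntermediateField.mem_fixingSubgroup_iff F σ).1 hσ)⟩
  obtain ⟨c₀, hc₀, hconcl⟩ := hElem p k ρbar.V ρbar.ρ (primeLocalPlace (pPrime p)) Good
    ⟨h5, ρbar.finrank_eq, hlevel, hsplit, hP, hsup, hfd, hKB⟩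
  have hle : s56f_H1G ρbar (primeLocalToGlobal (pPrime p)) Good ≤
      s56g_H1ur (pPrime p) (s56a_ad0 ρbar) ⊔ Submodule.span k
        {(H1π (Rep.res (primeLocalToGlobal (pPrime p)) (s56a_ad0 ρbar))).hom
          (s56l_cocOfFun ρbar c₀ hc₀.coc hc₀.tr)} := by
    refine Submodule.span_le.2 ?_
    rintro x ⟨L, hL, hker, c', hvan, rfl⟩
    have hgood := s56l_goodCoc_funOfCoc ρbar Good c' L hL hker hvan
    obtain ⟨a, Mm, hMtr, hI⟩ := hconcl _ hgood
    exact s56l_class_mem_sup ρbar c₀ hc₀ c' L (hfd L hL) hker hvan a Mm hMtr hI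
  obtain ⟨hfin, hbd⟩ := s56l_sup_bound ρbar hUnr
    ((H1π (Rep.res (primeLocalToGlobal (pPrime p)) (s56a_ad0 ρbar))).hom
      (s56l_cocOfFun ρbar c₀ hc₀.coc hc₀.tr))
  have := hfin
  exact ⟨Submodule.finiteDimensional_of_le hle, (Submodule.finrank_mono hle).trans hbd⟩

/-- the two assemblies give the cocycle-level count. -/
theorem s56f_elem_of_asm (hT : s56f_IfaceTameAsm) (hW : s56f_IfaceWildAsm) : s56f_IfaceElem := by
  intro p _ k _ _ _ V _ _ _ ρ P Good hyp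
  by_cases h : ∀ σ ∈ P.inertiaSubgroupIn ℚ, ∃ m : ℕ, m.Coprime p ∧ ρ σ ^ m = 1
  · exact hT p k V ρ P Good hyp h
  · exact hW p k V ρ P Good hyp h

end Glue

end Fermat.Agent.Lib.S56
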