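import Fermat.Agent.Lib.S56.LFlatBound
import Fermat.Agent.Lib.S56.LMainGlue

/-!
# Programme W (S56), wall W8 (helper2): (T2)-flat for `p ≥ 5` from the two F3 assemblies

`s56l_lpBound_flat_of_asm` : `s56f_IfaceTameAsm` + `s56f_IfaceWildAsm` (helper3, helper8) + the unramified
bound (`s56g_unr_core`, helper6) + the Kummer input (`s56r_kb`, helper6)
⊢ `s56z_LpBound p ρbar (fun ρ => ρ.DetIsCyclotomic p ∧ ρ.IsFlatAt p)`.
-/

set_option autoImplicit false

noncomputable section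

namespace Fermat.Agent.Lib.S56

open Fermat.Agent.Lib.Frey Fermat.Agent.Lib.PT GaloisRep groupCohomology ExtCitation CategoryTheory
  Module Polynomial

local notation "Q̄" => AlgebraicClosure ℚ
local notation "GQ" => (AlgebraicClosure ℚ ≃ₐ[ℚ] AlgebraicClosure ℚ)

/-- **(T2) for the flat condition**, `p ≥ 5`, from the F3 assemblies, F1 and W6. -/
theorem s56l_lpBound_flat_of_asm (p : ℕ) [Fact p.Prime] {k : Type} [Field k] [Algebra (ZMod p) k]
    (ρbar : ResidualGaloisRep k) [Module.Finite (ZMod p) k] (h5 : 5 ≤ p)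
    (hT : s56f_IfaceTameAsm) (hW : s56f_IfaceWildAsm)
    (hUnr : ∀ (k : Type) [Field k] (q : Nat.Primes) (M : Rep.{0} k GQ) [FiniteDimensional k M],
      s56g_IsSmooth M → Module.Finite k ↥(s56g_H1ur q M) ∧
        finrank k ↥(s56g_H1ur q M) ≤ finrank k ↥(Rep.res (primeLocalToGlobal q) M).ρ.invariants)
    (hKB : ∀ (p : ℕ) (hp : p.Prime) (P : ValuationSubring Q̄) (hP : (p : Q̄) ∈ P.nonunits),
      s56f_KB p P (fun L => FiniteDimensional ℚ ↥L ∧ Normal ℚ ↥L ∧
        ∀ m : ℚ, (p : ℚ) / ((p : ℚ) - 1) < m → s56r_Pm p hp P hP L m))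
    (hsplit : ∀ σ : GQ, ∃ α β : k, LinearMap.charpoly (ρbar.ρ σ) = (X - C α) * (X - C β)) :
    s56z_LpBound p ρbar (fun ρ => ρ.DetIsCyclotomic p ∧ ρ.IsFlatAt p) :=
  s56l_lpBound_flat p ρbar h5 (s56f_main_of_elem (s56f_elem_of_asm hT hW) hUnr) Fact.out
    (ptg_padicPlace_liesOver p) (hKB p Fact.out _ _) hsplit

end Fermat.Agent.Lib.S56
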