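import Fermat.Agent.Lib.S56.LWild3
import Fermat.Agent.Lib.S56.F3TameFinal
import Fermat.Agent.Lib.S56.F3Wild
import Fermat.Agent.Lib.S56.GDecomp

/-!
# Programme W (S56), wall W8-F3, `p = 3` (helper2): the wild assembly with the Borel side condition,
unconditional: `s56l_wildAsmB_three : s56l_IfaceWildAsmB 3`.
-/

set_option autoImplicit false

noncomputable section

namespace Fermat.Agent.Lib.S56

/-- **the wild assembly with the Borel side condition, `p = 3`, unconditional.** -/
theorem s56l_wildAsmB_three : s56l_IfaceWildAsmB 3 :=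
  s56l_wildAsmB_of_contracts s56f_ifaceHit s56f_ifaceCount s56f_ifaceArith1 s56f_ifaceDict
    s56f_ifaceTameGen s56f_ifaceOmega s56f_ifaceK1 s56f_ifaceFrobPi s56f_ifaceTameMax
    s56f_ifaceTameRel s56g_ifaceFrobGen s56f_ifaceWildLine 3 rfl

end Fermat.Agent.Lib.S56
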