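/-
PROGRAMME W (S56), wall [W8-F3], the case `p = 3` (helper6, prefix `s56r_`):
**the character count (CC-f2) for `p = 3`.**

helper3's `s56f_cc_f2` needs `p ≥ 5` (Arith2).  For `p = 3` the window is `j ∈ {8, 10, 11}` and the
extra hit `j = 8` is excluded by `ψ(τ)² = -1` (which, in the assembly, comes from `det ρ̄ = ω`).
-/
import Mathlib
import Fermat.Agent.Lib.S56.F3Char

set_option autoImplicit false

noncomputable section

namespace Fermat.Agent.Lib.S56

open Fermat.Agent.Lib.PT Fermat.Agent.Lib.Frey Polynomial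

local notation "Qbar" => AlgebraicClosure ℚ
local notation "GQ" => (AlgebraicClosure ℚ ≃ₐ[ℚ] AlgebraicClosure ℚ)

section Cases3

variable {p : ℕ} [hpF : Fact p.Prime] {P : ValuationSubring Qbar} {hP : P.LiesOverPrime p}
  {π₁ ζ : Qbar} {k : Type} [Field k] [Algebra (ZMod p) k]
  {τ : GQ} {ξ : Qbar} {aτ : ZMod p}

/-- for `p = 3`: `ω(τ) = -1`. -/
lemma s56r_a_eq_neg_one (hp3 : p = 3) (T : s56f_TauData P π₁ ζ τ ξ aτ)
    (d : s56f_Dict p P hP π₁ ζ) : aτ = -1 := by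
  have hp2 : p ≠ 2 := by omega
  have h0 : aτ ≠ 0 := s56f_zeta_exp_ne_zero d T.zeta
  have h1 : aτ ^ 2 = 1 := by
    have := ZMod.pow_card_sub_one_eq_one h0
    have h2 : p - 1 = 2 := by omega
    rwa [h2] at this
  have h3 : (aτ - 1) * (aτ + 1) = 0 := by
    have : (aτ - 1) * (aτ + 1) = aτ ^ 2 - 1 := by ring
    rw [this, h1, sub_self]
  rcases mul_eq_zero.mp h3 with h | h
  · exact absurd (sub_eq_zero.mp h) (T.a_ne_one d hp2)
  · exact eq_neg_of_add_eq_zero_left h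

/-- **(CC-f2) for `p = 3`**: `D'` contains `φ'` acting on the residue field by `y ↦ y^(p²)`,
`ψ(τ)² = -1`: any two elements of `𝓗_ψ(D')` are proportional on `V₁`. -/
theorem s56r_cc_f2_three (hHit : s56f_IfaceHit) (hCount : s56f_IfaceCount) (hp3 : p = 3)
    [Finite k] [CharP k p] (d : s56f_Dict p P hP π₁ ζ)
    (T : s56f_TauData P π₁ ζ τ ξ aτ) {D' : Set GQ} (hτD' : τ ∈ D') {ψ : GQ → k}
    (hψτ : ψ τ ^ 2 = -1) {lam0 : k →ₗ[ZMod p] ZMod p} (hlam : lam0 ≠ 0)
    {φ' : GQ} (hφD : φ' ∈ P.decompositionSubgroup ℚ)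
    (hφ : ∀ y : IsLocalRing.ResidueField ↥P,
      (⟨φ', hφD⟩ : P.decompositionSubgroup ℚ) • y = y ^ (p ^ 2))
    (hφD' : φ' ∈ D') {aφ : ZMod p}
    (hφζ : φ' ζ = s56f_zpow ζ aφ) (hψφ : ψ φ' ≠ 0)
    {h h' : GQ → k} (hh : s56f_InH P hP π₁ ζ D' ψ lam0 h)
    (hh' : s56f_InH P hP π₁ ζ D' ψ lam0 h') (hne : ∃ u ∈ s56f_V1 P π₁, h u ≠ 0) :
    ∃ c : k, ∀ u ∈ s56f_V1 P π₁, h' u = c * h u := by
  haveI : CharP (IsLocalRing.ResidueField ↥P) p :=
    Fermat.Agent.Lib.S18.s18x_charP_residueField P hpF.out hP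
  letI : Algebra (ZMod p) (IsLocalRing.ResidueField ↥P) := ZMod.algebra _ p
  have hp2 : p ≠ 2 := by omega
  have hsq : p ^ 2 = 9 := by rw [hp3]; norm_num
  have hψτ0 : ψ τ ≠ 0 := by
    intro h0
    rw [h0, zero_pow (by norm_num)] at hψτ
    exact one_ne_zero (neg_eq_zero.mp hψτ.symm)
  have haτ : aτ = -1 := s56r_a_eq_neg_one hp3 T d
  set e : k := algebraMap (ZMod p) k aτ * (ψ τ)⁻¹ with hedef
  have he2 : e ^ 2 = -1 := by
    rw [hedef, mul_pow, inv_pow, hψτ, haτ, map_neg, map_one]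
    norm_num
  have he0 : e ≠ 0 := by
    intro h0
    rw [h0, zero_pow (by norm_num)] at he2
    have : (1 : k) = 0 := by
      have := congrArg Neg.neg he2
      simpa using this.symm
    exact one_ne_zero this
  have hk2 : (2 : k) ≠ 0 := by
    intro h2
    have h3 : ((2 : ℕ) : k) = 0 := by exact_mod_cast h2
    rw [CharP.cast_eq_zero_iff k p] at h3
    have := Nat.le_of_dvd (by norm_num) h3
    omega
  have hep : e ^ p ≠ e := by
    rw [hp3]
    intro h3
    have h4 : e ^ 3 = -e := by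
      have : e ^ 3 = e ^ 2 * e := by ring
      rw [this, he2]
      ring
    rw [h4] at h3
    have h5 : (2 : k) * e = 0 := by
      have : (2 : k) * e = e - (-e) := by ring
      rw [this, h3, sub_self]
    rcases mul_eq_zero.mp h5 with h | h
    · exact hk2 h
    · exact he0 h
  -- `θ(τ)^(p+1) = -1`
  have hθ4 : s56f_theta P π₁ τ ^ (p + 1) = -1 := by
    rw [T.theta_pow d, haτ, map_neg, map_one]
  have ht0 : s56f_theta P π₁ τ ≠ 0 := by
    intro h0
    have h7 := pow_orderOf_eq_one (s56f_theta P π₁ τ)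
    rw [T.orderOf_theta d, h0, zero_pow (s56f_e_nat_pos (p := p)).ne'] at h7
    exact zero_ne_one h7
  have hno : ∀ j, p ^ 2 - 1 ≤ j → j < p ^ 2 + p → ¬ p ∣ j → j ≠ p ^ 2 + 1 →
      ∀ A : k →+ IsLocalRing.ResidueField ↥P,
      (∀ x, A (e * x) = s56f_theta P π₁ τ ^ j * A x) → A = 0 := by
    intro j hjlo hjhi _ hj A hA
    by_contra hA0
    have h1 := s56f_hit_apply hHit hA hA0 (X ^ 2 + 1 : Polynomial (ZMod p)) (by
      rw [map_add, map_pow, aeval_X, map_one, he2]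
      ring)
    rw [map_add, map_pow, aeval_X, map_one] at h1
    have h2 : (s56f_theta P π₁ τ ^ j) ^ 2 = s56f_theta P π₁ τ ^ (p + 1) := by
      rw [hθ4]
      exact eq_neg_of_add_eq_zero_left h1
    have hjlo' : 8 ≤ j := by omega
    have hjhi' : j < 12 := by omega
    have h3 : 2 * j = (p + 1) + (2 * j - (p + 1)) := by omega
    rw [← pow_mul, mul_comm, h3, pow_add] at h2
    have h4 : s56f_theta P π₁ τ ^ (2 * j - (p + 1)) = 1 :=
      mul_left_cancel₀ (pow_ne_zero (p + 1) ht0) (h2.trans (mul_one _).symm)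
    have h5 := orderOf_dvd_of_pow_eq_one h4
    rw [T.orderOf_theta d] at h5
    have h6 : 8 ∣ 2 * j - 4 := by
      have h7 : p ^ 2 - 1 = 8 := by omega
      have h8 : 2 * j - (p + 1) = 2 * j - 4 := by omega
      rwa [h7, h8] at h5
    omega
  have hj₀ : ¬ p ∣ p ^ 2 + 1 := by
    intro hdvd
    have h7 : p ∣ p ^ 2 := dvd_pow_self p (by norm_num)
    have h8 : p ∣ 1 := (Nat.dvd_add_right h7).mp hdvd
    exact hpF.out.one_lt.ne' (Nat.dvd_one.mp h8)
  refine s56f_cc_one d T hτD' hψτ0 hlam hφD hφD' hφζ hψφ hφ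
    (j₀ := p ^ 2 + 1) (by omega) (by omega) hj₀ hno ?_ hh hh' hne
  intro A B hAτ hAφ hBτ hBφ hA0
  refine hCount p k (IsLocalRing.ResidueField ↥P) 2 _ _ _ _ (by norm_num)
    (s56f_eps_ne_zero d hφζ hψφ) (fun i h1 h2 => ?_) A B hAτ hAφ hBτ hBφ hA0
  have hi : i = 1 := by omega
  rw [hi, pow_one]
  exact hep

end Cases3

end Fermat.Agent.Lib.S56
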