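/-
PROGRAMME W (S56), wall [W8-F3], the case `p = 3` (helper6, prefix `s56r_`):
**the tame assembly with the Borel side condition** (`s56l_IfaceTameAsmB 3` of helper2's `IfaceF3c`).

Copy of helper3's `F3TameB`/`F3TameA` with the two places where `p ≥ 5` enters replaced:
* `f = 1`: `ν(τ) = ω(τ) = -1 = ν(τ)⁻¹`; `det ρ(τ) = ω(τ) = -1` forces the eigenvalues `{1, -1}`;
  the `(-1)`-eigenline is an ordinary line, and `BorelAt` kills the corresponding off-diagonal entry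
  of the good cocycles on `V₁` (because `ρ(V₁) = 1`);
* `f = 2`: `s56r_cc_f2_three` with `ν(τ)² = -1` (from `det ρ(τ) = -1`, `β = α³`).
-/
import Mathlib
import Fermat.Agent.Lib.S56.F3TameA
import Fermat.Agent.Lib.S56.IfaceF3c
import Fermat.Agent.Lib.S56.RChar3

set_option autoImplicit false

noncomputable section

namespace Fermat.Agent.Lib.S56

open Fermat.Agent.Lib.PT Fermat.Agent.Lib.Frey Polynomial Module

local notation "Qbar" => AlgebraicClosure ℚ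
local notation "GQ" => (AlgebraicClosure ℚ ≃ₐ[ℚ] AlgebraicClosure ℚ)

section Basis2

variable {k : Type} [Field k] {V : Type} [AddCommGroup V] [Module k V] (b : Basis (Fin 2) k V)

/-- membership in a coordinate line of a 2-dimensional space -/
lemma s56r_mem_span_iff {i j : Fin 2} (hij : i ≠ j) (x : V) :
    x ∈ Submodule.span k {b i} ↔ b.repr x j = 0 := by
  constructor
  · intro hx
    obtain ⟨t, rfl⟩ := Submodule.mem_span_singleton.mp hx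
    rw [map_smul, Finsupp.smul_apply, Basis.repr_self, Finsupp.single_eq_of_ne hij.symm,
      smul_zero]
  · intro hx
    rw [Submodule.mem_span_singleton]
    refine ⟨b.repr x i, ?_⟩
    have h1 := b.sum_repr x
    rw [Fin.sum_univ_two] at h1
    fin_cases i <;> fin_cases j
    · exact absurd rfl hij
    · simp only [Fin.zero_eta, Fin.mk_one] at hx ⊢
      rw [hx, zero_smul, add_zero] at h1
      exact h1
    · simp only [Fin.zero_eta, Fin.mk_one] at hx ⊢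
      rw [hx, zero_smul, zero_add] at h1
      exact h1
    · exact absurd rfl hij

lemma s56r_repr_apply (f : Module.End k V) (x : V) (l : Fin 2) :
    b.repr (f x) l = ∑ m, LinearMap.toMatrixAlgEquiv b f l m * b.repr x m := by
  have h1 := LinearMap.toMatrix_mulVec_repr b b f x
  have h2 := congrFun h1 l
  rw [← h2]
  rfl

end Basis2

section ConclB

variable {k : Type} [Field k] {V : Type} [AddCommGroup V] [Module k V]
  {P : ValuationSubring Qbar} {Good : IntermediateField ℚ Qbar → Prop} {ρ : GQ →* Module.End k V}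

/-- **from proportionality on `V₁` (for the Borel cocycles) to the conclusion with the Borel side
condition** (averaging over `I/V₁`; copy of `s56f_elemConcl_of_prop`). -/
theorem s56r_elemConclB_of_prop (hGoodfd : ∀ L, Good L → FiniteDimensional ℚ L)
    (hF : ∃ F : IntermediateField ℚ Qbar, FiniteDimensional ℚ F ∧
      ∀ σ ∈ F.fixingSubgroup, ρ σ = 1)
    {π₁ : Qbar} {τ : GQ} (hτI : τ ∈ P.inertiaSubgroupIn ℚ) {n : ℕ} (hn : (n : k) ≠ 0)
    (hτn : τ ^ n ∈ s56f_V1 P π₁)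
    (hgen : ∀ σ ∈ P.inertiaSubgroupIn ℚ, ∃ m : ℕ, ∃ u ∈ s56f_V1 P π₁, σ = τ ^ m * u)
    (hρV : ∀ u ∈ s56f_V1 P π₁, ρ u = 1)
    (hprop : ∀ c₁ c₂ : GQ → Module.End k V, s56f_GoodCoc P Good ρ c₁ → s56l_BorelAt P ρ c₁ →
      s56f_GoodCoc P Good ρ c₂ → s56l_BorelAt P ρ c₂ →
      (∃ u ∈ s56f_V1 P π₁, c₁ u ≠ 0) → ∃ a : k, ∀ u ∈ s56f_V1 P π₁, c₂ u = a • c₁ u) :
    s56l_ElemConclB P Good ρ := by
  have hτD : τ ∈ P.decompositionSubgroup ℚ := (ford_inertia_spec P τ hτI).1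
  have hV₁D : s56f_V1 P π₁ ≤ P.decompositionSubgroup ℚ := fun u hu => s56f_V1_le_D hu
  have hfin : ∀ (c₀ : GQ → Module.End k V),
      s56f_GoodCoc P (fun L => FiniteDimensional ℚ L) ρ c₀ → ∀ (c : GQ → Module.End k V),
      s56f_GoodCoc P Good ρ c → ∀ a : k, (∀ u ∈ s56f_V1 P π₁, c u = a • c₀ u) →
      ∃ (a : k) (M : Module.End k V), LinearMap.trace k V M = 0 ∧
        ∀ σ ∈ P.inertiaSubgroupIn ℚ, c σ = a • c₀ σ + (ρ σ * M * ρ σ⁻¹ - M) := by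
    intro c₀ hc₀ c hc a hca
    obtain ⟨M, hM, hMc⟩ := s56f_average (hc.sub_smul_coc hc₀ a) hτD hn (s56f_V1 P π₁) hV₁D hρV
      (fun u hu => by
        show c u - a • c₀ u = 0
        rw [hca u hu, sub_self]) hτn
      (fun g hg => by
        show LinearMap.trace k V (c g - a • c₀ g) = 0
        rw [map_sub, map_smul, hc.tr g hg, hc₀.tr g hg, smul_zero, sub_zero])
    refine ⟨a, M, hM, fun σ hσ => ?_⟩
    obtain ⟨m, u, hu, rfl⟩ := hgen σ hσ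
    have := hMc m u hu
    rw [← this]
    show c (τ ^ m * u) = a • c₀ (τ ^ m * u) + (c (τ ^ m * u) - a • c₀ (τ ^ m * u))
    abel
  by_cases hex : ∃ c₁ : GQ → Module.End k V, s56f_GoodCoc P Good ρ c₁ ∧ s56l_BorelAt P ρ c₁ ∧
      ∃ u ∈ s56f_V1 P π₁, c₁ u ≠ 0
  · obtain ⟨c₁, hc₁, hB₁, hne⟩ := hex
    have hc₁' : s56f_GoodCoc P (fun L => FiniteDimensional ℚ L) ρ c₁ := by
      obtain ⟨L, hL, h1, h2⟩ := hc₁.good
      exact ⟨hc₁.coc, hc₁.tr, ⟨L, hGoodfd L hL, h1, h2⟩⟩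
    refine ⟨c₁, hc₁', fun c hc hB => ?_⟩
    obtain ⟨a, ha⟩ := hprop c₁ c hc₁ hB₁ hc hB hne
    exact hfin c₁ hc₁' c hc a ha
  · have h0 : s56f_GoodCoc P (fun L => FiniteDimensional ℚ L) ρ (fun _ => 0) := by
      obtain ⟨F, hF1, hF2⟩ := hF
      refine ⟨fun g _ h _ => ?_, fun g _ => ?_, ⟨F, hF1, hF2, fun g _ _ => rfl⟩⟩
      · show (0 : Module.End k V) = 0 + ρ g * 0 * ρ g⁻¹
        rw [mul_zero, zero_mul, add_zero]
      · exact map_zero _
    refine ⟨fun _ => 0, h0, fun c hc hB => ?_⟩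
    refine hfin _ h0 c hc 0 (fun u hu => ?_)
    rw [zero_smul]
    by_contra hne
    exact hex ⟨c, hc, hB, u, hu, hne⟩

end ConclB

section Ctx3

variable {p : ℕ} [hpF : Fact p.Prime] {k : Type} [Field k] {V : Type} [AddCommGroup V] [Module k V]
  {ρ : GQ →* Module.End k V} {P : ValuationSubring Qbar} {hP : P.LiesOverPrime p}
  {Good : IntermediateField ℚ Qbar → Prop} {π₁ ζ : Qbar} {τ φ : GQ} {ξ : Qbar} {aτ aφ : ZMod p}
  {K₁ : IntermediateField ℚ Qbar}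

/-- **the Borel side condition kills an off-diagonal entry on `V₁`**: if `ρ(τ) = diag d` in the basis
`b`, `d j = 1`, `d i ≠ 1`, then `⟨b i⟩` is an ordinary line and every `BorelAt` cocycle has
`(c u)_{j i} = 0` for `u ∈ V₁`. -/
theorem s56r_borel_entry (C : s56f_TameCtx p ρ P hP Good π₁ ζ τ φ ξ aτ aφ K₁)
    (b : Basis (Fin 2) k V) {d : Fin 2 → k}
    (heτ : LinearMap.toMatrixAlgEquiv b (ρ τ) = Matrix.diagonal d)
    {i j : Fin 2} (hij : i ≠ j) (hdj : d j = 1) (hdi : d i ≠ 1)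
    {c : GQ → Module.End k V} (hB : s56l_BorelAt P ρ c) :
    ∀ u ∈ s56f_V1 P π₁, LinearMap.toMatrixAlgEquiv b (c u) j i = 0 := by
  set e : Module.End k V ≃ₐ[k] Matrix (Fin 2) (Fin 2) k := LinearMap.toMatrixAlgEquiv b with he
  have hτI := C.T.mem
  have hτD := C.T.memD
  -- `ρ` on inertia
  have hρI : ∀ σ ∈ P.inertiaSubgroupIn ℚ, ∃ m : ℕ, e (ρ σ) = Matrix.diagonal (d ^ m) := by
    intro σ hσ
    obtain ⟨m, u, hu, rfl⟩ := C.gen σ hσ
    refine ⟨m, ?_⟩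
    rw [map_mul, C.ρV₁ u hu, mul_one, map_pow, map_pow, heτ, Matrix.diagonal_pow]
  -- the line
  set Lbar : Submodule k V := Submodule.span k {b i} with hL
  have hmemL : ∀ x : V, x ∈ Lbar ↔ b.repr x j = 0 := fun x => s56r_mem_span_iff b hij x
  have hentry : ∀ f : Module.End k V, e f j i = b.repr (f (b i)) j := fun f =>
    LinearMap.toMatrixAlgEquiv_apply b f j i
  have hord : s56l_OrdLineAt P ρ Lbar := by
    refine ⟨fun σ hσ v hv => ?_, fun σ hσ v => ?_, τ, hτI, d i, hdi, fun v hv => ?_⟩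
    · -- `D`-stability
      obtain ⟨m, hm⟩ := hρI (σ * τ * σ⁻¹) (s56f_conj_mem_inertia P σ τ hσ hτI)
      have h1 : ρ σ * ρ τ = ρ (σ * τ * σ⁻¹) * ρ σ := by
        rw [← map_mul, ← map_mul]
        congr 1
        group
      have h2 : e (ρ σ) * Matrix.diagonal d = Matrix.diagonal (d ^ m) * e (ρ σ) := by
        rw [← heτ, ← hm, ← map_mul e, ← map_mul e, h1]
      have h3 := congrFun (congrFun h2 j) i
      rw [Matrix.mul_diagonal, Matrix.diagonal_mul, Pi.pow_apply, hdj, one_pow, one_mul] at h3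
      have h4 : e (ρ σ) j i * (d i - 1) = 0 := by rw [mul_sub, h3, mul_one, sub_self]
      have h5 : e (ρ σ) j i = 0 := by
        rcases mul_eq_zero.mp h4 with h | h
        · exact h
        · exact absurd (sub_eq_zero.mp h) hdi
      obtain ⟨t, rfl⟩ := Submodule.mem_span_singleton.mp hv
      rw [hmemL, map_smul, map_smul, Finsupp.smul_apply, ← hentry, h5, smul_zero]
    · -- inertia is trivial on the quotient
      obtain ⟨m, hm⟩ := hρI σ hσ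
      rw [hmemL, map_sub, Finsupp.sub_apply, s56r_repr_apply b (ρ σ) v j]
      show ∑ l, e (ρ σ) j l * b.repr v l - b.repr v j = 0
      rw [hm, Finset.sum_eq_single j]
      · rw [Matrix.diagonal_apply_eq, Pi.pow_apply, hdj, one_pow, one_mul, sub_self]
      · intro l _ hl
        rw [Matrix.diagonal_apply_ne _ hl.symm, zero_mul]
      · intro h
        exact absurd (Finset.mem_univ j) h
    · -- `τ` acts by `d i` on the line
      obtain ⟨t, rfl⟩ := Submodule.mem_span_singleton.mp hv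
      rw [map_smul, smul_comm]
      congr 1
      apply b.ext_elem
      intro l
      rw [← LinearMap.toMatrixAlgEquiv_apply b (ρ τ) l i, heτ, map_smul, Finsupp.smul_apply,
        Basis.repr_self, smul_eq_mul]
      by_cases hl : l = i
      · subst hl
        rw [Matrix.diagonal_apply_eq, Finsupp.single_eq_same, mul_one]
      · rw [Matrix.diagonal_apply_ne _ hl, Finsupp.single_eq_of_ne hl, mul_zero]
  obtain ⟨X, hX⟩ := hB Lbar hord
  intro u hu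
  have huD : u ∈ P.decompositionSubgroup ℚ := s56f_V1_le_D hu
  have h1 := hX u huD (b i) (Submodule.mem_span_singleton_self _)
  have hu' : ρ u⁻¹ = 1 := C.ρV₁ _ (inv_mem hu)
  rw [C.ρV₁ u hu, hu', one_mul, mul_one, add_sub_cancel_right, hmemL] at h1
  rw [hentry]
  exact h1

section Entries3

variable [Algebra (ZMod p) k]

/-- **the regular case for `p = 3`**: `ρ(τ) = diag(α, β)`, `α ≠ β`, `αβ = ω(τ)`: any two good Borel
cocycles are proportional on `V₁`. -/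
theorem s56r_prop_of_regular_three (hHit : s56f_IfaceHit) (hCount : s56f_IfaceCount)
    (hA1 : s56f_IfaceArith1) (hp3 : p = 3)
    [Finite k] [CharP k p]
    (C : s56f_TameCtx p ρ P hP Good π₁ ζ τ φ ξ aτ aφ K₁) (b : Basis (Fin 2) k V)
    {lam0 : k →ₗ[ZMod p] ZMod p} (hlam : lam0 ≠ 0) {α β : k} (hαβ : α ≠ β)
    (heτ : LinearMap.toMatrixAlgEquiv b (ρ τ) = Matrix.diagonal ![α, β])
    (hdet : α * β = algebraMap (ZMod p) k aτ)
    {c₁ c₂ : GQ → Module.End k V} (hc₁ : s56f_GoodCoc P Good ρ c₁) (hB₁ : s56l_BorelAt P ρ c₁)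
    (hc₂ : s56f_GoodCoc P Good ρ c₂) (hB₂ : s56l_BorelAt P ρ c₂)
    (hne : ∃ u ∈ s56f_V1 P π₁, c₁ u ≠ 0) :
    ∃ a : k, ∀ u ∈ s56f_V1 P π₁, c₂ u = a • c₁ u := by
  set e : Module.End k V ≃ₐ[k] Matrix (Fin 2) (Fin 2) k := LinearMap.toMatrixAlgEquiv b with he
  have hp2 : p ≠ 2 := by omega
  have haτ : aτ = -1 := s56r_a_eq_neg_one hp3 C.T C.d
  have hdet' : α * β = -1 := by rw [hdet, haτ, map_neg, map_one]
  have hk2 : (2 : k) ≠ 0 := by
    intro h2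
    have h3 : ((2 : ℕ) : k) = 0 := by exact_mod_cast h2
    rw [CharP.cast_eq_zero_iff k p] at h3
    have := Nat.le_of_dvd (by norm_num) h3
    omega
  have hneg1 : (-1 : k) ≠ 1 := by
    intro h
    apply hk2
    have : (2 : k) = 1 - (-1) := by ring
    rw [this, h, sub_self]
  have h01τ : e (ρ τ) 0 1 = 0 := by rw [heτ]; simp
  have h10τ : e (ρ τ) 1 0 = 0 := by rw [heτ]; simp
  have h00τ : e (ρ τ) 0 0 = α := by rw [heτ]; simp
  have h11τ : e (ρ τ) 1 1 = β := by rw [heτ]; simp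
  obtain ⟨-, -, hτ00, hτ11⟩ := s56f_mat_diag_inv (s56f_e_rho_mul_inv e τ) h01τ h10τ
  have hα0 : α ≠ 0 := by
    rw [h00τ] at hτ00; exact left_ne_zero_of_mul_eq_one hτ00
  have hβ0 : β ≠ 0 := by
    rw [h11τ] at hτ11; exact left_ne_zero_of_mul_eq_one hτ11
  have h00τ' : e (ρ τ⁻¹) 0 0 = α⁻¹ := by
    rw [h00τ] at hτ00; exact eq_inv_of_mul_eq_one_right hτ00
  have h11τ' : e (ρ τ⁻¹) 1 1 = β⁻¹ := by
    rw [h11τ] at hτ11; exact eq_inv_of_mul_eq_one_right hτ11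
  -- the diagonal entries vanish
  have H00 : ∀ c : GQ → Module.End k V, s56f_GoodCoc P Good ρ c →
      ∀ u ∈ s56f_V1 P π₁, e (c u) 0 0 = 0 :=
    fun c hc => C.entry_vanish e hHit hp2 hlam 0 0 h01τ h10τ hτ00 hc
  have H11 : ∀ c : GQ → Module.End k V, s56f_GoodCoc P Good ρ c →
      ∀ u ∈ s56f_V1 P π₁, e (c u) 1 1 = 0 :=
    fun c hc => C.entry_vanish e hHit hp2 hlam 1 1 h01τ h10τ hτ11 hc
  -- the off-diagonal entries of `c₁`
  have hoff : (∃ u ∈ s56f_V1 P π₁, e (c₁ u) 0 1 ≠ 0) ∨ (∃ u ∈ s56f_V1 P π₁, e (c₁ u) 1 0 ≠ 0) := by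
    obtain ⟨u, hu, hcu⟩ := hne
    by_contra hcon
    rw [not_or] at hcon
    apply hcu
    apply e.injective
    rw [map_zero]
    ext i j
    fin_cases i <;> fin_cases j
    · exact H00 c₁ hc₁ u hu
    · by_contra h1
      exact hcon.1 ⟨u, hu, h1⟩
    · by_contra h1
      exact hcon.2 ⟨u, hu, h1⟩
    · exact H11 c₁ hc₁ u hu
  -- assembling the conclusion from the entries
  have hfinal : ∀ a : k, (∀ u ∈ s56f_V1 P π₁, e (c₂ u) 0 1 = a * e (c₁ u) 0 1) →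
      (∀ u ∈ s56f_V1 P π₁, e (c₂ u) 1 0 = a * e (c₁ u) 1 0) →
      ∀ u ∈ s56f_V1 P π₁, c₂ u = a • c₁ u := by
    intro a hX hY u hu
    apply e.injective
    rw [map_smul]
    ext i j
    rw [Matrix.smul_apply, smul_eq_mul]
    fin_cases i <;> fin_cases j
    · show e (c₂ u) 0 0 = a * e (c₁ u) 0 0
      rw [H00 c₁ hc₁ u hu, H00 c₂ hc₂ u hu, mul_zero]
    · exact hX u hu
    · exact hY u hu
    · show e (c₂ u) 1 1 = a * e (c₁ u) 1 1
      rw [H11 c₁ hc₁ u hu, H11 c₂ hc₂ u hu, mul_zero]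
  -- the Borel side condition, in the two orientations
  have hBY : β = 1 → α ≠ 1 → ∀ c : GQ → Module.End k V, s56l_BorelAt P ρ c →
      ∀ u ∈ s56f_V1 P π₁, e (c u) 1 0 = 0 := by
    intro hβ1 hα1 c hB
    exact s56r_borel_entry C b heτ (i := 0) (j := 1) (by decide) (by simpa using hβ1)
      (by simpa using hα1) hB
  have hBX : α = 1 → β ≠ 1 → ∀ c : GQ → Module.End k V, s56l_BorelAt P ρ c →
      ∀ u ∈ s56f_V1 P π₁, e (c u) 0 1 = 0 := by
    intro hα1 hβ1 c hB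
    exact s56r_borel_entry C b heτ (i := 1) (j := 0) (by decide) (by simpa using hα1)
      (by simpa using hβ1) hB
  -- the relation with the Frobenius lift
  have hrelm : e (ρ φ) * Matrix.diagonal ![α, β] = Matrix.diagonal ![α ^ p, β ^ p] * e (ρ φ) := by
    have h1 : ρ φ * ρ τ = ρ τ ^ p * ρ φ := by
      have h2 : ρ φ * ρ τ * ρ φ⁻¹ * ρ φ = ρ τ ^ p * ρ φ := by rw [C.rel]
      rwa [mul_assoc (ρ φ * ρ τ), s56f_rho_inv_mul, mul_one] at h2
    calc e (ρ φ) * Matrix.diagonal ![α, β] = e (ρ φ) * e (ρ τ) := by rw [heτ]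
      _ = e (ρ φ * ρ τ) := (map_mul e _ _).symm
      _ = e (ρ τ ^ p * ρ φ) := by rw [h1]
      _ = e (ρ τ) ^ p * e (ρ φ) := by rw [map_mul e, map_pow e]
      _ = Matrix.diagonal ![α ^ p, β ^ p] * e (ρ φ) := by rw [heτ, s56f_diag_pow]
  have hφD : φ ∈ P.decompositionSubgroup ℚ := C.φfrob.mem_decompositionSubgroup
  rcases s56f_mat_dich (s56f_e_rho_mul_inv e φ) (s56f_e_rho_inv_mul e φ) hαβ hrelm with
    ⟨hR01, hR10, hαp, hβp⟩ | ⟨hR00, hR11, hαp, hβp⟩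
  · -- `ρ(φ)` diagonal: `f = 1`
    obtain ⟨-, -, hφ00, hφ11⟩ := s56f_mat_diag_inv (s56f_e_rho_mul_inv e φ) hR01 hR10
    have hD' : ∀ g ∈ ({τ, φ} : Set GQ),
        g ∈ P.decompositionSubgroup ℚ ∧ e (ρ g) 0 1 = 0 ∧ e (ρ g) 1 0 = 0 := by
      intro g hg
      rcases hg with rfl | hg
      · exact ⟨C.T.memD, h01τ, h10τ⟩
      · rw [Set.mem_singleton_iff] at hg
        subst hg
        exact ⟨hφD, hR01, hR10⟩
    have hτD' : τ ∈ ({τ, φ} : Set GQ) := Set.mem_insert τ _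
    have hφD' : φ ∈ ({τ, φ} : Set GQ) := Set.mem_insert_of_mem τ (Set.mem_singleton φ)
    have hX := fun (c : GQ → Module.End k V) (hc : s56f_GoodCoc P Good ρ c) =>
      C.inH_entry e lam0 0 1 hD' hc
    have hY := fun (c : GQ → Module.End k V) (hc : s56f_GoodCoc P Good ρ c) =>
      C.inH_entry e lam0 1 0 hD' hc
    have hψXτ : e (ρ τ) 0 0 * e (ρ τ⁻¹) 1 1 = α * β⁻¹ := by rw [h00τ, h11τ']
    have hψYτ : e (ρ τ) 1 1 * e (ρ τ⁻¹) 0 0 = β * α⁻¹ := by rw [h11τ, h00τ']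
    obtain ⟨hX1, hX2⟩ := s56f_cc_f1 hHit hCount hA1 C.d C.T hτD'
      (ψ := fun g => e (ρ g) 0 0 * e (ρ g⁻¹) 1 1) (lam0 := lam0)
      (by
        show e (ρ τ) 0 0 * e (ρ τ⁻¹) 1 1 ≠ 0
        rw [hψXτ]; exact mul_ne_zero hα0 (inv_ne_zero hβ0))
      (by
        show (e (ρ τ) 0 0 * e (ρ τ⁻¹) 1 1) ^ p = e (ρ τ) 0 0 * e (ρ τ⁻¹) 1 1
        rw [hψXτ, mul_pow, inv_pow, hαp, hβp])
      hlam C.φfrob hφD' C.φζ
      (by
        show e (ρ φ) 0 0 * e (ρ φ⁻¹) 1 1 ≠ 0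
        exact mul_ne_zero (left_ne_zero_of_mul_eq_one hφ00) (right_ne_zero_of_mul_eq_one hφ11))
    obtain ⟨hY1, hY2⟩ := s56f_cc_f1 hHit hCount hA1 C.d C.T hτD'
      (ψ := fun g => e (ρ g) 1 1 * e (ρ g⁻¹) 0 0) (lam0 := lam0)
      (by
        show e (ρ τ) 1 1 * e (ρ τ⁻¹) 0 0 ≠ 0
        rw [hψYτ]; exact mul_ne_zero hβ0 (inv_ne_zero hα0))
      (by
        show (e (ρ τ) 1 1 * e (ρ τ⁻¹) 0 0) ^ p = e (ρ τ) 1 1 * e (ρ τ⁻¹) 0 0
        rw [hψYτ, mul_pow, inv_pow, hαp, hβp])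
      hlam C.φfrob hφD' C.φζ
      (by
        show e (ρ φ) 1 1 * e (ρ φ⁻¹) 0 0 ≠ 0
        exact mul_ne_zero (left_ne_zero_of_mul_eq_one hφ11) (right_ne_zero_of_mul_eq_one hφ00))
    -- a hit forces `α = -β`, hence `{α, β} = {1, -1}`
    have hsq : α = -β → (β = 1 ∧ α = -1) ∨ (β = -1 ∧ α = 1) := by
      intro h1
      have h2 : (β - 1) * (β + 1) = 0 := by
        have h3 : (β - 1) * (β + 1) = -(α * β) - 1 := by rw [h1]; ring
        rw [h3, hdet']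
        ring
      rcases mul_eq_zero.mp h2 with h | h
      · have hβ1 : β = 1 := sub_eq_zero.mp h
        exact Or.inl ⟨hβ1, by rw [h1, hβ1]⟩
      · have hβ1 : β = -1 := eq_neg_of_add_eq_zero_left h
        exact Or.inr ⟨hβ1, by rw [h1, hβ1, neg_neg]⟩
    have hXhit : α * β⁻¹ = algebraMap (ZMod p) k aτ → α = -β := by
      intro h1
      rw [haτ, map_neg, map_one] at h1
      have h2 : α = α * β⁻¹ * β := by rw [mul_assoc, inv_mul_cancel₀ hβ0, mul_one]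
      rw [h2, h1]
      ring
    have hYhit : β * α⁻¹ = algebraMap (ZMod p) k aτ → α = -β := by
      intro h1
      rw [haτ, map_neg, map_one] at h1
      have h2 : β = β * α⁻¹ * α := by rw [mul_assoc, inv_mul_cancel₀ hα0, mul_one]
      have h3 : β = -α := by
        rw [h2, h1]
        ring
      rw [h3, neg_neg]
    rcases hoff with hXne | hYne
    · have hψ := hX1 _ (hX c₁ hc₁) hXne
      have hψ' : α * β⁻¹ = algebraMap (ZMod p) k aτ := by rw [← hψXτ]; exact hψ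
      rcases hsq (hXhit hψ') with ⟨hβ1, hα1⟩ | ⟨hβ1, hα1⟩
      · have hYv := hBY hβ1 (by rw [hα1]; exact hneg1)
        obtain ⟨a, ha⟩ := hX2 _ _ (hX c₁ hc₁) (hX c₂ hc₂) hXne
        exact ⟨a, hfinal a ha (fun u hu => by rw [hYv c₁ hB₁ u hu, hYv c₂ hB₂ u hu, mul_zero])⟩
      · exfalso
        obtain ⟨u, hu, h1⟩ := hXne
        exact h1 (hBX hα1 (by rw [hβ1]; exact hneg1) c₁ hB₁ u hu)
    · have hψ := hY1 _ (hY c₁ hc₁) hYne
      have hψ' : β * α⁻¹ = algebraMap (ZMod p) k aτ := by rw [← hψYτ]; exact hψ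
      rcases hsq (hYhit hψ') with ⟨hβ1, hα1⟩ | ⟨hβ1, hα1⟩
      · exfalso
        obtain ⟨u, hu, h1⟩ := hYne
        exact h1 (hBY hβ1 (by rw [hα1]; exact hneg1) c₁ hB₁ u hu)
      · have hXv := hBX hα1 (by rw [hβ1]; exact hneg1)
        obtain ⟨a, ha⟩ := hY2 _ _ (hY c₁ hc₁) (hY c₂ hc₂) hYne
        exact ⟨a, hfinal a (fun u hu => by rw [hXv c₁ hB₁ u hu, hXv c₂ hB₂ u hu, mul_zero]) ha⟩
  · -- `ρ(φ)` antidiagonal: `f = 2`
    obtain ⟨hR00', hR11', hφ01, hφ10⟩ := s56f_mat_anti_inv (s56f_e_rho_mul_inv e φ) hR00 hR11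
    have hφ2D : φ * φ ∈ P.decompositionSubgroup ℚ := mul_mem hφD hφD
    obtain ⟨hS01, hS10, hS00, hS11⟩ := s56f_mat_anti_sq hR00 hR11
    have heφ2 : e (ρ (φ * φ)) = e (ρ φ) * e (ρ φ) := by rw [map_mul, map_mul]
    have hD' : ∀ g ∈ ({τ, φ * φ} : Set GQ),
        g ∈ P.decompositionSubgroup ℚ ∧ e (ρ g) 0 1 = 0 ∧ e (ρ g) 1 0 = 0 := by
      intro g hg
      rcases hg with rfl | hg
      · exact ⟨C.T.memD, h01τ, h10τ⟩
      · rw [Set.mem_singleton_iff] at hg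
        subst hg
        exact ⟨hφ2D, by rw [heφ2]; exact hS01, by rw [heφ2]; exact hS10⟩
    have hτD' : τ ∈ ({τ, φ * φ} : Set GQ) := Set.mem_insert τ _
    have hφD' : φ * φ ∈ ({τ, φ * φ} : Set GQ) := Set.mem_insert_of_mem τ (Set.mem_singleton _)
    have hX := fun (c : GQ → Module.End k V) (hc : s56f_GoodCoc P Good ρ c) =>
      C.inH_entry e lam0 0 1 hD' hc
    obtain ⟨-, -, hφφ00, hφφ11⟩ := s56f_mat_diag_inv (s56f_e_rho_mul_inv e (φ * φ))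
      (hD' _ hφD').2.1 (hD' _ hφD').2.2
    have hψXτ : e (ρ τ) 0 0 * e (ρ τ⁻¹) 1 1 = α * β⁻¹ := by rw [h00τ, h11τ']
    -- `ν(τ)² = -1`
    have hν2 : (α * β⁻¹) ^ 2 = -1 := by
      have hβinv : β⁻¹ = -α := by
        have h1 : (-α) * β = 1 := by rw [neg_mul, hdet', neg_neg]
        exact (eq_inv_of_mul_eq_one_left h1).symm
      have hα3 : α ^ 3 = β := by rw [← hp3]; exact hαp
      rw [hβinv]
      have h2 : (α * -α) ^ 2 = α * α ^ 3 := by ring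
      rw [h2, hα3, hdet']
    have hprop := fun (c c' : GQ → Module.End k V) (hc : s56f_GoodCoc P Good ρ c)
        (hc' : s56f_GoodCoc P Good ρ c') =>
      s56r_cc_f2_three hHit hCount hp3 C.d C.T hτD'
        (ψ := fun g => e (ρ g) 0 0 * e (ρ g⁻¹) 1 1) (lam0 := lam0)
        (by
          show (e (ρ τ) 0 0 * e (ρ τ⁻¹) 1 1) ^ 2 = -1
          rw [hψXτ]; exact hν2)
        hlam hφ2D (s56f_frob_sq C.φfrob hφ2D) hφD' (s56f_frob_sq_zeta C.d.hζ C.φζ)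
        (by
          show e (ρ (φ * φ)) 0 0 * e (ρ (φ * φ)⁻¹) 1 1 ≠ 0
          exact mul_ne_zero (left_ne_zero_of_mul_eq_one hφφ00)
            (right_ne_zero_of_mul_eq_one hφφ11))
        (hX c hc) (hX c' hc')
    -- the `(1,0)` entry from the `(0,1)` entry
    have hYX : ∀ c : GQ → Module.End k V, s56f_GoodCoc P Good ρ c → ∀ u ∈ s56f_V1 P π₁,
        e (c (φ * u * φ⁻¹)) 0 1 = e (ρ φ) 0 1 * e (c u) 1 0 * e (ρ φ⁻¹) 0 1 := by
      intro c hc u hu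
      rw [C.conj hc hφD hu, map_mul, map_mul, s56f_mat_conj_anti hR00 hR11']
    have hr1 : e (ρ φ) 0 1 ≠ 0 := left_ne_zero_of_mul_eq_one hφ01
    have hr2 : e (ρ φ⁻¹) 0 1 ≠ 0 := right_ne_zero_of_mul_eq_one hφ10
    have hXne : ∃ u ∈ s56f_V1 P π₁, e (c₁ u) 0 1 ≠ 0 := by
      rcases hoff with h1 | ⟨u, hu, h1⟩
      · exact h1
      · refine ⟨φ * u * φ⁻¹, C.d.conj_mem_V1 hφD hu, ?_⟩
        rw [hYX c₁ hc₁ u hu]
        exact mul_ne_zero (mul_ne_zero hr1 h1) hr2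
    obtain ⟨a, ha⟩ := hprop c₁ c₂ hc₁ hc₂ hXne
    refine ⟨a, hfinal a ha (fun u hu => ?_)⟩
    have h1 := ha (φ * u * φ⁻¹) (C.d.conj_mem_V1 hφD hu)
    rw [hYX c₁ hc₁ u hu, hYX c₂ hc₂ u hu] at h1
    have h2 : e (ρ φ) 0 1 * e (ρ φ⁻¹) 0 1 * e (c₂ u) 1 0 =
        e (ρ φ) 0 1 * e (ρ φ⁻¹) 0 1 * (a * e (c₁ u) 1 0) := by
      rw [mul_right_comm, h1]
      ring
    exact mul_left_cancel₀ (mul_ne_zero hr1 hr2) h2

end Entries3

/-- **the tame assembly for `p = 3`, part B.** -/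
theorem s56r_tameCtx_elemConclB (hHit : s56f_IfaceHit) (hCount : s56f_IfaceCount)
    (hA1 : s56f_IfaceArith1) (hp3 : p = 3)
    [Finite k] [CharP k p] [Module.Finite k V]
    (Cx : s56f_TameCtx p ρ P hP Good π₁ ζ τ φ ξ aτ aφ K₁)
    (hF : ∃ F : IntermediateField ℚ Qbar, FiniteDimensional ℚ F ∧
      ∀ σ ∈ F.fixingSubgroup, ρ σ = 1)
    (hsplit : ∃ α β : k, LinearMap.charpoly (ρ τ) = (X - Polynomial.C α) * (X - Polynomial.C β))
    (hdetτ : LinearMap.det (ρ τ) = ((aτ.val : ℕ) : k)) :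
    s56l_ElemConclB P Good ρ := by
  letI : Algebra (ZMod p) k := ZMod.algebra k p
  obtain ⟨lam0, hlam⟩ := s56f_exists_lam0 (p := p) (k := k)
  have hp2 : p ≠ 2 := by omega
  have hn : (((p ^ 2 - 1 : ℕ)) : k) ≠ 0 := by
    rw [Ne, CharP.cast_eq_zero_iff k p]
    exact s56f_not_dvd_e
  have hτpow : ρ τ ^ (p ^ 2 - 1) = 1 := by rw [← map_pow]; exact Cx.ρV₁ _ Cx.τn
  have hdetτ' : LinearMap.det (ρ τ) = algebraMap (ZMod p) k aτ := by
    rw [hdetτ]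
    conv_rhs => rw [← ZMod.natCast_zmod_val aτ]
    rw [map_natCast]
  refine s56r_elemConclB_of_prop Cx.Goodfd hF Cx.T.mem hn Cx.τn Cx.gen Cx.ρV₁ ?_
  intro c₁ c₂ hc₁ hB₁ hc₂ hB₂ hne
  obtain ⟨α, β, hS⟩ := hsplit
  by_cases hαβ : α = β
  · exfalso
    subst hαβ
    have hα := s56f_scalar_of_double (ρ τ) hS hn hτpow
    obtain ⟨u, hu, hcu⟩ := hne
    exact hcu (Cx.vanish_of_scalar hHit hp2 hlam hα hc₁ u hu)
  · obtain ⟨b, hb⟩ := s56f_exists_eigenbasis Cx.hV (ρ τ) hS hαβ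
    have hdet : α * β = algebraMap (ZMod p) k aτ := by
      rw [← hdetτ', ← LinearMap.det_toMatrix b (ρ τ)]
      have h1 : LinearMap.toMatrix b b (ρ τ) = Matrix.diagonal ![α, β] := hb
      rw [h1, Matrix.det_diagonal, Fin.prod_univ_two]
      rfl
    exact s56r_prop_of_regular_three hHit hCount hA1 hp3 Cx b hlam hαβ hb hdet hc₁ hB₁ hc₂ hB₂ hne

end Ctx3

/-- **THE TAME ASSEMBLY FOR `p = 3`** (with the Borel side condition) from the contracts. -/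
theorem s56r_tameAsmB_three_of_contracts (hHit : s56f_IfaceHit) (hCount : s56f_IfaceCount)
    (hA1 : s56f_IfaceArith1)
    (hDict : s56f_IfaceDict) (hTameGen : s56f_IfaceTameGen) (hOmega : s56f_IfaceOmega)
    (hK1 : s56f_IfaceK1) (hFrobPi : s56f_IfaceFrobPi) (hTameMax : s56f_IfaceTameMax)
    (hTameRel : s56f_IfaceTameRel) : s56l_IfaceTameAsmB 3 := by
  intro hpF k _ _ _ V _ _ _ ρ P Good hyp htame
  obtain ⟨hp2, hV, hF, hsplit, hP, hGsup, hGfd, hKB, hdet⟩ := hyp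
  obtain ⟨π₁, hπ⟩ := s56f_exists_pi (p := 3)
  obtain ⟨ζ, hζ, hζ1⟩ := s56f_exists_zeta (p := 3)
  have d : s56f_Dict 3 P hP π₁ ζ := hDict 3 P hP π₁ ζ hπ hζ hζ1
  -- the generator of tame inertia
  obtain ⟨τ, hτI, ξ, hξord, hτπ, hgenI⟩ := hTameGen 3 hpF.out P hP π₁ hπ
  obtain ⟨aτ, hτζ⟩ := s56f_exists_zeta_exp hζ hζ1 τ
  have hτξ : τ ξ = ξ := (hgenI τ hτI).1
  have T : s56f_TauData P π₁ ζ τ ξ aτ :=
    ⟨hτI, hξord, hτπ, hτζ, hOmega 3 hpF.out hp2 P hP π₁ hπ τ hτI ξ ζ aτ.val hτπ hζ hζ1 hτζ⟩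
  have hgen : ∀ σ ∈ P.inertiaSubgroupIn ℚ, ∃ m : ℕ, ∃ u ∈ s56f_V1 P π₁, σ = τ ^ m * u := by
    intro σ hσ
    obtain ⟨-, i, hi⟩ := hgenI σ hσ
    refine ⟨i, (τ ^ i)⁻¹ * σ, ?_, by group⟩
    refine (s56f_mem_V1 P).mpr ⟨mul_mem (inv_mem (pow_mem hτI i)) hσ, ?_⟩
    rw [AlgEquiv.mul_apply, hi, ← s56f_tau_pow_pi hτπ hτξ i, ← AlgEquiv.mul_apply, inv_mul_cancel,
      AlgEquiv.one_apply]
  have hτn : τ ^ (3 ^ 2 - 1) ∈ s56f_V1 P π₁ := by
    refine (s56f_mem_V1 P).mpr ⟨pow_mem hτI _, ?_⟩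
    rw [s56f_tau_pow_pi hτπ hτξ, ← hξord, pow_orderOf_eq_one, one_mul]
  -- the Frobenius lift
  obtain ⟨φ, hφ, hφπ⟩ := hFrobPi 3 hpF.out P hP π₁ hπ
  obtain ⟨aφ, hφζ⟩ := s56f_exists_zeta_exp hζ hζ1 φ
  -- Step 1 and Step 2
  have hrel : ∀ σ ∈ P.inertiaSubgroupIn ℚ, ρ φ * ρ σ * ρ φ⁻¹ = ρ σ ^ 3 :=
    fun σ hσ => s56f_tame_rel hTameRel hP hF htame hφ hσ
  have hpow : ∀ σ ∈ P.inertiaSubgroupIn ℚ, ρ σ ^ (3 ^ 2 - 1) = 1 := by
    intro σ hσ
    obtain ⟨m, hm, hσm⟩ := htame σ hσ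
    obtain ⟨α, β, hS⟩ := hsplit σ
    exact s56f_pow_eq_one_of_frob 3 hV (ρ σ) (ρ φ) (ρ φ⁻¹) (s56f_rho_mul_inv ρ φ)
      (s56f_rho_inv_mul ρ φ) (hrel σ hσ) hm hσm hS
  have hρV₁ : ∀ u ∈ s56f_V1 P π₁, ρ u = 1 := by
    intro u hu
    have h1 := hTameMax 3 hpF.out P hP π₁ hπ (MonoidHom.ker ρ)
      (by
        obtain ⟨F, hFfd, hFρ⟩ := hF
        exact ⟨F, hFfd, fun σ _ hσF => MonoidHom.mem_ker.mpr (hFρ σ hσF)⟩)
      (fun g _ x _ hx => (MonoidHom.normal_ker ρ).conj_mem x hx g)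
      (fun σ hσ => by rw [MonoidHom.mem_ker, map_pow]; exact hpow σ hσ) u hu
    exact MonoidHom.mem_ker.mp h1
  -- `det ρ(τ) = ω(τ)`
  have hdetτ : LinearMap.det (ρ τ) = ((aτ.val : ℕ) : k) := by
    refine hdet τ aτ.val (fun μ hμ => ?_)
    have hord : orderOf ζ = 3 := by
      have hdvd : orderOf ζ ∣ 3 := orderOf_dvd_of_pow_eq_one hζ
      rcases (Nat.dvd_prime hpF.out).mp hdvd with h1 | h1
      · exact absurd (orderOf_eq_one_iff.mp h1) hζ1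
      · exact h1
    have hprim : IsPrimitiveRoot ζ 3 := hord ▸ IsPrimitiveRoot.orderOf ζ
    obtain ⟨i, -, hi⟩ := hprim.eq_pow_of_pow_eq_one hμ
    rw [← hi, map_pow, hτζ, s56f_zpow, ← pow_mul, ← pow_mul, mul_comm]
  -- the order of `ρ(φ)` and the tame field
  obtain ⟨F, hFfd, hFρ⟩ := hF
  haveI := hFfd
  haveI : F.fixingSubgroup.FiniteIndex := pta_finiteIndex_fixingSubgroup F
  obtain ⟨N, hN0, -, hφN⟩ :=
    Subgroup.exists_pow_mem_of_index_ne_zero (H := F.fixingSubgroup) Subgroup.FiniteIndex.index_ne_zero φ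
  have hρφN : ρ φ ^ N = 1 := by rw [← map_pow]; exact hFρ _ hφN
  obtain ⟨K₁, hK₁fd, hK₁n, hK₁t, hζK, -, hV₁K, hU₁⟩ := hK1 3 hpF.out hp2 P hP π₁ ζ hπ hζ hζ1 N hN0
  have hρU₁ : ∀ σ ∈ P.decompositionSubgroup ℚ, σ ∈ K₁.fixingSubgroup → ρ σ = 1 := by
    intro σ hσD hσK
    obtain ⟨j, ι, ⟨q, rfl⟩, hι, hjι⟩ := hU₁ φ hφ hφπ σ hσD hσK F hFfd
    have h1 := hFρ _ hjι
    rw [map_mul] at h1
    have h2 : ρ (φ ^ (N * q) * ι) = 1 := by
      rw [map_mul, map_pow, pow_mul, hρφN, one_pow, one_mul, hρV₁ ι hι]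
    have h3 : ρ σ = ρ (φ ^ (N * q) * ι) * (ρ (φ ^ (N * q) * ι)⁻¹ * ρ σ) := by
      rw [← mul_assoc, s56f_rho_mul_inv, one_mul]
    rw [h3, h1, h2, mul_one]
  have Cx : s56f_TameCtx 3 ρ P hP Good π₁ ζ τ φ ξ aτ aφ K₁ :=
    { hV := hV, d := d, T := T, gen := hgen, τn := hτn, φfrob := hφ, φζ := hφζ, ρV₁ := hρV₁,
      K₁fd := hK₁fd, K₁n := hK₁n, K₁t := hK₁t, ζK := hζK, V₁K := hV₁K, ρU₁ := hρU₁,
      rel := hrel τ hτI, KB := hKB, Goodfd := hGfd }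
  exact s56r_tameCtx_elemConclB hHit hCount hA1 rfl Cx ⟨F, hFfd, hFρ⟩ (hsplit τ) hdetτ

end Fermat.Agent.Lib.S56
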