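/-
PROGRAMME W (S56), wall [W8-F3], the case `p = 3` (helper6, prefix `s56r_`):
**`s56l_IfaceTameAsmB 3` unconditionally** — `RTame3.lean` + the contracts proved by helper8 (`F3Alg`:
Hit, Count, Arith1) and helper5 (`F3Dict`: the dictionary, TameGen, Omega; `F3Tame`: K1, FrobPi,
TameMax, TameRel).
-/
import Mathlib
import Fermat.Agent.Lib.S56.RTame3
import Fermat.Agent.Lib.S56.F3Alg
import Fermat.Agent.Lib.S56.F3Tame

set_option autoImplicit false

noncomputable section

namespace Fermat.Agent.Lib.S56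

open Fermat.Agent.Lib.PT Fermat.Agent.Lib.Frey Polynomial Module

local notation "Qbar" => AlgebraicClosure ℚ

/-- the dictionary structure from helper5's six contracts + `s56o_V1_fix_zeta`. -/
theorem s56r_ifaceDict : s56f_IfaceDict := by
  intro p hpF P hP π₁ ζ hπ hζ hζ1
  exact ⟨hπ, hζ, hζ1, s56f_ifaceValGroup p hpF.out P hP π₁ hπ,
    (s56f_ifaceLambda p hpF.out P hP ζ hζ hζ1).1, s56f_ifaceResFin p hpF.out P hP,
    s56o_V1_fix_zeta hpF.out P hP hπ hζ, s56f_ifaceRedInj p hpF.out P hP⟩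

/-- **the tame assembly for `p = 3` with the Borel side condition.** -/
theorem s56r_tameAsmB_three : s56l_IfaceTameAsmB 3 :=
  s56r_tameAsmB_three_of_contracts s56f_ifaceHit s56f_ifaceCount s56f_ifaceArith1 s56r_ifaceDict
    s56f_ifaceTameGen s56f_ifaceOmega s56f_ifaceK1 s56f_ifaceFrobPi s56f_ifaceTameMax
    s56f_ifaceTameRel

end Fermat.Agent.Lib.S56
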