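import Fermat.Agent.Lib.S56.LFlatAll
import Fermat.Agent.Lib.S56.LFlatFinal
import Fermat.Agent.Lib.S56.F3TameFinal
import Fermat.Agent.Lib.S56.F3WildFinal
import Fermat.Agent.Lib.S56.RTame3Final
import Fermat.Agent.Lib.S56.LWild3Final
import Fermat.Agent.Lib.S56.GUnr
import Fermat.Agent.Lib.S56.RFinal

/-!
# Programme W (S56), wall W8 (helper2): THE WIRING FILE for (T2)-flat — NO OPEN INPUT

`s56l_lpBound_flat_closed` : (T2) for the flat condition, every odd `p`:
* the tame assembly, `p ≥ 5` (helper3, `s56f_ifaceTameAsm`);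
* the wild assembly, `p ≥ 5` (helper8, `s56f_ifaceWildAsm`);
* the tame assembly with the Borel side condition, `p = 3` (helper6, `s56r_tameAsmB_three`);
* the wild assembly with the Borel side condition, `p = 3` (helper2, `s56l_wildAsmB_three`);
* the unramified bound (helper6, `s56g_unr_core`), the Kummer input (helper6 + helper8, `s56r_kb`);
* the glue (helper2, `s56l_lpBound_flat_all`; side conditions from helper5's `s56o_flat_borel`,
  `s56o_flat_wild_trivial`; flat ⇒ good from `s56l_flat_good`).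
-/

set_option autoImplicit false

noncomputable section

namespace Fermat.Agent.Lib.S56

open Fermat.Agent.Lib.Frey Fermat.Agent.Lib.PT GaloisRep groupCohomology ExtCitation CategoryTheory
  Module Polynomial

local notation "Q̄" => AlgebraicClosure ℚ
local notation "GQ" => (AlgebraicClosure ℚ ≃ₐ[ℚ] AlgebraicClosure ℚ)

/-- **(T2) for the flat condition, every odd `p`, UNCONDITIONAL** = input (F) of the top assembly. -/
theorem s56l_lpBound_flat_closed
    (p : ℕ) [Fact p.Prime] {k : Type} [Field k] [Algebra (ZMod p) k]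
    (ρbar : ResidualGaloisRep k) [Module.Finite (ZMod p) k] (hp2 : p ≠ 2)
    (hsplit : ∀ σ : GQ, ∃ α β : k, LinearMap.charpoly (ρbar.ρ σ) = (X - C α) * (X - C β))
    (hdet : (GaloisRepAdic.ofResidualGaloisRep ρbar).DetIsCyclotomic p) :
    s56z_LpBound p ρbar (fun ρ => ρ.DetIsCyclotomic p ∧ ρ.IsFlatAt p) :=
  s56l_lpBound_flat_all p ρbar hp2 s56f_ifaceTameAsm s56f_ifaceWildAsm s56r_tameAsmB_three
    s56l_wildAsmB_three (fun k _ q M _ h => s56g_unr_core k q M h)
    (fun p hp P hP => s56r_kb p hp P hP) hsplit hdet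

/-- **(T2) for the flat condition, `p ≥ 5`, UNCONDITIONAL** (no `hdet` needed). -/
theorem s56l_lpBound_flat_five (p : ℕ) [Fact p.Prime] {k : Type} [Field k] [Algebra (ZMod p) k]
    (ρbar : ResidualGaloisRep k) [Module.Finite (ZMod p) k] (h5 : 5 ≤ p)
    (hsplit : ∀ σ : GQ, ∃ α β : k, LinearMap.charpoly (ρbar.ρ σ) = (X - C α) * (X - C β)) :
    s56z_LpBound p ρbar (fun ρ => ρ.DetIsCyclotomic p ∧ ρ.IsFlatAt p) :=
  s56l_lpBound_flat_of_asm p ρbar h5 s56f_ifaceTameAsm s56f_ifaceWildAsm
    (fun k _ q M _ h => s56g_unr_core k q M h) (fun p hp P hP => s56r_kb p hp P hP) hsplit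

end Fermat.Agent.Lib.S56
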