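import Mathlib

/-!
# Programme W (S56), wall W8-F2 (helper2, prefix `s56l_`): complete ultrametric gauges

A *gauge* on a commutative algebra `𝓡` over a normed field `K` is a predicate `Bd a ρ` ("`‖a‖ ≤ ρ`")
with the properties of the closed balls of a complete ultrametric submultiplicative norm.  No norm
instance is ever put on `𝓡`: the application is `𝓡 = WithConv (C →ₗ[A] K)` (convolution algebra of
a coalgebra) with `Bd γ ρ := ∀ c, ‖γ c‖ ≤ ρ`.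

Main results: the fixed-point lemma `s56l_Gauge.exists_unique_fixed`, inverses of `1 + δ`
(`exists_unique_inv`), and **(Root)**: for a prime `p` and `ρ ^ (p - 1) < ‖p‖`, the `p`-th power map
`1 + Ball(ρ) → 1 + Ball(ρ‖p‖)` is bijective (`exists_unique_root`).
-/

set_option autoImplicit false

noncomputable section

namespace Fermat.Agent.Lib.S56

/-- A complete ultrametric gauge on a commutative `K`-algebra. -/
structure s56l_Gauge (K : Type*) [NormedField K] (𝓡 : Type*) [CommRing 𝓡] [Algebra K 𝓡] where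
  /-- `Bd a ρ` : "`a` lies in the closed ball of radius `ρ`". -/
  Bd : 𝓡 → ℝ → Prop
  nonneg : ∀ {a : 𝓡} {ρ : ℝ}, Bd a ρ → 0 ≤ ρ
  mono : ∀ {a : 𝓡} {ρ σ : ℝ}, Bd a ρ → ρ ≤ σ → Bd a σ
  zero : Bd 0 0
  add : ∀ {a b : 𝓡} {ρ : ℝ}, Bd a ρ → Bd b ρ → Bd (a + b) ρ
  neg : ∀ {a : 𝓡} {ρ : ℝ}, Bd a ρ → Bd (-a) ρ
  mul : ∀ {a b : 𝓡} {ρ σ : ℝ}, Bd a ρ → Bd b σ → Bd (a * b) (ρ * σ)
  one : Bd 1 1
  smul : ∀ {a : 𝓡} {ρ : ℝ} (c : K), Bd a ρ → Bd (c • a) (‖c‖ * ρ)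
  sep : ∀ {a : 𝓡}, (∀ ρ : ℝ, 0 < ρ → Bd a ρ) → a = 0
  complete : ∀ (s : ℕ → 𝓡) (ρ κ : ℝ), 0 ≤ ρ → 0 ≤ κ → κ < 1 →
    (∀ n, Bd (s (n + 1) - s n) (ρ * κ ^ n)) → ∃ a, ∀ n, Bd (a - s n) (ρ * κ ^ n)

namespace s56l_Gauge

variable {K : Type*} [NormedField K] {𝓡 : Type*} [CommRing 𝓡] [Algebra K 𝓡] (G : s56l_Gauge K 𝓡)

theorem zero' {ρ : ℝ} (hρ : 0 ≤ ρ) : G.Bd 0 ρ := G.mono G.zero hρ

theorem sub {a b : 𝓡} {ρ : ℝ} (ha : G.Bd a ρ) (hb : G.Bd b ρ) : G.Bd (a - b) ρ := by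
  rw [sub_eq_add_neg]
  exact G.add ha (G.neg hb)

theorem sum {ι : Type*} (s : Finset ι) (f : ι → 𝓡) {ρ : ℝ} (hρ : 0 ≤ ρ)
    (h : ∀ i ∈ s, G.Bd (f i) ρ) : G.Bd (∑ i ∈ s, f i) ρ := by
  classical
  induction s using Finset.induction_on with
  | empty => simpa using G.zero' hρ
  | insert i s hi ih =>
    rw [Finset.sum_insert hi]
    exact G.add (h i (Finset.mem_insert_self i s))
      (ih fun j hj => h j (Finset.mem_insert_of_mem hj))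

theorem pow {a : 𝓡} {ρ : ℝ} (ha : G.Bd a ρ) (n : ℕ) : G.Bd (a ^ n) (ρ ^ n) := by
  induction n with
  | zero => simpa using G.one
  | succ n ih =>
    rw [pow_succ, pow_succ]
    exact G.mul ih ha

theorem natCast_mul {a : 𝓡} {ρ : ℝ} (n : ℕ) (ha : G.Bd a ρ) :
    G.Bd ((n : 𝓡) * a) (‖(n : K)‖ * ρ) := by
  have h := G.smul (n : K) ha
  rwa [Algebra.smul_def, map_natCast] at h

/-- `a^k - b^k` is as small as `a - b` (times `ρ^(k-1)`). -/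
theorem pow_sub_pow {a b : 𝓡} {ρ σ : ℝ} (ha : G.Bd a ρ) (hb : G.Bd b ρ) (hab : G.Bd (a - b) σ)
    (k : ℕ) : G.Bd (a ^ (k + 1) - b ^ (k + 1)) (σ * ρ ^ k) := by
  have hρ := G.nonneg ha
  have hσ := G.nonneg hab
  induction k with
  | zero => simpa using hab
  | succ k ih =>
    have h1 : a ^ (k + 1 + 1) - b ^ (k + 1 + 1) =
        a * (a ^ (k + 1) - b ^ (k + 1)) + (a - b) * b ^ (k + 1) := by ring
    rw [h1]
    refine G.add ?_ ?_
    · have h2 := G.mul ha ih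
      have h3 : ρ * (σ * ρ ^ k) = σ * ρ ^ (k + 1) := by ring
      rwa [h3] at h2
    · exact G.mul hab (G.pow hb (k + 1))

/-- **the fixed point lemma** for contractions of a closed ball. -/
theorem exists_unique_fixed (Φ : 𝓡 → 𝓡) (ρ κ : ℝ) (hρ : 0 ≤ ρ) (hκ0 : 0 ≤ κ) (hκ1 : κ < 1)
    (hball : ∀ a, G.Bd a ρ → G.Bd (Φ a) ρ)
    (hcontr : ∀ a a' σ, G.Bd a ρ → G.Bd a' ρ → G.Bd (a - a') σ → G.Bd (Φ a - Φ a') (κ * σ)) :
    ∃! a, G.Bd a ρ ∧ Φ a = a := by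
  -- the iteration
  let s : ℕ → 𝓡 := fun n => Φ^[n] 0
  have hs_succ : ∀ n, s (n + 1) = Φ (s n) := fun n => Function.iterate_succ_apply' Φ n 0
  have hs_ball : ∀ n, G.Bd (s n) ρ := by
    intro n
    induction n with
    | zero => exact G.zero' hρ
    | succ n ih => rw [hs_succ]; exact hball _ ih
  have hs_diff : ∀ n, G.Bd (s (n + 1) - s n) (ρ * κ ^ n) := by
    intro n
    induction n with
    | zero =>
      simpa using G.sub (hs_ball 1) (hs_ball 0)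
    | succ n ih =>
      have h := hcontr _ _ _ (hs_ball (n + 1)) (hs_ball n) ih
      have h3 : κ * (ρ * κ ^ n) = ρ * κ ^ (n + 1) := by ring
      rw [← hs_succ (n + 1), ← hs_succ n, h3] at h
      exact h
  obtain ⟨a, ha⟩ := G.complete s ρ κ hρ hκ0 hκ1 hs_diff
  have ha_ball : G.Bd a ρ := by
    have h0 := ha 0
    have h1 : a = (a - s 0) + s 0 := by ring
    rw [h1]
    refine G.add ?_ (hs_ball 0)
    simpa using h0
  have hpow : ∀ ε : ℝ, 0 < ε → ∃ n : ℕ, ρ * κ ^ n ≤ ε := by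
    intro ε hε
    rcases eq_or_lt_of_le hρ with h0 | h0
    · exact ⟨0, by rw [← h0]; simpa using hε.le⟩
    · obtain ⟨n, hn⟩ := exists_pow_lt_of_lt_one (div_pos hε h0) hκ1
      refine ⟨n, ?_⟩
      have := mul_le_mul_of_nonneg_left hn.le hρ
      rwa [mul_div_cancel₀ _ h0.ne'] at this
  have hfix : Φ a = a := by
    rw [← sub_eq_zero]
    apply G.sep
    intro ε hε
    obtain ⟨n, hn⟩ := hpow ε hε
    have h1 : G.Bd (Φ a - s (n + 1)) (ρ * κ ^ n) := by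
      rw [hs_succ]
      have h := hcontr _ _ _ ha_ball (hs_ball n) (ha n)
      refine G.mono h ?_
      have : κ * (ρ * κ ^ n) ≤ 1 * (ρ * κ ^ n) :=
        mul_le_mul_of_nonneg_right hκ1.le (mul_nonneg hρ (pow_nonneg hκ0 n))
      simpa using this
    have h2 : G.Bd (a - s (n + 1)) (ρ * κ ^ n) := by
      refine G.mono (ha (n + 1)) ?_
      refine mul_le_mul_of_nonneg_left ?_ hρ
      exact pow_le_pow_of_le_one hκ0 hκ1.le (Nat.le_succ n)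
    have h3 : Φ a - a = (Φ a - s (n + 1)) - (a - s (n + 1)) := by ring
    rw [h3]
    exact G.mono (G.sub h1 h2) hn
  refine ⟨a, ⟨ha_ball, hfix⟩, ?_⟩
  rintro a' ⟨ha', hfix'⟩
  rw [← sub_eq_zero]
  apply G.sep
  intro ε hε
  obtain ⟨n, hn⟩ := hpow ε hε
  have h : ∀ n : ℕ, G.Bd (a' - a) (ρ * κ ^ n) := by
    intro n
    induction n with
    | zero => simpa using G.sub ha' ha_ball
    | succ n ih =>
      have h1 := hcontr _ _ _ ha' ha_ball ih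
      rw [hfix', hfix] at h1
      have h3 : κ * (ρ * κ ^ n) = ρ * κ ^ (n + 1) := by ring
      rwa [h3] at h1
  exact G.mono (h n) hn

/-- **inverses**: `1 + δ` is invertible for `δ` in a ball of radius `< 1`. -/
theorem exists_unique_inv {δ : 𝓡} {ρ : ℝ} (hδ : G.Bd δ ρ) (hρ1 : ρ < 1) :
    ∃! δ', G.Bd δ' ρ ∧ (1 + δ) * (1 + δ') = 1 := by
  have hρ := G.nonneg hδ
  have key := G.exists_unique_fixed (fun δ' => -δ - δ * δ') ρ ρ hρ hρ hρ1 ?_ ?_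
  · obtain ⟨δ', ⟨h1, h2⟩, h3⟩ := key
    refine ⟨δ', ⟨h1, ?_⟩, ?_⟩
    · have : (1 + δ) * (1 + δ') = 1 + (δ' - (-δ - δ * δ')) := by ring
      rw [this, h2, sub_self, add_zero]
    · rintro δ'' ⟨h4, h5⟩
      apply h3
      refine ⟨h4, ?_⟩
      have : -δ - δ * δ'' = δ'' - ((1 + δ) * (1 + δ'') - 1) := by ring
      rw [this, h5, sub_self, sub_zero]
  · intro a ha
    refine G.sub (G.neg hδ) ?_
    refine G.mono (G.mul hδ ha) ?_
    calc ρ * ρ ≤ 1 * ρ := mul_le_mul_of_nonneg_right hρ1.le hρ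
      _ = ρ := one_mul ρ
  · intro a a' σ _ _ haa'
    have : (-δ - δ * a) - (-δ - δ * a') = -(δ * (a - a')) := by ring
    rw [this]
    exact G.neg (G.mul hδ haa')

section Root

/-- the non-linear part of `(1 + δ)^p - 1`. -/
def rootF (p : ℕ) (δ : 𝓡) : 𝓡 := ∑ k ∈ Finset.Ico 2 (p + 1), δ ^ k * (p.choose k : 𝓡)

omit [Algebra K 𝓡] in
theorem one_add_pow_eq (p : ℕ) (hp : 1 ≤ p) (δ : 𝓡) :
    (1 + δ) ^ p = 1 + (p : 𝓡) * δ + rootF p δ := by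
  rw [add_comm 1 δ, add_pow, Finset.range_eq_Ico,
    Finset.sum_eq_sum_Ico_succ_bot (by omega : 0 < p + 1),
    Finset.sum_eq_sum_Ico_succ_bot (by omega : 0 + 1 < p + 1), rootF]
  simp only [one_pow, mul_one, pow_zero, Nat.choose_zero_right, Nat.cast_one, zero_add, pow_one,
    Nat.choose_one_right]
  ring

omit [Algebra K 𝓡] in
theorem rootF_zero (p : ℕ) : rootF p (0 : 𝓡) = 0 := by
  rw [rootF]
  refine Finset.sum_eq_zero fun k hk => ?_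
  rw [Finset.mem_Ico] at hk
  rw [zero_pow (by omega), zero_mul]

variable {p : ℕ} (hp2 : 2 ≤ p) (hπ0 : 0 < ‖(p : K)‖) (hπ1 : ‖(p : K)‖ ≤ 1)
  (hbin : ∀ k, 0 < k → k < p → ‖(p.choose k : K)‖ ≤ ‖(p : K)‖)
  {ρ : ℝ} (hρ0 : 0 ≤ ρ) (hρ : ρ ^ (p - 1) < ‖(p : K)‖)

include hπ1 hρ in
theorem rho_lt_one : ρ < 1 := by
  by_contra h
  rw [not_lt] at h
  have h1 : 1 ≤ ρ ^ (p - 1) := one_le_pow₀ h
  linarith

/-- the contraction constant. -/
def rootκ (K : Type*) [NormedField K] (p : ℕ) (ρ : ℝ) : ℝ := max ρ (ρ ^ (p - 1) / ‖(p : K)‖)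

include hρ0 in
theorem rootκ_nonneg : 0 ≤ rootκ K p ρ := le_max_of_le_left hρ0

include hπ0 hπ1 hρ in
theorem rootκ_lt_one : rootκ K p ρ < 1 := by
  rw [rootκ, max_lt_iff]
  exact ⟨rho_lt_one hπ1 hρ, (div_lt_one hπ0).2 hρ⟩

include hp2 hπ0 hπ1 hbin hρ0 hρ in
/-- the non-linear part is a contraction with constant `‖p‖ · κ`. -/
theorem rootF_sub {δ δ' : 𝓡} {σ : ℝ} (hδ : G.Bd δ ρ) (hδ' : G.Bd δ' ρ) (hσ : G.Bd (δ - δ') σ) :
    G.Bd (rootF p δ - rootF p δ') (‖(p : K)‖ * rootκ K p ρ * σ) := by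
  have hσ0 := G.nonneg hσ
  have hρ1 := rho_lt_one hπ1 hρ
  have hκ0 : 0 ≤ rootκ K p ρ := rootκ_nonneg hρ0
  rw [rootF, rootF, ← Finset.sum_sub_distrib]
  refine G.sum _ _ (mul_nonneg (mul_nonneg hπ0.le hκ0) hσ0) fun k hk => ?_
  rw [Finset.mem_Ico] at hk
  obtain ⟨j, rfl⟩ : ∃ j, k = j + 1 := ⟨k - 1, by omega⟩
  have h1 : δ ^ (j + 1) * (p.choose (j + 1) : 𝓡) - δ' ^ (j + 1) * (p.choose (j + 1) : 𝓡) =
      (p.choose (j + 1) : 𝓡) * (δ ^ (j + 1) - δ' ^ (j + 1)) := by ring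
  rw [h1]
  have h2 := G.natCast_mul (p.choose (j + 1)) (G.pow_sub_pow hδ hδ' hσ j)
  refine G.mono h2 ?_
  have hj1 : 1 ≤ j := by omega
  rcases Nat.lt_or_ge (j + 1) p with hlt | hge
  · -- binomial coefficient divisible by `p`
    have h3 : ρ ^ j ≤ ρ := by
      calc ρ ^ j ≤ ρ ^ 1 := pow_le_pow_of_le_one hρ0 hρ1.le hj1
        _ = ρ := pow_one ρ
    have h4 : ρ ≤ rootκ K p ρ := le_max_left _ _
    calc ‖(p.choose (j + 1) : K)‖ * (σ * ρ ^ j)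
        ≤ ‖(p : K)‖ * (σ * rootκ K p ρ) :=
          mul_le_mul (hbin _ (by omega) hlt) (mul_le_mul_of_nonneg_left (h3.trans h4) hσ0)
            (mul_nonneg hσ0 (pow_nonneg hρ0 j)) hπ0.le
      _ = ‖(p : K)‖ * rootκ K p ρ * σ := by ring
  · have hjp : j + 1 = p := by omega
    have hj : j = p - 1 := by omega
    rw [hjp, Nat.choose_self, Nat.cast_one, norm_one, one_mul, hj]
    have h4 : ρ ^ (p - 1) / ‖(p : K)‖ ≤ rootκ K p ρ := le_max_right _ _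
    calc σ * ρ ^ (p - 1) = ‖(p : K)‖ * (ρ ^ (p - 1) / ‖(p : K)‖) * σ := by
          field_simp
      _ ≤ ‖(p : K)‖ * rootκ K p ρ * σ :=
          mul_le_mul_of_nonneg_right (mul_le_mul_of_nonneg_left h4 hπ0.le) hσ0

include hp2 hπ0 hπ1 hbin hρ0 hρ in
theorem rootF_bd {δ : 𝓡} (hδ : G.Bd δ ρ) :
    G.Bd (rootF p δ) (‖(p : K)‖ * rootκ K p ρ * ρ) := by
  have h := G.rootF_sub hp2 hπ0 hπ1 hbin hρ0 hρ hδ (G.zero' hρ0) (by simpa using hδ)
  rwa [rootF_zero, sub_zero] at h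

include hp2 hπ0 hπ1 hbin hρ0 hρ in
/-- **(Root)**: the `p`-th power map `1 + Ball(ρ) → 1 + Ball(ρ‖p‖)` is bijective. -/
theorem exists_unique_root {b : 𝓡} (hb : G.Bd b (ρ * ‖(p : K)‖)) :
    ∃! δ, G.Bd δ ρ ∧ (1 + δ) ^ p = 1 + b := by
  have hκ0 : 0 ≤ rootκ K p ρ := rootκ_nonneg hρ0
  have hκ1 : rootκ K p ρ < 1 := rootκ_lt_one hπ0 hπ1 hρ
  have hpK : (p : K) ≠ 0 := norm_pos_iff.1 hπ0
  have hinv : ‖((p : K))⁻¹‖ = ‖(p : K)‖⁻¹ := norm_inv _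
  have key := G.exists_unique_fixed (fun δ => ((p : K))⁻¹ • (b - rootF p δ)) ρ (rootκ K p ρ)
    hρ0 hκ0 hκ1 ?_ ?_
  · have hiff : ∀ δ : 𝓡, ((p : K))⁻¹ • (b - rootF p δ) = δ ↔ (1 + δ) ^ p = 1 + b := by
      intro δ
      rw [one_add_pow_eq p (by omega) δ]
      constructor
      · intro h
        have h1 : (p : K) • (((p : K))⁻¹ • (b - rootF p δ)) = (p : K) • δ := by rw [h]
        rw [smul_smul, mul_inv_cancel₀ hpK, one_smul, Algebra.smul_def, map_natCast] at h1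
        rw [add_assoc, ← h1]
        ring
      · intro h
        have h1 : b - rootF p δ = (p : K) • δ := by
          rw [Algebra.smul_def, map_natCast]
          have h2 : (p : 𝓡) * δ + rootF p δ = b := by
            rw [add_assoc] at h
            exact add_left_cancel h
          rw [← h2]
          ring
        rw [h1, smul_smul, inv_mul_cancel₀ hpK, one_smul]
    obtain ⟨δ, ⟨h1, h2⟩, h3⟩ := key
    exact ⟨δ, ⟨h1, (hiff δ).1 h2⟩, fun δ' ⟨h4, h5⟩ => h3 δ' ⟨h4, (hiff δ').2 h5⟩⟩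
  · intro δ hδ
    have h1 : G.Bd (b - rootF p δ) (ρ * ‖(p : K)‖) := by
      refine G.sub hb (G.mono (G.rootF_bd hp2 hπ0 hπ1 hbin hρ0 hρ hδ) ?_)
      calc ‖(p : K)‖ * rootκ K p ρ * ρ ≤ ‖(p : K)‖ * 1 * ρ :=
            mul_le_mul_of_nonneg_right (mul_le_mul_of_nonneg_left hκ1.le hπ0.le) hρ0
        _ = ρ * ‖(p : K)‖ := by ring
    have h2 := G.smul ((p : K))⁻¹ h1
    rw [hinv] at h2
    refine G.mono h2 (le_of_eq ?_)
    field_simp
  · intro δ δ' σ hδ hδ' hσ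
    have h1 := G.neg (G.rootF_sub hp2 hπ0 hπ1 hbin hρ0 hρ hδ hδ' hσ)
    have h2 := G.smul ((p : K))⁻¹ h1
    rw [hinv] at h2
    have h3 : ((p : K))⁻¹ • (b - rootF p δ) - ((p : K))⁻¹ • (b - rootF p δ') =
        ((p : K))⁻¹ • (-(rootF p δ - rootF p δ')) := by
      rw [← smul_sub]
      congr 1
      ring
    rw [h3]
    refine G.mono h2 (le_of_eq ?_)
    field_simp

include hp2 hπ0 hπ1 hbin hρ0 hρ in
/-- the `p`-th power map is injective on `1 + Ball(ρ)`. -/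
theorem pow_injective {δ δ' : 𝓡} (hδ : G.Bd δ ρ) (hδ' : G.Bd δ' ρ)
    (h : (1 + δ) ^ p = (1 + δ') ^ p) : δ = δ' := by
  have hκ1 : rootκ K p ρ < 1 := rootκ_lt_one hπ0 hπ1 hρ
  have hb : G.Bd ((1 + δ') ^ p - 1) (ρ * ‖(p : K)‖) := by
    rw [one_add_pow_eq p (by omega) δ']
    have h1 : 1 + (p : 𝓡) * δ' + rootF p δ' - 1 = (p : 𝓡) * δ' + rootF p δ' := by ring
    rw [h1]
    refine G.add ?_ (G.mono (G.rootF_bd hp2 hπ0 hπ1 hbin hρ0 hρ hδ') ?_)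
    · have := G.natCast_mul p hδ'
      rwa [mul_comm ‖(p : K)‖ ρ] at this
    · calc ‖(p : K)‖ * rootκ K p ρ * ρ ≤ ‖(p : K)‖ * 1 * ρ :=
            mul_le_mul_of_nonneg_right (mul_le_mul_of_nonneg_left hκ1.le hπ0.le) hρ0
        _ = ρ * ‖(p : K)‖ := by ring
  obtain ⟨δ₀, _, h3⟩ := G.exists_unique_root hp2 hπ0 hπ1 hbin hρ0 hρ hb
  have e1 : δ = δ₀ := h3 δ ⟨hδ, by rw [h]; ring⟩
  have e2 : δ' = δ₀ := h3 δ' ⟨hδ', by ring⟩
  rw [e1, e2]

end Root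

end s56l_Gauge

end Fermat.Agent.Lib.S56
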