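import Fermat.Agent.Lib.S56.LFlat
import Fermat.Agent.Lib.S56.IfaceF3

/-!
# Programme W (S56), wall W8 (helper2): the glue F2 → F3

* `s56l_Good p hp P hP L` : `L/ℚ` finite Galois with `(P_m)` at `P` for all rational `m > p/(p-1)`
  (the `Good` of helper3's `s56f_IfaceMain` / helper6's Kummer export); stable under composita.
* `s56l_locRes_mem_H1G` : the local class of a flat first-order deformation lies in helper3's
  `s56f_H1G ρbar r Good`.
-/

set_option autoImplicit false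

noncomputable section

namespace Fermat.Agent.Lib.S56

open Fermat.Agent.Lib.Frey Fermat.Agent.Lib.PT GaloisRep groupCohomology ExtCitation CategoryTheory

local notation "Q̄" => AlgebraicClosure ℚ
local notation "GQ" => (AlgebraicClosure ℚ ≃ₐ[ℚ] AlgebraicClosure ℚ)

/-- the good fields: finite Galois over `ℚ` with Fontaine's `(P_m)` for every rational `m > p/(p-1)`. -/
abbrev s56l_Good (p : ℕ) (hp : p.Prime) (P : ValuationSubring Q̄) (hP : (p : Q̄) ∈ P.nonunits)
    (L : IntermediateField ℚ Q̄) : Prop :=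
  FiniteDimensional ℚ ↥L ∧ Normal ℚ ↥L ∧
    ∀ m : ℚ, (p : ℚ) / ((p : ℚ) - 1) < m → s56r_Pm p hp P hP L m

theorem s56l_Good_sup {p : ℕ} {hp : p.Prime} {P : ValuationSubring Q̄} {hP : (p : Q̄) ∈ P.nonunits}
    (L L' : IntermediateField ℚ Q̄) (h : s56l_Good p hp P hP L) (h' : s56l_Good p hp P hP L') :
    s56l_Good p hp P hP (L ⊔ L') := by
  obtain ⟨h1, h2, h3⟩ := h
  obtain ⟨h1', h2', h3'⟩ := h'
  refine ⟨IntermediateField.finiteDimensional_sup L L', ?_, fun m hm =>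
    s56r_Pm_sup (h3 m hm) (h3' m hm)⟩
  exact @IntermediateField.normal_sup ℚ Q̄ _ _ _ L L' h2 h2'

section Mem

variable (p : ℕ) [Fact p.Prime] {k : Type} [Field k] [Finite k] (ρbar : ResidualGaloisRep k)

/-- **flat ⇒ `H¹_Good`.** -/
theorem s56l_locRes_mem_H1G (hp0 : (p : k) = 0) (c : cocycles₁ (s56a_ad0 ρbar))
    (hc : s56a_IsLevel c.1) (hflat : (s56a_liftRep ρbar c hc).IsFlatAt p)
    (hp : p.Prime) (hP : (p : Q̄) ∈ (padicPlace p).nonunits)
    {G : Type} [Group G] (r : G →* GQ) :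
    (groupCohomology.map r (𝟙 (Rep.res r (s56a_ad0 ρbar))) 1).hom ((H1π (s56a_ad0 ρbar)).hom c) ∈
      s56f_H1G ρbar r (s56l_Good p hp (padicPlace p) hP) := by
  obtain ⟨L, h1, h2, h3, h4⟩ := s56l_flat_good p ρbar hp0 c hc hflat
  apply Submodule.subset_span
  refine ⟨L, ⟨h1, h2, h3⟩, fun σ hσ => (h4 σ hσ).1,
    (mapCocycles₁ r (𝟙 (Rep.res r (s56a_ad0 ρbar)))).hom c, fun g hg => ?_,
    (H1π_comp_map_apply r (𝟙 (Rep.res r (s56a_ad0 ρbar))) c).symm⟩
  exact (h4 (r g) hg).2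

end Mem

end Fermat.Agent.Lib.S56
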