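import Fermat.Agent.Lib.S56.LConv

/-!
# Programme W (S56), wall W8-F2 (helper2): the lifting lemma (LL) and separation

`H` a commutative cocommutative Hopf algebra over `A`, `K` a complete ultrametric normed field over `A`
(`‖a‖ ≤ 1`), `p` a prime with `0 < ‖p‖`.  If `γ : H →ₗ[A] K` is an approximate point
(`γ 1 = 1`, `‖γ h‖ ≤ 1`, multiplicative up to `r`, `γ^{∗p} ≡ 1`, `γ ∗ (γ ∘ S) ≡ 1` up to `r`) and
`(r/‖p‖)^(p-1) < ‖p‖`, then there is an honest point `x : H →ₐ[A] K` with `‖x h - γ h‖ ≤ r/‖p‖`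
(lead's formula `x := γ ∗ ((γ^{∗p})^{1/p})⁻¹`).
-/

set_option autoImplicit false

noncomputable section

namespace Fermat.Agent.Lib.S56

open Coalgebra TensorProduct WithConv

/-- the hypotheses on the prime `p` in the normed field `K`. -/
structure s56l_PHyp (K : Type*) [NormedField K] (p : ℕ) : Prop where
  two_le : 2 ≤ p
  pos : 0 < ‖(p : K)‖
  le_one : ‖(p : K)‖ ≤ 1
  bin : ∀ k, 0 < k → k < p → ‖(p.choose k : K)‖ ≤ ‖(p : K)‖

theorem s56l_pHyp_of_prime {K : Type*} [NormedField K] [IsUltrametricDist K] {p : ℕ}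
    (hp : p.Prime) (h0 : (p : K) ≠ 0) : s56l_PHyp K p where
  two_le := hp.two_le
  pos := norm_pos_iff.2 h0
  le_one := IsUltrametricDist.norm_natCast_le_one K p
  bin k hk0 hkp := by
    obtain ⟨m, hm⟩ := hp.dvd_choose_self hk0.ne' hkp
    rw [hm, Nat.cast_mul, norm_mul]
    calc ‖(p : K)‖ * ‖(m : K)‖ ≤ ‖(p : K)‖ * 1 :=
          mul_le_mul_of_nonneg_left (IsUltrametricDist.norm_natCast_le_one K m) (norm_nonneg _)
      _ = ‖(p : K)‖ := mul_one _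

section Maps

variable (A : Type*) [CommRing A] (H : Type*) [CommRing H] [HopfAlgebra A H]

/-- `h ⊗ h' ↦ ε(h') h`. -/
def s56l_pr₁ : H ⊗[A] H →ₗc[A] H :=
  (Coalgebra.TensorProduct.rid A A H).toCoalgHom.comp
    (Coalgebra.TensorProduct.map (CoalgHom.id A H) (counitCoalgHom A H))

/-- `h ⊗ h' ↦ ε(h) h'`. -/
def s56l_pr₂ : H ⊗[A] H →ₗc[A] H :=
  (Coalgebra.TensorProduct.lid A H).toCoalgHom.comp
    (Coalgebra.TensorProduct.map (counitCoalgHom A H) (CoalgHom.id A H))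

@[simp] theorem s56l_pr₁_tmul (h h' : H) : s56l_pr₁ A H (h ⊗ₜ h') = counit (R := A) h' • h := rfl

@[simp] theorem s56l_pr₂_tmul (h h' : H) : s56l_pr₂ A H (h ⊗ₜ h') = counit (R := A) h • h' := rfl

variable {A H} {K : Type*} [CommRing K] [Algebra A K]

/-- `(P₁ γ ∗ P₂ γ') (h ⊗ h') = γ h · γ' h'`. -/
theorem s56l_pull_pr_mul (γ γ' : WithConv (H →ₗ[A] K)) (h h' : H) :
    (s56l_pull (s56l_pr₁ A H) γ * s56l_pull (s56l_pr₂ A H) γ') (h ⊗ₜ[A] h') = γ h * γ' h' := by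
  rw [((ℛ A h).tmul (ℛ A h')).convMul_apply]
  simp only [Coalgebra.Repr.tmul_left, Coalgebra.Repr.tmul_right, Coalgebra.Repr.tmul_index,
    s56l_pull_apply, s56l_pr₁_tmul, s56l_pr₂_tmul]
  have e1 : ∑ i ∈ (ℛ A h).index, counit (R := A) ((ℛ A h).right i) • (ℛ A h).left i = h := by
    simpa only [map_sum, TensorProduct.lift.tmul, LinearMap.lsmul_apply, LinearMap.flip_apply,
      one_smul] using
      congr(TensorProduct.lift (LinearMap.lsmul A H).flip $(sum_tmul_counit_eq (R := A) (ℛ A h)))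
  have e2 := sum_counit_smul (R := A) (ℛ A h')
  conv_rhs => rw [← e1, ← e2]
  rw [map_sum, map_sum, Finset.sum_mul_sum, Finset.sum_product]
  refine Finset.sum_congr rfl fun i _ => Finset.sum_congr rfl fun j _ => ?_
  rw [LinearMap.map_smul, LinearMap.map_smul, LinearMap.map_smul, LinearMap.map_smul,
    Algebra.smul_def, Algebra.smul_def, Algebra.smul_def, Algebra.smul_def]
  ring

/-- evaluation at `1` is multiplicative on the convolution algebra of a bialgebra. -/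
theorem s56l_conv_mul_apply_one (γ γ' : WithConv (H →ₗ[A] K)) : (γ * γ') 1 = γ 1 * γ' 1 := by
  rw [LinearMap.convMul_apply, Bialgebra.comul_one, Algebra.TensorProduct.one_def,
    TensorProduct.map_tmul, LinearMap.mul'_apply]

end Maps

section Lifting

variable {A : Type*} [CommRing A] {H : Type*} [CommRing H] [HopfAlgebra A H] [IsCocomm A H]
  {K : Type*} [NormedField K] [IsUltrametricDist K] [CompleteSpace K] [Algebra A K]

omit [IsCocomm A H] [CompleteSpace K] in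
/-- a bound on pure tensors is a bound everywhere. -/
theorem s56l_bd_of_tmul (ξ : WithConv (H ⊗[A] H →ₗ[A] K)) {ρ : ℝ} (hρ : 0 ≤ ρ)
    (h : ∀ h h' : H, ‖ξ (h ⊗ₜ[A] h')‖ ≤ ρ) : ∀ c, ‖ξ c‖ ≤ ρ := by
  intro c
  induction c using TensorProduct.induction_on with
  | zero =>
    show ‖ξ.ofConv 0‖ ≤ ρ
    rw [map_zero, norm_zero]
    exact hρ
  | tmul x y => exact h x y
  | add x y hx hy =>
    show ‖ξ.ofConv (x + y)‖ ≤ ρ
    rw [map_add]
    exact (IsUltrametricDist.norm_add_le_max _ _).trans (max_le hx hy)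

variable (hA : ∀ a : A, ‖algebraMap A K a‖ ≤ 1) {p : ℕ} (hp : s56l_PHyp K p)

include hA hp in
/-- **(LL) the lifting lemma.** -/
theorem s56l_lifting {r : ℝ} (hr0 : 0 ≤ r) (hr : (r / ‖(p : K)‖) ^ (p - 1) < ‖(p : K)‖)
    (γ : H →ₗ[A] K) (h1 : γ 1 = 1) (hbd : ∀ h, ‖γ h‖ ≤ 1)
    (hmul : ∀ h h', ‖γ (h * h') - γ h * γ h'‖ ≤ r)
    (hpow : ∀ h, ‖((toConv γ : WithConv (H →ₗ[A] K)) ^ p - 1) h‖ ≤ r)
    (hinv : ∀ h, ‖((toConv γ : WithConv (H →ₗ[A] K)) *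
      toConv (γ ∘ₗ HopfAlgebra.antipode A) - 1) h‖ ≤ r) :
    ∃ x : H →ₐ[A] K, ∀ h, ‖x h - γ h‖ ≤ r / ‖(p : K)‖ := by
  have hπ0 := hp.pos
  have hρ0 : 0 ≤ r / ‖(p : K)‖ := div_nonneg hr0 hπ0.le
  have hρπ : r / ‖(p : K)‖ * ‖(p : K)‖ = r := div_mul_cancel₀ r hπ0.ne'
  have hrρ : r ≤ r / ‖(p : K)‖ := by
    conv_lhs => rw [← hρπ]
    exact mul_le_of_le_one_right hρ0 hp.le_one
  have hρ1 : r / ‖(p : K)‖ < 1 := s56l_Gauge.rho_lt_one hp.le_one hr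
  have hr1 : r < 1 := lt_of_le_of_lt hrρ hρ1
  let G₁ := s56l_convGauge (C := H) hA
  let G₂ := s56l_convGauge (C := H ⊗[A] H) hA
  obtain ⟨g, hg_def⟩ : ∃ g : WithConv (H →ₗ[A] K), g = toConv γ := ⟨_, rfl⟩
  obtain ⟨gS, hgS_def⟩ : ∃ gS : WithConv (H →ₗ[A] K),
    gS = toConv (γ ∘ₗ HopfAlgebra.antipode A) := ⟨_, rfl⟩
  rw [← hg_def] at hpow hinv
  rw [← hgS_def] at hinv
  have hg : G₁.Bd g 1 := by rw [hg_def]; exact hbd
  have hgS : G₁.Bd gS 1 := by rw [hgS_def]; exact fun h => hbd _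
  have hg1 : g 1 = 1 := by rw [hg_def]; exact h1
  have hgapp : ∀ h, g h = γ h := by rw [hg_def]; exact fun h => rfl
  -- `g` is a unit
  have hinv' : G₁.Bd (g * gS - 1) r := hinv
  obtain ⟨n', ⟨hn', hnn'⟩, -⟩ := G₁.exists_unique_inv hinv' hr1
  obtain ⟨ginv, hginv_def⟩ : ∃ ginv : WithConv (H →ₗ[A] K), ginv = gS * (1 + n') := ⟨_, rfl⟩
  have hginv : g * ginv = 1 := by
    rw [hginv_def]
    calc g * (gS * (1 + n')) = (1 + (g * gS - 1)) * (1 + n') := by ring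
      _ = 1 := hnn'
  have hginv_bd : G₁.Bd ginv 1 := by
    have h2 : G₁.Bd (1 + n') 1 := G₁.add G₁.one (G₁.mono hn' hr1.le)
    have h3 := G₁.mul hgS h2
    rw [hginv_def]
    simpa using h3
  -- the `p`-th root of `g ^ p`
  have hpow' : G₁.Bd (g ^ p - 1) (r / ‖(p : K)‖ * ‖(p : K)‖) := by rw [hρπ]; exact hpow
  obtain ⟨δ, ⟨hδ, hδp⟩, -⟩ :=
    G₁.exists_unique_root hp.two_le hp.pos hp.le_one hp.bin hρ0 hr hpow'
  have hδp' : (1 + δ) ^ p = g ^ p := by rw [hδp]; ring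
  obtain ⟨δ', ⟨hδ', hδδ'⟩, -⟩ := G₁.exists_unique_inv hδ hρ1
  obtain ⟨x, hx_def⟩ : ∃ x : WithConv (H →ₗ[A] K), x = g * (1 + δ') := ⟨_, rfl⟩
  have hxt : x * (1 + δ) = g := by
    rw [hx_def, mul_assoc, mul_comm (1 + δ') (1 + δ), hδδ', mul_one]
  have hx_close : G₁.Bd (x - g) (r / ‖(p : K)‖) := by
    have h2 : x - g = g * δ' := by rw [hx_def]; ring
    rw [h2]
    simpa using G₁.mul hg hδ'
  -- the three ring homs
  obtain ⟨M, hM_def⟩ : ∃ M : WithConv (H →ₗ[A] K) →+* WithConv (H ⊗[A] H →ₗ[A] K),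
    M = s56l_pull (Bialgebra.mulCoalgHom A H) := ⟨_, rfl⟩
  obtain ⟨P₁, hP₁_def⟩ : ∃ P₁ : WithConv (H →ₗ[A] K) →+* WithConv (H ⊗[A] H →ₗ[A] K),
    P₁ = s56l_pull (s56l_pr₁ A H) := ⟨_, rfl⟩
  obtain ⟨P₂, hP₂_def⟩ : ∃ P₂ : WithConv (H →ₗ[A] K) →+* WithConv (H ⊗[A] H →ₗ[A] K),
    P₂ = s56l_pull (s56l_pr₂ A H) := ⟨_, rfl⟩
  have hM : ∀ {ξ : WithConv (H →ₗ[A] K)} {σ : ℝ}, G₁.Bd ξ σ → G₂.Bd (M ξ) σ := by
    intro ξ σ h c; rw [hM_def]; exact h _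
  have hP₁ : ∀ {ξ : WithConv (H →ₗ[A] K)} {σ : ℝ}, G₁.Bd ξ σ → G₂.Bd (P₁ ξ) σ := by
    intro ξ σ h c; rw [hP₁_def]; exact h _
  have hP₂ : ∀ {ξ : WithConv (H →ₗ[A] K)} {σ : ℝ}, G₁.Bd ξ σ → G₂.Bd (P₂ ξ) σ := by
    intro ξ σ h c; rw [hP₂_def]; exact h _
  have hMapp : ∀ (ξ : WithConv (H →ₗ[A] K)) (h h' : H), M ξ (h ⊗ₜ[A] h') = ξ (h * h') := by
    intro ξ h h'; rw [hM_def]; rfl
  have hPapp : ∀ (ξ ξ' : WithConv (H →ₗ[A] K)) (h h' : H),
      (P₁ ξ * P₂ ξ') (h ⊗ₜ[A] h') = ξ h * ξ' h' := by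
    intro ξ ξ' h h'; rw [hP₁_def, hP₂_def]; exact s56l_pull_pr_mul ξ ξ' h h'
  -- `a = M g` and `b₂ = P₁ g * P₂ g` are close
  have hab : G₂.Bd (M g - P₁ g * P₂ g) r := by
    refine s56l_bd_of_tmul _ hr0 fun h h' => ?_
    show ‖M g (h ⊗ₜ[A] h') - (P₁ g * P₂ g) (h ⊗ₜ[A] h')‖ ≤ r
    rw [hMapp, hPapp, hgapp, hgapp, hgapp]
    exact hmul h h'
  have hb₂ : P₁ g * P₂ g * (P₁ ginv * P₂ ginv) = 1 := by
    have h2 : P₁ g * P₂ g * (P₁ ginv * P₂ ginv) = P₁ (g * ginv) * P₂ (g * ginv) := by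
      rw [map_mul, map_mul]; ring
    rw [h2, hginv, map_one, map_one, one_mul]
  have hb₂inv_bd : G₂.Bd (P₁ ginv * P₂ ginv) 1 := by
    simpa using G₂.mul (hP₁ hginv_bd) (hP₂ hginv_bd)
  obtain ⟨c, hc_def⟩ : ∃ c : WithConv (H ⊗[A] H →ₗ[A] K),
    c = M g * (P₁ ginv * P₂ ginv) := ⟨_, rfl⟩
  have hc : c * (P₁ g * P₂ g) = M g := by
    rw [hc_def, mul_assoc, mul_comm (P₁ ginv * P₂ ginv), hb₂, mul_one]
  have hc1 : G₂.Bd (c - 1) (r / ‖(p : K)‖) := by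
    have h2 : c - 1 = (M g - P₁ g * P₂ g) * (P₁ ginv * P₂ ginv) := by
      rw [hc_def, sub_mul, hb₂]
    rw [h2]
    refine G₂.mono (G₂.mul hab hb₂inv_bd) ?_
    simpa using hrρ
  -- `T = M t`, `T' = P₁ t * P₂ t`
  have hT : (M (1 + δ)) ^ p = (M g) ^ p := by rw [← map_pow, hδp', map_pow]
  have hT' : (P₁ (1 + δ) * P₂ (1 + δ)) ^ p = (P₁ g * P₂ g) ^ p := by
    rw [mul_pow, ← map_pow, ← map_pow, hδp', map_pow, map_pow, mul_pow]
  have hTbd : G₂.Bd (M (1 + δ) - 1) (r / ‖(p : K)‖) := by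
    have h2 : M (1 + δ) - 1 = M δ := by rw [map_add, map_one]; ring
    rw [h2]; exact hM hδ
  have hT'bd : G₂.Bd (P₁ (1 + δ) * P₂ (1 + δ) - 1) (r / ‖(p : K)‖) := by
    have h2 : P₁ (1 + δ) * P₂ (1 + δ) - 1 = P₁ δ + P₂ δ + P₁ δ * P₂ δ := by
      rw [map_add, map_add, map_one, map_one]; ring
    rw [h2]
    refine G₂.add (G₂.add (hP₁ hδ) (hP₂ hδ)) (G₂.mono (G₂.mul (hP₁ hδ) (hP₂ hδ)) ?_)
    calc r / ‖(p : K)‖ * (r / ‖(p : K)‖) ≤ 1 * (r / ‖(p : K)‖) :=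
          mul_le_mul_of_nonneg_right hρ1.le hρ0
      _ = r / ‖(p : K)‖ := one_mul _
  have hT'1 : G₂.Bd (P₁ (1 + δ) * P₂ (1 + δ)) 1 := by
    have h2 : P₁ (1 + δ) * P₂ (1 + δ) = 1 + (P₁ (1 + δ) * P₂ (1 + δ) - 1) := by ring
    rw [h2]
    exact G₂.add G₂.one (G₂.mono hT'bd hρ1.le)
  have hcT'bd : G₂.Bd (c * (P₁ (1 + δ) * P₂ (1 + δ)) - 1) (r / ‖(p : K)‖) := by
    have h2 : c * (P₁ (1 + δ) * P₂ (1 + δ)) - 1 =
        (c - 1) * (P₁ (1 + δ) * P₂ (1 + δ)) + (P₁ (1 + δ) * P₂ (1 + δ) - 1) := by ring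
    rw [h2]
    refine G₂.add ?_ hT'bd
    simpa using G₂.mul hc1 hT'1
  have key : M (1 + δ) = c * (P₁ (1 + δ) * P₂ (1 + δ)) := by
    have h2 := G₂.pow_injective hp.two_le hp.pos hp.le_one hp.bin hρ0 hr hTbd hcT'bd (by
      have e1 : (1 : WithConv (H ⊗[A] H →ₗ[A] K)) + (M (1 + δ) - 1) = M (1 + δ) := by ring
      have e2 : (1 : WithConv (H ⊗[A] H →ₗ[A] K)) +
          (c * (P₁ (1 + δ) * P₂ (1 + δ)) - 1) = c * (P₁ (1 + δ) * P₂ (1 + δ)) := by ring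
      rw [e1, e2, hT, mul_pow, hT', ← mul_pow, hc])
    have h3 : M (1 + δ) = 1 + (M (1 + δ) - 1) := by ring
    rw [h3, h2]; ring
  -- conclusion: `M x = P₁ x * P₂ x`
  have hMx : M x * M (1 + δ) = M g := by rw [← map_mul, hxt]
  have hx₂ : P₁ x * P₂ x * (P₁ (1 + δ) * P₂ (1 + δ)) = P₁ g * P₂ g := by
    have h2 : P₁ x * P₂ x * (P₁ (1 + δ) * P₂ (1 + δ)) =
        P₁ (x * (1 + δ)) * P₂ (x * (1 + δ)) := by rw [map_mul, map_mul]; ring
    rw [h2, hxt]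
  have hTunit : M (1 + δ) * M (1 + δ') = 1 := by rw [← map_mul, hδδ', map_one]
  have hfinal : M x = P₁ x * P₂ x := by
    have h0 : (M x - P₁ x * P₂ x) * M (1 + δ) = 0 := by
      rw [sub_mul, hMx, key]
      calc M g - P₁ x * P₂ x * (c * (P₁ (1 + δ) * P₂ (1 + δ)))
          = M g - c * (P₁ x * P₂ x * (P₁ (1 + δ) * P₂ (1 + δ))) := by ring
        _ = 0 := by rw [hx₂, hc, sub_self]
    have h2 : M x - P₁ x * P₂ x = (M x - P₁ x * P₂ x) * M (1 + δ) * M (1 + δ') := by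
      rw [mul_assoc, hTunit, mul_one]
    rw [h0, zero_mul] at h2
    exact sub_eq_zero.1 h2
  have hxmul : ∀ h h' : H, x (h * h') = x h * x h' := by
    intro h h'
    rw [← hMapp, hfinal, hPapp]
  have hx1 : x 1 = 1 := by
    have h2 : x 1 * x 1 = x 1 := by rw [← hxmul, mul_one]
    have h3 : ‖x 1 - 1‖ ≤ r / ‖(p : K)‖ := by
      have := hx_close 1
      rwa [show (x - g) 1 = x 1 - g 1 from rfl, hg1] at this
    have h5 : x 1 * (x 1 - 1) = 0 := by rw [mul_sub, h2, mul_one, sub_self]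
    rcases mul_eq_zero.1 h5 with h4 | h4
    · exfalso
      rw [h4, zero_sub, norm_neg, norm_one] at h3
      linarith
    · exact sub_eq_zero.1 h4
  refine ⟨AlgHom.ofLinearMap x.ofConv hx1 hxmul, fun h => ?_⟩
  have := hx_close h
  rwa [show (x - g) h = x h - g h from rfl, hgapp] at this

omit [IsCocomm A H] [IsUltrametricDist K] [CompleteSpace K] in
/-- an honest point is invertible in the convolution algebra, with inverse `x ∘ S`. -/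
theorem s56l_point_mul_antipode (x : H →ₐ[A] K) :
    (toConv x.toLinearMap : WithConv (H →ₗ[A] K)) *
      toConv (x.toLinearMap ∘ₗ HopfAlgebra.antipode A) = 1 := by
  have h := LinearMap.algHom_comp_convMul_distrib x (toConv (LinearMap.id : H →ₗ[A] H))
    (toConv (HopfAlgebra.antipode A (A := H)))
  rw [LinearMap.id_mul_antipode] at h
  apply WithConv.ext
  refine Eq.trans ?_ (h.symm.trans ?_)
  · rfl
  · apply LinearMap.ext
    intro c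
    show x (algebraMap A H (counit c)) = algebraMap A K (counit c)
    rw [AlgHom.commutes]

include hA hp in
/-- **separation**: two honest points of `p`-power-trivial type which are congruent modulo a ball of
radius `ρ`, `ρ ^ (p - 1) < ‖p‖`, are equal. -/
theorem s56l_separation {ρ : ℝ} (hρ0 : 0 ≤ ρ) (hρ : ρ ^ (p - 1) < ‖(p : K)‖)
    (x x' : H →ₐ[A] K) (hx' : ∀ h, ‖x' h‖ ≤ 1)
    (hxp : (toConv x.toLinearMap : WithConv (H →ₗ[A] K)) ^ p = 1)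
    (hx'p : (toConv x'.toLinearMap : WithConv (H →ₗ[A] K)) ^ p = 1)
    (hclose : ∀ h, ‖x h - x' h‖ ≤ ρ) : x = x' := by
  let G₁ := s56l_convGauge (C := H) hA
  obtain ⟨X, hX⟩ : ∃ X : WithConv (H →ₗ[A] K), X = toConv x.toLinearMap := ⟨_, rfl⟩
  obtain ⟨X', hX'⟩ : ∃ X' : WithConv (H →ₗ[A] K), X' = toConv x'.toLinearMap := ⟨_, rfl⟩
  obtain ⟨S', hS'⟩ : ∃ S' : WithConv (H →ₗ[A] K),
    S' = toConv (x'.toLinearMap ∘ₗ HopfAlgebra.antipode A) := ⟨_, rfl⟩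
  rw [← hX] at hxp
  rw [← hX'] at hx'p
  have hXS : X' * S' = 1 := by rw [hX', hS']; exact s56l_point_mul_antipode x'
  have hSp : S' ^ p = 1 := by
    have h2 : X' ^ p * S' ^ p = 1 := by rw [← mul_pow, hXS, one_pow]
    rwa [hx'p, one_mul] at h2
  have hS'bd : G₁.Bd S' 1 := by rw [hS']; exact fun h => hx' _
  have hd : G₁.Bd (X - X') ρ := by rw [hX, hX']; exact hclose
  have hy : G₁.Bd (X * S' - 1) ρ := by
    have h2 : X * S' - 1 = (X - X') * S' := by rw [sub_mul, hXS]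
    rw [h2]
    simpa using G₁.mul hd hS'bd
  have h0 := G₁.pow_injective hp.two_le hp.pos hp.le_one hp.bin hρ0 hρ hy (G₁.zero' hρ0) (by
    have e1 : (1 : WithConv (H →ₗ[A] K)) + (X * S' - 1) = X * S' := by ring
    rw [e1, add_zero, one_pow, mul_pow, hxp, hSp, one_mul])
  have h3 : X = X' := by
    have h4 : X * S' = 1 := sub_eq_zero.1 h0
    calc X = X * (X' * S') := by rw [hXS, mul_one]
      _ = X * S' * X' := by ring
      _ = X' := by rw [h4, one_mul]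
  rw [hX, hX'] at h3
  exact AlgHom.toLinearMap_injective (WithConv.toConv_injective h3)

end Lifting

end Fermat.Agent.Lib.S56
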