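import Fermat.Agent.Lib.S56.IfaceF3c
import Fermat.Agent.Lib.S56.LMainGlue
import Fermat.Agent.Lib.S56.LGlueF3
import Fermat.Agent.Lib.S56.FApp
import Fermat.Agent.Lib.S56.AOrdBound

/-!
# Programme W (S56), wall W8 (helper2): (T2)-flat for ALL odd `p` from the count with Borel side condition

`s56l_lpBound_flat_B` : `s56l_IfaceElemB p` (the cocycle-level count restricted to the good cocycles with
the Borel side condition, `IfaceF3c.lean`) + `s56g_unr_core` + `s56r_kb` + `hdet`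
⊢ `s56z_LpBound p ρbar (fun ρ => ρ.DetIsCyclotomic p ∧ ρ.IsFlatAt p)`, for every odd `p`.
The side conditions are supplied by helper5's `s56o_flat_borel` and `s56o_flat_wild_trivial`.
-/

set_option autoImplicit false
set_option linter.style.haveILetI false

noncomputable section

namespace Fermat.Agent.Lib.S56

open Fermat.Agent.Lib.Frey Fermat.Agent.Lib.PT GaloisRep groupCohomology ExtCitation CategoryTheory
  Module Polynomial

local notation "Q̄" => AlgebraicClosure ℚ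
local notation "GQ" => (AlgebraicClosure ℚ ≃ₐ[ℚ] AlgebraicClosure ℚ)

/-- **(T2) for the flat condition, every odd `p`**, from the count with the Borel side condition. -/
theorem s56l_lpBound_flat_B (p : ℕ) [Fact p.Prime] {k : Type} [Field k] [Algebra (ZMod p) k]
    (ρbar : ResidualGaloisRep k) [Module.Finite (ZMod p) k] (hp2 : p ≠ 2)
    (hElemB : s56l_IfaceElemB p)
    (hUnr : ∀ (k : Type) [Field k] (q : Nat.Primes) (M : Rep.{0} k GQ) [FiniteDimensional k M],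
      s56g_IsSmooth M → Module.Finite k ↥(s56g_H1ur q M) ∧
        finrank k ↥(s56g_H1ur q M) ≤ finrank k ↥(Rep.res (primeLocalToGlobal q) M).ρ.invariants)
    (hKB : ∀ (p : ℕ) (hp : p.Prime) (P : ValuationSubring Q̄) (hP : (p : Q̄) ∈ P.nonunits),
      s56f_KB p P (fun L => FiniteDimensional ℚ ↥L ∧ Normal ℚ ↥L ∧
        ∀ m : ℚ, (p : ℚ) / ((p : ℚ) - 1) < m → s56r_Pm p hp P hP L m))
    (hsplit : ∀ σ : GQ, ∃ α β : k, LinearMap.charpoly (ρbar.ρ σ) = (X - C α) * (X - C β))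
    (hdet : (GaloisRepAdic.ofResidualGaloisRep ρbar).DetIsCyclotomic p) :
    s56z_LpBound p ρbar (fun ρ => ρ.DetIsCyclotomic p ∧ ρ.IsFlatAt p) := by
  have hpp : p.Prime := Fact.out
  have hp0 : (p : k) = 0 := s56a_natCast_eq_zero_of_algebra p k
  haveI : Finite k := Module.finite_of_finite (ZMod p)
  haveI : CharP k p := (CharP.charP_iff_prime_eq_zero hpp).2 hp0
  have hP : (primeLocalPlace (pPrime p)).LiesOverPrime p := ptg_padicPlace_liesOver p
  by_cases hNW : s56l_NoWild (primeLocalPlace (pPrime p)) ρbar.ρ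
  swap
  · -- no flat deformation at all
    have hempty : s56z_Lp p ρbar (fun ρ => ρ.DetIsCyclotomic p ∧ ρ.IsFlatAt p) (pPrime p) = ⊥ := by
      rw [s56z_Lp, Submodule.span_eq_bot]
      rintro x ⟨c, hc, ⟨-, hflat⟩, -⟩
      exfalso
      apply hNW
      intro Lbar hLI σ hσ hσL
      exact s56o_flat_wild_trivial hpp hp2 hp0 ρbar c hc hflat (primeLocalPlace (pPrime p)) hP Lbar
        hLI σ hσ hσL
    rw [s56z_LpBound, hempty, finrank_bot]
    exact Nat.zero_le _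
  -- the hypotheses of the count
  have hlevel : ∃ F : IntermediateField ℚ Q̄, FiniteDimensional ℚ F ∧
      ∀ σ ∈ F.fixingSubgroup, ρbar.ρ σ = 1 := by
    obtain ⟨F, hF, h⟩ := ρbar.factorsThroughFiniteLevel
    exact ⟨F, hF, fun σ hσ => h σ ((IntermediateField.mem_fixingSubgroup_iff F σ).1 hσ)⟩
  have hdet' : ∀ (σ : GQ) (a : ℕ), (∀ μ : Q̄, μ ^ p = 1 → σ μ = μ ^ a) →
      LinearMap.det (ρbar.ρ σ) = (a : k) := by
    intro σ a ha
    have h1 := hdet.2 1 σ a (fun μ hμ => ha μ (by rwa [pow_one] at hμ))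
    rw [pow_one, hp0, Ideal.span_singleton_eq_bot.2 rfl, Ideal.mem_bot, sub_eq_zero] at h1
    exact h1
  obtain ⟨c₀, hc₀, hconcl⟩ := hElemB k ρbar.V ρbar.ρ (primeLocalPlace (pPrime p))
    (s56l_Good p hpp (primeLocalPlace (pPrime p)) hP)
    ⟨hp2, ρbar.finrank_eq, hlevel, hsplit, hP, fun L L' => s56l_Good_sup L L', fun L hL => hL.1,
      hKB p hpp _ hP, hdet'⟩ hNW
  obtain ⟨hfin, hbd⟩ := s56l_sup_bound ρbar hUnr
    ((H1π (Rep.res (primeLocalToGlobal (pPrime p)) (s56a_ad0 ρbar))).hom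
      (s56l_cocOfFun ρbar c₀ hc₀.coc hc₀.tr))
  haveI := hfin
  refine s56a_lpBound_of_mapF (ZMod p) (Rep.res (primeLocalToGlobal (pPrime p)) (s56a_ad0 ρbar))
    (s56g_H1ur (pPrime p) (s56a_ad0 ρbar) ⊔ Submodule.span k
      {(H1π (Rep.res (primeLocalToGlobal (pPrime p)) (s56a_ad0 ρbar))).hom
        (s56l_cocOfFun ρbar c₀ hc₀.coc hc₀.tr)}) _ _ ?_ hbd
  rintro x ⟨c, hc, ⟨-, hflat⟩, hx⟩
  -- the local cocycle of `c`
  obtain ⟨c', hc'⟩ : ∃ c' : cocycles₁ (Rep.res (primeLocalToGlobal (pPrime p)) (s56a_ad0 ρbar)),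
      c' = (mapCocycles₁ (primeLocalToGlobal (pPrime p))
        (𝟙 (Rep.res (primeLocalToGlobal (pPrime p)) (s56a_ad0 ρbar)))).hom c := ⟨_, rfl⟩
  have hc'app : ∀ g, c' g = c.1 (primeLocalToGlobal (pPrime p) g) := by
    intro g
    rw [hc']
    rfl
  have hfun : ∀ σ ∈ (primeLocalPlace (pPrime p)).decompositionSubgroup ℚ,
      s56l_funOfCoc ρbar c' σ = s56a_toEnd ρbar (c.1 σ) := by
    intro σ hσ
    obtain ⟨g, rfl⟩ := s56l_exists_loc_eq hσ
    rw [s56l_funOfCoc_apply, hc'app]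
  obtain ⟨L, hL1, hL2, hL3, hL4⟩ := s56l_flat_good p ρbar hp0 c hc hflat
  have hvan : ∀ g : primeLocalGaloisGroup (pPrime p),
      primeLocalToGlobal (pPrime p) g ∈ L.fixingSubgroup → c' g = 0 := by
    intro g hg
    rw [hc'app]
    exact (hL4 _ hg).2
  have hker : ∀ σ ∈ L.fixingSubgroup, ρbar.ρ σ = 1 := fun σ hσ => (hL4 σ hσ).1
  have hgood := s56l_goodCoc_funOfCoc ρbar (s56l_Good p hpp (primeLocalPlace (pPrime p)) hP) c' L
    ⟨hL1, hL2, hL3⟩ hker hvan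
  have hborel : s56l_BorelAt (primeLocalPlace (pPrime p)) ρbar.ρ (s56l_funOfCoc ρbar c') := by
    rintro Lbar ⟨hD, hI, σ₀, hσ₀, a₀, ha₀, hσ₀L⟩
    obtain ⟨Xb, hXb⟩ := s56o_flat_borel hpp hp2 hp0 ρbar c hc hflat (primeLocalPlace (pPrime p)) hP
      Lbar hD hI σ₀ hσ₀ a₀ ha₀ hσ₀L
    refine ⟨Xb, fun σ hσ v hv => ?_⟩
    rw [hfun σ hσ]
    exact hXb σ hσ v hv
  obtain ⟨a, Mm, hMtr, hIa⟩ := hconcl _ hgood hborel
  refine ⟨_, s56l_class_mem_sup ρbar c₀ hc₀ c' L hL1 hker hvan a Mm hMtr hIa, ?_⟩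
  have h1 := (s56a_H1Res_map (ZMod p) (s56a_ad0 ρbar) (primeLocalToGlobal (pPrime p))
    ((H1π (s56a_ad0 ρbar)).hom c)).symm
  rw [s56a_H1Res_π] at h1
  have h2 : (groupCohomology.map (primeLocalToGlobal (pPrime p))
      (𝟙 (Rep.res (primeLocalToGlobal (pPrime p)) (s56a_ad0 ρbar))) 1).hom
        ((H1π (s56a_ad0 ρbar)).hom c) =
      (H1π (Rep.res (primeLocalToGlobal (pPrime p)) (s56a_ad0 ρbar))).hom c' := by
    rw [hc']
    exact H1π_comp_map_apply (primeLocalToGlobal (pPrime p))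
      (𝟙 (Rep.res (primeLocalToGlobal (pPrime p)) (s56a_ad0 ρbar))) c
  rw [← h2]
  exact h1.trans hx.symm

end Fermat.Agent.Lib.S56
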