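import Fermat.Agent.Lib.S56.LPm
import Fermat.Agent.Lib.S56.IfaceF1
import Fermat.Agent.Lib.PT.BridgeA
import Fermat.Agent.Lib.S28.DZl

/-!
# Programme W (S56), wall W8-F2 (helper2): the `p`-adic dictionary

`Ω = ℚ̄`, `K = ℂ_p`, `ι : ℚ̄ → ℂ_p` (an algebra map over `ℤ_(p) = ratLocalizedAt p`), `P = padicPlace p`,
`v = ford_vQ P`:  `m ≤ v a ↔ ‖ι a‖ ≤ p^(-m)` (`s56l_le_vQ_iff`).
-/

set_option autoImplicit false

noncomputable section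

namespace Fermat.Agent.Lib.S56

open Fermat.Agent.Lib.Frey Fermat.Agent.Lib.PT GaloisRep

local notation "Q̄" => AlgebraicClosure ℚ

/-! ### the general comparison between `ford_vQ` and a norm -/

section Compare

variable {Ω : Type*} [Field Ω] [CharZero Ω] [Algebra ℚ Ω] [Algebra.IsAlgebraic ℚ Ω]
  {K : Type*} [NormedField K] (A : ValuationSubring Ω) {q : ℕ} (hq : q.Prime)
  (hA : (q : Ω) ∈ A.nonunits) (φ : Ω →+* K)

include hq in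
/-- if the valuation ring `A` is the unit ball of the norm `‖φ ·‖` and `‖φ q‖ = q⁻¹`, then
`‖φ a‖ = q ^ (- v a)`. -/
theorem s56l_norm_eq_rpow (hφ : ∀ x, x ∈ A ↔ ‖φ x‖ ≤ 1) (hφq : ‖φ (q : Ω)‖ = (q : ℝ)⁻¹)
    {a : Ω} (ha : a ≠ 0) :
    ∃ t : ℚ, ford_vQ A hq hA a = ((t : ℚ) : WithTop ℚ) ∧ ‖φ a‖ = (q : ℝ) ^ (-(t : ℝ)) := by
  have hq0 : (q : Ω) ≠ 0 := by exact_mod_cast hq.ne_zero
  have hqR : (0 : ℝ) < q := by exact_mod_cast hq.pos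
  obtain ⟨n, m, hn, h⟩ := ford_isRational_of_isAlgebraic hq hA a ha
  refine ⟨(m : ℚ) / (n : ℚ), ?_, ?_⟩
  · rw [ford_vQ, ford_v_eq_of_valuation_pow _ _ _ hn h]
  -- the unit `u = a^n / q^m`
  have hvq : A.valuation (q : Ω) ≠ 0 := (Valuation.ne_zero_iff _).2 hq0
  set u : Ω := a ^ n * ((q : Ω) ^ m)⁻¹ with hu
  have hvu : A.valuation u = 1 := by
    rw [hu, map_mul, map_pow, map_inv₀, map_zpow₀, h]
    exact mul_inv_cancel₀ (zpow_ne_zero _ hvq)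
  have hu0 : u ≠ 0 := by
    intro h0
    rw [h0, map_zero] at hvu
    exact zero_ne_one hvu
  have hvu' : A.valuation u⁻¹ = 1 := by rw [map_inv₀, hvu, inv_one]
  have h1 : ‖φ u‖ ≤ 1 := (hφ u).1 ((A.valuation_le_one_iff u).1 hvu.le)
  have h2 : ‖φ u⁻¹‖ ≤ 1 := (hφ u⁻¹).1 ((A.valuation_le_one_iff u⁻¹).1 hvu'.le)
  have hφu0 : 0 < ‖φ u‖ := norm_pos_iff.2 ((map_ne_zero φ).2 hu0)
  have h3 : ‖φ u‖ = 1 := by
    rw [map_inv₀, norm_inv] at h2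
    have h4 : 1 ≤ ‖φ u‖ := by
      by_contra hlt
      rw [not_le] at hlt
      have := (one_lt_inv₀ hφu0).2 hlt
      linarith
    exact le_antisymm h1 h4
  -- `‖φ a‖^n = q^(-m)`
  have h5 : ‖φ a‖ ^ n = ((q : ℝ)⁻¹) ^ m := by
    have h6 : ‖φ u‖ = ‖φ a‖ ^ n * (((q : ℝ)⁻¹) ^ m)⁻¹ := by
      rw [hu, map_mul, map_pow, map_inv₀, map_zpow₀, norm_mul, norm_pow, norm_inv, norm_zpow, hφq]
    rw [h3] at h6
    have h7 : ((q : ℝ)⁻¹) ^ m ≠ 0 := zpow_ne_zero _ (inv_ne_zero hqR.ne')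
    have h9 : ‖φ a‖ ^ n = 1 * ((q : ℝ)⁻¹) ^ m := by
      rw [h6, inv_mul_cancel_right₀ h7]
    rw [h9, one_mul]
  have hn0 : n ≠ 0 := hn.ne'
  have h8 : ‖φ a‖ = (‖φ a‖ ^ n) ^ ((n : ℝ)⁻¹) :=
    (Real.pow_rpow_inv_natCast (norm_nonneg _) hn0).symm
  rw [h8, h5, inv_zpow', ← Real.rpow_intCast, ← Real.rpow_mul hqR.le]
  congr 1
  push_cast
  field_simp

include hq in
/-- `m ≤ v a ↔ ‖φ a‖ ≤ q^(-m)`. -/
theorem s56l_le_vQ_iff_norm (hφ : ∀ x, x ∈ A ↔ ‖φ x‖ ≤ 1) (hφq : ‖φ (q : Ω)‖ = (q : ℝ)⁻¹)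
    (m : ℚ) (a : Ω) :
    (m : WithTop ℚ) ≤ ford_vQ A hq hA a ↔ ‖φ a‖ ≤ (q : ℝ) ^ (-(m : ℝ)) := by
  have hqR : (1 : ℝ) < q := by exact_mod_cast hq.one_lt
  by_cases ha : a = 0
  · subst ha
    rw [AddValuation.map_zero, map_zero, norm_zero]
    exact ⟨fun _ => (Real.rpow_pos_of_pos (by linarith) _).le, fun _ => le_top⟩
  · obtain ⟨t, ht, hn⟩ := s56l_norm_eq_rpow A hq hA φ hφ hφq ha
    rw [ht, hn, WithTop.coe_le_coe, Real.rpow_le_rpow_left_iff hqR, neg_le_neg_iff, Rat.cast_le]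

include hq in
/-- the norm is a function of the valuation. -/
theorem s56l_norm_eq_of_vQ_eq (hφ : ∀ x, x ∈ A ↔ ‖φ x‖ ≤ 1) (hφq : ‖φ (q : Ω)‖ = (q : ℝ)⁻¹)
    {a b : Ω} (hab : ford_vQ A hq hA a = ford_vQ A hq hA b) : ‖φ a‖ = ‖φ b‖ := by
  by_cases ha : a = 0
  · subst ha
    rw [AddValuation.map_zero] at hab
    have hb : b = 0 := (AddValuation.top_iff _).1 hab.symm
    rw [hb]
  · have hb : b ≠ 0 := by
      rintro rfl
      rw [AddValuation.map_zero] at hab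
      exact ha ((AddValuation.top_iff _).1 hab)
    obtain ⟨t, ht, hn⟩ := s56l_norm_eq_rpow A hq hA φ hφ hφq ha
    obtain ⟨t', ht', hn'⟩ := s56l_norm_eq_rpow A hq hA φ hφ hφq hb
    rw [ht, ht', WithTop.coe_eq_coe] at hab
    rw [hn, hn', hab]

end Compare

/-! ### `ι : ℚ̄ → ℂ_p` -/

section Iota

variable (p : ℕ) [Fact p.Prime]

/-- the embedding `ℚ̄ → ℂ_p`, as an algebra map over `ℤ_(p)`. -/
def s56l_iota : Q̄ →ₐ[ratLocalizedAt p] ℂ_[p] where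
  toRingHom := (algebraMap (PadicAlgCl p) ℂ_[p]).comp (padicEmbedding p).toRingHom
  commutes' r := by
    show algebraMap (PadicAlgCl p) ℂ_[p] (padicEmbedding p (algebraMap ℚ Q̄ (r : ℚ))) =
      algebraMap ℚ ℂ_[p] (r : ℚ)
    rw [eq_ratCast, eq_ratCast, map_ratCast, map_ratCast]

theorem s56l_iota_apply (a : Q̄) :
    s56l_iota p a = algebraMap (PadicAlgCl p) ℂ_[p] (padicEmbedding p a) := rfl

theorem s56l_norm_iota (a : Q̄) : ‖s56l_iota p a‖ = ‖padicEmbedding p a‖ := by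
  rw [s56l_iota_apply, ← PadicComplex.coe_eq, PadicComplex.norm_extends]

theorem s56l_mem_place_iff (a : Q̄) : a ∈ padicPlace p ↔ ‖s56l_iota p a‖ ≤ 1 := by
  rw [s56l_norm_iota, ptg_mem_padicPlace_iff]

theorem s56l_norm_p : ‖(p : ℂ_[p])‖ = (p : ℝ)⁻¹ := by
  rw [← PadicComplex.coe_natCast, PadicComplex.norm_extends, ptg_norm_q]

theorem s56l_norm_iota_p : ‖(s56l_iota p : Q̄ →+* ℂ_[p]) (p : Q̄)‖ = (p : ℝ)⁻¹ := by
  rw [map_natCast, s56l_norm_p]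

/-- `ℤ_(p)` lies in the unit ball of `ℂ_p`. -/
theorem s56l_norm_algebraMap_le (r : ratLocalizedAt p) :
    ‖algebraMap (ratLocalizedAt p) ℂ_[p] r‖ ≤ 1 := by
  have hp : p.Prime := Fact.out
  show ‖algebraMap ℚ ℂ_[p] (r : ℚ)‖ ≤ 1
  have h1 : algebraMap ℚ ℂ_[p] (r : ℚ) = algebraMap ℚ_[p] ℂ_[p] ((r : ℚ) : ℚ_[p]) := by
    rw [eq_ratCast, map_ratCast]
  rw [h1]
  have h2 : ‖algebraMap ℚ_[p] ℂ_[p] ((r : ℚ) : ℚ_[p])‖ = ‖((r : ℚ) : ℚ_[p])‖ := by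
    rw [IsScalarTower.algebraMap_apply ℚ_[p] (PadicAlgCl p) ℂ_[p]]
    exact PadicComplex.norm_extends' p _
  rw [h2]
  apply Padic.norm_rat_le_one
  have h3 : (r : ℚ).den.Coprime p := r.2
  exact (hp.coprime_iff_not_dvd.1 h3.symm)

theorem s56l_pHyp : s56l_PHyp ℂ_[p] p :=
  s56l_pHyp_of_prime Fact.out (by exact_mod_cast (Fact.out : p.Prime).ne_zero)

variable (hp : p.Prime)

/-- **the dictionary**: `m ≤ v a ↔ ‖ι a‖ ≤ p^(-m)`. -/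
theorem s56l_le_vQ_iff (m : ℚ) (a : Q̄) :
    (m : WithTop ℚ) ≤ ford_vQ (padicPlace p) hp (ptg_padicPlace_liesOver p) a ↔
      ‖s56l_iota p a‖ ≤ (p : ℝ) ^ (-(m : ℝ)) :=
  s56l_le_vQ_iff_norm (padicPlace p) hp (ptg_padicPlace_liesOver p) (s56l_iota p : Q̄ →+* ℂ_[p])
    (s56l_mem_place_iff p) (s56l_norm_iota_p p) m a

theorem s56l_norm_eq_of_v_eq {a b : Q̄}
    (hab : ford_vQ (padicPlace p) hp (ptg_padicPlace_liesOver p) a =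
      ford_vQ (padicPlace p) hp (ptg_padicPlace_liesOver p) b) :
    ‖s56l_iota p a‖ = ‖s56l_iota p b‖ :=
  s56l_norm_eq_of_vQ_eq (padicPlace p) hp (ptg_padicPlace_liesOver p) (s56l_iota p : Q̄ →+* ℂ_[p])
    (s56l_mem_place_iff p) (s56l_norm_iota_p p) hab

include hp in
/-- the radius `r = p^(-m)` satisfies the hypothesis of the lifting lemma iff `m > p/(p-1)`. -/
theorem s56l_radius_ok {m : ℚ} (hm : (p : ℚ) / ((p : ℚ) - 1) < m) :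
    ((p : ℝ) ^ (-(m : ℝ)) / ‖(p : ℂ_[p])‖) ^ (p - 1) < ‖(p : ℂ_[p])‖ := by
  have hp2 : 2 ≤ p := hp.two_le
  have hpR : (1 : ℝ) < p := by exact_mod_cast hp.one_lt
  have hp0 : (0 : ℝ) < p := by linarith
  have hm' : (p : ℝ) / ((p : ℝ) - 1) < (m : ℝ) := by
    have := (Rat.cast_lt (K := ℝ)).2 hm
    push_cast at this
    exact this
  rw [s56l_norm_p, div_inv_eq_mul]
  have h1 : (p : ℝ) ^ (-(m : ℝ)) * (p : ℝ) = (p : ℝ) ^ (1 - (m : ℝ)) := by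
    rw [sub_eq_add_neg, add_comm, Real.rpow_add hp0, Real.rpow_one]
  rw [h1, ← Real.rpow_natCast, ← Real.rpow_mul hp0.le, ← Real.rpow_neg_one,
    Real.rpow_lt_rpow_left_iff hpR]
  have h2 : ((p - 1 : ℕ) : ℝ) = (p : ℝ) - 1 := by
    rw [Nat.cast_sub (by omega)]
    simp
  rw [h2]
  have h3 : (0 : ℝ) < (p : ℝ) - 1 := by linarith
  rw [div_lt_iff₀ h3] at hm'
  nlinarith

end Iota

end Fermat.Agent.Lib.S56
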