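import Fermat.Agent.Lib.S56.LPush

/-!
# Programme W (S56), wall W8-F2 (helper2): Fontaine's property `(P_m)`, abstract form

`A` a commutative ring, `H` a finite projective commutative cocommutative Hopf algebra over `A` all of
whose `Ω`-points are killed by `p` (`Ω` an algebraically closed field over `A`), `ι : Ω → K` an embedding
into a complete ultrametric normed field.  `g` a norm-preserving automorphism of `Ω` over `A`,
`B_L → Ω` an `A`-algebra of integral elements containing all the coordinates of the points and closed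
under the divisions possible in the valuation ring, `B_g → Ω` an `A`-algebra of `g`-fixed integral
elements, `𝔞 = {b | ‖b‖ ≤ r}` with `(r/‖p‖)^(p-1) < ‖p‖`.  If there is an `A`-algebra map
`η : B_L → B_g ⧸ 𝔞` then `g` fixes all the coordinates of all the points (`s56l_Pm_abstract`).
-/

set_option autoImplicit false

noncomputable section

namespace Fermat.Agent.Lib.S56

open Coalgebra TensorProduct WithConv Polynomial

section Abstract

variable {A : Type*} [CommRing A] {H : Type*} [CommRing H] [HopfAlgebra A H] [IsCocomm A H]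
  [Module.Finite A H] [Module.Projective A H]
  {Ω : Type*} [Field Ω] [IsAlgClosed Ω] [Algebra A Ω]
  {K : Type*} [NormedField K] [IsUltrametricDist K] [CompleteSpace K] [Algebra A K]
  (ι : Ω →ₐ[A] K) (hA : ∀ a : A, ‖algebraMap A K a‖ ≤ 1) {p : ℕ} (hp : s56l_PHyp K p)
  {BL : Type*} [CommRing BL] [Algebra A BL] (jL : BL →ₐ[A] Ω)
  {Bg : Type*} [CommRing Bg] [Algebra A Bg] (jg : Bg →ₐ[A] Ω) (𝔞 : Ideal Bg)
  (η : BL →ₐ[A] Bg ⧸ 𝔞) (g : Ω ≃+* Ω) {r : ℝ}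

omit [IsCocomm A H] [Module.Finite A H] [Module.Projective A H] [IsAlgClosed Ω] in
/-- the points of `H` are killed by `p` also as linear maps. -/
theorem s56l_point_pow (hkill : ∀ x : WithConv (H →ₐ[A] Ω), x ^ p = 1) (x : H →ₐ[A] Ω) :
    (toConv x.toLinearMap : WithConv (H →ₗ[A] Ω)) ^ p = 1 :=
  s56l_toConv_pow_of_point x p (toConv x) rfl (hkill _)

omit [IsCocomm A H] [Module.Finite A H] [Module.Projective A H] [IsAlgClosed Ω]
  [IsUltrametricDist K] [CompleteSpace K] in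
theorem s56l_point_pow_K (hkill : ∀ x : WithConv (H →ₐ[A] Ω), x ^ p = 1) (x : H →ₐ[A] Ω) :
    (toConv (ι.comp x).toLinearMap : WithConv (H →ₗ[A] K)) ^ p = 1 := by
  have h := congrArg (s56l_push (C := H) ι) (s56l_point_pow hkill x)
  rw [map_pow, map_one] at h
  exact h

omit [IsCocomm A H] [Module.Projective A H] [IsAlgClosed Ω] [CompleteSpace K] in
include hA in
theorem s56l_point_norm_le (x : H →ₐ[A] Ω) (h : H) : ‖ι (x h)‖ ≤ 1 := by
  have h1 : IsIntegral A (ι (x h)) :=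
    ((Algebra.IsIntegral.isIntegral (R := A) h).map x).map ι
  exact s56l_norm_le_one_of_isIntegral hA h1

include hA hp in
/-- **Step A**: every point `x` has a `g`-fixed point `x'` which is `r/‖p‖`-close to a lift of `η ∘ x`. -/
theorem s56l_exists_fixed_lift
    (hjL : Function.Injective jL)
    (hpts : ∀ (x : H →ₐ[A] Ω) (h : H), x h ∈ jL.range)
    (hjg_int : ∀ b : Bg, ‖ι (jg b)‖ ≤ 1)
    (hjg_fix : ∀ b : Bg, g (jg b) = jg b)
    (h𝔞 : ∀ b : Bg, b ∈ 𝔞 ↔ ‖ι (jg b)‖ ≤ r)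
    (hgA : ∀ a : A, g (algebraMap A Ω a) = algebraMap A Ω a)
    (hgn : ∀ a : Ω, ‖ι (g a)‖ = ‖ι a‖)
    (hkill : ∀ x : WithConv (H →ₐ[A] Ω), x ^ p = 1)
    (hr0 : 0 ≤ r) (hr : (r / ‖(p : K)‖) ^ (p - 1) < ‖(p : K)‖)
    (x : H →ₐ[A] Ω) :
    ∃ x' : H →ₐ[A] Ω, (∀ h, g (x' h) = x' h) ∧
      ∃ γ : H →ₗ[A] Bg, (∀ h b, jL b = x h → Ideal.Quotient.mk 𝔞 (γ h) = η b) ∧
        ∀ h, ‖ι (x' h) - ι (jg (γ h))‖ ≤ r / ‖(p : K)‖ := by
  have hιinj : Function.Injective ι := (ι : Ω →+* K).injective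
  -- `x_L`
  let eL := AlgEquiv.ofInjective jL hjL
  let xL : H →ₐ[A] BL := (eL.symm : jL.range →ₐ[A] BL).comp (x.codRestrict jL.range (hpts x))
  have hxL : ∀ h, jL (xL h) = x h := by
    intro h
    have h1 : eL (xL h) = x.codRestrict jL.range (hpts x) h := eL.apply_symm_apply _
    have h2 := congrArg (Subtype.val) h1
    exact h2
  have hpushL : s56l_push (C := H) jL (toConv xL.toLinearMap) = toConv x.toLinearMap := by
    apply WithConv.ext
    apply LinearMap.ext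
    intro h
    exact hxL h
  have hxLp : (toConv xL.toLinearMap : WithConv (H →ₗ[A] BL)) ^ p = 1 := by
    apply s56l_push_injective jL hjL
    rw [map_pow, map_one, hpushL]
    exact s56l_point_pow hkill x
  -- `Γ₀ = η ∘ x_L`
  let Γ₀ : H →ₐ[A] Bg ⧸ 𝔞 := η.comp xL
  have hΓp : (toConv Γ₀.toLinearMap : WithConv (H →ₗ[A] Bg ⧸ 𝔞)) ^ p = 1 := by
    have h := congrArg (s56l_push (C := H) η) hxLp
    rw [map_pow, map_one] at h
    exact h
  have hΓinv : (toConv Γ₀.toLinearMap : WithConv (H →ₗ[A] Bg ⧸ 𝔞)) *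
      toConv (Γ₀.toLinearMap ∘ₗ HopfAlgebra.antipode A) = 1 := s56l_point_mul_antipode_ring Γ₀
  -- the linear lift
  obtain ⟨γ₀, hγ₀⟩ := Module.projective_lifting_property
    (Ideal.Quotient.mkₐ A 𝔞).toLinearMap Γ₀.toLinearMap (Ideal.Quotient.mkₐ_surjective A 𝔞)
  have hγ₀' : ∀ h, Ideal.Quotient.mk 𝔞 (γ₀ h) = Γ₀ h := fun h => LinearMap.congr_fun hγ₀ h
  let γ : H →ₗ[A] Bg := γ₀ + (Coalgebra.counit : H →ₗ[A] A).smulRight (1 - γ₀ 1)
  have hγapp : ∀ h, γ h = γ₀ h + (counit h : A) • (1 - γ₀ 1) := fun h => rfl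
  have hγ1 : γ 1 = 1 := by
    rw [hγapp, Bialgebra.counit_one, one_smul]
    ring
  have hγ : ∀ h, Ideal.Quotient.mk 𝔞 (γ h) = Γ₀ h := by
    intro h
    have h1 : Ideal.Quotient.mk 𝔞 ((counit h : A) • (1 - γ₀ 1)) = 0 := by
      have h2 : Ideal.Quotient.mk 𝔞 (1 - γ₀ 1) = 0 := by
        rw [map_sub, map_one, hγ₀', map_one, sub_self]
      rw [Algebra.smul_def, map_mul, h2, mul_zero]
    rw [hγapp, map_add, h1, add_zero, hγ₀']
  have hpushmk : s56l_push (C := H) (Ideal.Quotient.mkₐ A 𝔞) (toConv γ) = toConv Γ₀.toLinearMap := by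
    apply WithConv.ext
    apply LinearMap.ext
    intro h
    exact hγ h
  have hpushmkS : s56l_push (C := H) (Ideal.Quotient.mkₐ A 𝔞)
      (toConv (γ ∘ₗ HopfAlgebra.antipode A)) = toConv (Γ₀.toLinearMap ∘ₗ HopfAlgebra.antipode A) := by
    apply WithConv.ext
    apply LinearMap.ext
    intro h
    exact hγ _
  -- the approximate point of `K`
  let f : Bg →ₐ[A] K := ι.comp jg
  let γK : H →ₗ[A] K := f.toLinearMap ∘ₗ γ
  have hmem : ∀ b : Bg, Ideal.Quotient.mk 𝔞 b = 0 → ‖f b‖ ≤ r := fun b hb =>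
    (h𝔞 b).1 (Ideal.Quotient.eq_zero_iff_mem.1 hb)
  have h1 : γK 1 = 1 := by
    show f (γ 1) = 1
    rw [hγ1, map_one]
  have hbd : ∀ h, ‖γK h‖ ≤ 1 := fun h => hjg_int _
  have hmul : ∀ h h', ‖γK (h * h') - γK h * γK h'‖ ≤ r := by
    intro h h'
    have h2 : γK (h * h') - γK h * γK h' = f (γ (h * h') - γ h * γ h') := by
      show f (γ (h * h')) - f (γ h) * f (γ h') = _
      rw [map_sub f, map_mul f]
    rw [h2]
    apply hmem
    rw [map_sub (Ideal.Quotient.mk 𝔞), map_mul (Ideal.Quotient.mk 𝔞), hγ, hγ, hγ, map_mul Γ₀,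
      sub_self]
  have hpow : ∀ h, ‖((toConv γK : WithConv (H →ₗ[A] K)) ^ p - 1) h‖ ≤ r := by
    intro h
    have h2 : (toConv γK : WithConv (H →ₗ[A] K)) ^ p - 1 =
        s56l_push (C := H) f ((toConv γ) ^ p - 1) := by
      rw [map_sub, map_pow, map_one]
      rfl
    rw [h2, s56l_push_apply]
    apply hmem
    have h3 : s56l_push (C := H) (Ideal.Quotient.mkₐ A 𝔞) ((toConv γ) ^ p - 1) = 0 := by
      rw [map_sub, map_pow, map_one, hpushmk, hΓp, sub_self]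
    have h4 := congrArg (fun ξ : WithConv (H →ₗ[A] Bg ⧸ 𝔞) => ξ h) h3
    exact h4
  have hinv : ∀ h, ‖((toConv γK : WithConv (H →ₗ[A] K)) *
      toConv (γK ∘ₗ HopfAlgebra.antipode A) - 1) h‖ ≤ r := by
    intro h
    have h2 : (toConv γK : WithConv (H →ₗ[A] K)) * toConv (γK ∘ₗ HopfAlgebra.antipode A) - 1 =
        s56l_push (C := H) f ((toConv γ) * toConv (γ ∘ₗ HopfAlgebra.antipode A) - 1) := by
      rw [map_sub, map_mul, map_one]
      rfl
    rw [h2, s56l_push_apply]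
    apply hmem
    have h3 : s56l_push (C := H) (Ideal.Quotient.mkₐ A 𝔞)
        ((toConv γ) * toConv (γ ∘ₗ HopfAlgebra.antipode A) - 1) = 0 := by
      rw [map_sub, map_mul, map_one, hpushmk, hpushmkS, hΓinv, sub_self]
    have h4 := congrArg (fun ξ : WithConv (H →ₗ[A] Bg ⧸ 𝔞) => ξ h) h3
    exact h4
  obtain ⟨xh, hxh⟩ := s56l_lifting hA hp hr0 hr γK h1 hbd hmul hpow hinv
  -- descend to `Ω`
  have hxhr : ∀ h, xh h ∈ ι.range := fun h =>
    s56l_mem_range_of_isIntegral ι ((Algebra.IsIntegral.isIntegral (R := A) h).map xh)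
  let eι := AlgEquiv.ofInjective ι hιinj
  let x' : H →ₐ[A] Ω := (eι.symm : ι.range →ₐ[A] Ω).comp (xh.codRestrict ι.range hxhr)
  have hx' : ∀ h, ι (x' h) = xh h := by
    intro h
    have h1 : eι (x' h) = xh.codRestrict ι.range hxhr h := eι.apply_symm_apply _
    exact congrArg Subtype.val h1
  have hclose : ∀ h, ‖ι (x' h) - ι (jg (γ h))‖ ≤ r / ‖(p : K)‖ := by
    intro h
    rw [hx']
    exact hxh h
  refine ⟨x', ?_, γ, ?_, hclose⟩
  · -- `g`-invariance by separation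
    let gA : Ω ≃ₐ[A] Ω := AlgEquiv.ofRingEquiv (f := g) hgA
    let x'' : H →ₐ[A] Ω := (gA : Ω →ₐ[A] Ω).comp x'
    have hx''app : ∀ h, x'' h = g (x' h) := fun h => rfl
    have hπ0 := hp.pos
    have hρ0 : 0 ≤ r / ‖(p : K)‖ := div_nonneg hr0 hπ0.le
    have hsep := s56l_separation hA hp hρ0 hr (ι.comp x'') (ι.comp x')
      (fun h => s56l_point_norm_le ι hA x' h) (s56l_point_pow_K ι hkill x'')
      (s56l_point_pow_K ι hkill x') (by
        intro h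
        show ‖ι (g (x' h)) - ι (x' h)‖ ≤ r / ‖(p : K)‖
        have e1 : ι (g (x' h)) - ι (x' h) =
            ι (g (x' h - jg (γ h))) - ι (x' h - jg (γ h)) := by
          rw [map_sub g, hjg_fix, map_sub, map_sub]
          ring
        rw [e1, sub_eq_add_neg]
        refine (IsUltrametricDist.norm_add_le_max _ _).trans (max_le ?_ ?_)
        · rw [hgn, map_sub]
          exact hclose h
        · rw [norm_neg, map_sub]
          exact hclose h)
    intro h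
    have h2 := congrArg (fun φ : H →ₐ[A] K => φ h) hsep
    exact hιinj h2
  · intro h b hb
    have h2 : b = xL h := hjL (hb.trans (hxL h).symm)
    rw [h2]
    exact hγ h

omit [IsCocomm A H] [Module.Finite A H] [Module.Projective A H] [IsAlgClosed Ω] [CompleteSpace K] in
include hp in
/-- the key estimate of **Step B**: if `η b = d mod 𝔞` with `‖d‖ ≤ r/‖p‖` then `‖b‖^(p-1) < ‖p‖`. -/
theorem s56l_small_of_eta
    (hdiv : ∀ a b : BL, jL b ≠ 0 → ‖ι (jL a)‖ ≤ ‖ι (jL b)‖ → ∃ c : BL, c * b = a)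
    (hjg_int : ∀ b : Bg, ‖ι (jg b)‖ ≤ 1)
    (h𝔞 : ∀ b : Bg, b ∈ 𝔞 ↔ ‖ι (jg b)‖ ≤ r)
    (hr0 : 0 ≤ r) (hr : (r / ‖(p : K)‖) ^ (p - 1) < ‖(p : K)‖)
    (b : BL) (d : Bg) (hbd : η b = Ideal.Quotient.mk 𝔞 d) (hd : ‖ι (jg d)‖ ≤ r / ‖(p : K)‖) :
    ‖ι (jL b)‖ ^ (p - 1) < ‖(p : K)‖ := by
  have hπ0 := hp.pos
  have hp1 : 1 ≤ p - 1 := by have := hp.two_le; omega
  have hρ0 : 0 ≤ r / ‖(p : K)‖ := div_nonneg hr0 hπ0.le
  -- `r < ‖p‖`
  have hρ1 : r / ‖(p : K)‖ < 1 := by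
    by_contra hge
    rw [not_lt] at hge
    have h1 : (1 : ℝ) ≤ (r / ‖(p : K)‖) ^ (p - 1) := one_le_pow₀ hge
    linarith [hp.le_one]
  have hrπ : r < ‖(p : K)‖ := by
    rwa [div_lt_one hπ0] at hρ1
  by_contra hge
  rw [not_lt] at hge
  -- `c * b^(p-1) = p`
  have hnat : ι (jL (p : BL)) = (p : K) := by rw [map_natCast, map_natCast]
  have hbpow : ‖ι (jL (b ^ (p - 1)))‖ = ‖ι (jL b)‖ ^ (p - 1) := by
    rw [map_pow, map_pow, norm_pow]
  have hne : jL (b ^ (p - 1)) ≠ 0 := by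
    intro h0
    rw [h0, map_zero, norm_zero] at hbpow
    rw [← hbpow] at hge
    exact absurd hge (not_le.2 hπ0)
  obtain ⟨c, hc⟩ := hdiv (p : BL) (b ^ (p - 1)) hne (by rw [hnat, hbpow]; exact hge)
  obtain ⟨c', hc'⟩ := Ideal.Quotient.mk_surjective (I := 𝔞) (η c)
  have hmem : c' * d ^ (p - 1) - (p : Bg) ∈ 𝔞 := by
    rw [← Ideal.Quotient.eq_zero_iff_mem, map_sub, map_mul, map_pow, hc', ← hbd, ← map_pow,
      ← map_mul, hc, map_natCast, map_natCast, sub_self]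
  have h1 : ‖ι (jg (c' * d ^ (p - 1) - (p : Bg)))‖ ≤ r := (h𝔞 _).1 hmem
  have h2 : ‖ι (jg (c' * d ^ (p - 1)))‖ ≤ (r / ‖(p : K)‖) ^ (p - 1) := by
    rw [map_mul, map_mul, map_pow, map_pow, norm_mul, norm_pow]
    calc ‖ι (jg c')‖ * ‖ι (jg d)‖ ^ (p - 1) ≤ 1 * (r / ‖(p : K)‖) ^ (p - 1) :=
          mul_le_mul (hjg_int c') (pow_le_pow_left₀ (norm_nonneg _) hd _)
            (pow_nonneg (norm_nonneg _) _) zero_le_one
      _ = (r / ‖(p : K)‖) ^ (p - 1) := one_mul _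
  have h3 : (p : K) = ι (jg (c' * d ^ (p - 1))) + -ι (jg (c' * d ^ (p - 1) - (p : Bg))) := by
    rw [map_sub jg, map_sub ι, map_natCast jg, map_natCast ι]
    ring
  have h4 : ‖(p : K)‖ < ‖(p : K)‖ := by
    conv_lhs => rw [h3]
    refine lt_of_le_of_lt (IsUltrametricDist.norm_add_le_max _ _) (max_lt ?_ ?_)
    · exact lt_of_le_of_lt h2 hr
    · rw [norm_neg]
      exact lt_of_le_of_lt h1 hrπ
  exact lt_irrefl _ h4

omit [Module.Projective A H] [IsAlgClosed Ω] in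
include hA hp in
/-- **Step B**: the correspondence of Step A is injective. -/
theorem s56l_lift_injective
    (hpts : ∀ (x : H →ₐ[A] Ω) (h : H), x h ∈ jL.range)
    (hdiv : ∀ a b : BL, jL b ≠ 0 → ‖ι (jL a)‖ ≤ ‖ι (jL b)‖ → ∃ c : BL, c * b = a)
    (hjg_int : ∀ b : Bg, ‖ι (jg b)‖ ≤ 1)
    (h𝔞 : ∀ b : Bg, b ∈ 𝔞 ↔ ‖ι (jg b)‖ ≤ r)
    (hkill : ∀ x : WithConv (H →ₐ[A] Ω), x ^ p = 1)
    (hr0 : 0 ≤ r) (hr : (r / ‖(p : K)‖) ^ (p - 1) < ‖(p : K)‖)
    (x₁ x₂ x' : H →ₐ[A] Ω)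
    (h₁ : ∃ γ : H →ₗ[A] Bg, (∀ h b, jL b = x₁ h → Ideal.Quotient.mk 𝔞 (γ h) = η b) ∧
        ∀ h, ‖ι (x' h) - ι (jg (γ h))‖ ≤ r / ‖(p : K)‖)
    (h₂ : ∃ γ : H →ₗ[A] Bg, (∀ h b, jL b = x₂ h → Ideal.Quotient.mk 𝔞 (γ h) = η b) ∧
        ∀ h, ‖ι (x' h) - ι (jg (γ h))‖ ≤ r / ‖(p : K)‖) :
    x₁ = x₂ := by
  classical
  have hιinj : Function.Injective ι := (ι : Ω →+* K).injective
  obtain ⟨γ₁, hγ₁, hc₁⟩ := h₁
  obtain ⟨γ₂, hγ₂, hc₂⟩ := h₂
  have hπ0 := hp.pos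
  have hp1 : 1 ≤ p - 1 := by have := hp.two_le; omega
  -- pointwise smallness
  have hsmall : ∀ h, ‖ι (x₁ h) - ι (x₂ h)‖ ^ (p - 1) < ‖(p : K)‖ := by
    intro h
    obtain ⟨b₁, hb₁'⟩ := hpts x₁ h
    obtain ⟨b₂, hb₂'⟩ := hpts x₂ h
    have hb₁ : jL b₁ = x₁ h := hb₁'
    have hb₂ : jL b₂ = x₂ h := hb₂'
    have hd : ‖ι (jg (γ₁ h - γ₂ h))‖ ≤ r / ‖(p : K)‖ := by
      have e1 : ι (jg (γ₁ h - γ₂ h)) =
          (ι (x' h) - ι (jg (γ₂ h))) + -(ι (x' h) - ι (jg (γ₁ h))) := by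
        rw [map_sub jg, map_sub ι]
        ring
      rw [e1]
      refine (IsUltrametricDist.norm_add_le_max _ _).trans (max_le (hc₂ h) ?_)
      rw [norm_neg]
      exact hc₁ h
    have hη : η (b₁ - b₂) = Ideal.Quotient.mk 𝔞 (γ₁ h - γ₂ h) := by
      rw [map_sub η, map_sub (Ideal.Quotient.mk 𝔞), hγ₁ h b₁ hb₁, hγ₂ h b₂ hb₂]
    have := s56l_small_of_eta ι hp jL jg 𝔞 η hdiv hjg_int h𝔞 hr0 hr (b₁ - b₂) (γ₁ h - γ₂ h) hη hd
    rwa [map_sub jL, map_sub ι, hb₁, hb₂] at this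
  -- a uniform bound over a finite generating family
  obtain ⟨n, s, hs⟩ := Module.Finite.exists_fin (R := A) (M := H)
  let ρ' : NNReal := Finset.univ.sup fun i : Fin n => ‖ι (x₁ (s i)) - ι (x₂ (s i))‖₊
  have hρ' : ((ρ' : NNReal) : ℝ) ^ (p - 1) < ‖(p : K)‖ := by
    refine Finset.sup_induction (p := fun t : NNReal => ((t : NNReal) : ℝ) ^ (p - 1) < ‖(p : K)‖)
      ?_ ?_ ?_
    · show ((0 : NNReal) : ℝ) ^ (p - 1) < ‖(p : K)‖
      rw [NNReal.coe_zero, zero_pow (by omega)]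
      exact hπ0
    · intro a₁ h₁ a₂ h₂
      rcases le_total a₁ a₂ with h | h
      · rwa [sup_eq_right.2 h]
      · rwa [sup_eq_left.2 h]
    · intro i _
      exact hsmall (s i)
  have hbound : ∀ h, ‖ι (x₁ h) - ι (x₂ h)‖ ≤ (ρ' : ℝ) := by
    intro h
    have hmem : h ∈ Submodule.span A (Set.range s) := by rw [hs]; trivial
    induction hmem using Submodule.span_induction with
    | mem y hy =>
      obtain ⟨i, rfl⟩ := hy
      have : ‖ι (x₁ (s i)) - ι (x₂ (s i))‖₊ ≤ ρ' :=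
        Finset.le_sup (f := fun i : Fin n => ‖ι (x₁ (s i)) - ι (x₂ (s i))‖₊) (Finset.mem_univ i)
      exact_mod_cast this
    | zero =>
      simp only [map_zero, sub_zero, norm_zero]
      exact ρ'.coe_nonneg
    | add y z _ _ hy hz =>
      have e1 : ι (x₁ (y + z)) - ι (x₂ (y + z)) =
          (ι (x₁ y) - ι (x₂ y)) + (ι (x₁ z) - ι (x₂ z)) := by
        rw [map_add x₁, map_add x₂, map_add ι, map_add ι]
        ring
      rw [e1]
      exact (IsUltrametricDist.norm_add_le_max _ _).trans (max_le hy hz)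
    | smul a y _ hy =>
      have e1 : ι (x₁ (a • y)) - ι (x₂ (a • y)) =
          algebraMap A K a * (ι (x₁ y) - ι (x₂ y)) := by
        rw [map_smul x₁, map_smul x₂, map_smul ι, map_smul ι, Algebra.smul_def, Algebra.smul_def]
        ring
      rw [e1, norm_mul]
      calc ‖algebraMap A K a‖ * ‖ι (x₁ y) - ι (x₂ y)‖ ≤ 1 * (ρ' : ℝ) :=
            mul_le_mul (hA a) hy (norm_nonneg _) zero_le_one
        _ = (ρ' : ℝ) := one_mul _
  have hsep := s56l_separation hA hp ρ'.coe_nonneg hρ' (ι.comp x₁) (ι.comp x₂)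
    (fun h => s56l_point_norm_le ι hA x₂ h) (s56l_point_pow_K ι hkill x₁)
    (s56l_point_pow_K ι hkill x₂) hbound
  apply AlgHom.ext
  intro h
  have h2 := congrArg (fun φ : H →ₐ[A] K => φ h) hsep
  exact hιinj h2

include hA hp η in
/-- **Fontaine's `(P_m)`, abstract form.** -/
theorem s56l_Pm_abstract
    (hjL : Function.Injective jL)
    (hpts : ∀ (x : H →ₐ[A] Ω) (h : H), x h ∈ jL.range)
    (hdiv : ∀ a b : BL, jL b ≠ 0 → ‖ι (jL a)‖ ≤ ‖ι (jL b)‖ → ∃ c : BL, c * b = a)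
    (hjg_int : ∀ b : Bg, ‖ι (jg b)‖ ≤ 1)
    (hjg_fix : ∀ b : Bg, g (jg b) = jg b)
    (h𝔞 : ∀ b : Bg, b ∈ 𝔞 ↔ ‖ι (jg b)‖ ≤ r)
    (hgA : ∀ a : A, g (algebraMap A Ω a) = algebraMap A Ω a)
    (hgn : ∀ a : Ω, ‖ι (g a)‖ = ‖ι a‖)
    (hkill : ∀ x : WithConv (H →ₐ[A] Ω), x ^ p = 1)
    (hr0 : 0 ≤ r) (hr : (r / ‖(p : K)‖) ^ (p - 1) < ‖(p : K)‖)
    (x : H →ₐ[A] Ω) (h : H) : g (x h) = x h := by
  have hex := s56l_exists_fixed_lift ι hA hp jL jg 𝔞 η g hjL hpts hjg_int hjg_fix h𝔞 hgA hgn hkill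
    hr0 hr
  choose Λ hΛfix hΛrel using hex
  have hinj : Function.Injective Λ := by
    intro x₁ x₂ h12
    refine s56l_lift_injective ι hA hp jL jg 𝔞 η hpts hdiv hjg_int h𝔞 hkill hr0 hr x₁ x₂ (Λ x₁)
      (hΛrel x₁) ?_
    rw [h12]
    exact hΛrel x₂
  have : Finite (H →ₐ[A] Ω) := s56l_finite_points
  obtain ⟨x₀, hx₀⟩ := Finite.surjective_of_injective hinj x
  rw [← hx₀]
  exact hΛfix x₀ h

end Abstract

end Fermat.Agent.Lib.S56
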