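import Fermat.Agent.Lib.S56.LPadic

/-!
# Programme W (S56), wall W8-F2 (helper2): Fontaine's `(P_m)` for the points of a finite flat group scheme

`s56l_Pm_points` : `H` a finite flat commutative cocommutative Hopf algebra over `ℤ_(p)` whose `ℚ̄`-points
are killed by `p`, `L = ℚ(points)`, `m > p/(p-1)`  ⊢  `s56r_Pm p (padicPlace p) L m`.
-/

set_option autoImplicit false

noncomputable section

namespace Fermat.Agent.Lib.S56

open Fermat.Agent.Lib.Frey Fermat.Agent.Lib.PT GaloisRep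

local notation "Q̄" => AlgebraicClosure ℚ

section RingHomExt

variable (p : ℕ)

/-- ring homomorphisms out of `ℤ_(p)` are unique. -/
theorem s56l_ringHom_ext {S : Type*} [CommRing S] (f f' : ratLocalizedAt p →+* S) : f = f' := by
  ext r
  obtain ⟨d, hd⟩ : ∃ d : ℕ, d = (r : ℚ).den := ⟨_, rfl⟩
  have hd0 : d ≠ 0 := by rw [hd]; exact (r : ℚ).den_ne_zero
  have hmem : ((d : ℚ))⁻¹ ∈ ratLocalizedAt p := by
    show (((d : ℚ))⁻¹).den.Coprime p
    rw [Rat.inv_natCast_den, if_neg hd0, hd]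
    exact r.2
  let dinv : ratLocalizedAt p := ⟨(d : ℚ)⁻¹, hmem⟩
  have h1 : (d : ratLocalizedAt p) * dinv = 1 := by
    apply Subtype.ext
    show ((d : ratLocalizedAt p) : ℚ) * (d : ℚ)⁻¹ = 1
    have : ((d : ratLocalizedAt p) : ℚ) = d := rfl
    rw [this]
    exact mul_inv_cancel₀ (by exact_mod_cast hd0)
  have h2 : r * (d : ratLocalizedAt p) = (((r : ℚ).num : ℤ) : ratLocalizedAt p) := by
    apply Subtype.ext
    show (r : ℚ) * ((d : ratLocalizedAt p) : ℚ) = (((r : ℚ).num : ratLocalizedAt p) : ℚ)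
    have e1 : ((d : ratLocalizedAt p) : ℚ) = d := rfl
    have e2 : ((((r : ℚ).num : ℤ) : ratLocalizedAt p) : ℚ) = (r : ℚ).num := rfl
    rw [e1, e2, hd]
    exact Rat.mul_den_eq_num _
  have key : ∀ φ : ratLocalizedAt p →+* S, φ r = (((r : ℚ).num : ℤ) : S) * φ dinv := by
    intro φ
    calc φ r = φ (r * ((d : ratLocalizedAt p) * dinv)) := by rw [h1, mul_one]
      _ = φ (r * (d : ratLocalizedAt p)) * φ dinv := by rw [← mul_assoc, map_mul]
      _ = (((r : ℚ).num : ℤ) : S) * φ dinv := by rw [h2, map_intCast]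
  have hinv : ∀ φ : ratLocalizedAt p →+* S, (d : S) * φ dinv = 1 := by
    intro φ
    rw [← map_natCast φ, ← map_mul, h1, map_one]
  have h3 : f dinv = f' dinv := by
    calc f dinv = f dinv * ((d : S) * f' dinv) := by rw [hinv f', mul_one]
      _ = ((d : S) * f dinv) * f' dinv := by ring
      _ = f' dinv := by rw [hinv f, one_mul]
  rw [key f, key f', h3]

/-- the `ℤ_(p)`-algebra structure of a subring of `ℚ̄` containing `ℤ_(p)`. -/
@[reducible] def s56l_subringAlgebra (S : Subring Q̄)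
    (hS : ∀ r : ratLocalizedAt p, algebraMap (ratLocalizedAt p) Q̄ r ∈ S) :
    Algebra (ratLocalizedAt p) S :=
  ((algebraMap (ratLocalizedAt p) Q̄).codRestrict S hS).toAlgebra

end RingHomExt

section Main

variable (p : ℕ) [Fact p.Prime]

/-- **Fontaine's `(P_m)`** for the field generated by the points of a finite flat group scheme
killed by `p`, at the place `padicPlace p`, for every rational `m > p/(p-1)`. -/
theorem s56l_Pm_points {H : Type*} [CommRing H] [HopfAlgebra (ratLocalizedAt p) H]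
    [Module.Finite (ratLocalizedAt p) H] [Module.Flat (ratLocalizedAt p) H]
    [Coalgebra.IsCocomm (ratLocalizedAt p) H]
    (hkill : ∀ x : WithConv (H →ₐ[ratLocalizedAt p] Q̄), x ^ p = 1)
    (hp : p.Prime) (m : ℚ) (hm : (p : ℚ) / ((p : ℚ) - 1) < m) :
    s56r_Pm p hp (padicPlace p) (ptg_padicPlace_liesOver p)
      (IntermediateField.adjoin ℚ
        {y : Q̄ | ∃ (x : H →ₐ[ratLocalizedAt p] Q̄) (h : H), x h = y}) m := by
  intro g hg ⟨η⟩
  obtain ⟨L, hL⟩ : ∃ L : IntermediateField ℚ Q̄, L = IntermediateField.adjoin ℚ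
      {y : Q̄ | ∃ (x : H →ₐ[ratLocalizedAt p] Q̄) (h : H), x h = y} := ⟨_, rfl⟩
  rw [← hL] at η ⊢
  have hP := ptg_padicPlace_liesOver p
  -- `ℤ_(p)` lies in all the rings
  have hR_P : ∀ r : ratLocalizedAt p, algebraMap (ratLocalizedAt p) Q̄ r ∈ padicPlace p := by
    intro r
    rw [s56l_mem_place_iff, AlgHom.commutes]
    exact s56l_norm_algebraMap_le p r
  have hSL : ∀ r : ratLocalizedAt p,
      algebraMap (ratLocalizedAt p) Q̄ r ∈ s56r_locRing (padicPlace p) L := fun r =>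
    ⟨hR_P r, L.algebraMap_mem _⟩
  have hSg : ∀ r : ratLocalizedAt p, algebraMap (ratLocalizedAt p) Q̄ r ∈
      s56r_fixRing (ford_vQ (padicPlace p) hp hP) g.toRingEquiv := fun r =>
    ⟨(ford_vQ_nonneg_iff hp hP _).2 (hR_P r), g.commutes _⟩
  let algL := s56l_subringAlgebra p (s56r_locRing (padicPlace p) L) hSL
  let algg := s56l_subringAlgebra p (s56r_fixRing (ford_vQ (padicPlace p) hp hP) g.toRingEquiv) hSg
  let jL : ↥(s56r_locRing (padicPlace p) L) →ₐ[ratLocalizedAt p] Q̄ :=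
    { (s56r_locRing (padicPlace p) L).subtype with commutes' := fun r => rfl }
  let jg : ↥(s56r_fixRing (ford_vQ (padicPlace p) hp hP) g.toRingEquiv) →ₐ[ratLocalizedAt p] Q̄ :=
    { (s56r_fixRing (ford_vQ (padicPlace p) hp hP) g.toRingEquiv).subtype with
      commutes' := fun r => rfl }
  let η' : ↥(s56r_locRing (padicPlace p) L) →ₐ[ratLocalizedAt p]
      (↥(s56r_fixRing (ford_vQ (padicPlace p) hp hP) g.toRingEquiv) ⧸
        s56r_idealGe (ford_vQ (padicPlace p) hp hP) g.toRingEquiv m) :=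
    { η with
      commutes' := fun r => by
        have := RingHom.congr_fun (s56l_ringHom_ext p
          (η.comp (algebraMap (ratLocalizedAt p) ↥(s56r_locRing (padicPlace p) L)))
          (algebraMap (ratLocalizedAt p) _)) r
        exact this }
  have : Module.Free (ratLocalizedAt p) H := Module.free_of_flat_of_isLocalRing
  have hjL : Function.Injective jL := Subtype.val_injective
  -- the points have integral coordinates in `L`
  have hpts : ∀ (x : H →ₐ[ratLocalizedAt p] Q̄) (h : H), x h ∈ jL.range := by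
    intro x h
    have h1 : x h ∈ padicPlace p := by
      rw [s56l_mem_place_iff]
      exact s56l_point_norm_le (s56l_iota p) (s56l_norm_algebraMap_le p) x h
    have h2 : x h ∈ L := by
      rw [hL]
      exact IntermediateField.subset_adjoin _ _ ⟨x, h, rfl⟩
    exact ⟨⟨x h, h1, h2⟩, rfl⟩
  have hdiv : ∀ a b : ↥(s56r_locRing (padicPlace p) L), jL b ≠ 0 →
      ‖s56l_iota p (jL a)‖ ≤ ‖s56l_iota p (jL b)‖ →
      ∃ c : ↥(s56r_locRing (padicPlace p) L), c * b = a := by
    intro a b hb hab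
    have hb' : (b : Q̄) ≠ 0 := hb
    have hnb : 0 < ‖s56l_iota p (b : Q̄)‖ := norm_pos_iff.2 ((map_ne_zero _).2 hb')
    have h1 : (a : Q̄) / (b : Q̄) ∈ padicPlace p := by
      rw [s56l_mem_place_iff, map_div₀, norm_div, div_le_one hnb]
      exact hab
    have h2 : (a : Q̄) / (b : Q̄) ∈ L := L.div_mem a.2.2 b.2.2
    refine ⟨⟨(a : Q̄) / (b : Q̄), h1, h2⟩, Subtype.ext ?_⟩
    show (a : Q̄) / (b : Q̄) * (b : Q̄) = (a : Q̄)
    exact div_mul_cancel₀ _ hb'
  have hjg_int : ∀ b : ↥(s56r_fixRing (ford_vQ (padicPlace p) hp hP) g.toRingEquiv),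
      ‖s56l_iota p (jg b)‖ ≤ 1 := by
    intro b
    have h1 : (b : Q̄) ∈ padicPlace p := (ford_vQ_nonneg_iff hp hP _).1 b.2.1
    exact (s56l_mem_place_iff p _).1 h1
  have hjg_fix : ∀ b : ↥(s56r_fixRing (ford_vQ (padicPlace p) hp hP) g.toRingEquiv),
      g.toRingEquiv (jg b) = jg b := fun b => b.2.2
  have h𝔞 : ∀ b : ↥(s56r_fixRing (ford_vQ (padicPlace p) hp hP) g.toRingEquiv),
      b ∈ s56r_idealGe (ford_vQ (padicPlace p) hp hP) g.toRingEquiv m ↔
        ‖s56l_iota p (jg b)‖ ≤ (p : ℝ) ^ (-(m : ℝ)) := by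
    intro b
    rw [s56r_mem_idealGe]
    exact s56l_le_vQ_iff p hp m (b : Q̄)
  have hgA : ∀ a : ratLocalizedAt p, g.toRingEquiv (algebraMap (ratLocalizedAt p) Q̄ a) =
      algebraMap (ratLocalizedAt p) Q̄ a := fun a => g.commutes _
  have hgn : ∀ a : Q̄, ‖s56l_iota p (g.toRingEquiv a)‖ = ‖s56l_iota p a‖ := by
    intro a
    exact s56l_norm_eq_of_v_eq p hp (ford_vQ_decomposition hp hP g hg a)
  have hr0 : (0 : ℝ) ≤ (p : ℝ) ^ (-(m : ℝ)) :=
    (Real.rpow_pos_of_pos (by exact_mod_cast hp.pos) _).le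
  have key := s56l_Pm_abstract (s56l_iota p) (s56l_norm_algebraMap_le p) (s56l_pHyp p) jL jg
    (s56r_idealGe (ford_vQ (padicPlace p) hp hP) g.toRingEquiv m) η' g.toRingEquiv hjL hpts hdiv
    hjg_int hjg_fix h𝔞 hgA hgn hkill hr0 (s56l_radius_ok p hp hm)
  -- conclusion
  intro y hy
  rw [hL] at hy
  induction hy using IntermediateField.adjoin_induction with
  | mem y hy =>
    obtain ⟨x, h, rfl⟩ := hy
    exact key x h
  | algebraMap r => exact g.commutes r
  | add x y _ _ hx hy => rw [map_add, hx, hy]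
  | inv x _ hx => rw [map_inv₀, hx]
  | mul x y _ _ hx hy => rw [map_mul, hx, hy]

end Main

end Fermat.Agent.Lib.S56
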