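import Fermat.Agent.Lib.S56.LLift

/-!
# Programme W (S56), wall W8-F2 (helper2): push-forwards, integrality, finiteness of points

* `s56l_push f` : the ring hom `WithConv (C →ₗ[A] B) →+* WithConv (C →ₗ[A] B')` induced by an
  `A`-algebra map `f : B → B'`.
* `s56l_norm_le_one_of_isIntegral` : in an ultrametric normed field over `A` (`‖a‖ ≤ 1`), elements
  integral over `A` have norm `≤ 1`.
* `s56l_mem_range_of_isIntegral` : elements integral over `A` of an extension of an algebraically closed
  field `Ω` lie in `Ω`.
* `s56l_finite_points` : a finite `A`-algebra has finitely many points in a domain.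
-/

set_option autoImplicit false

noncomputable section

namespace Fermat.Agent.Lib.S56

open Coalgebra TensorProduct WithConv Polynomial

section Push

variable {A : Type*} [CommRing A] {B : Type*} [CommRing B] [Algebra A B]
  {B' : Type*} [CommRing B'] [Algebra A B']
  {C : Type*} [AddCommGroup C] [Module A C] [Coalgebra A C]

/-- push-forward of the convolution algebra along an algebra map. -/
def s56l_push (f : B →ₐ[A] B') : WithConv (C →ₗ[A] B) →+* WithConv (C →ₗ[A] B') where
  toFun γ := toConv (f.toLinearMap.comp γ.ofConv)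
  map_one' := by
    apply WithConv.ext
    apply LinearMap.ext
    intro c
    show f (algebraMap A B (counit c)) = algebraMap A B' (counit c)
    rw [AlgHom.commutes]
  map_mul' γ γ' := by
    apply WithConv.ext
    exact LinearMap.algHom_comp_convMul_distrib f γ γ'
  map_zero' := by
    apply WithConv.ext
    apply LinearMap.ext
    intro c
    show f ((0 : C →ₗ[A] B) c) = 0
    simp
  map_add' γ γ' := by
    apply WithConv.ext
    apply LinearMap.ext
    intro c
    show f ((γ.ofConv + γ'.ofConv) c) = f (γ.ofConv c) + f (γ'.ofConv c)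
    simp

@[simp] theorem s56l_push_apply (f : B →ₐ[A] B') (γ : WithConv (C →ₗ[A] B)) (c : C) :
    s56l_push f γ c = f (γ c) := rfl

theorem s56l_push_toConv (f : B →ₐ[A] B') (γ : C →ₗ[A] B) :
    s56l_push f (toConv γ) = toConv (f.toLinearMap.comp γ) := rfl

theorem s56l_push_injective (f : B →ₐ[A] B') (hf : Function.Injective f) :
    Function.Injective (s56l_push (C := C) f) := by
  intro γ γ' h
  apply WithConv.ext
  apply LinearMap.ext
  intro c
  apply hf
  have := congrArg (fun ξ : WithConv (C →ₗ[A] B') => ξ c) h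
  simpa using this

end Push

section Antipode

variable {A : Type*} [CommRing A] {H : Type*} [CommRing H] [HopfAlgebra A H]
  {B : Type*} [CommRing B] [Algebra A B]

/-- an honest point is invertible in the convolution algebra, with inverse `x ∘ S`
(any commutative target). -/
theorem s56l_point_mul_antipode_ring (x : H →ₐ[A] B) :
    (toConv x.toLinearMap : WithConv (H →ₗ[A] B)) *
      toConv (x.toLinearMap ∘ₗ HopfAlgebra.antipode A) = 1 := by
  have h := LinearMap.algHom_comp_convMul_distrib x (toConv (LinearMap.id : H →ₗ[A] H))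
    (toConv (HopfAlgebra.antipode A (A := H)))
  rw [LinearMap.id_mul_antipode] at h
  apply WithConv.ext
  refine Eq.trans ?_ (h.symm.trans ?_)
  · rfl
  · apply LinearMap.ext
    intro c
    show x (algebraMap A H (counit c)) = algebraMap A B (counit c)
    rw [AlgHom.commutes]

/-- the `p`-th convolution power of a point, as a linear map. -/
theorem s56l_toConv_pow_of_point (x : H →ₐ[A] B) (n : ℕ) (y : WithConv (H →ₐ[A] B))
    (hy : y = toConv x) (hyn : y ^ n = 1) :
    (toConv x.toLinearMap : WithConv (H →ₗ[A] B)) ^ n = 1 := by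
  have h := AlgHom.toLinearMap_convPow y n
  rw [hyn] at h
  rw [hy] at h
  exact h.symm

end Antipode

section Integral

variable {A : Type*} [CommRing A] {K : Type*} [NormedField K] [IsUltrametricDist K] [Algebra A K]

/-- elements integral over `A` have norm at most one. -/
theorem s56l_norm_le_one_of_isIntegral (hA : ∀ a : A, ‖algebraMap A K a‖ ≤ 1) {y : K}
    (hy : IsIntegral A y) : ‖y‖ ≤ 1 := by
  by_contra hlt
  rw [not_le] at hlt
  obtain ⟨f, hf, hfy⟩ := hy
  have hy0 : 0 < ‖y‖ := lt_trans one_pos hlt
  -- y ^ n = - ∑_{i < n} a_i y ^ i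
  have h1 : eval₂ (algebraMap A K) y f = 0 := hfy
  rw [eval₂_eq_sum_range, Finset.sum_range_succ, hf.coeff_natDegree, map_one, one_mul] at h1
  have h2 : y ^ f.natDegree = -∑ i ∈ Finset.range f.natDegree, algebraMap A K (f.coeff i) * y ^ i :=
    eq_neg_of_add_eq_zero_right h1
  have h3 : ‖y ^ f.natDegree‖ < ‖y‖ ^ f.natDegree := by
    rcases Nat.eq_zero_or_pos f.natDegree with h0 | hpos
    · exfalso
      rw [h0, Finset.range_zero, Finset.sum_empty, neg_zero, pow_zero] at h2
      exact one_ne_zero h2
    rw [h2, norm_neg]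
    have hnn : (0 : ℝ) ≤ ‖y‖ ^ (f.natDegree - 1) := by positivity
    refine lt_of_le_of_lt (IsUltrametricDist.norm_sum_le_of_forall_le_of_nonneg hnn
      fun i hi => ?_) ?_
    · rw [norm_mul, norm_pow]
      have hi' : i ≤ f.natDegree - 1 := Nat.le_pred_of_lt (Finset.mem_range.1 hi)
      calc ‖algebraMap A K (f.coeff i)‖ * ‖y‖ ^ i ≤ 1 * ‖y‖ ^ i :=
            mul_le_mul_of_nonneg_right (hA _) (by positivity)
        _ = ‖y‖ ^ i := one_mul _
        _ ≤ ‖y‖ ^ (f.natDegree - 1) := pow_le_pow_right₀ hlt.le hi'
    · exact pow_lt_pow_right₀ hlt (Nat.sub_lt hpos one_pos)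
  rw [norm_pow] at h3
  exact lt_irrefl _ h3

end Integral

section AlgClosed

variable {A : Type*} [CommRing A] {Ω : Type*} [Field Ω] [IsAlgClosed Ω] [Algebra A Ω]
  {K : Type*} [Field K] [Algebra A K]

/-- an element of an extension `K` of the algebraically closed field `Ω` which is integral over `A`
lies in `Ω`. -/
theorem s56l_mem_range_of_isIntegral (ι : Ω →ₐ[A] K) {y : K} (hy : IsIntegral A y) :
    y ∈ ι.range := by
  obtain ⟨f, hf, hfy⟩ := hy
  have hfΩ : (f.map (algebraMap A Ω)).Monic := hf.map _
  have hsplit : (f.map (algebraMap A Ω)).Splits := IsAlgClosed.splits _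
  have hmap : (f.map (algebraMap A Ω)).map (ι : Ω →+* K) = f.map (algebraMap A K) := by
    rw [Polynomial.map_map]
    congr 1
    ext a
    simp
  have hroot : ((f.map (algebraMap A Ω)).map (ι : Ω →+* K)).IsRoot y := by
    rw [hmap, IsRoot.def, eval_map]
    exact hfy
  obtain ⟨z, hz⟩ := hsplit.mem_range_of_isRoot hfΩ.ne_zero hroot
  exact ⟨z, hz⟩

end AlgClosed

section Finite

variable {A : Type*} [CommRing A] {H : Type*} [CommRing H] [Algebra A H] [Module.Finite A H]
  {Ω : Type*} [CommRing Ω] [IsDomain Ω] [Algebra A Ω]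

/-- a finite `A`-algebra has finitely many points in a domain. -/
theorem s56l_finite_points : Finite (H →ₐ[A] Ω) := by
  classical
  obtain ⟨n, s, hs⟩ := Module.Finite.exists_fin (R := A) (M := H)
  have hint : ∀ i, IsIntegral A (s i) := fun i => Algebra.IsIntegral.isIntegral (s i)
  choose f hf hfs using hint
  -- the finite sets of roots
  let T : Fin n → Set Ω := fun i => {y | eval₂ (algebraMap A Ω) y (f i) = 0}
  have hT : ∀ i, (T i).Finite := by
    intro i
    have hne : (f i).map (algebraMap A Ω) ≠ 0 := ((hf i).map _).ne_zero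
    refine Set.Finite.subset ((f i).map (algebraMap A Ω)).roots.toFinset.finite_toSet ?_
    intro y hy
    simp only [Finset.mem_coe, Multiset.mem_toFinset]
    rw [mem_roots hne, IsRoot.def, eval_map]
    exact hy
  have : ∀ i, Finite (T i) := fun i => (hT i).to_subtype
  let Φ : (H →ₐ[A] Ω) → (∀ i, T i) := fun x i => ⟨x (s i), by
    show eval₂ (algebraMap A Ω) (x (s i)) (f i) = 0
    have := congrArg x (hfs i)
    rw [map_zero] at this
    rw [← this]
    exact (Polynomial.hom_eval₂ (f i) (algebraMap A H) (x : H →+* Ω) (s i)).symm ▸ by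
      congr 1
      ext a
      simp⟩
  refine Finite.of_injective Φ ?_
  intro x x' h
  apply AlgHom.toLinearMap_injective
  refine LinearMap.ext_on_range hs fun i => ?_
  have := congrArg (fun φ => (φ i : Ω)) h
  exact this

end Finite

end Fermat.Agent.Lib.S56
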