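import Mathlib
import Fermat.Agent.Lib.S56.F3Kum

/-!
# Programme W (S56), wall W8, `p = 3` (helper2): what `det ρ̄ = ω` gives in the tame case

* `s56l_det_of_zpow` : `hdet` + `g ζ = ζ^a` ⊢ `det ρ(g) = a`;
* `s56l_tame3_dichotomy` : `p = 3`, `αβ = -1`, `α³ = α`, `β³ = β` ⊢ `(α, β) = (1, -1)` or `(-1, 1)`  [`f = 1`];
* `s56l_tame3_nu_sq` : `p = 3`, `αβ = -1`, `α³ = β` ⊢ `(α β⁻¹)² = -1`  [`f = 2`, the hypothesis `hψτ` of
  helper6's `s56r_cc_f2_three`];
* `s56l_tame3_no_scalar` : `p = 3`, `α² = -1`, `α³ = α` is impossible  [scalar tame inertia].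
-/

set_option autoImplicit false

noncomputable section

namespace Fermat.Agent.Lib.S56

open Module

local notation "Qbar" => AlgebraicClosure ℚ
local notation "GQ" => (AlgebraicClosure ℚ ≃ₐ[ℚ] AlgebraicClosure ℚ)

section Det

variable {p : ℕ} [hpF : Fact p.Prime] {k : Type} [Field k] [Algebra (ZMod p) k]
  {V : Type} [AddCommGroup V] [Module k V] {ρ : GQ →* Module.End k V}

/-- `det ρ = ω`, evaluated on an element acting on `μ_p` through `a`. -/
theorem s56l_det_of_zpow {ζ : Qbar} (hζ : ζ ^ p = 1) (hζ1 : ζ ≠ 1)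
    (hdet : ∀ (σ : GQ) (a : ℕ), (∀ μ : Qbar, μ ^ p = 1 → σ μ = μ ^ a) →
      LinearMap.det (ρ σ) = (a : k))
    {g : GQ} {a : ZMod p} (hg : g ζ = s56f_zpow ζ a) :
    LinearMap.det (ρ g) = algebraMap (ZMod p) k a := by
  have hprim : IsPrimitiveRoot ζ p :=
    IsPrimitiveRoot.iff_orderOf.mpr (orderOf_eq_prime hζ hζ1)
  have : NeZero p := ⟨hpF.out.ne_zero⟩
  have h1 := hdet g a.val (fun μ hμ => by
    obtain ⟨i, -, rfl⟩ := hprim.eq_pow_of_pow_eq_one hμ
    rw [map_pow, hg, s56f_zpow, ← pow_mul, ← pow_mul, mul_comm])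
  rw [h1]
  conv_rhs => rw [← ZMod.natCast_zmod_val a]
  rw [map_natCast]

end Det

section Three

variable {k : Type} [Field k]

/-- `f = 1`, `p = 3`: the eigenvalues of tame inertia are `1` and `-1`. -/
theorem s56l_tame3_dichotomy {α β : k} (hdet : α * β = -1) (hαp : α ^ 3 = α) :
    (α = 1 ∧ β = -1) ∨ (α = -1 ∧ β = 1) := by
  have hα0 : α ≠ 0 := by
    rintro rfl
    rw [zero_mul] at hdet
    exact one_ne_zero (neg_eq_zero.mp hdet.symm)
  have h1 : (α - 1) * (α + 1) = 0 := by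
    have h2 : α * ((α - 1) * (α + 1)) = 0 := by
      have : α * ((α - 1) * (α + 1)) = α ^ 3 - α := by ring
      rw [this, hαp, sub_self]
    rcases mul_eq_zero.mp h2 with h | h
    · exact absurd h hα0
    · exact h
  rcases mul_eq_zero.mp h1 with h | h
  · left
    have hα : α = 1 := sub_eq_zero.mp h
    refine ⟨hα, ?_⟩
    rw [hα, one_mul] at hdet
    exact hdet
  · right
    have hα : α = -1 := eq_neg_of_add_eq_zero_left h
    refine ⟨hα, ?_⟩
    rw [hα] at hdet
    have : β = -(-1 * β) := by ring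
    rw [this, hdet, neg_neg]

/-- `f = 2`, `p = 3`: `ν(τ)² = -1`. -/
theorem s56l_tame3_nu_sq {α β : k} (hdet : α * β = -1) (hαp : α ^ 3 = β) :
    (α * β⁻¹) ^ 2 = -1 := by
  have hα0 : α ≠ 0 := by
    rintro rfl
    rw [zero_mul] at hdet
    exact one_ne_zero (neg_eq_zero.mp hdet.symm)
  have hβ0 : β ≠ 0 := by
    rintro rfl
    rw [mul_zero] at hdet
    exact one_ne_zero (neg_eq_zero.mp hdet.symm)
  have h4 : α ^ 4 = -1 := by
    have : α ^ 4 = α * α ^ 3 := by ring
    rw [this, hαp, hdet]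
  rw [mul_pow, inv_pow, ← hαp]
  have h6 : (α ^ 3) ^ 2 = α ^ 2 * α ^ 4 := by ring
  rw [h6, h4]
  field_simp

/-- scalar tame inertia is impossible for `p = 3` when `det = ω`. -/
theorem s56l_tame3_no_scalar {α : k} (h2 : (2 : k) ≠ 0) (hdet : α * α = -1) (hαp : α ^ 3 = α) :
    False := by
  have h1 : α ^ 3 = -α := by
    have : α ^ 3 = α * α * α := by ring
    rw [this, hdet]
    ring
  rw [hαp] at h1
  have h3 : (2 : k) * α = 0 := by linear_combination h1
  have hα0 : α ≠ 0 := by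
    rintro rfl
    rw [zero_mul] at hdet
    exact one_ne_zero (neg_eq_zero.mp hdet.symm)
  rcases mul_eq_zero.mp h3 with h | h
  · exact h2 h
  · exact hα0 h

end Three

end Fermat.Agent.Lib.S56
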