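/-
PROGRAMME W (S56), wall [W8-F3], `p = 3`: THE WILD ASSEMBLY WITH THE BOREL SIDE CONDITION (helper2; a copy
of helper8's `s56f_wildAsm` (`F3WildAsm.lean`, 65be87e) with the block "lower-left entries of good cocycles
vanish on `V₁`" replaced by: `det ρ = ω` ⇒ `d(τ)² = 1`; `d(τ) = -1` ⇒ `a(τ) = 1`, excluded by `s56l_NoWild`;
`d(τ) = 1` ⇒ the stable line is an ordinary line, and `s56l_BorelAt` removes the lower-left entry).
`s56l_wildAsmB_of_contracts : (contracts) → ∀ p, p = 3 → s56l_IfaceWildAsmB p`.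
-/
import Mathlib
import Fermat.Agent.Lib.S56.F3WildAsm
import Fermat.Agent.Lib.S56.IfaceF3c
import Fermat.Agent.Lib.S56.LTame3
import Fermat.Agent.Lib.S56.RChar3

set_option autoImplicit false

noncomputable section

namespace Fermat.Agent.Lib.S56

open Fermat.Agent.Lib.PT Fermat.Agent.Lib.Frey Polynomial Module

local notation "Qbar" => AlgebraicClosure ℚ
local notation "GQ" => (AlgebraicClosure ℚ ≃ₐ[ℚ] AlgebraicClosure ℚ)

/-- **THE WILD ASSEMBLY WITH THE BOREL SIDE CONDITION, `p = 3`.** -/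
theorem s56l_wildAsmB_of_contracts (hHit : s56f_IfaceHit) (hCount : s56f_IfaceCount)
    (hA1 : s56f_IfaceArith1)
    (hDict : ∀ (p : ℕ) [hpF : Fact p.Prime] (P : ValuationSubring Qbar) (hP : P.LiesOverPrime p)
      (π₁ ζ : Qbar), π₁ ^ (p ^ 2 - 1) = -(p : Qbar) → ζ ^ p = 1 → ζ ≠ 1 → s56f_Dict p P hP π₁ ζ)
    (hTameGen : s56f_IfaceTameGen) (hOmega : s56f_IfaceOmega) (hK1 : s56f_IfaceK1)
    (hFrobPi : s56f_IfaceFrobPi) (hTameMax : s56f_IfaceTameMax) (hTameRel : s56f_IfaceTameRel)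
    (hFrobGen : s56g_IfaceFrobGen) (hWildLine : s56f_IfaceWildLine) (p : ℕ) (hp3 : p = 3) :
    s56l_IfaceWildAsmB p := by
  intro hpF k _ _ _ V _ _ _ ρ P Good hyp hNW hwild
  obtain ⟨hp2, hdim, ⟨F₀, hF₀fd, hF₀⟩, _, hP, hGsup, hGfd, hKB, hdet⟩ := hyp
  have hp : p.Prime := hpF.out
  -- the trivial case: no good field
  by_cases hexL : ∃ L, Good L ∧ ∀ σ ∈ L.fixingSubgroup, ρ σ = 1
  swap
  · refine ⟨0, ⟨fun _ _ _ _ => by simp, fun _ _ => by simp, F₀, hF₀fd, hF₀, fun _ _ _ => rfl⟩,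
      fun c hc _ => ?_⟩
    obtain ⟨L, hL, hLρ, _⟩ := hc.good
    exact absurd ⟨L, hL, hLρ⟩ hexL
  obtain ⟨L₀, hL₀, hL₀ρ⟩ := hexL
  -- the local dictionary
  have he1 : 0 < p ^ 2 - 1 := by
    have : 2 ≤ p := hp.two_le
    have : 4 ≤ p ^ 2 := by nlinarith
    omega
  obtain ⟨π₁, hπ₁⟩ : ∃ π₁ : Qbar, π₁ ^ (p ^ 2 - 1) = -(p : Qbar) :=
    IsAlgClosed.exists_pow_nat_eq _ he1
  obtain ⟨ζ, hζp, hζ1⟩ := s56f_wa_exists_zeta p
  have d := hDict p P hP π₁ ζ hπ₁ hζp hζ1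
  obtain ⟨τ, ξ, aτ, T, hgenI, hexpI⟩ := s56f_wa_exists_tau hTameGen hOmega hp2 hP hπ₁ hζp hζ1
  obtain ⟨φ, hφ, hφπ⟩ := hFrobPi p hp P hP π₁ hπ₁
  have hφD : φ ∈ P.decompositionSubgroup ℚ := hφ.mem_decompositionSubgroup
  have hτD : τ ∈ P.decompositionSubgroup ℚ := T.memD
  -- the `D`-stable line, the adapted basis, the matrices
  obtain ⟨ℓ, hℓ1, hℓD⟩ := hWildLine p k P hP V hdim ρ ⟨F₀, hF₀fd, hF₀⟩ hwild
  obtain ⟨b, hb⟩ := s56f_wa_exists_basis hdim ℓ hℓ1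
  have hb0ℓ : b 0 ∈ ℓ := by
    -- `ℓ ≠ 0` contains a nonzero multiple of `b 0`
    obtain ⟨v, hv0, _⟩ := finrank_eq_one_iff'.mp hℓ1
    obtain ⟨c, hc⟩ := hb v v.2
    have hc0 : c ≠ 0 := by
      rintro rfl
      rw [zero_smul] at hc
      exact hv0 (Subtype.ext hc)
    have : b 0 = c⁻¹ • (v : V) := by rw [hc, smul_smul, inv_mul_cancel₀ hc0, one_smul]
    rw [this]
    exact ℓ.smul_mem _ v.2
  let Tm := LinearMap.toMatrixAlgEquiv b
  let R : GQ →* Matrix (Fin 2) (Fin 2) k :=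
    { toFun := fun g => Tm (ρ g)
      map_one' := by rw [map_one, map_one]
      map_mul' := fun g h => by rw [map_mul, map_mul] }
  have hR : ∀ g, R g = Tm (ρ g) := fun _ => rfl
  have htri : ∀ g ∈ P.decompositionSubgroup ℚ, R g 1 0 = 0 := by
    intro g hg
    obtain ⟨c, hc⟩ := hb _ (hℓD g hg (b 0) hb0ℓ)
    rw [hR, LinearMap.toMatrixAlgEquiv_apply, hc, map_smul, Basis.repr_self]
    simp
  have hRone : ∀ g, ρ g = 1 → R g = 1 := fun g hg => by rw [hR, hg, map_one]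
  have hID : ∀ σ ∈ P.inertiaSubgroupIn ℚ, σ ∈ P.decompositionSubgroup ℚ :=
    fun σ hσ => s56f_wa_inertia_le hσ
  have hV₁I : ∀ σ ∈ s56f_V1 P π₁, σ ∈ P.inertiaSubgroupIn ℚ := fun σ hσ => hσ.1
  -- (L4) the diagonal characters
  have ha_mul : ∀ g ∈ P.decompositionSubgroup ℚ, ∀ h ∈ P.decompositionSubgroup ℚ,
      R (g * h) 0 0 = R g 0 0 * R h 0 0 := fun g _ h hh => s56f_wc_a_mul htri g hh
  have hd_mul : ∀ g ∈ P.decompositionSubgroup ℚ, ∀ h ∈ P.decompositionSubgroup ℚ,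
      R (g * h) 1 1 = R g 1 1 * R h 1 1 := fun g hg h _ => s56f_wc_d_mul htri hg h
  have haF : ∀ g ∈ P.decompositionSubgroup ℚ, g ∈ F₀.fixingSubgroup → R g 0 0 = 1 :=
    fun g _ hgF => by rw [hRone g (hF₀ g hgF)]; rfl
  have hdF : ∀ g ∈ P.decompositionSubgroup ℚ, g ∈ F₀.fixingSubgroup → R g 1 1 = 1 :=
    fun g _ hgF => by rw [hRone g (hF₀ g hgF)]; rfl
  obtain ⟨ha0, hap⟩ := s56f_wa_char_inertia hTameRel hP hφ (fun g => R g 0 0) ha_mul hF₀fd haF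
  obtain ⟨hd0, hdp⟩ := s56f_wa_char_inertia hTameRel hP hφ (fun g => R g 1 1) hd_mul hF₀fd hdF
  have hR1 : R 1 = 1 := map_one R
  have ha_pow : ∀ g ∈ P.decompositionSubgroup ℚ, ∀ n : ℕ, R (g ^ n) 0 0 = R g 0 0 ^ n := by
    intro g hg n
    induction n with
    | zero => rw [pow_zero, pow_zero, hR1]; rfl
    | succ n ih => rw [pow_succ, ha_mul _ (pow_mem hg n) _ hg, ih, pow_succ]
  have hd_pow : ∀ g ∈ P.decompositionSubgroup ℚ, ∀ n : ℕ, R (g ^ n) 1 1 = R g 1 1 ^ n := by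
    intro g hg n
    induction n with
    | zero => rw [pow_zero, pow_zero, hR1]; rfl
    | succ n ih => rw [pow_succ, hd_mul _ (pow_mem hg n) _ hg, ih, pow_succ]
  -- (L5) the diagonal characters are trivial on `V₁`
  have hadV : ∀ u ∈ s56f_V1 P π₁, R u 0 0 = 1 ∧ R u 1 1 = 1 := by
    let K : Subgroup GQ :=
      { carrier := {σ | σ ∈ P.decompositionSubgroup ℚ ∧ R σ 0 0 = 1 ∧ R σ 1 1 = 1}
        mul_mem' := by
          rintro x y ⟨hx, hxa, hxd⟩ ⟨hy, hya, hyd⟩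
          exact ⟨mul_mem hx hy, by rw [ha_mul x hx y hy, hxa, hya, one_mul],
            by rw [hd_mul x hx y hy, hxd, hyd, one_mul]⟩
        one_mem' := ⟨one_mem _, by rw [hR1]; rfl, by rw [hR1]; rfl⟩
        inv_mem' := by
          rintro x ⟨hx, hxa, hxd⟩
          refine ⟨inv_mem hx, ?_, ?_⟩
          · have := s56f_wc_a_inv htri hx
            rwa [hxa, one_mul] at this
          · have := s56f_wc_d_inv htri hx
            rwa [hxd, one_mul] at this }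
    have hK := hTameMax p hp P hP π₁ hπ₁ K
      ⟨F₀, hF₀fd, fun σ hσ hσF => ⟨hID σ hσ, haF σ (hID σ hσ) hσF, hdF σ (hID σ hσ) hσF⟩⟩
      (fun g hg x hx hxK => by
        obtain ⟨hxD, hxa, hxd⟩ := hxK
        have hgD := hID g hg
        refine ⟨mul_mem (mul_mem hgD hxD) (inv_mem hgD), ?_, ?_⟩
        · rw [ha_mul _ (mul_mem hgD hxD) _ (inv_mem hgD), ha_mul g hgD x hxD, hxa, mul_one]
          exact s56f_wc_a_inv htri hgD
        · rw [hd_mul _ (mul_mem hgD hxD) _ (inv_mem hgD), hd_mul g hgD x hxD, hxd, mul_one]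
          exact s56f_wc_d_inv htri hgD)
      (fun σ hσ => by
        have hσD := hID σ hσ
        refine ⟨pow_mem hσD _, ?_, ?_⟩
        · rw [ha_pow σ hσD]
          exact s56f_wa_pow_eq_one (ha0 σ hσD) (hap σ hσ)
        · rw [hd_pow σ hσD]
          exact s56f_wa_pow_eq_one (hd0 σ hσD) (hdp σ hσ))
    intro u hu
    exact (hK u hu).2
  have hθV : ∀ u ∈ s56f_V1 P π₁, s56f_wc_theta R u = 1 := by
    intro u hu
    unfold s56f_wc_theta
    rw [(hadV u hu).1, (hadV u⁻¹ (inv_mem hu)).2, one_mul]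
  have hθ'V : ∀ u ∈ s56f_V1 P π₁, s56f_wc_thetaInv R u = 1 := by
    intro u hu
    unfold s56f_wc_thetaInv
    rw [(hadV u hu).2, (hadV u⁻¹ (inv_mem hu)).1, one_mul]
  -- (L6) the tame field `K₁`
  obtain ⟨N, hN0, hN⟩ := s56f_wa_exists_order ρ φ
  obtain ⟨K₁, hK₁fd, hK₁n, hK₁t, hζK, hπK, hV₁K, hK₁gen⟩ :=
    hK1 p hp hp2 P hP π₁ ζ hπ₁ hζp hζ1 N hN0
  have hρU : ∀ σ ∈ P.decompositionSubgroup ℚ, σ ∈ K₁.fixingSubgroup →
      ∃ ι ∈ s56f_V1 P π₁, ρ σ = ρ ι := by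
    intro σ hσ hσK
    obtain ⟨j, ι, hNj, hι, hx⟩ := hK₁gen φ hφ hφπ σ hσ hσK F₀ hF₀fd
    refine ⟨ι, hι, ?_⟩
    have h1 : σ = φ ^ j * ι * ((φ ^ j * ι)⁻¹ * σ) := by group
    obtain ⟨m, rfl⟩ := hNj
    have h2 : ρ (φ ^ (N * m)) = 1 := by rw [map_pow, pow_mul, hN, one_pow]
    conv_lhs => rw [h1]
    rw [map_mul, map_mul, hF₀ _ hx, h2, one_mul, mul_one]
  have hadU : ∀ σ ∈ P.decompositionSubgroup ℚ, σ ∈ K₁.fixingSubgroup →
      R σ 0 0 = 1 ∧ R σ 1 1 = 1 := by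
    intro σ hσ hσK
    obtain ⟨ι, hι, hρ⟩ := hρU σ hσ hσK
    rw [hR, hρ, ← hR]
    exact hadV ι hι
  have hθU : ∀ u ∈ P.decompositionSubgroup ℚ, u ∈ K₁.fixingSubgroup → s56f_wc_theta R u = 1 := by
    intro u hu huK
    unfold s56f_wc_theta
    rw [(hadU u hu huK).1, (hadU u⁻¹ (inv_mem hu) (inv_mem huK)).2, one_mul]
  have hθ'U : ∀ u ∈ P.decompositionSubgroup ℚ, u ∈ K₁.fixingSubgroup →
      s56f_wc_thetaInv R u = 1 := by
    intro u hu huK
    unfold s56f_wc_thetaInv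
    rw [(hadU u hu huK).2, (hadU u⁻¹ (inv_mem hu) (inv_mem huK)).1, one_mul]
  -- (L7) `β` does not vanish on `V₁`
  have hβne : ∃ u ∈ s56f_V1 P π₁, s56f_wc_beta R u ≠ 0 := by
    by_contra hcon
    apply hwild
    intro σ hσ
    refine ⟨p ^ 2 - 1, ?_, ?_⟩
    · rw [Nat.coprime_comm]
      exact (Nat.Prime.coprime_iff_not_dvd hp).mpr s56f_not_dvd_e
    · have hu := hexpI σ hσ
      have hβ0 : s56f_wc_beta R (σ ^ (p ^ 2 - 1)) = 0 := by
        by_contra h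
        exact hcon ⟨_, hu, h⟩
      unfold s56f_wc_beta at hβ0
      rw [(hadV _ (inv_mem hu)).2, mul_one] at hβ0
      have h1 : R (σ ^ (p ^ 2 - 1)) = 1 := by
        ext i j
        fin_cases i <;> fin_cases j
        · exact (hadV _ hu).1
        · exact hβ0
        · exact htri _ (hID _ (hV₁I _ hu))
        · exact (hadV _ hu).2
      rw [hR, map_pow] at h1
      have h2 : Tm (ρ σ ^ (p ^ 2 - 1)) = Tm 1 := by rw [h1, map_one]
      exact Tm.injective h2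
  -- (L8) the character count
  let _ : Algebra (ZMod p) k := ZMod.algebra k p
  obtain ⟨lam0, hlam⟩ := s56f_wa_exists_lam0 p k
  obtain ⟨aφ, hφζ⟩ := s56f_wa_exists_exp hζp hζ1 φ
  let Nice : Subgroup GQ → Prop := fun N' =>
    ∃ L, Good L ∧ (∀ σ ∈ L.fixingSubgroup, ρ σ = 1) ∧ N' = L.fixingSubgroup
  have hτI : τ ∈ P.inertiaSubgroupIn ℚ := T.mem
  have hτD' : τ ∈ (↑(P.decompositionSubgroup ℚ) : Set GQ) := hτD
  have hφD' : φ ∈ (↑(P.decompositionSubgroup ℚ) : Set GQ) := hφD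
  have ha0' : ∀ g ∈ P.decompositionSubgroup ℚ, R g 0 0 ≠ 0 := ha0
  have hd0' : ∀ g ∈ P.decompositionSubgroup ℚ, R g 1 1 ≠ 0 := hd0
  have hap' : ∀ σ ∈ P.inertiaSubgroupIn ℚ, R σ 0 0 ^ p = R σ 0 0 := hap
  have hdp' : ∀ σ ∈ P.inertiaSubgroupIn ℚ, R σ 1 1 ^ p = R σ 1 1 := hdp
  have hInH : ∀ (ψ h : GQ → k),
      (∀ u ∈ P.decompositionSubgroup ℚ, u ∈ K₁.fixingSubgroup → ψ u = 1) →
      s56f_wc_GoodFun (P.decompositionSubgroup ℚ) Nice ψ h →
      s56f_InH P hP π₁ ζ (↑(P.decompositionSubgroup ℚ) : Set GQ) ψ lam0 h := by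
    rintro ψ h hψU ⟨hcoc, N', ⟨L, hL, hLρ, rfl⟩, hvan⟩
    exact s56f_wa_InH d hKB hL (hGfd L hL) hK₁fd hK₁n hK₁t hζK hV₁K ψ h hψU hcoc hvan lam0
  have hθτ0 : s56f_wc_theta R τ ≠ 0 := mul_ne_zero (ha0' τ hτD) (hd0' τ⁻¹ (inv_mem hτD))
  have hθτp : s56f_wc_theta R τ ^ p = s56f_wc_theta R τ := by
    unfold s56f_wc_theta
    rw [mul_pow, hap' τ hτI, hdp' τ⁻¹ (inv_mem hτI)]
  have hθφ0 : s56f_wc_theta R φ ≠ 0 := mul_ne_zero (ha0' φ hφD) (hd0' φ⁻¹ (inv_mem hφD))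
  have hθ'τ0 : s56f_wc_thetaInv R τ ≠ 0 := mul_ne_zero (hd0' τ hτD) (ha0' τ⁻¹ (inv_mem hτD))
  have hθ'τp : s56f_wc_thetaInv R τ ^ p = s56f_wc_thetaInv R τ := by
    unfold s56f_wc_thetaInv
    rw [mul_pow, hdp' τ hτI, hap' τ⁻¹ (inv_mem hτI)]
  have hθ'φ0 : s56f_wc_thetaInv R φ ≠ 0 := mul_ne_zero (hd0' φ hφD) (ha0' φ⁻¹ (inv_mem hφD))
  have hCC1 : ∀ h : GQ → k, s56f_wc_GoodFun (P.decompositionSubgroup ℚ) Nice (fun _ => (1 : k)) h →
      ∀ u ∈ s56f_V1 P π₁, h u = 0 := by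
    intro h hh
    exact s56f_cc_triv hHit d hp2 T hτD' (ψ := fun _ => (1 : k)) rfl hlam
      (hInH _ h (fun _ _ _ => rfl) hh)
  have hβgood : s56f_wc_GoodFun (P.decompositionSubgroup ℚ) Nice (s56f_wc_theta R)
      (s56f_wc_beta R) := by
    refine ⟨fun g hg g' hg' => s56f_wc_beta_mul htri hg hg', L₀.fixingSubgroup,
      ⟨L₀, hL₀, hL₀ρ, rfl⟩, fun g hg hgL => ?_⟩
    unfold s56f_wc_beta
    rw [hRone g (hL₀ρ g hgL)]
    simp
  have hcc := s56f_cc_f1 hHit hCount hA1 d T hτD' (ψ := s56f_wc_theta R) hθτ0 hθτp hlam hφ hφD'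
    hφζ hθφ0
  have hβInH := hInH _ _ hθU hβgood
  obtain ⟨u₀, hu₀, hβu₀⟩ := hβne
  have hCCθ : ∀ h : GQ → k, s56f_wc_GoodFun (P.decompositionSubgroup ℚ) Nice (s56f_wc_theta R) h →
      ∃ c : k, ∀ u ∈ s56f_V1 P π₁, h u = c * s56f_wc_beta R u :=
    fun h hh => hcc.2 _ h hβInH (hInH _ h hθU hh) ⟨u₀, hu₀, hβu₀⟩
  have hθτa : s56f_wc_theta R τ = algebraMap (ZMod p) k aτ := hcc.1 _ hβInH ⟨u₀, hu₀, hβu₀⟩
  have hθτ : s56f_wc_theta R τ ≠ 1 := by
    rw [hθτa]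
    intro h1
    apply T.a_ne_one d hp2
    apply (algebraMap (ZMod p) k).injective
    rw [h1, map_one]
  -- **`p = 3`**: `det ρ = ω` and the shape of `ρ|_I`
  have haτ : aτ = -1 := s56r_a_eq_neg_one hp3 T d
  have h2k' : (2 : k) ≠ 0 := by
    have h : ((2 : ℕ) : k) ≠ 0 := by
      rw [Ne, CharP.cast_eq_zero_iff k p]
      intro hdvd
      have h1 := Nat.le_of_dvd (by norm_num) hdvd
      have h2 := hp.two_le
      omega
    exact_mod_cast h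
  have hdetτ : R τ 0 0 * R τ 1 1 = -1 := by
    have h1 : LinearMap.det (ρ τ) = algebraMap (ZMod p) k aτ :=
      s56l_det_of_zpow hζp hζ1 hdet T.zeta
    have h2 : (R τ).det = LinearMap.det (ρ τ) := LinearMap.det_toMatrix b (ρ τ)
    rw [Matrix.det_fin_two, htri τ hτD, mul_zero, sub_zero, h1, haτ, map_neg, map_one] at h2
    exact h2
  have hθτneg : R τ 0 0 * R τ⁻¹ 1 1 = -1 := by
    have h := hθτa
    unfold s56f_wc_theta at h
    rw [h, haτ, map_neg, map_one]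
  have hddτ : R τ 1 1 * R τ⁻¹ 1 1 = 1 := s56f_wc_d_inv htri hτD
  have hdsq : R τ 1 1 = R τ⁻¹ 1 1 := by
    have h1 : R τ 0 0 * (R τ 1 1 - R τ⁻¹ 1 1) = 0 := by rw [mul_sub, hdetτ, hθτneg, sub_self]
    rcases mul_eq_zero.mp h1 with h | h
    · exact absurd h (ha0' τ hτD)
    · exact sub_eq_zero.mp h
  have hd_or : R τ 1 1 = 1 ∨ R τ 1 1 = -1 := by
    have h1 : (R τ 1 1 - 1) * (R τ 1 1 + 1) = 0 := by
      have : (R τ 1 1 - 1) * (R τ 1 1 + 1) = R τ 1 1 * R τ 1 1 - 1 := by ring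
      rw [this]
      nth_rewrite 2 [hdsq]
      rw [hddτ, sub_self]
    rcases mul_eq_zero.mp h1 with h | h
    · exact Or.inl (sub_eq_zero.mp h)
    · exact Or.inr (eq_neg_of_add_eq_zero_left h)
  -- the vectors of the basis
  have hρb0 : ∀ g ∈ P.decompositionSubgroup ℚ, ρ g (b 0) = R g 0 0 • b 0 := by
    intro g hg
    obtain ⟨c, hc⟩ := hb _ (hℓD g hg (b 0) hb0ℓ)
    have h1 : R g 0 0 = c := by
      rw [hR, LinearMap.toMatrixAlgEquiv_apply, hc, map_smul, Basis.repr_self]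
      simp
    rw [h1, hc]
  have hrepr1 : ∀ g ∈ P.decompositionSubgroup ℚ, ∀ v : V,
      b.repr (ρ g v) 1 = R g 1 1 * b.repr v 1 := by
    intro g hg v
    have h1 := LinearMap.toMatrix_mulVec_repr b b (ρ g) v
    have h2 := congrFun h1 1
    rw [Matrix.mulVec, dotProduct, Fin.sum_univ_two] at h2
    have h3 : LinearMap.toMatrix b b (ρ g) = R g := rfl
    rw [h3, htri g hg, zero_mul, zero_add] at h2
    exact h2.symm
  have hmemℓ : ∀ v : V, b.repr v 1 = 0 → v ∈ ℓ := by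
    intro v hv
    have h1 : v = b.repr v 0 • b 0 := by
      conv_lhs => rw [← b.sum_repr v]
      rw [Fin.sum_univ_two, hv, zero_smul, add_zero]
    rw [h1]
    exact ℓ.smul_mem _ hb0ℓ
  have hℓrepr : ∀ v ∈ ℓ, b.repr v 1 = 0 := by
    intro v hv
    obtain ⟨c, hc⟩ := hb v hv
    rw [hc, map_smul, Basis.repr_self]
    simp
  -- the characters on inertia
  have hadI : ∀ σ ∈ P.inertiaSubgroupIn ℚ, ∃ m : ℕ,
      R σ 0 0 = R τ 0 0 ^ m ∧ R σ 1 1 = R τ 1 1 ^ m := by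
    intro σ hσ
    obtain ⟨m, u, hu, rfl⟩ := hgenI σ hσ
    have huD := hID u (hV₁I u hu)
    refine ⟨m, ?_, ?_⟩
    · rw [ha_mul _ (pow_mem hτD m) u huD, ha_pow τ hτD, (hadV u hu).1, mul_one]
    · rw [hd_mul _ (pow_mem hτD m) u huD, hd_pow τ hτD, (hadV u hu).2, mul_one]
  -- `d(τ) = -1` is excluded by `NoWild`
  have hdτ : R τ 1 1 = 1 := by
    rcases hd_or with h | h
    · exact h
    exfalso
    have haτ1 : R τ 0 0 = 1 := by
      rw [h] at hdetτ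
      have : R τ 0 0 = -(R τ 0 0 * -1) := by ring
      rw [this, hdetτ, neg_neg]
    obtain ⟨u, hu, hβu⟩ : ∃ u ∈ s56f_V1 P π₁, s56f_wc_beta R u ≠ 0 := ⟨u₀, hu₀, hβu₀⟩
    have huI := hV₁I u hu
    have huD := hID u huI
    have h1 : ρ u = 1 := by
      refine hNW ℓ (fun σ hσ l hl => ?_) u huI (fun v => ?_)
      · obtain ⟨c, rfl⟩ := hb l hl
        obtain ⟨m, hm, -⟩ := hadI σ hσ
        rw [map_smul, hρb0 σ (hID σ hσ), hm, haτ1, one_pow, one_smul]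
      · apply hmemℓ
        rw [map_sub, Finsupp.sub_apply, hrepr1 u huD, (hadV u hu).2, one_mul, sub_self]
    apply hβu
    unfold s56f_wc_beta
    rw [hRone u h1]
    simp
  have haτneg : R τ 0 0 = -1 := by
    rw [hdτ, mul_one] at hdetτ
    exact hdetτ
  -- the stable line is an ordinary line
  have hOrd : s56l_OrdLineAt P ρ ℓ := by
    refine ⟨hℓD, fun σ hσ v => ?_, τ, hτI, -1, ?_, fun v hv => ?_⟩
    · apply hmemℓ
      obtain ⟨m, -, hm⟩ := hadI σ hσ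
      rw [map_sub, Finsupp.sub_apply, hrepr1 σ (hID σ hσ), hm, hdτ, one_pow, one_mul, sub_self]
    · intro h
      apply h2k'
      have : (2 : k) = 1 - (-1) := by ring
      rw [this, h, sub_self]
    · obtain ⟨c, rfl⟩ := hb v hv
      rw [map_smul, hρb0 τ hτD, haτneg, smul_comm]
  -- the class `Q` of good cocycles with the Borel side condition
  let Q : (GQ → Matrix (Fin 2) (Fin 2) k) → Prop := fun C =>
    s56f_wc_GoodCoc (P.decompositionSubgroup ℚ) R Nice C ∧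
      ∃ X : Matrix (Fin 2) (Fin 2) k, ∀ σ ∈ P.decompositionSubgroup ℚ,
        (C σ + s56f_wc_cob R X σ) 1 0 = 0
  -- (L9)-(L11)
  have hFG : ∀ N', Nice N' → ∀ g ∈ P.decompositionSubgroup ℚ,
      ∃ (j : ℕ) (ι : GQ), ι ∈ P.inertiaSubgroupIn ℚ ∧ (φ ^ j * ι)⁻¹ * g ∈ N' := by
    rintro N' ⟨L, hL, _, rfl⟩ g hg
    exact hFrobGen p hp P hP φ hφ L (hGfd L hL) g hg
  have hNice : ∀ N₁ N₂, Nice N₁ → Nice N₂ → Nice (N₁ ⊓ N₂) := by
    rintro N₁ N₂ ⟨L, hL, hLρ, rfl⟩ ⟨L', hL', _, rfl⟩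
    refine ⟨L ⊔ L', hGsup L L' hL hL', fun σ hσ => hLρ σ ?_,
      IntermediateField.fixingSubgroup_sup.symm⟩
    rw [IntermediateField.fixingSubgroup_sup] at hσ
    exact hσ.1
  have hNR : ∀ N', Nice N' → ∀ n ∈ N', R n = 1 := by
    rintro N' ⟨L, _, hLρ, rfl⟩ n hn
    exact hRone n (hLρ n hn)
  have he : (((p ^ 2 - 1 : ℕ)) : k) ≠ 0 := by
    rw [Ne, CharP.cast_eq_zero_iff k p]
    exact s56f_not_dvd_e
  have h2k : (2 : k) ≠ 0 := by
    have h : ((2 : ℕ) : k) ≠ 0 := by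
      rw [Ne, CharP.cast_eq_zero_iff k p]
      intro hdvd
      have h1 := Nat.le_of_dvd (by norm_num) hdvd
      have h2 := hp.two_le
      omega
    exact_mod_cast h
  -- the abstract assembly
  have hcobsub : ∀ (X X₀ : Matrix (Fin 2) (Fin 2) k) (a : k) (σ : GQ),
      s56f_wc_cob R (X - a • X₀) σ = s56f_wc_cob R X σ - a • s56f_wc_cob R X₀ σ := by
    intro X X₀ a σ
    unfold s56f_wc_cob
    simp only [Matrix.mul_sub, Matrix.sub_mul, Matrix.mul_smul, Matrix.smul_mul, smul_sub]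
    abel
  obtain ⟨C₀, hC₀, hmain⟩ := s56f_wc_main_Q (R := R) (P.decompositionSubgroup ℚ)
    (P.inertiaSubgroupIn ℚ) (s56f_V1 P π₁) hV₁I hID
    (fun g hg ι hι => s56f_wa_inertia_conj hg hι) τ φ hτI hφD hgenI (p ^ 2 - 1) he hexpI h2k htri
    hθV hθτ Nice hNR hFG hCC1 hCCθ Q
    (fun _ h => h.1)
    (fun C C₁ a hC hC₁ => by
      obtain ⟨hCg, X, hX⟩ := hC
      obtain ⟨hC₁g, X₁, hX₁⟩ := hC₁
      refine ⟨s56f_wc_GoodCoc.sub_smul hNice hCg hC₁g a, X - a • X₁, fun σ hσ => ?_⟩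
      rw [hcobsub]
      have h1 := hX σ hσ
      have h2 := hX₁ σ hσ
      simp only [Matrix.add_apply, Matrix.sub_apply, Matrix.smul_apply, smul_eq_mul] at h1 h2 ⊢
      linear_combination h1 - a * h2)
    (fun C hC u hu => by
      obtain ⟨-, X, hX⟩ := hC
      have huD := hID u (hV₁I u hu)
      have h1 := hX u huD
      have h3 : (s56f_wc_cob R X u) 1 0 = 0 := by
        unfold s56f_wc_cob
        rw [Matrix.sub_apply, (s56f_wc_conj_apply htri huD X).2.2.1]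
        have h4 := hθ'V u hu
        unfold s56f_wc_thetaInv at h4
        linear_combination (X 1 0) * h4
      rw [Matrix.add_apply, h3, add_zero] at h1
      exact h1)
  -- (L12) transport back to `End V`
  have hTmρ : ∀ g, Tm.symm (R g) = ρ g := fun g => by rw [hR, AlgEquiv.symm_apply_apply]
  have htrace : ∀ f : Module.End k V, (Tm f).trace = LinearMap.trace k V f := fun f => by
    rw [LinearMap.trace_eq_matrix_trace k b f]
    rfl
  have hfwd : ∀ c, s56f_GoodCoc P Good ρ c →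
      s56f_wc_GoodCoc (P.decompositionSubgroup ℚ) R Nice (fun g => Tm (c g)) := by
    intro c hc
    obtain ⟨L, hL, hLρ, hvan⟩ := hc.good
    refine ⟨fun g hg g' hg' => ?_, fun g hg => ?_, L.fixingSubgroup, ⟨L, hL, hLρ, rfl⟩,
      fun g hg hgL => ?_⟩
    · show Tm (c (g * g')) = Tm (c g) + R g * Tm (c g') * R g⁻¹
      rw [hc.coc g hg g' hg', map_add, map_mul, map_mul]
      rfl
    · show (Tm (c g)).trace = 0
      rw [htrace, hc.tr g hg]
    · show Tm (c g) = 0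
      rw [hvan g hg hgL, map_zero]
  refine ⟨fun g => Tm.symm (C₀ g), ?_, fun c hc hB => ?_⟩
  · rcases hC₀ with rfl | hC₀
    · exact ⟨fun _ _ _ _ => by simp, fun _ _ => by simp, F₀, hF₀fd, hF₀, fun _ _ _ => by simp⟩
    · obtain ⟨hcoc, htr, N', ⟨L, hL, hLρ, rfl⟩, hvan⟩ := hC₀.1
      refine ⟨fun g hg g' hg' => ?_, fun g hg => ?_, L, hGfd L hL, hLρ, fun g hg hgL => ?_⟩
      · show Tm.symm (C₀ (g * g')) = Tm.symm (C₀ g) + ρ g * Tm.symm (C₀ g') * ρ g⁻¹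
        rw [hcoc g hg g' hg', map_add, map_mul, map_mul, hTmρ, hTmρ]
      · show LinearMap.trace k V (Tm.symm (C₀ g)) = 0
        rw [← htrace, AlgEquiv.apply_symm_apply, htr g hg]
      · show Tm.symm (C₀ g) = 0
        rw [hvan g hg hgL, map_zero]
  · obtain ⟨X', hX'⟩ := hB ℓ hOrd
    have hQc : Q (fun g => Tm (c g)) := by
      refine ⟨hfwd c hc, Tm X', fun σ hσ => ?_⟩
      have h1 := hX' σ hσ (b 0) hb0ℓ
      have h2 := hℓrepr _ h1
      have h3 : Tm (c σ) + s56f_wc_cob R (Tm X') σ = Tm (c σ + ρ σ * X' * ρ σ⁻¹ - X') := by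
        unfold s56f_wc_cob
        rw [map_sub, map_add, map_mul, map_mul, hR, hR]
        abel
      rw [h3, LinearMap.toMatrixAlgEquiv_apply]
      exact h2
    obtain ⟨a, M, hM, hcM⟩ := hmain _ hQc
    refine ⟨a, Tm.symm M, ?_, fun σ hσ => ?_⟩
    · rw [← htrace, AlgEquiv.apply_symm_apply, hM]
    · have h1 : Tm (c σ) = a • C₀ σ + s56f_wc_cob R M σ := hcM σ (hID σ hσ)
      have h2 := congrArg Tm.symm h1
      rw [AlgEquiv.symm_apply_apply] at h2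
      rw [h2]
      unfold s56f_wc_cob
      rw [map_add, map_smul, map_sub, map_mul, map_mul, hTmρ, hTmρ]

end Fermat.Agent.Lib.S56
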