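/-
S56 programme, W4-E4 (global Euler characteristic, cyclic case), model-side brick (S1):
**SHAPIRO'S LEMMA FOR THE LEVEL `H¹`** in the big-group model (`ptd_Levels`).

For an open subgroup `U ≤ G` and a representation `ρN` of `U` on `N`,
`H¹_lev(G, Coind_U^G N) ≃ H¹_lev(U, N)`, `[c] ↦ [u ↦ c(u)(1)]`,
where `H¹_lev = {level 1-cocycles} / {1-coboundaries}` (`s56t_H1`) and `Coind` is Mathlib's
`Representation.coind U.subtype ρN`.
-/
import Mathlib
import Fermat.Agent.Lib.PT.AdtDefs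

set_option autoImplicit false
set_option linter.unusedSectionVars false
set_option linter.unusedVariables false

noncomputable section

namespace Fermat.Agent.Lib.S56

open Fermat.Agent.Lib.PT

section Model

variable {G : Type*} [Group G] (𝓛 : ptd_Levels G)
variable {k : Type*} [CommRing k] {A : Type*} [AddCommGroup A] [Module k A]
variable (ρ : Representation k G A)

/-- the level 1-cocycles, as a submodule of the cochains -/
def s56t_Z1 : Submodule k (G → A) where
  carrier := {c | ptd_IsLZ1 𝓛 ρ c}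
  add_mem' := by
    rintro c c' ⟨hc, hl⟩ ⟨hc', hl'⟩
    refine ⟨fun g h => ?_, hl.add hl'⟩
    simp only [Pi.add_apply, hc g h, hc' g h, map_add]
    abel
  zero_mem' := ⟨fun g h => by simp, ptd_isLev₁_const (0 : A)⟩
  smul_mem' := by
    rintro a c ⟨hc, hl⟩
    refine ⟨fun g h => ?_, hl.comp (a • ·)⟩
    simp only [Pi.smul_apply, hc g h, map_smul, smul_add]

lemma s56t_mem_Z1 (c : G → A) : c ∈ s56t_Z1 𝓛 ρ ↔ ptd_IsLZ1 𝓛 ρ c := Iff.rfl

/-- the coboundary map `A → C¹(G, A)` -/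
def s56t_d0 : A →ₗ[k] (G → A) where
  toFun a := ptd_d0 ρ a
  map_add' a b := by
    funext g
    simp only [ptd_d0_apply, Pi.add_apply, map_add]
    abel
  map_smul' c a := by
    funext g
    simp only [ptd_d0_apply, Pi.smul_apply, map_smul, RingHom.id_apply, smul_sub]

@[simp] lemma s56t_d0_apply (a : A) (g : G) : s56t_d0 ρ a g = ρ g a - a := rfl

/-- the 1-coboundaries -/
def s56t_B1 : Submodule k (G → A) := LinearMap.range (s56t_d0 ρ)

lemma s56t_mem_B1 (c : G → A) : c ∈ s56t_B1 ρ ↔ ∃ a : A, ∀ g, c g = ρ g a - a := by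
  constructor
  · rintro ⟨a, rfl⟩
    exact ⟨a, fun g => rfl⟩
  · rintro ⟨a, h⟩
    exact ⟨a, funext fun g => (h g).symm⟩

/-- the level `H¹` of the big-group model -/
abbrev s56t_H1 : Type _ := ↥(s56t_Z1 𝓛 ρ) ⧸ (s56t_B1 ρ).comap (s56t_Z1 𝓛 ρ).subtype

/-- a cocycle vanishes at `1` -/
lemma s56t_cocycle_one {c : G → A} (hc : ptd_IsZ1 ρ c) : c 1 = 0 := by
  have h := hc 1 1
  rw [mul_one, map_one, Module.End.one_apply] at h
  exact left_eq_add.mp h

end Model

section Shapiro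

variable {G : Type*} [Group G] (𝓛 : ptd_Levels G) (U : Subgroup G) (hU : 𝓛.IsOpen U)
variable {k : Type*} [CommRing k] {N : Type*} [AddCommGroup N] [Module k N]
variable (ρN : Representation k U N)

/-- the coinduced representation (Mathlib's model) -/
abbrev s56t_coind : Representation k G ↥(Representation.coindV U.subtype ρN) :=
  Representation.coind U.subtype ρN

lemma s56t_coind_apply (g x : G) (f : ↥(Representation.coindV U.subtype ρN)) :
    ((s56t_coind U ρN g f : ↥(Representation.coindV U.subtype ρN)) : G → N) x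
      = (f : G → N) (x * g) := rfl

lemma s56t_coind_mem (f : ↥(Representation.coindV U.subtype ρN)) (u : U) (x : G) :
    (f : G → N) ((u : G) * x) = ρN u ((f : G → N) x) := f.2 u x

/-- the Shapiro map on cochains: `c ↦ (u ↦ c(u)(1))` -/
def s56t_shF : (G → ↥(Representation.coindV U.subtype ρN)) →ₗ[k] (U → N) where
  toFun c := fun u => ((c (u : G) : ↥(Representation.coindV U.subtype ρN)) : G → N) 1
  map_add' c c' := rfl
  map_smul' a c := rfl

@[simp] lemma s56t_shF_apply (c : G → ↥(Representation.coindV U.subtype ρN)) (u : U) :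
    s56t_shF U ρN c u = ((c (u : G) : ↥(Representation.coindV U.subtype ρN)) : G → N) 1 := rfl

/-- the Shapiro map sends level cocycles to level cocycles -/
lemma s56t_shF_mem_Z1 {c : G → ↥(Representation.coindV U.subtype ρN)}
    (hc : c ∈ s56t_Z1 𝓛 (s56t_coind U ρN)) :
    s56t_shF U ρN c ∈ s56t_Z1 (𝓛.sub U hU) ρN := by
  obtain ⟨hz, hl⟩ := hc
  refine ⟨fun u u' => ?_, ?_⟩
  · show ((c ((u * u' : U) : G)) : G → N) 1 = ρN u (((c (u' : G)) : G → N) 1)
      + ((c (u : G)) : G → N) 1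
    rw [Subgroup.coe_mul, hz (u : G) (u' : G)]
    show ((s56t_coind U ρN (u : G) (c (u' : G)) : ↥(Representation.coindV U.subtype ρN)) : G → N) 1
      + ((c (u : G)) : G → N) 1 = _
    rw [s56t_coind_apply, one_mul]
    have h1 := s56t_coind_mem U ρN (c (u' : G)) u 1
    rw [mul_one] at h1
    rw [h1]
  · exact (hl.res U hU).comp (fun f : ↥(Representation.coindV U.subtype ρN) => (f : G → N) 1)

/-- the Shapiro map sends coboundaries to coboundaries -/
lemma s56t_shF_mem_B1 {c : G → ↥(Representation.coindV U.subtype ρN)}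
    (hc : c ∈ s56t_B1 (s56t_coind U ρN)) : s56t_shF U ρN c ∈ s56t_B1 ρN := by
  obtain ⟨m, hm⟩ := (s56t_mem_B1 _ c).1 hc
  refine (s56t_mem_B1 _ _).2 ⟨(m : G → N) 1, fun u => ?_⟩
  rw [s56t_shF_apply, hm (u : G)]
  show ((s56t_coind U ρN (u : G) m : ↥(Representation.coindV U.subtype ρN)) : G → N) 1
    - (m : G → N) 1 = _
  rw [s56t_coind_apply, one_mul]
  have h1 := s56t_coind_mem U ρN m u 1
  rw [mul_one] at h1
  rw [h1]

/-- **injectivity**: a level cocycle of `Coind N` whose Shapiro image is a coboundary is a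
coboundary -/
lemma s56t_shapiro_inj {c : G → ↥(Representation.coindV U.subtype ρN)}
    (hc : ptd_IsZ1 (s56t_coind U ρN) c) (h : s56t_shF U ρN c ∈ s56t_B1 ρN) :
    c ∈ s56t_B1 (s56t_coind U ρN) := by
  obtain ⟨n, hn⟩ := (s56t_mem_B1 _ _).1 h
  -- `β x = c(x)(1)`
  have hβ : ∀ g x : G, ((c g) : G → N) x = ((c (x * g)) : G → N) 1 - ((c x) : G → N) 1 := by
    intro g x
    have h1 := congrArg (fun f : ↥(Representation.coindV U.subtype ρN) => (f : G → N) 1) (hc x g)
    beta_reduce at h1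
    have h2 : ((s56t_coind U ρN x (c g) + c x : ↥(Representation.coindV U.subtype ρN)) : G → N) 1
        = ((c g) : G → N) x + ((c x) : G → N) 1 := by
      show ((s56t_coind U ρN x (c g) : ↥(Representation.coindV U.subtype ρN)) : G → N) 1
        + ((c x) : G → N) 1 = _
      rw [s56t_coind_apply, one_mul]
    rw [h2] at h1
    rw [h1]
    abel
  have hβu : ∀ (u : U) (x : G), ((c ((u : G) * x)) : G → N) 1
      = ρN u (((c x) : G → N) 1) + (ρN u n - n) := by
    intro u x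
    have h1 := congrArg (fun f : ↥(Representation.coindV U.subtype ρN) => (f : G → N) 1)
      (hc (u : G) x)
    beta_reduce at h1
    rw [h1]
    show ((s56t_coind U ρN (u : G) (c x) : ↥(Representation.coindV U.subtype ρN)) : G → N) 1
      + ((c (u : G)) : G → N) 1 = _
    rw [s56t_coind_apply, one_mul]
    have h2 := s56t_coind_mem U ρN (c x) u 1
    rw [mul_one] at h2
    rw [h2]
    have h3 := hn u
    rw [s56t_shF_apply] at h3
    rw [h3]
  -- `m x = β x + n`
  have hm : (fun x : G => ((c x) : G → N) 1 + n) ∈ Representation.coindV U.subtype ρN := by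
    intro u x
    show ((c ((u : G) * x)) : G → N) 1 + n = ρN u (((c x) : G → N) 1 + n)
    rw [hβu, map_add]
    abel
  refine (s56t_mem_B1 _ _).2 ⟨⟨_, hm⟩, fun g => ?_⟩
  apply Subtype.ext
  funext x
  show ((c g) : G → N) x = ((s56t_coind U ρN g ⟨_, hm⟩ : ↥(Representation.coindV U.subtype ρN))
    : G → N) x - (((c x) : G → N) 1 + n)
  rw [s56t_coind_apply, hβ g x]
  show _ = (((c (x * g)) : G → N) 1 + n) - (((c x) : G → N) 1 + n)
  abel

/-! ### Surjectivity: the normalised equivariant retraction `G → U` -/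

/-- a `U`-equivariant retraction `G → U` with `1 ↦ 1` -/
def s56t_retr (g : G) : U := ptd_retr U g * (ptd_retr U 1)⁻¹

lemma s56t_retr_mul_left (u : U) (g : G) : s56t_retr U ((u : G) * g) = u * s56t_retr U g := by
  unfold s56t_retr
  rw [ptd_retr_mul_left, mul_assoc]

lemma s56t_retr_one : s56t_retr U 1 = 1 := by
  unfold s56t_retr
  exact mul_inv_cancel _

lemma s56t_retr_coe (u : U) : s56t_retr U (u : G) = u := by
  have h := s56t_retr_mul_left U u 1
  rw [mul_one, s56t_retr_one, mul_one] at h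
  exact h

/-- right translation by an element of a normal subgroup `N₀ ≤ U` changes the retraction by an
element of `N₀` -/
lemma s56t_retr_mul_right {N₀ : Subgroup G} [N₀.Normal] (hN₀ : N₀ ≤ U) (g : G) {n : G}
    (hn : n ∈ N₀) : ∃ n' : U, (n' : G) ∈ N₀ ∧ s56t_retr U (g * n) = s56t_retr U g * n' := by
  have hq : (QuotientGroup.mk (g * n)⁻¹ : G ⧸ U) = QuotientGroup.mk g⁻¹ := by
    rw [QuotientGroup.eq]
    have h1 : ((g * n)⁻¹)⁻¹ * g⁻¹ = g * n * g⁻¹ := by group
    rw [h1]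
    exact hN₀ (Subgroup.Normal.conj_mem ‹N₀.Normal› n hn g)
  set t : G := Quotient.out (QuotientGroup.mk g⁻¹ : G ⧸ U) with ht
  set r₁ : U := ptd_retr U 1 with hr₁
  have h1 : ((ptd_retr U (g * n) : U) : G) = g * n * t := by
    show g * n * Quotient.out (QuotientGroup.mk (g * n)⁻¹ : G ⧸ U) = _
    rw [hq]
  have h2 : ((ptd_retr U g : U) : G) = g * t := rfl
  have hmem : (r₁ : G) * (t⁻¹ * n * t) * (r₁ : G)⁻¹ ∈ N₀ := by
    apply Subgroup.Normal.conj_mem ‹N₀.Normal›
    have h3 := Subgroup.Normal.conj_mem ‹N₀.Normal› n hn t⁻¹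
    rw [inv_inv] at h3
    exact h3
  refine ⟨⟨(r₁ : G) * (t⁻¹ * n * t) * (r₁ : G)⁻¹, hN₀ hmem⟩, hmem, ?_⟩
  apply Subtype.ext
  unfold s56t_retr
  rw [Subgroup.coe_mul, Subgroup.coe_mul, Subgroup.coe_mul, Subgroup.coe_inv, h1, h2]
  show g * n * t * (r₁ : G)⁻¹ = g * t * (r₁ : G)⁻¹ * ((r₁ : G) * (t⁻¹ * n * t) * (r₁ : G)⁻¹)
  group

/-- **surjectivity**: every level cocycle of `N` over `U` is the Shapiro image of a level cocycle
of `Coind N` over `G` -/
lemma s56t_shapiro_surj {c' : U → N} (hc' : c' ∈ s56t_Z1 (𝓛.sub U hU) ρN) :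
    ∃ c : G → ↥(Representation.coindV U.subtype ρN),
      c ∈ s56t_Z1 𝓛 (s56t_coind U ρN) ∧ s56t_shF U ρN c = c' := by
  obtain ⟨hz, N', ⟨N₀, hN₀, hN₀U, rfl⟩, hl⟩ := hc'
  have hnorm : N₀.Normal := 𝓛.normal N₀ hN₀
  -- `β x = c' (retr x)`
  have hβu : ∀ (u : U) (x : G), c' (s56t_retr U ((u : G) * x))
      = ρN u (c' (s56t_retr U x)) + c' u := by
    intro u x
    rw [s56t_retr_mul_left, hz]
  have hmem : ∀ g : G, (fun x : G => c' (s56t_retr U (x * g)) - c' (s56t_retr U x))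
      ∈ Representation.coindV U.subtype ρN := by
    intro g u x
    show c' (s56t_retr U ((u : G) * x * g)) - c' (s56t_retr U ((u : G) * x))
      = ρN u (c' (s56t_retr U (x * g)) - c' (s56t_retr U x))
    rw [mul_assoc, hβu, hβu, map_sub]
    abel
  refine ⟨fun g => ⟨_, hmem g⟩, ⟨fun g h => ?_, ⟨N₀, hN₀, fun g n hn => ?_⟩⟩, ?_⟩
  · apply Subtype.ext
    funext x
    show c' (s56t_retr U (x * (g * h))) - c' (s56t_retr U x)
      = ((s56t_coind U ρN g ⟨_, hmem h⟩ : ↥(Representation.coindV U.subtype ρN)) : G → N) x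
        + (c' (s56t_retr U (x * g)) - c' (s56t_retr U x))
    rw [s56t_coind_apply]
    show _ = (c' (s56t_retr U (x * g * h)) - c' (s56t_retr U (x * g)))
        + (c' (s56t_retr U (x * g)) - c' (s56t_retr U x))
    rw [mul_assoc]
    abel
  · apply Subtype.ext
    funext x
    show c' (s56t_retr U (x * (g * n))) - c' (s56t_retr U x)
      = c' (s56t_retr U (x * g)) - c' (s56t_retr U x)
    obtain ⟨n', hn', hr⟩ := s56t_retr_mul_right U hN₀U (x * g) hn
    rw [← mul_assoc, hr, hl _ n' (Subgroup.mem_subgroupOf.2 hn')]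
  · funext u
    rw [s56t_shF_apply]
    show c' (s56t_retr U (1 * (u : G))) - c' (s56t_retr U 1) = c' u
    rw [one_mul, s56t_retr_coe, s56t_retr_one, s56t_cocycle_one ρN hz, sub_zero]

/-! ### The isomorphism -/

/-- the Shapiro map on level cocycles -/
def s56t_shZ : ↥(s56t_Z1 𝓛 (s56t_coind U ρN)) →ₗ[k] ↥(s56t_Z1 (𝓛.sub U hU) ρN) :=
  LinearMap.codRestrict _ (s56t_shF U ρN ∘ₗ (s56t_Z1 𝓛 (s56t_coind U ρN)).subtype)
    (fun c => s56t_shF_mem_Z1 𝓛 U hU ρN c.2)

/-- the Shapiro map on the level `H¹` -/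
def s56t_shH : s56t_H1 𝓛 (s56t_coind U ρN) →ₗ[k] s56t_H1 (𝓛.sub U hU) ρN :=
  Submodule.mapQ _ _ (s56t_shZ 𝓛 U hU ρN) (fun c hc => by
    simp only [Submodule.mem_comap, Submodule.subtype_apply] at hc ⊢
    exact s56t_shF_mem_B1 U ρN hc)

/-- **SHAPIRO'S LEMMA for the level `H¹`**: `H¹_lev(G, Coind_U^G N) ≃ H¹_lev(U, N)`. -/
theorem s56t_shH_bijective : Function.Bijective (s56t_shH 𝓛 U hU ρN) := by
  constructor
  · rw [← LinearMap.ker_eq_bot, LinearMap.ker_eq_bot']
    intro x hx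
    obtain ⟨c, rfl⟩ := Submodule.mkQ_surjective _ x
    have h1 : s56t_shH 𝓛 U hU ρN (Submodule.mkQ _ c)
        = Submodule.mkQ _ (s56t_shZ 𝓛 U hU ρN c) := rfl
    rw [h1, Submodule.mkQ_apply, Submodule.Quotient.mk_eq_zero] at hx
    rw [Submodule.mkQ_apply, Submodule.Quotient.mk_eq_zero]
    simp only [Submodule.mem_comap, Submodule.subtype_apply] at hx ⊢
    exact s56t_shapiro_inj U ρN c.2.1 hx
  · intro y
    obtain ⟨c', rfl⟩ := Submodule.mkQ_surjective _ y
    obtain ⟨c, hc, hcc'⟩ := s56t_shapiro_surj 𝓛 U hU ρN c'.2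
    refine ⟨Submodule.mkQ _ ⟨c, hc⟩, ?_⟩
    have h1 : s56t_shH 𝓛 U hU ρN (Submodule.mkQ _ ⟨c, hc⟩)
        = Submodule.mkQ _ (s56t_shZ 𝓛 U hU ρN ⟨c, hc⟩) := rfl
    rw [h1]
    congr 1
    exact Subtype.ext hcc'

/-- Shapiro's lemma as a linear equivalence -/
def s56t_shapiroEquiv : s56t_H1 𝓛 (s56t_coind U ρN) ≃ₗ[k] s56t_H1 (𝓛.sub U hU) ρN :=
  LinearEquiv.ofBijective _ (s56t_shH_bijective 𝓛 U hU ρN)

end Shapiro

end Fermat.Agent.Lib.S56

end
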