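/-
S56 programme, W4-E4 (global Euler characteristic, cyclic case), brick (B1):
**THE DICTIONARY** `continuousH1S S M ≃ H¹_lev(G_ℚ, M)` between the Prelude's `S`-level `H¹` and the
level `H¹` of the big-group model (`s56t_H1 (pta_levelsS S) M.ρ`).
-/
import Mathlib
import Fermat.Agent.Lib.S56.TailShapiro
import Fermat.Agent.Lib.PT.GLevelAdt

set_option autoImplicit false
set_option linter.unusedSectionVars false
set_option linter.unusedVariables false

noncomputable section

namespace Fermat.Agent.Lib.S56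

open Fermat.Agent.Lib.PT groupCohomology

local notation "Qbar" => AlgebraicClosure ℚ
local notation "GQ" => (AlgebraicClosure ℚ ≃ₐ[ℚ] AlgebraicClosure ℚ)

variable (S : Finset Nat.Primes) {k : Type} [CommRing k] (M : Rep.{0} k GQ)

/-- the class map from the level cocycles of the big model to `H¹(G_ℚ, M)` -/
def s56t_dictMap : ↥(s56t_Z1 (pta_levelsS S) M.ρ) →ₗ[k] H1 M where
  toFun c := (H1π M).hom ⟨(c : GQ → M.V), (pta_isZ1_iff M _).1 c.2.1⟩
  map_add' c c' := by
    rw [← map_add]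
    rfl
  map_smul' a c := by
    rw [RingHom.id_apply, ← map_smul]
    rfl

lemma s56t_dictMap_apply (c : ↥(s56t_Z1 (pta_levelsS S) M.ρ)) :
    s56t_dictMap S M c = (H1π M).hom ⟨(c : GQ → M.V), (pta_isZ1_iff M _).1 c.2.1⟩ := rfl

lemma s56t_range_dictMap : LinearMap.range (s56t_dictMap S M) = continuousH1S S M := by
  ext x
  rw [pta_mem_continuousH1S_iff]
  constructor
  · rintro ⟨c, rfl⟩
    exact ⟨⟨(c : GQ → M.V), (pta_isZ1_iff M _).1 c.2.1⟩, c.2, rfl⟩
  · rintro ⟨c, hc, rfl⟩
    exact ⟨⟨(c : GQ → M.V), hc⟩, rfl⟩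

lemma s56t_ker_dictMap :
    LinearMap.ker (s56t_dictMap S M)
      = (s56t_B1 M.ρ).comap (s56t_Z1 (pta_levelsS S) M.ρ).subtype := by
  ext c
  rw [LinearMap.mem_ker, s56t_dictMap_apply]
  erw [H1π_eq_zero_iff]
  rw [Submodule.mem_comap, s56t_mem_B1]
  constructor
  · rintro ⟨m, hm⟩
    refine ⟨m, fun g => ?_⟩
    have := congrFun hm g
    rw [d₀₁_hom_apply] at this
    exact this.symm
  · rintro ⟨m, hm⟩
    refine ⟨m, funext fun g => ?_⟩
    rw [d₀₁_hom_apply]
    exact (hm g).symm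

/-- **(B1) the dictionary**: the Prelude's `continuousH1S S M` is the level `H¹` of the big-group
model. -/
def s56t_dictEquiv : s56t_H1 (pta_levelsS S) M.ρ ≃ₗ[k] ↥(continuousH1S S M) :=
  (Submodule.quotEquivOfEq _ _ (s56t_ker_dictMap S M).symm).trans
    ((LinearMap.quotKerEquivRange (s56t_dictMap S M)).trans
      (LinearEquiv.ofEq _ _ (s56t_range_dictMap S M)))

theorem s56t_card_continuousH1S :
    Nat.card ↥(continuousH1S S M) = Nat.card (s56t_H1 (pta_levelsS S) M.ρ) :=
  (Nat.card_congr (s56t_dictEquiv S M).toEquiv).symm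

end Fermat.Agent.Lib.S56
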