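/-
S56 programme, W4-E4, model-side brick (B3a): **CONJUGATION INVARIANCE OF THE INVARIANT MAPS**
of the abstract class formation `ptn_AbsK`.
-/
import Mathlib
import Fermat.Agent.Lib.PT.AbkMain

set_option autoImplicit false
set_option linter.unusedSectionVars false
set_option linter.unusedVariables false

noncomputable section

namespace Fermat.Agent.Lib.S56

open Fermat.Agent.Lib.PT

section Global

variable {G : Type*} [Group G] {J C : Type*} [AddCommGroup J] [AddCommGroup C]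
variable {𝓛 : ptd_Levels G} {ρJ : Representation ℤ G J} {ρC : Representation ℤ G C}
variable {p : ℕ} [hp : Fact p.Prime] (A : ptn_AbsK 𝓛 ρJ ρC p)

include A in
/-- every level class of an open subgroup killed by `p` is the restriction of a level class of
`G` (extracted from the proof of `ptn_AbsK.hcor`). -/
theorem s56t_exists_global (U : Subgroup G) (hU : 𝓛.IsOpen U) [U.FiniteIndex] (y : U × U → C)
    (hy : ptd_IsLZ2p (𝓛.sub U hU) (ptd_resRep ρC U) p y) :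
    ∃ z₀ : G × G → C, ptd_IsLZ2 𝓛 ρC z₀ ∧
      ptd_IsB2 (𝓛.sub U hU) (ptd_resRep ρC U) (y - ptd_res₂ U z₀) := by
  have htop := 𝓛.isOpen_top
  have ht := A.nsmul_inv_eq_zero U hU hy
  have hidx : U.index ≠ 0 := Subgroup.FiniteIndex.index_ne_zero
  obtain ⟨a, ha⟩ : ∃ a, a = U.index.factorization p := ⟨_, rfl⟩
  have hdec : p ^ a * (U.index / p ^ a) = U.index := by
    rw [ha]; exact Nat.ordProj_mul_ordCompl_eq_self U.index p
  obtain ⟨a₁, ha₁, hord⟩ := A.cyc ⊤ htop (a + 1)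
  have htors := A.INV_bock_tors (a + 1) htop ha₁
  have hrel : (ptn_charKer (A.χ_char (a + 1))).relIndex ⊤ = p ^ (a + 1) := by
    rw [Subgroup.relIndex_top_right, ptn_charKer_index (A.χ_char (a + 1)) (A.χ_surj (a + 1))]
  rw [hrel] at htors hord
  obtain ⟨t₁, ht₁⟩ : ∃ t₁, t₁ = A.INV ⊤ (ptd_bockSmul (p ^ (a + 1))
    (fun v : (⊤ : Subgroup G) => A.χ (a + 1) v) a₁) := ⟨_, rfl⟩
  rw [← ht₁] at htors hord
  have h2 : p • (U.index • t₁) = 0 := by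
    have e1 : p * U.index = (U.index / p ^ a) * p ^ (a + 1) := by
      conv_lhs => rw [← hdec]
      ring
    rw [← mul_smul, e1, mul_smul, htors, smul_zero]
  have hne : U.index • t₁ ≠ 0 := by
    intro h0
    have := hord (U.index : ℕ) (by rw [natCast_zsmul]; exact h0)
    have h3 : p ^ (a + 1) ∣ U.index := by exact_mod_cast this
    rw [ha] at h3
    exact Nat.pow_succ_factorization_not_dvd hidx hp.out h3
  obtain ⟨s, hs⟩ := ptn_T_tors_gen h2 hne (A.inv U hU y) ht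
  have hfix : ∀ g, ρJ g (s • a₁) = s • a₁ := fun g => by
    rw [map_zsmul, ha₁ g (Subgroup.mem_top g)]
  obtain ⟨y₀, hy₀⟩ : ∃ y₀ : G × G → J,
    y₀ = ptd_bockSmul (p ^ (a + 1)) (A.χ (a + 1)) (s • a₁) := ⟨_, rfl⟩
  have hy₀lz : ptd_IsLZ2 𝓛 ρJ y₀ := by
    rw [hy₀]
    exact ⟨ptn_isZ2_bockSmul (A.χ_char _) hfix, ptn_isLev₂_bockSmul (A.χ_lev _) _⟩
  have hINVtop : A.INV ⊤ (ptd_res₂ ⊤ y₀) = s • t₁ := by
    have : ptd_res₂ ⊤ y₀ = s • ptd_bockSmul (p ^ (a + 1))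
        (fun v : (⊤ : Subgroup G) => A.χ (a + 1) v) a₁ := by
      rw [← ptn_bockSmul_zsmul, hy₀]; rfl
    rw [this, A.INV_zsmul ⊤ htop (A.bock_isLZ2 ρJ (a + 1) htop ha₁), ht₁]
  have hINVU : A.INV U (ptd_res₂ U y₀) = A.inv U hU y := by
    have h1 := A.INV_res ⊤ htop U hU le_top (ptd_res₂ ⊤ y₀) (ptd_isLZ2_res₂ ⊤ htop ρJ hy₀lz)
    have h2' : ptn_resLe₂ le_top (ptd_res₂ ⊤ y₀) = ptd_res₂ U y₀ := rfl
    rw [h2', Subgroup.relIndex_top_right, hINVtop] at h1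
    rw [h1, hs, ← natCast_zsmul, smul_comm, natCast_zsmul]
  obtain ⟨yJ, hyJ⟩ := A.exists_isLift U hU hy.1 1 (by simpa using hy.2)
  have hy₀U := ptd_isLZ2_res₂ U hU ρJ hy₀lz
  have hgoodU : A.Good U hU (ptd_res₂ U y₀) := by
    rw [hy₀]
    exact A.good_bock (a + 1) hU (fun u _ => hfix u)
  have hdiff : A.INV U (yJ - ptd_res₂ U y₀) = 0 := by
    rw [A.INV_sub U hU hyJ.1.isLZ2 hy₀U, hINVU, ← A.inv_eq_of_lift hyJ, sub_self]
  have hz₀lz : ptd_IsLZ2 𝓛 ρC (fun x => A.π (y₀ x)) := A.isLZ2_π_G hy₀lz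
  have hz₀ : ptd_IsB2 𝓛 ρC (p ^ (a + 1) • fun x => A.π (y₀ x)) := by
    rw [hy₀, ptn_map_bockSmul]
    exact ptn_isB2_nsmul_bockSmul (A.χ_char (a + 1)) (A.χ_lev (a + 1))
      (fun g => by rw [← A.π_equiv, hfix])
  have hB : ptd_IsB2 (𝓛.sub U hU) (ptd_resRep ρC U)
      (fun x => A.π ((yJ - ptd_res₂ U y₀) x)) := by
    refine A.isB2_of_INV_eq_zero U hU (hyJ.1.sub hgoodU) hdiff (a + 1) ?_
    have h3 := ((hyJ.2.nsmul (p ^ (a + 1))).add (hy.2.nsmul (p ^ a))).sub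
      (ptd_isB2_res₂ U hU ρC hz₀)
    convert h3 using 1
    funext x
    simp only [Pi.smul_apply, Pi.sub_apply, Pi.add_apply, map_sub, ptd_res₂, smul_sub, pow_succ,
      mul_smul]
    abel
  refine ⟨fun x => A.π (y₀ x), hz₀lz, ?_⟩
  have := hB.sub hyJ.2
  convert this using 1
  funext x
  simp only [Pi.sub_apply, map_sub, ptd_res₂]
  abel

end Global

/-! ### Conjugation of cochains -/

section Conj

variable {G : Type*} [Group G] {k : Type*} [CommRing k] {C : Type*} [AddCommGroup C] [Module k C]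
variable (ρ : Representation k G C)

/-- conjugation of 2-cochains of `G` by `a`: `(a_* z)(g,h) = a • z(a⁻¹ga, a⁻¹ha)` -/
def s56t_conjG (a : G) (z : G × G → C) : G × G → C :=
  fun x => ρ a (z (a⁻¹ * x.1 * a, a⁻¹ * x.2 * a))

/-- the homotopy for inner automorphisms -/
def s56t_conjHtpy (a : G) (z : G × G → C) : G → C :=
  fun g => z (a, a⁻¹ * g * a) - z (g, a)

/-- **inner automorphisms act trivially on `H²`**: `a_* z - z = d (g ↦ z(a, a⁻¹ga) - z(g,a))` -/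
theorem s56t_conjG_sub {z : G × G → C} (hz : ptd_IsZ2 ρ z) (a : G) :
    s56t_conjG ρ a z - z = ptd_d1 ρ (s56t_conjHtpy a z) := by
  funext ⟨g, h⟩
  have e1 := hz a (a⁻¹ * g * a) (a⁻¹ * h * a)
  have e2 := hz g a (a⁻¹ * h * a)
  have e3 := hz g h a
  have c1 : a * (a⁻¹ * g * a) = g * a := by group
  have c2 : a * (a⁻¹ * h * a) = h * a := by group
  have c3 : a⁻¹ * g * a * (a⁻¹ * h * a) = a⁻¹ * (g * h) * a := by group
  rw [c1, c3] at e1
  rw [c2] at e2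
  simp only [Pi.sub_apply, s56t_conjG, ptd_d1_apply, s56t_conjHtpy, map_sub]
  -- `e1 : z (g a, h') + z (a, g') = a z (g', h') + z (a, (gh)')`
  -- `e2 : z (g a, h') + z (g, a) = g z (a, h') + z (g, h a)`
  -- `e3 : z (g h, a) + z (g, h) = g z (h, a) + z (g, h a)`
  have e1' : ρ a (z (a⁻¹ * g * a, a⁻¹ * h * a)) =
      z (g * a, a⁻¹ * h * a) + z (a, a⁻¹ * g * a) - z (a, a⁻¹ * (g * h) * a) :=
    eq_sub_of_add_eq e1.symm
  have e2' : z (g * a, a⁻¹ * h * a) =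
      ρ g (z (a, a⁻¹ * h * a)) + z (g, h * a) - z (g, a) := eq_sub_of_add_eq e2
  have e3' : z (g, h * a) = z (g * h, a) + z (g, h) - ρ g (z (h, a)) :=
    eq_sub_of_add_eq' e3.symm
  rw [e1', e2', e3']
  abel

variable (𝓛 : ptd_Levels G)

/-- the homotopy of a level cochain is level-constant -/
lemma s56t_isLev₁_conjHtpy {z : G × G → C} (hz : ptd_IsLev₂ 𝓛 z) (a : G) :
    ptd_IsLev₁ 𝓛 (s56t_conjHtpy a z) := by
  obtain ⟨N, hN, h⟩ := hz
  haveI := 𝓛.normal N hN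
  refine ⟨N, hN, fun g n hn => ?_⟩
  unfold s56t_conjHtpy
  have hmem : a⁻¹ * n * a ∈ N := by
    have := (𝓛.normal N hN).conj_mem n hn a⁻¹
    simpa using this
  have c1 : a⁻¹ * (g * n) * a = a⁻¹ * g * a * (a⁻¹ * n * a) := by group
  have h1 := h a (a⁻¹ * g * a) 1 N.one_mem (a⁻¹ * n * a) hmem
  have h2 := h g a n hn 1 N.one_mem
  rw [mul_one] at h1 h2
  rw [c1, h1, h2]

variable (U : Subgroup G)

/-- conjugation by `a⁻¹` on a subgroup normalised by it -/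
def s56t_conjU (a : G) (hUa : ∀ u ∈ U, a⁻¹ * u * a ∈ U) (u : U) : U :=
  ⟨a⁻¹ * u * a, hUa u u.2⟩

lemma s56t_conjU_mul (a : G) (hUa : ∀ u ∈ U, a⁻¹ * u * a ∈ U) (u v : U) :
    s56t_conjU U a hUa (u * v) = s56t_conjU U a hUa u * s56t_conjU U a hUa v := by
  apply Subtype.ext
  show a⁻¹ * ((u : G) * v) * a = a⁻¹ * u * a * (a⁻¹ * v * a)
  group

/-- conjugation of 2-cochains of `U` -/
def s56t_conj₂ (a : G) (hUa : ∀ u ∈ U, a⁻¹ * u * a ∈ U) (y : U × U → C) : U × U → C :=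
  fun x => ρ a (y (s56t_conjU U a hUa x.1, s56t_conjU U a hUa x.2))

/-- conjugation of 1-cochains of `U` -/
def s56t_conj₁ (a : G) (hUa : ∀ u ∈ U, a⁻¹ * u * a ∈ U) (φ : U → C) : U → C :=
  fun u => ρ a (φ (s56t_conjU U a hUa u))

lemma s56t_conj₂_sub (a : G) (hUa : ∀ u ∈ U, a⁻¹ * u * a ∈ U) (y y' : U × U → C) :
    s56t_conj₂ ρ U a hUa (y - y') = s56t_conj₂ ρ U a hUa y - s56t_conj₂ ρ U a hUa y' := by
  funext x
  simp only [s56t_conj₂, Pi.sub_apply, map_sub]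

lemma s56t_conj₂_d1 (a : G) (hUa : ∀ u ∈ U, a⁻¹ * u * a ∈ U) (φ : U → C) :
    s56t_conj₂ ρ U a hUa (ptd_d1 (ptd_resRep ρ U) φ)
      = ptd_d1 (ptd_resRep ρ U) (s56t_conj₁ ρ U a hUa φ) := by
  funext ⟨g, h⟩
  simp only [s56t_conj₂, s56t_conj₁, ptd_d1_apply, ptd_resRep_apply, map_sub, map_add,
    s56t_conjU_mul]
  have : ρ a (ρ ((s56t_conjU U a hUa g : U) : G) (φ (s56t_conjU U a hUa h)))
      = ρ (g : G) (ρ a (φ (s56t_conjU U a hUa h))) := by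
    rw [← Module.End.mul_apply, ← Module.End.mul_apply, ← map_mul, ← map_mul]
    congr 2
    show a * (a⁻¹ * (g : G) * a) = (g : G) * a
    group
  rw [this]

lemma s56t_conj₂_res₂ (a : G) (hUa : ∀ u ∈ U, a⁻¹ * u * a ∈ U) (z : G × G → C) :
    s56t_conj₂ ρ U a hUa (ptd_res₂ U z) = ptd_res₂ U (s56t_conjG ρ a z) := rfl

variable {𝓛} {U}

lemma s56t_isLev₁_conj₁ (hU : 𝓛.IsOpen U) (a : G) (hUa : ∀ u ∈ U, a⁻¹ * u * a ∈ U) {φ : U → C}
    (hφ : ptd_IsLev₁ (𝓛.sub U hU) φ) : ptd_IsLev₁ (𝓛.sub U hU) (s56t_conj₁ ρ U a hUa φ) := by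
  obtain ⟨N', ⟨N, hN, hNU, rfl⟩, h⟩ := hφ
  refine ⟨N.subgroupOf U, ⟨N, hN, hNU, rfl⟩, fun g n hn => ?_⟩
  unfold s56t_conj₁
  rw [s56t_conjU_mul]
  congr 1
  refine h _ _ (Subgroup.mem_subgroupOf.mpr ?_)
  have := (𝓛.normal N hN).conj_mem (n : G) (Subgroup.mem_subgroupOf.mp hn) a⁻¹
  simpa [s56t_conjU] using this

/-- **conjugation acts trivially on classes which are restrictions from `G`** -/
theorem s56t_isB2_sub_conj₂ (hU : 𝓛.IsOpen U) (a : G) (hUa : ∀ u ∈ U, a⁻¹ * u * a ∈ U)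
    {y : U × U → C} {z₀ : G × G → C} (hz₀ : ptd_IsLZ2 𝓛 ρ z₀)
    (hB : ptd_IsB2 (𝓛.sub U hU) (ptd_resRep ρ U) (y - ptd_res₂ U z₀)) :
    ptd_IsB2 (𝓛.sub U hU) (ptd_resRep ρ U) (y - s56t_conj₂ ρ U a hUa y) := by
  obtain ⟨φ, hφ, hφe⟩ := hB
  have hψ := (s56t_isLev₁_conjHtpy 𝓛 hz₀.2 a).res U hU
  refine ⟨φ - s56t_conj₁ ρ U a hUa φ - ptd_res₁ U (s56t_conjHtpy a z₀),
    (hφ.sub (s56t_isLev₁_conj₁ ρ hU a hUa hφ)).sub hψ, ?_⟩
  have h1 : s56t_conj₂ ρ U a hUa y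
      = ptd_d1 (ptd_resRep ρ U) (s56t_conj₁ ρ U a hUa φ) + ptd_res₂ U (s56t_conjG ρ a z₀) := by
    rw [← s56t_conj₂_d1, ← hφe, s56t_conj₂_sub, s56t_conj₂_res₂]
    abel
  have h2 : ptd_res₂ U (s56t_conjG ρ a z₀)
      = ptd_res₂ U z₀ + ptd_d1 (ptd_resRep ρ U) (ptd_res₁ U (s56t_conjHtpy a z₀)) := by
    rw [← ptd_res₂_d1, ← s56t_conjG_sub ρ hz₀.1 a]
    funext x
    simp only [ptd_res₂, Pi.add_apply, Pi.sub_apply]
    abel
  have h3 : y = ptd_d1 (ptd_resRep ρ U) φ + ptd_res₂ U z₀ := by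
    rw [← hφe]; abel
  rw [h1, h2]
  conv_lhs => rw [h3]
  funext ⟨g, h⟩
  simp only [Pi.sub_apply, Pi.add_apply, ptd_d1_apply, map_sub]
  abel

end Conj

section InvConj

variable {G : Type*} [Group G] {J C : Type*} [AddCommGroup J] [AddCommGroup C]
variable {𝓛 : ptd_Levels G} {ρJ : Representation ℤ G J} {ρC : Representation ℤ G C}
variable {p : ℕ} [hp : Fact p.Prime] (A : ptn_AbsK 𝓛 ρJ ρC p)

/-- **conjugation invariance of the invariant map** of an open subgroup -/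
theorem s56t_inv_conj (U : Subgroup G) (hU : 𝓛.IsOpen U) (a : G)
    (hUa : ∀ u ∈ U, a⁻¹ * u * a ∈ U) (y : U × U → C)
    (hy : ptd_IsLZ2p (𝓛.sub U hU) (ptd_resRep ρC U) p y) :
    A.inv U hU (s56t_conj₂ ρC U a hUa y) = A.inv U hU y := by
  haveI := hU.finiteIndex
  obtain ⟨z₀, hz₀, hB⟩ := s56t_exists_global A U hU y hy
  exact (A.inv_congr U hU hy.1 1 (by simpa using hy.2)
    (s56t_isB2_sub_conj₂ ρC hU a hUa hz₀ hB)).symm

end InvConj

end Fermat.Agent.Lib.S56
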