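/-
S56 programme, W4-E4 (global Euler characteristic, cyclic case), model-side brick (B2):
**DESCENT ALONG A NORMAL SUBGROUP OF INDEX PRIME TO `p`** for the level `H¹` of the big-group
model.

`V ≤ U` open subgroups of `G`, `V` normalised by `U`, `N` a `k[U]`-module on which `V` acts
trivially, `[U : V]` invertible in `k`.  Then restriction induces a linear isomorphism

  `H¹_lev(U, N) ≃ { φ : V → N level homomorphism | φ (u v u⁻¹) = u • φ v }`.

Injectivity is the usual averaging argument; the inverse is the (averaged) transfer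
`c(h) = [U:V]⁻¹ ∑_t ρ(r(h s_t)) φ(r(h s_t)⁻¹ h s_t)`.
-/
import Mathlib
import Fermat.Agent.Lib.S56.TailShapiro

set_option autoImplicit false
set_option linter.unusedSectionVars false
set_option linter.unusedVariables false

noncomputable section

namespace Fermat.Agent.Lib.S56

open Fermat.Agent.Lib.PT

section Descent

variable {G : Type*} [Group G] (𝓛 : ptd_Levels G) (U V : Subgroup G)
variable (hU : 𝓛.IsOpen U) (hV : 𝓛.IsOpen V) (hVU : V ≤ U)
variable (hnorm : ∀ u ∈ U, ∀ v ∈ V, u * v * u⁻¹ ∈ V)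
variable {k : Type*} [CommRing k] {N : Type*} [AddCommGroup N] [Module k N]
variable (ρN : Representation k U N)

/-- conjugation of `V` by an element of `U` -/
def s56t_conjV (u : U) (v : V) : V := ⟨(u : G) * v * (u : G)⁻¹, hnorm u u.2 v v.2⟩

@[simp] lemma s56t_conjV_coe (u : U) (v : V) :
    ((s56t_conjV U V hnorm u v : V) : G) = (u : G) * v * (u : G)⁻¹ := rfl

/-- the `U`-invariant level homomorphisms `V → N` -/
def s56t_HomInv : Submodule k (V → N) where
  carrier := {φ | (∀ v w, φ (v * w) = φ v + φ w) ∧ ptd_IsLev₁ (𝓛.sub V hV) φ ∧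
    ∀ (u : U) (v : V), φ (s56t_conjV U V hnorm u v) = ρN u (φ v)}
  add_mem' := by
    rintro φ ψ ⟨h1, h2, h3⟩ ⟨h1', h2', h3'⟩
    refine ⟨fun v w => ?_, h2.add h2', fun u v => ?_⟩
    · simp only [Pi.add_apply, h1, h1']; abel
    · simp only [Pi.add_apply, h3, h3', map_add]
  zero_mem' := ⟨fun v w => by simp, ptd_isLev₁_const (0 : N), fun u v => by simp⟩
  smul_mem' := by
    rintro a φ ⟨h1, h2, h3⟩
    refine ⟨fun v w => ?_, h2.comp (a • ·), fun u v => ?_⟩
    · simp only [Pi.smul_apply, h1, smul_add]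
    · simp only [Pi.smul_apply, h3, map_smul]

lemma s56t_mem_HomInv (φ : V → N) : φ ∈ s56t_HomInv 𝓛 U V hV hnorm ρN ↔
    (∀ v w, φ (v * w) = φ v + φ w) ∧ ptd_IsLev₁ (𝓛.sub V hV) φ ∧
      ∀ (u : U) (v : V), φ (s56t_conjV U V hnorm u v) = ρN u (φ v) := Iff.rfl

variable (k) in
/-- restriction of cochains from `U` to `V` -/
def s56t_resV : (U → N) →ₗ[k] (V → N) where
  toFun c := fun v => c (Subgroup.inclusion hVU v)
  map_add' c c' := rfl
  map_smul' a c := rfl

@[simp] lemma s56t_resV_apply (c : U → N) (v : V) :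
    s56t_resV U V hVU k c v = c (Subgroup.inclusion hVU v) := rfl

variable (htriv : ∀ v : U, (v : G) ∈ V → ρN v = 1)

include htriv in
/-- the restriction of a level cocycle is an invariant level homomorphism -/
lemma s56t_resV_mem {c : U → N} (hc : c ∈ s56t_Z1 (𝓛.sub U hU) ρN) :
    s56t_resV U V hVU k c ∈ s56t_HomInv 𝓛 U V hV hnorm ρN := by
  obtain ⟨hz, hl⟩ := hc
  have hone := s56t_cocycle_one ρN hz
  refine ⟨fun v w => ?_, ?_, fun u v => ?_⟩
  · show c (Subgroup.inclusion hVU (v * w)) = _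
    rw [map_mul, hz, htriv _ (by exact v.2), Module.End.one_apply]
    simp only [s56t_resV_apply]
    abel
  · obtain ⟨N₀', ⟨N₀, hN₀, hN₀U, rfl⟩, hinv⟩ := hl
    obtain ⟨N₁, hN₁, hN₁V⟩ := hV
    obtain ⟨N₂, hN₂, hle⟩ := 𝓛.directed N₀ hN₀ N₁ hN₁
    refine ⟨N₂.subgroupOf V, ⟨N₂, hN₂, (hle.trans inf_le_right).trans hN₁V, rfl⟩,
      fun v n hn => ?_⟩
    show c (Subgroup.inclusion hVU (v * n)) = c (Subgroup.inclusion hVU v)
    rw [map_mul]
    exact hinv _ _ (Subgroup.mem_subgroupOf.mpr ((hle (Subgroup.mem_subgroupOf.mp hn)).1))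
  · have hconj : Subgroup.inclusion hVU (s56t_conjV U V hnorm u v)
        = u * Subgroup.inclusion hVU v * u⁻¹ := Subtype.ext rfl
    show c (Subgroup.inclusion hVU (s56t_conjV U V hnorm u v)) = ρN u (c (Subgroup.inclusion hVU v))
    have h1 : ρN u (c u⁻¹) + c u = 0 := by
      rw [← hz u u⁻¹, mul_inv_cancel, hone]
    rw [hconj, hz, hz, map_mul, htriv (Subgroup.inclusion hVU v) (by exact v.2), mul_one]
    calc ρN u (c u⁻¹) + (ρN u (c (Subgroup.inclusion hVU v)) + c u)
        = ρN u (c (Subgroup.inclusion hVU v)) + (ρN u (c u⁻¹) + c u) := by abel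
      _ = ρN u (c (Subgroup.inclusion hVU v)) := by rw [h1, add_zero]

include htriv in
/-- coboundaries restrict to zero -/
lemma s56t_resV_B1 {c : U → N} (hc : c ∈ s56t_B1 ρN) : s56t_resV U V hVU k c = 0 := by
  obtain ⟨a, ha⟩ := (s56t_mem_B1 ρN c).mp hc
  funext v
  show c (Subgroup.inclusion hVU v) = 0
  rw [ha, htriv _ (by exact v.2), Module.End.one_apply, sub_self]

/-! ### The transversal -/

/-- the quotient `U / V` -/
abbrev s56t_Q : Type _ := U ⧸ V.subgroupOf U

include hV in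
lemma s56t_finiteIndex_subgroupOf : (V.subgroupOf U).FiniteIndex := by
  obtain ⟨N₁, hN₁, hN₁V⟩ := hV
  haveI := 𝓛.finiteIndex N₁ hN₁
  haveI : V.FiniteIndex := Subgroup.finiteIndex_of_le hN₁V
  infer_instance

/-- the chosen representative of the coset of `x` -/
def s56t_rep (x : U) : U := (QuotientGroup.mk x : s56t_Q U V).out

lemma s56t_mk_rep (x : U) : (QuotientGroup.mk (s56t_rep U V x) : s56t_Q U V) = QuotientGroup.mk x :=
  Quotient.out_eq _

lemma s56t_rep_inv_mul_mem (x : U) : (((s56t_rep U V x)⁻¹ * x : U) : G) ∈ V := by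
  have h := QuotientGroup.eq.mp (s56t_mk_rep U V x)
  exact Subgroup.mem_subgroupOf.mp h

/-- the `V`-part of `x`: `x = rep x * vpart x` -/
def s56t_vpart (x : U) : V := ⟨(((s56t_rep U V x)⁻¹ * x : U) : G), s56t_rep_inv_mul_mem U V x⟩

lemma s56t_rep_mul_vpart (x : U) :
    s56t_rep U V x * Subgroup.inclusion hVU (s56t_vpart U V x) = x := by
  apply Subtype.ext
  show ((s56t_rep U V x : U) : G) * ((((s56t_rep U V x)⁻¹ * x : U)) : G) = x
  simp

lemma s56t_rep_mul_right (x : U) (v : V) :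
    s56t_rep U V (x * Subgroup.inclusion hVU v) = s56t_rep U V x := by
  unfold s56t_rep
  congr 1
  rw [QuotientGroup.eq]
  apply Subgroup.mem_subgroupOf.mpr
  have : (((x * Subgroup.inclusion hVU v)⁻¹ * x : U) : G) = (v : G)⁻¹ := by
    simp [mul_assoc]
  rw [this]
  exact V.inv_mem v.2

lemma s56t_vpart_mul_right (x : U) (v : V) :
    s56t_vpart U V (x * Subgroup.inclusion hVU v) = s56t_vpart U V x * v := by
  apply Subtype.ext
  show (((s56t_rep U V (x * Subgroup.inclusion hVU v))⁻¹ * (x * Subgroup.inclusion hVU v) : U) : G)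
    = (((s56t_rep U V x)⁻¹ * x : U) : G) * (v : G)
  rw [s56t_rep_mul_right]
  simp [mul_assoc]

lemma s56t_rep_out (t : s56t_Q U V) : s56t_rep U V t.out = t.out := by
  unfold s56t_rep
  rw [QuotientGroup.out_eq']

lemma s56t_rep_eq_out_smul (h : U) (t : s56t_Q U V) :
    s56t_rep U V (h * t.out) = (h • t).out := by
  unfold s56t_rep
  congr 1
  conv_rhs => rw [← QuotientGroup.out_eq' t]
  rfl

lemma s56t_vpart_out (t : s56t_Q U V) : s56t_vpart U V t.out = 1 := by
  apply Subtype.ext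
  show (((s56t_rep U V t.out)⁻¹ * t.out : U) : G) = 1
  rw [s56t_rep_out]
  simp

/-! ### The transfer -/

/-- the transfer of a function `φ : V → N` to `U` -/
def s56t_transfer [Fintype (s56t_Q U V)] (φ : V → N) : U → N := fun h =>
  ∑ t : s56t_Q U V, ρN (s56t_rep U V (h * t.out)) (φ (s56t_vpart U V (h * t.out)))

include htriv hVU in
lemma s56t_rho_rep (x : U) : ρN (s56t_rep U V x) = ρN x := by
  have h := congrArg ρN (s56t_rep_mul_vpart U V hVU x)
  rw [map_mul, htriv (Subgroup.inclusion hVU (s56t_vpart U V x)) (s56t_vpart U V x).2,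
    mul_one] at h
  exact h

include htriv hVU in
/-- the transfer of an additive map is a cocycle -/
lemma s56t_transfer_cocycle [Fintype (s56t_Q U V)] {φ : V → N}
    (hadd : ∀ v w, φ (v * w) = φ v + φ w) :
    ptd_IsZ1 ρN (s56t_transfer U V ρN φ) := by
  intro h k'
  unfold s56t_transfer
  have hterm : ∀ t : s56t_Q U V,
      ρN (s56t_rep U V (h * k' * t.out)) (φ (s56t_vpart U V (h * k' * t.out)))
        = ρN (s56t_rep U V (h * (k' • t).out)) (φ (s56t_vpart U V (h * (k' • t).out)))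
          + ρN h (ρN (s56t_rep U V (k' * t.out)) (φ (s56t_vpart U V (k' * t.out)))) := by
    intro t
    have e1 : h * k' * t.out
        = h * (k' • t).out * Subgroup.inclusion hVU (s56t_vpart U V (k' * t.out)) := by
      rw [← s56t_rep_eq_out_smul, mul_assoc, mul_assoc, s56t_rep_mul_vpart]
    have e2 : ρN (s56t_rep U V (h * (k' • t).out)) = ρN h * ρN (s56t_rep U V (k' * t.out)) := by
      rw [s56t_rho_rep U V hVU ρN htriv, map_mul, s56t_rep_eq_out_smul]
    rw [e1, s56t_rep_mul_right, s56t_vpart_mul_right, hadd, map_add]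
    congr 1
    rw [e2, Module.End.mul_apply]
  rw [Finset.sum_congr rfl (fun t _ => hterm t), Finset.sum_add_distrib, map_sum]
  rw [add_comm]
  congr 1
  exact Fintype.sum_equiv (MulAction.toPerm k') _ _ (fun t => rfl)

include htriv in
/-- the transfer of an invariant homomorphism restricts to `[U : V] • φ` -/
lemma s56t_transfer_res [Fintype (s56t_Q U V)] {φ : V → N}
    (hφ : φ ∈ s56t_HomInv 𝓛 U V hV hnorm ρN) (v : V) :
    s56t_transfer U V ρN φ (Subgroup.inclusion hVU v) = Fintype.card (s56t_Q U V) • φ v := by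
  obtain ⟨hadd, -, hinv⟩ := hφ
  unfold s56t_transfer
  have hterm : ∀ t : s56t_Q U V,
      ρN (s56t_rep U V (Subgroup.inclusion hVU v * t.out))
        (φ (s56t_vpart U V (Subgroup.inclusion hVU v * t.out))) = φ v := by
    intro t
    have e1 : Subgroup.inclusion hVU v * t.out
        = t.out * Subgroup.inclusion hVU (s56t_conjV U V hnorm (t.out)⁻¹ v) := by
      apply Subtype.ext
      simp [mul_assoc]
    rw [e1, s56t_rep_mul_right, s56t_vpart_mul_right, s56t_rep_out, s56t_vpart_out, one_mul,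
      hinv, ← Module.End.mul_apply, ← map_mul, mul_inv_cancel, map_one, Module.End.one_apply]
  rw [Finset.sum_congr rfl (fun t _ => hterm t), Finset.sum_const, Finset.card_univ]

include hVU in
/-- the transfer of a level homomorphism is level-constant -/
lemma s56t_transfer_level [Fintype (s56t_Q U V)] {φ : V → N}
    (hadd : ∀ v w, φ (v * w) = φ v + φ w) (hlev : ptd_IsLev₁ (𝓛.sub V hV) φ) :
    ptd_IsLev₁ (𝓛.sub U hU) (s56t_transfer U V ρN φ) := by
  obtain ⟨N₁', ⟨N₁, hN₁, hN₁V, rfl⟩, hinv⟩ := hlev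
  haveI := 𝓛.normal N₁ hN₁
  refine ⟨N₁.subgroupOf U, ⟨N₁, hN₁, hN₁V.trans hVU, rfl⟩, fun h n hn => ?_⟩
  unfold s56t_transfer
  refine Finset.sum_congr rfl (fun t _ => ?_)
  have hn' : (n : G) ∈ N₁ := Subgroup.mem_subgroupOf.mp hn
  have hmem : ((t.out : U) : G)⁻¹ * (n : G) * ((t.out : U) : G) ∈ N₁ := by
    have := (𝓛.normal N₁ hN₁).conj_mem (n : G) hn' ((t.out : U) : G)⁻¹
    simpa using this
  have e1 : h * n * t.out = h * t.out * Subgroup.inclusion hVU
      ⟨((t.out : U) : G)⁻¹ * (n : G) * ((t.out : U) : G), hN₁V hmem⟩ := by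
    apply Subtype.ext
    simp [mul_assoc]
  rw [e1, s56t_rep_mul_right, s56t_vpart_mul_right]
  congr 1
  exact hinv _ _ (Subgroup.mem_subgroupOf.mpr hmem)

/-! ### Injectivity -/

include htriv in
/-- a cocycle of `U` vanishing on `V` is a coboundary (averaging) -/
lemma s56t_isB1_of_resV_eq_zero [Fintype (s56t_Q U V)] {c : U → N} (hz : ptd_IsZ1 ρN c)
    (h0 : s56t_resV U V hVU k c = 0) (minv : k)
    (hminv : minv * (Fintype.card (s56t_Q U V) : k) = 1) : c ∈ s56t_B1 ρN := by
  have h0' : ∀ v : V, c (Subgroup.inclusion hVU v) = 0 := fun v => congrFun h0 v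
  set S : N := ∑ t : s56t_Q U V, c t.out with hS
  have hkey : ∀ h : U, S = ρN h S + Fintype.card (s56t_Q U V) • c h := by
    intro h
    have h1 : ∀ t : s56t_Q U V, c (h * t.out) = c ((h • t).out) := by
      intro t
      conv_lhs => rw [← s56t_rep_mul_vpart U V hVU (h * t.out)]
      rw [hz, h0', map_zero, zero_add, s56t_rep_eq_out_smul]
    have h2 : ∑ t : s56t_Q U V, c (h * t.out) = S := by
      rw [Finset.sum_congr rfl (fun t _ => h1 t)]
      exact Fintype.sum_equiv (MulAction.toPerm h) _ _ (fun t => rfl)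
    have h3 : ∑ t : s56t_Q U V, c (h * t.out) = ρN h S + Fintype.card (s56t_Q U V) • c h := by
      rw [Finset.sum_congr rfl (fun t _ => hz h t.out), Finset.sum_add_distrib, ← map_sum,
        Finset.sum_const, Finset.card_univ]
    exact h2.symm.trans h3
  rw [s56t_mem_B1]
  refine ⟨-(minv • S), fun h => ?_⟩
  have h4 : (Fintype.card (s56t_Q U V) : k) • c h = S - ρN h S := by
    rw [Nat.cast_smul_eq_nsmul]
    exact eq_sub_of_add_eq' (hkey h).symm
  have h5 : c h = minv • (S - ρN h S) := by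
    rw [← h4, smul_smul, hminv, one_smul]
  rw [h5, map_neg, map_smul, smul_sub]
  abel

/-! ### The descent isomorphism -/

include hV in
lemma s56t_finite_Q : Finite (s56t_Q U V) := by
  haveI := s56t_finiteIndex_subgroupOf 𝓛 U V hV
  exact Subgroup.finite_quotient_of_finiteIndex

lemma s56t_card_Q [Fintype (s56t_Q U V)] : Fintype.card (s56t_Q U V) = V.relIndex U := by
  rw [Subgroup.relIndex, Subgroup.index_eq_card, Nat.card_eq_fintype_card]

/-- restriction, on level cocycles -/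
def s56t_resZ : ↥(s56t_Z1 (𝓛.sub U hU) ρN) →ₗ[k] ↥(s56t_HomInv 𝓛 U V hV hnorm ρN) :=
  LinearMap.codRestrict _ ((s56t_resV U V hVU k).comp (s56t_Z1 (𝓛.sub U hU) ρN).subtype)
    (fun c => s56t_resV_mem 𝓛 U V hU hV hVU hnorm ρN htriv c.2)

/-- restriction, on the level `H¹` -/
def s56t_resH : s56t_H1 (𝓛.sub U hU) ρN →ₗ[k] ↥(s56t_HomInv 𝓛 U V hV hnorm ρN) :=
  Submodule.liftQ _ (s56t_resZ 𝓛 U V hU hV hVU hnorm ρN htriv) (by
    intro c hc
    rw [LinearMap.mem_ker]
    apply Subtype.ext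
    exact s56t_resV_B1 U V hVU ρN htriv (Submodule.mem_comap.mp hc))

lemma s56t_resH_mk (c : ↥(s56t_Z1 (𝓛.sub U hU) ρN)) :
    ((s56t_resH 𝓛 U V hU hV hVU hnorm ρN htriv (Submodule.Quotient.mk c) :
      ↥(s56t_HomInv 𝓛 U V hV hnorm ρN)) : V → N) = s56t_resV U V hVU k (c : U → N) := rfl

theorem s56t_resH_bijective (hm : IsUnit ((V.relIndex U : ℕ) : k)) :
    Function.Bijective (s56t_resH 𝓛 U V hU hV hVU hnorm ρN htriv) := by
  haveI := s56t_finite_Q 𝓛 U V hV
  letI : Fintype (s56t_Q U V) := Fintype.ofFinite _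
  obtain ⟨minv, hminv⟩ : ∃ minv : k, minv * (Fintype.card (s56t_Q U V) : k) = 1 := by
    rw [s56t_card_Q]
    obtain ⟨u, hu⟩ := hm
    exact ⟨((u⁻¹ : kˣ) : k), by rw [← hu]; exact Units.inv_mul u⟩
  constructor
  · rw [← LinearMap.ker_eq_bot, eq_bot_iff]
    intro x hx
    induction x using Submodule.Quotient.induction_on with
    | H c =>
      rw [LinearMap.mem_ker] at hx
      have h0 : s56t_resV U V hVU k (c : U → N) = 0 := by
        rw [← s56t_resH_mk 𝓛 U V hU hV hVU hnorm ρN htriv c, hx]; rfl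
      rw [Submodule.mem_bot, Submodule.Quotient.mk_eq_zero]
      exact Submodule.mem_comap.mpr
        (s56t_isB1_of_resV_eq_zero U V hVU ρN htriv c.2.1 h0 minv hminv)
  · intro φ
    have hφ := φ.2
    obtain ⟨hadd, hlev, hinv⟩ := hφ
    have hc : minv • s56t_transfer U V ρN (φ : V → N) ∈ s56t_Z1 (𝓛.sub U hU) ρN :=
      (s56t_Z1 (𝓛.sub U hU) ρN).smul_mem minv
        ⟨s56t_transfer_cocycle U V hVU ρN htriv hadd,
          s56t_transfer_level 𝓛 U V hU hV hVU ρN hadd hlev⟩
    refine ⟨Submodule.Quotient.mk ⟨_, hc⟩, ?_⟩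
    apply Subtype.ext
    rw [s56t_resH_mk]
    funext v
    show minv • s56t_transfer U V ρN (φ : V → N) (Subgroup.inclusion hVU v) = (φ : V → N) v
    rw [s56t_transfer_res 𝓛 U V hV hVU hnorm ρN htriv φ.2 v, ← Nat.cast_smul_eq_nsmul k,
      smul_smul, hminv, one_smul]

/-- **Descent**: `H¹_lev(U, N) ≃ Hom_lev(V, N)^U` when `V` acts trivially on `N` and `[U : V]` is
invertible in `k`. -/
def s56t_descentEquiv (hm : IsUnit ((V.relIndex U : ℕ) : k)) :
    s56t_H1 (𝓛.sub U hU) ρN ≃ₗ[k] ↥(s56t_HomInv 𝓛 U V hV hnorm ρN) :=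
  LinearEquiv.ofBijective (s56t_resH 𝓛 U V hU hV hVU hnorm ρN htriv)
    (s56t_resH_bijective 𝓛 U V hU hV hVU hnorm ρN htriv hm)

end Descent

end Fermat.Agent.Lib.S56
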