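/-
S56 programme, W4-E4, brick (B3d), PURE ALGEBRA: **extension of coefficients for a perfect
equivariant pairing**.

`X` a space of `k`-valued functions on a set `𝒱`, `𝒜` an abelian group, `B : X × 𝒜 → k` biadditive,
left non-degenerate, and every additive `𝒜 → k` is of the form `B χ`.  A group `Γ` acts on
everything compatibly.  Then for a finite-dimensional `k[Γ]`-module `N` the `Γ`-invariant
`N`-valued functions on `𝒱` all of whose coordinates lie in `X` are in bijection with the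
`Γ`-equivariant additive maps `𝒜 → N`.
-/
import Mathlib

set_option autoImplicit false
set_option linter.unusedSectionVars false
set_option linter.unusedVariables false

noncomputable section

namespace Fermat.Agent.Lib.S56

open Module

section Pair

variable {k : Type*} [Field k] {N : Type*} [AddCommGroup N] [Module k N] [FiniteDimensional k N]
variable {𝒱 : Type*} {𝒜 : Type*} [AddCommGroup 𝒜] {Γ : Type*} [Group Γ]
variable (X : Submodule k (𝒱 → k)) (B : (𝒱 → k) → 𝒜 → k)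
variable (conj : Γ → 𝒱 → 𝒱) (act : Γ → 𝒜 → 𝒜) (ρN : Representation k Γ N)

/-- the relation `B (λ ∘ φ) c = λ (f c)` for all functionals `λ` -/
def s56t_PRel (φ : 𝒱 → N) (f : 𝒜 → N) : Prop :=
  ∀ (l : Dual k N) (c : 𝒜), B (fun v => l (φ v)) c = l (f c)

variable (hB2 : ∀ χ ∈ X, ∀ χ' ∈ X, ∀ c, B (χ + χ') c = B χ c + B χ' c)
variable (hB2s : ∀ (a : k), ∀ χ ∈ X, ∀ c, B (a • χ) c = a * B χ c)

/-- `B · c` as a linear map on `X` -/
def s56t_Blin (c : 𝒜) : X →ₗ[k] k where
  toFun χ := B (χ : 𝒱 → k) c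
  map_add' χ χ' := hB2 _ χ.2 _ χ'.2 c
  map_smul' a χ := hB2s a _ χ.2 c

include hB2 hB2s in
lemma s56t_B_sum {ι : Type*} (s : Finset ι) (a : ι → k) (χ : ι → 𝒱 → k) (hχ : ∀ i, χ i ∈ X)
    (c : 𝒜) : B (∑ i ∈ s, a i • χ i) c = ∑ i ∈ s, a i * B (χ i) c := by
  have h := map_sum (s56t_Blin X B hB2 hB2s c) (fun i => a i • (⟨χ i, hχ i⟩ : X)) s
  simp only [map_smul, smul_eq_mul] at h
  have e : ((∑ i ∈ s, a i • (⟨χ i, hχ i⟩ : X) : X) : 𝒱 → k) = ∑ i ∈ s, a i • χ i := by
    rw [Submodule.coe_sum]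
    rfl
  have h' : B (((∑ i ∈ s, a i • (⟨χ i, hχ i⟩ : X) : X)) : 𝒱 → k) c
      = ∑ i ∈ s, a i * B (χ i) c := h
  rw [e] at h'
  exact h'

/-- coordinates of a function w.r.t. the chosen basis -/
lemma s56t_dual_comp_eq (φ : 𝒱 → N) (l : Dual k N) :
    (fun v => l (φ v)) = ∑ i : Fin (finrank k N),
      l (Module.finBasis k N i) • (fun v => (Module.finBasis k N).coord i (φ v)) := by
  funext v
  rw [Finset.sum_apply]
  conv_lhs => rw [← (Module.finBasis k N).sum_repr (φ v), map_sum]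
  refine Finset.sum_congr rfl (fun i _ => ?_)
  simp only [map_smul, smul_eq_mul, Pi.smul_apply, Basis.coord_apply]
  ring

variable (hB1 : ∀ χ ∈ X, ∀ c c', B χ (c + c') = B χ c + B χ c')
variable (hB3 : ∀ χ ∈ X, (∀ c, B χ c = 0) → χ = 0)
variable (hB4 : ∀ L : 𝒜 →+ k, ∃ χ ∈ X, ∀ c, B χ c = L c)

include hB1 hB2 hB2s in
/-- existence of `f` for given `φ` -/
lemma s56t_PRel_exists_right {φ : 𝒱 → N} (hφ : ∀ l : Dual k N, (fun v => l (φ v)) ∈ X) :
    ∃ f : 𝒜 →+ N, s56t_PRel B φ f := by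
  let b := Module.finBasis k N
  refine ⟨AddMonoidHom.mk' (fun c => ∑ i, B (fun v => b.coord i (φ v)) c • b i) ?_, ?_⟩
  · intro c c'
    simp only [hB1 _ (hφ _), add_smul, Finset.sum_add_distrib]
  · intro l c
    show B (fun v => l (φ v)) c = l (∑ i, B (fun v => b.coord i (φ v)) c • b i)
    rw [s56t_dual_comp_eq φ l, s56t_B_sum X B hB2 hB2s _ _ _ (fun i => hφ (b.coord i)), map_sum]
    refine Finset.sum_congr rfl (fun i _ => ?_)
    rw [map_smul, smul_eq_mul, mul_comm]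

include hB2 hB2s hB4 in
/-- existence of `φ` for given `f` -/
lemma s56t_PRel_exists_left (f : 𝒜 →+ N) :
    ∃ φ : 𝒱 → N, (∀ l : Dual k N, (fun v => l (φ v)) ∈ X) ∧ s56t_PRel B φ f := by
  let b := Module.finBasis k N
  choose χ hχ hχB using fun i : Fin (finrank k N) =>
    hB4 ((b.coord i : N →ₗ[k] k).toAddMonoidHom.comp f)
  have hcomp : ∀ l : Dual k N, (fun v => l (∑ i, χ i v • b i)) = ∑ i, l (b i) • χ i := by
    intro l
    funext v
    rw [map_sum, Finset.sum_apply]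
    refine Finset.sum_congr rfl (fun i _ => ?_)
    simp only [map_smul, smul_eq_mul, Pi.smul_apply]
    ring
  refine ⟨fun v => ∑ i, χ i v • b i, fun l => ?_, fun l c => ?_⟩
  · rw [hcomp]
    exact X.sum_mem (fun i _ => X.smul_mem _ (hχ i))
  · rw [hcomp, s56t_B_sum X B hB2 hB2s _ _ _ hχ]
    conv_rhs => rw [← b.sum_repr (f c), map_sum]
    refine Finset.sum_congr rfl (fun i _ => ?_)
    rw [hχB i, map_smul, smul_eq_mul, mul_comm]
    rfl

/-- uniqueness of `f` -/
lemma s56t_PRel_unique_right {φ : 𝒱 → N} {f f' : 𝒜 → N} (h : s56t_PRel B φ f)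
    (h' : s56t_PRel B φ f') : f = f' := by
  funext c
  rw [← sub_eq_zero]
  refine (Module.forall_dual_apply_eq_zero_iff k _).1 (fun l => ?_)
  rw [map_sub, ← h l c, ← h' l c, sub_self]

include hB2 hB2s hB3 in
/-- uniqueness of `φ` -/
lemma s56t_PRel_unique_left {φ φ' : 𝒱 → N} {f : 𝒜 → N}
    (hφ : ∀ l : Dual k N, (fun v => l (φ v)) ∈ X) (hφ' : ∀ l : Dual k N, (fun v => l (φ' v)) ∈ X)
    (h : s56t_PRel B φ f) (h' : s56t_PRel B φ' f) : φ = φ' := by
  funext v
  rw [← sub_eq_zero]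
  refine (Module.forall_dual_apply_eq_zero_iff k _).1 (fun l => ?_)
  have hmem : (fun v => l (φ v)) + (-1 : k) • (fun v => l (φ' v)) ∈ X :=
    X.add_mem (hφ l) (X.smul_mem _ (hφ' l))
  have h0 := hB3 _ hmem (fun c => by
    rw [hB2 _ (hφ l) _ (X.smul_mem _ (hφ' l)), hB2s _ _ (hφ' l), h l c, h' l c]
    ring)
  have := congrFun h0 v
  simp only [Pi.add_apply, Pi.smul_apply, smul_eq_mul, Pi.zero_apply] at this
  rw [map_sub]
  linear_combination this

variable (hX5 : ∀ u, ∀ χ ∈ X, (fun v => χ (conj u v)) ∈ X)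
variable (hB5 : ∀ u, ∀ χ ∈ X, ∀ c, B (fun v => χ (conj u v)) (act u c) = B χ c)
variable (hact : ∀ u c, act u (act u⁻¹ c) = c)

include hB5 hact in
/-- equivariance of the relation -/
lemma s56t_PRel_equivariant {φ : 𝒱 → N} {f : 𝒜 → N}
    (hφ : ∀ l : Dual k N, (fun v => l (φ v)) ∈ X) (h : s56t_PRel B φ f) (u : Γ) :
    s56t_PRel B (fun v => ρN u (φ (conj u v))) (fun c => ρN u (f (act u⁻¹ c))) := by
  intro l c
  have h1 := hB5 u _ (hφ (l.comp (ρN u))) (act u⁻¹ c)
  rw [hact] at h1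
  have h2 := h (l.comp (ρN u)) (act u⁻¹ c)
  simp only [LinearMap.comp_apply] at h1 h2
  rw [h1, h2]

include hB1 hB2 hB2s hB3 hB4 hX5 hB5 hact in
/-- **the bijection on invariants** -/
theorem s56t_card_eq_of_pairing :
    Nat.card {φ : 𝒱 → N // (∀ l : Dual k N, (fun v => l (φ v)) ∈ X) ∧
        ∀ u v, ρN u (φ (conj u v)) = φ v}
      = Nat.card {f : 𝒜 →+ N // ∀ u c, f (act u c) = ρN u (f c)} := by
  have hact' : ∀ u c, act u⁻¹ (act u c) = c := fun u c => by
    have := hact u⁻¹ c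
    rwa [inv_inv] at this
  refine Nat.card_congr (Equiv.ofBijective (fun φ => ⟨Classical.choose
    (s56t_PRel_exists_right X B hB2 hB2s hB1 φ.2.1), ?_⟩) ⟨?_, ?_⟩)
  · -- the image is equivariant
    have hrel := Classical.choose_spec (s56t_PRel_exists_right X B hB2 hB2s hB1 φ.2.1)
    set f := Classical.choose (s56t_PRel_exists_right X B hB2 hB2s hB1 φ.2.1) with hf
    intro u c
    have h1 := s56t_PRel_equivariant X B conj act ρN hB5 hact φ.2.1 hrel u
    have h2 : (fun v => ρN u (φ.1 (conj u v))) = φ.1 := funext (fun v => φ.2.2 u v)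
    rw [h2] at h1
    have h3 := congrFun (s56t_PRel_unique_right B hrel h1) (act u c)
    rw [hact'] at h3
    exact h3
  · -- injective
    intro φ φ' hff'
    have hrel := Classical.choose_spec (s56t_PRel_exists_right X B hB2 hB2s hB1 φ.2.1)
    have hrel' := Classical.choose_spec (s56t_PRel_exists_right X B hB2 hB2s hB1 φ'.2.1)
    have e : ⇑(Classical.choose (s56t_PRel_exists_right X B hB2 hB2s hB1 φ.2.1))
        = ⇑(Classical.choose (s56t_PRel_exists_right X B hB2 hB2s hB1 φ'.2.1)) :=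
      congrArg (fun g : {f : 𝒜 →+ N // ∀ u c, f (act u c) = ρN u (f c)} => ((g : 𝒜 →+ N) : 𝒜 → N))
        hff'
    rw [← e] at hrel'
    exact Subtype.ext (s56t_PRel_unique_left X B hB2 hB2s hB3 φ.2.1 φ'.2.1 hrel hrel')
  · -- surjective
    intro f
    obtain ⟨φ, hφ, hrel⟩ := s56t_PRel_exists_left X B hB2 hB2s hB4 f.1
    have hinv : ∀ u v, ρN u (φ (conj u v)) = φ v := by
      intro u v
      have h1 := s56t_PRel_equivariant X B conj act ρN hB5 hact hφ hrel u
      have h2 : (fun c => ρN u (f.1 (act u⁻¹ c))) = f.1 := by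
        funext c
        rw [← f.2 u, hact]
      rw [h2] at h1
      have hφu : ∀ l : Dual k N, (fun v => l (ρN u (φ (conj u v)))) ∈ X := fun l =>
        hX5 u _ (hφ (l.comp (ρN u)))
      exact congrFun (s56t_PRel_unique_left X B hB2 hB2s hB3 hφu hφ h1 hrel) v
    refine ⟨⟨φ, hφ, hinv⟩, Subtype.ext (DFunLike.coe_injective ?_)⟩
    exact s56t_PRel_unique_right B
      (Classical.choose_spec (s56t_PRel_exists_right X B hB2 hB2s hB1 hφ)) hrel

end Pair

end Fermat.Agent.Lib.S56
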