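/-
S56 programme, W4-E4, model-side brick (B3): **EQUIVARIANT RECIPROCITY IN EXPONENT `p`**.

`V ≤ U` open subgroups of `G_ℚ` (`S`-levels), `V ≤ ker χ_cyc`, `V` normalised by `U`, `N` a finite
`𝔽_p[U]`-module.  The symbol `(χ, c) ↦ inv_V (c · δχ)` on (level characters of `V`) × `C_S^V` is
biadditive, perfect (`s56t_F3LG`, `s56t_F3G`) and `U`-invariant (`s56t_inv_conj`); hence
`#{ U-invariant level homomorphisms V → N } = #{ U-equivariant additive maps C_S^V → N }`.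
-/
import Mathlib
import Fermat.Agent.Lib.S56.TailModel
import Fermat.Agent.Lib.S56.TailConj
import Fermat.Agent.Lib.S56.TailPair
import Fermat.Agent.Lib.S56.TailDescent

set_option autoImplicit false
set_option linter.unusedSectionVars false
set_option linter.unusedVariables false

noncomputable section

namespace Fermat.Agent.Lib.S56

open IntermediateField ExtCitation Module Fermat.Agent.Lib.PT

local notation "Qbar" => AlgebraicClosure ℚ
local notation "GQ" => (AlgebraicClosure ℚ ≃ₐ[ℚ] AlgebraicClosure ℚ)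

section Generic

variable {G : Type*} [Group G] {𝓛 : ptd_Levels G}

/-- finite sums of level-constant functions are level-constant -/
lemma s56t_isLev₁_sum {ι X : Type*} [AddCommMonoid X] (s : Finset ι) (f : ι → G → X)
    (h : ∀ i ∈ s, ptd_IsLev₁ 𝓛 (f i)) : ptd_IsLev₁ 𝓛 (fun g => ∑ i ∈ s, f i g) := by
  classical
  induction s using Finset.induction_on with
  | empty => simpa using ptd_isLev₁_const (𝓛 := 𝓛) (0 : X)
  | insert a s ha ih =>
    have h1 := (h a (Finset.mem_insert_self a s)).add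
      (ih (fun i hi => h i (Finset.mem_insert_of_mem hi)))
    convert h1 using 1
    funext g
    simp [Finset.sum_insert ha]

variable {p : ℕ} [hp : Fact p.Prime]

/-- the level characters, as a subspace of the functions -/
def s56t_X (𝓛 : ptd_Levels G) : Submodule (ZMod p) (G → ZMod p) where
  carrier := {χ | ptd_IsChar χ ∧ ptd_IsLev₁ 𝓛 χ}
  add_mem' := fun h h' => ⟨ptl_isChar_add h.1 h'.1, h.2.add h'.2⟩
  zero_mem' := ⟨ptl_isChar_zero, ptd_isLev₁_const (0 : ZMod p)⟩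
  smul_mem' := fun a χ h => ⟨fun g g' => by
    simp only [Pi.smul_apply, h.1 g g', smul_add], h.2.comp (a • ·)⟩

lemma s56t_mem_X (χ : G → ZMod p) : χ ∈ s56t_X (p := p) 𝓛 ↔ ptd_IsChar χ ∧ ptd_IsLev₁ 𝓛 χ :=
  Iff.rfl

variable {N : Type*} [AddCommGroup N] [Module (ZMod p) N] [FiniteDimensional (ZMod p) N]

/-- a function all of whose coordinates are level characters is a level homomorphism -/
lemma s56t_coords_mem_X_iff (φ : G → N) :
    (∀ l : Dual (ZMod p) N, (fun v => l (φ v)) ∈ s56t_X (p := p) 𝓛) ↔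
      (∀ v w, φ (v * w) = φ v + φ w) ∧ ptd_IsLev₁ 𝓛 φ := by
  constructor
  · intro h
    refine ⟨fun v w => ?_, ?_⟩
    · rw [← sub_eq_zero]
      refine (Module.forall_dual_apply_eq_zero_iff (ZMod p) _).1 (fun l => ?_)
      have h1 : l (φ (v * w)) = l (φ v) + l (φ w) := (h l).1 v w
      rw [map_sub, map_add, h1, sub_self]
    · let b := Module.finBasis (ZMod p) N
      have h1 : ptd_IsLev₁ 𝓛 (fun g => ∑ i ∈ Finset.univ, b.coord i (φ g) • b i) :=
        s56t_isLev₁_sum Finset.univ (fun i g => b.coord i (φ g) • b i)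
          (fun i _ => (h (b.coord i)).2.comp (· • b i))
      convert h1 using 1
      funext g
      exact (b.sum_repr (φ g)).symm
  · rintro ⟨hadd, hlev⟩ l
    exact ⟨fun v w => by simp only [hadd v w, map_add], hlev.comp l⟩

end Generic

section Recip

variable {p : ℕ} [hp : Fact p.Prime] {S : Finset Nat.Primes}
variable (hp2 : p ≠ 2) (hpS : pPrime p ∈ S)
variable (U V : Subgroup GQ) (hV : (pta_levelsS S).IsOpen V)

/-- the `V`-invariants of the class module -/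
abbrev s56t_AV : Submodule ℤ (pta_EMod p hpS).C :=
  (ptd_resRep (pta_EMod p hpS).ρC V).invariants

/-- the symbol `(χ, c) ↦ inv_V (c · δχ)`, `ZMod p`-valued -/
def s56t_B (χ : V → ZMod p) (c : s56t_AV hpS V) : ZMod p :=
  pts_invZ ((s56t_A hp2 hpS).inv V hV) (ptd_bockSmul p χ (c : (pta_EMod p hpS).C))

lemma s56t_B_eq_symb {χ : V → ZMod p} (hχ : χ ∈ s56t_X (p := p) ((pta_levelsS S).sub V hV))
    (c : s56t_AV hpS V) :
    s56t_B hp2 hpS V hV χ c = ptl_symb (pts_invZ ((s56t_A hp2 hpS).inv V hV)) hχ.1 hχ.2 c := rfl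

lemma s56t_B_add_right {χ : V → ZMod p} (hχ : χ ∈ s56t_X (p := p) ((pta_levelsS S).sub V hV))
    (c c' : s56t_AV hpS V) :
    s56t_B hp2 hpS V hV χ (c + c') = s56t_B hp2 hpS V hV χ c + s56t_B hp2 hpS V hV χ c' := by
  rw [s56t_B_eq_symb hp2 hpS V hV hχ, s56t_B_eq_symb hp2 hpS V hV hχ,
    s56t_B_eq_symb hp2 hpS V hV hχ, map_add]

lemma s56t_B_add_left {χ χ' : V → ZMod p}
    (hχ : χ ∈ s56t_X (p := p) ((pta_levelsS S).sub V hV))
    (hχ' : χ' ∈ s56t_X (p := p) ((pta_levelsS S).sub V hV)) (c : s56t_AV hpS V) :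
    s56t_B hp2 hpS V hV (χ + χ') c = s56t_B hp2 hpS V hV χ c + s56t_B hp2 hpS V hV χ' c :=
  ptl_symb_add (ptd_IsDiscrete.resRep V hV (ptj_isDiscrete_CS S))
    (pts_invZ ((s56t_A hp2 hpS).inv V hV)) hχ.1 hχ.2 hχ'.1 hχ'.2 c

lemma s56t_B_smul_left (a : ZMod p) {χ : V → ZMod p}
    (hχ : χ ∈ s56t_X (p := p) ((pta_levelsS S).sub V hV)) (c : s56t_AV hpS V) :
    s56t_B hp2 hpS V hV (a • χ) c = a * s56t_B hp2 hpS V hV χ c := by
  let g : ↥(s56t_X (p := p) ((pta_levelsS S).sub V hV)) →+ ZMod p :=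
    AddMonoidHom.mk' (fun χ => s56t_B hp2 hpS V hV (χ : V → ZMod p) c)
      (fun χ χ' => s56t_B_add_left hp2 hpS V hV χ.2 χ'.2 c)
  have h := (g.toZModLinearMap p).map_smul a ⟨χ, hχ⟩
  simpa [g] using h

variable (hVK : V ≤ (cycloChar p).ker)

include hVK in
lemma s56t_B_nondeg {χ : V → ZMod p} (hχ : χ ∈ s56t_X (p := p) ((pta_levelsS S).sub V hV))
    (h0 : ∀ c, s56t_B hp2 hpS V hV χ c = 0) : χ = 0 := by
  refine s56t_F3LG hp2 hpS V hV hVK χ hχ.1 hχ.2 (fun c hc => ?_)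
  exact pts_theta_inj _
    (pts_inv_tors _ (ptl_bockSmul_isLZ2p hχ.1 hχ.2 hc)) (h0 ⟨c, hc⟩)

include hVK in
lemma s56t_B_surj (L : s56t_AV hpS V →+ ZMod p) :
    ∃ χ ∈ s56t_X (p := p) ((pta_levelsS S).sub V hV), ∀ c, s56t_B hp2 hpS V hV χ c = L c := by
  have hadd : ∀ c c' : s56t_AV hpS V, ptn_frac p (((L (c + c')).val : ℕ) : ℤ) p
      = ptn_frac p (((L c).val : ℕ) : ℤ) p + ptn_frac p (((L c').val : ℕ) : ℤ) p := by
    intro c c'
    rw [← ptn_frac_add, pts_frac_p_eq_iff]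
    push_cast
    simp only [ZMod.natCast_val, ZMod.cast_id', id_eq, map_add]
  let l : s56t_AV hpS V →+ ptn_T p :=
    AddMonoidHom.mk' (fun c => ptn_frac p (((L c).val : ℕ) : ℤ) p) hadd
  have hl : ∀ c, l (p • c) = 0 := by
    intro c
    show ptn_frac p (((L (p • c)).val : ℕ) : ℤ) p = 0
    rw [map_nsmul, ZModModule.char_nsmul_eq_zero p (L c), ZMod.val_zero, Nat.cast_zero,
      ptn_frac_zero]
  obtain ⟨χ, hχ, hlev, hχl⟩ := s56t_F3G hp2 hpS V hV hVK l hl
  refine ⟨χ, ⟨hχ, hlev⟩, fun c => ?_⟩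
  show pts_theta p ((s56t_A hp2 hpS).inv V hV (ptd_bockSmul p χ (c : (pta_EMod p hpS).C))) = L c
  rw [← hχl c]
  show pts_theta p (ptn_frac p (((L c).val : ℕ) : ℤ) p) = L c
  rw [pts_theta_frac]
  push_cast
  simp only [ZMod.natCast_val, ZMod.cast_id', id_eq]

variable (hnorm : ∀ u ∈ U, ∀ v ∈ V, u * v * u⁻¹ ∈ V)

include hnorm in
lemma s56t_hUa (u : U) : ∀ v ∈ V, ((u : GQ))⁻¹ * v * (u : GQ) ∈ V := by
  intro v hv
  have := hnorm ((u⁻¹ : U) : GQ) (u⁻¹ : U).2 v hv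
  simpa using this

/-- conjugation `v ↦ u⁻¹ v u` on `V` -/
def s56t_cj (u : U) (v : V) : V := s56t_conjU V (u : GQ) (s56t_hUa U V hnorm u) v

@[simp] lemma s56t_cj_coe (u : U) (v : V) :
    ((s56t_cj U V hnorm u v : V) : GQ) = (u : GQ)⁻¹ * v * (u : GQ) := rfl

lemma s56t_cj_mul (u : U) (v w : V) :
    s56t_cj U V hnorm u (v * w) = s56t_cj U V hnorm u v * s56t_cj U V hnorm u w :=
  s56t_conjU_mul V _ _ v w

/-- the action of `U` on `C_S^V` -/
def s56t_actA (u : U) (c : s56t_AV hpS V) : s56t_AV hpS V :=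
  ⟨(pta_EMod p hpS).ρC (u : GQ) (c : (pta_EMod p hpS).C), by
    intro v
    show (pta_EMod p hpS).ρC (v : GQ) ((pta_EMod p hpS).ρC (u : GQ) (c : (pta_EMod p hpS).C))
      = (pta_EMod p hpS).ρC (u : GQ) (c : (pta_EMod p hpS).C)
    have h1 : (v : GQ) * (u : GQ) = (u : GQ) * ((s56t_cj U V hnorm u v : V) : GQ) := by
      rw [s56t_cj_coe]; group
    rw [← Module.End.mul_apply, ← map_mul, h1, map_mul, Module.End.mul_apply]
    congr 1
    exact c.2 (s56t_cj U V hnorm u v)⟩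

@[simp] lemma s56t_actA_coe (u : U) (c : s56t_AV hpS V) :
    ((s56t_actA hpS U V hnorm u c : s56t_AV hpS V) : (pta_EMod p hpS).C)
      = (pta_EMod p hpS).ρC (u : GQ) (c : (pta_EMod p hpS).C) := rfl

lemma s56t_actA_inv (u : U) (c : s56t_AV hpS V) :
    s56t_actA hpS U V hnorm u (s56t_actA hpS U V hnorm u⁻¹ c) = c := by
  apply Subtype.ext
  show (pta_EMod p hpS).ρC (u : GQ) ((pta_EMod p hpS).ρC ((u⁻¹ : U) : GQ) (c : (pta_EMod p hpS).C))
    = c
  rw [← Module.End.mul_apply, ← map_mul]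
  simp

/-- conjugates of level characters are level characters -/
lemma s56t_X_cj (u : U) {χ : V → ZMod p}
    (hχ : χ ∈ s56t_X (p := p) ((pta_levelsS S).sub V hV)) :
    (fun v => χ (s56t_cj U V hnorm u v)) ∈ s56t_X (p := p) ((pta_levelsS S).sub V hV) := by
  refine ⟨fun v w => ?_, ?_⟩
  · show χ (s56t_cj U V hnorm u (v * w)) = _
    rw [s56t_cj_mul, hχ.1]
  · obtain ⟨N', ⟨N₁, hN₁, hN₁V, rfl⟩, h⟩ := hχ.2
    refine ⟨N₁.subgroupOf V, ⟨N₁, hN₁, hN₁V, rfl⟩, fun g n hn => ?_⟩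
    show χ (s56t_cj U V hnorm u (g * n)) = χ (s56t_cj U V hnorm u g)
    rw [s56t_cj_mul]
    refine h _ _ (Subgroup.mem_subgroupOf.mpr ?_)
    have := ((pta_levelsS S).normal N₁ hN₁).conj_mem (n : GQ) (Subgroup.mem_subgroupOf.mp hn)
      (u : GQ)⁻¹
    simpa using this

/-- **invariance of the symbol** -/
lemma s56t_B_conj (u : U) {χ : V → ZMod p}
    (hχ : χ ∈ s56t_X (p := p) ((pta_levelsS S).sub V hV)) (c : s56t_AV hpS V) :
    s56t_B hp2 hpS V hV (fun v => χ (s56t_cj U V hnorm u v)) (s56t_actA hpS U V hnorm u c)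
      = s56t_B hp2 hpS V hV χ c := by
  have hy : ptd_IsLZ2p ((pta_levelsS S).sub V hV) (ptd_resRep (pta_EMod p hpS).ρC V) p
      (ptd_bockSmul p χ (c : (pta_EMod p hpS).C)) :=
    ptl_bockSmul_isLZ2p hχ.1 hχ.2 (fun g => c.2 g)
  have h1 := s56t_inv_conj (s56t_A hp2 hpS) V hV (u : GQ) (s56t_hUa U V hnorm u)
    (ptd_bockSmul p χ (c : (pta_EMod p hpS).C)) hy
  have h2 : s56t_conj₂ (pta_EMod p hpS).ρC V (u : GQ) (s56t_hUa U V hnorm u)
      (ptd_bockSmul p χ (c : (pta_EMod p hpS).C))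
      = ptd_bockSmul p (fun v => χ (s56t_cj U V hnorm u v))
          ((s56t_actA hpS U V hnorm u c : s56t_AV hpS V) : (pta_EMod p hpS).C) := by
    funext x
    simp only [s56t_conj₂, ptd_bockSmul, ptd_bock, map_zsmul, s56t_actA_coe, s56t_cj,
      s56t_conjU_mul]
  show pts_theta p _ = pts_theta p _
  rw [← h2, h1]

variable {N : Type} [AddCommGroup N] [Module (ZMod p) N] [FiniteDimensional (ZMod p) N]
variable (ρN : Representation (ZMod p) U N)

include hVK hp2 in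
set_option maxHeartbeats 1600000 in
/-- **EQUIVARIANT RECIPROCITY, counted**: the `U`-invariant level homomorphisms `V → N` are as many
as the `U`-equivariant additive maps `C_S^V → N`. -/
theorem s56t_card_HomInv :
    Nat.card ↥(s56t_HomInv (pta_levelsS S) U V hV hnorm ρN)
      = Nat.card {f : s56t_AV hpS V →+ N //
          ∀ (u : U) (c : s56t_AV hpS V), f (s56t_actA hpS U V hnorm u c) = ρN u (f c)} := by
  rw [← s56t_card_eq_of_pairing (s56t_X (p := p) ((pta_levelsS S).sub V hV))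
    (s56t_B hp2 hpS V hV) (s56t_cj U V hnorm) (s56t_actA hpS U V hnorm) ρN
    (fun χ hχ χ' hχ' c => s56t_B_add_left hp2 hpS V hV hχ hχ' c)
    (fun a χ hχ c => s56t_B_smul_left hp2 hpS V hV a hχ c)
    (fun χ hχ c c' => s56t_B_add_right hp2 hpS V hV hχ c c')
    (fun χ hχ h0 => s56t_B_nondeg hp2 hpS V hV hVK hχ h0)
    (fun L => s56t_B_surj hp2 hpS V hV hVK L)
    (fun u χ hχ => s56t_X_cj U V hV hnorm u hχ)
    (fun u χ hχ c => s56t_B_conj hp2 hpS U V hV hnorm u hχ c)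
    (fun u c => s56t_actA_inv hpS U V hnorm u c)]
  refine Nat.card_congr (Equiv.subtypeEquivRight (fun φ => ?_))
  rw [s56t_coords_mem_X_iff]
  show ((∀ v w, φ (v * w) = φ v + φ w) ∧ ptd_IsLev₁ ((pta_levelsS S).sub V hV) φ ∧
      ∀ (u : U) (v : V), φ (s56t_conjV U V hnorm u v) = ρN u (φ v)) ↔ _
  constructor
  · rintro ⟨h1, h2, h3⟩
    refine ⟨⟨h1, h2⟩, fun u v => ?_⟩
    rw [← h3 u (s56t_cj U V hnorm u v)]
    congr 1
    apply Subtype.ext
    simp only [s56t_conjV_coe, s56t_cj_coe]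
    group
  · rintro ⟨⟨h1, h2⟩, h3⟩
    refine ⟨h1, h2, fun u v => ?_⟩
    rw [← h3 u (s56t_conjV U V hnorm u v)]
    congr 2
    apply Subtype.ext
    simp only [s56t_conjV_coe, s56t_cj_coe]
    group

end Recip

end Fermat.Agent.Lib.S56
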