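/-
S56 programme, W4-E4 (global Euler characteristic, cyclic case): **(I) THE COUNT OF `H¹_S`** of a
coinduced module.  `V ≤ U ≤ G_ℚ` open for the `S`-levels, `V ≤ ker χ_cyc`, `V` normalised by `U`,
`N` a finite `𝔽_p[U]`-module on which `V` acts trivially, `p ∤ [U : V]`:
`#H¹_S(G_ℚ, Coind_U N) = #Hom_U(C_S^V, N)`.
(dictionary + Shapiro + descent + equivariant reciprocity.)
-/
import Mathlib
import Fermat.Agent.Lib.S56.TailDict
import Fermat.Agent.Lib.S56.TailRecip

set_option autoImplicit false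
set_option linter.unusedSectionVars false
set_option linter.unusedVariables false

noncomputable section

namespace Fermat.Agent.Lib.S56

open IntermediateField ExtCitation Module Fermat.Agent.Lib.PT groupCohomology

local notation "Qbar" => AlgebraicClosure ℚ
local notation "GQ" => (AlgebraicClosure ℚ ≃ₐ[ℚ] AlgebraicClosure ℚ)

variable {p : ℕ} [hp : Fact p.Prime] {S : Finset Nat.Primes}

/-- **(I)**: `#H¹_S(G_ℚ, Coind_U^{G_ℚ} N) = #Hom_U(C_S^V, N)`. -/
theorem s56t_card_H1S_coind (hp2 : p ≠ 2) (hpS : pPrime p ∈ S) (U V : Subgroup GQ)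
    (hU : (pta_levelsS S).IsOpen U) (hV : (pta_levelsS S).IsOpen V) (hVU : V ≤ U)
    (hVK : V ≤ (cycloChar p).ker) (hnorm : ∀ u ∈ U, ∀ v ∈ V, u * v * u⁻¹ ∈ V)
    (N : Rep.{0} (ZMod p) ↥U) [FiniteDimensional (ZMod p) N.V]
    (htriv : ∀ v : U, (v : GQ) ∈ V → N.ρ v = 1) (hm : ¬ p ∣ V.relIndex U) :
    Nat.card ↥(continuousH1S S (Rep.coind U.subtype N))
      = Nat.card {f : s56t_AV hpS V →+ N.V //
          ∀ (u : U) (c : s56t_AV hpS V), f (s56t_actA hpS U V hnorm u c) = N.ρ u (f c)} := by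
  have hunit : IsUnit ((V.relIndex U : ℕ) : ZMod p) := by
    rw [isUnit_iff_ne_zero, Ne, ZMod.natCast_eq_zero_iff]
    exact hm
  rw [s56t_card_continuousH1S S (Rep.coind U.subtype N),
    ← s56t_card_HomInv hp2 hpS U V hV hVK hnorm N.ρ]
  exact Nat.card_congr
    ((s56t_shapiroEquiv (pta_levelsS S) U hU N.ρ).trans
      (s56t_descentEquiv (pta_levelsS S) U V hU hV hVU hnorm N.ρ htriv hunit)).toEquiv

end Fermat.Agent.Lib.S56
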