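/-
S56 programme, W4-E4 (global Euler characteristic, cyclic case), pure algebra brick:
**FROBENIUS RECIPROCITY FOR A FINITE-INDEX SUBGROUP, BY HAND**, with an integral target:
for `U ≤ G` of finite index, `ρN` a representation of `U` on `N` and `ρC` an integral representation
of `G` on `C`,
`{f : Coind_U^G N →+ C | G-equivariant} ≃ {f₀ : N →+ C | U-equivariant}`,
`f ↦ (n ↦ f δ_n)`, `f₀ ↦ (F ↦ ∑_{x ∈ G/U} x • f₀ (F x⁻¹))`.
-/
import Mathlib

set_option autoImplicit false
set_option linter.unusedSectionVars false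
set_option linter.unusedVariables false

noncomputable section

namespace Fermat.Agent.Lib.S56

open Representation

open scoped Classical

section Frob

variable {G : Type*} [Group G] (U : Subgroup G)
variable {k : Type*} [CommRing k] {N : Type*} [AddCommGroup N] [Module k N]
variable (ρN : Representation k U N)
variable {C : Type*} [AddCommGroup C] (ρC : Representation ℤ G C)

lemma s56t_frob_coind_apply (g x : G) (F : ↥(coindV U.subtype ρN)) :
    ((coind U.subtype ρN g F : ↥(coindV U.subtype ρN)) : G → N) x = (F : G → N) (x * g) := rfl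

lemma s56t_frob_mem (F : ↥(coindV U.subtype ρN)) (u : U) (x : G) :
    (F : G → N) ((u : G) * x) = ρN u ((F : G → N) x) := F.2 u x

/-- the function supported on `U` with value `n` at `1` -/
def s56t_frobDelta (n : N) : ↥(coindV U.subtype ρN) :=
  ⟨fun x => if h : x ∈ U then ρN ⟨x, h⟩ n else 0, by
    classical
    rw [mem_coindV]
    intro u x
    show (if h : (u : G) * x ∈ U then ρN ⟨(u : G) * x, h⟩ n else 0)
      = ρN u (if h : x ∈ U then ρN ⟨x, h⟩ n else 0)
    by_cases hx : x ∈ U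
    · have hux : (u : G) * x ∈ U := U.mul_mem u.2 hx
      rw [dif_pos hux, dif_pos hx, ← Module.End.mul_apply, ← map_mul]
      rfl
    · have hux : ¬ (u : G) * x ∈ U := fun h => hx ((U.mul_mem_cancel_left u.2).1 h)
      rw [dif_neg hux, dif_neg hx, map_zero]⟩

lemma s56t_frobDelta_apply (n : N) (x : G) :
    ((s56t_frobDelta U ρN n : ↥(coindV U.subtype ρN)) : G → N) x
      = if h : x ∈ U then ρN ⟨x, h⟩ n else 0 := rfl

lemma s56t_frobDelta_add (n n' : N) :
    s56t_frobDelta U ρN (n + n') = s56t_frobDelta U ρN n + s56t_frobDelta U ρN n' := by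
  apply Subtype.ext
  funext x
  show (if h : x ∈ U then ρN ⟨x, h⟩ (n + n') else 0)
    = (if h : x ∈ U then ρN ⟨x, h⟩ n else 0) + (if h : x ∈ U then ρN ⟨x, h⟩ n' else 0)
  by_cases hx : x ∈ U
  · simp only [dif_pos hx, map_add]
  · simp only [dif_neg hx, add_zero]

lemma s56t_frobDelta_smul (u : U) (n : N) :
    s56t_frobDelta U ρN (ρN u n) = coind U.subtype ρN (u : G) (s56t_frobDelta U ρN n) := by
  apply Subtype.ext
  funext x
  rw [s56t_frob_coind_apply, s56t_frobDelta_apply, s56t_frobDelta_apply]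
  by_cases hx : x ∈ U
  · have hxu : x * (u : G) ∈ U := U.mul_mem hx u.2
    rw [dif_pos hx, dif_pos hxu, ← Module.End.mul_apply, ← map_mul]
    rfl
  · have hxu : ¬ x * (u : G) ∈ U := fun h => hx ((U.mul_mem_cancel_right u.2).1 h)
    rw [dif_neg hx, dif_neg hxu]

/-- the truncation of `F` to the coset `q⁻¹` -/
def s56t_frobTrunc (F : ↥(coindV U.subtype ρN)) (q : G ⧸ U) : ↥(coindV U.subtype ρN) :=
  ⟨fun y => if (QuotientGroup.mk y⁻¹ : G ⧸ U) = q then (F : G → N) y else 0, by
    rw [mem_coindV]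
    intro u y
    have h1 : (QuotientGroup.mk (U.subtype u * y)⁻¹ : G ⧸ U) = QuotientGroup.mk y⁻¹ := by
      rw [QuotientGroup.eq]
      simp only [Subgroup.coe_subtype, mul_inv_rev, inv_inv]
      have : (u : G) * y * y⁻¹ = u := by group
      rw [this]
      exact u.2
    simp only [h1]
    by_cases hq : (QuotientGroup.mk y⁻¹ : G ⧸ U) = q
    · rw [if_pos hq, if_pos hq]
      exact F.2 u y
    · rw [if_neg hq, if_neg hq, map_zero]⟩

lemma s56t_frobTrunc_apply (F : ↥(coindV U.subtype ρN)) (q : G ⧸ U) (y : G) :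
    ((s56t_frobTrunc U ρN F q : ↥(coindV U.subtype ρN)) : G → N) y
      = if (QuotientGroup.mk y⁻¹ : G ⧸ U) = q then (F : G → N) y else 0 := rfl

/-- **key identity**: `x · δ_{F(x⁻¹)}` is the truncation of `F` to the coset of `x` -/
lemma s56t_frob_key (F : ↥(coindV U.subtype ρN)) (x : G) :
    coind U.subtype ρN x (s56t_frobDelta U ρN ((F : G → N) x⁻¹))
      = s56t_frobTrunc U ρN F (QuotientGroup.mk x) := by
  classical
  apply Subtype.ext
  funext y
  rw [s56t_frob_coind_apply, s56t_frobDelta_apply, s56t_frobTrunc_apply]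
  have hiff : (QuotientGroup.mk y⁻¹ : G ⧸ U) = QuotientGroup.mk x ↔ y * x ∈ U := by
    rw [QuotientGroup.eq, inv_inv]
  by_cases h : y * x ∈ U
  · rw [dif_pos h, if_pos (hiff.2 h)]
    have h1 := s56t_frob_mem U ρN F ⟨y * x, h⟩ x⁻¹
    rw [← h1]
    have h2 : ((⟨y * x, h⟩ : U) : G) * x⁻¹ = y := by
      show y * x * x⁻¹ = y
      group
    rw [h2]
  · rw [dif_neg h, if_neg (fun h' => h (hiff.1 h'))]

variable [U.FiniteIndex]

/-- a `Fintype` structure on the cosets -/
@[instance_reducible] def s56t_frobFintype : Fintype (G ⧸ U) := Fintype.ofFinite _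

attribute [local instance] s56t_frobFintype

/-- the truncations sum to `F` -/
lemma s56t_frob_sum_trunc (F : ↥(coindV U.subtype ρN)) :
    ∑ q : G ⧸ U, s56t_frobTrunc U ρN F q = F := by
  classical
  apply Subtype.ext
  funext y
  rw [AddSubmonoidClass.coe_finsetSum, Finset.sum_apply]
  simp only [s56t_frobTrunc_apply]
  rw [Finset.sum_ite_eq]
  simp

variable {U ρN ρC}

/-- the summand `x ↦ x • f₀ (F x⁻¹)`, on the cosets -/
def s56t_frobTerm (f₀ : N →+ C) (hf₀ : ∀ (u : U) (n : N), f₀ (ρN u n) = ρC (u : G) (f₀ n))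
    (F : ↥(coindV U.subtype ρN)) : G ⧸ U → C :=
  Quotient.lift (fun x : G => ρC x (f₀ ((F : G → N) x⁻¹))) (by
    intro a b hab
    have hab' : a⁻¹ * b ∈ U := QuotientGroup.leftRel_apply.mp hab
    have h1 : (F : G → N) a⁻¹ = ρN ⟨a⁻¹ * b, hab'⟩ ((F : G → N) b⁻¹) := by
      rw [← s56t_frob_mem U ρN F ⟨a⁻¹ * b, hab'⟩ b⁻¹]
      have h2 : ((⟨a⁻¹ * b, hab'⟩ : U) : G) * b⁻¹ = a⁻¹ := by
        show a⁻¹ * b * b⁻¹ = a⁻¹
        group
      rw [h2]
    show ρC a (f₀ ((F : G → N) a⁻¹)) = ρC b (f₀ ((F : G → N) b⁻¹))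
    rw [h1, hf₀, ← Module.End.mul_apply, ← map_mul]
    congr 2
    show a * (a⁻¹ * b) = b
    group)

lemma s56t_frobTerm_mk (f₀ : N →+ C)
    (hf₀ : ∀ (u : U) (n : N), f₀ (ρN u n) = ρC (u : G) (f₀ n))
    (F : ↥(coindV U.subtype ρN)) (x : G) :
    s56t_frobTerm f₀ hf₀ F (QuotientGroup.mk x) = ρC x (f₀ ((F : G → N) x⁻¹)) := rfl

/-- from `U`-equivariant maps on `N` to `G`-equivariant maps on `Coind N` -/
def s56t_frobUp (f₀ : N →+ C) (hf₀ : ∀ (u : U) (n : N), f₀ (ρN u n) = ρC (u : G) (f₀ n)) :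
    ↥(coindV U.subtype ρN) →+ C where
  toFun F := ∑ q : G ⧸ U, s56t_frobTerm f₀ hf₀ F q
  map_zero' := by
    refine Finset.sum_eq_zero fun q _ => ?_
    induction q using QuotientGroup.induction_on with
    | H x =>
      rw [s56t_frobTerm_mk]
      show ρC x (f₀ (0 : N)) = 0
      rw [map_zero, map_zero]
  map_add' F F' := by
    rw [← Finset.sum_add_distrib]
    refine Finset.sum_congr rfl fun q _ => ?_
    induction q using QuotientGroup.induction_on with
    | H x =>
      rw [s56t_frobTerm_mk, s56t_frobTerm_mk, s56t_frobTerm_mk]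
      show ρC x (f₀ ((F : G → N) x⁻¹ + (F' : G → N) x⁻¹)) = _
      rw [map_add, map_add]

lemma s56t_frobUp_apply (f₀ : N →+ C)
    (hf₀ : ∀ (u : U) (n : N), f₀ (ρN u n) = ρC (u : G) (f₀ n)) (F : ↥(coindV U.subtype ρN)) :
    s56t_frobUp f₀ hf₀ F = ∑ q : G ⧸ U, s56t_frobTerm f₀ hf₀ F q := rfl

lemma s56t_frobUp_equivariant (f₀ : N →+ C)
    (hf₀ : ∀ (u : U) (n : N), f₀ (ρN u n) = ρC (u : G) (f₀ n)) (g : G)
    (F : ↥(coindV U.subtype ρN)) :
    s56t_frobUp f₀ hf₀ (coind U.subtype ρN g F) = ρC g (s56t_frobUp f₀ hf₀ F) := by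
  rw [s56t_frobUp_apply, s56t_frobUp_apply, map_sum]
  refine Fintype.sum_equiv (MulAction.toPerm (g⁻¹ : G)) _ _ fun q => ?_
  induction q using QuotientGroup.induction_on with
  | H x =>
    show s56t_frobTerm f₀ hf₀ (coind U.subtype ρN g F) (QuotientGroup.mk x)
      = ρC g (s56t_frobTerm f₀ hf₀ F (QuotientGroup.mk (g⁻¹ * x)))
    rw [s56t_frobTerm_mk, s56t_frobTerm_mk, s56t_frob_coind_apply, ← Module.End.mul_apply,
      ← map_mul]
    have h1 : g * (g⁻¹ * x) = x := by group
    have h2 : (g⁻¹ * x)⁻¹ = x⁻¹ * g := by group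
    rw [h1, h2]

/-- **Frobenius reciprocity**, finite index, integral target -/
def s56t_frobEquiv :
    {f : ↥(coindV U.subtype ρN) →+ C //
        ∀ (g : G) (F : ↥(coindV U.subtype ρN)), f (coind U.subtype ρN g F) = ρC g (f F)}
      ≃ {f₀ : N →+ C // ∀ (u : U) (n : N), f₀ (ρN u n) = ρC (u : G) (f₀ n)} where
  toFun f := ⟨AddMonoidHom.mk' (fun n => f.1 (s56t_frobDelta U ρN n)) (fun n n' => by
      rw [s56t_frobDelta_add, map_add]), fun u n => by
      show f.1 (s56t_frobDelta U ρN (ρN u n)) = ρC (u : G) (f.1 (s56t_frobDelta U ρN n))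
      rw [s56t_frobDelta_smul, f.2]⟩
  invFun f₀ := ⟨s56t_frobUp f₀.1 f₀.2, s56t_frobUp_equivariant f₀.1 f₀.2⟩
  left_inv f := by
    apply Subtype.ext
    refine AddMonoidHom.ext fun F => ?_
    show s56t_frobUp _ _ F = f.1 F
    rw [s56t_frobUp_apply]
    conv_rhs => rw [← s56t_frob_sum_trunc U ρN F, map_sum]
    refine Finset.sum_congr rfl fun q _ => ?_
    induction q using QuotientGroup.induction_on with
    | H x =>
      rw [s56t_frobTerm_mk, ← s56t_frob_key]
      show ρC x (f.1 (s56t_frobDelta U ρN ((F : G → N) x⁻¹))) = _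
      rw [f.2]
  right_inv f₀ := by
    classical
    apply Subtype.ext
    refine AddMonoidHom.ext fun n => ?_
    show s56t_frobUp f₀.1 f₀.2 (s56t_frobDelta U ρN n) = f₀.1 n
    rw [s56t_frobUp_apply, Finset.sum_eq_single (QuotientGroup.mk (1 : G) : G ⧸ U)]
    · rw [s56t_frobTerm_mk, inv_one, s56t_frobDelta_apply, dif_pos U.one_mem]
      have : (⟨1, U.one_mem⟩ : U) = 1 := rfl
      rw [this, map_one, map_one]
      rfl
    · intro q _ hq
      induction q using QuotientGroup.induction_on with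
      | H x =>
        rw [s56t_frobTerm_mk, s56t_frobDelta_apply]
        have hx : ¬ x⁻¹ ∈ U := by
          intro h
          apply hq
          rw [QuotientGroup.eq, mul_one]
          exact h
        rw [dif_neg hx, map_zero, map_zero]
    · intro h
      exact absurd (Finset.mem_univ _) h

/-- evaluation at the inverses of a system of representatives of `G ⧸ U` -/
def s56t_frobEval : ↥(coindV U.subtype ρN) →ₗ[k] (G ⧸ U → N) where
  toFun F := fun q => (F : G → N) (Quotient.out q)⁻¹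
  map_add' F F' := rfl
  map_smul' a F := rfl

lemma s56t_frobEval_injective : Function.Injective (s56t_frobEval (U := U) (ρN := ρN)) := by
  refine (injective_iff_map_eq_zero _).2 fun F hF => ?_
  apply Subtype.ext
  funext y
  show (F : G → N) y = 0
  have h1 : (Quotient.out (QuotientGroup.mk y⁻¹ : G ⧸ U))⁻¹ * y⁻¹ ∈ U :=
    QuotientGroup.leftRel_apply.mp (Quotient.mk_out (s := QuotientGroup.leftRel U) y⁻¹)
  have h2 := s56t_frob_mem U ρN F ⟨_, U.inv_mem h1⟩ (Quotient.out (QuotientGroup.mk y⁻¹ : G ⧸ U))⁻¹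
  have h3 : ((⟨_, U.inv_mem h1⟩ : U) : G) * (Quotient.out (QuotientGroup.mk y⁻¹ : G ⧸ U))⁻¹ = y := by
    show ((Quotient.out (QuotientGroup.mk y⁻¹ : G ⧸ U))⁻¹ * y⁻¹)⁻¹
      * (Quotient.out (QuotientGroup.mk y⁻¹ : G ⧸ U))⁻¹ = y
    group
  rw [h3] at h2
  rw [h2]
  have h4 : (F : G → N) (Quotient.out (QuotientGroup.mk y⁻¹ : G ⧸ U))⁻¹ = 0 :=
    congrFun hF (QuotientGroup.mk y⁻¹ : G ⧸ U)
  rw [h4, map_zero]

/-- the coinduced module of a finite module along a finite-index subgroup is finite -/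
theorem s56t_frob_finite [Module.Finite k N] [IsNoetherianRing k] :
    Module.Finite k ↥(coindV U.subtype ρN) :=
  Module.Finite.of_injective (s56t_frobEval (U := U) (ρN := ρN)) s56t_frobEval_injective

end Frob

end Fermat.Agent.Lib.S56
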