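/-
S56 programme, W4-E4 (global Euler characteristic, cyclic case): **(II) THE COUNT OF `H²_S`** and
**(III) THE COUNT OF `H⁰`** of a coinduced module.
* `s56t_card_H2S_eq_HomC` : `#H²_S(G_ℚ, M) = #Hom_{G_ℚ}(M, C_S)` (global duality, ADT-lite (A), (B')).
* `s56t_card_H2S_coind`  : `#H²_S(G_ℚ, Coind_U N) = #Hom_U(N, C_S^V)` (+ Frobenius reciprocity).
* `s56t_card_inv_coind`  : `#(Coind_U N)^{G_ℚ} = #N^U`.
-/
import Mathlib
import Fermat.Agent.Lib.S56.TailFinH2
import Fermat.Agent.Lib.S56.TailRecip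
import Fermat.Agent.Lib.S56.TailFrob
import Fermat.Agent.Lib.PT.SeqDGlobal

set_option autoImplicit false
set_option linter.unusedSectionVars false
set_option linter.unusedVariables false

noncomputable section

namespace Fermat.Agent.Lib.S56

open IntermediateField ExtCitation Module Fermat.Agent.Lib.PT groupCohomology Representation

local notation "Qbar" => AlgebraicClosure ℚ
local notation "GQ" => (AlgebraicClosure ℚ ≃ₐ[ℚ] AlgebraicClosure ℚ)

variable {p : ℕ} [hp : Fact p.Prime] {S : Finset Nat.Primes}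

set_option maxHeartbeats 800000 in
/-- **global duality, counted**: `#H²_S(G_ℚ, M) = #Hom_{G_ℚ}(M, C_S)`. -/
theorem s56t_card_H2S_eq_HomC (hp2 : p ≠ 2) (hpS : pPrime p ∈ S)
    (M : Rep.{0} (ZMod p) GQ) [FiniteDimensional (ZMod p) M]
    (hsm : ∀ m : M, ∃ F : IntermediateField ℚ Qbar, FiniteDimensional ℚ F ∧
      ∀ s ∈ F.fixingSubgroup, M.ρ s m = m)
    (hMur : ∀ q : Nat.Primes, q ∉ S → ∀ A : ValuationSubring Qbar,
      A.LiesOverPrime (q : ℕ) → ∀ g ∈ A.inertiaSubgroupIn ℚ, M.ρ g = 1) :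
    Nat.card (continuousH2S S M) = Nat.card ↥((pta_EMod p hpS).HomC M) := by
  have i1 := s56t_finite_continuousH2S hp2 hpS M hsm hMur
  have hAG := s56t_hAG hp2 hpS M hsm hMur
  have hBG := s56t_hBG hp2 hpS M hsm hMur
  let B : continuousH2S S M →ₗ[ZMod p] ↥((pta_EMod p hpS).HomC M) →ₗ[ZMod p] ZMod p :=
    ((pta_EMod p hpS).aMap (s56t_invG hp2 hpS)).flip
  have h1 : ∀ y, (∀ x, B y x = 0) → y = 0 := fun y hy =>
    (pta_EMod p hpS).aMap_right_nondeg (s56t_invG hp2 hpS) hAG y hy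
  have h2 : ∀ x, (∀ y, B y x = 0) → x = 0 := fun f hf =>
    (pta_EMod p hpS).aMap_injective (s56t_invG hp2 hpS) hBG f (LinearMap.ext hf)
  have hfin : FiniteDimensional (ZMod p) ↥((pta_EMod p hpS).HomC M) :=
    s56t_finite_of_nondeg_right B h2
  have hrank := s56t_finrank_eq_of_nondeg B h1 h2
  rw [Module.natCard_eq_pow_finrank (K := ZMod p) (V := continuousH2S S M),
    Module.natCard_eq_pow_finrank (K := ZMod p) (V := ↥((pta_EMod p hpS).HomC M)), hrank]

section Coind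

variable (U V : Subgroup GQ) (N : Rep.{0} (ZMod p) ↥U)

/-- a normal subgroup `V ≤ U` acting trivially on `N` acts trivially on `Coind_U N` -/
lemma s56t_coind_triv [V.Normal] (htriv : ∀ v : U, (v : GQ) ∈ V → N.ρ v = 1)
    (hVU : V ≤ U) {v : GQ} (hv : v ∈ V) : (Rep.coind U.subtype N).ρ v = 1 := by
  refine LinearMap.ext fun F => ?_
  apply Subtype.ext
  funext x
  show ((Representation.coind U.subtype N.ρ v F : ↥(coindV U.subtype N.ρ)) : GQ → N.V) x
    = (F : GQ → N.V) x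
  rw [s56t_frob_coind_apply]
  have hc : x * v * x⁻¹ ∈ V := Subgroup.Normal.conj_mem inferInstance v hv x
  have h1 := s56t_frob_mem U N.ρ F ⟨x * v * x⁻¹, hVU hc⟩ x
  have h2 : ((⟨x * v * x⁻¹, hVU hc⟩ : U) : GQ) * x = x * v := by
    show x * v * x⁻¹ * x = x * v
    group
  rw [h2] at h1
  rw [h1, htriv ⟨x * v * x⁻¹, hVU hc⟩ hc]
  rfl

variable {U V N}

/-- smoothness of `Coind_U N` -/
lemma s56t_coind_hsm (hVlev : V ∈ (pta_levelsS S).lev)
    (htriv : ∀ v : U, (v : GQ) ∈ V → N.ρ v = 1) (hVU : V ≤ U) :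
    ∀ m : (Rep.coind U.subtype N), ∃ F : IntermediateField ℚ Qbar, FiniteDimensional ℚ F ∧
      ∀ s ∈ F.fixingSubgroup, (Rep.coind U.subtype N).ρ s m = m := by
  intro m
  have hn : V.Normal := (pta_levelsS S).normal V hVlev
  obtain ⟨F, hF, -, rfl⟩ := hVlev
  refine ⟨F, hF.1, fun s hs => ?_⟩
  rw [s56t_coind_triv U F.fixingSubgroup N htriv hVU hs]
  rfl

/-- `Coind_U N` is unramified outside `S` -/
lemma s56t_coind_hMur (hVlev : V ∈ (pta_levelsS S).lev)
    (htriv : ∀ v : U, (v : GQ) ∈ V → N.ρ v = 1) (hVU : V ≤ U) :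
    ∀ q : Nat.Primes, q ∉ S → ∀ A : ValuationSubring Qbar,
      A.LiesOverPrime (q : ℕ) → ∀ g ∈ A.inertiaSubgroupIn ℚ,
        (Rep.coind U.subtype N).ρ g = 1 := by
  intro q hq A hA g hg
  have hn : V.Normal := (pta_levelsS S).normal V hVlev
  obtain ⟨F, hF, -, rfl⟩ := hVlev
  exact s56t_coind_triv U F.fixingSubgroup N htriv hVU (hF.2 q hq A hA hg)

/-- `Coind_U N` is finite-dimensional -/
lemma s56t_coind_finite [FiniteDimensional (ZMod p) N.V] (hVlev : V ∈ (pta_levelsS S).lev)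
    (hVU : V ≤ U) : FiniteDimensional (ZMod p) (Rep.coind U.subtype N) := by
  have hfi : U.FiniteIndex :=
    ptd_Levels.IsOpen.finiteIndex (𝓛 := pta_levelsS S) ⟨V, hVlev, hVU⟩
  exact s56t_frob_finite (U := U) (ρN := N.ρ)

/-- `Hom_{G_ℚ}(Coind_U N, C_S)` in the shape of `s56t_frobEquiv` -/
def s56t_homC_coind_equiv (hpS : pPrime p ∈ S) :
    ↥((pta_EMod p hpS).HomC (Rep.coind U.subtype N)) ≃
      {f : ↥(coindV U.subtype N.ρ) →+ (pta_EMod p hpS).C //
        ∀ (g : GQ) (F : ↥(coindV U.subtype N.ρ)),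
          f (Representation.coind U.subtype N.ρ g F) = (pta_EMod p hpS).ρC g (f F)} :=
  Equiv.subtypeEquivRight (fun f => Iff.rfl)

/-- `U`-equivariant maps `N → C_S` land in `C_S^V` -/
def s56t_homAV_equiv (hpS : pPrime p ∈ S) (hVU : V ≤ U)
    (hnorm : ∀ u ∈ U, ∀ v ∈ V, u * v * u⁻¹ ∈ V)
    (htriv : ∀ v : U, (v : GQ) ∈ V → N.ρ v = 1) :
    {f₀ : N.V →+ (pta_EMod p hpS).C //
        ∀ (u : U) (n : N.V), f₀ (N.ρ u n) = (pta_EMod p hpS).ρC (u : GQ) (f₀ n)} ≃
      {f : N.V →+ s56t_AV hpS V //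
        ∀ (u : U) (n : N.V), f (N.ρ u n) = s56t_actA hpS U V hnorm u (f n)} where
  toFun f₀ := ⟨AddMonoidHom.mk' (fun n => (⟨f₀.1 n, fun v => by
      show (pta_EMod p hpS).ρC (v : GQ) (f₀.1 n) = f₀.1 n
      rw [← f₀.2 ⟨(v : GQ), hVU v.2⟩ n, htriv ⟨(v : GQ), hVU v.2⟩ v.2]
      rfl⟩ : s56t_AV hpS V)) (fun n n' => Subtype.ext (map_add f₀.1 n n')),
    fun u n => Subtype.ext (f₀.2 u n)⟩
  invFun f := ⟨(s56t_AV hpS V).subtype.toAddMonoidHom.comp f.1, fun u n => by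
    show ((f.1 (N.ρ u n) : s56t_AV hpS V) : (pta_EMod p hpS).C)
      = (pta_EMod p hpS).ρC (u : GQ) ((f.1 n : s56t_AV hpS V) : (pta_EMod p hpS).C)
    rw [f.2 u n]
    rfl⟩
  left_inv f₀ := Subtype.ext (AddMonoidHom.ext fun n => rfl)
  right_inv f := Subtype.ext (AddMonoidHom.ext fun n => Subtype.ext rfl)

set_option maxHeartbeats 800000 in
/-- **(II)**: `#H²_S(G_ℚ, Coind_U^{G_ℚ} N) = #Hom_U(N, C_S^V)`. -/
theorem s56t_card_H2S_coind (hp2 : p ≠ 2) (hpS : pPrime p ∈ S)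
    (hVlev : V ∈ (pta_levelsS S).lev) (hVU : V ≤ U)
    (hnorm : ∀ u ∈ U, ∀ v ∈ V, u * v * u⁻¹ ∈ V)
    [FiniteDimensional (ZMod p) N.V] (htriv : ∀ v : U, (v : GQ) ∈ V → N.ρ v = 1) :
    Nat.card (continuousH2S S (Rep.coind U.subtype N))
      = Nat.card {f : N.V →+ s56t_AV hpS V //
          ∀ (u : U) (n : N.V), f (N.ρ u n) = s56t_actA hpS U V hnorm u (f n)} := by
  have i1 := s56t_coind_finite (S := S) (N := N) hVlev hVU
  have hfi : U.FiniteIndex :=
    ptd_Levels.IsOpen.finiteIndex (𝓛 := pta_levelsS S) ⟨V, hVlev, hVU⟩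
  rw [s56t_card_H2S_eq_HomC hp2 hpS _ (s56t_coind_hsm hVlev htriv hVU)
    (s56t_coind_hMur hVlev htriv hVU)]
  exact Nat.card_congr (((s56t_homC_coind_equiv hpS).trans
    (s56t_frobEquiv (U := U) (ρN := N.ρ) (ρC := (pta_EMod p hpS).ρC))).trans
    (s56t_homAV_equiv hpS hVU hnorm htriv))

/-- the invariants of a coinduced module -/
def s56t_inv_coind_equiv :
    ↥(Representation.invariants (Rep.coind U.subtype N).ρ) ≃ ↥(Representation.invariants N.ρ) where
  toFun F := ⟨((F : (Rep.coind U.subtype N).V) : GQ → N.V) 1, fun u => by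
    have h1 := s56t_frob_mem U N.ρ (F : (Rep.coind U.subtype N).V) u 1
    rw [← h1]
    have h2 : (Rep.coind U.subtype N).ρ (u : GQ) (F : (Rep.coind U.subtype N).V)
        = (F : (Rep.coind U.subtype N).V) := F.2 (u : GQ)
    have h3 := congrArg (fun F' : ↥(coindV U.subtype N.ρ) => (F' : GQ → N.V) 1) h2
    simp only at h3
    rw [← h3]
    show _ = ((F : (Rep.coind U.subtype N).V) : GQ → N.V) (1 * (u : GQ))
    rw [one_mul, mul_one]⟩
  invFun n := ⟨⟨fun _ => (n : N.V), by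
      rw [mem_coindV]
      intro u x
      exact (n.2 u).symm⟩, fun g => Subtype.ext rfl⟩
  left_inv F := by
    apply Subtype.ext
    apply Subtype.ext
    funext x
    show ((F : (Rep.coind U.subtype N).V) : GQ → N.V) 1 = ((F : (Rep.coind U.subtype N).V) : GQ → N.V) x
    have h2 : (Rep.coind U.subtype N).ρ x (F : (Rep.coind U.subtype N).V)
        = (F : (Rep.coind U.subtype N).V) := F.2 x
    have h3 := congrArg (fun F' : ↥(coindV U.subtype N.ρ) => (F' : GQ → N.V) 1) h2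
    simp only at h3
    rw [← h3]
    show ((F : (Rep.coind U.subtype N).V) : GQ → N.V) (1 * x) = _
    rw [one_mul]
  right_inv n := Subtype.ext rfl

/-- **(III)**: `#(Coind_U N)^{G_ℚ} = #N^U`. -/
theorem s56t_card_inv_coind :
    Nat.card ↥(Representation.invariants (Rep.coind U.subtype N).ρ)
      = Nat.card ↥(Representation.invariants N.ρ) :=
  Nat.card_congr s56t_inv_coind_equiv

end Coind

end Fermat.Agent.Lib.S56
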