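/-
S56 programme, W4-E4 (global Euler characteristic, cyclic case): **THE BRIDGE**
`C_S(F) ≃ (C_S)^{Fix F}` for a finite Galois `F/ℚ` unramified outside `S`, equivariant for
`G_ℚ → Gal(F/ℚ)`; and the counts (I), (II) restated with `A_F := Additive (ptj_CT F S)`.
-/
import Mathlib
import Fermat.Agent.Lib.S56.TailH1Count
import Fermat.Agent.Lib.S56.TailH2Count
import Fermat.Agent.Lib.PT.GModUnrD

set_option autoImplicit false
set_option linter.unusedSectionVars false
set_option linter.unusedVariables false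

noncomputable section

namespace Fermat.Agent.Lib.S56

open IntermediateField ExtCitation Module Fermat.Agent.Lib.PT groupCohomology Representation

local notation "Qbar" => AlgebraicClosure ℚ
local notation "GQ" => (AlgebraicClosure ℚ ≃ₐ[ℚ] AlgebraicClosure ℚ)

/-- a normal intermediate field is stable under `G_ℚ` -/
lemma s56t_stable_of_normal (F : IntermediateField ℚ Qbar) [hn : Normal ℚ F] :
    ∀ σ : GQ, ∀ x ∈ F, σ x ∈ F := by
  intro σ x hx
  have h := (IntermediateField.normal_iff_forall_map_le' (K := F)).1 hn σ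
  exact h ((IntermediateField.mem_map F).2 ⟨x, hx, rfl⟩)

lemma s56t_fix_mem_lev {S : Finset Nat.Primes} (F : IntermediateField ℚ Qbar) [hn : Normal ℚ F]
    (hF : F.IsUnramifiedOutside S) : F.fixingSubgroup ∈ (pta_levelsS S).lev :=
  pta_mem_levelsS hF (s56t_stable_of_normal F)

lemma s56t_restrictNormalHom_eq_one (F : IntermediateField ℚ Qbar) [hn : Normal ℚ F]
    {v : GQ} (hv : v ∈ F.fixingSubgroup) : AlgEquiv.restrictNormalHom F v = 1 := by
  refine AlgEquiv.ext fun x => Subtype.ext ?_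
  have h1 : ((AlgEquiv.restrictNormalHom F v x : F) : Qbar) = v (x : Qbar) :=
    AlgEquiv.restrictNormal_commutes v F x
  rw [h1]
  exact (IntermediateField.mem_fixingSubgroup_iff F v).1 hv (x : Qbar) x.2

variable {p : ℕ} [hp : Fact p.Prime] {S : Finset Nat.Primes} (hpS : pPrime p ∈ S)
variable (F : IntermediateField ℚ Qbar) [Normal ℚ F] (hF : F.IsUnramifiedOutside S)

/-- the map `C_S(F) → C_S`, additively -/
def s56t_bridgeHom : Additive (ptj_CT F S) →+ (pta_EMod p hpS).C where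
  toFun c := (ptj_CSof (ptj_iota S F (ptj_isUnrE_field F hF) c.toMul) : ptj_CS S)
  map_zero' := by
    show (ptj_CSof (ptj_iota S F (ptj_isUnrE_field F hF) 1) : ptj_CS S) = 0
    rw [map_one]
    rfl
  map_add' c d := by
    show (ptj_CSof (ptj_iota S F (ptj_isUnrE_field F hF) (c.toMul * d.toMul)) : ptj_CS S) = _
    rw [map_mul]
    rfl

lemma s56t_bridgeHom_apply (c : Additive (ptj_CT F S)) :
    s56t_bridgeHom hpS F hF c
      = (ptj_CSof (ptj_iota S F (ptj_isUnrE_field F hF) c.toMul) : ptj_CS S) := rfl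

/-- equivariance of the bridge -/
lemma s56t_bridgeHom_smul (γ : GQ) (c : Additive (ptj_CT F S)) :
    (pta_EMod p hpS).ρC γ (s56t_bridgeHom hpS F hF c)
      = s56t_bridgeHom hpS F hF
          (Additive.ofMul (AlgEquiv.restrictNormalHom F γ • c.toMul)) := by
  rw [s56t_bridgeHom_apply, s56t_bridgeHom_apply]
  show ptj_CSrep S γ (ptj_CSof (ptj_iota S F (ptj_isUnrE_field F hF) c.toMul)) = _
  rw [ptj_CSrep_apply, ← ptj_iota_smul F hF γ c.toMul]
  rfl

lemma s56t_bridgeHom_injective :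
    Function.Injective (s56t_bridgeHom hpS F hF) := by
  intro c d h
  have h1 : ptj_iota S F (ptj_isUnrE_field F hF) c.toMul
      = ptj_iota S F (ptj_isUnrE_field F hF) d.toMul := ptj_CSof.injective h
  have h2 := ptj_iota_injective ⟨_, hpS⟩ (ptj_isUnrE_field F hF) h1
  exact Additive.toMul.injective h2

lemma s56t_bridgeHom_mem (c : Additive (ptj_CT F S)) :
    s56t_bridgeHom hpS F hF c ∈ s56t_AV hpS F.fixingSubgroup := by
  intro v
  show (pta_EMod p hpS).ρC (v : GQ) (s56t_bridgeHom hpS F hF c) = _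
  rw [s56t_bridgeHom_smul]
  rw [s56t_restrictNormalHom_eq_one F v.2, one_smul]
  rfl

lemma s56t_bridgeHom_surj (c : (pta_EMod p hpS).C) (hc : c ∈ s56t_AV hpS F.fixingSubgroup) :
    ∃ a : Additive (ptj_CT F S), s56t_bridgeHom hpS F hF a = c := by
  have h1 : (ptj_CSof.symm (c : ptj_CS S)) ∈ (ptj_iota S F (ptj_isUnrE_field F hF)).range := by
    rw [pta_mem_range_iota_field_iff F ⟨_, hpS⟩ hF]
    intro γ hγ
    have h2 : (pta_EMod p hpS).ρC γ c = c := hc ⟨γ, hγ⟩
    have h3 : ptj_CSrep S γ (ptj_CSof (ptj_CSof.symm (c : ptj_CS S))) = c := h2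
    rw [ptj_CSrep_apply] at h3
    exact ptj_CSof.injective (h3.trans (ptj_CSof.apply_symm_apply _).symm)
  obtain ⟨a, ha⟩ := h1
  refine ⟨Additive.ofMul a, ?_⟩
  rw [s56t_bridgeHom_apply]
  show ptj_CSof (ptj_iota S F (ptj_isUnrE_field F hF) a) = c
  rw [ha]
  exact ptj_CSof.apply_symm_apply _

/-- **the bridge** `C_S(F) ≃+ (C_S)^{Fix F}` -/
def s56t_bridge : Additive (ptj_CT F S) ≃+ ↥(s56t_AV hpS F.fixingSubgroup) :=
  AddEquiv.ofBijective
    (AddMonoidHom.mk' (fun c => (⟨s56t_bridgeHom hpS F hF c, s56t_bridgeHom_mem hpS F hF c⟩ :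
      s56t_AV hpS F.fixingSubgroup)) (fun c d => Subtype.ext (map_add _ c d)))
    ⟨fun c d h => s56t_bridgeHom_injective hpS F hF (congrArg Subtype.val h), fun c => by
      obtain ⟨a, ha⟩ := s56t_bridgeHom_surj hpS F hF c.1 c.2
      exact ⟨a, Subtype.ext ha⟩⟩

lemma s56t_bridge_coe (c : Additive (ptj_CT F S)) :
    ((s56t_bridge hpS F hF c : s56t_AV hpS F.fixingSubgroup) : (pta_EMod p hpS).C)
      = s56t_bridgeHom hpS F hF c := rfl

/-- the action of `u ∈ G_ℚ` on `A_F = Additive (ptj_CT F S)` through `Gal(F/ℚ)` -/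
def s56t_actF (γ : GQ) (a : Additive (ptj_CT F S)) : Additive (ptj_CT F S) :=
  Additive.ofMul (AlgEquiv.restrictNormalHom F γ • a.toMul)

lemma s56t_bridge_act (U : Subgroup GQ)
    (hnorm : ∀ u ∈ U, ∀ v ∈ F.fixingSubgroup, u * v * u⁻¹ ∈ F.fixingSubgroup) (u : U)
    (a : Additive (ptj_CT F S)) :
    s56t_bridge hpS F hF (s56t_actF F (u : GQ) a)
      = s56t_actA hpS U F.fixingSubgroup hnorm u (s56t_bridge hpS F hF a) := by
  apply Subtype.ext
  rw [s56t_actA_coe, s56t_bridge_coe, s56t_bridge_coe, s56t_bridgeHom_smul]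
  rfl

section Transport

variable {A B N : Type*} [AddCommGroup A] [AddCommGroup B] [AddCommGroup N] {ι : Type*}
  (e : A ≃+ B) (αA : ι → A → A) (αB : ι → B → B) (ρ : ι → N → N)
  (he : ∀ u a, e (αA u a) = αB u (e a))

/-- transport of equivariant maps out of `B` along `e : A ≃+ B` -/
def s56t_homOutCongr :
    {f : B →+ N // ∀ u c, f (αB u c) = ρ u (f c)} ≃ {f : A →+ N // ∀ u a, f (αA u a) = ρ u (f a)} where
  toFun f := ⟨f.1.comp e.toAddMonoidHom, fun u a => by
    show f.1 (e (αA u a)) = ρ u (f.1 (e a))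
    rw [he, f.2]⟩
  invFun f := ⟨f.1.comp e.symm.toAddMonoidHom, fun u c => by
    show f.1 (e.symm (αB u c)) = ρ u (f.1 (e.symm c))
    rw [← f.2]
    congr 1
    apply e.injective
    rw [e.apply_symm_apply, he, e.apply_symm_apply]⟩
  left_inv f := Subtype.ext (AddMonoidHom.ext fun c => by
    show f.1 (e (e.symm c)) = f.1 c
    rw [e.apply_symm_apply])
  right_inv f := Subtype.ext (AddMonoidHom.ext fun a => by
    show f.1 (e.symm (e a)) = f.1 a
    rw [e.symm_apply_apply])

/-- transport of equivariant maps into `B` along `e : A ≃+ B` -/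
def s56t_homInCongr :
    {f : N →+ B // ∀ u n, f (ρ u n) = αB u (f n)} ≃ {f : N →+ A // ∀ u n, f (ρ u n) = αA u (f n)} where
  toFun f := ⟨e.symm.toAddMonoidHom.comp f.1, fun u n => by
    show e.symm (f.1 (ρ u n)) = αA u (e.symm (f.1 n))
    apply e.injective
    rw [e.apply_symm_apply, he, e.apply_symm_apply, f.2]⟩
  invFun f := ⟨e.toAddMonoidHom.comp f.1, fun u n => by
    show e (f.1 (ρ u n)) = αB u (e (f.1 n))
    rw [f.2, he]⟩
  left_inv f := Subtype.ext (AddMonoidHom.ext fun n => by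
    show e (e.symm (f.1 n)) = f.1 n
    rw [e.apply_symm_apply])
  right_inv f := Subtype.ext (AddMonoidHom.ext fun n => by
    show e.symm (e (f.1 n)) = f.1 n
    rw [e.symm_apply_apply])

end Transport

section Final

variable (U : Subgroup GQ) (N : Rep.{0} (ZMod p) ↥U) [FiniteDimensional (ZMod p) N.V]

include hF in
lemma s56t_hnorm_fix : ∀ u ∈ U, ∀ v ∈ F.fixingSubgroup, u * v * u⁻¹ ∈ F.fixingSubgroup := by
  intro u _ v hv
  have hn : F.fixingSubgroup.Normal := (pta_levelsS S).normal _ (s56t_fix_mem_lev F hF)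
  exact hn.conj_mem v hv u

include hpS hF in
set_option maxHeartbeats 800000 in
/-- **(I′)**: `#H¹_S(G_ℚ, Coind_U N) = #Hom_U(C_S(F), N)`, for `F/ℚ` finite Galois unramified
outside `S` with `Fix F ≤ U ∩ ker χ_cyc` acting trivially on `N`, `p ∤ [U : Fix F]`. -/
theorem s56t_card_H1S_coind_F (hp2 : p ≠ 2) (hFK : F.fixingSubgroup ≤ (cycloChar p).ker)
    (hVU : F.fixingSubgroup ≤ U)
    (htriv : ∀ v : U, (v : GQ) ∈ F.fixingSubgroup → N.ρ v = 1)
    (hm : ¬ p ∣ F.fixingSubgroup.relIndex U) :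
    Nat.card ↥(continuousH1S S (Rep.coind U.subtype N))
      = Nat.card {f : Additive (ptj_CT F S) →+ N.V //
          ∀ (u : U) (a : Additive (ptj_CT F S)), f (s56t_actF F (u : GQ) a) = N.ρ u (f a)} := by
  have hVlev := s56t_fix_mem_lev F hF
  have hV : (pta_levelsS S).IsOpen F.fixingSubgroup := (pta_levelsS S).isOpen_of_mem hVlev
  have hU : (pta_levelsS S).IsOpen U := ⟨_, hVlev, hVU⟩
  rw [s56t_card_H1S_coind hp2 hpS U F.fixingSubgroup hU hV hVU hFK (s56t_hnorm_fix F hF U) N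
    htriv hm]
  exact Nat.card_congr (s56t_homOutCongr (s56t_bridge hpS F hF)
    (fun (u : U) a => s56t_actF F (u : GQ) a)
    (fun (u : U) c => s56t_actA hpS U F.fixingSubgroup (s56t_hnorm_fix F hF U) u c)
    (fun (u : U) n => N.ρ u n)
    (fun u a => s56t_bridge_act hpS F hF U (s56t_hnorm_fix F hF U) u a))

include hpS hF in
set_option maxHeartbeats 800000 in
/-- **(II′)**: `#H²_S(G_ℚ, Coind_U N) = #Hom_U(N, C_S(F))`. -/
theorem s56t_card_H2S_coind_F (hp2 : p ≠ 2) (hVU : F.fixingSubgroup ≤ U)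
    (htriv : ∀ v : U, (v : GQ) ∈ F.fixingSubgroup → N.ρ v = 1) :
    Nat.card (continuousH2S S (Rep.coind U.subtype N))
      = Nat.card {f : N.V →+ Additive (ptj_CT F S) //
          ∀ (u : U) (n : N.V), f (N.ρ u n) = s56t_actF F (u : GQ) (f n)} := by
  have hVlev := s56t_fix_mem_lev F hF
  rw [s56t_card_H2S_coind hp2 hpS hVlev hVU (s56t_hnorm_fix F hF U) htriv]
  exact Nat.card_congr (s56t_homInCongr (s56t_bridge hpS F hF)
    (fun (u : U) a => s56t_actF F (u : GQ) a)
    (fun (u : U) c => s56t_actA hpS U F.fixingSubgroup (s56t_hnorm_fix F hF U) u c)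
    (fun (u : U) n => N.ρ u n)
    (fun u a => s56t_bridge_act hpS F hF U (s56t_hnorm_fix F hF U) u a))

end Final

end Fermat.Agent.Lib.S56
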