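/-
S56 programme, W4-E4: **`s56d_IfaceCohom` PROVED** (the cohomological half of the cyclic case, in the
exact shape of helper1's interface file `IfaceE4.lean`), from `TailBridge.lean`.
-/
import Mathlib
import Fermat.Agent.Lib.S56.TailBridge
import Fermat.Agent.Lib.S56.IfaceE4

set_option autoImplicit false
set_option linter.unusedSectionVars false
set_option linter.unusedVariables false

noncomputable section

namespace Fermat.Agent.Lib.S56

open IntermediateField ExtCitation Module Fermat.Agent.Lib.PT groupCohomology Representation

local notation "Qbar" => AlgebraicClosure ℚ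
local notation "GQ" => (AlgebraicClosure ℚ ≃ₐ[ℚ] AlgebraicClosure ℚ)

set_option maxHeartbeats 1600000 in
/-- **the cohomological half of the cyclic case** -/
theorem s56t_ifaceCohom : s56d_IfaceCohom := by
  intro p _ hp2 S hpS F _ _ hF hFK U hVU hm N _ htriv
  haveI : Normal ℚ ↥F := IsGalois.to_normal
  haveI : FiniteDimensional (ZMod p) N.V := Module.Finite.of_finite
  refine ⟨?_, ?_, ?_⟩
  · rw [s56t_card_H1S_coind_F hpS F hF U N hp2 hFK hVU htriv hm]
    refine Nat.card_congr (Equiv.subtypeEquivRight fun f => ?_)
    constructor
    · intro h u a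
      exact h u (Additive.ofMul a)
    · intro h u a
      exact h u a.toMul
  · rw [s56t_card_H2S_coind_F hpS F hF U N hp2 hVU htriv]
    rfl
  · exact s56t_card_inv_coind

end Fermat.Agent.Lib.S56
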