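/-
S56 programme, wall W2 → W4: RIGHT-EXACTNESS of `H²(G_S, −)` (the surrogate of `cd_p(G_S) ≤ 2`).
For a surjective equivariant map `π : M → M''` of finite `𝔽_p[G_ℚ]`-modules unramified outside `S`
the induced map `H²(G_S, M) → H²(G_S, M'')` is surjective.
Proof: `a_M : Hom_G(M, C_S) → H²(G_S, M)^∨` is natural in `M`, injective (B') and (as
`H²(G_S, M'')` is finite-dimensional and `a_{M''}` separates points (A)) onto for `M''`;
`Hom_G(−, C_S)` is left exact.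
-/
import Mathlib
import Fermat.Agent.Lib.S56.TailFinH2

set_option autoImplicit false
set_option linter.unusedSectionVars false
set_option linter.unusedVariables false

noncomputable section

namespace Fermat.Agent.Lib.S56

open IntermediateField ExtCitation groupCohomology Module Fermat.Agent.Lib.PT

local notation "Qbar" => AlgebraicClosure ℚ
local notation "GQ" => (AlgebraicClosure ℚ ≃ₐ[ℚ] AlgebraicClosure ℚ)

section Push

variable {k : Type} [CommRing k] (S : Finset Nat.Primes) {M N : Rep.{0} k GQ}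

/-- push-forward of `S`-level 2-cocycles along an equivariant linear map -/
def s56t_pushCoc (φ : M.V →ₗ[k] N.V) (hφ : ∀ g m, φ (M.ρ g m) = N.ρ g (φ m)) :
    ↥(levelCocyclesS₂ S M) →ₗ[k] ↥(levelCocyclesS₂ S N) where
  toFun z := ⟨fun x => φ ((z : GQ × GQ → M.V) x), by
    refine (mem_levelCocyclesS₂_iff S N _).2 ⟨?_, ?_⟩
    · rw [mem_cocycles₂_iff]
      intro g h j
      have h1 := (mem_cocycles₂_iff _).1 ((mem_levelCocyclesS₂_iff S M _).1 z.2).1 g h j
      have h2 := congrArg φ h1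
      rw [map_add, map_add, hφ] at h2
      exact h2
    · exact ((mem_levelCocyclesS₂_iff S M _).1 z.2).2.comp φ⟩
  map_add' z z' := by
    apply Subtype.ext
    funext x
    show φ ((z : GQ × GQ → M.V) x + (z' : GQ × GQ → M.V) x) = _
    rw [map_add]
    rfl
  map_smul' c z := by
    apply Subtype.ext
    funext x
    show φ (c • (z : GQ × GQ → M.V) x) = _
    rw [map_smul]
    rfl

@[simp] lemma s56t_pushCoc_apply (φ : M.V →ₗ[k] N.V) (hφ : ∀ g m, φ (M.ρ g m) = N.ρ g (φ m))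
    (z : ↥(levelCocyclesS₂ S M)) (x : GQ × GQ) :
    ((s56t_pushCoc S φ hφ z : ↥(levelCocyclesS₂ S N)) : GQ × GQ → N.V) x
      = φ ((z : GQ × GQ → M.V) x) := rfl

lemma s56t_pushCoc_mem_cob (φ : M.V →ₗ[k] N.V) (hφ : ∀ g m, φ (M.ρ g m) = N.ρ g (φ m))
    (z : ↥(levelCocyclesS₂ S M))
    (hz : (z : GQ × GQ → M.V) ∈ levelCoboundariesS₂ S M) :
    ((s56t_pushCoc S φ hφ z : ↥(levelCocyclesS₂ S N)) : GQ × GQ → N.V)
      ∈ levelCoboundariesS₂ S N := by
  obtain ⟨x, hx, hxz⟩ := (mem_levelCoboundariesS₂_iff S M _).1 hz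
  refine (mem_levelCoboundariesS₂_iff S N _).2 ⟨fun g => φ (x g), hx.comp φ, ?_⟩
  funext ⟨g, h⟩
  rw [s56t_pushCoc_apply, ← hxz, d₁₂_hom_apply, d₁₂_hom_apply, map_add, map_sub, hφ]

/-- **functoriality of `H²(G_S, −)`** in the coefficients -/
def s56t_H2Smap (φ : M.V →ₗ[k] N.V) (hφ : ∀ g m, φ (M.ρ g m) = N.ρ g (φ m)) :
    continuousH2S S M →ₗ[k] continuousH2S S N :=
  Submodule.mapQ _ _ (s56t_pushCoc S φ hφ) (fun z hz => by
    simp only [Submodule.mem_comap, Submodule.subtype_apply] at hz ⊢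
    exact s56t_pushCoc_mem_cob S φ hφ z hz)

@[simp] lemma s56t_H2Smap_mk (φ : M.V →ₗ[k] N.V) (hφ : ∀ g m, φ (M.ρ g m) = N.ρ g (φ m))
    (z : ↥(levelCocyclesS₂ S M)) :
    s56t_H2Smap S φ hφ (continuousH2Sπ S M z) = continuousH2Sπ S N (s56t_pushCoc S φ hφ z) :=
  rfl

end Push

section Quot

variable {p : ℕ} [hp : Fact p.Prime] {S : Finset Nat.Primes} {M N : Rep.{0} (ZMod p) GQ}

/-- smoothness passes to equivariant quotients -/
lemma s56t_hsm_of_surjective (φ : M.V →ₗ[ZMod p] N.V)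
    (hφ : ∀ g m, φ (M.ρ g m) = N.ρ g (φ m)) (hsurj : Function.Surjective φ)
    (hsm : ∀ m : M, ∃ F : IntermediateField ℚ Qbar, FiniteDimensional ℚ F ∧
      ∀ s ∈ F.fixingSubgroup, M.ρ s m = m) :
    ∀ n : N, ∃ F : IntermediateField ℚ Qbar, FiniteDimensional ℚ F ∧
      ∀ s ∈ F.fixingSubgroup, N.ρ s n = n := by
  intro n
  obtain ⟨m, rfl⟩ := hsurj n
  obtain ⟨F, hF, h⟩ := hsm m
  refine ⟨F, hF, fun s hs => ?_⟩
  have h1 : N.ρ s (φ m) = φ m := by rw [← hφ, h s hs]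
  exact h1

/-- unramifiedness outside `S` passes to equivariant quotients -/
lemma s56t_hMur_of_surjective (φ : M.V →ₗ[ZMod p] N.V)
    (hφ : ∀ g m, φ (M.ρ g m) = N.ρ g (φ m)) (hsurj : Function.Surjective φ)
    (hMur : ∀ q : Nat.Primes, q ∉ S → ∀ A : ValuationSubring Qbar,
      A.LiesOverPrime (q : ℕ) → ∀ g ∈ A.inertiaSubgroupIn ℚ, M.ρ g = 1) :
    ∀ q : Nat.Primes, q ∉ S → ∀ A : ValuationSubring Qbar,
      A.LiesOverPrime (q : ℕ) → ∀ g ∈ A.inertiaSubgroupIn ℚ, N.ρ g = 1 := by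
  intro q hq A hA g hg
  refine LinearMap.ext fun n => ?_
  obtain ⟨m, rfl⟩ := hsurj n
  have h1 : N.ρ g (φ m) = φ m := by rw [← hφ, hMur q hq A hA g hg, Module.End.one_apply]
  exact h1

/-- smoothness passes to equivariant submodules -/
lemma s56t_hsm_of_injective (φ : N.V →ₗ[ZMod p] M.V)
    (hφ : ∀ g n, φ (N.ρ g n) = M.ρ g (φ n)) (hinj : Function.Injective φ)
    (hsm : ∀ m : M, ∃ F : IntermediateField ℚ Qbar, FiniteDimensional ℚ F ∧
      ∀ s ∈ F.fixingSubgroup, M.ρ s m = m) :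
    ∀ n : N, ∃ F : IntermediateField ℚ Qbar, FiniteDimensional ℚ F ∧
      ∀ s ∈ F.fixingSubgroup, N.ρ s n = n := by
  intro n
  obtain ⟨F, hF, h⟩ := hsm (φ n)
  refine ⟨F, hF, fun s hs => hinj ?_⟩
  rw [hφ, h s hs]

/-- unramifiedness outside `S` passes to equivariant submodules -/
lemma s56t_hMur_of_injective (φ : N.V →ₗ[ZMod p] M.V)
    (hφ : ∀ g n, φ (N.ρ g n) = M.ρ g (φ n)) (hinj : Function.Injective φ)
    (hMur : ∀ q : Nat.Primes, q ∉ S → ∀ A : ValuationSubring Qbar,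
      A.LiesOverPrime (q : ℕ) → ∀ g ∈ A.inertiaSubgroupIn ℚ, M.ρ g = 1) :
    ∀ q : Nat.Primes, q ∉ S → ∀ A : ValuationSubring Qbar,
      A.LiesOverPrime (q : ℕ) → ∀ g ∈ A.inertiaSubgroupIn ℚ, N.ρ g = 1 := by
  intro q hq A hA g hg
  refine LinearMap.ext fun n => hinj ?_
  rw [hφ, hMur q hq A hA g hg, Module.End.one_apply, Module.End.one_apply]

end Quot

section Right

variable {p : ℕ} [hp : Fact p.Prime] {S : Finset Nat.Primes}

set_option maxHeartbeats 1600000 in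
/-- **RIGHT-EXACTNESS of `H²(G_S, −)`**: a surjective equivariant map `M → N` of finite
`𝔽_p[G_ℚ]`-modules (`M` smooth, unramified outside `S`; `p` odd, `p ∈ S`) induces a surjection
`H²(G_S, M) → H²(G_S, N)`. -/
theorem s56t_H2Smap_surjective (hp2 : p ≠ 2) (hpS : pPrime p ∈ S)
    (M N : Rep.{0} (ZMod p) GQ) [FiniteDimensional (ZMod p) M]
    (hsm : ∀ m : M, ∃ F : IntermediateField ℚ Qbar, FiniteDimensional ℚ F ∧
      ∀ s ∈ F.fixingSubgroup, M.ρ s m = m)
    (hMur : ∀ q : Nat.Primes, q ∉ S → ∀ A : ValuationSubring Qbar,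
      A.LiesOverPrime (q : ℕ) → ∀ g ∈ A.inertiaSubgroupIn ℚ, M.ρ g = 1)
    (φ : M.V →ₗ[ZMod p] N.V) (hφ : ∀ g m, φ (M.ρ g m) = N.ρ g (φ m))
    (hsurj : Function.Surjective φ) :
    Function.Surjective (s56t_H2Smap S φ hφ) := by
  classical
  have hNfd : FiniteDimensional (ZMod p) N := Module.Finite.of_surjective φ hsurj
  have hsmN := s56t_hsm_of_surjective φ hφ hsurj hsm
  have hMurN := s56t_hMur_of_surjective φ hφ hsurj hMur
  have hH : FiniteDimensional (ZMod p) (continuousH2S S N) :=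
    s56t_finite_continuousH2S hp2 hpS N hsmN hMurN
  set 𝒢 := pta_EMod p hpS with h𝒢
  set invG := s56t_invG hp2 hpS with hinvG
  have hAG := s56t_hAG hp2 hpS N hsmN hMurN
  have hBG := s56t_hBG hp2 hpS M hsm hMur
  -- the image of `a_N` is everything
  have hΦ : LinearMap.range (𝒢.aMap invG (M := N)) = ⊤ := by
    have h1 : (LinearMap.range (𝒢.aMap invG (M := N))).dualCoannihilator = ⊥ := by
      rw [eq_bot_iff]
      intro x hx
      rw [Submodule.mem_dualCoannihilator] at hx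
      rw [Submodule.mem_bot]
      exact 𝒢.aMap_right_nondeg invG hAG x (fun f => hx _ ⟨f, rfl⟩)
    have h2 := Subspace.dualCoannihilator_dualAnnihilator_eq
      (W := LinearMap.range (𝒢.aMap invG (M := N)))
    rw [h1, Submodule.dualAnnihilator_bot] at h2
    exact h2.symm
  rw [← LinearMap.range_eq_top]
  by_contra hne
  obtain ⟨ψ, hψ0, hψ⟩ := Submodule.exists_dual_map_eq_bot_of_lt_top
    (lt_top_iff_ne_top.2 hne) inferInstance
  obtain ⟨f, rfl⟩ : ψ ∈ LinearMap.range (𝒢.aMap invG (M := N)) := by rw [hΦ]; trivial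
  -- `f ∘ φ ∈ Hom_G(M, C)` is killed by `a_M`
  have hmem : f.1.comp φ.toAddMonoidHom ∈ 𝒢.HomC M := by
    intro g m
    show f.1 (φ (M.ρ g m)) = g • f.1 (φ m)
    rw [hφ]
    exact f.2 g (φ m)
  have h0 : 𝒢.aMap invG (⟨f.1.comp φ.toAddMonoidHom, hmem⟩ : 𝒢.HomC M) = 0 := by
    refine LinearMap.ext fun x => ?_
    obtain ⟨z, rfl⟩ := Submodule.mkQ_surjective _ x
    rw [LinearMap.zero_apply]
    change 𝒢.aMap invG (⟨f.1.comp φ.toAddMonoidHom, hmem⟩ : 𝒢.HomC M)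
      (continuousH2Sπ S M z) = 0
    rw [pts_EMod.aMap_mk]
    have h3 : 𝒢.aMap invG f (s56t_H2Smap S φ hφ (continuousH2Sπ S M z)) = 0 := by
      have h4 : 𝒢.aMap invG f (s56t_H2Smap S φ hφ (continuousH2Sπ S M z))
          ∈ (LinearMap.range (s56t_H2Smap S φ hφ)).map (𝒢.aMap invG f) :=
        Submodule.mem_map_of_mem ⟨_, rfl⟩
      rw [hψ] at h4
      exact (Submodule.mem_bot _).1 h4
    rw [s56t_H2Smap_mk, pts_EMod.aMap_mk] at h3
    exact h3
  have h5 := 𝒢.aMap_injective invG hBG _ h0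
  apply hψ0
  have hf0 : f = 0 := by
    apply Subtype.ext
    refine AddMonoidHom.ext fun n => ?_
    obtain ⟨m, rfl⟩ := hsurj n
    have h6 := congrArg (fun F : 𝒢.HomC M => F.1 m) h5
    exact h6
  rw [hf0, map_zero]

set_option maxHeartbeats 800000 in
/-- right-exactness of `H²(G_S, −)`, cocycle form: every `S`-level 2-cocycle of `N` is, up to an
`S`-level coboundary, the push-forward of an `S`-level 2-cocycle of `M`. -/
theorem s56t_exists_lift_cocycle (hp2 : p ≠ 2) (hpS : pPrime p ∈ S)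
    (M N : Rep.{0} (ZMod p) GQ) [FiniteDimensional (ZMod p) M]
    (hsm : ∀ m : M, ∃ F : IntermediateField ℚ Qbar, FiniteDimensional ℚ F ∧
      ∀ s ∈ F.fixingSubgroup, M.ρ s m = m)
    (hMur : ∀ q : Nat.Primes, q ∉ S → ∀ A : ValuationSubring Qbar,
      A.LiesOverPrime (q : ℕ) → ∀ g ∈ A.inertiaSubgroupIn ℚ, M.ρ g = 1)
    (φ : M.V →ₗ[ZMod p] N.V) (hφ : ∀ g m, φ (M.ρ g m) = N.ρ g (φ m))
    (hsurj : Function.Surjective φ)
    (w : GQ × GQ → N.V) (hw : w ∈ levelCocyclesS₂ S N) :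
    ∃ z : GQ × GQ → M.V, z ∈ levelCocyclesS₂ S M ∧
      (fun x => φ (z x)) - w ∈ levelCoboundariesS₂ S N := by
  obtain ⟨x, hx⟩ := s56t_H2Smap_surjective hp2 hpS M N hsm hMur φ hφ hsurj
    (continuousH2Sπ S N ⟨w, hw⟩)
  obtain ⟨z, rfl⟩ := Submodule.mkQ_surjective _ x
  refine ⟨z, z.2, ?_⟩
  rw [s56t_H2Smap_mk, ← sub_eq_zero, ← map_sub, continuousH2Sπ_eq_zero_iff] at hx
  exact hx

end Right

end Fermat.Agent.Lib.S56

end
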