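/-
S56 programme, wall W2 → W4 (E1): ADDITIVITY of the partial Euler characteristic
`χ_S(X) = h⁰(G_ℚ, X) − h¹(G_S, X) + h²(G_S, X)` on short exact sequences of finite
`𝔽_p[G_ℚ]`-modules unramified outside `S`.

Route: `χ_S(X) = dim X − dim Z¹_S(X) + dim H²(G_S, X)` (all coboundaries are level-constant), and
the SIX-TERM exact sequence
`0 → Z¹_S(M') → Z¹_S(M) → Z¹_S(M'') → H²_S(M') → H²_S(M) → H²_S(M'') → 0`
(connecting map `c'' ↦ [t ∘ d(s ∘ c'')]` for a LINEAR section `s` of `g` and a LINEAR retraction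
`t` of `f`; right end = `s56t_H2Smap_surjective`).
-/
import Mathlib
import Fermat.Agent.Lib.S56.TailRight

set_option autoImplicit false
set_option linter.unusedSectionVars false
set_option linter.unusedVariables false

noncomputable section

namespace Fermat.Agent.Lib.S56

open IntermediateField ExtCitation groupCohomology Module Fermat.Agent.Lib.PT

local notation "Qbar" => AlgebraicClosure ℚ
local notation "GQ" => (AlgebraicClosure ℚ ≃ₐ[ℚ] AlgebraicClosure ℚ)

section Six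

variable {k : Type*} [Field k]
variable {A₁ A₂ A₃ A₄ A₅ A₆ : Type*}
variable [AddCommGroup A₁] [Module k A₁] [AddCommGroup A₂] [Module k A₂]
variable [AddCommGroup A₃] [Module k A₃] [AddCommGroup A₄] [Module k A₄]
variable [AddCommGroup A₅] [Module k A₅] [AddCommGroup A₆] [Module k A₆]
variable [FiniteDimensional k A₁] [FiniteDimensional k A₂] [FiniteDimensional k A₃]
variable [FiniteDimensional k A₄] [FiniteDimensional k A₅] [FiniteDimensional k A₆]

/-- rank–nullity, stated for arbitrary instances -/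
lemma s56t_rn {V W : Type*} [AddCommGroup V] [Module k V] [AddCommGroup W] [Module k W]
    [FiniteDimensional k V] (f : V →ₗ[k] W) :
    finrank k ↥(LinearMap.range f) + finrank k ↥(LinearMap.ker f) = finrank k V :=
  LinearMap.finrank_range_add_finrank_ker f

/-- the dimension count of a six-term exact sequence -/
theorem s56t_six_term (a₁ : A₁ →ₗ[k] A₂) (a₂ : A₂ →ₗ[k] A₃) (a₃ : A₃ →ₗ[k] A₄)
    (a₄ : A₄ →ₗ[k] A₅) (a₅ : A₅ →ₗ[k] A₆)
    (h₁ : Function.Injective a₁)
    (h₁₂ : LinearMap.range a₁ = LinearMap.ker a₂) (h₂₃ : LinearMap.range a₂ = LinearMap.ker a₃)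
    (h₃₄ : LinearMap.range a₃ = LinearMap.ker a₄) (h₄₅ : LinearMap.range a₄ = LinearMap.ker a₅)
    (h₅ : Function.Surjective a₅) :
    finrank k A₁ + finrank k A₃ + finrank k A₅ = finrank k A₂ + finrank k A₄ + finrank k A₆ := by
  have e₁ := LinearMap.finrank_range_add_finrank_ker a₁
  have e₂ := LinearMap.finrank_range_add_finrank_ker a₂
  have e₃ := LinearMap.finrank_range_add_finrank_ker a₃
  have e₄ := LinearMap.finrank_range_add_finrank_ker a₄
  have e₅ := LinearMap.finrank_range_add_finrank_ker a₅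
  have k₁ : finrank k ↥(LinearMap.ker a₁) = 0 := by
    rw [LinearMap.ker_eq_bot.2 h₁]
    exact finrank_bot k A₁
  have r₅ : finrank k ↥(LinearMap.range a₅) = finrank k A₆ := by
    rw [LinearMap.range_eq_top.2 h₅]
    exact finrank_top k A₆
  have q₁₂ : finrank k ↥(LinearMap.range a₁) = finrank k ↥(LinearMap.ker a₂) := by rw [h₁₂]
  have q₂₃ : finrank k ↥(LinearMap.range a₂) = finrank k ↥(LinearMap.ker a₃) := by rw [h₂₃]
  have q₃₄ : finrank k ↥(LinearMap.range a₃) = finrank k ↥(LinearMap.ker a₄) := by rw [h₃₄]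
  have q₄₅ : finrank k ↥(LinearMap.range a₄) = finrank k ↥(LinearMap.ker a₅) := by rw [h₄₅]
  omega

end Six

section Coc1

variable {k : Type} [CommRing k] (S : Finset Nat.Primes) {M N : Rep.{0} k GQ}

/-- push-forward of `S`-level 1-cocycles along an equivariant linear map -/
def s56t_pushCoc₁ (φ : M.V →ₗ[k] N.V) (hφ : ∀ g m, φ (M.ρ g m) = N.ρ g (φ m)) :
    ↥(levelCocyclesS₁ S M) →ₗ[k] ↥(levelCocyclesS₁ S N) where
  toFun c := ⟨⟨fun x => φ (((c : cocycles₁ M) : GQ → M.V) x), by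
      rw [mem_cocycles₁_iff]
      intro g h
      have h1 := (mem_cocycles₁_iff _).1 (c : cocycles₁ M).2 g h
      have h2 := congrArg φ h1
      rw [map_add, hφ] at h2
      exact h2⟩, by
      have h1 : IsLevelConstantS₁ S (((c : cocycles₁ M) : GQ → M.V)) := c.2
      exact h1.comp φ⟩
  map_add' c c' := by
    apply Subtype.ext
    apply Subtype.ext
    funext x
    show φ (((c : cocycles₁ M) : GQ → M.V) x + ((c' : cocycles₁ M) : GQ → M.V) x) = _
    rw [map_add]
    rfl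
  map_smul' a c := by
    apply Subtype.ext
    apply Subtype.ext
    funext x
    show φ (a • ((c : cocycles₁ M) : GQ → M.V) x) = _
    rw [map_smul]
    rfl

@[simp] lemma s56t_pushCoc₁_apply (φ : M.V →ₗ[k] N.V) (hφ : ∀ g m, φ (M.ρ g m) = N.ρ g (φ m))
    (c : ↥(levelCocyclesS₁ S M)) (x : GQ) :
    (((s56t_pushCoc₁ S φ hφ c : ↥(levelCocyclesS₁ S N)) : cocycles₁ N) : GQ → N.V) x
      = φ (((c : cocycles₁ M) : GQ → M.V) x) := rfl

end Coc1

section PartOne

variable {k : Type} [Field k] (S : Finset Nat.Primes) (X : Rep.{0} k GQ)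

/-- the coboundary map `X → Z¹_S(X)` (all coboundaries of a discrete module are level-constant) -/
def s56t_d0Coc (hd : ptd_IsDiscrete (pta_levelsS S) X.ρ) :
    X.V →ₗ[k] ↥(levelCocyclesS₁ S X) where
  toFun m := ⟨⟨(d₀₁ X).hom m, by
      rw [mem_cocycles₁_iff]
      intro g h
      rw [d₀₁_hom_apply, d₀₁_hom_apply, d₀₁_hom_apply, map_sub, map_mul, Module.End.mul_apply]
      abel⟩, by
      show IsLevelConstantS₁ S ((d₀₁ X).hom m)
      rw [← pta_isLev₁_iff]
      obtain ⟨N, hN, h⟩ := hd m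
      refine ⟨N, hN, fun g n hn => ?_⟩
      rw [d₀₁_hom_apply, d₀₁_hom_apply, map_mul, Module.End.mul_apply, h n hn]⟩
  map_add' m m' := by
    apply Subtype.ext
    apply Subtype.ext
    exact map_add (d₀₁ X).hom m m'
  map_smul' a m := by
    apply Subtype.ext
    apply Subtype.ext
    exact map_smul (d₀₁ X).hom a m

lemma s56t_d0Coc_apply (hd : ptd_IsDiscrete (pta_levelsS S) X.ρ) (m : X.V) (g : GQ) :
    (((s56t_d0Coc S X hd m : ↥(levelCocyclesS₁ S X)) : cocycles₁ X) : GQ → X.V) g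
      = X.ρ g m - m := d₀₁_hom_apply X m g

/-- the class map `Z¹_S(X) → H¹(G_ℚ, X)` -/
def s56t_classH1 : ↥(levelCocyclesS₁ S X) →ₗ[k] H1 X :=
  (H1π X).hom ∘ₗ (levelCocyclesS₁ S X).subtype

lemma s56t_range_classH1 : LinearMap.range (s56t_classH1 S X) = continuousH1S S X := by
  unfold s56t_classH1 continuousH1S
  rw [LinearMap.range_comp, Submodule.range_subtype]

lemma s56t_ker_d0Coc (hd : ptd_IsDiscrete (pta_levelsS S) X.ρ) :
    LinearMap.ker (s56t_d0Coc S X hd) = X.ρ.invariants := by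
  ext m
  rw [LinearMap.mem_ker, Representation.mem_invariants]
  constructor
  · intro h g
    have h1 := s56t_d0Coc_apply S X hd m g
    rw [h] at h1
    exact (sub_eq_zero.1 h1.symm)
  · intro h
    apply Subtype.ext
    apply Subtype.ext
    funext g
    have h1 := s56t_d0Coc_apply S X hd m g
    rw [h g, sub_self] at h1
    exact h1

lemma s56t_range_d0Coc (hd : ptd_IsDiscrete (pta_levelsS S) X.ρ) :
    LinearMap.range (s56t_d0Coc S X hd) = LinearMap.ker (s56t_classH1 S X) := by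
  ext c
  rw [LinearMap.mem_ker, LinearMap.mem_range]
  have h0 : s56t_classH1 S X c = (H1π X).hom (c : cocycles₁ X) := rfl
  rw [h0, H1π_eq_zero_iff]
  constructor
  · rintro ⟨m, rfl⟩
    exact ⟨m, rfl⟩
  · rintro ⟨m, hm⟩
    refine ⟨m, ?_⟩
    apply Subtype.ext
    apply Subtype.ext
    exact hm

/-- `h⁰(X) + dim Z¹_S(X) = dim X + h¹_S(X)` -/
theorem s56t_finrank_Z1 (hd : ptd_IsDiscrete (pta_levelsS S) X.ρ) [FiniteDimensional k X.V]
    [FiniteDimensional k ↥(levelCocyclesS₁ S X)] :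
    finrank k ↥X.ρ.invariants + finrank k ↥(levelCocyclesS₁ S X)
      = finrank k X.V + finrank k ↥(continuousH1S S X) := by
  have e₁ := s56t_rn (k := k) (V := X.V) (W := ↥(levelCocyclesS₁ S X)) (s56t_d0Coc S X hd)
  have e₂ := s56t_rn (k := k) (V := ↥(levelCocyclesS₁ S X)) (W := H1 X) (s56t_classH1 S X)
  have q₁ : finrank k ↥(LinearMap.ker (s56t_d0Coc S X hd)) = finrank k ↥X.ρ.invariants := by
    rw [s56t_ker_d0Coc]
  have q₂ : finrank k ↥(LinearMap.range (s56t_d0Coc S X hd))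
      = finrank k ↥(LinearMap.ker (s56t_classH1 S X)) := by rw [s56t_range_d0Coc]
  have q₃ : finrank k ↥(LinearMap.range (s56t_classH1 S X)) = finrank k ↥(continuousH1S S X) := by
    rw [s56t_range_classH1]
  omega

end PartOne

section Cochains

variable {k : Type} [CommRing k] (S : Finset Nat.Primes) {M N : Rep.{0} k GQ}

/-- `d` commutes with equivariant linear maps -/
lemma s56t_d12_comp (φ : M.V →ₗ[k] N.V) (hφ : ∀ g m, φ (M.ρ g m) = N.ρ g (φ m))
    (b : GQ → M.V) :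
    (d₁₂ N).hom (fun σ => φ (b σ)) = fun x => φ ((d₁₂ M).hom b x) := by
  funext ⟨σ, τ⟩
  rw [d₁₂_hom_apply, d₁₂_hom_apply, map_add, map_sub, hφ]

/-- coboundaries are cocycles -/
lemma s56t_d12_mem_cocycles₂ (b : GQ → M.V) : (d₁₂ M).hom b ∈ cocycles₂ M := by
  rw [← pta_isZ2_iff, ← pta_d1_eq]
  exact ptd_isZ2_d1 b

/-- the coboundary of a level-constant cochain of a discrete module is level-constant -/
lemma s56t_isLev₂_d12 (hd : ptd_IsDiscrete (pta_levelsS S) M.ρ) {b : GQ → M.V}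
    (hb : IsLevelConstantS₁ S b) : IsLevelConstantS₂ S ((d₁₂ M).hom b) := by
  rw [← pta_isLev₂_iff, ← pta_d1_eq]
  exact ptd_isLev₂_d1 hd ((pta_isLev₁_iff b).2 hb)

lemma s56t_H2Sπ_eq_zero_of_d12 (z : ↥(levelCocyclesS₂ S M)) (b : GQ → M.V)
    (hb : IsLevelConstantS₁ S b) (h : (z : GQ × GQ → M.V) = (d₁₂ M).hom b) :
    continuousH2Sπ S M z = 0 :=
  (continuousH2Sπ_eq_zero_iff S M z).2
    ((mem_levelCoboundariesS₂_iff S M _).2 ⟨b, hb, h.symm⟩)

lemma s56t_exists_of_H2Sπ_eq_zero (z : ↥(levelCocyclesS₂ S M))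
    (h : continuousH2Sπ S M z = 0) :
    ∃ b : GQ → M.V, IsLevelConstantS₁ S b ∧ (d₁₂ M).hom b = (z : GQ × GQ → M.V) :=
  (mem_levelCoboundariesS₂_iff S M _).1 ((continuousH2Sπ_eq_zero_iff S M z).1 h)

lemma s56t_H2Sπ_eq_of_sub_d12 (z z' : ↥(levelCocyclesS₂ S M)) (b : GQ → M.V)
    (hb : IsLevelConstantS₁ S b)
    (h : (z : GQ × GQ → M.V) - (z' : GQ × GQ → M.V) = (d₁₂ M).hom b) :
    continuousH2Sπ S M z = continuousH2Sπ S M z' := by
  rw [← sub_eq_zero, ← map_sub]
  exact s56t_H2Sπ_eq_zero_of_d12 S (z - z') b hb h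

end Cochains

section Conn

variable {k : Type} [Field k] (S : Finset Nat.Primes) {M' M M'' : Rep.{0} k GQ}
variable (f : M'.V →ₗ[k] M.V) (g : M.V →ₗ[k] M''.V)
variable (hf : ∀ σ m, f (M'.ρ σ m) = M.ρ σ (f m)) (hg : ∀ σ m, g (M.ρ σ m) = M''.ρ σ (g m))
variable (t : M.V →ₗ[k] M'.V) (s : M''.V →ₗ[k] M.V)
variable (htf : ∀ m, t (f m) = m) (hgs : ∀ m, g (s m) = m)
variable (hgf : ∀ m, g (f m) = 0) (hex : ∀ m, g m = 0 → f (t m) = m)
variable (hd : ptd_IsDiscrete (pta_levelsS S) M.ρ)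

include htf in
lemma s56t_f_injective : Function.Injective f := fun a b h => by
  rw [← htf a, ← htf b, h]

include hg hgs in
/-- the coboundary of the lift of a cocycle of `M''` takes values in `ker g` -/
lemma s56t_g_d12_lift {c : GQ → M''.V} (hc : c ∈ cocycles₁ M'') (x : GQ × GQ) :
    g ((d₁₂ M).hom (fun σ => s (c σ)) x) = 0 := by
  have h1 := congrFun (s56t_d12_comp g hg (fun σ => s (c σ))) x
  simp only [hgs] at h1
  rw [← h1]
  have h2 : (d₁₂ M'').hom c = 0 := hc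
  have h3 : (fun σ => c σ) = c := rfl
  rw [h3, h2]
  rfl

/-- the connecting map on cochains: `c ↦ t ∘ d(s ∘ c)` -/
def s56t_deltaFun : (GQ → M''.V) →ₗ[k] (GQ × GQ → M'.V) :=
  (t.compLeft (GQ × GQ)) ∘ₗ ((d₁₂ M).hom ∘ₗ (s.compLeft GQ))

lemma s56t_deltaFun_apply (c : GQ → M''.V) (x : GQ × GQ) :
    s56t_deltaFun t s c x = t ((d₁₂ M).hom (fun σ => s (c σ)) x) := rfl

include hf hg htf hgs hex hd in
lemma s56t_deltaFun_mem {c : GQ → M''.V} (hc : c ∈ cocycles₁ M'')
    (hlev : IsLevelConstantS₁ S c) :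
    s56t_deltaFun t s c ∈ levelCocyclesS₂ S M' := by
  have hK2 : ∀ x, f (s56t_deltaFun t s c x) = (d₁₂ M).hom (fun σ => s (c σ)) x := fun x =>
    hex _ (s56t_g_d12_lift g hg s hgs hc x)
  refine (mem_levelCocyclesS₂_iff S M' _).2 ⟨?_, ?_⟩
  · rw [mem_cocycles₂_iff]
    intro a b e
    apply s56t_f_injective f t htf
    rw [map_add, map_add, hf, hK2, hK2, hK2, hK2]
    exact (mem_cocycles₂_iff _).1 (s56t_d12_mem_cocycles₂ (fun σ => s (c σ))) a b e
  · exact (s56t_isLev₂_d12 S hd (hlev.comp s)).comp t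

/-- the connecting map `Z¹_S(M'') → Z²_S(M')` -/
def s56t_deltaCoc : ↥(levelCocyclesS₁ S M'') →ₗ[k] ↥(levelCocyclesS₂ S M') :=
  LinearMap.codRestrict (levelCocyclesS₂ S M')
    (s56t_deltaFun t s ∘ₗ ((cocycles₁ M'').subtype ∘ₗ (levelCocyclesS₁ S M'').subtype))
    (fun c => s56t_deltaFun_mem S f g hf hg t s htf hgs hex hd (c : cocycles₁ M'').2 c.2)

lemma s56t_deltaCoc_apply (c : ↥(levelCocyclesS₁ S M'')) (x : GQ × GQ) :
    ((s56t_deltaCoc S f g hf hg t s htf hgs hex hd c : ↥(levelCocyclesS₂ S M')) :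
      GQ × GQ → M'.V) x
      = t ((d₁₂ M).hom (fun σ => s (((c : cocycles₁ M'') : GQ → M''.V) σ)) x) := rfl

/-- **the connecting map `δ : Z¹_S(M'') → H²(G_S, M')`** -/
def s56t_delta : ↥(levelCocyclesS₁ S M'') →ₗ[k] continuousH2S S M' :=
  continuousH2Sπ S M' ∘ₗ s56t_deltaCoc S f g hf hg t s htf hgs hex hd

include hf htf hex in
lemma s56t_descend₁ {c : GQ → M.V} (hc : c ∈ cocycles₁ M) (hlev : IsLevelConstantS₁ S c)
    (h0 : ∀ σ, g (c σ) = 0) :
    (fun σ => t (c σ)) ∈ cocycles₁ M' ∧ IsLevelConstantS₁ S (fun σ => t (c σ)) := by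
  refine ⟨?_, hlev.comp t⟩
  rw [mem_cocycles₁_iff]
  intro a b
  apply s56t_f_injective f t htf
  rw [map_add, hf, hex _ (h0 _), hex _ (h0 _), hex _ (h0 _)]
  exact (mem_cocycles₁_iff _).1 hc a b

include hf htf hex in
lemma s56t_descend₂ {z : GQ × GQ → M.V} (hz : z ∈ levelCocyclesS₂ S M)
    (h0 : ∀ x, g (z x) = 0) : (fun x => t (z x)) ∈ levelCocyclesS₂ S M' := by
  obtain ⟨hz1, hz2⟩ := (mem_levelCocyclesS₂_iff S M _).1 hz
  refine (mem_levelCocyclesS₂_iff S M' _).2 ⟨?_, hz2.comp t⟩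
  rw [mem_cocycles₂_iff]
  intro a b e
  apply s56t_f_injective f t htf
  rw [map_add, map_add, hf, hex _ (h0 _), hex _ (h0 _), hex _ (h0 _), hex _ (h0 _)]
  exact (mem_cocycles₂_iff _).1 hz1 a b e

include htf in
/-- (X1) `Z¹_S(M') → Z¹_S(M)` is injective -/
lemma s56t_X1 : Function.Injective (s56t_pushCoc₁ S f hf) := by
  intro c c' h
  apply Subtype.ext
  apply DFunLike.coe_injective
  funext σ
  apply s56t_f_injective f t htf
  exact congrFun (congrArg
    (fun c : ↥(levelCocyclesS₁ S M) => ((c : cocycles₁ M) : GQ → M.V)) h) σ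

include htf hgf hex in
/-- (X2) exactness at `Z¹_S(M)` -/
lemma s56t_X2 :
    LinearMap.range (s56t_pushCoc₁ S f hf) = LinearMap.ker (s56t_pushCoc₁ S g hg) := by
  ext c
  rw [LinearMap.mem_range, LinearMap.mem_ker]
  constructor
  · rintro ⟨c', rfl⟩
    apply Subtype.ext
    apply DFunLike.coe_injective
    funext σ
    exact hgf _
  · intro h
    have h0 : ∀ σ, g (((c : cocycles₁ M) : GQ → M.V) σ) = 0 := fun σ =>
      congrFun (congrArg
        (fun c : ↥(levelCocyclesS₁ S M'') => ((c : cocycles₁ M'') : GQ → M''.V)) h) σ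
    obtain ⟨h1, h2⟩ := s56t_descend₁ S f g hf t htf hex (c : cocycles₁ M).2 c.2 h0
    refine ⟨⟨⟨_, h1⟩, h2⟩, ?_⟩
    apply Subtype.ext
    apply DFunLike.coe_injective
    funext σ
    exact hex _ (h0 σ)

include hg hgs hex in
/-- (K2) `f ∘ t` is the identity on the coboundary of the lift of a cocycle of `M''` -/
lemma s56t_f_deltaFun {c : GQ → M''.V} (hc : c ∈ cocycles₁ M'') (x : GQ × GQ) :
    f (s56t_deltaFun t s c x) = (d₁₂ M).hom (fun σ => s (c σ)) x :=
  hex _ (s56t_g_d12_lift g hg s hgs hc x)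

include hgs in
/-- `s ∘ g ∘ b − b` takes values in `ker g` -/
lemma s56t_g_sg_sub (b : GQ → M.V) (σ : GQ) : g (s (g (b σ)) - b σ) = 0 := by
  rw [map_sub, hgs, sub_self]

include hf hg htf hgs hgf hex hd in
/-- (X3) exactness at `Z¹_S(M'')` -/
lemma s56t_X3 :
    LinearMap.range (s56t_pushCoc₁ S g hg)
      = LinearMap.ker (s56t_delta S f g hf hg t s htf hgs hex hd) := by
  ext c''
  rw [LinearMap.mem_range, LinearMap.mem_ker]
  constructor
  · rintro ⟨c, rfl⟩
    -- `δ (g ∘ c) = [d b']`, `b' = t ∘ (s ∘ g ∘ c − c)`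
    have hc1 : IsLevelConstantS₁ S ((c : cocycles₁ M) : GQ → M.V) := c.2
    have hb' : IsLevelConstantS₁ S
        (fun σ => t (s (g (((c : cocycles₁ M) : GQ → M.V) σ)) - ((c : cocycles₁ M) : GQ → M.V) σ)) :=
      hc1.comp (fun m => t (s (g m) - m))
    refine s56t_H2Sπ_eq_zero_of_d12 S _ _ hb' ?_
    funext x
    apply s56t_f_injective f t htf
    have h1 := s56t_f_deltaFun f g hg t s hgs hex
      (s56t_pushCoc₁ S g hg c : cocycles₁ M'').2 x
    have h2 := congrFun (s56t_d12_comp f hf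
      (fun σ => t (s (g (((c : cocycles₁ M) : GQ → M.V) σ)) - ((c : cocycles₁ M) : GQ → M.V) σ))) x
    have h3 : (fun σ => f (t (s (g (((c : cocycles₁ M) : GQ → M.V) σ))
          - ((c : cocycles₁ M) : GQ → M.V) σ)))
        = (fun σ => s (g (((c : cocycles₁ M) : GQ → M.V) σ))) - ((c : cocycles₁ M) : GQ → M.V) := by
      funext σ
      rw [hex _ (s56t_g_sg_sub g s hgs _ σ)]
      rfl
    have h4 : (d₁₂ M).hom ((c : cocycles₁ M) : GQ → M.V) = 0 := (c : cocycles₁ M).2
    rw [h3, map_sub, h4, sub_zero] at h2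
    rw [← h2]
    exact h1
  · intro h
    obtain ⟨b', hb', hb'z⟩ := s56t_exists_of_H2Sπ_eq_zero S _ h
    have hc1 : IsLevelConstantS₁ S ((c'' : cocycles₁ M'') : GQ → M''.V) := c''.2
    -- the cocycle `c = s ∘ c'' − f ∘ b'`
    have hlev : IsLevelConstantS₁ S
        ((fun σ => s (((c'' : cocycles₁ M'') : GQ → M''.V) σ)) - fun σ => f (b' σ)) :=
      (levelCochainsS₁ S M).sub_mem (hc1.comp s) (hb'.comp f)
    have hcoc : ((fun σ => s (((c'' : cocycles₁ M'') : GQ → M''.V) σ)) - fun σ => f (b' σ))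
        ∈ cocycles₁ M := by
      show (d₁₂ M).hom _ = 0
      rw [map_sub, s56t_d12_comp f hf b', hb'z]
      funext x
      have h1 := s56t_f_deltaFun f g hg t s hgs hex (c'' : cocycles₁ M'').2 x
      show (d₁₂ M).hom (fun σ => s (((c'' : cocycles₁ M'') : GQ → M''.V) σ)) x
        - f (s56t_deltaFun t s ((c'' : cocycles₁ M'') : GQ → M''.V) x) = 0
      exact sub_eq_zero.2 h1.symm
    refine ⟨⟨⟨_, hcoc⟩, hlev⟩, ?_⟩
    apply Subtype.ext
    apply DFunLike.coe_injective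
    funext σ
    show g (s (((c'' : cocycles₁ M'') : GQ → M''.V) σ) - f (b' σ)) = _
    rw [map_sub, hgs, hgf, sub_zero]

include hf hg htf hgs hgf hex hd in
/-- (X4) exactness at `H²(G_S, M')` -/
lemma s56t_X4 :
    LinearMap.range (s56t_delta S f g hf hg t s htf hgs hex hd)
      = LinearMap.ker (s56t_H2Smap S f hf) := by
  ext x
  rw [LinearMap.mem_range, LinearMap.mem_ker]
  constructor
  · rintro ⟨c'', rfl⟩
    have hc1 : IsLevelConstantS₁ S ((c'' : cocycles₁ M'') : GQ → M''.V) := c''.2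
    show s56t_H2Smap S f hf (continuousH2Sπ S M'
      (s56t_deltaCoc S f g hf hg t s htf hgs hex hd c'')) = 0
    rw [s56t_H2Smap_mk]
    refine s56t_H2Sπ_eq_zero_of_d12 S _ (fun σ => s (((c'' : cocycles₁ M'') : GQ → M''.V) σ))
      (hc1.comp s) ?_
    funext x
    exact s56t_f_deltaFun f g hg t s hgs hex (c'' : cocycles₁ M'').2 x
  · intro h
    obtain ⟨z', rfl⟩ := Submodule.mkQ_surjective _ x
    change s56t_H2Smap S f hf (continuousH2Sπ S M' z') = 0 at h
    rw [s56t_H2Smap_mk] at h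
    obtain ⟨b, hb, hbz⟩ := s56t_exists_of_H2Sπ_eq_zero S _ h
    -- `c'' = g ∘ b` is a level cocycle of `M''`
    have hcoc : (fun σ => g (b σ)) ∈ cocycles₁ M'' := by
      show (d₁₂ M'').hom _ = 0
      rw [s56t_d12_comp g hg b, hbz]
      funext x
      exact hgf _
    have hlev : IsLevelConstantS₁ S (fun σ => g (b σ)) := hb.comp g
    refine ⟨⟨⟨_, hcoc⟩, hlev⟩, ?_⟩
    -- `δ c'' = [z' + d e']`, `e' = t ∘ (s ∘ g ∘ b − b)`
    have he' : IsLevelConstantS₁ S (fun σ => t (s (g (b σ)) - b σ)) :=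
      hb.comp (fun m => t (s (g m) - m))
    show continuousH2Sπ S M' (s56t_deltaCoc S f g hf hg t s htf hgs hex hd ⟨⟨_, hcoc⟩, hlev⟩)
      = continuousH2Sπ S M' z'
    refine s56t_H2Sπ_eq_of_sub_d12 S _ _ _ he' ?_
    funext x
    apply s56t_f_injective f t htf
    have h1 := s56t_f_deltaFun f g hg t s hgs hex hcoc x
    have h2 := congrFun (s56t_d12_comp f hf (fun σ => t (s (g (b σ)) - b σ))) x
    have h3 : (fun σ => f (t (s (g (b σ)) - b σ))) = (fun σ => s (g (b σ))) - b := by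
      funext σ
      rw [hex _ (s56t_g_sg_sub g s hgs b σ)]
      rfl
    rw [h3, map_sub] at h2
    have h4 := congrFun hbz x
    rw [← h2]
    show f (s56t_deltaFun t s (fun σ => g (b σ)) x - (z' : GQ × GQ → M'.V) x) = _
    rw [map_sub, h1]
    show _ = (d₁₂ M).hom (fun σ => s (g (b σ))) x - (d₁₂ M).hom b x
    rw [h4]
    rfl

include hf hg htf hgs hgf hex hd in
/-- (X5) exactness at `H²(G_S, M)` -/
lemma s56t_X5 :
    LinearMap.range (s56t_H2Smap S f hf) = LinearMap.ker (s56t_H2Smap S g hg) := by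
  ext x
  rw [LinearMap.mem_range, LinearMap.mem_ker]
  constructor
  · rintro ⟨y, rfl⟩
    obtain ⟨z', rfl⟩ := Submodule.mkQ_surjective _ y
    change s56t_H2Smap S g hg (s56t_H2Smap S f hf (continuousH2Sπ S M' z')) = 0
    rw [s56t_H2Smap_mk, s56t_H2Smap_mk]
    have h0 : s56t_pushCoc S g hg (s56t_pushCoc S f hf z') = 0 := by
      apply Subtype.ext
      funext x
      exact hgf _
    rw [h0, map_zero]
  · intro h
    obtain ⟨z, rfl⟩ := Submodule.mkQ_surjective _ x
    change s56t_H2Smap S g hg (continuousH2Sπ S M z) = 0 at h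
    rw [s56t_H2Smap_mk] at h
    obtain ⟨b'', hb'', hbz⟩ := s56t_exists_of_H2Sπ_eq_zero S _ h
    -- `w = z − d(s ∘ b'')` takes values in `ker g`
    have hsb : IsLevelConstantS₁ S (fun σ => s (b'' σ)) := hb''.comp s
    have hdw : (d₁₂ M).hom (fun σ => s (b'' σ)) ∈ levelCocyclesS₂ S M :=
      (mem_levelCocyclesS₂_iff S M _).2
        ⟨s56t_d12_mem_cocycles₂ _, s56t_isLev₂_d12 S hd hsb⟩
    have hw : (z : GQ × GQ → M.V) - (d₁₂ M).hom (fun σ => s (b'' σ)) ∈ levelCocyclesS₂ S M :=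
      (levelCocyclesS₂ S M).sub_mem z.2 hdw
    have hgw : ∀ x, g (((z : GQ × GQ → M.V) - (d₁₂ M).hom (fun σ => s (b'' σ))) x) = 0 := by
      intro x
      have h1 := congrFun (s56t_d12_comp g hg (fun σ => s (b'' σ))) x
      simp only [hgs] at h1
      have h2 := congrFun hbz x
      show g ((z : GQ × GQ → M.V) x - (d₁₂ M).hom (fun σ => s (b'' σ)) x) = 0
      rw [map_sub, ← h1]
      have h3 : (fun σ => b'' σ) = b'' := rfl
      rw [h3, h2]
      exact sub_self _
    have hz' := s56t_descend₂ S f g hf t htf hex hw hgw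
    refine ⟨continuousH2Sπ S M' ⟨_, hz'⟩, ?_⟩
    rw [s56t_H2Smap_mk]
    refine (s56t_H2Sπ_eq_of_sub_d12 S z _ _ hsb ?_).symm
    funext x
    show (z : GQ × GQ → M.V) x
      - f (t (((z : GQ × GQ → M.V) - (d₁₂ M).hom (fun σ => s (b'' σ))) x)) = _
    rw [hex _ (hgw x)]
    show (z : GQ × GQ → M.V) x
      - ((z : GQ × GQ → M.V) x - (d₁₂ M).hom (fun σ => s (b'' σ)) x) = _
    abel

end Conn

section Assemble

variable {k : Type} [Field k] (S : Finset Nat.Primes) {M' M M'' : Rep.{0} k GQ}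
variable (f : M'.V →ₗ[k] M.V) (g : M.V →ₗ[k] M''.V)
variable (hf : ∀ σ m, f (M'.ρ σ m) = M.ρ σ (f m)) (hg : ∀ σ m, g (M.ρ σ m) = M''.ρ σ (g m))
variable (t : M.V →ₗ[k] M'.V) (s : M''.V →ₗ[k] M.V)
variable (htf : ∀ m, t (f m) = m) (hgs : ∀ m, g (s m) = m)
variable (hgf : ∀ m, g (f m) = 0) (hex : ∀ m, g m = 0 → f (t m) = m)

include htf hgs hgf hex in
/-- `dim M = dim M' + dim M''` -/
lemma s56t_finrank_ses [FiniteDimensional k M.V] :
    finrank k M.V = finrank k M'.V + finrank k M''.V := by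
  have e := s56t_rn (k := k) (V := M.V) (W := M''.V) g
  have hsurj : Function.Surjective g := fun m => ⟨s m, hgs m⟩
  have hinj : Function.Injective f := s56t_f_injective f t htf
  have h1 : finrank k ↥(LinearMap.range g) = finrank k M''.V := by
    rw [LinearMap.range_eq_top.2 hsurj]
    exact finrank_top k M''.V
  have h2 : LinearMap.ker g = LinearMap.range f := by
    ext m
    rw [LinearMap.mem_ker, LinearMap.mem_range]
    exact ⟨fun h => ⟨t m, hex m h⟩, fun ⟨m', hm'⟩ => by rw [← hm', hgf]⟩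
  have h3 : finrank k ↥(LinearMap.ker g) = finrank k M'.V := by
    rw [h2]
    exact LinearMap.finrank_range_of_inj hinj
  omega

include hf hg htf hgs hgf hex in
/-- **additivity of `χ_S` from the six-term sequence** (generic field; finiteness and
right-exactness as hypotheses). -/
theorem s56t_chi_additive_gen
    (hd' : ptd_IsDiscrete (pta_levelsS S) M'.ρ) (hd : ptd_IsDiscrete (pta_levelsS S) M.ρ)
    (hd'' : ptd_IsDiscrete (pta_levelsS S) M''.ρ)
    [FiniteDimensional k M'.V] [FiniteDimensional k M.V] [FiniteDimensional k M''.V]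
    [FiniteDimensional k ↥(levelCocyclesS₁ S M')] [FiniteDimensional k ↥(levelCocyclesS₁ S M)]
    [FiniteDimensional k ↥(levelCocyclesS₁ S M'')]
    [FiniteDimensional k (continuousH2S S M')] [FiniteDimensional k (continuousH2S S M)]
    [FiniteDimensional k (continuousH2S S M'')]
    (hsurj : Function.Surjective (s56t_H2Smap S g hg)) :
    (finrank k ↥M.ρ.invariants : ℤ) - finrank k ↥(continuousH1S S M)
        + finrank k (continuousH2S S M)
      = ((finrank k ↥M'.ρ.invariants : ℤ) - finrank k ↥(continuousH1S S M')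
          + finrank k (continuousH2S S M'))
        + ((finrank k ↥M''.ρ.invariants : ℤ) - finrank k ↥(continuousH1S S M'')
          + finrank k (continuousH2S S M'')) := by
  have p' := s56t_finrank_Z1 S M' hd'
  have p0 := s56t_finrank_Z1 S M hd
  have p'' := s56t_finrank_Z1 S M'' hd''
  have hdim := s56t_finrank_ses f g t s htf hgs hgf hex
  have h6 := s56t_six_term (k := k)
    (A₁ := ↥(levelCocyclesS₁ S M')) (A₂ := ↥(levelCocyclesS₁ S M))
    (A₃ := ↥(levelCocyclesS₁ S M'')) (A₄ := continuousH2S S M') (A₅ := continuousH2S S M)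
    (A₆ := continuousH2S S M'')
    (s56t_pushCoc₁ S f hf) (s56t_pushCoc₁ S g hg)
    (s56t_delta S f g hf hg t s htf hgs hex hd) (s56t_H2Smap S f hf) (s56t_H2Smap S g hg)
    (s56t_X1 S f hf t htf) (s56t_X2 S f g hf hg t htf hgf hex)
    (s56t_X3 S f g hf hg t s htf hgs hgf hex hd) (s56t_X4 S f g hf hg t s htf hgs hgf hex hd)
    (s56t_X5 S f g hf hg t s htf hgs hgf hex hd) hsurj
  omega

end Assemble

section Final

variable {p : ℕ} [hp : Fact p.Prime] {S : Finset Nat.Primes}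

set_option maxHeartbeats 800000 in
/-- `Z¹_S(X)` is finite-dimensional -/
theorem s56t_finite_Z1S (hp2 : p ≠ 2) (hpS : pPrime p ∈ S)
    (X : Rep.{0} (ZMod p) GQ) [FiniteDimensional (ZMod p) X]
    (hsm : ∀ m : X, ∃ F : IntermediateField ℚ Qbar, FiniteDimensional ℚ F ∧
      ∀ s ∈ F.fixingSubgroup, X.ρ s m = m)
    (hMur : ∀ q : Nat.Primes, q ∉ S → ∀ A : ValuationSubring Qbar,
      A.LiesOverPrime (q : ℕ) → ∀ g ∈ A.inertiaSubgroupIn ℚ, X.ρ g = 1) :
    FiniteDimensional (ZMod p) ↥(levelCocyclesS₁ S X) := by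
  have hfin := s56t_finite_levelCocyclesS₁ hp2 hpS X hsm hMur
  have : Finite ↥(levelCocyclesS₁ S X) := by
    have : Finite ↥{c : GQ → X.V | ptd_IsLZ1 (pta_levelsS S) X.ρ c} := hfin.to_subtype
    refine Finite.of_injective
      (fun c : ↥(levelCocyclesS₁ S X) =>
        (⟨((c : cocycles₁ X) : GQ → X.V), ⟨(pta_isZ1_iff X _).2 (c : cocycles₁ X).2,
          (pta_isLev₁_iff _).2 c.2⟩⟩ : ↥{c : GQ → X.V | ptd_IsLZ1 (pta_levelsS S) X.ρ c})) ?_
    intro c c' h
    have h2 := Subtype.ext_iff.1 h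
    have h' : ((c : cocycles₁ X) : GQ → X.V) = ((c' : cocycles₁ X) : GQ → X.V) := h2
    exact Subtype.ext (DFunLike.coe_injective h')
  exact Module.Finite.of_finite

/-- a finite smooth module unramified outside `S` is discrete for the `S`-levels -/
theorem s56t_isDiscrete (X : Rep.{0} (ZMod p) GQ) [FiniteDimensional (ZMod p) X]
    (hsm : ∀ m : X, ∃ F : IntermediateField ℚ Qbar, FiniteDimensional ℚ F ∧
      ∀ s ∈ F.fixingSubgroup, X.ρ s m = m)
    (hMur : ∀ q : Nat.Primes, q ∉ S → ∀ A : ValuationSubring Qbar,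
      A.LiesOverPrime (q : ℕ) → ∀ g ∈ A.inertiaSubgroupIn ℚ, X.ρ g = 1) :
    ptd_IsDiscrete (pta_levelsS S) X.ρ :=
  (pta_isTrivOnLevel X (pta_isLevel_kerField (S := S) hsm hMur)).isDiscrete

set_option maxHeartbeats 1600000 in
/-- **(E1) ADDITIVITY OF `χ_S`** on short exact sequences `0 → M' → M → M'' → 0` of finite
`𝔽_p[G_ℚ]`-modules (`M` smooth and unramified outside `S`; `p` odd, `p ∈ S`):
`χ_S(M) = χ_S(M') + χ_S(M'')`, `χ_S(X) = h⁰(G_ℚ, X) − h¹(G_S, X) + h²(G_S, X)`. -/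
theorem s56t_chi_additive (hp2 : p ≠ 2) (hpS : pPrime p ∈ S)
    (M' M M'' : Rep.{0} (ZMod p) GQ) [FiniteDimensional (ZMod p) M]
    (hsm : ∀ m : M, ∃ F : IntermediateField ℚ Qbar, FiniteDimensional ℚ F ∧
      ∀ s ∈ F.fixingSubgroup, M.ρ s m = m)
    (hMur : ∀ q : Nat.Primes, q ∉ S → ∀ A : ValuationSubring Qbar,
      A.LiesOverPrime (q : ℕ) → ∀ g ∈ A.inertiaSubgroupIn ℚ, M.ρ g = 1)
    (f : M'.V →ₗ[ZMod p] M.V) (g : M.V →ₗ[ZMod p] M''.V)
    (hf : ∀ σ m, f (M'.ρ σ m) = M.ρ σ (f m)) (hg : ∀ σ m, g (M.ρ σ m) = M''.ρ σ (g m))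
    (hinj : Function.Injective f) (hsurj : Function.Surjective g)
    (hexact : LinearMap.range f = LinearMap.ker g) :
    (finrank (ZMod p) ↥M.ρ.invariants : ℤ) - finrank (ZMod p) ↥(continuousH1S S M)
        + finrank (ZMod p) (continuousH2S S M)
      = ((finrank (ZMod p) ↥M'.ρ.invariants : ℤ) - finrank (ZMod p) ↥(continuousH1S S M')
          + finrank (ZMod p) (continuousH2S S M'))
        + ((finrank (ZMod p) ↥M''.ρ.invariants : ℤ) - finrank (ZMod p) ↥(continuousH1S S M'')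
          + finrank (ZMod p) (continuousH2S S M'')) := by
  classical
  have hfd' : FiniteDimensional (ZMod p) M' := FiniteDimensional.of_injective f hinj
  have hfd'' : FiniteDimensional (ZMod p) M'' := Module.Finite.of_surjective g hsurj
  have hsm' := s56t_hsm_of_injective f hf hinj hsm
  have hMur' := s56t_hMur_of_injective f hf hinj hMur
  have hsm'' := s56t_hsm_of_surjective g hg hsurj hsm
  have hMur'' := s56t_hMur_of_surjective g hg hsurj hMur
  obtain ⟨t, ht⟩ := LinearMap.exists_leftInverse_of_injective f (LinearMap.ker_eq_bot.2 hinj)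
  obtain ⟨s, hs⟩ := LinearMap.exists_rightInverse_of_surjective g
    (LinearMap.range_eq_top.2 hsurj)
  have htf : ∀ m, t (f m) = m := fun m => LinearMap.congr_fun ht m
  have hgs : ∀ m, g (s m) = m := fun m => LinearMap.congr_fun hs m
  have hgf : ∀ m, g (f m) = 0 := fun m => by
    have : f m ∈ LinearMap.ker g := hexact ▸ LinearMap.mem_range_self f m
    exact this
  have hex : ∀ m, g m = 0 → f (t m) = m := fun m hm => by
    have : m ∈ LinearMap.range f := hexact ▸ (LinearMap.mem_ker.2 hm)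
    obtain ⟨m', rfl⟩ := this
    rw [htf]
  have i1 := s56t_finite_Z1S hp2 hpS M' hsm' hMur'
  have i2 := s56t_finite_Z1S hp2 hpS M hsm hMur
  have i3 := s56t_finite_Z1S hp2 hpS M'' hsm'' hMur''
  have i4 := s56t_finite_continuousH2S hp2 hpS M' hsm' hMur'
  have i5 := s56t_finite_continuousH2S hp2 hpS M hsm hMur
  have i6 := s56t_finite_continuousH2S hp2 hpS M'' hsm'' hMur''
  exact s56t_chi_additive_gen S f g hf hg t s htf hgs hgf hex
    (s56t_isDiscrete M' hsm' hMur') (s56t_isDiscrete M hsm hMur) (s56t_isDiscrete M'' hsm'' hMur'')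
    (s56t_H2Smap_surjective hp2 hpS M M'' hsm hMur g hg hsurj)

set_option maxHeartbeats 1600000 in
/-- **(E1), categorical form** (the unfolded shape of helper1's `s56d_ChiAdditive`): `χ_S` is
additive on short exact sequences of `Rep (ZMod p) G_ℚ` whose middle term is a finite `S`-module. -/
theorem s56t_chi_additive_cat (hp2 : p ≠ 2) (hpS : pPrime p ∈ S)
    (X : CategoryTheory.ShortComplex (Rep.{0, 0, 0} (ZMod p) GQ)) (hX : X.ShortExact)
    [FiniteDimensional (ZMod p) X.X₂]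
    (hsm : ∀ m : X.X₂, ∃ F : IntermediateField ℚ Qbar, FiniteDimensional ℚ F ∧
      ∀ s ∈ F.fixingSubgroup, X.X₂.ρ s m = m)
    (hMur : ∀ q : Nat.Primes, q ∉ S → ∀ A : ValuationSubring Qbar,
      A.LiesOverPrime (q : ℕ) → ∀ g ∈ A.inertiaSubgroupIn ℚ, X.X₂.ρ g = 1) :
    (finrank (ZMod p) ↥X.X₂.ρ.invariants : ℤ) - finrank (ZMod p) ↥(continuousH1S S X.X₂)
        + finrank (ZMod p) (continuousH2S S X.X₂)
      = ((finrank (ZMod p) ↥X.X₁.ρ.invariants : ℤ) - finrank (ZMod p) ↥(continuousH1S S X.X₁)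
          + finrank (ZMod p) (continuousH2S S X.X₁))
        + ((finrank (ZMod p) ↥X.X₃.ρ.invariants : ℤ) - finrank (ZMod p) ↥(continuousH1S S X.X₃)
          + finrank (ZMod p) (continuousH2S S X.X₃)) :=
  s56t_chi_additive hp2 hpS X.X₁ X.X₂ X.X₃ hsm hMur X.f.hom.toLinearMap X.g.hom.toLinearMap
    (fun σ m => Rep.hom_comm_apply X.f σ m) (fun σ m => Rep.hom_comm_apply X.g σ m)
    ((Rep.mono_iff_injective X.f).1 hX.mono_f) ((Rep.epi_iff_surjective X.g).1 hX.epi_g)
    ((hX.exact.map (CategoryTheory.forget₂ (Rep (ZMod p) GQ) (ModuleCat (ZMod p)))).moduleCat_range_eq_ker)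

end Final

end Fermat.Agent.Lib.S56

end
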