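/-
S56 programme, W4 wiring (helper9): helper1's contracts `s56d_ChiAdditiveLin` (E1) and `s56d_FinCoh`
discharged from the tail library, and **`s56d_GlobalEulerChar` from the single remaining input
`s56d_IfaceIdele`** (helper4).
-/
import Mathlib
import Fermat.Agent.Lib.S56.TailLES
import Fermat.Agent.Lib.S56.TailFinH2
import Fermat.Agent.Lib.S56.TailIfaceCohom
import Fermat.Agent.Lib.S56.DGlobal

set_option autoImplicit false
set_option linter.unusedSectionVars false
set_option linter.unusedVariables false

noncomputable section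

namespace Fermat.Agent.Lib.S56

open IntermediateField ExtCitation Module Fermat.Agent.Lib.PT groupCohomology

local notation "Qbar" => AlgebraicClosure ℚ
local notation "GQ" => (AlgebraicClosure ℚ ≃ₐ[ℚ] AlgebraicClosure ℚ)

/-- **(E1)** in helper1's shape. -/
theorem s56t_chiAdditiveLin : s56d_ChiAdditiveLin := by
  intro p _ hp2 S hpS M' M M'' _ hSM f g hf hg hinj hsurj hex
  exact s56t_chi_additive hp2 hpS M' M M'' hSM.1 hSM.2 f g hf hg hinj hsurj hex

/-- finiteness of `H¹_S`, `H²_S` in helper1's shape. -/
theorem s56t_finCoh : s56d_FinCoh := by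
  intro p _ hp2 S hpS M _ hSM
  exact ⟨s56t_finite_continuousH1S hp2 hpS M hSM.1 hSM.2,
    s56t_finite_continuousH2S hp2 hpS M hSM.1 hSM.2⟩

/-- **Tate's global Euler characteristic formula**, modulo the idele half of the cyclic case. -/
theorem s56t_globalEulerChar_of_idele (hI : s56d_IfaceIdele) : s56d_GlobalEulerChar :=
  s56d_globalEulerChar_of s56t_chiAdditiveLin s56t_finCoh
    (s56d_cyclicCase'_of_iface s56t_ifaceCohom hI)

end Fermat.Agent.Lib.S56
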