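/-
PROGRAMME W (S56), TOP ASSEMBLY (helper7, prefix `s56z_`): **(T9′) level lowering.**
A `Σ`-level-constant cocycle which vanishes on all inertia groups above the primes of `Σ \ Σ₀` is
`Σ₀`-level-constant: the stabiliser `H = {s | ∀ g, c (g s) = c g}` is an open subgroup containing those inertia
groups, and its fixed field is the new level.
-/
import Fermat.Agent.Lib.S56.IfaceTop
import Fermat.Agent.Lib.CFT.RamBridge

set_option autoImplicit false

noncomputable section

namespace Fermat.Agent.Lib.S56

open groupCohomology ExtCitation CategoryTheory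

local notation "GQ" => (AlgebraicClosure ℚ ≃ₐ[ℚ] AlgebraicClosure ℚ)

/-- the right stabiliser of a cochain. -/
def s56z_stab {X : Type*} (c : GQ → X) : Subgroup GQ where
  carrier := {s | ∀ g, c (g * s) = c g}
  mul_mem' := by
    intro a b ha hb g
    rw [← mul_assoc, hb, ha]
  one_mem' := fun g => by rw [mul_one]
  inv_mem' := by
    intro a ha g
    have := ha (g * a⁻¹)
    rw [inv_mul_cancel_right] at this
    exact this.symm

theorem s56z_mem_stab {X : Type*} (c : GQ → X) (s : GQ) : s ∈ s56z_stab c ↔ ∀ g, c (g * s) = c g :=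
  Iff.rfl

theorem s56z_levelLowering (p : ℕ) [Fact p.Prime] : s56z_LevelLowering p := by
  have := Fermat.Agent.Lib.CFT.cfg_isGalois_QBar
  intro N Sg0 Sg c hc hvan
  obtain ⟨F, ⟨hFfin, hFunr⟩, hF⟩ := hc
  have hle : F.fixingSubgroup ≤ s56z_stab c.1 := fun s hs g => hF g s hs
  have hopen : IsOpen ((s56z_stab c.1 : Subgroup GQ) : Set GQ) :=
    Subgroup.isOpen_mono hle F.fixingSubgroup_isOpen
  have hclosed : IsClosed ((s56z_stab c.1 : Subgroup GQ) : Set GQ) :=
    Subgroup.isClosed_of_isOpen _ hopen
  have hfix : (IntermediateField.fixedField (s56z_stab c.1)).fixingSubgroup = s56z_stab c.1 :=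
    InfiniteGalois.fixingSubgroup_fixedField (⟨s56z_stab c.1, hclosed⟩ : ClosedSubgroup GQ)
  have hFle : IntermediateField.fixedField (s56z_stab c.1) ≤ F := by
    have h1 : IntermediateField.fixedField (s56z_stab c.1) ≤
        IntermediateField.fixedField F.fixingSubgroup := by
      intro x hx
      rw [IntermediateField.mem_fixedField_iff] at hx ⊢
      exact fun g hg => hx g (hle hg)
    rwa [InfiniteGalois.fixedField_fixingSubgroup] at h1
  refine ⟨IntermediateField.fixedField (s56z_stab c.1), ⟨?_, fun q hq A hA σ hσ => ?_⟩,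
    fun g s hs => ?_⟩
  · exact FiniteDimensional.of_injective (IntermediateField.inclusion hFle).toLinearMap
      (IntermediateField.inclusion_injective hFle)
  · rw [hfix]
    by_cases hqS : q ∈ Sg
    · -- inertia above `q ∈ Σ \\ Σ₀`: the cocycle vanishes there
      intro g
      have h0 : c.1 σ = 0 := hvan q hqS hq A hA σ hσ
      have h1 := (mem_cocycles₁_def (A := N) c.1).1 c.2 g σ
      rw [h0, map_zero, zero_sub, neg_add_eq_zero] at h1
      exact h1
    · exact hle (hFunr q hqS A hA hσ)
  · rw [hfix] at hs
    exact hs g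

end Fermat.Agent.Lib.S56
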