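/-
PROGRAMME W (S56), TOP ASSEMBLY (helper7, prefix `s56z_`): preliminaries on `M = ad⁰ρ̄` and `M' = M^∨(1)`:
finiteness, smoothness, ramification; the places `primeLocalPlace q`; vanishing on all inertia groups above `q`.
-/
import Fermat.Agent.Lib.S56.HPrimes
import Fermat.Agent.Lib.S56.ZLevel
import Fermat.Agent.Lib.Mz.ValConj
import Fermat.Agent.Lib.PT.BridgeA
import Fermat.Agent.Lib.Frobenius.Exists

set_option autoImplicit false
set_option linter.unusedSectionVars false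

noncomputable section

namespace Fermat.Agent.Lib.S56

open groupCohomology ExtCitation CategoryTheory Module Fermat.Agent.Lib.S30

local notation "GQ" => (AlgebraicClosure ℚ ≃ₐ[ℚ] AlgebraicClosure ℚ)

section Pre

variable (p : ℕ) [Fact p.Prime] {k : Type} [Field k] [Algebra (ZMod p) k] (ρbar : ResidualGaloisRep k)

theorem s56z_M_rho_eq_one (σ : GQ) (h1 : ρbar.ρ σ = 1) : (s56z_M p ρbar).ρ σ = 1 := by
  have h3 : ρbar.ρ σ⁻¹ = 1 := by
    have := s56a_rho_inv_mul ρbar σ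
    rwa [h1, mul_one] at this
  apply LinearMap.ext
  intro Y
  apply s56h_toEnd_injective
  rw [s56h_toEnd_rho, h1, h3, one_mul, mul_one]
  rfl

theorem s56z_smooth_M : s56z_Smooth (s56z_M p ρbar) := by
  obtain ⟨L, hL, h⟩ := ρbar.factorsThroughFiniteLevel
  intro m
  refine ⟨L, hL, fun s hs => ?_⟩
  rw [s56z_M_rho_eq_one p ρbar s (h s fun x hx => (IntermediateField.mem_fixingSubgroup_iff L s).1 hs x hx)]
  rfl

theorem s56z_smooth_Md : s56z_Smooth (s56z_Md p ρbar) := by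
  obtain ⟨L, hL, h⟩ := s56h_finiteLevel_Md p ρbar
  intro m
  refine ⟨L, hL, fun s hs => ?_⟩
  rw [h s fun x hx => (IntermediateField.mem_fixingSubgroup_iff L s).1 hs x hx]
  rfl

instance s56z_finite_Md [Finite k] : Module.Finite (ZMod p) (s56z_Md p ρbar) :=
  Module.Finite.equiv (s56h_toDual p ρbar).symm

/-- the cyclotomic character is unramified outside `p`. -/
theorem s56z_cyclo_unram (q : ℕ) (hq : q.Prime) (hne : q ≠ p)
    (P : ValuationSubring (AlgebraicClosure ℚ)) (hP : P.LiesOverPrime q)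
    (σ : GQ) (hσ : σ ∈ P.inertiaSubgroupIn ℚ) : cycloChar p σ = 1 := by
  apply s56h_cyclo_of_chiN p 0 σ
  unfold s56h_chiN
  rw [MonoidHom.comp_apply, s30c_unram p q hq hne P hP σ hσ, map_one]

theorem s56z_unr_M (Sg : Finset Nat.Primes)
    (h : ∀ q : Nat.Primes, q ∉ Sg → ρbar.IsUnramifiedAt q) : s56z_UnrOutside (s56z_M p ρbar) Sg :=
  fun q hq A hA g hg => s56z_M_rho_eq_one p ρbar g (h q hq A hA g hg)

theorem s56z_unr_Md (Sg : Finset Nat.Primes) (hp : pPrime p ∈ Sg)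
    (h : ∀ q : Nat.Primes, q ∉ Sg → ρbar.IsUnramifiedAt q) : s56z_UnrOutside (s56z_Md p ρbar) Sg := by
  intro q hq A hA g hg
  have hne : (q : ℕ) ≠ p := by
    intro h'
    apply hq
    have : q = pPrime p := Subtype.ext h'
    rw [this]; exact hp
  exact s56h_Md_rho_eq_one p ρbar g (h q hq A hA g hg) (s56z_cyclo_unram p q q.2 hne A hA g hg)

end Pre

section Places

theorem s56z_place_liesOver (q : Nat.Primes) : (primeLocalPlace q).LiesOverPrime (q : ℕ) := by
  have : Fact (q : ℕ).Prime := ⟨q.2⟩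
  exact Fermat.Agent.Lib.PT.ptg_padicPlace_liesOver (q := (q : ℕ))

theorem s56z_exists_frob (q : Nat.Primes) : ∃ φ : GQ, (primeLocalPlace q).IsFrobeniusAt φ (q : ℕ) :=
  Fermat.Agent.Lib.Frobenius.exists_isFrobeniusAt_of_liesOverPrime _ _ q.2 (s56z_place_liesOver q)

/-- a cocycle of a module unramified at `q` which vanishes on the inertia group of one place over `q` vanishes on
the inertia groups of all places over `q`. -/
theorem s56z_vanish_all {F : Type} [Field F] (N : Rep.{0} F GQ) (q : ℕ) (hq : q.Prime)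
    (hN : ∀ A : ValuationSubring (AlgebraicClosure ℚ), A.LiesOverPrime q →
      ∀ g ∈ A.inertiaSubgroupIn ℚ, N.ρ g = 1)
    (c : cocycles₁ N) (P₀ : ValuationSubring (AlgebraicClosure ℚ)) (hP₀ : P₀.LiesOverPrime q)
    (h0 : ∀ σ ∈ P₀.inertiaSubgroupIn ℚ, c.1 σ = 0)
    (P : ValuationSubring (AlgebraicClosure ℚ)) (hP : P.LiesOverPrime q)
    (τ : GQ) (hτ : τ ∈ P.inertiaSubgroupIn ℚ) : c.1 τ = 0 := by
  obtain ⟨g, hg⟩ := Fermat.Agent.Lib.Mz.ptm_inertia_conj hq P₀ P hP₀ hP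
  have h1 := hg τ hτ
  have h2 := h0 _ h1
  have h3 : N.ρ (g * τ * g⁻¹) = 1 := hN P₀ hP₀ _ h1
  -- `c (g τ g⁻¹) = g • c τ - (g τ g⁻¹ - 1) • c g`
  have h4 : c.1 (g * τ * g⁻¹) = N.ρ g (c.1 τ) - (N.ρ (g * τ * g⁻¹) - 1) (c.1 g) :=
    s56h_coc_conj' N c g τ
  rw [h2, h3, sub_self, LinearMap.zero_apply, sub_zero] at h4
  have h5 := congrArg (N.ρ g⁻¹) h4
  rw [map_zero, ← Module.End.mul_apply, ← map_mul, inv_mul_cancel, map_one, Module.End.one_apply] at h5
  exact h5.symm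

end Places

end Fermat.Agent.Lib.S56
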