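/-
S56 programme, W4 → W2 → TOP wiring (helper9): helper7's contract **(T1′) `s56z_GWleStmt p ρbar`**
from helper4's `s56b_gwle`, helper1's `s56d_euler'_of` and `s56d_GlobalEulerChar`
(modulo the single remaining input `s56d_IfaceIdele`).
-/
import Mathlib
import Fermat.Agent.Lib.S56.TailWire
import Fermat.Agent.Lib.S56.DEulerAdapter
import Fermat.Agent.Lib.S56.BTop
import Fermat.Agent.Lib.S56.BIdeleHN
import Fermat.Agent.Lib.S56.ZPre

set_option autoImplicit false
set_option linter.unusedSectionVars false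
set_option linter.unusedVariables false

noncomputable section

namespace Fermat.Agent.Lib.S56

open IntermediateField ExtCitation Module Fermat.Agent.Lib.PT groupCohomology

local notation "Qbar" => AlgebraicClosure ℚ
local notation "GQ" => (AlgebraicClosure ℚ ≃ₐ[ℚ] AlgebraicClosure ℚ)

/-- **(T1′)** Greenberg–Wiles upper bound with perfect local pairings for `M = ad⁰ρ̄`, from Tate's
global Euler characteristic formula. -/
theorem s56t_gwleStmt_of_euler (hT : s56d_GlobalEulerChar) (p : ℕ) [Fact p.Prime] (hp2 : p ≠ 2)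
    {k : Type} [Field k] [Algebra (ZMod p) k] [Finite k] (ρbar : ResidualGaloisRep k) :
    s56z_GWleStmt p ρbar := by
  intro Sg hpS hunr
  have hsm := s56z_smooth_M p ρbar
  obtain ⟨B, hB1, hB2⟩ := s56b_gwle hp2 hpS (s56z_M p ρbar) hsm hunr
    (s56d_euler'_of hT hp2 hpS (s56z_M p ρbar) hsm hunr)
  exact ⟨B, hB1, hB2⟩

/-- **(T1′)** modulo the idele half of the cyclic case. -/
theorem s56t_gwleStmt_of_idele (hI : s56d_IfaceIdele) (p : ℕ) [Fact p.Prime] (hp2 : p ≠ 2)
    {k : Type} [Field k] [Algebra (ZMod p) k] [Finite k] (ρbar : ResidualGaloisRep k) :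
    s56z_GWleStmt p ρbar :=
  s56t_gwleStmt_of_euler (s56t_globalEulerChar_of_idele hI) p hp2 ρbar

/-- **TATE'S GLOBAL EULER CHARACTERISTIC FORMULA over `ℚ`** (W4 complete): for `p` odd, `p ∈ S`,
`M` a finite `𝔽_p[G_ℚ]`-module, smooth and unramified outside `S`:
`h⁰(M) − h¹_S(M) + h²_S(M) = dim M^{c=1} − dim M`. -/
theorem s56t_globalEulerChar : s56d_GlobalEulerChar :=
  s56t_globalEulerChar_of_idele s56b_ifaceIdele

/-- **(E)**, the W4 input of the top assembly (the body of helper7's `s56z_EulerStmt p ρbar`,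
verbatim): the Euler characteristic bound for `M' = (ad⁰ρ̄)^∨(1)`. -/
theorem s56t_euler (p : ℕ) [Fact p.Prime] (hp2 : p ≠ 2)
    {k : Type} [Field k] [Algebra (ZMod p) k] [Finite k] (ρbar : ResidualGaloisRep k) :
    ∀ (Sg : Finset Nat.Primes), pPrime p ∈ Sg → s56z_UnrOutside (s56z_M p ρbar) Sg →
      finrank (ZMod p) (s56b_dual (s56z_M p ρbar)).ρ.invariants +
          finrank (ZMod p) (continuousH2S Sg (s56b_dual (s56z_M p ρbar))) +
          finrank (ZMod p) (s56z_M p ρbar) ≤
        finrank (ZMod p) (s56b_H1 Sg (s56b_dual (s56z_M p ρbar))) +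
          finrank (ZMod p) (Rep.res archimedeanLoc (s56b_dual (s56z_M p ρbar))).ρ.invariants :=
  fun Sg hpS hur =>
    s56d_euler'_of s56t_globalEulerChar hp2 hpS (s56z_M p ρbar) (s56z_smooth_M p ρbar) hur

/-- **(T1′)** unconditional. -/
theorem s56t_gwleStmt (p : ℕ) [Fact p.Prime] (hp2 : p ≠ 2)
    {k : Type} [Field k] [Algebra (ZMod p) k] [Finite k] (ρbar : ResidualGaloisRep k) :
    s56z_GWleStmt p ρbar :=
  s56t_gwleStmt_of_euler s56t_globalEulerChar p hp2 ρbar

/-- **(T10)** finiteness of `H¹(G_Σ, N)` in helper7's shape. -/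
theorem s56t_finStmt : s56z_FinStmt := by
  intro p _ hp2 Sg hpS N _ hsm hunr
  exact s56t_finite_continuousH1S hp2 hpS N hsm hunr

end Fermat.Agent.Lib.S56
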