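/-
PROGRAMME W (S56), TOP ASSEMBLY (helper7, prefix `s56z_`): **the wiring**.  Every wall's theorem is plugged into its
contract of `IfaceTop.lean`; S56 follows verbatim from the two inputs which are still being proved:
* `s56z_EulerStmt p ρbar` [W4]: Tate's global Euler characteristic LOWER bound for `M' = (ad⁰ρ̄)^∨(1)`;
* `s56z_LpBound p ρbar (fun ρ => ρ.DetIsCyclotomic p ∧ ρ.IsFlatAt p)` [W8]: the flat local condition.
-/
import Fermat.Agent.Lib.S56.ZTop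
import Fermat.Agent.Lib.S56.IfaceW1
import Fermat.Agent.Lib.S56.AOrdBound
import Fermat.Agent.Lib.S56.CKummerFinal
import Fermat.Agent.Lib.S56.BTop
import Fermat.Agent.Lib.S56.TailFin
import Fermat.Agent.Lib.S56.GTop
import Fermat.Agent.Lib.S56.EGrpMain

set_option autoImplicit false
set_option linter.unusedSectionVars false

noncomputable section

namespace Fermat.Agent.Lib.S56

open groupCohomology ExtCitation CategoryTheory Module Polynomial IsLocalRing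

local notation "GQ" => (AlgebraicClosure ℚ ≃ₐ[ℚ] AlgebraicClosure ℚ)

section Contracts

variable (p : ℕ) [Fact p.Prime] {k : Type} [Field k] [Algebra (ZMod p) k] (ρbar : ResidualGaloisRep k)

/-- **[W4] the open input**: the Euler characteristic lower bound for `M' = (ad⁰ρ̄)^∨(1)`, for every `Σ ∋ p` outside
of which `ad⁰ρ̄` is unramified. -/
def s56z_EulerStmt : Prop :=
  ∀ (Sg : Finset Nat.Primes), pPrime p ∈ Sg → s56z_UnrOutside (s56z_M p ρbar) Sg →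
    finrank (ZMod p) (s56b_dual (s56z_M p ρbar)).ρ.invariants +
        finrank (ZMod p) (continuousH2S Sg (s56b_dual (s56z_M p ρbar))) +
        finrank (ZMod p) (s56z_M p ρbar) ≤
      finrank (ZMod p) (s56b_H1 Sg (s56b_dual (s56z_M p ρbar))) +
        finrank (ZMod p) (Rep.res archimedeanLoc (s56b_dual (s56z_M p ρbar))).ρ.invariants

/-- (T1′) from W2 (helper4's `s56b_gwle`) and the Euler characteristic bound. -/
theorem s56z_gwleStmt [Finite k] (hp2 : p ≠ 2) (hE : s56z_EulerStmt p ρbar) : s56z_GWleStmt p ρbar :=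
  fun Sg hpSg hur => by
    obtain ⟨B, hB, hle⟩ := s56b_gwle hp2 hpSg (s56z_M p ρbar) (s56z_smooth_M p ρbar) hur (hE Sg hpSg hur)
    exact ⟨B, hB, fun L => hle L⟩

/-- (T10) from helper9's finiteness theorem. -/
theorem s56z_finStmt : s56z_FinStmt :=
  fun _p _ hp2 _Sg hpSg N _ hsm hur => s56t_finite_continuousH1S hp2 hpSg N hsm hur

/-- (T2) for the strict-ordinary condition: helper2 + helper5 + helper3. -/
theorem s56z_lpBound_ord [Finite k] (hp2 : p ≠ 2) :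
    s56z_LpBound p ρbar (fun ρ => ρ.DetIsCyclotomic p ∧ ρ.IsStrictOrdinaryAt p) := by
  have : Module.Finite (ZMod p) k := Module.Finite.of_finite
  obtain ⟨hfin, hd⟩ := s56c_finrank_H1_of_spec hp2 k (s56a_chiP p k) (s56a_chiP_spec p k)
  exact s56a_lpBound_ord p ρbar hp2 hfin hd

end Contracts

section Final

variable {𝒪 : Type} [CommRing 𝒪] [IsDomain 𝒪] [IsDiscreteValuationRing 𝒪]
  [IsAdicComplete (maximalIdeal 𝒪) 𝒪] [Finite (ResidueField 𝒪)]

/-- the residue field has characteristic `p`. -/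
theorem s56z_charP (p : ℕ) [Fact p.Prime] (hp𝒪 : (p : 𝒪) ∈ maximalIdeal 𝒪) : CharP (ResidueField 𝒪) p := by
  rw [CharP.charP_iff_prime_eq_zero (Fact.out : p.Prime)]
  have h := (IsLocalRing.residue_eq_zero_iff (p : 𝒪)).2 hp𝒪
  rwa [map_natCast] at h

/-- **S56 from the two open inputs**, for ANY `𝔽_p`-algebra structure on the residue field. -/
theorem s56z_result_of_inputs
    (p : ℕ) [Fact p.Prime] [Algebra (ZMod p) (ResidueField 𝒪)] (hp2 : p ≠ 2) (hp𝒪 : (p : 𝒪) ∈ maximalIdeal 𝒪)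
    (ρbar : ResidualGaloisRep (ResidueField 𝒪))
    (habs : ρbar.IsAbsolutelyIrreducible)
    (hdet : (GaloisRepAdic.ofResidualGaloisRep ρbar).DetIsCyclotomic p)
    (hsplit : ∀ σ : AlgebraicClosure ℚ ≃ₐ[ℚ] AlgebraicClosure ℚ,
      ∃ α β : ResidueField 𝒪, LinearMap.charpoly (ρbar.ρ σ) = (X - C α) * (X - C β))
    (hTW : ∀ (K : Type) [Field K] [Algebra (ResidueField 𝒪) K]
      (G : Subgroup (AlgebraicClosure ℚ ≃ₐ[ℚ] AlgebraicClosure ℚ)), G.index = 2 →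
      ∀ V : Submodule K (ρbar.baseChange K).V,
        (∀ σ ∈ G, ∀ x ∈ V, (ρbar.baseChange K).ρ σ x ∈ V) → V = ⊥ ∨ V = ⊤)
    (S Smin : Finset ℕ) (hpSmin : p ∈ Smin) (hSmin : Smin ⊆ S)
    (hmin : ∀ q : ℕ, q.Prime → q ≠ p → (q ∈ Smin ↔ ¬ ρbar.IsUnramifiedAt q))
    (hE : s56z_EulerStmt p ρbar)
    (hF : s56z_LpBound p ρbar (fun ρ => ρ.DetIsCyclotomic p ∧ ρ.IsFlatAt p)) :
    (∃ r : ℕ, ∀ n : ℕ, ∃ qv : Fin r → ℕ, Function.Injective qv ∧
      (∀ i, (qv i).Prime ∧ qv i ∉ S ∧ p ^ (n + 1) ∣ qv i - 1) ∧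
      (∀ i, ∀ P : ValuationSubring (AlgebraicClosure ℚ), P.LiesOverPrime (qv i) →
        ∀ φ : AlgebraicClosure ℚ ≃ₐ[ℚ] AlgebraicClosure ℚ, P.IsFrobeniusAt φ (qv i) →
          ∃ α β : ResidueField 𝒪, α ≠ β ∧ LinearMap.charpoly (ρbar.ρ φ) = (X - C α) * (X - C β)) ∧
      ∀ DQ : GaloisRep.DeformationRingData 𝒪 ρbar (fun _A _ _ _ ρ =>
          GaloisRep.strictOrdinaryCondition 𝒪 p (Smin ∪ Finset.univ.image qv) ρ ∧
            ∀ q ∈ Smin, q.Prime → q ≠ p → ρ.IsUnipotentOnInertiaAt q),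
        ∃ γ : MvPowerSeries (Fin r) 𝒪 →ₐ[𝒪] DQ.R, Function.Surjective γ) ∧
    (∃ r : ℕ, ∀ n : ℕ, ∃ qv : Fin r → ℕ, Function.Injective qv ∧
      (∀ i, (qv i).Prime ∧ qv i ∉ S ∧ p ^ (n + 1) ∣ qv i - 1) ∧
      (∀ i, ∀ P : ValuationSubring (AlgebraicClosure ℚ), P.LiesOverPrime (qv i) →
        ∀ φ : AlgebraicClosure ℚ ≃ₐ[ℚ] AlgebraicClosure ℚ, P.IsFrobeniusAt φ (qv i) →
          ∃ α β : ResidueField 𝒪, α ≠ β ∧ LinearMap.charpoly (ρbar.ρ φ) = (X - C α) * (X - C β)) ∧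
      ∀ DQ : GaloisRep.DeformationRingData 𝒪 ρbar (fun _A _ _ _ ρ =>
          GaloisRep.flatCondition 𝒪 p (Smin ∪ Finset.univ.image qv) ρ ∧
            ∀ q ∈ Smin, q.Prime → q ≠ p → ρ.IsUnipotentOnInertiaAt q),
        ∃ γ : MvPowerSeries (Fin r) 𝒪 →ₐ[𝒪] DQ.R, Function.Surjective γ) := by
  have : CharP (ResidueField 𝒪) p := s56z_charP p hp𝒪
  have : Module.Finite (ZMod p) (ResidueField 𝒪) := Module.Finite.of_finite
  have hT1 := s56z_gwleStmt p ρbar hp2 hE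
  have hT10 := s56z_finStmt
  have hT3 : s56z_UnrBound := s56g_ifaceUnrLe
  have hT4 := s56g_twBound p ρbar hp2
  have hT5 := s56a_globInv p ρbar hp2 habs hdet
  have hT6 := s56a_levelOfUnr ρbar
  have hT7 := s56g_unipCob p ρbar hp2
  have hT8 := s56g_locZeroInertia_top p
  have hDet := s56g_ifaceDetect
  have hT9 := s56h_primesStmt p ρbar s56e_GroupLemma_holds hp2 habs hdet hsplit hTW S
  exact s56a_result_of_selmer p hp2 hp𝒪 ρbar hdet S Smin
    (s56z_selmerStatement_ord p ρbar hp2 S Smin hpSmin hSmin hmin hT1 hT10 (s56z_lpBound_ord p ρbar hp2)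
      hT3 hT4 hT5 hT6 hT7 hT8 hDet hT9)
    (s56z_selmerStatement_flat p ρbar hp2 S Smin hpSmin hSmin hmin hT1 hT10 hF
      hT3 hT4 hT5 hT6 hT7 hT8 hDet hT9)

end Final

end Fermat.Agent.Lib.S56
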