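/-
S56 programme (helper9): **the W4 input (E) of helper7's `s56z_result_of_inputs`, discharged**:
`s56t_eulerStmt : s56z_EulerStmt p ρbar` (for `p` odd and a finite residue field).
-/
import Mathlib
import Fermat.Agent.Lib.S56.TailWireTop
import Fermat.Agent.Lib.S56.ZWire

set_option autoImplicit false
set_option linter.unusedSectionVars false
set_option linter.unusedVariables false

noncomputable section

namespace Fermat.Agent.Lib.S56

/-- **(E)** in helper7's shape. -/
theorem s56t_eulerStmt (p : ℕ) [Fact p.Prime] (hp2 : p ≠ 2)
    {k : Type} [Field k] [Algebra (ZMod p) k] [Finite k] (ρbar : ResidualGaloisRep k) :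
    s56z_EulerStmt p ρbar :=
  s56t_euler p hp2 ρbar

end Fermat.Agent.Lib.S56
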