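/-
PROGRAMME W (S56), TOP ASSEMBLY (helper7, prefix `s56z_`): **the dual Selmer group with Taylor–Wiles primes vanishes.**
-/
import Fermat.Agent.Lib.S56.ZPre

set_option autoImplicit false
set_option linter.unusedSectionVars false

noncomputable section

namespace Fermat.Agent.Lib.S56

open groupCohomology ExtCitation CategoryTheory Module

local notation "GQ" => (AlgebraicClosure ℚ ≃ₐ[ℚ] AlgebraicClosure ℚ)

section Generic

variable {F : Type} [Field F] {P P' : Type} [AddCommGroup P] [Module F P] [AddCommGroup P'] [Module F P']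

theorem s56z_eq_zero_of_mem_orth_top (B : P →ₗ[F] P' →ₗ[F] F) (hB : s56b_Perfect B) (y : P')
    (h : y ∈ s56b_orth B ⊤) : y = 0 :=
  hB.right y fun x => (s56b_mem_orth B ⊤ y).1 h x Submodule.mem_top

end Generic

section DSel

variable (p : ℕ) [Fact p.Prime] {k : Type} [Field k] [Algebra (ZMod p) k] [Finite k]
  (ρbar : ResidualGaloisRep k)

theorem s56z_mem_prm (T : Finset ℕ) (q : Nat.Primes) : q ∈ s56z_prm T ↔ (q : ℕ) ∈ T :=
  Finset.mem_subtype

theorem s56z_dsel_eq_bot (hT8 : s56z_LocZeroInertia p) (hDet : s56g_IfaceDetect)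
    (Smin : Finset ℕ) (hpSmin : p ∈ Smin)
    (hunr : ∀ q : ℕ, q.Prime → q ∉ Smin → ρbar.IsUnramifiedAt q)
    (r : ℕ) (qv : Fin r → ℕ) (hqv : ∀ i, (qv i).Prime ∧ qv i ∉ Smin)
    (hkill : ∀ y ∈ continuousH1S (s56z_prm Smin) (s56z_Md p ρbar),
      (∀ i, s56z_LocTrivAt p (s56z_Md p ρbar) (qv i) y) → y = 0)
    (Pp : GaloisRepAdic (DualNumber k) → Prop)
    (B : s56b_Pairings (s56z_prm (Smin ∪ Finset.univ.image qv)) (s56z_M p ρbar))
    (hB : s56b_LocalDuality B) :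
    s56b_selmer (s56b_loc (s56z_prm (Smin ∪ Finset.univ.image qv)) (s56z_Md p ρbar))
      (fun q => s56b_orth (B q)
        (s56z_L p ρbar Pp (s56z_prm Smin) (s56z_prm (Smin ∪ Finset.univ.image qv)) q)) = ⊥ := by
  classical
  have hpp : p.Prime := Fact.out
  rw [eq_bot_iff]
  intro y hy
  have hy : ∀ q, s56b_loc (s56z_prm (Smin ∪ Finset.univ.image qv)) (s56z_Md p ρbar) y q ∈
      s56b_orth (B q)
        (s56z_L p ρbar Pp (s56z_prm Smin) (s56z_prm (Smin ∪ Finset.univ.image qv)) q) :=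
    fun q => hy q (Set.mem_univ q)
  rw [Submodule.mem_bot]
  -- the Taylor–Wiles primes as elements of `Σ`
  have hne : ∀ i, qv i ≠ p := fun i h => (hqv i).2 (by rw [h]; exact hpSmin)
  have hmemSg : ∀ i, (⟨qv i, (hqv i).1⟩ : Nat.Primes) ∈ s56z_prm (Smin ∪ Finset.univ.image qv) := fun i =>
    (s56z_mem_prm _ _).2
      (Finset.mem_union_right _ (Finset.mem_image_of_mem qv (Finset.mem_univ i)))
  -- the localisation of `y` at a Taylor–Wiles prime vanishes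
  have hloc0 : ∀ i, s56b_loc (s56z_prm (Smin ∪ Finset.univ.image qv)) (s56z_Md p ρbar) y
      ⟨⟨qv i, (hqv i).1⟩, hmemSg i⟩ = 0 := by
    intro i
    have h1 := hy ⟨⟨qv i, (hqv i).1⟩, hmemSg i⟩
    have hL : s56z_L p ρbar Pp (s56z_prm Smin) (s56z_prm (Smin ∪ Finset.univ.image qv))
        ⟨⟨qv i, (hqv i).1⟩, hmemSg i⟩ = ⊤ := by
      unfold s56z_L
      rw [if_neg, if_neg]
      · exact fun h => (hqv i).2 ((s56z_mem_prm _ _).1 h)
      · intro h
        exact hne i (congrArg (fun q : Nat.Primes => (q : ℕ)) h)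
    rw [hL] at h1
    exact s56z_eq_zero_of_mem_orth_top (B ⟨⟨qv i, (hqv i).1⟩, hmemSg i⟩)
      (hB ⟨⟨qv i, (hqv i).1⟩, hmemSg i⟩) _ h1
  -- a cocycle of `y`
  obtain ⟨c, hcS, hcy⟩ := (mem_continuousH1S_iff _ (s56z_Md p ρbar) y.1).1 y.2
  have hloc0' : ∀ i, (s56g_loc ⟨qv i, (hqv i).1⟩ (s56z_Md p ρbar)).hom
      ((H1π (s56z_Md p ρbar)).hom c) = 0 := by
    intro i
    have h1 := congrArg Subtype.val (hloc0 i)
    rw [s56b_loc_coe, ← hcy] at h1
    exact h1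
  have hunrMd : ∀ i, ∀ A : ValuationSubring (AlgebraicClosure ℚ), A.LiesOverPrime (qv i) →
      ∀ g ∈ A.inertiaSubgroupIn ℚ, (s56z_Md p ρbar).ρ g = 1 := fun i A hA g hg =>
    s56h_Md_rho_eq_one p ρbar g (hunr (qv i) (hqv i).1 (hqv i).2 A hA g hg)
      (s56z_cyclo_unram p (qv i) (hqv i).1 (hne i) A hA g hg)
  have hclev : IsLevelConstant₁ (MonoidHom.id GQ) c.1 := hcS.isLevelConstant₁
  -- the cocycle vanishes on the inertia groups above the Taylor–Wiles primes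
  have hvan0 : ∀ i, ∀ σ ∈ (primeLocalPlace ⟨qv i, (hqv i).1⟩).inertiaSubgroupIn ℚ, c.1 σ = 0 := fun i =>
    hT8 ⟨qv i, (hqv i).1⟩ (s56z_Md p ρbar) (s56z_smooth_Md p ρbar)
      (fun σ hσ => hunrMd i _ (s56z_place_liesOver ⟨qv i, (hqv i).1⟩) σ hσ) c hclev (hloc0' i)
  have hvan : ∀ i, ∀ P : ValuationSubring (AlgebraicClosure ℚ), P.LiesOverPrime (qv i) →
      ∀ σ ∈ P.inertiaSubgroupIn ℚ, c.1 σ = 0 := fun i P hP σ hσ =>
    s56z_vanish_all (s56z_Md p ρbar) (qv i) (hqv i).1 (hunrMd i) c _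
      (s56z_place_liesOver ⟨qv i, (hqv i).1⟩) (hvan0 i) P hP σ hσ
  -- level lowering
  have hc0 : IsLevelConstantS₁ (s56z_prm Smin) c.1 := by
    refine s56z_levelLowering p (s56z_Md p ρbar) (s56z_prm Smin) _ c hcS (fun q hq hq0 P hP σ hσ => ?_)
    have hq' := (s56z_mem_prm _ _).1 hq
    rcases Finset.mem_union.1 hq' with h | h
    · exact absurd ((s56z_mem_prm _ _).2 h) hq0
    · obtain ⟨i, -, hi⟩ := Finset.mem_image.1 h
      rw [← hi] at hP
      exact hvan i P hP σ hσ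
  have hyD : y.1 ∈ continuousH1S (s56z_prm Smin) (s56z_Md p ρbar) :=
    (mem_continuousH1S_iff _ _ _).2 ⟨c, hc0, hcy⟩
  -- local triviality
  have htriv : ∀ i, s56z_LocTrivAt p (s56z_Md p ρbar) (qv i) y.1 := by
    intro i
    obtain ⟨φ, hφ⟩ := s56z_exists_frob ⟨qv i, (hqv i).1⟩
    refine ⟨primeLocalPlace ⟨qv i, (hqv i).1⟩, s56z_place_liesOver ⟨qv i, (hqv i).1⟩, φ, hφ, c, hcy, ?_⟩
    obtain ⟨-, hiff⟩ := hDet (ZMod p) ⟨qv i, (hqv i).1⟩ (s56z_Md p ρbar) (s56z_smooth_Md p ρbar)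
      (fun σ hσ => hunrMd i _ (s56z_place_liesOver ⟨qv i, (hqv i).1⟩) σ hσ) φ hφ c hclev (hvan0 i)
    obtain ⟨m, hm⟩ := hiff.1 (hloc0' i)
    exact ⟨m, by rw [LinearMap.sub_apply, Module.End.one_apply]; exact hm.symm⟩
  exact Subtype.ext (hkill y.1 hyD htriv)

end DSel

end Fermat.Agent.Lib.S56
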