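/-
PROGRAMME W (S56), TOP ASSEMBLY (helper7, prefix `s56z_`): **the contracts (T1′)–(T10) give the numerical Selmer
statement of W1**, for any local condition at `p`.
-/
import Fermat.Agent.Lib.S56.ZDual
import Fermat.Agent.Lib.S56.ARes

set_option autoImplicit false
set_option linter.unusedSectionVars false

noncomputable section

namespace Fermat.Agent.Lib.S56

open groupCohomology ExtCitation CategoryTheory Module Polynomial IsLocalRing

local notation "GQ" => (AlgebraicClosure ℚ ≃ₐ[ℚ] AlgebraicClosure ℚ)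

section Generic

/-- the unramified classes are continuous classes. -/
theorem s56z_H1ur_le {F : Type} [CommRing F] (q : Nat.Primes) (N : Rep.{0} F GQ) :
    s56g_H1ur q N ≤ continuousH1 (primeLocalToGlobal q) (Rep.res (primeLocalToGlobal q) N) := by
  rintro x ⟨c, hc, -, rfl⟩
  exact (mem_continuousH1_iff _ _ _).2 ⟨c, hc, rfl⟩

/-- a global continuous cocycle which is a coboundary on the inertia group at `q` localises to an unramified class. -/
theorem s56z_loc_mem_H1ur {F : Type} [CommRing F] (q : Nat.Primes) (N : Rep.{0} F GQ)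
    (hsm : ∀ m : N, ∃ L : IntermediateField ℚ (AlgebraicClosure ℚ), FiniteDimensional ℚ L ∧
      ∀ s ∈ L.fixingSubgroup, N.ρ s m = m)
    (c : cocycles₁ N) (hc : IsLevelConstant₁ (MonoidHom.id GQ) c.1) (m : N)
    (h : ∀ σ ∈ (primeLocalPlace q).inertiaSubgroupIn ℚ, c.1 σ = N.ρ σ m - m) :
    (s56g_loc q N).hom ((H1π N).hom c) ∈ s56g_H1ur q N := by
  set b : cocycles₁ N := ⟨(d₀₁ N).hom m, coboundaries₁_le_cocycles₁ N ⟨m, rfl⟩⟩ with hb
  have hb0 : (H1π N).hom b = 0 := (H1π_eq_zero_iff b).2 ⟨m, rfl⟩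
  have e1 : (H1π N).hom (c - b) = (H1π N).hom c := by rw [map_sub, hb0, sub_zero]
  have hval : ∀ σ : GQ, (c - b).1 σ = c.1 σ - (N.ρ σ m - m) := fun σ => by
    show c.1 σ - (d₀₁ N).hom m σ = _
    rw [d₀₁_hom_apply]
  obtain ⟨L1, hL1, h1⟩ := hc
  obtain ⟨L2, hL2, h2⟩ := hsm m
  rw [← e1]
  refine ⟨mapCocycles₁ (primeLocalToGlobal q) (𝟙 (Rep.res (primeLocalToGlobal q) N)) (c - b), ?_, ?_,
    (H1π_comp_map_apply (primeLocalToGlobal q) (𝟙 (Rep.res (primeLocalToGlobal q) N)) (c - b)).symm⟩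
  · refine ⟨L1 ⊔ L2, IntermediateField.finiteDimensional_sup L1 L2, fun g s hs => ?_⟩
    have hs1 : primeLocalToGlobal q s ∈ L1.fixingSubgroup :=
      IntermediateField.fixingSubgroup_antitone (le_sup_left : L1 ≤ L1 ⊔ L2) hs
    have hs2 : primeLocalToGlobal q s ∈ L2.fixingSubgroup :=
      IntermediateField.fixingSubgroup_antitone (le_sup_right : L2 ≤ L1 ⊔ L2) hs
    rw [coe_mapCocycles₁]
    show (c - b).1 (primeLocalToGlobal q (g * s)) = (c - b).1 (primeLocalToGlobal q g)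
    rw [hval, hval, map_mul, h1 (primeLocalToGlobal q g) (primeLocalToGlobal q s) hs1, map_mul,
      Module.End.mul_apply, h2 _ hs2]
  · intro τ hτ
    rw [coe_mapCocycles₁]
    show (c - b).1 (primeLocalToGlobal q τ) = 0
    rw [hval, h _ hτ, sub_self]

end Generic

section Bounds

variable (p : ℕ) [Fact p.Prime] {k : Type} [Field k] [Algebra (ZMod p) k] [Finite k]
  (ρbar : ResidualGaloisRep k)

/-- the local bound at a prime of `Σ₀ \ {p}`. -/
theorem s56z_bound_ur (hT3 : s56z_UnrBound) (q : Nat.Primes) :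
    finrank (ZMod p) ↥(s56z_Lur p ρbar q) ≤
      finrank (ZMod p) ↥(Rep.res (primeLocalToGlobal q) (s56z_M p ρbar)).ρ.invariants := by
  have h1 := hT3 (ZMod p) q (s56z_M p ρbar) (s56z_smooth_M p ρbar)
  have h2 : finrank (ZMod p) ↥(s56z_Lur p ρbar q) = finrank (ZMod p) ↥(s56g_H1ur q (s56z_M p ρbar)) :=
    (Submodule.comapSubtypeEquivOfLe (s56z_H1ur_le q (s56z_M p ρbar))).finrank_eq
  rw [h2]
  exact h1

end Bounds

theorem s56z_arith (a b s0 arch dsel inv sL d r : ℕ) (h1 : a + b + s0 + arch ≤ dsel + inv + sL)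
    (h2 : dsel = 0) (h3 : inv = 0) (h4 : d ≤ arch) (h5 : sL ≤ s0 + (d + d * r)) : a ≤ d * r := by
  omega

section Count

variable (p : ℕ) [Fact p.Prime] {k : Type} [Field k] [Algebra (ZMod p) k] [Finite k]
  (ρbar : ResidualGaloisRep k)

theorem s56z_count
    (Smin : Finset ℕ) (hpSmin : p ∈ Smin)
    (hunr : ∀ q : ℕ, q.Prime → q ∉ Smin → ρbar.IsUnramifiedAt q)
    (Pp : GaloisRepAdic (DualNumber k) → Prop)
    (hT1 : s56z_GWleStmt p ρbar)
    (hT2 : s56z_LpBound p ρbar Pp) (hT3 : s56z_UnrBound) (hT4 : s56z_TWBound p ρbar)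
    (hT5 : s56z_GlobInv p ρbar)
    (hT8 : s56z_LocZeroInertia p) (hDet : s56g_IfaceDetect)
    (r n : ℕ) (qv : Fin r → ℕ)
    (hqv : ∀ i, (qv i).Prime ∧ qv i ∉ Smin ∧ p ^ (n + 1) ∣ qv i - 1)
    (heig : ∀ i, ∀ P : ValuationSubring (AlgebraicClosure ℚ), P.LiesOverPrime (qv i) →
        ∀ φ : GQ, P.IsFrobeniusAt φ (qv i) →
          ∃ α β : k, α ≠ β ∧ LinearMap.charpoly (ρbar.ρ φ) = (X - C α) * (X - C β))
    (hkill : ∀ y ∈ continuousH1S (s56z_prm Smin) (s56z_Md p ρbar),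
      (∀ i, s56z_LocTrivAt p (s56z_Md p ρbar) (qv i) y) → y = 0) :
    finrank (ZMod p) ↥(s56z_Sel p ρbar Pp (s56z_prm Smin) (s56z_prm (Smin ∪ Finset.univ.image qv))) ≤
      finrank (ZMod p) k * r := by
  classical
  have hpp : p.Prime := Fact.out
  set Sg : Finset Nat.Primes := s56z_prm (Smin ∪ Finset.univ.image qv) with hSg
  have hpSg : pPrime p ∈ Sg := (s56z_mem_prm _ _).2 (Finset.mem_union_left _ hpSmin)
  have hqvS : ∀ i, (qv i).Prime ∧ qv i ∉ Smin := fun i => ⟨(hqv i).1, (hqv i).2.1⟩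
  have hunrSg : ∀ q : Nat.Primes, q ∉ Sg → ρbar.IsUnramifiedAt q := fun q hq =>
    hunr q q.2 (fun h => hq ((s56z_mem_prm _ _).2 (Finset.mem_union_left _ h)))
  obtain ⟨B, hB, hGW⟩ := hT1 Sg hpSg (s56z_unr_M p ρbar Sg hunrSg)
  have hD0 : finrank (ZMod p) ↥(s56b_selmer (s56b_loc Sg (s56b_dual (s56z_M p ρbar)))
      fun q => s56b_orth (B q) (s56z_L p ρbar Pp (s56z_prm Smin) Sg q)) = 0 := by
    have := s56z_dsel_eq_bot p ρbar hT8 hDet Smin hpSmin hunr r qv hqvS hkill Pp B hB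
    exact (congrArg (fun W : Submodule (ZMod p) (s56b_H1 Sg (s56z_Md p ρbar)) => finrank (ZMod p) ↥W)
      this).trans (finrank_bot _ _)
  have hgw := hGW (s56z_L p ρbar Pp (s56z_prm Smin) Sg)
  -- the local bounds
  have hloc : ∀ q : ↥Sg, finrank (ZMod p) ↥(s56z_L p ρbar Pp (s56z_prm Smin) Sg q) ≤
      finrank (ZMod p) ↥(s56b_Mq Sg (s56z_M p ρbar) q).ρ.invariants +
        ((if q.1 = pPrime p then finrank (ZMod p) k else 0) +
          (if q.1 ∉ s56z_prm Smin then finrank (ZMod p) k else 0)) := by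
    intro q
    by_cases h1 : q.1 = pPrime p
    · have hL : s56z_L p ρbar Pp (s56z_prm Smin) Sg q = s56z_Lp p ρbar Pp q.1 := by
        unfold s56z_L; rw [if_pos h1]
      rw [hL, if_pos h1]
      obtain ⟨q1, hq1⟩ := q
      dsimp only at h1 ⊢
      subst h1
      exact le_trans hT2 (Nat.add_le_add_left (Nat.le_add_right _ _) _)
    · by_cases h2 : q.1 ∈ s56z_prm Smin
      · have hL : s56z_L p ρbar Pp (s56z_prm Smin) Sg q = s56z_Lur p ρbar q.1 := by
          unfold s56z_L; rw [if_neg h1, if_pos h2]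
        rw [hL]
        exact le_trans (s56z_bound_ur p ρbar hT3 q.1) (Nat.le_add_right _ _)
      · have hL : s56z_L p ρbar Pp (s56z_prm Smin) Sg q = ⊤ := by
          unfold s56z_L; rw [if_neg h1, if_neg h2]
        rw [hL, finrank_top, if_neg h1, if_pos h2, zero_add]
        -- `q` is a Taylor–Wiles prime
        have hq' := (s56z_mem_prm _ _).1 q.2
        have hq0 : (q.1 : ℕ) ∉ Smin := fun h => h2 ((s56z_mem_prm _ _).2 h)
        rcases Finset.mem_union.1 hq' with h | h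
        · exact absurd h hq0
        · obtain ⟨i, -, hi⟩ := Finset.mem_image.1 h
          obtain ⟨φ, hφ⟩ := s56z_exists_frob q.1
          refine hT4 q.1 ?_ ?_ ⟨φ, hφ, ?_⟩
          · rw [← hi]
            exact dvd_trans (dvd_pow_self p (Nat.succ_ne_zero n)) (hqv i).2.2
          · exact fun P hP σ hσ => hunr q.1 q.1.2 hq0 P hP σ hσ
          · have := heig i (primeLocalPlace q.1) (by rw [hi]; exact s56z_place_liesOver q.1) φ
              (by rw [hi]; exact hφ)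
            exact this
  have he1 : ∑ q : ↥Sg, (if q.1 = pPrime p then finrank (ZMod p) k else 0) = finrank (ZMod p) k := by
    rw [Finset.sum_eq_single (⟨pPrime p, hpSg⟩ : ↥Sg)]
    · rw [if_pos rfl]
    · intro q _ hq
      rw [if_neg]
      intro h'
      exact hq (Subtype.ext h')
    · intro h'
      exact absurd (Finset.mem_univ _) h'
  have he2 : ∑ q : ↥Sg, (if q.1 ∉ s56z_prm Smin then finrank (ZMod p) k else 0) ≤
      finrank (ZMod p) k * r := by
    rw [← Finset.sum_filter, Finset.sum_const, smul_eq_mul, mul_comm]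
    apply Nat.mul_le_mul_left
    calc (Finset.univ.filter fun q : ↥Sg => q.1 ∉ s56z_prm Smin).card
        ≤ (Finset.univ.image qv).card := by
          refine Finset.card_le_card_of_injOn (fun q : ↥Sg => ((q.1 : Nat.Primes) : ℕ)) ?_ ?_
          · intro q hq
            have hq2 := (Finset.mem_filter.1 hq).2
            have hq' := (s56z_mem_prm _ _).1 q.2
            rcases Finset.mem_union.1 hq' with h | h
            · exact absurd ((s56z_mem_prm _ _).2 h) hq2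
            · exact h
          · intro q _ q' _ h
            exact Subtype.ext (Subtype.ext h)
      _ ≤ (Finset.univ : Finset (Fin r)).card := Finset.card_image_le
      _ = r := by rw [Finset.card_univ, Fintype.card_fin]
  have hsum : ∑ q : ↥Sg, finrank (ZMod p) ↥(s56z_L p ρbar Pp (s56z_prm Smin) Sg q) ≤
      ∑ q : ↥Sg, finrank (ZMod p) ↥(s56b_Mq Sg (s56z_M p ρbar) q).ρ.invariants +
        (finrank (ZMod p) k + finrank (ZMod p) k * r) := by
    refine le_trans (Finset.sum_le_sum fun q _ => hloc q) ?_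
    rw [Finset.sum_add_distrib, Finset.sum_add_distrib, he1]
    exact Nat.add_le_add_left (Nat.add_le_add_left he2 _) _
  exact s56z_arith _ _ _ _ _ _ _ _ _ hgw hD0 hT5.1 hT5.2 hsum

end Count

section Member

variable (p : ℕ) [Fact p.Prime] {k : Type} [Field k] [Algebra (ZMod p) k]
  (ρbar : ResidualGaloisRep k)

/-- **membership**: a first-order lift of local type `Pp`, unramified outside `Σ` and unipotent on inertia at
`Σ₀ \ {p}`, defines a class of the Selmer group `H¹_L(G_Σ, M)`. -/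
theorem s56z_cls_mem_sel (Smin Sfull : Finset ℕ)
    (hmin : ∀ q : ℕ, q.Prime → q ≠ p → (q ∈ Smin ↔ ¬ ρbar.IsUnramifiedAt q))
    (Pp : GaloisRepAdic (DualNumber k) → Prop) (hT7 : s56z_UnipCob p ρbar)
    (c : cocycles₁ (s56a_ad0 ρbar)) (hc : s56a_IsLevel c.1)
    (hcS : IsLevelConstantS₁ (s56z_prm Sfull) c.1)
    (hPp : Pp (s56a_liftRep ρbar c hc))
    (hunip : ∀ q ∈ Smin, q.Prime → q ≠ p → (s56a_liftRep ρbar c hc).IsUnipotentOnInertiaAt q) :
    s56z_cls p ρbar (s56z_prm Sfull) c hcS ∈ s56z_Sel p ρbar Pp (s56z_prm Smin) (s56z_prm Sfull) := by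
  classical
  unfold s56z_Sel s56b_selmer
  rw [Submodule.mem_comap, Submodule.mem_pi]
  intro q _
  by_cases h1 : q.1 = pPrime p
  · have hL : s56z_L p ρbar Pp (s56z_prm Smin) (s56z_prm Sfull) q = s56z_Lp p ρbar Pp q.1 := by
      unfold s56z_L; rw [if_pos h1]
    rw [hL]
    exact Submodule.subset_span ⟨c, hc, hPp, rfl⟩
  · by_cases h2 : q.1 ∈ s56z_prm Smin
    · have hL : s56z_L p ρbar Pp (s56z_prm Smin) (s56z_prm Sfull) q = s56z_Lur p ρbar q.1 := by
        unfold s56z_L; rw [if_neg h1, if_pos h2]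
      rw [hL]
      have hqS : (q.1 : ℕ) ∈ Smin := (s56z_mem_prm _ _).1 h2
      have hne : (q.1 : ℕ) ≠ p := fun h => h1 (Subtype.ext h)
      obtain ⟨m, hm⟩ := hT7 q.1 hne ((hmin q.1 q.1.2 hne).1 hqS) c hc (hunip q.1 hqS q.1.2 hne)
      show ((s56b_loc (s56z_prm Sfull) (s56z_M p ρbar) (s56z_cls p ρbar (s56z_prm Sfull) c hcS) q :
        s56b_H1q (s56z_prm Sfull) (s56z_M p ρbar) q) : H1 _) ∈ s56g_H1ur q.1 (s56z_M p ρbar)
      exact s56z_loc_mem_H1ur q.1 (s56z_M p ρbar) (s56z_smooth_M p ρbar) (s56z_coc p ρbar c)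
        hcS.isLevelConstant₁ m hm
    · have hL : s56z_L p ρbar Pp (s56z_prm Smin) (s56z_prm Sfull) q = ⊤ := by
        unfold s56z_L; rw [if_neg h1, if_neg h2]
      rw [hL]
      exact Submodule.mem_top

end Member

/-- helper2's closing lemma with the finiteness instance as an explicit argument. -/
theorem s56z_closing {F : Type} [Field F] [Finite F] {k : Type} [Field k] [Finite k] [Algebra F k]
    {G : Type} [Group G] (A : Rep.{0} k G) (X : Set (H1 A)) (W : Submodule F (H1 (s56a_resF F A)))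
    (hfin : Module.Finite F W) (hX : ∀ x ∈ X, s56a_H1Res F A x ∈ W) (r : ℕ)
    (hW : Module.finrank F W ≤ Module.finrank F k * r) :
    ∃ T : Finset (H1 A), X ⊆ ↑T ∧ T.card ≤ Nat.card k ^ r :=
  s56a_exists_finset_of_finrank_le F A X W hX r hW

section Core

variable (p : ℕ) [Fact p.Prime] {k : Type} [Field k] [Algebra (ZMod p) k] [Finite k]
  (ρbar : ResidualGaloisRep k)

/-- **THE TOP, generic form**: the contracts give the numerical Selmer statement for the lifts of local type `Pp`. -/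
theorem s56z_selmer_core (hp2 : p ≠ 2)
    (S Smin : Finset ℕ) (hpSmin : p ∈ Smin) (hSmin : Smin ⊆ S)
    (hmin : ∀ q : ℕ, q.Prime → q ≠ p → (q ∈ Smin ↔ ¬ ρbar.IsUnramifiedAt q))
    (Pp : GaloisRepAdic (DualNumber k) → Prop)
    (hT1 : s56z_GWleStmt p ρbar) (hT10 : s56z_FinStmt)
    (hT2 : s56z_LpBound p ρbar Pp) (hT3 : s56z_UnrBound) (hT4 : s56z_TWBound p ρbar)
    (hT5 : s56z_GlobInv p ρbar) (hT6 : s56z_LevelOfUnr ρbar) (hT7 : s56z_UnipCob p ρbar)
    (hT8 : s56z_LocZeroInertia p) (hDet : s56g_IfaceDetect) (hT9 : s56z_PrimesStmt p ρbar S) :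
    ∃ r : ℕ, ∀ n : ℕ, ∃ qv : Fin r → ℕ, Function.Injective qv ∧
      (∀ i, (qv i).Prime ∧ qv i ∉ S ∧ p ^ (n + 1) ∣ qv i - 1) ∧
      (∀ i, ∀ P : ValuationSubring (AlgebraicClosure ℚ), P.LiesOverPrime (qv i) →
        ∀ φ : GQ, P.IsFrobeniusAt φ (qv i) →
          ∃ α β : k, α ≠ β ∧ LinearMap.charpoly (ρbar.ρ φ) = (X - C α) * (X - C β)) ∧
      ∃ T : Finset (H1 (s56a_ad0 ρbar)),
        {x | ∃ (c : cocycles₁ (s56a_ad0 ρbar)) (hc : s56a_IsLevel c.1),
          (H1π (s56a_ad0 ρbar)).hom c = x ∧ Pp (s56a_liftRep ρbar c hc) ∧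
          (∀ q : ℕ, q.Prime → q ∉ Smin ∪ Finset.univ.image qv →
            (s56a_liftRep ρbar c hc).IsUnramifiedAt q) ∧
          (∀ q ∈ Smin, q.Prime → q ≠ p →
            (s56a_liftRep ρbar c hc).IsUnipotentOnInertiaAt q)} ⊆ ↑T ∧
        T.card ≤ Nat.card k ^ r := by
  classical
  have hpp : p.Prime := Fact.out
  have hunr : ∀ q : ℕ, q.Prime → q ∉ Smin → ρbar.IsUnramifiedAt q := fun q hq hqS => by
    have hne : q ≠ p := fun h => hqS (h ▸ hpSmin)
    by_contra hram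
    exact hqS ((hmin q hq hne).2 hram)
  have hp0 : pPrime p ∈ s56z_prm Smin := (s56z_mem_prm _ _).2 hpSmin
  have hunr0 : ∀ q : Nat.Primes, q ∉ s56z_prm Smin → ρbar.IsUnramifiedAt q := fun q hq =>
    hunr q q.2 (fun h => hq ((s56z_mem_prm _ _).2 h))
  have hfinD : Module.Finite (ZMod p) ↥(continuousH1S (s56z_prm Smin) (s56z_Md p ρbar)) :=
    hT10 p hp2 (s56z_prm Smin) hp0 (s56z_Md p ρbar) (s56z_smooth_Md p ρbar)
      (s56z_unr_Md p ρbar (s56z_prm Smin) hp0 hunr0)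
  refine ⟨finrank (ZMod p) ↥(continuousH1S (s56z_prm Smin) (s56z_Md p ρbar)), fun n => ?_⟩
  obtain ⟨qv, hinj, hqv, heig, hkill⟩ := hT9 n (continuousH1S (s56z_prm Smin) (s56z_Md p ρbar))
    (continuousH1S_le_continuousH1 _ _) hfinD
  refine ⟨qv, hinj, hqv, heig, ?_⟩
  have hqv' : ∀ i, (qv i).Prime ∧ qv i ∉ Smin ∧ p ^ (n + 1) ∣ qv i - 1 := fun i =>
    ⟨(hqv i).1, fun h => (hqv i).2.1 (hSmin h), (hqv i).2.2⟩
  have hcount := s56z_count p ρbar Smin hpSmin hunr Pp hT1 hT2 hT3 hT4 hT5 hT8 hDet _ n qv hqv' heig hkill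
  have hpSg : pPrime p ∈ s56z_prm (Smin ∪ Finset.univ.image qv) :=
    (s56z_mem_prm _ _).2 (Finset.mem_union_left _ hpSmin)
  have hunrSg : ∀ q : Nat.Primes, q ∉ s56z_prm (Smin ∪ Finset.univ.image qv) → ρbar.IsUnramifiedAt q :=
    fun q hq => hunr q q.2 (fun h => hq ((s56z_mem_prm _ _).2 (Finset.mem_union_left _ h)))
  have hfinH : Module.Finite (ZMod p)
      ↥(continuousH1S (s56z_prm (Smin ∪ Finset.univ.image qv)) (s56z_M p ρbar)) :=
    hT10 p hp2 _ hpSg (s56z_M p ρbar) (s56z_smooth_M p ρbar) (s56z_unr_M p ρbar _ hunrSg)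
  -- the image of the Selmer group in `H¹(G_ℚ, M)`
  set W : Submodule (ZMod p) (H1 (s56z_M p ρbar)) :=
    (s56z_Sel p ρbar Pp (s56z_prm Smin) (s56z_prm (Smin ∪ Finset.univ.image qv))).map
      (continuousH1S (s56z_prm (Smin ∪ Finset.univ.image qv)) (s56z_M p ρbar)).subtype with hW
  have hWfin : Module.Finite (ZMod p) ↥W := by rw [hW]; infer_instance
  have hWle : finrank (ZMod p) ↥W ≤ finrank (ZMod p) k *
      finrank (ZMod p) ↥(continuousH1S (s56z_prm Smin) (s56z_Md p ρbar)) :=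
    le_trans (Submodule.finrank_map_le _ _) hcount
  refine s56z_closing (s56a_ad0 ρbar) _ W hWfin ?_ _ hWle
  rintro x ⟨c, hc, rfl, hPp, hur, hunip⟩
  have hcS : IsLevelConstantS₁ (s56z_prm (Smin ∪ Finset.univ.image qv)) c.1 := hT6 c hc _ hur
  have hmem : (H1π (s56z_M p ρbar)).hom (s56z_coc p ρbar c) ∈ W :=
    Submodule.mem_map.2 ⟨s56z_cls p ρbar _ c hcS,
      s56z_cls_mem_sel p ρbar Smin _ hmin Pp hT7 c hc hcS hPp hunip, rfl⟩
  rw [s56a_H1Res_π]
  exact hmem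

end Core

section Final

open Fermat.Agent.Lib.Deform (dualNumberAlgebra)

variable {𝒪 : Type} [CommRing 𝒪] [IsDomain 𝒪] [IsDiscreteValuationRing 𝒪]
  [IsAdicComplete (maximalIdeal 𝒪) 𝒪] [Finite (ResidueField 𝒪)]
  (p : ℕ) [Fact p.Prime] [Algebra (ZMod p) (ResidueField 𝒪)]
  (ρbar : ResidualGaloisRep (ResidueField 𝒪))

/-- **THE TOP**: the contracts give W1's numerical Selmer statement, for every condition `cond` whose
first-order part is `Pp` + "unramified outside `Σ`". -/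
theorem s56z_selmerStatement (hp2 : p ≠ 2)
    (S Smin : Finset ℕ) (hpSmin : p ∈ Smin) (hSmin : Smin ⊆ S)
    (hmin : ∀ q : ℕ, q.Prime → q ≠ p → (q ∈ Smin ↔ ¬ ρbar.IsUnramifiedAt q))
    (Pp : GaloisRepAdic (DualNumber (ResidueField 𝒪)) → Prop)
    (cond : Finset ℕ → ∀ ⦃A : Type⦄ [CommRing A] [IsLocalRing A] [Algebra 𝒪 A],
      GaloisRepAdic A → Prop)
    (hcond : letI := dualNumberAlgebra 𝒪
      ∀ (T : Finset ℕ) (ρ : GaloisRepAdic (DualNumber (ResidueField 𝒪))), cond T ρ →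
        Pp ρ ∧ ∀ q : ℕ, q.Prime → q ∉ T → ρ.IsUnramifiedAt q)
    (hT1 : s56z_GWleStmt p ρbar) (hT10 : s56z_FinStmt)
    (hT2 : s56z_LpBound p ρbar Pp) (hT3 : s56z_UnrBound) (hT4 : s56z_TWBound p ρbar)
    (hT5 : s56z_GlobInv p ρbar) (hT6 : s56z_LevelOfUnr ρbar) (hT7 : s56z_UnipCob p ρbar)
    (hT8 : s56z_LocZeroInertia p) (hDet : s56g_IfaceDetect) (hT9 : s56z_PrimesStmt p ρbar S) :
    s56a_SelmerStatement 𝒪 ρbar p S Smin cond := by
  obtain ⟨r, hr⟩ := s56z_selmer_core p ρbar hp2 S Smin hpSmin hSmin hmin Pp hT1 hT10 hT2 hT3 hT4 hT5 hT6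
    hT7 hT8 hDet hT9
  refine ⟨r, fun n => ?_⟩
  obtain ⟨qv, h1, h2, h3, T, hT, hcard⟩ := hr n
  refine ⟨qv, h1, h2, h3, T, ?_, hcard⟩
  refine Set.Subset.trans ?_ hT
  rintro x ⟨c, hc, hx, hcnd, hunip⟩
  obtain ⟨hPp, hur⟩ := hcond _ _ hcnd
  exact ⟨c, hc, hx, hPp, hur, hunip⟩

/-- the strict-ordinary case. -/
theorem s56z_selmerStatement_ord (hp2 : p ≠ 2)
    (S Smin : Finset ℕ) (hpSmin : p ∈ Smin) (hSmin : Smin ⊆ S)
    (hmin : ∀ q : ℕ, q.Prime → q ≠ p → (q ∈ Smin ↔ ¬ ρbar.IsUnramifiedAt q))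
    (hT1 : s56z_GWleStmt p ρbar) (hT10 : s56z_FinStmt)
    (hT2 : s56z_LpBound p ρbar (fun ρ => ρ.DetIsCyclotomic p ∧ ρ.IsStrictOrdinaryAt p))
    (hT3 : s56z_UnrBound) (hT4 : s56z_TWBound p ρbar)
    (hT5 : s56z_GlobInv p ρbar) (hT6 : s56z_LevelOfUnr ρbar) (hT7 : s56z_UnipCob p ρbar)
    (hT8 : s56z_LocZeroInertia p) (hDet : s56g_IfaceDetect) (hT9 : s56z_PrimesStmt p ρbar S) :
    s56a_SelmerStatement 𝒪 ρbar p S Smin (GaloisRep.strictOrdinaryCondition 𝒪 p) :=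
  s56z_selmerStatement p ρbar hp2 S Smin hpSmin hSmin hmin _ _
    (fun _ _ h => ⟨⟨h.1, h.2.1⟩, h.2.2⟩) hT1 hT10 hT2 hT3 hT4 hT5 hT6 hT7 hT8 hDet hT9

/-- the flat case. -/
theorem s56z_selmerStatement_flat (hp2 : p ≠ 2)
    (S Smin : Finset ℕ) (hpSmin : p ∈ Smin) (hSmin : Smin ⊆ S)
    (hmin : ∀ q : ℕ, q.Prime → q ≠ p → (q ∈ Smin ↔ ¬ ρbar.IsUnramifiedAt q))
    (hT1 : s56z_GWleStmt p ρbar) (hT10 : s56z_FinStmt)
    (hT2 : s56z_LpBound p ρbar (fun ρ => ρ.DetIsCyclotomic p ∧ ρ.IsFlatAt p))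
    (hT3 : s56z_UnrBound) (hT4 : s56z_TWBound p ρbar)
    (hT5 : s56z_GlobInv p ρbar) (hT6 : s56z_LevelOfUnr ρbar) (hT7 : s56z_UnipCob p ρbar)
    (hT8 : s56z_LocZeroInertia p) (hDet : s56g_IfaceDetect) (hT9 : s56z_PrimesStmt p ρbar S) :
    s56a_SelmerStatement 𝒪 ρbar p S Smin (GaloisRep.flatCondition 𝒪 p) :=
  s56z_selmerStatement p ρbar hp2 S Smin hpSmin hSmin hmin _ _
    (fun _ _ h => ⟨⟨h.1, h.2.1⟩, h.2.2⟩) hT1 hT10 hT2 hT3 hT4 hT5 hT6 hT7 hT8 hDet hT9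

end Final

end Fermat.Agent.Lib.S56
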